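/-
BAD (bad reduction at `q ∥ N`) — top-level interface and the S34 assembly.

* `TorsionMonodromy N p` : the single statement the BAD layers have to deliver (BAD-U), in the
  Prelude's language: for `q ∥ N`, `q ≠ p` and `σ, τ` in an inertia group at `q`,
  `(τ - 1)(σ - 1) = 0` on the `p`-power torsion of `JZero N`.
* `exists_tateDatumA_monodromy_of_levelMaps` : the anemic Tate datum of the ESJ trunk
  (`ESJ/Rep/TateAsmA.lean`, same hypotheses) satisfies `S31.MonodromyA` as soon as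
  `TorsionMonodromy N p` holds.  Together with `S31.S34_ofA` this is the frozen statement S34.
-/
import Mathlib
import Fermat.Agent.ESJ.Rep.TateAsmA
import Fermat.Agent.S31.Anemic

set_option autoImplicit false

open scoped TensorProduct

namespace Fermat.Agent.BAD

open ModularCurve AlgebraicCurve Fermat.Agent.ESJ Fermat.Agent.ESJ.Rep
  Fermat.Agent.ESJ.Rep.TateAsm Fermat.Agent.ESJ.Rep.TateAsmA Fermat.Agent.Lib.TateLim

local notation "Qb" => AlgebraicClosure ℚ
local notation "GQ" => (AlgebraicClosure ℚ ≃ₐ[ℚ] AlgebraicClosure ℚ)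

/-- **BAD-U** (semistable monodromy of `J₀(N)` at a prime `q ∥ N`, on `p`-power torsion,
`p ≠ q`): for `σ, τ` in an inertia group at `q`, `(τ - 1)(σ - 1) = 0`. -/
def TorsionMonodromy (N p : ℕ) [NeZero N] : Prop :=
  ∀ q : ℕ, q.Prime → q ≠ p → q ∣ N → ¬ q ^ 2 ∣ N →
    ∀ A : ValuationSubring Qb, A.LiesOverPrime q →
      ∀ σ ∈ A.inertiaSubgroupIn ℚ, ∀ τ ∈ A.inertiaSubgroupIn ℚ,
        ∀ x : JZero N, (∃ n : ℕ, p ^ n • x = 0) →
          τ • σ • x - τ • x - σ • x + x = 0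

variable {p N : ℕ} [Fact p.Prime] [NeZero N]

/-- **TATE-ASM with monodromy**: the trunk's anemic Tate datum, built from level maps, satisfies
the monodromy clause `S31.MonodromyA` as soon as `TorsionMonodromy N p` holds. -/
theorem exists_tateDatumA_monodromy_of_levelMaps
    (Ta : Type) [AddCommGroup Ta] [Module ℤ_[p] Ta] [Module.Free ℤ_[p] Ta]
    [Module.Finite ℤ_[p] Ta]
    (hecke : Nat.Primes → Module.End ℤ_[p] Ta) (π : ℕ → Ta →+ JZero N)
    (hK : ∀ n t, π n t = 0 ↔ ∃ w : Ta, t = (p : ℤ_[p]) ^ n • w)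
    (hS : ∀ (n : ℕ) (x : JZero N), p ^ n • x = 0 → ∃ t, π n t = x)
    (hC : ∀ n t, p • π (n + 1) t = π n t)
    (hH : ∀ ℓ : Nat.Primes, ¬ (ℓ : ℕ) ∣ N → ∀ (n : ℕ) (t : Ta),
      π n (hecke ℓ t) = heckeOperatorBar N ℓ (π n t))
    (hcomm : ∀ ℓ ℓ' : Nat.Primes, Commute (hecke ℓ) (hecke ℓ'))
    (hG : HeckeGaloisCommute N) (hL : ∀ n : ℕ, TorsionFiniteLevel N (p ^ n))
    (hES : TorsionESRelation N p) (C : CmpData p N Ta hecke)
    (hU : TorsionMonodromy N p) :
    ∃ D : TateDatumA p N, Nonempty (CmpData p N D.Ta D.hecke) ∧ S31.MonodromyA D := by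
  obtain ⟨gal, h0, h1, h2, h3, h4⟩ := exists_gal Ta hecke π hK hS hC hH hG hL hES
  refine ⟨{ Ta := Ta, gal := gal, hecke := hecke, gal_continuous := h1, hecke_comm := hcomm,
            hecke_gal := h2, unram := h3, eichlerShimura := h4,
            eigen_dim := fun E _ _ _ χ => eigen_dim_of_cmpData C E χ }, ⟨C⟩, ?_⟩
  intro q hq hqp hqN hq2 P hP τ hτ
  refine linearMap_ext π hK fun n t => ?_
  have key := hU q hq hqp hqN hq2 P hP τ hτ τ hτ (π n t) (exists_pow_nsmul_eq_zero π hK n t)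
  show π n (((gal τ - 1) * (gal τ - 1)) t) = π n ((0 : Module.End ℤ_[p] Ta) t)
  have e : ((gal τ - 1) * (gal τ - 1)) t = gal τ (gal τ t) - gal τ t - gal τ t + t := by
    simp only [Module.End.mul_apply, LinearMap.sub_apply, Module.End.one_apply, map_sub]
    abel
  rw [e, LinearMap.zero_apply, map_zero, map_add, map_sub, map_sub, h0, h0]
  exact key

/-- What S34 needs in addition to the trunk, as one closed-form statement. -/
theorem tateCmpAMonodromyExists_of
    (h : ∀ (p N : ℕ) [Fact p.Prime] [NeZero N],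
      ∃ (Ta : Type) (_ : AddCommGroup Ta) (_ : Module ℤ_[p] Ta) (_ : Module.Free ℤ_[p] Ta)
        (_ : Module.Finite ℤ_[p] Ta) (hecke : Nat.Primes → Module.End ℤ_[p] Ta)
        (π : ℕ → Ta →+ JZero N),
        (∀ n t, π n t = 0 ↔ ∃ w : Ta, t = (p : ℤ_[p]) ^ n • w) ∧
        (∀ (n : ℕ) (x : JZero N), p ^ n • x = 0 → ∃ t, π n t = x) ∧
        (∀ n t, p • π (n + 1) t = π n t) ∧
        (∀ ℓ : Nat.Primes, ¬ (ℓ : ℕ) ∣ N → ∀ (n : ℕ) (t : Ta),
          π n (hecke ℓ t) = heckeOperatorBar N ℓ (π n t)) ∧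
        (∀ ℓ ℓ' : Nat.Primes, Commute (hecke ℓ) (hecke ℓ')) ∧
        Nonempty (CmpData p N Ta hecke))
    (hG : ∀ (N : ℕ) [NeZero N], HeckeGaloisCommute N)
    (hL : ∀ (N : ℕ) [NeZero N] (n : ℕ), TorsionFiniteLevel N n)
    (hES : ∀ (N p : ℕ) [NeZero N], p.Prime → TorsionESRelation N p)
    (hU : ∀ (N p : ℕ) [NeZero N], p.Prime → TorsionMonodromy N p) :
    S31.TateCmpAMonodromyExists := by
  intro p N _ _
  obtain ⟨Ta, _, _, _, _, hecke, π, hK, hS, hC, hH, hcomm, ⟨C⟩⟩ := h p N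
  exact exists_tateDatumA_monodromy_of_levelMaps Ta hecke π hK hS hC hH hcomm (hG N)
    (fun n => hL N (p ^ n)) (hES N p Fact.out) C (hU N p Fact.out)

end Fermat.Agent.BAD
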