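import Mathlib
import Fermat.Agent.Lib.Red.Deform

/-!
# Orthonormal bases over a valuation subring (Subring form)

Abstract lattice layer for the reduction theory (good fibre and nodal fibre).
Setting as in `Lib/Red/Deform.lean`: `L ⊆ F` fields, `A` a valuation subring of `L` (ANY rank,
not necessarily discrete), `O` a SUBRING of `F` with `O ∩ L = A`.

A finite family `b : ι → F` is *orthonormal* (`IsOrtho A O b`) if it is `L`-linearly
independent, lies in `O`, and `∑ c i • b i ∈ O` forces all `c i ∈ A`; i.e. for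
`V := span L (range b)` one has `V ∩ O = ⊕ A • b i`.

Main results (`V := Submodule.span L (Set.range b)` for an orthonormal `b`):

* `exists_biorth` : coordinate form — every subspace `W` of `κ → L` has a biorthogonal system
  `(w, φ)` that is integral over `A` (pivoting over a valuation ring);
* `IsOrtho.mem_iff`, `IsOrtho.dvd_iff`, `IsOrtho.small_iff` : membership in `O`, `a • O`,
  `𝔪_A • O` in coordinates;
* `IsOrtho.exists_sub` : every subspace `W ≤ V` has an orthonormal basis;
* `IsOrtho.bestApprox` : best approximation of `x ∈ V` from a subspace `W ≤ V`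
  (hypotheses `hBA1`, `hBA1'` of `Deform.exists_common_ne_zero`), `IsOrtho.bestApprox_const`
  (`hBA0`);
* `IsOrtho.angle` : bounded angle between two subspaces with zero intersection (`hangle`);
* `isOrtho_of_residual` : a family in `O` that is independent modulo `𝔪_A • O` is orthonormal;
* `exists_isOrtho_of_pivot` : orthonormal basis of a finite-dimensional `V` from pivot
  functionals.
-/

set_option autoImplicit false

namespace Fermat.Agent.BAD.Ortho

open Fermat.Agent.Lib.Red.Deform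

section Coord

variable {L : Type*} [Field L]

/-- **Pivoting over a valuation ring.**  Every subspace `W` of `κ → L` has a finite family
`w k ∈ W ∩ A^κ` and functionals `φ k` on `κ → L`, integral on `A^κ`, with
`φ k (w l) = δ_{kl}` and `x = ∑ φ k x • w k` for `x ∈ W`.  Hence `x ↦ ∑ φ k x • w k` is an
`A`-integral projection onto `W` and `w` is an orthonormal basis of `W`. -/
theorem exists_biorth (A : ValuationSubring L) {κ : Type*} [Fintype κ]
    (W : Submodule L (κ → L)) :
    ∃ (ι : Type) (_ : Fintype ι) (w : ι → κ → L) (φ : ι → ((κ → L) →ₗ[L] L)),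
      (∀ k, w k ∈ W) ∧ (∀ k i, w k i ∈ A) ∧ (∀ k x, (∀ i, x i ∈ A) → φ k x ∈ A) ∧
      (∀ k, φ k (w k) = 1) ∧ (∀ k l, k ≠ l → φ k (w l) = 0) ∧
      (∀ x ∈ W, x = ∑ k, φ k x • w k) := by
  classical
  induction' hd : Module.finrank L W using Nat.strong_induction_on with d ih generalizing W
  by_cases hW : W = ⊥
  · subst hW
    refine ⟨Empty, inferInstance, fun k => k.elim, fun k => k.elim, ?_, ?_, ?_, ?_, ?_, ?_⟩
    · intro k; exact k.elim
    · intro k; exact k.elim
    · intro k; exact k.elim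
    · intro k; exact k.elim
    · intro k; exact k.elim
    · intro x hx
      rw [Submodule.mem_bot] at hx
      simp [hx]
  · obtain ⟨w0, hw0W, hw0⟩ := Submodule.exists_mem_ne_zero_of_ne_bot hW
    obtain ⟨i0, hi0⟩ : ∃ i, w0 i ≠ 0 := by
      by_contra hcon
      simp only [not_exists, not_not] at hcon
      exact hw0 (funext hcon)
    have : Nonempty κ := ⟨i0⟩
    obtain ⟨j, hj⟩ := Finite.exists_max (fun i => A.valuation (w0 i))
    have hwj : w0 j ≠ 0 := by
      intro h0
      have h1 := hj i0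
      rw [h0, map_zero] at h1
      exact hi0 ((Valuation.zero_iff _).1 (le_antisymm h1 zero_le))
    set u : κ → L := (w0 j)⁻¹ • w0 with hu
    have huW : u ∈ W := W.smul_mem _ hw0W
    have huj : u j = 1 := by simp [hu, hwj]
    have huA : ∀ i, u i ∈ A := by
      intro i
      rw [← A.valuation_le_one_iff]
      simp only [hu, Pi.smul_apply, smul_eq_mul, map_mul, map_inv₀]
      have hvj : 0 < A.valuation (w0 j) := by
        rw [zero_lt_iff]
        simpa using hwj
      rw [inv_mul_le_iff₀ hvj, mul_one]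
      exact hj i
    let pj : (κ → L) →ₗ[L] L := LinearMap.proj j
    let T : (κ → L) →ₗ[L] (κ → L) := LinearMap.id - pj.smulRight u
    have hT : ∀ x, T x = x - x j • u := by intro x; simp [T, pj]
    let W' : Submodule L (κ → L) := W ⊓ LinearMap.ker pj
    have hlt : Module.finrank L W' < Module.finrank L W := by
      apply Submodule.finrank_lt_finrank_of_lt
      refine lt_of_le_of_ne inf_le_left ?_
      intro heq
      have h1 : u ∈ W' := heq ▸ huW
      have h2 : pj u = 0 := h1.2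
      simp [pj, huj] at h2
    obtain ⟨ι', _, w', φ', h1, h2, h3, h4, h5, h6⟩ := ih _ (hd ▸ hlt) W' rfl
    have hTW : ∀ x ∈ W, T x ∈ W' := by
      intro x hx
      refine ⟨?_, ?_⟩
      · rw [hT]; exact W.sub_mem hx (W.smul_mem _ huW)
      · show pj (T x) = 0
        rw [hT]; simp [pj, huj]
    have hTA : ∀ x : κ → L, (∀ i, x i ∈ A) → ∀ i, T x i ∈ A := by
      intro x hx i
      rw [hT]
      simp only [Pi.sub_apply, Pi.smul_apply, smul_eq_mul]
      exact sub_mem (hx i) (mul_mem (hx j) (huA i))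
    have hTu : T u = 0 := by rw [hT, huj, one_smul, sub_self]
    have hTW' : ∀ y ∈ W', T y = y := by
      intro y hy
      have h0 : y j = 0 := hy.2
      rw [hT, h0, zero_smul, sub_zero]
    refine ⟨Option ι', inferInstance, fun o => o.elim u w',
      fun o => o.elim pj (fun k => (φ' k).comp T), ?_, ?_, ?_, ?_, ?_, ?_⟩
    · rintro (_ | k)
      · exact huW
      · exact (h1 k).1
    · rintro (_ | k) i
      · exact huA i
      · exact h2 k i
    · rintro (_ | k) x hx
      · exact hx j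
      · exact h3 k _ (hTA x hx)
    · rintro (_ | k)
      · exact huj
      · show φ' k (T (w' k)) = 1
        rw [hTW' _ (h1 k)]; exact h4 k
    · rintro (_ | k) (_ | l) hkl
      · exact absurd rfl hkl
      · exact (h1 l).2
      · show φ' k (T u) = 0
        rw [hTu, map_zero]
      · show φ' k (T (w' l)) = 0
        rw [hTW' _ (h1 l)]
        exact h5 k l (fun h => hkl (by rw [h]))
    · intro x hx
      rw [Fintype.sum_option]
      show x = pj x • u + ∑ k, φ' k (T x) • w' k
      rw [← h6 (T x) (hTW x hx), hT]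
      simp [pj]

end Coord


section Ortho

variable {L F : Type*} [Field L] [Field F] [Algebra L F]

/-- A finite family `b` in `F` is *orthonormal* for `(A, O)`: linearly independent over `L`,
contained in `O`, and `∑ c i • b i ∈ O` forces every `c i ∈ A`. -/
structure IsOrtho (A : ValuationSubring L) (O : Subring F) {ι : Type*} [Fintype ι]
    (b : ι → F) : Prop where
  li : LinearIndependent L b
  mem : ∀ i, b i ∈ O
  coeff : ∀ c : ι → L, ∑ i, c i • b i ∈ O → ∀ i, c i ∈ A

variable {A : ValuationSubring L} {O : Subring F}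

theorem smul_mem_of_mem (hOA : ∀ x : L, algebraMap L F x ∈ O ↔ x ∈ A) {c : L} (hc : c ∈ A)
    {y : F} (hy : y ∈ O) : c • y ∈ O := by
  rw [Algebra.smul_def]
  exact O.mul_mem ((hOA c).2 hc) hy

/-- Integral combinations of elements of `A^κ` stay in `A^κ`. -/
theorem sum_smul_mem_int {κ ι : Type*} [Fintype ι] {c : ι → L} {w : ι → κ → L}
    (hc : ∀ k, c k ∈ A) (hw : ∀ k i, w k i ∈ A) (i : κ) : (∑ k, c k • w k) i ∈ A := by
  rw [Finset.sum_apply]
  exact sum_mem (fun k _ => mul_mem (hc k) (hw k i))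

namespace IsOrtho

variable {ι : Type*} [Fintype ι] {b : ι → F}

theorem sum_mem (hb : IsOrtho A O b) (hOA : ∀ x : L, algebraMap L F x ∈ O ↔ x ∈ A)
    {c : ι → L} (hc : ∀ i, c i ∈ A) : ∑ i, c i • b i ∈ O :=
  O.sum_mem (fun i _ => smul_mem_of_mem hOA (hc i) (hb.mem i))

/-- `∑ c i • b i ∈ O ↔ ∀ i, c i ∈ A`. -/
theorem mem_iff (hb : IsOrtho A O b) (hOA : ∀ x : L, algebraMap L F x ∈ O ↔ x ∈ A)
    (c : ι → L) : ∑ i, c i • b i ∈ O ↔ ∀ i, c i ∈ A :=
  ⟨hb.coeff c, fun h => hb.sum_mem hOA h⟩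

theorem eq_zero (hb : IsOrtho A O b) {c : ι → L} (h : ∑ i, c i • b i = 0) : ∀ i, c i = 0 :=
  Fintype.linearIndependent_iff.1 hb.li c h

theorem injective (hb : IsOrtho A O b) :
    Function.Injective (Fintype.linearCombination L b) := by
  rw [← LinearMap.ker_eq_bot, LinearMap.ker_eq_bot']
  intro c hc
  funext i
  exact hb.eq_zero hc i

/-- `∑ c i • b i ∈ a • O ↔ c ∈ a • A^ι`. -/
theorem dvd_iff (hb : IsOrtho A O b) (hOA : ∀ x : L, algebraMap L F x ∈ O ↔ x ∈ A)
    (a : L) (c : ι → L) :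
    Dvd O a (∑ i, c i • b i) ↔ ∃ d : ι → L, (∀ i, d i ∈ A) ∧ ∀ i, c i = a * d i := by
  constructor
  · rintro ⟨o, ho, h⟩
    by_cases ha : a = 0
    · subst ha
      rw [map_zero, zero_mul] at h
      exact ⟨fun _ => 0, fun _ => A.zero_mem, fun i => by rw [hb.eq_zero h i, zero_mul]⟩
    · have ha' : algebraMap L F a ≠ 0 := by simpa using ha
      have ho' : o = ∑ i, (a⁻¹ * c i) • b i := by
        have h1 : o = a⁻¹ • ∑ i, c i • b i := by
          rw [h, Algebra.smul_def, map_inv₀, ← mul_assoc, inv_mul_cancel₀ ha', one_mul]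
        rw [h1, Finset.smul_sum]
        exact Finset.sum_congr rfl (fun i _ => by rw [smul_smul])
      rw [ho'] at ho
      exact ⟨fun i => a⁻¹ * c i, hb.coeff _ ho, fun i => by
        rw [← mul_assoc, mul_inv_cancel₀ ha, one_mul]⟩
  · rintro ⟨d, hd, hcd⟩
    refine ⟨∑ i, d i • b i, hb.sum_mem hOA hd, ?_⟩
    rw [← Algebra.smul_def, Finset.smul_sum]
    exact Finset.sum_congr rfl (fun i _ => by rw [smul_smul, hcd i])

/-- `∑ c i • b i ∈ 𝔪_A • O ↔ ∀ i, c i ∈ 𝔪_A`. -/
theorem small_iff (hb : IsOrtho A O b) (hOA : ∀ x : L, algebraMap L F x ∈ O ↔ x ∈ A)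
    (c : ι → L) : Small A O (∑ i, c i • b i) ↔ ∀ i, A.valuation (c i) < 1 := by
  constructor
  · rintro ⟨a, ha, h⟩ i
    obtain ⟨d, hd, hcd⟩ := (hb.dvd_iff hOA a c).1 h
    rw [hcd i, map_mul]
    have h1 : A.valuation (d i) ≤ 1 := (A.valuation_le_one_iff _).2 (hd i)
    calc A.valuation a * A.valuation (d i) ≤ A.valuation a * 1 := by gcongr
      _ = A.valuation a := mul_one _
      _ < 1 := ha
  · intro h
    rcases isEmpty_or_nonempty ι with hι | hι
    · have h0 : ∑ i, c i • b i = 0 := by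
        rw [Finset.univ_eq_empty, Finset.sum_empty]
      rw [h0]
      exact small_zero
    · obtain ⟨j, hj⟩ := Finite.exists_max (fun i => A.valuation (c i))
      refine ⟨c j, h j, (hb.dvd_iff hOA (c j) c).2 ?_⟩
      by_cases hcj : c j = 0
      · refine ⟨fun _ => 0, fun _ => A.zero_mem, fun i => ?_⟩
        have h1 := hj i
        rw [hcj, map_zero] at h1
        rw [(Valuation.zero_iff _).1 (le_antisymm h1 zero_le), mul_zero]
      · refine ⟨fun i => (c j)⁻¹ * c i, fun i => ?_, fun i => by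
          rw [← mul_assoc, mul_inv_cancel₀ hcj, one_mul]⟩
        rw [← A.valuation_le_one_iff, map_mul, map_inv₀]
        have hvj : 0 < A.valuation (c j) := by
          rw [zero_lt_iff]
          simpa using hcj
        rw [inv_mul_le_iff₀ hvj, mul_one]
        exact hj i

/-- Every element of the span of an orthonormal family is a combination of it. -/
theorem exists_coord (_hb : IsOrtho A O b) {x : F} (hx : x ∈ Submodule.span L (Set.range b)) :
    ∃ c : ι → L, x = ∑ i, c i • b i := by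
  rw [← Fintype.range_linearCombination] at hx
  obtain ⟨c, rfl⟩ := hx
  exact ⟨c, rfl⟩

/-- Coordinate data of a subspace `W ≤ span L (range b)`: an integral biorthogonal system
of `W` in the coordinates given by `b`. -/
theorem exists_coord_biorth (hb : IsOrtho A O b) (W : Submodule L F)
    (hW : W ≤ Submodule.span L (Set.range b)) :
    ∃ (κ : Type) (_ : Fintype κ) (w : κ → ι → L) (φ : κ → ((ι → L) →ₗ[L] L)),
      (∀ k, ∑ i, w k i • b i ∈ W) ∧ (∀ k i, w k i ∈ A) ∧
      (∀ k x, (∀ i, x i ∈ A) → φ k x ∈ A) ∧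
      (∀ k, φ k (w k) = 1) ∧ (∀ k l, k ≠ l → φ k (w l) = 0) ∧
      (∀ x : ι → L, ∑ i, x i • b i ∈ W → x = ∑ k, φ k x • w k) ∧
      (∀ y ∈ W, ∃ x : ι → L, y = ∑ i, x i • b i) := by
  obtain ⟨κ, hκ, w, φ, h1, h2, h3, h4, h5, h6⟩ :=
    exists_biorth A (W.comap (Fintype.linearCombination L b))
  exact ⟨κ, hκ, w, φ, fun k => h1 k, h2, h3, h4, h5, fun x hx => h6 x hx,
    fun y hy => hb.exists_coord (hW hy)⟩

/-- **(O1)** Every subspace of the span of an orthonormal family has an orthonormal basis. -/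
theorem exists_sub (hb : IsOrtho A O b) (hOA : ∀ x : L, algebraMap L F x ∈ O ↔ x ∈ A)
    (W : Submodule L F) (hW : W ≤ Submodule.span L (Set.range b)) :
    ∃ (κ : Type) (_ : Fintype κ) (b' : κ → F),
      IsOrtho A O b' ∧ Submodule.span L (Set.range b') = W := by
  classical
  obtain ⟨κ, hκ, w, φ, h1, h2, h3, h4, h5, h6, h7⟩ := hb.exists_coord_biorth W hW
  -- the key identity: coordinates of a combination of the `w k`
  have key : ∀ c : κ → L, ∑ k, c k • ∑ i, w k i • b i = ∑ i, (∑ k, c k • w k) i • b i := by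
    intro c
    simp only [Finset.smul_sum, Finset.sum_apply, Pi.smul_apply, smul_eq_mul, Finset.sum_smul,
      smul_smul]
    exact Finset.sum_comm
  have hφ : ∀ (c : κ → L) (k : κ), φ k (∑ l, c l • w l) = c k := by
    intro c k
    rw [map_sum, Finset.sum_eq_single k]
    · rw [map_smul, h4 k, smul_eq_mul, mul_one]
    · intro l _ hlk
      rw [map_smul, h5 k l (Ne.symm hlk), smul_zero]
    · intro hk
      exact absurd (Finset.mem_univ k) hk
  refine ⟨κ, hκ, fun k => ∑ i, w k i • b i, ⟨?_, ?_, ?_⟩, ?_⟩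
  · rw [Fintype.linearIndependent_iff]
    intro c hc k
    rw [key] at hc
    have h0 : (∑ l, c l • w l) = 0 := funext (fun i => hb.eq_zero hc i)
    rw [← hφ c k, h0, map_zero]
  · intro k
    exact hb.sum_mem hOA (h2 k)
  · intro c hc k
    rw [key] at hc
    rw [← hφ c k]
    exact h3 k _ (hb.coeff _ hc)
  · apply le_antisymm
    · rw [Submodule.span_le]
      rintro _ ⟨k, rfl⟩
      exact h1 k
    · intro y hy
      obtain ⟨x, rfl⟩ := h7 y hy
      have hx := h6 x hy
      have : ∑ i, x i • b i = ∑ k, φ k x • ∑ i, w k i • b i := by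
        rw [key, ← hx]
      rw [this]
      exact Submodule.sum_mem _ (fun k _ => Submodule.smul_mem _ _ (Submodule.subset_span ⟨k, rfl⟩))

/-- **(O2)** Best approximation from a subspace: for `W ≤ V := span L (range b)` and `x ∈ V`
there is `x₀ ∈ W` that approximates `x` at least as well as any `u ∈ W`
(hypotheses `hBA1`, `hBA1'` of `Deform.exists_common_ne_zero`). -/
theorem bestApprox (hb : IsOrtho A O b) (hOA : ∀ x : L, algebraMap L F x ∈ O ↔ x ∈ A)
    (W : Submodule L F) (hW : W ≤ Submodule.span L (Set.range b))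
    {x : F} (hx : x ∈ Submodule.span L (Set.range b)) :
    ∃ x₀ ∈ W, ∀ u ∈ W, ∀ a : L, Dvd O a (x - u) → Dvd O a (x - x₀) := by
  classical
  obtain ⟨κ, hκ, w, φ, h1, h2, h3, h4, h5, h6, h7⟩ := hb.exists_coord_biorth W hW
  obtain ⟨cx, rfl⟩ := hb.exists_coord hx
  -- the integral projection in coordinates
  let P : (ι → L) →ₗ[L] (ι → L) := ∑ k, (φ k).smulRight (w k)
  have hP : ∀ c, P c = ∑ k, φ k c • w k := by
    intro c
    simp [P, LinearMap.sum_apply, LinearMap.smulRight_apply]
  have hPint : ∀ d : ι → L, (∀ i, d i ∈ A) → ∀ i, P d i ∈ A := by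
    intro d hd i
    rw [hP]
    exact sum_smul_mem_int (fun k => h3 k d hd) h2 i
  have hPW : ∀ c : ι → L, ∑ i, P c i • b i ∈ W := by
    intro c
    have : ∑ i, P c i • b i = ∑ k, φ k c • ∑ i, w k i • b i := by
      rw [hP]
      simp only [Finset.smul_sum, Finset.sum_apply, Pi.smul_apply, smul_eq_mul,
        Finset.sum_smul, smul_smul]
      exact Finset.sum_comm
    rw [this]
    exact W.sum_mem (fun k _ => W.smul_mem _ (h1 k))
  refine ⟨∑ i, P cx i • b i, hPW cx, ?_⟩
  intro u hu a hdvd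
  obtain ⟨cu, rfl⟩ := h7 u hu
  have hPcu : P cu = cu := by rw [hP]; exact (h6 cu hu).symm
  have e1 : ∑ i, cx i • b i - ∑ i, cu i • b i = ∑ i, (cx - cu) i • b i := by
    rw [← Finset.sum_sub_distrib]
    exact Finset.sum_congr rfl (fun i _ => by rw [Pi.sub_apply, sub_smul])
  rw [e1] at hdvd
  obtain ⟨d, hd, hcd⟩ := (hb.dvd_iff hOA a _).1 hdvd
  have hcd' : cx - cu = a • d := funext (fun i => by rw [hcd i, Pi.smul_apply, smul_eq_mul])
  have e2 : ∑ i, cx i • b i - ∑ i, P cx i • b i = ∑ i, (a • (d - P d)) i • b i := by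
    rw [← Finset.sum_sub_distrib]
    refine Finset.sum_congr rfl (fun i _ => ?_)
    rw [← sub_smul]
    congr 1
    have h8 : P cx - cu = a • P d := by
      rw [← hPcu, ← map_sub, hcd', map_smul]
    have h9 : cx - P cx = a • (d - P d) := by
      rw [smul_sub, ← hcd', ← h8]
      abel
    exact congrFun h9 i
  rw [e2]
  refine (hb.dvd_iff hOA a _).2 ⟨d - P d, fun i => ?_, fun i => ?_⟩
  · exact sub_mem (hd i) (hPint d hd i)
  · rw [Pi.smul_apply, smul_eq_mul]


/-- **(O2'), `hBA0`**: best approximating constant. -/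
theorem bestApprox_const (hb : IsOrtho A O b) (hOA : ∀ x : L, algebraMap L F x ∈ O ↔ x ∈ A)
    (h1 : (1 : F) ∈ Submodule.span L (Set.range b))
    {x : F} (hx : x ∈ Submodule.span L (Set.range b)) :
    ∃ c : L, ∀ c' a : L, Dvd O a (x - algebraMap L F c') → Dvd O a (x - algebraMap L F c) := by
  obtain ⟨x₀, hx₀, h⟩ := hb.bestApprox hOA (Submodule.span L {(1 : F)})
    (by rw [Submodule.span_le]; simpa using h1) hx
  obtain ⟨c, rfl⟩ := Submodule.mem_span_singleton.1 hx₀
  refine ⟨c, fun c' a hd => ?_⟩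
  have h2 := h (c' • (1 : F)) (Submodule.mem_span_singleton.2 ⟨c', rfl⟩) a
    (by rwa [Algebra.smul_def, mul_one])
  rwa [Algebra.smul_def, mul_one] at h2

/-- Every element of the span can be scaled into `O` by a nonzero element of `A`. -/
theorem exists_scale (hb : IsOrtho A O b) (hOA : ∀ x : L, algebraMap L F x ∈ O ↔ x ∈ A)
    {y : F} (hy : y ∈ Submodule.span L (Set.range b)) :
    ∃ δ : L, δ ≠ 0 ∧ δ ∈ A ∧ δ • y ∈ O := by
  classical
  obtain ⟨c, rfl⟩ := hb.exists_coord hy
  let d : ι → L := fun i => if c i ∈ A then 1 else (c i)⁻¹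
  have hdA : ∀ i, d i ∈ A := by
    intro i
    by_cases h : c i ∈ A
    · simp only [d, if_pos h]; exact A.one_mem
    · simp only [d, if_neg h]
      exact (A.mem_or_inv_mem (c i)).resolve_left h
  have hd0 : ∀ i, d i ≠ 0 := by
    intro i
    by_cases h : c i ∈ A
    · simp only [d, if_pos h]; exact one_ne_zero
    · simp only [d, if_neg h]
      exact inv_ne_zero (fun h0 : c i = 0 => h (by rw [h0]; exact A.zero_mem))
  have hdc : ∀ i, d i * c i ∈ A := by
    intro i
    by_cases h : c i ∈ A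
    · simp only [d, if_pos h, one_mul]; exact h
    · simp only [d, if_neg h]
      rw [inv_mul_cancel₀ (fun h0 : c i = 0 => h (by rw [h0]; exact A.zero_mem))]
      exact A.one_mem
  refine ⟨∏ i, d i, Finset.prod_ne_zero_iff.2 (fun i _ => hd0 i), prod_mem (fun i _ => hdA i), ?_⟩
  rw [Finset.smul_sum]
  simp_rw [smul_smul]
  refine hb.sum_mem hOA (fun i => ?_)
  rw [← Finset.prod_erase_mul _ _ (Finset.mem_univ i), mul_assoc]
  exact mul_mem (prod_mem (fun l _ => hdA l)) (hdc i)

/-- Finitely many elements of the span have a common nonzero scaling into `O`. -/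
theorem exists_scale_finite (hb : IsOrtho A O b) (hOA : ∀ x : L, algebraMap L F x ∈ O ↔ x ∈ A)
    {κ : Type*} [Fintype κ] (y : κ → F) (hy : ∀ k, y k ∈ Submodule.span L (Set.range b)) :
    ∃ Δ : L, Δ ≠ 0 ∧ Δ ∈ A ∧ ∀ k, Δ • y k ∈ O := by
  classical
  choose δ hδ0 hδA hδ using fun k => hb.exists_scale hOA (hy k)
  refine ⟨∏ k, δ k, Finset.prod_ne_zero_iff.2 (fun k _ => hδ0 k), prod_mem (fun k _ => hδA k),
    fun k => ?_⟩
  rw [← Finset.prod_erase_mul _ _ (Finset.mem_univ k), ← smul_smul]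
  exact smul_mem_of_mem hOA (prod_mem (fun l _ => hδA l)) (hδ k)

/-- `hval` on the span: every nonzero element can be scaled to norm exactly one. -/
theorem exists_unit_scale (hb : IsOrtho A O b) (hOA : ∀ x : L, algebraMap L F x ∈ O ↔ x ∈ A)
    {y : F} (hy : y ∈ Submodule.span L (Set.range b)) (hy0 : y ≠ 0) :
    ∃ c : L, c ≠ 0 ∧ c • y ∈ O ∧ ¬ Small A O (c • y) := by
  obtain ⟨c, rfl⟩ := hb.exists_coord hy
  obtain ⟨i0, hi0⟩ : ∃ i, c i ≠ 0 := by
    by_contra hcon
    simp only [not_exists, not_not] at hcon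
    exact hy0 (Finset.sum_eq_zero (fun i _ => by rw [hcon i, zero_smul]))
  have : Nonempty ι := ⟨i0⟩
  obtain ⟨j, hj⟩ := Finite.exists_max (fun i => A.valuation (c i))
  have hcj : c j ≠ 0 := by
    intro h0
    have h1 := hj i0
    rw [h0, map_zero] at h1
    exact hi0 ((Valuation.zero_iff _).1 (le_antisymm h1 zero_le))
  have hvj : 0 < A.valuation (c j) := by
    rw [zero_lt_iff]
    simpa using hcj
  have e : (c j)⁻¹ • ∑ i, c i • b i = ∑ i, ((c j)⁻¹ * c i) • b i := by
    rw [Finset.smul_sum]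
    exact Finset.sum_congr rfl (fun i _ => by rw [smul_smul])
  refine ⟨(c j)⁻¹, inv_ne_zero hcj, ?_, ?_⟩
  · rw [e]
    refine hb.sum_mem hOA (fun i => ?_)
    rw [← A.valuation_le_one_iff, map_mul, map_inv₀, inv_mul_le_iff₀ hvj, mul_one]
    exact hj i
  · rw [e, hb.small_iff hOA]
    intro h
    have h1 := h j
    rw [inv_mul_cancel₀ hcj, map_one] at h1
    exact lt_irrefl _ h1

/-- **(O3), `hangle`**: two subspaces of the span with zero intersection have bounded angle. -/
theorem angle (hb : IsOrtho A O b) (hOA : ∀ x : L, algebraMap L F x ∈ O ↔ x ∈ A)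
    (V₁ V₂ : Submodule L F)
    (h₁ : V₁ ≤ Submodule.span L (Set.range b)) (h₂ : V₂ ≤ Submodule.span L (Set.range b))
    (hdisj : ∀ s ∈ V₁, s ∈ V₂ → s = 0) :
    ∃ Δ : L, Δ ≠ 0 ∧ ∀ s₁ ∈ V₁, ∀ s₂ ∈ V₂, ∀ a : L,
      Dvd O a (s₁ - s₂) → Dvd O a (algebraMap L F Δ * s₁) := by
  obtain ⟨κ, hκ, e, he, hspan⟩ := hb.exists_sub hOA (V₁ ⊔ V₂) (sup_le h₁ h₂)
  have hdec : ∀ k, ∃ p ∈ V₁, ∃ q ∈ V₂, p + q = e k := fun k =>
    Submodule.mem_sup.1 (hspan ▸ Submodule.subset_span ⟨k, rfl⟩)
  choose p hp q hq hpq using hdec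
  obtain ⟨Δ, hΔ0, _, hΔ⟩ := hb.exists_scale_finite hOA p (fun k => h₁ (hp k))
  refine ⟨Δ, hΔ0, ?_⟩
  intro s₁ hs₁ s₂ hs₂ a hdvd
  have hmem : s₁ - s₂ ∈ Submodule.span L (Set.range e) := by
    rw [hspan]
    exact Submodule.sub_mem _ (Submodule.mem_sup_left hs₁) (Submodule.mem_sup_right hs₂)
  obtain ⟨γ, hγ⟩ := he.exists_coord hmem
  rw [hγ] at hdvd
  obtain ⟨d, hd, hγd⟩ := (he.dvd_iff hOA a γ).1 hdvd
  have hs : s₁ = ∑ k, γ k • p k := by
    have h3 : s₁ - s₂ = ∑ k, γ k • p k + ∑ k, γ k • q k := by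
      rw [hγ, ← Finset.sum_add_distrib]
      exact Finset.sum_congr rfl (fun k _ => by rw [← smul_add, hpq])
    have h3' : s₁ - ∑ k, γ k • p k = s₂ + ∑ k, γ k • q k := by
      linear_combination h3
    have h4 : s₁ - ∑ k, γ k • p k ∈ V₁ :=
      V₁.sub_mem hs₁ (V₁.sum_mem fun k _ => V₁.smul_mem _ (hp k))
    have h5 : s₁ - ∑ k, γ k • p k ∈ V₂ := by
      rw [h3']
      exact V₂.add_mem hs₂ (V₂.sum_mem fun k _ => V₂.smul_mem _ (hq k))
    exact sub_eq_zero.1 (hdisj _ h4 h5)
  refine ⟨∑ k, d k • (Δ • p k), O.sum_mem (fun k _ => smul_mem_of_mem hOA (hd k) (hΔ k)), ?_⟩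
  rw [hs, Finset.mul_sum, Finset.mul_sum]
  refine Finset.sum_congr rfl (fun k _ => ?_)
  rw [hγd k, Algebra.smul_def, Algebra.smul_def, Algebra.smul_def, map_mul]
  ring

end IsOrtho

/-- **(O5b) residual criterion.** A finite family in `O` that is independent modulo
`𝔪_A • O` (no `A`-combination with a unit coefficient is small) is orthonormal. -/
theorem isOrtho_of_residual
    {ι : Type*} [Fintype ι] (o : ι → F) (ho : ∀ i, o i ∈ O)
    (hres : ∀ c : ι → L, (∀ i, c i ∈ A) → Small A O (∑ i, c i • o i) →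
      ∀ i, A.valuation (c i) < 1) :
    IsOrtho A O o := by
  -- normalisation: a family with a coordinate of maximal valuation `c j ≠ 0`
  have norm : ∀ (c : ι → L) (j : ι), c j ≠ 0 → (∀ i, A.valuation (c i) ≤ A.valuation (c j)) →
      Small A O ((c j)⁻¹ • ∑ i, c i • o i) → False := by
    intro c j hcj hj hsmall
    have hvj : 0 < A.valuation (c j) := by
      rw [zero_lt_iff]
      simpa using hcj
    have e : (c j)⁻¹ • ∑ i, c i • o i = ∑ i, ((c j)⁻¹ * c i) • o i := by
      rw [Finset.smul_sum]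
      exact Finset.sum_congr rfl (fun i _ => by rw [smul_smul])
    rw [e] at hsmall
    have h1 := hres (fun i => (c j)⁻¹ * c i) (fun i => by
      rw [← A.valuation_le_one_iff, map_mul, map_inv₀, inv_mul_le_iff₀ hvj, mul_one]
      exact hj i) hsmall j
    simp only [inv_mul_cancel₀ hcj, map_one] at h1
    exact lt_irrefl _ h1
  refine ⟨?_, ho, ?_⟩
  · rw [Fintype.linearIndependent_iff]
    intro c hc
    by_contra hcon
    simp only [not_forall] at hcon
    obtain ⟨i0, hi0⟩ := hcon
    have : Nonempty ι := ⟨i0⟩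
    obtain ⟨j, hj⟩ := Finite.exists_max (fun i => A.valuation (c i))
    have hcj : c j ≠ 0 := by
      intro h0
      have h1 := hj i0
      rw [h0, map_zero] at h1
      exact hi0 ((Valuation.zero_iff _).1 (le_antisymm h1 zero_le))
    refine norm c j hcj hj ?_
    rw [hc, smul_zero]
    exact small_zero
  · intro c hc
    by_contra hcon
    simp only [not_forall] at hcon
    obtain ⟨i0, hi0⟩ := hcon
    have : Nonempty ι := ⟨i0⟩
    obtain ⟨j, hj⟩ := Finite.exists_max (fun i => A.valuation (c i))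
    have hvj : 1 < A.valuation (c j) := by
      have h1 : 1 < A.valuation (c i0) := by
        rw [← not_le, A.valuation_le_one_iff]
        exact hi0
      exact lt_of_lt_of_le h1 (hj i0)
    have hcj : c j ≠ 0 := by
      intro h0
      rw [h0, map_zero] at hvj
      exact not_lt.2 zero_le hvj
    refine norm c j hcj hj ⟨(c j)⁻¹, ?_, ∑ i, c i • o i, hc, ?_⟩
    · rw [map_inv₀]
      exact inv_lt_one_of_one_lt₀ hvj
    · rw [Algebra.smul_def]

/-- **(O5a) pivot functionals.** A finite-dimensional subspace `V` of `F` in which every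
nonzero element can be scaled to norm one and every element of norm one is detected by an
`A`-integral functional has an orthonormal basis. -/
theorem exists_isOrtho_of_pivot (hOA : ∀ x : L, algebraMap L F x ∈ O ↔ x ∈ A)
    (V : Submodule L F) [FiniteDimensional L V]
    (hscale : ∀ y ∈ V, y ≠ 0 → ∃ c : L, c ≠ 0 ∧ c • y ∈ O ∧ ¬ Small A O (c • y))
    (hpiv : ∀ y ∈ V, y ∈ O → ¬ Small A O y →
      ∃ lam : F →ₗ[L] L, (∀ z ∈ V, z ∈ O → lam z ∈ A) ∧ A.valuation (lam y) = 1) :
    ∃ (ι : Type) (_ : Fintype ι) (b : ι → F),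
      IsOrtho A O b ∧ Submodule.span L (Set.range b) = V := by
  classical
  induction' hd : Module.finrank L V using Nat.strong_induction_on with d ih generalizing V
  by_cases hV : V = ⊥
  · subst hV
    refine ⟨Empty, inferInstance, fun k => k.elim, ⟨linearIndependent_empty_type, ?_, ?_⟩, ?_⟩
    · intro k; exact k.elim
    · intro c _ k; exact k.elim
    · rw [Set.range_eq_empty, Submodule.span_empty]
  · obtain ⟨y, hyV, hy0⟩ := Submodule.exists_mem_ne_zero_of_ne_bot hV
    obtain ⟨c, _, hcO, hcS⟩ := hscale y hyV hy0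
    have hcV : c • y ∈ V := V.smul_mem _ hyV
    obtain ⟨lam, hlamA, hlam1⟩ := hpiv _ hcV hcO hcS
    have hl0 : lam (c • y) ≠ 0 := by
      intro h0
      rw [h0, map_zero] at hlam1
      exact zero_ne_one hlam1
    set y1 : F := (lam (c • y))⁻¹ • (c • y) with hy1
    have hy1V : y1 ∈ V := V.smul_mem _ hcV
    have hy1O : y1 ∈ O := by
      refine smul_mem_of_mem hOA ?_ hcO
      rw [← A.valuation_le_one_iff, map_inv₀, hlam1, inv_one]
    have hlam_y1 : lam y1 = 1 := by
      rw [hy1, map_smul, smul_eq_mul, inv_mul_cancel₀ hl0]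
    let V' : Submodule L F := V ⊓ LinearMap.ker lam
    have hV'le : V' ≤ V := inf_le_left
    have : FiniteDimensional L V' := Submodule.finiteDimensional_of_le hV'le
    have hlt : Module.finrank L V' < Module.finrank L V := by
      apply Submodule.finrank_lt_finrank_of_lt
      refine lt_of_le_of_ne hV'le ?_
      intro heq
      have h1 : y1 ∈ V' := heq ▸ hy1V
      have h2 : lam y1 = 0 := h1.2
      rw [hlam_y1] at h2
      exact one_ne_zero h2
    obtain ⟨ι', _, b', hb', hspan'⟩ := ih _ (hd ▸ hlt) V'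
      (fun z hz hz0 => hscale z (hV'le hz) hz0)
      (fun z hz hzO hzS => by
        obtain ⟨l, hl, hl1⟩ := hpiv z (hV'le hz) hzO hzS
        exact ⟨l, fun t ht htO => hl t (hV'le ht) htO, hl1⟩) rfl
    have hb'V' : ∀ k, b' k ∈ V' := fun k => hspan' ▸ Submodule.subset_span ⟨k, rfl⟩
    have hlamb' : ∀ k, lam (b' k) = 0 := fun k => (hb'V' k).2
    -- value of `lam` on a combination
    have hlamsum : ∀ c : Option ι' → L,
        lam (∑ o, c o • (o.elim y1 b')) = c none := by
      intro c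
      rw [Fintype.sum_option, map_add, map_sum]
      simp only [Option.elim, map_smul, hlam_y1, hlamb', smul_eq_mul, mul_one, mul_zero,
        Finset.sum_const_zero, add_zero]
    have hsumV : ∀ c : Option ι' → L, ∑ o, c o • (o.elim y1 b') ∈ V := by
      intro c
      refine V.sum_mem (fun o _ => V.smul_mem _ ?_)
      rcases o with _ | k
      · exact hy1V
      · exact hV'le (hb'V' k)
    refine ⟨Option ι', inferInstance, fun o => o.elim y1 b', ⟨?_, ?_, ?_⟩, ?_⟩
    · rw [Fintype.linearIndependent_iff]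
      intro c hc
      have h0 : c none = 0 := by rw [← hlamsum c, hc, map_zero]
      have h1 : ∑ k, c (some k) • b' k = 0 := by
        rw [Fintype.sum_option, h0, zero_smul, zero_add] at hc
        exact hc
      rintro (_ | k)
      · exact h0
      · exact hb'.eq_zero h1 k
    · rintro (_ | k)
      · exact hy1O
      · exact hb'.mem k
    · intro c hc
      have h0 : c none ∈ A := by
        rw [← hlamsum c]
        exact hlamA _ (hsumV c) hc
      have h1 : ∑ k, c (some k) • b' k ∈ O := by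
        rw [Fintype.sum_option] at hc
        have h2 : ∑ k, c (some k) • b' k =
            (c none • y1 + ∑ k, c (some k) • b' k) - c none • y1 := by ring
        rw [h2]
        exact O.sub_mem hc (smul_mem_of_mem hOA h0 hy1O)
      rintro (_ | k)
      · exact h0
      · exact hb'.coeff _ h1 k
    · apply le_antisymm
      · rw [Submodule.span_le]
        rintro _ ⟨o, rfl⟩
        rcases o with _ | k
        · exact hy1V
        · exact hV'le (hb'V' k)
      · intro z hz
        have hz' : z - lam z • y1 ∈ V' := by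
          refine ⟨V.sub_mem hz (V.smul_mem _ hy1V), ?_⟩
          show lam (z - lam z • y1) = 0
          rw [map_sub, map_smul, hlam_y1, smul_eq_mul, mul_one, sub_self]
        have hle : Submodule.span L (Set.range b') ≤
            Submodule.span L (Set.range (fun o : Option ι' => o.elim y1 b')) := by
          apply Submodule.span_mono
          rintro _ ⟨k, rfl⟩
          exact ⟨some k, rfl⟩
        have h3 : z = (z - lam z • y1) + lam z • y1 := by ring
        rw [h3]
        refine Submodule.add_mem _ (hle (hspan' ▸ hz')) (Submodule.smul_mem _ _ ?_)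
        exact Submodule.subset_span ⟨none, rfl⟩


/-- The span of an orthonormal family has dimension `card ι`. -/
theorem IsOrtho.finrank_span {ι : Type*} [Fintype ι] {b : ι → F} (hb : IsOrtho A O b) :
    Module.finrank L (Submodule.span L (Set.range b)) = Fintype.card ι :=
  finrank_span_eq_card hb.li

/-- **(O6) finitely generated lattices are free** (any valuation ring, no discreteness).
If `V ∩ O` is generated over `A` by a finite family `s`, then it has an orthonormal basis:
a minimal generating family over a valuation ring is independent. -/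
theorem exists_isOrtho_of_fg (V : Submodule L F) :
    ∀ (n : ℕ) {κ : Type} [Fintype κ] (s : κ → F), Fintype.card κ = n →
      (∀ k, s k ∈ V ∧ s k ∈ O) →
      (∀ y, y ∈ V → y ∈ O → ∃ a : κ → L, (∀ k, a k ∈ A) ∧ y = ∑ k, a k • s k) →
      ∃ (ι : Type) (_ : Fintype ι) (b : ι → F), IsOrtho A O b ∧ (∀ i, b i ∈ V) ∧
        ∀ y, y ∈ V → y ∈ O → ∃ a : ι → L, (∀ i, a i ∈ A) ∧ y = ∑ i, a i • b i := by
  classical
  intro n
  induction' n using Nat.strong_induction_on with n ih
  intro κ _ s hcard hs hgen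
  by_cases hli : LinearIndependent L s
  · refine ⟨κ, inferInstance, s, ⟨hli, fun k => (hs k).2, ?_⟩, fun k => (hs k).1, hgen⟩
    intro c hc
    obtain ⟨a, ha, hya⟩ := hgen _ (V.sum_mem fun k _ => V.smul_mem _ (hs k).1) hc
    have h0 : ∑ k, (c k - a k) • s k = 0 := by
      simp only [sub_smul, Finset.sum_sub_distrib]
      rw [hya, sub_self]
    intro k
    have h1 := Fintype.linearIndependent_iff.1 hli _ h0 k
    rw [sub_eq_zero.1 h1]
    exact ha k
  · rw [Fintype.linearIndependent_iff] at hli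
    simp only [not_forall] at hli
    obtain ⟨c, hc, i0, hi0⟩ := hli
    have : Nonempty κ := ⟨i0⟩
    obtain ⟨j, hj⟩ := Finite.exists_max (fun k => A.valuation (c k))
    have hcj : c j ≠ 0 := by
      intro h0
      have h1 := hj i0
      rw [h0, map_zero] at h1
      exact hi0 ((Valuation.zero_iff _).1 (le_antisymm h1 zero_le))
    have hvj : 0 < A.valuation (c j) := by
      rw [zero_lt_iff]
      simpa using hcj
    -- `s j` is an integral combination of the other `s k`
    let e : κ → L := fun k => -((c j)⁻¹ * c k)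
    have heA : ∀ k, e k ∈ A := by
      intro k
      refine neg_mem ?_
      rw [← A.valuation_le_one_iff, map_mul, map_inv₀, inv_mul_le_iff₀ hvj, mul_one]
      exact hj k
    have hsj : s j = ∑ k ∈ Finset.univ.erase j, e k • s k := by
      have h1 : ∑ k, c k • s k = c j • s j + ∑ k ∈ Finset.univ.erase j, c k • s k :=
        (Finset.add_sum_erase _ (fun k => c k • s k) (Finset.mem_univ j)).symm
      rw [h1] at hc
      have h2 : c j • s j = -∑ k ∈ Finset.univ.erase j, c k • s k := eq_neg_of_add_eq_zero_left hc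
      have h3 : s j = (c j)⁻¹ • (c j • s j) := by rw [smul_smul, inv_mul_cancel₀ hcj, one_smul]
      rw [h3, h2, smul_neg, Finset.smul_sum, ← Finset.sum_neg_distrib]
      refine Finset.sum_congr rfl (fun k _ => ?_)
      simp only [e, smul_smul, neg_smul]
    -- the smaller family
    let κ' : Type := {k : κ // k ≠ j}
    let s' : κ' → F := fun k => s k.1
    have hcard' : Fintype.card κ' < n := by
      rw [← hcard]
      exact Fintype.card_subtype_lt (p := fun k => k ≠ j) (x := j) (fun h => h rfl)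
    have hsum' : ∀ f : κ → F, ∑ k ∈ Finset.univ.erase j, f k = ∑ k : κ', f k.1 := by
      intro f
      have h1 : (Finset.univ.erase j : Finset κ) = Finset.univ.filter (fun k => k ≠ j) := by
        ext k; simp
      rw [h1, ← Finset.sum_subtype_eq_sum_filter, Finset.subtype_univ]
    refine ih _ hcard' s' rfl (fun k => hs k.1) ?_
    intro y hyV hyO
    obtain ⟨a, ha, hya⟩ := hgen y hyV hyO
    refine ⟨fun k => a k.1 + a j * e k.1, fun k => add_mem (ha k.1) (mul_mem (ha j) (heA k.1)), ?_⟩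
    have h1 : ∑ k, a k • s k = a j • s j + ∑ k ∈ Finset.univ.erase j, a k • s k :=
      (Finset.add_sum_erase _ (fun k => a k • s k) (Finset.mem_univ j)).symm
    rw [hya, h1, hsj, Finset.smul_sum, ← Finset.sum_add_distrib, hsum']
    refine Finset.sum_congr rfl (fun k _ => ?_)
    simp only [s', add_smul, smul_smul]
    rw [add_comm]

/-- Corollary of `exists_isOrtho_of_fg`: if moreover every element of `V` can be scaled into
`O`, the orthonormal basis spans `V`. -/
theorem exists_isOrtho_of_fg_span (V : Submodule L F)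
    {κ : Type} [Fintype κ] (s : κ → F) (hs : ∀ k, s k ∈ V ∧ s k ∈ O)
    (hgen : ∀ y, y ∈ V → y ∈ O → ∃ a : κ → L, (∀ k, a k ∈ A) ∧ y = ∑ k, a k • s k)
    (hscale : ∀ y ∈ V, ∃ δ : L, δ ≠ 0 ∧ δ • y ∈ O) :
    ∃ (ι : Type) (_ : Fintype ι) (b : ι → F),
      IsOrtho A O b ∧ Submodule.span L (Set.range b) = V := by
  obtain ⟨ι, hι, b, hb, hbV, hgen'⟩ := exists_isOrtho_of_fg (A := A) (O := O) V _ s rfl hs hgen
  refine ⟨ι, hι, b, hb, le_antisymm ?_ ?_⟩
  · rw [Submodule.span_le]
    rintro _ ⟨i, rfl⟩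
    exact hbV i
  · intro y hy
    obtain ⟨δ, hδ, hδy⟩ := hscale y hy
    obtain ⟨a, _, hya⟩ := hgen' _ (V.smul_mem δ hy) hδy
    have h1 : y = δ⁻¹ • (δ • y) := by rw [smul_smul, inv_mul_cancel₀ hδ, one_smul]
    rw [h1, hya]
    exact Submodule.smul_mem _ _ (Submodule.sum_mem _ (fun i _ =>
      Submodule.smul_mem _ _ (Submodule.subset_span ⟨i, rfl⟩)))

/-- **The deformation lemma with its lattice hypotheses discharged**:
`Deform.exists_common_ne_zero` where `hBA0`, `hBA1`, `hBA1'`, `hangle` are replaced by the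
existence of orthonormal families spanning (a space containing) `V0 n 0` and `V1 K K`. -/
theorem exists_common_ne_zero_of_ortho
    (hOA : ∀ x : L, algebraMap L F x ∈ O ↔ x ∈ A)
    (hval : ∀ y : F, y ≠ 0 → ∃ c : L, c ≠ 0 ∧ algebraMap L F c * y ∈ O ∧
      ¬ Small A O (algebraMap L F c * y))
    (harch : ∀ a Δ : L, A.valuation a < 1 → Δ ≠ 0 → ∃ k : ℕ, A.valuation (a ^ k) < A.valuation Δ)
    (m : ℕ) (hm : A.valuation (m : L) = 1)
    (V0 V1 : ℕ → ℕ → Submodule L F)
    (hmono0 : ∀ n₁ n₂ n₁' n₂', n₁ ≤ n₁' → n₂ ≤ n₂' → V0 n₁ n₂ ≤ V0 n₁' n₂')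
    (hmono1 : ∀ n₁ n₂ n₁' n₂', n₁ ≤ n₁' → n₂ ≤ n₂' → V1 n₁ n₂ ≤ V1 n₁' n₂')
    (hone : (1 : F) ∈ V0 0 0)
    (g : F) (hg : Small A O (g - 1))
    (hpow : ∀ n₁ n₂, ∀ s ∈ V1 n₁ n₂, s ^ m * g ∈ V0 (m * n₁) (m * n₂))
    (hmul : ∀ n₁ n₂ n₁' n₂', ∀ s ∈ V1 n₁ n₂, ∀ η ∈ V0 n₁' n₂', s * η ∈ V1 (n₁ + n₁') (n₂ + n₂'))
    (N₁ : ℕ)
    (hortho0 : ∀ n, ∃ (ι : Type) (_ : Fintype ι) (b : ι → F),
      IsOrtho A O b ∧ V0 n 0 ≤ Submodule.span L (Set.range b))
    (hortho1 : ∀ K, ∃ (ι : Type) (_ : Fintype ι) (b : ι → F),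
      IsOrtho A O b ∧ V1 K K ≤ Submodule.span L (Set.range b))
    (hres0 : ∀ n, ∀ u₁ ∈ V0 n 0, ∀ u₂ ∈ V0 0 n, u₁ ∈ O → Small A O (u₁ - u₂) →
      ∃ c : L, Small A O (u₁ - algebraMap L F c))
    (hres1 : ∀ K, N₁ ≤ K → ∀ u₁ ∈ V1 K 0, ∀ u₂ ∈ V1 N₁ K, u₁ ∈ O → Small A O (u₁ - u₂) →
      ∃ u₀ ∈ V1 N₁ 0, Small A O (u₁ - u₀))
    (hres1' : ∀ K, N₁ ≤ K → ∀ u₁ ∈ V1 0 K, ∀ u₂ ∈ V1 K N₁, u₁ ∈ O → Small A O (u₁ - u₂) →
      ∃ u₀ ∈ V1 0 N₁, Small A O (u₁ - u₀))
    (hstart : ∃ s₁ ∈ V1 N₁ 0, ∃ s₂ ∈ V1 0 N₁, Small A O (s₁ - 1) ∧ Small A O (s₂ - 1)) :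
    ∃ s ∈ V1 N₁ 0, s ∈ V1 0 N₁ ∧ s ≠ 0 := by
  refine exists_common_ne_zero hOA hval harch m hm V0 V1 hmono0 hmono1 hone g hg hpow hmul N₁
    ?_ ?_ ?_ hres0 hres1 hres1' hstart ?_
  · intro n x hx
    obtain ⟨ι, _, b, hb, hle⟩ := hortho0 n
    exact hb.bestApprox_const hOA (hle (hmono0 0 0 n 0 (Nat.zero_le _) le_rfl hone)) (hle hx)
  · intro K hK x hx
    obtain ⟨ι, _, b, hb, hle⟩ := hortho1 K
    exact hb.bestApprox hOA (V1 N₁ 0)
      ((hmono1 N₁ 0 K K hK (Nat.zero_le _)).trans hle)
      (hle (hmono1 K 0 K K le_rfl (Nat.zero_le _) hx))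
  · intro K hK x hx
    obtain ⟨ι, _, b, hb, hle⟩ := hortho1 K
    exact hb.bestApprox hOA (V1 0 N₁)
      ((hmono1 0 N₁ K K (Nat.zero_le _) hK).trans hle)
      (hle (hmono1 0 K K K (Nat.zero_le _) le_rfl hx))
  · intro hdisj
    obtain ⟨ι, _, b, hb, hle⟩ := hortho1 N₁
    exact hb.angle hOA (V1 N₁ 0) (V1 0 N₁)
      ((hmono1 N₁ 0 N₁ N₁ le_rfl (Nat.zero_le _)).trans hle)
      ((hmono1 0 N₁ N₁ N₁ (Nat.zero_le _) le_rfl).trans hle) hdisj

end Ortho

end Fermat.Agent.BAD.Ortho
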