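import Mathlib
import Fermat.Agent.Lib.Red.Lattice
import Fermat.Agent.BAD.Ortho

/-!
# From orthonormal `L[x]`-bases to orthonormal `L`-bases of finite-dimensional subspaces

Bridge between helper72's lattice lemma (`Lib/Red/Lattice.lean`: orthonormal `L[x]`-basis of an
`L[x]`-lattice `M` of a field `F ⊇ L(x)`) and the orthonormal families of `BAD/Ortho.lean`
(`IsOrtho A O b`), in the Subring form used by `Lib/Red/Deform.lean`.

* `PolyOrtho A O x β` : the family `β` is orthonormal over `L[x]`: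
  `∑ aeval x (e i) * β i ∈ O` forces all coefficients of all `e i` into `A`.
* `PolyOrtho.mul_unit` : multiplying by a "Gauss unit" keeps orthonormality.
* `isOrtho_of_polyOrtho` : `x ^ j * β i` (`j ≤ d`) is an orthonormal `L`-family.
* `exists_isOrtho_of_polyBasis` : every finite-dimensional `L`-subspace `V` of
  `{∑ aeval x (e i) * β i}` has an orthonormal basis.
* `exists_isOrtho_of_squeeze` : the same for every finite-dimensional `V` inside an
  `L[x]`-stable `M` squeezed as `g₁ • β ⊆ M`, `g₂ • M ⊆ span β` (`g₁` a Gauss unit): the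
  lattice lemma is applied to `g₁ • β`.
-/

set_option autoImplicit false

open Polynomial

namespace Fermat.Agent.BAD.PolyBasis

open Fermat.Agent.Lib.Red.Deform Fermat.Agent.BAD.Ortho

variable {L F : Type*} [Field L] [Field F] [Algebra L F]

/-- `β` is orthonormal over `L[x]` for `(A, O)`. -/
def PolyOrtho (A : ValuationSubring L) (O : Subring F) (x : F) {ι : Type*} [Fintype ι]
    (β : ι → F) : Prop :=
  ∀ e : ι → L[X], ∑ i, aeval x (e i) * β i ∈ O → ∀ i j, (e i).coeff j ∈ A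

variable {A : ValuationSubring L} {O : Subring F} {x : F}

/-- Multiplying an `L[x]`-orthonormal family by an element `g` that can be divided out of `O`
keeps it orthonormal. -/
theorem PolyOrtho.mul_unit {ι : Type*} [Fintype ι] {β : ι → F} (hβ : PolyOrtho A O x β)
    (g : F) (hg : ∀ v : F, g * v ∈ O → v ∈ O) : PolyOrtho A O x (fun i => g * β i) := by
  intro e he
  refine hβ e (hg _ ?_)
  rw [Finset.mul_sum]
  have : ∑ i, aeval x (e i) * (g * β i) = ∑ i, g * (aeval x (e i) * β i) :=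
    Finset.sum_congr rfl (fun i _ => by ring)
  rwa [← this]

/-- Expansion of `aeval x e * β` with a degree bound. -/
theorem aeval_mul_eq_sum (x β : F) (e : L[X]) (d : ℕ) (hd : e.natDegree ≤ d) :
    aeval x e * β = ∑ j : Fin (d + 1), e.coeff (j : ℕ) • (x ^ (j : ℕ) * β) := by
  have h1 : aeval x e = ∑ j ∈ Finset.range (d + 1), e.coeff j • x ^ j := by
    rw [aeval_eq_sum_range' (Nat.lt_succ_of_le hd)]
  rw [h1, Finset.sum_mul, Finset.sum_range]
  exact Finset.sum_congr rfl (fun j _ => by rw [smul_mul_assoc])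

/-- The polynomial with prescribed coefficients `c j`, `j ≤ d`. -/
noncomputable def polyOf (d : ℕ) (c : Fin (d + 1) → L) : L[X] :=
  ∑ j : Fin (d + 1), monomial (j : ℕ) (c j)

theorem coeff_polyOf (d : ℕ) (c : Fin (d + 1) → L) (j : Fin (d + 1)) :
    (polyOf d c).coeff (j : ℕ) = c j := by
  classical
  rw [polyOf, Polynomial.finsetSum_coeff, Finset.sum_eq_single j]
  · rw [coeff_monomial, if_pos rfl]
  · intro l _ hl
    rw [coeff_monomial, if_neg]
    exact fun h => hl (Fin.ext h)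
  · intro h
    exact absurd (Finset.mem_univ j) h

theorem aeval_polyOf_mul (x β : F) (d : ℕ) (c : Fin (d + 1) → L) :
    aeval x (polyOf d c) * β = ∑ j : Fin (d + 1), c j • (x ^ (j : ℕ) * β) := by
  rw [polyOf, map_sum, Finset.sum_mul]
  refine Finset.sum_congr rfl (fun j _ => ?_)
  rw [aeval_monomial, ← Algebra.smul_def, smul_mul_assoc]

/-- **(PB1)** If `β` is orthonormal over `L[x]` and `x ∈ O`, then the monomial family
`x ^ j * β i`, `j ≤ d`, is an orthonormal `L`-family. -/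
theorem isOrtho_of_polyOrtho {n : ℕ} {β : Fin n → F}
    (hA : ∃ a : L, a ≠ 0 ∧ A.valuation a < 1)
    (hxO : x ∈ O) (hβO : ∀ i, β i ∈ O) (hβ : PolyOrtho A O x β) (d : ℕ) :
    IsOrtho A O (fun p : Fin n × Fin (d + 1) => x ^ (p.2 : ℕ) * β p.1) := by
  have hsum : ∀ c : Fin n × Fin (d + 1) → L,
      ∑ p, c p • (x ^ (p.2 : ℕ) * β p.1) =
        ∑ i, aeval x (polyOf d (fun j => c (i, j))) * β i := by
    intro c
    rw [Fintype.sum_prod_type]
    exact Finset.sum_congr rfl (fun i _ => (aeval_polyOf_mul x (β i) d _).symm)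
  have hcoeff : ∀ c : Fin n × Fin (d + 1) → L,
      ∑ p, c p • (x ^ (p.2 : ℕ) * β p.1) ∈ O → ∀ p, c p ∈ A := by
    intro c hc p
    rw [hsum] at hc
    have h1 := hβ _ hc p.1 (p.2 : ℕ)
    rwa [coeff_polyOf] at h1
  refine ⟨?_, fun p => O.mul_mem (O.pow_mem hxO _) (hβO p.1), hcoeff⟩
  rw [Fintype.linearIndependent_iff]
  intro c hc p0
  by_contra hp0
  obtain ⟨a, ha0, ha⟩ := hA
  have h1 : ∑ p, ((a * c p0)⁻¹ * c p) • (x ^ (p.2 : ℕ) * β p.1) = 0 := by
    have : ∑ p, ((a * c p0)⁻¹ * c p) • (x ^ (p.2 : ℕ) * β p.1) =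
        (a * c p0)⁻¹ • ∑ p, c p • (x ^ (p.2 : ℕ) * β p.1) := by
      rw [Finset.smul_sum]
      exact Finset.sum_congr rfl (fun p _ => by rw [smul_smul])
    rw [this, hc, smul_zero]
  have h2 := hcoeff _ (h1 ▸ O.zero_mem) p0
  have h3 : (a * c p0)⁻¹ * c p0 = a⁻¹ := by
    rw [mul_inv, mul_assoc, inv_mul_cancel₀ hp0, mul_one]
  rw [h3, ← A.valuation_le_one_iff, map_inv₀] at h2
  have h4 : 0 < A.valuation a := by
    rw [zero_lt_iff]
    simpa using ha0
  have h5 : 1 < (A.valuation a)⁻¹ := by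
    rw [one_lt_inv₀ h4]
    exact ha
  exact not_le.2 h5 h2

/-- **(PB2)** Every finite-dimensional `L`-subspace of the `L[x]`-span of an orthonormal
`L[x]`-family has an orthonormal basis. -/
theorem exists_isOrtho_of_polyBasis {n : ℕ} {β : Fin n → F}
    (hOA : ∀ y : L, algebraMap L F y ∈ O ↔ y ∈ A)
    (hA : ∃ a : L, a ≠ 0 ∧ A.valuation a < 1)
    (hxO : x ∈ O) (hβO : ∀ i, β i ∈ O) (hβ : PolyOrtho A O x β)
    (V : Submodule L F) [FiniteDimensional L V]
    (hV : ∀ v ∈ V, ∃ e : Fin n → L[X], v = ∑ i, aeval x (e i) * β i) :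
    ∃ (ι : Type) (_ : Fintype ι) (b : ι → F),
      IsOrtho A O b ∧ Submodule.span L (Set.range b) = V := by
  classical
  -- a finite basis of `V` and a common degree bound
  let bV := Module.finBasis L V
  choose e he using fun k => hV (bV k : F) (bV k).2
  let d : ℕ := Finset.univ.sup (fun p : Fin (Module.finrank L V) × Fin n => (e p.1 p.2).natDegree)
  have hd : ∀ k i, (e k i).natDegree ≤ d := fun k i =>
    Finset.le_sup (f := fun p : Fin (Module.finrank L V) × Fin n => (e p.1 p.2).natDegree)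
      (Finset.mem_univ (k, i))
  have hb := isOrtho_of_polyOrtho hA hxO hβO hβ d
  refine hb.exists_sub hOA V ?_
  -- `V ≤ span` of the monomial family
  have hbasis : ∀ k, (bV k : F) ∈
      Submodule.span L (Set.range (fun p : Fin n × Fin (d + 1) => x ^ (p.2 : ℕ) * β p.1)) := by
    intro k
    rw [he k]
    refine Submodule.sum_mem _ (fun i _ => ?_)
    rw [aeval_mul_eq_sum x (β i) (e k i) d (hd k i)]
    exact Submodule.sum_mem _ (fun j _ => Submodule.smul_mem _ _
      (Submodule.subset_span ⟨(i, j), rfl⟩))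
  intro v hv
  have h1 : (⟨v, hv⟩ : V) ∈ Submodule.span L (Set.range bV) := by
    rw [bV.span_eq]; exact Submodule.mem_top
  have h2 : ∀ w : V, w ∈ Submodule.span L (Set.range bV) → (w : F) ∈
      Submodule.span L (Set.range (fun p : Fin n × Fin (d + 1) => x ^ (p.2 : ℕ) * β p.1)) := by
    intro w hw
    induction hw using Submodule.span_induction with
    | mem y hy =>
      obtain ⟨k, rfl⟩ := hy
      exact hbasis k
    | zero => simp
    | add y z _ _ hy hz =>
      rw [Submodule.coe_add]; exact Submodule.add_mem _ hy hz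
    | smul c y _ hy =>
      rw [Submodule.coe_smul]; exact Submodule.smul_mem _ _ hy
  exact h2 _ h1

/-- **(PB3) squeeze.**  `β` an orthonormal `L[x]`-family (e.g. of the integral closure of
`L[x]`), `M` an `L[x]`-stable additive subgroup with `g₁ • β ⊆ M` and `g₂ • M ⊆ span β`, where
`g₁` can be divided out of `O`.  Then every finite-dimensional `L`-subspace of `M` has an
orthonormal basis.  (helper72's lattice lemma applied to `g₁ • β`.) -/
theorem exists_isOrtho_of_squeeze [IsAlgClosed L] {n : ℕ} {β : Fin n → F}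
    (hOA : ∀ y : L, algebraMap L F y ∈ O ↔ y ∈ A)
    (hA : ∃ a : L, a ≠ 0 ∧ A.valuation a < 1)
    (hx : ∀ e : L[X], e ≠ 0 → aeval x e ≠ 0) (hxO : x ∈ O)
    (hu1 : ∀ c ∈ A, ∀ v : F, (x - algebraMap L F c) * v ∈ O → v ∈ O)
    (hu2 : ∀ t ∈ A, ∀ v : F, (1 - algebraMap L F t * x) * v ∈ O → v ∈ O)
    (hβO : ∀ i, β i ∈ O) (hβ : PolyOrtho A O x β)
    (M : AddSubgroup F) (hM : ∀ (e : L[X]) (v : F), v ∈ M → aeval x e * v ∈ M)
    (g₁ g₂ : L[X]) (hg₁ : g₁ ≠ 0) (hg₂ : g₂ ≠ 0)
    (hg₁O : aeval x g₁ ∈ O) (hg₁u : ∀ v : F, aeval x g₁ * v ∈ O → v ∈ O)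
    (hg₁M : ∀ i, aeval x g₁ * β i ∈ M)
    (hg₂M : ∀ v ∈ M, ∃ e : Fin n → L[X], aeval x g₂ * v = ∑ i, aeval x (e i) * β i)
    (V : Submodule L F) [FiniteDimensional L V] (hVM : ∀ v ∈ V, v ∈ M) :
    ∃ (ι : Type) (_ : Fintype ι) (b : ι → F),
      IsOrtho A O b ∧ Submodule.span L (Set.range b) = V := by
  have hβ₁ : PolyOrtho A O x (fun i => aeval x g₁ * β i) := hβ.mul_unit _ hg₁u
  have hDM : ∀ v ∈ M, ∃ e : Fin n → L[X],
      aeval x (g₁ * g₂) * v = ∑ i, aeval x (e i) * (aeval x g₁ * β i) := by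
    intro v hv
    obtain ⟨e, he⟩ := hg₂M v hv
    refine ⟨e, ?_⟩
    rw [map_mul, mul_assoc, he, Finset.mul_sum]
    exact Finset.sum_congr rfl (fun i _ => by ring)
  obtain ⟨β', _, hβ'O, hβ', hrep, _⟩ :=
    Fermat.Agent.Lib.Red.Lattice.exists_orthonormal_basis_field A x hx O.toAddSubgroup
      (fun a ha v hv => O.mul_mem ((hOA a).2 ha) hv) (fun v hv => O.mul_mem hxO hv) hu1 hu2 M hM
      (fun i => aeval x g₁ * β i) hg₁M (fun i => O.mul_mem hg₁O (hβO i))
      (fun e he => hβ₁ e he) (g₁ * g₂) (mul_ne_zero hg₁ hg₂) hDM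
  exact exists_isOrtho_of_polyBasis hOA hA hxO hβ'O (fun e he => hβ' e he) V
    (fun v hv => hrep v (hVM v hv))

end Fermat.Agent.BAD.PolyBasis
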