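import Mathlib
import Fermat.Agent.Lib.Red.CoordOrtho
import Fermat.Agent.BAD.PolyBasis

/-!
# Orthonormal bases of all finite-dimensional subspaces from one orthonormal `L[x]`-basis

Setting: `L ⊆ F` fields, `A` a valuation subring of `L`, `O` a subring of `F`, `x ∈ F`
transcendental over `L`.

* `polyOrtho_of_reductions` : **initial families from two reductions.**  If `O ⊆ O₁ ∩ O₂` and
  `red₁ : O₁ → E₁`, `red₂ : O₂ → E₂` are ring homomorphisms restricting to `π : A → k` on the
  constants (`π` kills the maximal ideal of `A`), then a family `β` whose pairs of reductions are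
  jointly independent over `k[X]` (acting through the reductions of `x`) is orthonormal over
  `L[x]` for `(A, O)`.
* `exists_polySpan_of_card_le` : an `L[x]`-independent family with at least as many elements as
  some `L(x)`-spanning family is `L(x)`-spanning (with polynomial denominators).
* `exists_unit_factor` : over an algebraically closed `L`, every nonzero `D ∈ L[x]` is a constant
  times a unit of `O`, provided all `x - c` and `1 - t x` (`c, t ∈ A`) are units of `O`.
* `hasOrtho_of_polyOrtho_span` : **the lattice theorem.**  If `F` has an `L[x]`-orthonormal family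
  which spans `F` over `L(x)`, and all `x - c`, `1 - t x` (`c, t ∈ A`) are units of `O`, then
  EVERY finite-dimensional `L`-subspace of `F` has an orthonormal basis (`CoordLat.HasOrtho`).
* `expand_sum_eq_zero`, `polyIndep_frobenius` : independence of the "Frobenius-twisted" family
  `b i * x ^ t` (`t < ℓ`) over `k[X]` acting through `x ^ ℓ`.
-/

set_option autoImplicit false

open Polynomial

namespace Fermat.Agent.BAD.PolyRed

open Fermat.Agent.Lib.Red.Deform Fermat.Agent.Lib.Red.CoordLat Fermat.Agent.BAD.PolyBasis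

variable {L F : Type*} [Field L] [Field F] [Algebra L F]

/-! ### Reduction of polynomial expressions -/

section Reduction

variable {S : Type*} [SetLike S F] [SubringClass S F] (O₁ : S)
  {k E : Type*} [CommRing k] [CommRing E] [Algebra k E]
  (A : ValuationSubring L) (π : A →+* k) (red : O₁ →+* E)

/-- The inclusion of the constants `A → O₁`. -/
noncomputable def constHom (hc : ∀ a : A, algebraMap L F (a : L) ∈ O₁) : A →+* O₁ :=
  ((algebraMap L F).comp A.subtype).codRestrict O₁ hc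

/-- Evaluation at `x ∈ O₁` of polynomials with coefficients in `A`. -/
noncomputable def evalHom (hc : ∀ a : A, algebraMap L F (a : L) ∈ O₁) (x : F) (hx : x ∈ O₁) :
    A[X] →+* O₁ :=
  Polynomial.eval₂RingHom (constHom O₁ A hc) ⟨x, hx⟩

theorem coe_evalHom (hc : ∀ a : A, algebraMap L F (a : L) ∈ O₁) (x : F) (hx : x ∈ O₁)
    (p : A[X]) : ((evalHom O₁ A hc x hx p : O₁) : F) = aeval x (p.map A.subtype) := by
  have h : (SubringClass.subtype O₁).comp (evalHom O₁ A hc x hx) =
      ((aeval x : L[X] →ₐ[L] F) : L[X] →+* F).comp (Polynomial.mapRingHom A.subtype) := by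
    apply Polynomial.ringHom_ext
    · intro a
      simp [evalHom, constHom]
    · simp [evalHom]
  exact RingHom.congr_fun h p

theorem red_evalHom
    (hc : ∀ a : A, ∃ h : algebraMap L F (a : L) ∈ O₁, red ⟨_, h⟩ = algebraMap k E (π a))
    (x : F) (hx : x ∈ O₁) (p : A[X]) :
    red (evalHom O₁ A (fun a => (hc a).1) x hx p) = aeval (red ⟨x, hx⟩) (p.map π) := by
  have h : red.comp (evalHom O₁ A (fun a => (hc a).1) x hx) =
      ((aeval (red ⟨x, hx⟩) : k[X] →ₐ[k] E) : k[X] →+* E).comp (Polynomial.mapRingHom π) := by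
    apply Polynomial.ringHom_ext
    · intro a
      obtain ⟨h, e⟩ := hc a
      simp only [RingHom.comp_apply, evalHom, coe_eval₂RingHom, eval₂_C, coe_mapRingHom, map_C,
        RingHom.coe_coe, aeval_C]
      exact e
    · simp [evalHom]
  exact RingHom.congr_fun h p

/-- If `∑ qᵢ(x) βᵢ = a • y` with `qᵢ ∈ A[X]`, `y ∈ O₁` and `π a = 0`, the reduced sum vanishes. -/
theorem red_sum_eq_zero
    (hc : ∀ a : A, ∃ h : algebraMap L F (a : L) ∈ O₁, red ⟨_, h⟩ = algebraMap k E (π a))
    (x : F) (hx : x ∈ O₁) {ι : Type*} [Fintype ι] (β : ι → F) (hβ : ∀ i, β i ∈ O₁)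
    (q : ι → A[X]) (a : A) (ha : π a = 0) (y : F) (hy : y ∈ O₁)
    (hsum : ∑ i, aeval x ((q i).map A.subtype) * β i = algebraMap L F (a : L) * y) :
    ∑ i, aeval (red ⟨x, hx⟩) ((q i).map π) * red ⟨β i, hβ i⟩ = 0 := by
  obtain ⟨ha', hared⟩ := hc a
  have h1 : (∑ i, evalHom O₁ A (fun a => (hc a).1) x hx (q i) * ⟨β i, hβ i⟩ : O₁) =
      ⟨algebraMap L F (a : L), ha'⟩ * ⟨y, hy⟩ := by
    apply Subtype.ext
    have h2 : ((∑ i, evalHom O₁ A (fun a => (hc a).1) x hx (q i) * ⟨β i, hβ i⟩ : O₁) : F) =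
        ∑ i, aeval x ((q i).map A.subtype) * β i := by
      rw [← SubringClass.coe_subtype O₁, map_sum]
      refine Finset.sum_congr rfl (fun i _ => ?_)
      rw [map_mul, SubringClass.coe_subtype, coe_evalHom]
    rw [h2, hsum]
    rfl
  have h3 := congrArg red h1
  rw [map_sum, map_mul, hared, ha, map_zero, zero_mul] at h3
  rw [← h3]
  refine Finset.sum_congr rfl (fun i _ => ?_)
  rw [map_mul, red_evalHom O₁ A π red hc]

end Reduction

/-- **Initial orthonormal families from two reductions.** -/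
theorem polyOrtho_of_reductions {S₁ S₂ : Type*} [SetLike S₁ F] [SubringClass S₁ F]
    [SetLike S₂ F] [SubringClass S₂ F] (O₁ : S₁) (O₂ : S₂)
    {k E₁ E₂ : Type*} [Field k] [CommRing E₁] [CommRing E₂] [Algebra k E₁] [Algebra k E₂]
    (A : ValuationSubring L) (π : A →+* k) (hπ : ∀ a : A, A.valuation (a : L) < 1 → π a = 0)
    (red₁ : O₁ →+* E₁) (red₂ : O₂ →+* E₂)
    (hc₁ : ∀ a : A, ∃ h : algebraMap L F (a : L) ∈ O₁, red₁ ⟨_, h⟩ = algebraMap k E₁ (π a))
    (hc₂ : ∀ a : A, ∃ h : algebraMap L F (a : L) ∈ O₂, red₂ ⟨_, h⟩ = algebraMap k E₂ (π a))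
    (O : Subring F) (hO : ∀ y ∈ O, y ∈ O₁ ∧ y ∈ O₂)
    (x : F) (hx₁ : x ∈ O₁) (hx₂ : x ∈ O₂) {ι : Type*} [Fintype ι] (β : ι → F)
    (hβ₁ : ∀ i, β i ∈ O₁) (hβ₂ : ∀ i, β i ∈ O₂)
    (hind : ∀ g : ι → k[X],
      ∑ i, aeval (red₁ ⟨x, hx₁⟩) (g i) * red₁ ⟨β i, hβ₁ i⟩ = 0 →
      ∑ i, aeval (red₂ ⟨x, hx₂⟩) (g i) * red₂ ⟨β i, hβ₂ i⟩ = 0 → ∀ i, g i = 0) :
    PolyOrtho A O x β := by
  classical
  intro e he i j
  by_contra hij
  set d : ℕ := Finset.univ.sup (fun i => (e i).natDegree) with hd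
  have hdeg : ∀ i, (e i).natDegree ≤ d := fun i =>
    Finset.le_sup (f := fun i => (e i).natDegree) (Finset.mem_univ i)
  obtain ⟨p₀, -, hmax⟩ := Finset.exists_max_image (Finset.univ : Finset (ι × Fin (d + 1)))
    (fun p => A.valuation ((e p.1).coeff (p.2 : ℕ))) ⟨(i, 0), Finset.mem_univ _⟩
  set c : L := (e p₀.1).coeff (p₀.2 : ℕ) with hc
  have hle : ∀ i j, A.valuation ((e i).coeff j) ≤ A.valuation c := by
    intro i j
    by_cases hj : j ≤ d
    · exact hmax (i, ⟨j, Nat.lt_succ_of_le hj⟩) (Finset.mem_univ _)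
    · rw [Polynomial.coeff_eq_zero_of_natDegree_lt (lt_of_le_of_lt (hdeg i) (not_le.1 hj)),
        map_zero]
      exact zero_le
  have hc1 : 1 < A.valuation c := by
    have h1 : ¬ A.valuation ((e i).coeff j) ≤ 1 := fun h => hij ((A.valuation_le_one_iff _).1 h)
    exact lt_of_lt_of_le (not_le.1 h1) (hle i j)
  have hc0 : c ≠ 0 := by
    intro h0
    rw [h0, map_zero] at hc1
    exact not_lt_zero hc1
  have hvpos : 0 < A.valuation c := lt_trans zero_lt_one hc1
  have hcinv : A.valuation c⁻¹ < 1 := by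
    rw [map_inv₀]
    exact inv_lt_one_of_one_lt₀ hc1
  have hcinvA : c⁻¹ ∈ A := (A.valuation_le_one_iff _).1 hcinv.le
  have hcoeffA : ∀ i j, c⁻¹ * (e i).coeff j ∈ A := by
    intro i j
    rw [← A.valuation_le_one_iff, map_mul, map_inv₀, inv_mul_le_iff₀ hvpos, mul_one]
    exact hle i j
  have hlift : ∀ i, ∃ q : A[X], q.map A.subtype = C c⁻¹ * e i := by
    intro i
    have h1 : C c⁻¹ * e i ∈ Polynomial.lifts A.subtype := by
      rw [Polynomial.lifts_iff_coeff_lifts]
      intro n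
      rw [coeff_C_mul]
      exact ⟨⟨_, hcoeffA i n⟩, rfl⟩
    exact (Polynomial.mem_lifts _).1 h1
  choose q hq using hlift
  have hy := hO _ he
  have hsum : ∑ i, aeval x ((q i).map A.subtype) * β i =
      algebraMap L F ((⟨c⁻¹, hcinvA⟩ : A) : L) * ∑ i, aeval x (e i) * β i := by
    rw [Finset.mul_sum]
    refine Finset.sum_congr rfl (fun i _ => ?_)
    rw [hq i, map_mul, aeval_C, mul_assoc]
  have hπc : π ⟨c⁻¹, hcinvA⟩ = 0 := hπ _ hcinv
  have h1 := red_sum_eq_zero O₁ A π red₁ hc₁ x hx₁ β hβ₁ q ⟨c⁻¹, hcinvA⟩ hπc _ hy.1 hsum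
  have h2 := red_sum_eq_zero O₂ A π red₂ hc₂ x hx₂ β hβ₂ q ⟨c⁻¹, hcinvA⟩ hπc _ hy.2 hsum
  have h3 := hind (fun i => (q i).map π) h1 h2 p₀.1
  have h4 : ((q p₀.1).map π).coeff (p₀.2 : ℕ) = 0 := by rw [h3, coeff_zero]
  rw [coeff_map] at h4
  have h5 : (q p₀.1).coeff (p₀.2 : ℕ) = 1 := by
    apply Subtype.ext
    have h6 : (((q p₀.1).map A.subtype).coeff (p₀.2 : ℕ)) = c⁻¹ * c := by
      rw [hq, coeff_C_mul]
    rw [coeff_map, inv_mul_cancel₀ hc0] at h6
    exact h6
  rw [h5, map_one] at h4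
  exact one_ne_zero h4

/-! ### Spanning over `L(x)` with polynomial denominators -/

section Span

variable (x : F)

/-- Common polynomial denominator of finitely many elements of `L(x)`. -/
theorem exists_common_denom (hx : ∀ e : L[X], e ≠ 0 → aeval x e ≠ 0) {ι : Type*} [Fintype ι]
    (f : ι → F) (hf : ∀ i, f i ∈ IntermediateField.adjoin L ({x} : Set F)) :
    ∃ D : L[X], D ≠ 0 ∧ ∃ e : ι → L[X], ∀ i, aeval x D * f i = aeval x (e i) := by
  classical
  have h1 : ∀ i, ∃ r s : L[X], s ≠ 0 ∧ f i = aeval x r / aeval x s := by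
    intro i
    obtain ⟨r, s, hrs⟩ := (IntermediateField.mem_adjoin_simple_iff L _).1 (hf i)
    by_cases hs : s = 0
    · refine ⟨0, 1, one_ne_zero, ?_⟩
      simp [hrs, hs]
    · exact ⟨r, s, hs, hrs⟩
  choose r s hs hrs using h1
  refine ⟨∏ i, s i, Finset.prod_ne_zero_iff.2 (fun i _ => hs i),
    fun i => r i * ∏ j ∈ Finset.univ.erase i, s j, fun i => ?_⟩
  have hsi : aeval x (s i) ≠ 0 := hx _ (hs i)
  rw [hrs i, ← Finset.mul_prod_erase Finset.univ s (Finset.mem_univ i), map_mul, map_mul]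
  field_simp

/-- An `L[x]`-independent family with at least as many elements as an `L(x)`-spanning family is
`L(x)`-spanning. -/
theorem exists_polySpan_of_card_le (hx : ∀ e : L[X], e ≠ 0 → aeval x e ≠ 0)
    {ι κ : Type*} [Fintype ι] [Fintype κ] (γ : κ → F)
    (hγ : ∀ v : F, ∃ D : L[X], D ≠ 0 ∧ ∃ e : κ → L[X],
      aeval x D * v = ∑ i, aeval x (e i) * γ i)
    (β : ι → F) (hβ : ∀ e : ι → L[X], ∑ i, aeval x (e i) * β i = 0 → ∀ i, e i = 0)
    (hcard : Fintype.card κ ≤ Fintype.card ι) (v : F) :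
    ∃ D : L[X], D ≠ 0 ∧ ∃ e : ι → L[X], aeval x D * v = ∑ i, aeval x (e i) * β i := by
  classical
  set K := IntermediateField.adjoin L ({x} : Set F) with hK
  have hmemK : ∀ p : L[X], aeval x p ∈ K := fun p =>
    IntermediateField.algebra_adjoin_le_adjoin L _ (Polynomial.aeval_mem_adjoin_singleton L x)
  have hsmul : ∀ (a : K) (w : F), a • w = (a : F) * w := fun a w => rfl
  -- `γ` spans `F` over `K`
  have hspanγ : Submodule.span K (Set.range γ) = ⊤ := by
    rw [eq_top_iff]
    intro w _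
    obtain ⟨D, hD, e, he⟩ := hγ w
    have hD0 := hx D hD
    have hw : w = ∑ i, (⟨aeval x (e i) / aeval x D, K.div_mem (hmemK _) (hmemK _)⟩ : K) • γ i := by
      have h1 : ∀ i, (⟨aeval x (e i) / aeval x D, K.div_mem (hmemK _) (hmemK _)⟩ : K) • γ i =
          (aeval x D)⁻¹ * (aeval x (e i) * γ i) := by
        intro i
        rw [hsmul]
        show aeval x (e i) / aeval x D * γ i = _
        rw [div_eq_mul_inv]
        ring
      rw [Finset.sum_congr rfl (fun i _ => h1 i), ← Finset.mul_sum, ← he,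
        inv_mul_cancel_left₀ hD0]
    rw [hw]
    exact Submodule.sum_mem _ (fun i _ => Submodule.smul_mem _ _ (Submodule.subset_span ⟨i, rfl⟩))
  -- `β` is linearly independent over `K`
  have hliβ : LinearIndependent K β := by
    rw [Fintype.linearIndependent_iff]
    intro f hf i
    obtain ⟨D, hD, e, he⟩ := exists_common_denom x hx (fun i => (f i : F)) (fun i => (f i).2)
    have h1 : ∑ i, aeval x (e i) * β i = 0 := by
      have h2 : ∑ i, aeval x (e i) * β i = aeval x D * ∑ i, f i • β i := by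
        rw [Finset.mul_sum]
        refine Finset.sum_congr rfl (fun i _ => ?_)
        rw [← he i, hsmul, mul_assoc]
      rw [h2, hf, mul_zero]
    have h2 := hβ e h1 i
    have h3 := he i
    rw [h2, map_zero] at h3
    exact Subtype.ext ((mul_eq_zero.1 h3).resolve_left (hx D hD))
  have : Module.Finite K F :=
    Module.finite_def.2 (hspanγ ▸ Submodule.fg_span (Set.finite_range γ))
  have hfr : Module.finrank K F ≤ Fintype.card κ := by
    have h1 := finrank_range_le_card (R := K) γ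
    rw [Set.finrank, hspanγ, finrank_top] at h1
    exact h1
  have hcard' : Fintype.card ι = Module.finrank K F :=
    le_antisymm hliβ.fintype_card_le_finrank (hfr.trans hcard)
  have hspanβ : Submodule.span K (Set.range β) = ⊤ :=
    hliβ.span_eq_top_of_card_eq_finrank' hcard'
  have hv : v ∈ Submodule.span K (Set.range β) := by rw [hspanβ]; trivial
  obtain ⟨f, hf⟩ := (Submodule.mem_span_range_iff_exists_fun K).1 hv
  obtain ⟨D, hD, e, he⟩ := exists_common_denom x hx (fun i => (f i : F)) (fun i => (f i).2)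
  refine ⟨D, hD, e, ?_⟩
  rw [← hf, Finset.mul_sum]
  refine Finset.sum_congr rfl (fun i _ => ?_)
  rw [← he i, hsmul, mul_assoc]

end Span

/-! ### The lattice theorem -/

/-- Over an algebraically closed field every nonzero polynomial in `x` is a constant times a unit
of `O`, if all `x - c` and `1 - t x` (`c, t ∈ A`) are units of `O`. -/
theorem exists_unit_factor [IsAlgClosed L] {A : ValuationSubring L} {O : Subring F} {x : F}
    (hOA : ∀ y : L, algebraMap L F y ∈ O ↔ y ∈ A)
    (hx : ∀ e : L[X], e ≠ 0 → aeval x e ≠ 0) (hxO : x ∈ O)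
    (hu1 : ∀ c ∈ A, (x - algebraMap L F c)⁻¹ ∈ O)
    (hu2 : ∀ t ∈ A, (1 - algebraMap L F t * x)⁻¹ ∈ O)
    (D : L[X]) (hD : D ≠ 0) :
    ∃ (a : L) (G : F), a ≠ 0 ∧ G ≠ 0 ∧ G ∈ O ∧ G⁻¹ ∈ O ∧ aeval x D = algebraMap L F a * G := by
  classical
  have key : ∀ s : Multiset L, ∃ (a : L) (G : F), a ≠ 0 ∧ G ≠ 0 ∧ G ∈ O ∧ G⁻¹ ∈ O ∧
      aeval x ((s.map (fun c => X - C c)).prod) = algebraMap L F a * G := by
    intro s
    induction s using Multiset.induction_on with
    | empty =>
      refine ⟨1, 1, one_ne_zero, one_ne_zero, O.one_mem, ?_, ?_⟩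
      · rw [inv_one]; exact O.one_mem
      · simp
    | cons c s ih =>
      obtain ⟨a, G, ha, hG, hGO, hGinv, hprod⟩ := ih
      have hxc : aeval x (X - C c : L[X]) = x - algebraMap L F c := by simp
      by_cases hcA : c ∈ A
      · have hne : x - algebraMap L F c ≠ 0 := by
          rw [← hxc]; exact hx _ (X_sub_C_ne_zero c)
        refine ⟨a, (x - algebraMap L F c) * G, ha, mul_ne_zero hne hG,
          O.mul_mem (O.sub_mem hxO ((hOA c).2 hcA)) hGO, ?_, ?_⟩
        · rw [mul_inv]; exact O.mul_mem (hu1 c hcA) hGinv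
        · rw [Multiset.map_cons, Multiset.prod_cons, map_mul, hprod, hxc]; ring
      · have hc0 : c ≠ 0 := fun h => hcA (h ▸ A.zero_mem)
        have hcinv : c⁻¹ ∈ A := (A.mem_or_inv_mem c).resolve_left hcA
        have hne : (1 - algebraMap L F c⁻¹ * x) ≠ 0 := by
          have h1 : aeval x (1 - C c⁻¹ * X : L[X]) = 1 - algebraMap L F c⁻¹ * x := by simp
          rw [← h1]
          apply hx
          intro h0
          have h2 := congrArg (fun p : L[X] => p.coeff 0) h0
          simp at h2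
        refine ⟨-c * a, (1 - algebraMap L F c⁻¹ * x) * G, mul_ne_zero (neg_ne_zero.2 hc0) ha,
          mul_ne_zero hne hG,
          O.mul_mem (O.sub_mem O.one_mem (O.mul_mem ((hOA _).2 hcinv) hxO)) hGO, ?_, ?_⟩
        · rw [mul_inv]; exact O.mul_mem (hu2 _ hcinv) hGinv
        · rw [Multiset.map_cons, Multiset.prod_cons, map_mul, hprod, hxc, map_mul, map_neg,
            map_inv₀]
          have hc0' : algebraMap L F c ≠ 0 := by
            intro h0
            exact hc0 ((map_eq_zero (algebraMap L F)).1 h0)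
          field_simp
          ring
  obtain ⟨a, G, ha, hG, hGO, hGinv, hprod⟩ := key D.roots
  refine ⟨D.leadingCoeff * a, G, mul_ne_zero (leadingCoeff_ne_zero.2 hD) ha, hG, hGO, hGinv, ?_⟩
  have hDeq := (IsAlgClosed.splits D).eq_prod_roots
  calc aeval x D = aeval x (C D.leadingCoeff * (D.roots.map (fun c => X - C c)).prod) :=
        congrArg (aeval x) hDeq
    _ = algebraMap L F (D.leadingCoeff * a) * G := by
        rw [map_mul, aeval_C, hprod, map_mul, mul_assoc]

/-- The `L`-subspace of `L[x]`-combinations of a family. -/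
def polyRange (x : F) {ι : Type*} [Fintype ι] (β : ι → F) : Submodule L F where
  carrier := {v | ∃ e : ι → L[X], v = ∑ i, aeval x (e i) * β i}
  add_mem' := by
    rintro _ _ ⟨e₁, rfl⟩ ⟨e₂, rfl⟩
    refine ⟨e₁ + e₂, ?_⟩
    rw [← Finset.sum_add_distrib]
    exact Finset.sum_congr rfl (fun i _ => by rw [Pi.add_apply, map_add, add_mul])
  zero_mem' := ⟨0, by simp⟩
  smul_mem' := by
    rintro c _ ⟨e, rfl⟩
    refine ⟨fun i => C c * e i, ?_⟩
    rw [Finset.smul_sum]
    exact Finset.sum_congr rfl (fun i _ => by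
      rw [map_mul, aeval_C, mul_assoc, Algebra.smul_def])

theorem mem_polyRange (x : F) {ι : Type*} [Fintype ι] (β : ι → F) (v : F) :
    v ∈ polyRange (L := L) x β ↔ ∃ e : ι → L[X], v = ∑ i, aeval x (e i) * β i := Iff.rfl

/-- **The lattice theorem.**  If `F` has an `L[x]`-orthonormal family spanning `F` over `L(x)`
and all `x - c`, `1 - t x` (`c, t ∈ A`) are units of `O`, then every finite-dimensional
`L`-subspace of `F` has an orthonormal basis. -/
theorem hasOrtho_of_polyOrtho_span [IsAlgClosed L] {A : ValuationSubring L} {O : Subring F}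
    {x : F} (hOA : ∀ y : L, algebraMap L F y ∈ O ↔ y ∈ A) (hA : ∃ a : L, a ∉ A)
    (hx : ∀ e : L[X], e ≠ 0 → aeval x e ≠ 0) (hxO : x ∈ O)
    (hu1 : ∀ c ∈ A, (x - algebraMap L F c)⁻¹ ∈ O)
    (hu2 : ∀ t ∈ A, (1 - algebraMap L F t * x)⁻¹ ∈ O)
    {ι : Type*} [Fintype ι] (β : ι → F) (hβO : ∀ i, β i ∈ O) (hβ : PolyOrtho A O x β)
    (hspan : ∀ v : F, ∃ D : L[X], D ≠ 0 ∧ ∃ e : ι → L[X],
      aeval x D * v = ∑ i, aeval x (e i) * β i)
    (V : Submodule L F) [FiniteDimensional L V] : HasOrtho A O V := by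
  classical
  -- reindex by `Fin n`
  set eq := Fintype.equivFin ι with heq
  set β' : Fin (Fintype.card ι) → F := fun i => β (eq.symm i) with hβ'
  have hβ'O : ∀ i, β' i ∈ O := fun i => hβO _
  have hsum' : ∀ e : Fin (Fintype.card ι) → L[X],
      ∑ i, aeval x (e i) * β' i = ∑ i, aeval x (e (eq i)) * β i := by
    intro e
    rw [← Equiv.sum_comp eq]
    refine Finset.sum_congr rfl (fun i _ => ?_)
    show aeval x (e (eq i)) * β (eq.symm (eq i)) = _
    rw [Equiv.symm_apply_apply]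
  have hβ'ortho : ∀ e : Fin (Fintype.card ι) → L[X], ∑ i, aeval x (e i) * β' i ∈ O →
      ∀ i j, (e i).coeff j ∈ A := by
    intro e he i j
    rw [hsum'] at he
    have := hβ (fun i => e (eq i)) he (eq.symm i) j
    rwa [Equiv.apply_symm_apply] at this
  -- a basis of `V` and a common denominator
  let bV := Module.finBasis L V
  choose Dk hDk ek hek using fun k => hspan (bV k : F)
  set D : L[X] := ∏ k, Dk k with hDdef
  have hD : D ≠ 0 := Finset.prod_ne_zero_iff.2 (fun k _ => hDk k)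
  obtain ⟨a, G, ha, hG, hGO, hGinv, hDG⟩ := exists_unit_factor hOA hx hxO hu1 hu2 D hD
  have ha' : algebraMap L F a ≠ 0 := fun h0 => ha ((map_eq_zero (algebraMap L F)).1 h0)
  -- `G • bV k` is an `L[x]`-combination of `β'`
  have hGb : ∀ k, G * (bV k : F) ∈ polyRange (L := L) x β' := by
    intro k
    refine ⟨fun i => C a⁻¹ * ((∏ j ∈ Finset.univ.erase k, Dk j) * ek k (eq.symm i)), ?_⟩
    rw [hsum']
    have h1 : aeval x D * (bV k : F) =
        ∑ i, aeval x ((∏ j ∈ Finset.univ.erase k, Dk j) * ek k i) * β i := by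
      rw [hDdef, ← Finset.mul_prod_erase Finset.univ Dk (Finset.mem_univ k), map_mul,
        mul_comm (aeval x (Dk k)), mul_assoc, hek k, Finset.mul_sum]
      refine Finset.sum_congr rfl (fun i _ => ?_)
      rw [map_mul, mul_assoc]
    have h2 : G * (bV k : F) = (algebraMap L F a)⁻¹ * (aeval x D * (bV k : F)) := by
      rw [hDG, mul_assoc, inv_mul_cancel_left₀ ha']
    rw [h2, h1, Finset.mul_sum]
    refine Finset.sum_congr rfl (fun i _ => ?_)
    rw [Equiv.symm_apply_apply]
    simp only [map_mul, aeval_C, map_inv₀]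
    ring
  -- the translated space
  set V₁ : Submodule L F := V.map (LinearMap.mulLeft L G) with hV₁
  have hV₁P : ∀ w ∈ V₁, ∃ e : Fin (Fintype.card ι) → L[X], w = ∑ i, aeval x (e i) * β' i := by
    intro w hw
    obtain ⟨v, hv, rfl⟩ := hw
    rw [← mem_polyRange]
    have h1 : (⟨v, hv⟩ : V) = ∑ k, bV.repr ⟨v, hv⟩ k • bV k := (bV.sum_repr ⟨v, hv⟩).symm
    have h2 : v = ∑ k, bV.repr ⟨v, hv⟩ k • (bV k : F) := by
      have := congrArg (Submodule.subtype V) h1
      rw [map_sum] at this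
      simpa using this
    rw [h2, map_sum]
    refine Submodule.sum_mem _ (fun k _ => ?_)
    rw [map_smul]
    exact Submodule.smul_mem _ _ (hGb k)
  have h1 : HasOrtho A O V₁ := hasOrtho_of_polyBasis hOA hA x hxO β' hβ'O hβ'ortho V₁ hV₁P
  refine h1.mul_unit G⁻¹ (inv_ne_zero hG) hGinv (by rw [inv_inv]; exact hGO) (fun y => ?_)
  rw [inv_inv, hV₁]
  constructor
  · intro hy
    exact ⟨y, hy, rfl⟩
  · rintro ⟨z, hz, hzy⟩
    have : z = y := mul_left_cancel₀ hG hzy
    rwa [← this]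

/-! ### Frobenius-twisted independence -/

/-- Uniqueness of base-`ℓ` digits for polynomials: `∑_{t<ℓ} g_t(X^ℓ) X^t = 0` forces all
`g_t = 0`. -/
theorem expand_sum_eq_zero {R : Type*} [CommRing R] (ℓ : ℕ) (hℓ : 0 < ℓ) (g : Fin ℓ → R[X])
    (h : ∑ t : Fin ℓ, expand R ℓ (g t) * X ^ (t : ℕ) = 0) : ∀ t, g t = 0 := by
  intro t₀
  ext s
  have h1 := congrArg (fun p : R[X] => p.coeff (ℓ * s + (t₀ : ℕ))) h
  simp only [Polynomial.finsetSum_coeff, coeff_zero] at h1
  rw [Finset.sum_eq_single t₀] at h1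
  · rw [coeff_mul_X_pow, coeff_expand hℓ, if_pos (dvd_mul_right ℓ s),
      Nat.mul_div_cancel_left s hℓ] at h1
    rw [h1, coeff_zero]
  · intro t _ ht
    rw [coeff_mul_X_pow']
    split_ifs with hle
    · rw [coeff_expand hℓ, if_neg]
      intro hdvd
      apply ht
      have ht₀ := t₀.2
      have htl := t.2
      -- `ℓ ∣ ℓ s + t₀ - t` with `t, t₀ < ℓ` forces `t = t₀`
      obtain ⟨m, hm⟩ := hdvd
      apply Fin.ext
      by_contra hne
      rcases Nat.lt_or_gt_of_ne hne with hlt | hgt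
      · -- t < t₀ : ℓ m = ℓ s + (t₀ - t), 0 < t₀ - t < ℓ
        have h3 : ℓ * m = ℓ * s + ((t₀ : ℕ) - (t : ℕ)) := by omega
        have h4 : ℓ ∣ (t₀ : ℕ) - (t : ℕ) := by
          have : ℓ ∣ ℓ * s + ((t₀ : ℕ) - (t : ℕ)) := ⟨m, h3.symm⟩
          exact (Nat.dvd_add_right (dvd_mul_right ℓ s)).1 this
        have h5 := Nat.le_of_dvd (by omega) h4
        omega
      · -- t₀ < t : ℓ m + (t - t₀) = ℓ s
        have h3 : ℓ * m + ((t : ℕ) - (t₀ : ℕ)) = ℓ * s := by omega
        have h4 : ℓ ∣ (t : ℕ) - (t₀ : ℕ) := by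
          have : ℓ ∣ ℓ * m + ((t : ℕ) - (t₀ : ℕ)) := ⟨s, h3⟩
          exact (Nat.dvd_add_right (dvd_mul_right ℓ m)).1 this
        have h5 := Nat.le_of_dvd (by omega) h4
        omega
    · rfl
  · intro h0
    exact absurd (Finset.mem_univ t₀) h0

/-- **Frobenius-twisted independence.**  If `b` is independent over `k[X]` acting through `x̄`,
then the family `b i * x̄ ^ t` (`t < ℓ`) is independent over `k[X]` acting through `x̄ ^ ℓ`. -/
theorem polyIndep_frobenius {k E : Type*} [Field k] [CommRing E] [Algebra k E] (xb : E)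
    {ι : Type*} [Fintype ι] (b : ι → E)
    (hb : ∀ g : ι → k[X], ∑ i, aeval xb (g i) * b i = 0 → ∀ i, g i = 0)
    (ℓ : ℕ) (hℓ : 0 < ℓ) (g : ι × Fin ℓ → k[X])
    (h : ∑ p : ι × Fin ℓ, aeval (xb ^ ℓ) (g p) * (b p.1 * xb ^ (p.2 : ℕ)) = 0) :
    ∀ p, g p = 0 := by
  have h1 : ∑ i, aeval xb (∑ t : Fin ℓ, expand k ℓ (g (i, t)) * X ^ (t : ℕ)) * b i = 0 := by
    rw [← h, Fintype.sum_prod_type]
    refine Finset.sum_congr rfl (fun i _ => ?_)
    rw [map_sum, Finset.sum_mul]
    refine Finset.sum_congr rfl (fun t _ => ?_)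
    rw [map_mul, expand_aeval, map_pow, aeval_X]
    ring
  have h2 := hb _ h1
  intro p
  exact expand_sum_eq_zero ℓ hℓ (fun t => g (p.1, t)) (h2 p.1) p.2

end Fermat.Agent.BAD.PolyRed
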