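import Mathlib
import Fermat.Prelude.Def_AlgebraicCurve_Repartitions
import Fermat.Agent.Lib.Red.Basis
import Fermat.Agent.BAD.TwoVal.Pair
import Fermat.Agent.BAD.PolyRed

/-!
# BAD / LAT: orthonormal bases at the bad level

`F = L·F_{Mℓ}` (`L` algebraically closed, `ℓ = 0` in the residue field `k` of the valuation
subring `A` of `L`, `M` prime to `ℓ`), `O = O_∞ ∩ O_0` the intersection of the two Gauss
valuation rings (`TwoVal/Pair.lean`).

**Main theorem** `hasOrtho_bad` : every finite-dimensional `L`-subspace `V` of `F` has an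
orthonormal basis with respect to `O` (`CoordLat.HasOrtho A O V`): `V ∩ O = ⊕ A b_i`.  In
particular this holds for every Riemann–Roch space `L(B)`.

Proof: `x := α(J(q^M))`.
* bi-units: `α(u)` for every unit `u` of the level-`M` Gauss ring, in particular `x - c` and
  `1 - t x` for `c, t ∈ A`;
* an orthonormal `L[x]`-family: `(1 - e) α(b_i)` and `e β(b_i) β(x_M)^t` (`t < ℓ`), where `b` is
  a good basis at level `M` (`Lib/Red/Basis.lean`) and `e` is the separating element (reductions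
  `(0, 1)`); their reductions are `(b̄_i, 0)` and `(0, b̄_i x̄^t)`, and `X` acts through
  `(x̄, x̄^ℓ)`;
* spanning: `F = ∑_{t ≤ ℓ} α(F_M) J(q^ℓ)^t` by the modular equation, so `[F : L(x)] ≤ (ℓ+1) m`;
* the abstract lattice theorem `PolyRed.hasOrtho_of_polyOrtho_span`.
-/

set_option autoImplicit false

namespace Fermat.Agent.BAD.LatInst

open HahnSeries ModularCurve Polynomial AlgebraicCurve Fermat.Agent.Lib.Red Fermat.Agent.S28
open Fermat.Agent.ESJ.Cong.LevelGen Fermat.Agent.BAD.TwoVal Fermat.Agent.BAD.PolyBasis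
open Fermat.Agent.BAD.PolyRed Fermat.Agent.Lib.Red.CoordLat

noncomputable section

/-! ### Level `N` (good level): the function `x_N = J(q^N)` -/

section LevelN

variable {L : Type*} [Field L] [Algebra ℚ L] {A : ValuationSubring L} {k : Type} [Field k]
  {π : A →+* k} {N : ℕ} [NeZero N]

/-- `x_N = J(q^N)` lies in the Gauss ring. -/
theorem xL_mem_Ow (hNk : (N : k) ≠ 0) : xL L N ∈ Ow A π N hNk := by
  rw [mem_Ow_iff, coe_xL, ← incl_Jd A]
  exact incl_mem_gaussRing A π _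

/-- The reduction of `x_N` is `x̄_N`. -/
theorem redF_xL (hπ : ∀ a : A, ¬ IsUnit a → π a = 0) (hNk : (N : k) ≠ 0) :
    redF A π N hπ hNk ⟨xL L N, xL_mem_Ow hNk⟩ = xk k N := by
  apply Subtype.ext
  have hy : incl A (TD.Jd A N) ∈ laurentBaseChange L (modularFunctionFieldFull N) := by
    rw [incl_Jd]
    exact (xL L N).2
  have e : (⟨xL L N, xL_mem_Ow hNk⟩ : Ow A π N hNk) =
      ⟨⟨incl A (TD.Jd A N), hy⟩, incl_mem_gaussRing A π _⟩ :=
    Subtype.ext (Subtype.ext (incl_Jd A N).symm)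
  rw [e, coe_redF_incl hπ hNk, rbar_Jd, coe_xk]

omit [Algebra ℚ L] in
theorem algebraMap_eq_C (K : Type*) [Field K] :
    (algebraMap K (LaurentSeries K)) = (HahnSeries.C : K →+* LaurentSeries K) :=
  RingHom.ext (fun a => (Fermat.Agent.Lib.Red.C_eq_algebraMap a).symm)

/-- `x̄_N` is transcendental over `k`. -/
theorem aeval_xk_ne_zero (g : k[X]) (hg : g ≠ 0) : aeval (xk k N) g ≠ 0 := by
  intro h0
  apply hg
  apply Jd_eval₂_eq_zero k (NeZero.ne N) g
  have h1 := congrArg (modularFunctionFieldFullC k N).val h0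
  rw [← Polynomial.aeval_algHom_apply, map_zero, Polynomial.aeval_def, algebraMap_eq_C] at h1
  exact h1

/-- `x_N` is transcendental over `L`. -/
theorem aeval_xL_ne_zero (g : L[X]) (hg : g ≠ 0) : aeval (xL L N) g ≠ 0 := by
  intro h0
  apply hg
  apply Jd_eval₂_eq_zero L (NeZero.ne N) g
  have h1 := congrArg (laurentBaseChange L (modularFunctionFieldFull N)).val h0
  rw [← Polynomial.aeval_algHom_apply, map_zero, Polynomial.aeval_def, algebraMap_eq_C] at h1
  exact h1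

/-- Elements of the Gauss ring with nonzero reduction are units. -/
theorem inv_mem_Ow (hπ : ∀ a : A, ¬ IsUnit a → π a = 0) (hNk : (N : k) ≠ 0)
    (u : ↥(laurentBaseChange L (modularFunctionFieldFull N))) (hu : u ∈ Ow A π N hNk)
    (hne : redF A π N hπ hNk ⟨u, hu⟩ ≠ 0) : u⁻¹ ∈ Ow A π N hNk := by
  have hunit : IsUnit (⟨u, hu⟩ : Ow A π N hNk) := by
    by_contra hnu
    exact hne ((redF_eq_zero_iff hπ hNk _).2 hnu)
  obtain ⟨w, hw⟩ := hunit.exists_right_inv
  have hw' : u * (w : ↥(laurentBaseChange L (modularFunctionFieldFull N))) = 1 :=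
    congrArg Subtype.val hw
  rw [← eq_inv_of_mul_eq_one_right hw']
  exact w.2

/-- `x_N - c` is a unit of the Gauss ring for `c ∈ A`. -/
theorem inv_xL_sub_mem_Ow (hπ : ∀ a : A, ¬ IsUnit a → π a = 0) (hNk : (N : k) ≠ 0) (c : A) :
    (xL L N - algebraMap L ↥(laurentBaseChange L (modularFunctionFieldFull N)) (c : L))⁻¹ ∈
      Ow A π N hNk := by
  have hc : algebraMap L ↥(laurentBaseChange L (modularFunctionFieldFull N)) (c : L) ∈
      Ow A π N hNk := (algebraMap_mem_Ow_iff hπ hNk _).2 c.2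
  have hm : xL L N - algebraMap L ↥(laurentBaseChange L (modularFunctionFieldFull N)) (c : L) ∈
      Ow A π N hNk := sub_mem (xL_mem_Ow hNk) hc
  refine inv_mem_Ow hπ hNk _ hm ?_
  have e : (⟨_, hm⟩ : Ow A π N hNk) = ⟨xL L N, xL_mem_Ow hNk⟩ - ⟨_, hc⟩ := rfl
  rw [e, map_sub, redF_xL, redF_algebraMap hπ hNk c]
  have h1 : aeval (xk k N) (X - Polynomial.C (π c) : k[X]) =
      xk k N - algebraMap k ↥(modularFunctionFieldFullC k N) (π c) := by simp
  rw [← h1]
  exact aeval_xk_ne_zero _ (X_sub_C_ne_zero _)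

/-- `1 - t x_N` is a unit of the Gauss ring for `t ∈ A`. -/
theorem inv_one_sub_mul_xL_mem_Ow (hπ : ∀ a : A, ¬ IsUnit a → π a = 0) (hNk : (N : k) ≠ 0)
    (t : A) :
    (1 - algebraMap L ↥(laurentBaseChange L (modularFunctionFieldFull N)) (t : L) * xL L N)⁻¹ ∈
      Ow A π N hNk := by
  have ht : algebraMap L ↥(laurentBaseChange L (modularFunctionFieldFull N)) (t : L) ∈
      Ow A π N hNk := (algebraMap_mem_Ow_iff hπ hNk _).2 t.2
  have hm : 1 - algebraMap L ↥(laurentBaseChange L (modularFunctionFieldFull N)) (t : L) *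
      xL L N ∈ Ow A π N hNk := sub_mem (one_mem _) (mul_mem ht (xL_mem_Ow hNk))
  refine inv_mem_Ow hπ hNk _ hm ?_
  have e : (⟨_, hm⟩ : Ow A π N hNk) = 1 - ⟨_, ht⟩ * ⟨xL L N, xL_mem_Ow hNk⟩ := rfl
  rw [e, map_sub, map_one, map_mul, redF_xL, redF_algebraMap hπ hNk t]
  have h1 : aeval (xk k N) (1 - Polynomial.C (π t) * X : k[X]) =
      1 - algebraMap k ↥(modularFunctionFieldFullC k N) (π t) * xk k N := by simp
  rw [← h1]
  apply aeval_xk_ne_zero
  intro h0
  have h2 := congrArg (fun p : k[X] => p.coeff 0) h0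
  simp at h2

/-- The good basis at level `N` is independent over `k[X]` acting through `x̄_N`. -/
theorem goodBasis_polyIndep (hπ : ∀ a : A, ¬ IsUnit a → π a = 0) (hNk : (N : k) ≠ 0)
    {ι : Type} [Fintype ι]
    (G : Ortho.GoodBasis (Ow A π N hNk) (redF A π N hπ hNk) (Ov A π N hNk)
      (redv A π N hπ hNk) ι) (g : ι → k[X])
    (h : ∑ i, aeval (xk k N) (g i) * redF A π N hπ hNk (G.b i) = 0) : ∀ i, g i = 0 := by
  classical
  have hmem : ∀ p : k[X], aeval (xk k N) p ∈ IntermediateField.adjoin k {xk k N} := fun p =>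
    IntermediateField.algebra_adjoin_le_adjoin k _
      (Polynomial.aeval_mem_adjoin_singleton k (xk k N))
  have hli := Fintype.linearIndependent_iff.1 G.ind
    (fun i => (⟨aeval (xk k N) (g i), hmem _⟩ : ↥(IntermediateField.adjoin k {xk k N}))) h
  intro i
  by_contra hgi
  exact aeval_xk_ne_zero (g i) hgi (congrArg Subtype.val (hli i))

end LevelN

/-! ### The bad level -/

section Bad

variable {L : Type*} [Field L] [Algebra ℚ L] {A : ValuationSubring L} {k : Type} [Field k]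
  {π : A →+* k} {M ℓ : ℕ} [NeZero M] [NeZero ℓ]
  {W : laurentBaseChange L (modularFunctionFieldFull (M * ℓ)) ≃ₐ[L]
    laurentBaseChange L (modularFunctionFieldFull (M * ℓ))}

variable (L M ℓ) in
/-- The coordinate `x = α(J(q^M))` of the bad-level field. -/
def xBad : ↥(laurentBaseChange L (modularFunctionFieldFull (M * ℓ))) :=
  heckeAlphaBar L M ℓ (xL L M)

variable (L M ℓ) in
/-- The second coordinate `z = β(J(q^M)) = J(q^(Mℓ))`. -/
def zBad : ↥(laurentBaseChange L (modularFunctionFieldFull (M * ℓ))) :=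
  heckeBetaBar L M ℓ (xL L M)

/-- `x` is transcendental over `L`. -/
theorem aeval_xBad_ne_zero (g : L[X]) (hg : g ≠ 0) : aeval (xBad L M ℓ) g ≠ 0 := by
  rw [xBad, Polynomial.aeval_algHom_apply]
  intro h0
  exact aeval_xL_ne_zero g hg
    ((heckeAlphaBar L M ℓ).toRingHom.injective (by
      rw [AlgHom.toRingHom_eq_coe, RingHom.coe_coe, h0, map_zero]))

theorem redInf_mul' (h : BadSetup A π M ℓ)
    (f g : ↥(laurentBaseChange L (modularFunctionFieldFull (M * ℓ)))) (hf : f ∈ OInf h)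
    (hg : g ∈ OInf h) (hfg : f * g ∈ OInf h) :
    redInf h ⟨f * g, hfg⟩ = redInf h ⟨f, hf⟩ * redInf h ⟨g, hg⟩ := by
  have e : (⟨f * g, hfg⟩ : OInf h) = ⟨f, hf⟩ * ⟨g, hg⟩ := rfl
  rw [e, map_mul]

theorem redZero_mul' (h : BadSetup A π M ℓ)
    (f g : ↥(laurentBaseChange L (modularFunctionFieldFull (M * ℓ)))) (hf : f ∈ OZero h W)
    (hg : g ∈ OZero h W) (hfg : f * g ∈ OZero h W) :
    redZero h W ⟨f * g, hfg⟩ = redZero h W ⟨f, hf⟩ * redZero h W ⟨g, hg⟩ := by
  have e : (⟨f * g, hfg⟩ : OZero h W) = ⟨f, hf⟩ * ⟨g, hg⟩ := rfl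
  rw [e, map_mul]

theorem redZero_pow' (h : BadSetup A π M ℓ)
    (f : ↥(laurentBaseChange L (modularFunctionFieldFull (M * ℓ)))) (hf : f ∈ OZero h W)
    (n : ℕ) (hfn : f ^ n ∈ OZero h W) :
    redZero h W ⟨f ^ n, hfn⟩ = redZero h W ⟨f, hf⟩ ^ n := by
  have e : (⟨f ^ n, hfn⟩ : OZero h W) = ⟨f, hf⟩ ^ n := rfl
  rw [e, map_pow]

theorem xBad_mem_OInf (h : BadSetup A π M ℓ) : xBad L M ℓ ∈ OInf h :=
  (heckeAlphaBar_mem_OInf_iff h _).2 (xL_mem_Ow h.hMk)

theorem xBad_mem_OZero (h : BadSetup A π M ℓ) (hW : IsAL M ℓ W) : xBad L M ℓ ∈ OZero h W :=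
  (heckeAlphaBar_mem_OZero_iff h hW _).2 (xL_mem_Ow h.hMk)

theorem zBad_mem_OInf (h : BadSetup A π M ℓ) : zBad L M ℓ ∈ OInf h :=
  (heckeBetaBar_mem_OInf_iff h _).2 (xL_mem_Ow h.hMk)

theorem zBad_mem_OZero (h : BadSetup A π M ℓ) (hW : IsAL M ℓ W) : zBad L M ℓ ∈ OZero h W :=
  (heckeBetaBar_mem_OZero_iff h hW _).2 (xL_mem_Ow h.hMk)

/-- `red_∞ x = x̄`. -/
theorem redInf_xBad (h : BadSetup A π M ℓ) :
    redInf h ⟨xBad L M ℓ, xBad_mem_OInf h⟩ = xk k M := by
  rw [← redF_xL h.hπ h.hMk]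
  exact redInf_heckeAlphaBar h _ (xL_mem_Ow h.hMk) _

/-- In characteristic `ℓ`: `J(q^(ℓ M)) = J(q^M)^ℓ`. -/
theorem Jd_mul_char (K : Type*) [CommRing K] (p : ℕ) [Fact p.Prime] [CharP K p] (m : ℕ)
    [NeZero m] : TD.Jd K (p * m) = TD.Jd K m ^ p := by
  have h1 := congrArg (qExpand K m) (Fermat.Agent.ESJ.Kronecker.Jd_pow_char K p)
  have hp : p ≠ 0 := (Fact.out : p.Prime).ne_zero
  rw [map_pow, TD.qExpand_Jd K m p hp, TD.qExpand_Jd K m 1 one_ne_zero, mul_one] at h1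
  rw [mul_comm]
  exact h1

/-- `red_0 x = x̄^ℓ`. -/
theorem redZero_xBad (h : BadSetup A π M ℓ) (hW : IsAL M ℓ W) :
    redZero h W ⟨xBad L M ℓ, xBad_mem_OZero h hW⟩ = xk k M ^ ℓ := by
  have : Fact ℓ.Prime := ⟨h.hℓ⟩
  have : CharP k ℓ := h.charP
  apply Subtype.ext
  have h1 := coe_redZero_heckeAlphaBar h hW (xL L M) (xL_mem_Ow h.hMk) (xBad_mem_OZero h hW)
  rw [redF_xL h.hπ h.hMk, coe_xk, TD.qExpand_Jd k ℓ M (NeZero.ne M), Jd_mul_char k ℓ M] at h1
  exact h1

/-- `red_0 z = x̄`. -/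
theorem redZero_zBad (h : BadSetup A π M ℓ) (hW : IsAL M ℓ W) :
    redZero h W ⟨zBad L M ℓ, zBad_mem_OZero h hW⟩ = xk k M := by
  rw [← redF_xL h.hπ h.hMk]
  exact redZero_heckeBetaBar h hW _ (xL_mem_Ow h.hMk) _

/-- `α` of a unit of the level-`M` Gauss ring is a bi-unit. -/
theorem alpha_inv_mem (h : BadSetup A π M ℓ) (hW : IsAL M ℓ W)
    (u : ↥(laurentBaseChange L (modularFunctionFieldFull M))) (hu : u⁻¹ ∈ Ow A π M h.hMk) :
    (heckeAlphaBar L M ℓ u)⁻¹ ∈ OInf h ∧ (heckeAlphaBar L M ℓ u)⁻¹ ∈ OZero h W := by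
  rw [← map_inv₀]
  exact ⟨(heckeAlphaBar_mem_OInf_iff h _).2 hu, (heckeAlphaBar_mem_OZero_iff h hW _).2 hu⟩

/-- The subring `O = O_∞ ∩ O_0`. -/
def OBad (h : BadSetup A π M ℓ)
    (W : laurentBaseChange L (modularFunctionFieldFull (M * ℓ)) ≃ₐ[L]
      laurentBaseChange L (modularFunctionFieldFull (M * ℓ))) :
    Subring ↥(laurentBaseChange L (modularFunctionFieldFull (M * ℓ))) :=
  (OInf h).toSubring ⊓ (OZero h W).toSubring

theorem mem_OBad_iff (h : BadSetup A π M ℓ)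
    (y : ↥(laurentBaseChange L (modularFunctionFieldFull (M * ℓ)))) :
    y ∈ OBad h W ↔ y ∈ OInf h ∧ y ∈ OZero h W := Iff.rfl

/-- `O ∩ L = A`. -/
theorem algebraMap_mem_OBad_iff (h : BadSetup A π M ℓ) (y : L) :
    algebraMap L ↥(laurentBaseChange L (modularFunctionFieldFull (M * ℓ))) y ∈ OBad h W ↔
      y ∈ A := by
  rw [mem_OBad_iff]
  constructor
  · intro hy
    exact (algebraMap_mem_OInf_iff h y).1 hy.1
  · intro hy
    exact ⟨(algebraMap_mem_OInf_iff h y).2 hy, (algebraMap_mem_OZero_iff h y).2 hy⟩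

/-- `x - c` is a bi-unit for `c ∈ A`. -/
theorem inv_xBad_sub_mem (h : BadSetup A π M ℓ) (hW : IsAL M ℓ W) (c : L) (hc : c ∈ A) :
    (xBad L M ℓ - algebraMap L ↥(laurentBaseChange L (modularFunctionFieldFull (M * ℓ))) c)⁻¹ ∈
      OBad h W := by
  have h1 := alpha_inv_mem h hW _ (inv_xL_sub_mem_Ow h.hπ h.hMk ⟨c, hc⟩)
  rw [map_sub, AlgHom.commutes] at h1
  exact h1

/-- `1 - t x` is a bi-unit for `t ∈ A`. -/
theorem inv_one_sub_mul_xBad_mem (h : BadSetup A π M ℓ) (hW : IsAL M ℓ W) (t : L) (ht : t ∈ A) :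
    (1 - algebraMap L ↥(laurentBaseChange L (modularFunctionFieldFull (M * ℓ))) t *
      xBad L M ℓ)⁻¹ ∈ OBad h W := by
  have h1 := alpha_inv_mem h hW _ (inv_one_sub_mul_xL_mem_Ow h.hπ h.hMk ⟨t, ht⟩)
  rw [map_sub, map_one, map_mul, AlgHom.commutes] at h1
  exact h1

/-! ### The orthonormal family -/

/-- The family `(1 - e) α(b_i)`, `e β(b_i) z^t` (`t < ℓ`). -/
def famBad (e : ↥(laurentBaseChange L (modularFunctionFieldFull (M * ℓ)))) {ι : Type}
    (b : ι → ↥(laurentBaseChange L (modularFunctionFieldFull M))) :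
    ι ⊕ (ι × Fin ℓ) → ↥(laurentBaseChange L (modularFunctionFieldFull (M * ℓ)))
  | Sum.inl i => (1 - e) * heckeAlphaBar L M ℓ (b i)
  | Sum.inr p => e * (heckeBetaBar L M ℓ (b p.1) * zBad L M ℓ ^ (p.2 : ℕ))

/-- The spanning family `α(b_i) J(q^ℓ)^t` (`t ≤ ℓ`). -/
def spanBad {ι : Type} (b : ι → ↥(laurentBaseChange L (modularFunctionFieldFull M))) :
    ι × Fin (ℓ + 1) → ↥(laurentBaseChange L (modularFunctionFieldFull (M * ℓ))) :=
  fun p => heckeAlphaBar L M ℓ (b p.1) * heckeBetaBar L M ℓ (jLevel L M) ^ (p.2 : ℕ)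

/-- **Orthonormality of the family.** -/
theorem polyOrtho_famBad (h : BadSetup A π M ℓ) (hW : IsAL M ℓ W)
    {ι : Type} [Fintype ι]
    (G : Ortho.GoodBasis (Ow A π M h.hMk) (redF A π M h.hπ h.hMk) (Ov A π M h.hMk)
      (redv A π M h.hπ h.hMk) ι)
    (e : ↥(laurentBaseChange L (modularFunctionFieldFull (M * ℓ))))
    (he1 : e ∈ OInf h) (he2 : e ∈ OZero h W) (hr1 : redInf h ⟨e, he1⟩ = 0)
    (hr2 : redZero h W ⟨e, he2⟩ = 1) :
    (∀ j, famBad e (fun i => ((G.b i : Ow A π M h.hMk) :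
        ↥(laurentBaseChange L (modularFunctionFieldFull M)))) j ∈ OBad h W) ∧
    PolyOrtho A (OBad h W) (xBad L M ℓ)
      (famBad e (fun i => ((G.b i : Ow A π M h.hMk) :
        ↥(laurentBaseChange L (modularFunctionFieldFull M))))) := by
  classical
  set b : ι → ↥(laurentBaseChange L (modularFunctionFieldFull M)) :=
    fun i => ((G.b i : Ow A π M h.hMk) : ↥(laurentBaseChange L (modularFunctionFieldFull M)))
    with hb
  have hbO : ∀ i, b i ∈ Ow A π M h.hMk := fun i => (G.b i).2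
  have hαI : ∀ i, heckeAlphaBar L M ℓ (b i) ∈ OInf h := fun i =>
    (heckeAlphaBar_mem_OInf_iff h _).2 (hbO i)
  have hαZ : ∀ i, heckeAlphaBar L M ℓ (b i) ∈ OZero h W := fun i =>
    (heckeAlphaBar_mem_OZero_iff h hW _).2 (hbO i)
  have hβI : ∀ i, heckeBetaBar L M ℓ (b i) ∈ OInf h := fun i =>
    (heckeBetaBar_mem_OInf_iff h _).2 (hbO i)
  have hβZ : ∀ i, heckeBetaBar L M ℓ (b i) ∈ OZero h W := fun i =>
    (heckeBetaBar_mem_OZero_iff h hW _).2 (hbO i)
  have h1e1 : 1 - e ∈ OInf h := sub_mem (one_mem _) he1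
  have h1e2 : 1 - e ∈ OZero h W := sub_mem (one_mem _) he2
  have hzI : ∀ t : ℕ, zBad L M ℓ ^ t ∈ OInf h := fun t => pow_mem (zBad_mem_OInf h) t
  have hzZ : ∀ t : ℕ, zBad L M ℓ ^ t ∈ OZero h W := fun t => pow_mem (zBad_mem_OZero h hW) t
  have hfam1 : ∀ j, famBad e b j ∈ OInf h := by
    rintro (i | p)
    · exact mul_mem h1e1 (hαI i)
    · exact mul_mem he1 (mul_mem (hβI p.1) (hzI _))
  have hfam2 : ∀ j, famBad e b j ∈ OZero h W := by
    rintro (i | p)
    · exact mul_mem h1e2 (hαZ i)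
    · exact mul_mem he2 (mul_mem (hβZ p.1) (hzZ _))
  refine ⟨fun j => ⟨hfam1 j, hfam2 j⟩, ?_⟩
  -- the reductions of the family
  have hr1' : redInf h ⟨1 - e, h1e1⟩ = 1 := by
    have e' : (⟨1 - e, h1e1⟩ : OInf h) = 1 - ⟨e, he1⟩ := rfl
    rw [e', map_sub, map_one, hr1, sub_zero]
  have hr2' : redZero h W ⟨1 - e, h1e2⟩ = 0 := by
    have e' : (⟨1 - e, h1e2⟩ : OZero h W) = 1 - ⟨e, he2⟩ := rfl
    rw [e', map_sub, map_one, hr2, sub_self]
  have hredI_inl : ∀ i, redInf h ⟨famBad e b (Sum.inl i), hfam1 _⟩ =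
      redF A π M h.hπ h.hMk (G.b i) := by
    intro i
    have e1 : redInf h ⟨famBad e b (Sum.inl i), hfam1 _⟩ =
        redInf h ⟨1 - e, h1e1⟩ * redInf h ⟨heckeAlphaBar L M ℓ (b i), hαI i⟩ :=
      redInf_mul' h _ _ h1e1 (hαI i) _
    rw [e1, hr1', one_mul]
    exact redInf_heckeAlphaBar h _ (hbO i) _
  have hredI_inr : ∀ p, redInf h ⟨famBad e b (Sum.inr p), hfam1 _⟩ = 0 := by
    intro p
    have e1 : redInf h ⟨famBad e b (Sum.inr p), hfam1 _⟩ =
        redInf h ⟨e, he1⟩ * redInf h ⟨heckeBetaBar L M ℓ (b p.1) * zBad L M ℓ ^ (p.2 : ℕ),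
          mul_mem (hβI p.1) (hzI _)⟩ :=
      redInf_mul' h _ _ he1 (mul_mem (hβI p.1) (hzI _)) _
    rw [e1, hr1, zero_mul]
  have hredZ_inl : ∀ i, redZero h W ⟨famBad e b (Sum.inl i), hfam2 _⟩ = 0 := by
    intro i
    have e1 : redZero h W ⟨famBad e b (Sum.inl i), hfam2 _⟩ =
        redZero h W ⟨1 - e, h1e2⟩ * redZero h W ⟨heckeAlphaBar L M ℓ (b i), hαZ i⟩ :=
      redZero_mul' h _ _ h1e2 (hαZ i) _
    rw [e1, hr2', zero_mul]
  have hredZ_inr : ∀ p : ι × Fin ℓ, redZero h W ⟨famBad e b (Sum.inr p), hfam2 _⟩ =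
      redF A π M h.hπ h.hMk (G.b p.1) * xk k M ^ (p.2 : ℕ) := by
    intro p
    have e1 : redZero h W ⟨famBad e b (Sum.inr p), hfam2 _⟩ =
        redZero h W ⟨e, he2⟩ * redZero h W ⟨heckeBetaBar L M ℓ (b p.1) * zBad L M ℓ ^ (p.2 : ℕ),
          mul_mem (hβZ p.1) (hzZ _)⟩ :=
      redZero_mul' h _ _ he2 (mul_mem (hβZ p.1) (hzZ _)) _
    rw [e1, hr2, one_mul, redZero_mul' h _ _ (hβZ p.1) (hzZ _),
      redZero_pow' h _ (zBad_mem_OZero h hW), redZero_zBad h hW]
    congr 1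
    exact redZero_heckeBetaBar h hW _ (hbO p.1) _
  refine polyOrtho_of_reductions (OInf h) (OZero h W) A π ?_ (redInf h) (redZero h W)
    (fun a => ⟨(algebraMap_mem_OInf_iff h _).2 a.2, redInf_algebraMap h a _⟩)
    (fun a => ⟨(algebraMap_mem_OZero_iff h _).2 a.2, redZero_algebraMap h a _⟩)
    (OBad h W) (fun y hy => hy) (xBad L M ℓ) (xBad_mem_OInf h) (xBad_mem_OZero h hW)
    (famBad e b) hfam1 hfam2 ?_
  · intro a ha
    apply h.hπ
    intro hu
    have h1 := (ValuationSubring.valuation_eq_one_iff A a).mp hu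
    rw [h1] at ha
    exact lt_irrefl _ ha
  · intro g hg1 hg2
    rw [Fintype.sum_sum_type] at hg1 hg2
    rw [redInf_xBad h] at hg1
    rw [redZero_xBad h hW] at hg2
    have hg1' : ∑ i, aeval (xk k M) (g (Sum.inl i)) * redF A π M h.hπ h.hMk (G.b i) = 0 := by
      rw [← hg1]
      have hz : ∑ p : ι × Fin ℓ, aeval (xk k M) (g (Sum.inr p)) *
          redInf h ⟨famBad e b (Sum.inr p), hfam1 _⟩ = 0 :=
        Finset.sum_eq_zero (fun p _ => by rw [hredI_inr, mul_zero])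
      rw [hz, add_zero]
      exact Finset.sum_congr rfl (fun i _ => by rw [hredI_inl])
    have hg2' : ∑ p : ι × Fin ℓ, aeval (xk k M ^ ℓ) (g (Sum.inr p)) *
        (redF A π M h.hπ h.hMk (G.b p.1) * xk k M ^ (p.2 : ℕ)) = 0 := by
      rw [← hg2]
      have hz : ∑ i, aeval (xk k M ^ ℓ) (g (Sum.inl i)) *
          redZero h W ⟨famBad e b (Sum.inl i), hfam2 _⟩ = 0 :=
        Finset.sum_eq_zero (fun i _ => by rw [hredZ_inl, mul_zero])
      rw [hz, zero_add]
      exact Finset.sum_congr rfl (fun p _ => by rw [hredZ_inr])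
    have hA1 := goodBasis_polyIndep h.hπ h.hMk G (fun i => g (Sum.inl i)) hg1'
    have hA2 := polyIndep_frobenius (xk k M) (fun i => redF A π M h.hπ h.hMk (G.b i))
      (goodBasis_polyIndep h.hπ h.hMk G) ℓ (Nat.pos_of_ne_zero (NeZero.ne ℓ))
      (fun p => g (Sum.inr p)) hg2'
    rintro (i | p)
    · exact hA1 i
    · exact hA2 p

/-! ### Spanning -/

/-- The modular equation: `J(q^ℓ)^(ℓ+1)` is an `α(F_M)`-combination of lower powers. -/
theorem exists_modular_relation (hℓ : ℓ.Prime) :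
    ∃ a : Fin (ℓ + 1) → ↥(laurentBaseChange L (modularFunctionFieldFull (M * ℓ))),
      (∀ t, a t ∈ (heckeAlphaBar L M ℓ :
        ↥(laurentBaseChange L (modularFunctionFieldFull M)) →+*
          ↥(laurentBaseChange L (modularFunctionFieldFull (M * ℓ)))).fieldRange) ∧
      heckeBetaBar L M ℓ (jLevel L M) ^ (ℓ + 1) =
        ∑ t, a t * heckeBetaBar L M ℓ (jLevel L M) ^ (t : ℕ) := by
  obtain ⟨D⟩ := modEq_prime ℓ hℓ
  set P : Polynomial ↥(laurentBaseChange L (modularFunctionFieldFull (M * ℓ))) :=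
    TD.polyAt D.Φ (heckeAlphaBar L M ℓ (jLevel L M)) with hP
  have hmonic : P.Monic := TD.polyAt_monic D.monic _
  have hdeg : P.natDegree = ℓ + 1 := by
    rw [hP, TD.polyAt_natDegree D.monic, D.natDegree_eq]
  have hroot : P.eval (heckeBetaBar L M ℓ (jLevel L M)) = 0 := by
    apply Subtype.val_injective
    have h2 := TD.map_eval_polyAt
      ((laurentBaseChange L (modularFunctionFieldFull (M * ℓ))).val :
        laurentBaseChange L (modularFunctionFieldFull (M * ℓ)) →+* LaurentSeries L) D.Φ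
      (heckeBetaBar L M ℓ (jLevel L M)) (heckeAlphaBar L M ℓ (jLevel L M))
    have h3 : ((heckeAlphaBar L M ℓ (jLevel L M) :
        laurentBaseChange L (modularFunctionFieldFull (M * ℓ))) : LaurentSeries L) = TD.Jd L 1 :=
      coe_heckeAlphaBar M ℓ (jLevel L M)
    have h4 : ((heckeBetaBar L M ℓ (jLevel L M) :
        laurentBaseChange L (modularFunctionFieldFull (M * ℓ))) : LaurentSeries L) = TD.Jd L ℓ :=
      coe_heckeBetaBar_jLevel L M ℓ
    have h5 := D.rel₂' hℓ.ne_zero L 1 one_ne_zero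
    rw [one_mul] at h5
    have h6 : (((TD.polyAt D.Φ (heckeAlphaBar L M ℓ (jLevel L M))).eval
        (heckeBetaBar L M ℓ (jLevel L M)) :
        laurentBaseChange L (modularFunctionFieldFull (M * ℓ))) : LaurentSeries L) =
        (TD.polyAt D.Φ (TD.Jd L 1)).eval (TD.Jd L ℓ) := by
      rw [← h3, ← h4]
      exact h2
    rw [h6, h5]
    rfl
  have hcoeff : ∀ t, P.coeff t ∈ (heckeAlphaBar L M ℓ :
      ↥(laurentBaseChange L (modularFunctionFieldFull M)) →+*
        ↥(laurentBaseChange L (modularFunctionFieldFull (M * ℓ)))).fieldRange := by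
    intro t
    have h1 : P = (TD.polyAt D.Φ (jLevel L M)).map (heckeAlphaBar L M ℓ :
        ↥(laurentBaseChange L (modularFunctionFieldFull M)) →+*
          ↥(laurentBaseChange L (modularFunctionFieldFull (M * ℓ)))) :=
      (TD.polyAt_map _ D.Φ (jLevel L M)).symm
    rw [h1, coeff_map]
    exact RingHom.mem_fieldRange.2 ⟨_, rfl⟩
  refine ⟨fun t => -P.coeff (t : ℕ), fun t => neg_mem (hcoeff _), ?_⟩
  have h1 := congrArg (Polynomial.eval (heckeBetaBar L M ℓ (jLevel L M))) hmonic.as_sum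
  rw [hroot, hdeg, eval_add, eval_pow, eval_X, eval_finsetSum, Finset.sum_range] at h1
  have h2 : ∑ t : Fin (ℓ + 1), -P.coeff (t : ℕ) * heckeBetaBar L M ℓ (jLevel L M) ^ (t : ℕ) =
      -∑ t : Fin (ℓ + 1), eval (heckeBetaBar L M ℓ (jLevel L M))
        (Polynomial.C (P.coeff (t : ℕ)) * X ^ (t : ℕ)) := by
    rw [← Finset.sum_neg_distrib]
    refine Finset.sum_congr rfl (fun t _ => ?_)
    rw [eval_mul, eval_C, eval_pow, eval_X, neg_mul]
  rw [h2]
  exact eq_neg_of_add_eq_zero_left h1.symm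

/-- Every element of `F_{Mℓ}` is an `α(F_M)`-combination of `1, J(q^ℓ), …, J(q^ℓ)^ℓ`. -/
theorem exists_repr_bad (hℓ : ℓ.Prime) (hℓM : ¬ ℓ ∣ M)
    (v : ↥(laurentBaseChange L (modularFunctionFieldFull (M * ℓ)))) :
    ∃ c : Fin (ℓ + 1) → ↥(laurentBaseChange L (modularFunctionFieldFull M)),
      v = ∑ t, heckeAlphaBar L M ℓ (c t) * heckeBetaBar L M ℓ (jLevel L M) ^ (t : ℕ) := by
  have hv : v ∈ Subfield.closure ((((heckeAlphaBar L M ℓ :
      ↥(laurentBaseChange L (modularFunctionFieldFull M)) →+*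
        ↥(laurentBaseChange L (modularFunctionFieldFull (M * ℓ)))).fieldRange :
      Subfield ↥(laurentBaseChange L (modularFunctionFieldFull (M * ℓ)))) :
      Set ↥(laurentBaseChange L (modularFunctionFieldFull (M * ℓ)))) ∪
      {heckeBetaBar L M ℓ (jLevel L M)}) := by
    have h1 := closure_range_heckeAlphaBar_union L M ℓ hℓ hℓM
    have h2 : (((heckeAlphaBar L M ℓ :
        ↥(laurentBaseChange L (modularFunctionFieldFull M)) →+*
          ↥(laurentBaseChange L (modularFunctionFieldFull (M * ℓ)))).fieldRange :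
        Subfield ↥(laurentBaseChange L (modularFunctionFieldFull (M * ℓ)))) :
        Set ↥(laurentBaseChange L (modularFunctionFieldFull (M * ℓ)))) =
        Set.range (heckeAlphaBar L M ℓ) := by
      rw [RingHom.coe_fieldRange]
      rfl
    rw [h2, h1]
    exact Subfield.mem_top v
  obtain ⟨c, hc, hvc⟩ := Fermat.Agent.S28.Tower.exists_repr (exists_modular_relation hℓ) hv
  choose c' hc' using fun t => RingHom.mem_fieldRange.1 (hc t)
  refine ⟨c', ?_⟩
  rw [hvc]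
  refine Finset.sum_congr rfl (fun t _ => ?_)
  rw [← hc' t]
  rfl

/-- The family `α(b_i) J(q^ℓ)^t` spans `F_{Mℓ}` over `L(x)`. -/
theorem span_spanBad (h : BadSetup A π M ℓ) {ι : Type} [Fintype ι]
    (G : Ortho.GoodBasis (Ow A π M h.hMk) (redF A π M h.hπ h.hMk) (Ov A π M h.hMk)
      (redv A π M h.hπ h.hMk) ι)
    (v : ↥(laurentBaseChange L (modularFunctionFieldFull (M * ℓ)))) :
    ∃ D : L[X], D ≠ 0 ∧ ∃ e : ι × Fin (ℓ + 1) → L[X],
      aeval (xBad L M ℓ) D * v = ∑ p, aeval (xBad L M ℓ) (e p) *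
        spanBad (ℓ := ℓ) (fun i => ((G.b i : Ow A π M h.hMk) :
          ↥(laurentBaseChange L (modularFunctionFieldFull M)))) p := by
  classical
  obtain ⟨c, hc⟩ := exists_repr_bad h.hℓ h.not_dvd v
  choose d hd using fun t => G.span (c t)
  obtain ⟨D, hD, e, he⟩ := exists_common_denom (xL L M) aeval_xL_ne_zero
    (fun p : ι × Fin (ℓ + 1) => ((d p.2 p.1 : ↥(IntermediateField.adjoin L {xL L M})) :
      ↥(laurentBaseChange L (modularFunctionFieldFull M)))) (fun p => (d p.2 p.1).2)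
  refine ⟨D, hD, e, ?_⟩
  have hα : ∀ p : L[X], aeval (xBad L M ℓ) p = heckeAlphaBar L M ℓ (aeval (xL L M) p) :=
    fun p => Polynomial.aeval_algHom_apply _ _ _
  rw [hc, Finset.mul_sum, Fintype.sum_prod_type, Finset.sum_comm]
  refine Finset.sum_congr rfl (fun t _ => ?_)
  rw [hd t, map_sum, Finset.sum_mul, Finset.mul_sum]
  refine Finset.sum_congr rfl (fun i _ => ?_)
  have hde := he (i, t)
  rw [hα, hα, ← hde, map_mul, map_mul]
  show _ = _ * (heckeAlphaBar L M ℓ _ * _)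
  have hrfl : algebraMap ↥(IntermediateField.adjoin L {xL L M})
      ↥(laurentBaseChange L (modularFunctionFieldFull M)) (d t i) =
      ((d t i : ↥(IntermediateField.adjoin L {xL L M})) :
        ↥(laurentBaseChange L (modularFunctionFieldFull M))) := rfl
  rw [hrfl]
  ring

omit [NeZero ℓ] in
theorem card_le_bad (ι : Type) [Fintype ι] :
    Fintype.card (ι × Fin (ℓ + 1)) ≤ Fintype.card (ι ⊕ (ι × Fin ℓ)) := by
  simp only [Fintype.card_prod, Fintype.card_sum, Fintype.card_fin]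
  exact Nat.le_of_eq (by ring)

omit [Algebra ℚ L] in
/-- An `L[x]`-orthonormal family is `L[x]`-independent. -/
theorem polyOrtho_indep {F : Type*} [Field F] [Algebra L F] {O : Subring F} {x : F}
    (hA : ∃ a : L, a ∉ A) {ι : Type*} [Fintype ι] {β : ι → F} (hβ : PolyOrtho A O x β)
    (e : ι → L[X]) (he : ∑ i, aeval x (e i) * β i = 0) : ∀ i, e i = 0 := by
  intro i
  ext j
  rw [Polynomial.coeff_zero]
  by_contra hne
  obtain ⟨a, ha⟩ := hA
  have h1 : ∑ i', aeval x (Polynomial.C (a * ((e i).coeff j)⁻¹) * e i') * β i' = 0 := by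
    have h2 : ∑ i', aeval x (Polynomial.C (a * ((e i).coeff j)⁻¹) * e i') * β i' =
        algebraMap L F (a * ((e i).coeff j)⁻¹) * ∑ i', aeval x (e i') * β i' := by
      rw [Finset.mul_sum]
      exact Finset.sum_congr rfl (fun i' _ => by rw [map_mul, aeval_C, mul_assoc])
    rw [h2, he, mul_zero]
  have h3 := hβ _ (h1 ▸ O.zero_mem) i j
  rw [coeff_C_mul, mul_assoc, inv_mul_cancel₀ hne, mul_one] at h3
  exact ha h3

/-! ### The main theorem -/

/-- **LAT at the bad level.**  Every finite-dimensional `L`-subspace of `L·F_{Mℓ}` has an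
orthonormal basis with respect to `O = O_∞ ∩ O_0`. -/
theorem hasOrtho_bad [IsAlgClosed L] (h : BadSetup A π M ℓ) (hW : IsAL M ℓ W)
    (hsurj : Function.Surjective π)
    (V : Submodule L ↥(laurentBaseChange L (modularFunctionFieldFull (M * ℓ))))
    [FiniteDimensional L V] : HasOrtho A (OBad h W) V := by
  classical
  obtain ⟨ι, hι, G, -⟩ := exists_goodBasis h.hπ hsurj h.hMk
  obtain ⟨e, he1, he2, hr1, hr2⟩ := exists_sep h hW
  obtain ⟨hfamO, hortho⟩ := polyOrtho_famBad h hW G e he1 he2 hr1 hr2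
  have hA : ∃ a : L, a ∉ A := by
    refine ⟨((ℓ : ℕ) : L)⁻¹, fun hmem => ?_⟩
    have hℓ0 : ((ℓ : ℕ) : L) ≠ 0 := by
      have : CharZero L := algebraRat.charZero L
      exact Nat.cast_ne_zero.2 (NeZero.ne ℓ)
    have h1 : ((ℓ : ℕ) : A) * ⟨((ℓ : ℕ) : L)⁻¹, hmem⟩ = 1 := by
      apply Subtype.ext
      show (((ℓ : ℕ) : A) : L) * ((ℓ : ℕ) : L)⁻¹ = 1
      have h4 : (((ℓ : ℕ) : A) : L) = (ℓ : L) := by push_cast; rfl
      rw [h4]
      exact mul_inv_cancel₀ hℓ0
    have h2 := congrArg π h1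
    rw [map_mul, map_natCast, h.hℓk, zero_mul, map_one] at h2
    exact zero_ne_one h2
  refine hasOrtho_of_polyOrtho_span (algebraMap_mem_OBad_iff h) hA aeval_xBad_ne_zero
    ⟨xBad_mem_OInf h, xBad_mem_OZero h hW⟩ (inv_xBad_sub_mem h hW)
    (inv_one_sub_mul_xBad_mem h hW) _ hfamO hortho ?_ V
  intro v
  exact exists_polySpan_of_card_le (xBad L M ℓ) aeval_xBad_ne_zero (spanBad _)
    (span_spanBad h G) _ (polyOrtho_indep hA hortho) (card_le_bad ι) v

/-- **LAT** for Riemann–Roch spaces. -/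
theorem lat_bad [IsAlgClosed L] (h : BadSetup A π M ℓ) (hW : IsAL M ℓ W)
    (hsurj : Function.Surjective π)
    (B : Divisor L ↥(laurentBaseChange L (modularFunctionFieldFull (M * ℓ))))
    [FiniteDimensional L (riemannRochSpace B)] :
    HasOrtho A (OBad h W) (riemannRochSpace B) :=
  hasOrtho_bad h hW hsurj _

end Bad

end

end Fermat.Agent.BAD.LatInst
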