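import Mathlib

/-!
# BAD layer F — flat base change of kernels

* `flat_padicInt`: a domain of characteristic zero which is a `ℤ_[p]`-algebra is flat over
  `ℤ_[p]`.
* `baseChange_eq_zero_of_ker`: if `Q` vanishes on `ker f₁ ⊓ ker f₂` then `Q.baseChange A` vanishes
  on `ker (f₁.baseChange A) ⊓ ker (f₂.baseChange A)` for a flat `R`-algebra `A`.
-/

set_option autoImplicit false
set_option linter.style.haveILetI false

open scoped TensorProduct

namespace Fermat.Agent.BAD.FlatKer

/-- The structure map `ℤ_[p] → 𝒪` of a domain of characteristic zero is injective. -/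
theorem injective_algebraMap_padicInt (p : ℕ) [Fact p.Prime] (𝒪 : Type*) [CommRing 𝒪]
    [IsDomain 𝒪] [CharZero 𝒪] [Algebra ℤ_[p] 𝒪] : Function.Injective (algebraMap ℤ_[p] 𝒪) := by
  rw [RingHom.injective_iff_ker_eq_bot]
  by_contra hne
  obtain ⟨n, hn⟩ := PadicInt.ideal_eq_span_pow_p hne
  have h1 : (p : ℤ_[p]) ^ n ∈ RingHom.ker (algebraMap ℤ_[p] 𝒪) := by
    rw [hn]
    exact Ideal.subset_span rfl
  rw [RingHom.mem_ker, map_pow, map_natCast] at h1
  have h2 : (p : 𝒪) ≠ 0 := Nat.cast_ne_zero.mpr (Fact.out : p.Prime).ne_zero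
  exact pow_ne_zero n h2 h1

/-- A domain of characteristic zero which is a `ℤ_[p]`-algebra is flat over `ℤ_[p]`. -/
theorem flat_padicInt (p : ℕ) [Fact p.Prime] (𝒪 : Type*) [CommRing 𝒪] [IsDomain 𝒪]
    [CharZero 𝒪] [Algebra ℤ_[p] 𝒪] : Module.Flat ℤ_[p] 𝒪 := by
  haveI : FaithfulSMul ℤ_[p] 𝒪 :=
    (faithfulSMul_iff_algebraMap_injective _ _).mpr (injective_algebraMap_padicInt p 𝒪)
  haveI : Module.IsTorsionFree ℤ_[p] 𝒪 := inferInstance
  infer_instance

section Ker

variable {R : Type*} [CommRing R] (A : Type*) [CommRing A] [Algebra R A] [Module.Flat R A]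
  {M N M' : Type*} [AddCommGroup M] [Module R M] [AddCommGroup N] [Module R N]
  [AddCommGroup M'] [Module R M']

/-- One map: `Q` vanishing on `ker f` implies `Q.baseChange A` vanishing on
`ker (f.baseChange A)`. -/
theorem baseChange_eq_zero_of_ker₁ (f : M →ₗ[R] N) (Q : M →ₗ[R] M')
    (hQ : ∀ x, f x = 0 → Q x = 0) (y : A ⊗[R] M) (h : f.baseChange A y = 0) :
    Q.baseChange A y = 0 := by
  have hex : Function.Exact (LinearMap.ker f).subtype f := by
    intro x
    constructor
    · intro hx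
      exact ⟨⟨x, hx⟩, rfl⟩
    · rintro ⟨z, rfl⟩
      exact z.2
  have hex' := Module.Flat.lTensor_exact A hex
  have h' : (f.lTensor A) y = 0 := by
    rw [← LinearMap.baseChange_eq_ltensor]
    exact h
  obtain ⟨z, rfl⟩ := (hex' y).mp h'
  have hQ0 : Q ∘ₗ (LinearMap.ker f).subtype = 0 := by
    ext x
    exact hQ x x.2
  have : Q.baseChange A (((LinearMap.ker f).subtype.lTensor A) z) =
      ((Q ∘ₗ (LinearMap.ker f).subtype).lTensor A) z := by
    rw [LinearMap.lTensor_comp, LinearMap.comp_apply]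
    rfl
  rw [this, hQ0, LinearMap.lTensor_zero, LinearMap.zero_apply]

variable {N₂ : Type*} [AddCommGroup N₂] [Module R N₂]

/-- Two maps: `Q` vanishing on `ker f₁ ⊓ ker f₂` implies `Q.baseChange A` vanishing on
`ker (f₁.baseChange A) ⊓ ker (f₂.baseChange A)`. -/
theorem baseChange_eq_zero_of_ker (f₁ : M →ₗ[R] N) (f₂ : M →ₗ[R] N₂) (Q : M →ₗ[R] M')
    (hQ : ∀ x, f₁ x = 0 → f₂ x = 0 → Q x = 0) (y : A ⊗[R] M) (h₁ : f₁.baseChange A y = 0)
    (h₂ : f₂.baseChange A y = 0) : Q.baseChange A y = 0 := by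
  have hQ' : ∀ x, (f₁.prod f₂) x = 0 → Q x = 0 := by
    intro x hx
    have hx' : (f₁ x, f₂ x) = 0 := hx
    rw [Prod.mk_eq_zero] at hx'
    exact hQ x hx'.1 hx'.2
  refine baseChange_eq_zero_of_ker₁ A (f₁.prod f₂) Q hQ' y ?_
  -- `(f₁.prod f₂).baseChange y = 0`: test against the two projections
  have e1 : (LinearMap.fst R N N₂).baseChange A ((f₁.prod f₂).baseChange A y) = 0 := by
    rw [← LinearMap.comp_apply, ← LinearMap.baseChange_comp]
    have : (LinearMap.fst R N N₂) ∘ₗ (f₁.prod f₂) = f₁ := by ext x; rfl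
    rw [this, h₁]
  have e2 : (LinearMap.snd R N N₂).baseChange A ((f₁.prod f₂).baseChange A y) = 0 := by
    rw [← LinearMap.comp_apply, ← LinearMap.baseChange_comp]
    have : (LinearMap.snd R N N₂) ∘ₗ (f₁.prod f₂) = f₂ := by ext x; rfl
    rw [this, h₂]
  set w := (f₁.prod f₂).baseChange A y with hw
  have hid : (LinearMap.inl R N N₂) ∘ₗ (LinearMap.fst R N N₂)
      + (LinearMap.inr R N N₂) ∘ₗ (LinearMap.snd R N N₂) = LinearMap.id := by
    ext x <;> simp
  have hdec : w = (LinearMap.inl R N N₂).baseChange A ((LinearMap.fst R N N₂).baseChange A w)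
      + (LinearMap.inr R N N₂).baseChange A ((LinearMap.snd R N N₂).baseChange A w) := by
    have h3 : ((LinearMap.inl R N N₂) ∘ₗ (LinearMap.fst R N N₂)
      + (LinearMap.inr R N N₂) ∘ₗ (LinearMap.snd R N N₂)).baseChange A w = w := by
      rw [hid, LinearMap.baseChange_id, LinearMap.id_apply]
    rw [LinearMap.baseChange_add, LinearMap.add_apply, LinearMap.baseChange_comp,
      LinearMap.baseChange_comp, LinearMap.comp_apply, LinearMap.comp_apply] at h3
    exact h3.symm
  rw [hdec, e1, e2, map_zero, map_zero, add_zero]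

end Ker

end Fermat.Agent.BAD.FlatKer
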