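import Mathlib

/-!
# BAD layer F — two-by-two algebra for S35 clause 2

`charpoly_of_quartic`: an endomorphism `f` of a free module of rank two over a domain with
`det f = q ≠ 0`, `q + 1 ≠ 0`... and a nonzero vector killed by `(f² − 1)(f² − q²)`
has characteristic polynomial `X² − (q+1)X + q` or `X² + (q+1)X + q`.
-/

set_option autoImplicit false

open Polynomial

namespace Fermat.Agent.BAD.Mat2

variable {R : Type*} [CommRing R]

/-- `det (M − r) = r² − tr(M) r + det M` for a `2 × 2` matrix. -/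
theorem det_sub_scalar (M : Matrix (Fin 2) (Fin 2) R) (r : R) :
    (M - r • (1 : Matrix (Fin 2) (Fin 2) R)).det = r ^ 2 - M.trace * r + M.det := by
  simp only [Matrix.det_fin_two, Matrix.trace_fin_two, Matrix.sub_apply, Matrix.smul_apply,
    Matrix.one_apply_eq, smul_eq_mul, mul_one]
  have h01 : (1 : Matrix (Fin 2) (Fin 2) R) 0 1 = 0 := by simp
  have h10 : (1 : Matrix (Fin 2) (Fin 2) R) 1 0 = 0 := by simp
  rw [h01, h10]
  ring

/-- The quartic `(X² − 1)(X² − q²)` factors into four linear factors. -/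
theorem quartic_factor (M : Matrix (Fin 2) (Fin 2) R) (q : R) :
    M ^ 4 - (q ^ 2 + 1) • M ^ 2 + q ^ 2 • (1 : Matrix (Fin 2) (Fin 2) R) =
      (M - (1 : R) • (1 : Matrix (Fin 2) (Fin 2) R)) * (M - (-1 : R) • (1 : Matrix (Fin 2) (Fin 2) R))
        * (M - q • (1 : Matrix (Fin 2) (Fin 2) R)) * (M - (-q) • (1 : Matrix (Fin 2) (Fin 2) R)) := by
  simp only [one_smul, neg_smul, sub_neg_eq_add]
  have e1 : (M - 1) * (M + 1) = M ^ 2 - 1 := by noncomm_ring
  have e2 : (M ^ 2 - 1) * (M - q • (1 : Matrix (Fin 2) (Fin 2) R)) * (M + q • (1 : Matrix (Fin 2) (Fin 2) R))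
      = M ^ 4 - (q ^ 2 + 1) • M ^ 2 + q ^ 2 • (1 : Matrix (Fin 2) (Fin 2) R) := by
    have hc : Commute M (q • (1 : Matrix (Fin 2) (Fin 2) R)) := by
      rw [Commute, SemiconjBy]; simp
    have e3 : (M - q • (1 : Matrix (Fin 2) (Fin 2) R)) * (M + q • (1 : Matrix (Fin 2) (Fin 2) R))
        = M ^ 2 - q ^ 2 • (1 : Matrix (Fin 2) (Fin 2) R) := by
      rw [sub_mul, mul_add, mul_add, hc.eq]
      simp only [Matrix.smul_mul, Matrix.mul_smul, one_mul, mul_one, smul_smul]
      rw [pow_two, pow_two]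
      abel
    rw [mul_assoc, e3]
    rw [sub_mul, mul_sub, mul_sub, one_mul]
    simp only [Matrix.mul_smul, mul_one]
    rw [add_smul, one_smul]
    have : M ^ 2 * M ^ 2 = M ^ 4 := by rw [← pow_add]
    rw [this]
    abel
  rw [e1, e2]

/-- Matrix form. -/
theorem trace_of_quartic [IsDomain R] (M : Matrix (Fin 2) (Fin 2) R) (q : R) (hq : q ≠ 0)
    (hdet : M.det = q) (v : Fin 2 → R) (hv : v ≠ 0)
    (hP : (M ^ 4 - (q ^ 2 + 1) • M ^ 2 + q ^ 2 • (1 : Matrix (Fin 2) (Fin 2) R)).mulVec v = 0) :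
    M.trace = q + 1 ∨ M.trace = -(q + 1) := by
  have hd : (M ^ 4 - (q ^ 2 + 1) • M ^ 2 + q ^ 2 • (1 : Matrix (Fin 2) (Fin 2) R)).det = 0 :=
    Matrix.exists_mulVec_eq_zero_iff.mp ⟨v, hv, hP⟩
  rw [quartic_factor, Matrix.det_mul, Matrix.det_mul, Matrix.det_mul, det_sub_scalar,
    det_sub_scalar, det_sub_scalar, det_sub_scalar, hdet] at hd
  have key : (q + 1 - M.trace) * (q + 1 + M.trace) * (q * (q + 1 - M.trace))
      * (q * (q + 1 + M.trace)) = 0 := by
    rw [← hd]; ring
  rcases mul_eq_zero.mp key with h | h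
  · rcases mul_eq_zero.mp h with h | h
    · rcases mul_eq_zero.mp h with h | h
      · left; exact (sub_eq_zero.mp h).symm
      · right; exact eq_neg_of_add_eq_zero_right h
    · rcases mul_eq_zero.mp h with h | h
      · exact absurd h hq
      · left; exact (sub_eq_zero.mp h).symm
  · rcases mul_eq_zero.mp h with h | h
    · exact absurd h hq
    · right; exact eq_neg_of_add_eq_zero_right h

/-- **S35 clause 2, algebra.** An endomorphism `f` of a free module of rank two over a domain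
with `det f = q ≠ 0` and a nonzero vector killed by `f⁴ − (q² + 1) f² + q²` has
characteristic polynomial `X² ∓ (q + 1) X + q`. -/
theorem charpoly_of_quartic [IsDomain R] {V : Type*} [AddCommGroup V] [Module R V]
    [Module.Free R V] [Module.Finite R V] (h2 : Module.finrank R V = 2) (f : Module.End R V)
    (q : R) (hq : q ≠ 0) (hdet : LinearMap.det f = q) (v : V) (hv : v ≠ 0)
    (hP : (f ^ 4 - (q ^ 2 + 1) • f ^ 2 + q ^ 2 • (1 : Module.End R V)) v = 0) :
    f.charpoly = X ^ 2 - C (q + 1) * X + C q ∨ f.charpoly = X ^ 2 + C (q + 1) * X + C q := by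
  classical
  let b : Module.Basis (Fin 2) R V := Module.finBasisOfFinrankEq R V h2
  set M : Matrix (Fin 2) (Fin 2) R := LinearMap.toMatrix b b f with hM
  have hMdet : M.det = q := by rw [hM, LinearMap.det_toMatrix, hdet]
  have hcp : f.charpoly = X ^ 2 - C M.trace * X + C M.det := by
    rw [← LinearMap.charpoly_toMatrix f b, Matrix.charpoly_fin_two]
  have hv' : (b.repr v : Fin 2 → R) ≠ 0 := by
    intro h
    apply hv
    apply b.repr.injective
    rw [map_zero]
    ext i
    exact congrFun h i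
  have hPM : (M ^ 4 - (q ^ 2 + 1) • M ^ 2 + q ^ 2 • (1 : Matrix (Fin 2) (Fin 2) R)).mulVec
      (b.repr v) = 0 := by
    have e : M ^ 4 - (q ^ 2 + 1) • M ^ 2 + q ^ 2 • (1 : Matrix (Fin 2) (Fin 2) R) =
        LinearMap.toMatrix b b (f ^ 4 - (q ^ 2 + 1) • f ^ 2 + q ^ 2 • (1 : Module.End R V)) := by
      have hpow : ∀ n : ℕ, LinearMap.toMatrix b b (f ^ n) = M ^ n := by
        intro n
        induction n with
        | zero => rw [pow_zero, pow_zero]; exact LinearMap.toMatrix_one b
        | succ n ih => rw [pow_succ, pow_succ, Module.End.mul_eq_comp, LinearMap.toMatrix_comp b b b, ih]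
      rw [map_add, map_sub, map_smul, map_smul, hpow, hpow]
      congr 2
      exact (LinearMap.toMatrix_one b).symm
    rw [e, LinearMap.toMatrix_mulVec_repr, hP, map_zero]
    rfl
  rcases trace_of_quartic M q hq hMdet _ hv' hPM with ht | ht
  · left; rw [hcp, ht, hMdet]
  · right; rw [hcp, ht, hMdet, map_neg, neg_mul, sub_neg_eq_add]

end Fermat.Agent.BAD.Mat2
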