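import Mathlib
import Fermat.Prelude.Def_CuspForm_Newforms
import Fermat.Agent.ESJ.Rep.Defs
import Fermat.Agent.ESJ.Rep.Lattice
import Fermat.Agent.ESJ.Rep.EigenDimCore
import Fermat.Agent.ESJ.Rep.FieldExt
import Fermat.Agent.ESJ.Rep.EigChar
import Fermat.Agent.S49.AlgCore
import Fermat.Agent.S49.Eigenform
import Fermat.Agent.S23.Descent

/-!
# BAD layer F — the newform glue

For a newform `g` of level `N` and a proper divisor `N'` of `N`, the system of eigenvalues
`(a_ℓ(g))_{ℓ ∤ N}` does not occur at level `N'`: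

* `eigenspace_cuspForm_eq_bot`: not in `S₂(Γ₀(N'))` (a common eigenvector of the full Hecke
  algebra of level `N'` inside the anemic eigenspace would give a normalised eigenform of level
  `N'` with the same good eigenvalues, contradicting `IsNewform`);
* `eigenspace_baseChange_eq_bot`: not in `E ⊗ Ta'` for any Hecke module `Ta'` with comparison
  data `CmpData p N' Ta' hecke'` and any field `E` of characteristic zero, the eigenvalues being
  transported by any ring homomorphism `j` from the ring generated by the eigenvalues of `g`;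
* `eq_zero_of_mem_eigenspace`: not in `𝒪 ⊗ Ta'` for a domain `𝒪` of characteristic zero.

No Atkin–Lehner theory is used.
-/

set_option autoImplicit false
set_option linter.style.haveILetI false

open scoped TensorProduct
open CongruenceSubgroup ModularFormClass

namespace Fermat.Agent.BAD.NewGlue

open Fermat.Agent.ESJ.Rep

/-- The primes not dividing `N`. -/
abbrev GoodP (N : ℕ) : Type := {ℓ : Nat.Primes // ¬ (ℓ : ℕ) ∣ N}

/-- The good eigenvalues of a newform of level `N` do not occur in `S₂(Γ₀(N'))` for a proper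
divisor `N'` of `N`. -/
theorem eigenspace_cuspForm_eq_bot {N N' : ℕ} [NeZero N] [NeZero N'] (hN' : N' ∣ N)
    (hne : N' ≠ N) {g : CuspForm (Gamma0 N) 2} (hg : g.IsNewform) :
    eigenspace (fun i : GoodP N => heckeOp N' i.1) (fun i : GoodP N => qCoeff g i.1) = ⊥ := by
  classical
  by_contra hW
  haveI : FiniteDimensional ℂ (CuspForm (Gamma0 N') 2) :=
    Fermat.Agent.S23.finiteDimensional_cuspForm N' 2
  set W := eigenspace (fun i : GoodP N => heckeOp N' i.1) (fun i : GoodP N => qCoeff g i.1)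
    with hWdef
  let φ : CuspForm.heckeAlgebra N' 2 (∅ : Set ℕ) →+*
      Module.End ℂ (CuspForm (Gamma0 N') 2) := (CuspForm.heckeAlgebra N' 2 (∅ : Set ℕ)).val.toRingHom
  have hφ : ∀ t : CuspForm.heckeAlgebra N' 2 (∅ : Set ℕ),
      φ t = (t : Module.End ℂ (CuspForm (Gamma0 N') 2)) := fun t => rfl
  have hst : ∀ t : CuspForm.heckeAlgebra N' 2 (∅ : Set ℕ), ∀ w ∈ W, φ t w ∈ W := by
    intro t w hw
    rw [hWdef, mem_eigenspace] at hw ⊢
    intro i
    have hc : heckeOp N' i.1 (φ t w) = φ t (heckeOp N' i.1 w) := by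
      have h1 : CuspForm.heckeFormsGen N' 2 i.1 * t = t * CuspForm.heckeFormsGen N' 2 i.1 :=
        mul_comm _ _
      have h2 := congrArg φ h1
      rw [map_mul, map_mul] at h2
      have h3 := congrArg (fun f : Module.End ℂ (CuspForm (Gamma0 N') 2) => f w) h2
      simp only [Module.End.mul_apply] at h3
      exact h3
    rw [hc, hw i, map_smul]
  obtain ⟨v, hvW, hv0, hv⟩ := Fermat.Agent.S49.AlgCore.exists_common_eigenvector φ W hW hst
  obtain ⟨θ, hθ⟩ := Fermat.Agent.S49.AlgCore.exists_ringHom_of_forall_eigen φ hv0 hv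
  obtain ⟨g', hg', hcoef⟩ := Fermat.Agent.S49.exists_normalized_eigenform hv0 (θ := θ)
    (fun t => hθ t)
  refine hg.2 N' hN' hne ⟨g', hg', ?_⟩
  intro ℓ hℓ hℓN
  have hℓN' : ¬ ℓ ∣ N' := fun h => hℓN (h.trans hN')
  rw [hcoef ℓ hℓ hℓN']
  have h1 : heckeOp N' ⟨ℓ, hℓ⟩ v = qCoeff g ℓ • v := by
    rw [hWdef, mem_eigenspace] at hvW
    exact hvW ⟨⟨ℓ, hℓ⟩, hℓN⟩
  have h2 : heckeOp N' ⟨ℓ, hℓ⟩ v =
      θ (CuspForm.heckeAlgebra.T hℓ hℓN' (Set.notMem_empty ℓ)) • v := by
    rw [← hθ, hφ]
    show ((CuspForm.heckeFormsGen N' 2 ⟨ℓ, hℓ⟩ : CuspForm.heckeAlgebra N' 2 (∅ : Set ℕ)) :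
      Module.End ℂ (CuspForm (Gamma0 N') 2)) v = _
    rw [CuspForm.heckeFormsGen_of_not_dvd (ℓ := ⟨ℓ, hℓ⟩) hℓN']
  exact smul_left_injective ℂ hv0 (h2.symm.trans h1)

/-- A ring homomorphism from a domain integral over `ℤ` to a domain of characteristic zero is
injective. -/
theorem injective_of_isIntegral_int {D E : Type*} [CommRing D] [IsDomain D]
    [Algebra.IsIntegral ℤ D] [CommRing E] [IsDomain E] [CharZero E] (j : D →+* E) :
    Function.Injective j := by
  rw [RingHom.injective_iff_ker_eq_bot]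
  apply Ideal.eq_bot_of_comap_eq_bot (R := ℤ)
  rw [eq_bot_iff]
  intro n hn
  rw [Ideal.mem_comap, RingHom.mem_ker, eq_intCast, map_intCast] at hn
  rw [Ideal.mem_bot]
  exact_mod_cast hn

section Lattice

variable {p N N' : ℕ} [Fact p.Prime] [NeZero N] [NeZero N']
  {g : CuspForm (Gamma0 N) 2}
  {Ta' : Type} [AddCommGroup Ta'] [Module ℤ_[p] Ta'] {hecke' : Nat.Primes → Module.End ℤ_[p] Ta'}

/-- The ring generated by the Hecke eigenvalues of a normalised eigenform is integral over
`ℤ`. -/
theorem isIntegral_range (hg : g.IsNormalizedEigenform) :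
    Algebra.IsIntegral ℤ (EigChar.chiC hg).range := by
  refine ⟨fun x => ?_⟩
  obtain ⟨t, ht⟩ := x.2
  have h1 : IsIntegral ℤ (x : ℂ) := by
    rw [← ht]
    exact EigChar.isIntegral_chiC hg t
  obtain ⟨P, hP, hPx⟩ := h1
  refine ⟨P, hP, ?_⟩
  apply Subtype.ext
  have h2 : (Polynomial.eval₂ (algebraMap ℤ (EigChar.chiC hg).range) x P : (EigChar.chiC hg).range)
      = (⟨Polynomial.eval₂ (algebraMap ℤ ℂ) (x : ℂ) P, by
          rw [hPx]; exact Subring.zero_mem _⟩ : (EigChar.chiC hg).range) := by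
    apply Subtype.ext
    have := Polynomial.hom_eval₂ P (algebraMap ℤ (EigChar.chiC hg).range)
      ((EigChar.chiC hg).range.subtype) x
    rw [show ((EigChar.chiC hg).range.subtype).comp (algebraMap ℤ (EigChar.chiC hg).range)
      = algebraMap ℤ ℂ from RingHom.ext fun n => by simp] at this
    exact this
  rw [h2]
  exact hPx

/-- **Newform glue, field form.** -/
theorem eigenspace_baseChange_eq_bot (hN' : N' ∣ N) (hne : N' ≠ N) (hg : g.IsNewform)
    (C' : CmpData p N' Ta' hecke') (E : Type) [Field E] [CharZero E] [Algebra ℤ_[p] E]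
    (j : (EigChar.chiC hg.1).range →+* E) :
    eigenspace (fun i : GoodP N => (hecke' i.1).baseChange E)
      (fun i : GoodP N =>
        j ((EigChar.chiC hg.1).rangeRestrict (CuspForm.heckeFormsGen N 2 i.1))) = ⊥ := by
  classical
  haveI := isIntegral_range hg.1
  have hj : Function.Injective j := injective_of_isIntegral_int j
  -- finiteness of `Ta'`
  haveI : Module.Finite ℤ_[p] Ta' := Module.Finite.equiv C'.cmpTa.symm
  -- the number field
  let Rg := (EigChar.chiC hg.1).range
  let K := FractionRing Rg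
  letI algRE : Algebra Rg E := j.toAlgebra
  haveI : FaithfulSMul Rg E := (faithfulSMul_iff_algebraMap_injective Rg E).mpr hj
  letI algKE : Algebra K E := FractionRing.liftAlgebra Rg E
  haveI towE : IsScalarTower Rg K E := FractionRing.isScalarTower_liftAlgebra Rg E
  haveI faithC : FaithfulSMul Rg ℂ :=
    (faithfulSMul_iff_algebraMap_injective Rg ℂ).mpr Subtype.val_injective
  letI algKC : Algebra K ℂ := FractionRing.liftAlgebra Rg ℂ
  haveI towC : IsScalarTower Rg K ℂ := FractionRing.isScalarTower_liftAlgebra Rg ℂ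
  let aK : GoodP N → K := fun i =>
    algebraMap Rg K ((EigChar.chiC hg.1).rangeRestrict (CuspForm.heckeFormsGen N 2 i.1))
  have haE : ∀ i : GoodP N, algebraMap K E (aK i) =
      j ((EigChar.chiC hg.1).rangeRestrict (CuspForm.heckeFormsGen N 2 i.1)) := by
    intro i
    show algebraMap K E (algebraMap Rg K _) = _
    rw [← IsScalarTower.algebraMap_apply Rg K E]
    rfl
  have haC : ∀ i : GoodP N, algebraMap K ℂ (aK i) = qCoeff g i.1 := by
    intro i
    show algebraMap K ℂ (algebraMap Rg K _) = _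
    rw [← IsScalarTower.algebraMap_apply Rg K ℂ]
    show ((EigChar.chiC hg.1).rangeRestrict (CuspForm.heckeFormsGen N 2 i.1) : ℂ) = _
    exact EigChar.chiC_heckeFormsGen hg.1 i.1
  -- Step 1: from `Ta'` to the lattice `H`
  have h1 : Module.finrank E (eigenspace (fun i : GoodP N => (hecke' i.1).baseChange E)
        (fun i : GoodP N => algebraMap K E (aK i))) =
      Module.finrank E (eigenspace (fun i : GoodP N => (C'.heckeH i.1).baseChange E)
        (fun i : GoodP N => algebraMap K E (aK i))) :=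
    EigenDim.finrank_eigenspace_congr _ _ _ (EigenDim.cancelEquiv ℤ ℤ_[p] E C'.cmpTa)
      (fun i x => EigenDim.cancelEquiv_intertwine ℤ ℤ_[p] E C'.cmpTa (hecke' i.1)
        (C'.heckeH i.1) (C'.cmpTa_hecke i.1) x)
  -- Step 2: field extensions
  have h2 := EigenDim.finrank_eigenspace_fieldExt_aux ℤ C'.H
    (fun i : GoodP N => C'.heckeH i.1) K E aK
  have h3 := EigenDim.finrank_eigenspace_fieldExt_aux ℤ C'.H
    (fun i : GoodP N => C'.heckeH i.1) K ℂ aK
  -- Step 3: the complex eigenspace
  have h4 : Module.finrank ℂ (eigenspace (fun i : GoodP N => (C'.heckeH i.1).baseChange ℂ)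
      (fun i : GoodP N => algebraMap K ℂ (aK i))) = 0 := by
    rw [EigenDim.finrank_eigenspace_congr _
      (fun i : GoodP N => LinearMap.prodMap (heckeOp N' i.1) (heckeOp N' i.1)) _ C'.cmpS2
      (fun i x => by rw [C'.cmpS2_hecke]; rfl)]
    rw [EigenDim.eigenspace_prodMap]
    have h0 : eigenspace (fun i : GoodP N => heckeOp N' i.1)
        (fun i : GoodP N => algebraMap K ℂ (aK i)) = ⊥ := by
      have := eigenspace_cuspForm_eq_bot hN' hne hg
      rw [← this]
      congr 1
      funext i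
      exact haC i
    rw [h0]
    have : ((⊥ : Submodule ℂ (CuspForm (Gamma0 N') 2)).prod
        (⊥ : Submodule ℂ (CuspForm (Gamma0 N') 2))) = ⊥ := by
      ext ⟨x, y⟩
      simp
    rw [this, finrank_bot]
  have h5 : Module.finrank E (eigenspace (fun i : GoodP N => (hecke' i.1).baseChange E)
        (fun i : GoodP N => algebraMap K E (aK i))) = 0 := by
    rw [h1, h2, ← h3, h4]
  have h6 : eigenspace (fun i : GoodP N => (hecke' i.1).baseChange E)
        (fun i : GoodP N => algebraMap K E (aK i)) = ⊥ :=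
    Submodule.finrank_eq_zero.mp h5
  rw [← h6]
  congr 1
  funext i
  exact (haE i).symm

/-- **Newform glue, lattice form.** -/
theorem eq_zero_of_mem_eigenspace (hN' : N' ∣ N) (hne : N' ≠ N) (hg : g.IsNewform)
    (C' : CmpData p N' Ta' hecke') (𝒪 : Type) [CommRing 𝒪] [IsDomain 𝒪] [CharZero 𝒪]
    [Algebra ℤ_[p] 𝒪] (χ' : (EigChar.chiC hg.1).range →+* 𝒪) (y : 𝒪 ⊗[ℤ_[p]] Ta')
    (hy : y ∈ eigenspace (fun i : GoodP N => (hecke' i.1).baseChange 𝒪)
      (fun i : GoodP N =>
        χ' ((EigChar.chiC hg.1).rangeRestrict (CuspForm.heckeFormsGen N 2 i.1)))) :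
    y = 0 := by
  haveI : Module.Free ℤ_[p] Ta' := Module.Free.of_equiv C'.cmpTa.symm
  let K := FractionRing 𝒪
  haveI : CharZero K := charZero_of_injective_algebraMap (IsFractionRing.injective 𝒪 K)
  have h1 := Lattice.cmp_mem_eigenspace 𝒪 K (fun i : GoodP N => hecke' i.1) hy
  have h2 := eigenspace_baseChange_eq_bot hN' hne hg C' K ((algebraMap 𝒪 K).comp χ')
  have h3 : Lattice.cmp (R := ℤ_[p]) (M := Ta') 𝒪 K y = 0 := by
    have : Lattice.cmp (R := ℤ_[p]) (M := Ta') 𝒪 K y ∈
        eigenspace (fun i : GoodP N => (hecke' i.1).baseChange K)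
          (fun i : GoodP N => ((algebraMap 𝒪 K).comp χ')
            ((EigChar.chiC hg.1).rangeRestrict (CuspForm.heckeFormsGen N 2 i.1))) := h1
    rw [h2] at this
    exact (Submodule.mem_bot K).mp this
  exact Lattice.cmp_injective_fraction (R := ℤ_[p]) (M := Ta') 𝒪 K (h3.trans (map_zero _).symm)

end Lattice

end Fermat.Agent.BAD.NewGlue
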