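import Mathlib
import Fermat.Prelude.Def_CuspForm_Newforms
import Fermat.Agent.ESJ.Rep.DefsA
import Fermat.Agent.ESJ.Rep.AdicMod
import Fermat.Agent.ESJ.Rep.AdicExtract
import Fermat.Agent.ESJ.Rep.LiftChar
import Fermat.Agent.ESJ.Rep.ZpAlg
import Fermat.Agent.ESJ.Rep.EigChar
import Fermat.Agent.ESJ.Rep.Cyclo
import Fermat.Agent.S22
import Fermat.Agent.BAD.Mat2
import Fermat.Agent.BAD.NewGlue
import Fermat.Agent.BAD.FlatKer

/-!
# BAD layer F — S35 from Frobenius density and the bad-prime Tate data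

`BadNewData p N N' q D` (for `N = N' q`, `q ∤ N'`): what the geometry has to deliver at a prime
`q ∥ N` for the anemic Tate datum `D` of level `N`:

* a Hecke module `Ta'` of level `N' = N / q` with comparison data (`CmpData p N' Ta' hecke'`),
* the two degeneracy maps `δ₁ δ₂ : Ta → Ta'` (`α_*`, `β_*`), commuting with `T_ℓ`, `ℓ ∤ N`,
* **(BAD-F′)**: every Frobenius lift `φ` at `q` satisfies `(φ² − 1)(φ² − q²) = 0` on
  `ker δ₁ ∩ ker δ₂`.

`S35_of : FrobDensity → TateCmpABadExists → (frozen statement S35)`.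
-/

set_option autoImplicit false
set_option linter.style.haveILetI false

open scoped TensorProduct
open Polynomial CongruenceSubgroup

namespace Fermat.Agent.BAD

open Fermat.Agent.ESJ.Rep

/-- The bad-prime data at `q ∥ N` (`N = N' q`) for an anemic Tate datum of level `N`. -/
structure BadNewData (p N N' q : ℕ) [Fact p.Prime] [NeZero N] [NeZero N']
    (D : TateDatumA p N) : Type 1 where
  /-- the Tate module of level `N' = N / q` -/
  Ta' : Type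
  [instAddCommGroup : AddCommGroup Ta']
  [instModule : Module ℤ_[p] Ta']
  /-- its Hecke operators -/
  hecke' : Nat.Primes → Module.End ℤ_[p] Ta'
  /-- comparison data at level `N'` -/
  cmp' : CmpData p N' Ta' hecke'
  /-- the degeneracy map `α_*` -/
  δ₁ : D.Ta →ₗ[ℤ_[p]] Ta'
  /-- the degeneracy map `β_*` -/
  δ₂ : D.Ta →ₗ[ℤ_[p]] Ta'
  δ₁_hecke : ∀ ℓ : Nat.Primes, ¬ (ℓ : ℕ) ∣ N → ∀ x : D.Ta, δ₁ (D.hecke ℓ x) = hecke' ℓ (δ₁ x)
  δ₂_hecke : ∀ ℓ : Nat.Primes, ¬ (ℓ : ℕ) ∣ N → ∀ x : D.Ta, δ₂ (D.hecke ℓ x) = hecke' ℓ (δ₂ x)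
  /-- (BAD-F′): `(φ² − 1)(φ² − q²) = 0` on the `q`-new part, for every Frobenius lift at `q` -/
  frob : ∀ P : ValuationSubring Qb, P.LiesOverPrime q → ∀ φ : GQ, P.IsFrobeniusAt φ q →
    ∀ x : D.Ta, δ₁ x = 0 → δ₂ x = 0 →
      D.gal φ (D.gal φ (D.gal φ (D.gal φ x))) - ((q : ℤ_[p]) ^ 2 + 1) • D.gal φ (D.gal φ x)
        + (q : ℤ_[p]) ^ 2 • x = 0

attribute [instance] BadNewData.instAddCommGroup BadNewData.instModule

/-- **The geometric target for S35**: for all `p`, `N` an anemic Tate datum of level `N` with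
bad-prime data at every prime `q ∥ N`, `q ≠ p`. -/
def TateCmpABadExists : Prop :=
  ∀ (p N : ℕ) [Fact p.Prime] [NeZero N], ∃ D : TateDatumA p N,
    ∀ (N' : ℕ) [NeZero N'] (q : ℕ), q.Prime → q ≠ p → N = N' * q → ¬ q ∣ N' →
      Nonempty (BadNewData p N N' q D)

namespace S35Of

section Quartic

variable {p N q : ℕ} [Fact p.Prime] [NeZero N] (D : TateDatumA p N)
  (𝒪 : Type) [CommRing 𝒪] [Algebra ℤ_[p] 𝒪]

/-- The quartic operator on `Ta`. -/
noncomputable def quartic (φ : GQ) : Module.End ℤ_[p] D.Ta :=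
  (D.gal φ) ^ 4 - ((q : ℤ_[p]) ^ 2 + 1) • (D.gal φ) ^ 2 + (q : ℤ_[p]) ^ 2 • (1 : Module.End ℤ_[p] D.Ta)

theorem quartic_apply (φ : GQ) (x : D.Ta) :
    quartic (q := q) D φ x = D.gal φ (D.gal φ (D.gal φ (D.gal φ x)))
      - ((q : ℤ_[p]) ^ 2 + 1) • D.gal φ (D.gal φ x) + (q : ℤ_[p]) ^ 2 • x := by
  simp only [quartic, LinearMap.add_apply, LinearMap.sub_apply, LinearMap.smul_apply,
    Module.End.one_apply]
  rfl

theorem galO_pow_tmul (φ : GQ) (n : ℕ) (c : 𝒪) (v : D.Ta) :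
    ((AdicMod.galO D 𝒪 φ) ^ n) (c ⊗ₜ[ℤ_[p]] v) = c ⊗ₜ[ℤ_[p]] (((D.gal φ) ^ n) v) := by
  induction n generalizing v with
  | zero => simp
  | succ n ih =>
    rw [pow_succ, pow_succ, Module.End.mul_apply, Module.End.mul_apply, AdicMod.galO_apply,
      LinearMap.baseChange_tmul, ← AdicMod.galO_apply, ih]

/-- The base change of the quartic operator is the quartic in the base-changed Galois action. -/
theorem quartic_baseChange (φ : GQ) (y : 𝒪 ⊗[ℤ_[p]] D.Ta) :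
    (quartic (q := q) D φ).baseChange 𝒪 y =
      ((AdicMod.galO D 𝒪 φ) ^ 4) y - ((q : 𝒪) ^ 2 + 1) • ((AdicMod.galO D 𝒪 φ) ^ 2) y
        + (q : 𝒪) ^ 2 • y := by
  induction y using TensorProduct.induction_on with
  | zero => simp
  | tmul c v =>
    rw [LinearMap.baseChange_tmul, galO_pow_tmul, galO_pow_tmul]
    simp only [quartic, LinearMap.add_apply, LinearMap.sub_apply, LinearMap.smul_apply,
      Module.End.one_apply, TensorProduct.tmul_add, TensorProduct.tmul_sub]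
    have e1 : ∀ (r : ℤ_[p]) (w : D.Ta), c ⊗ₜ[ℤ_[p]] (r • w) =
        (algebraMap ℤ_[p] 𝒪 r) • (c ⊗ₜ[ℤ_[p]] w) := by
      intro r w
      rw [TensorProduct.tmul_smul, algebraMap_smul]
    rw [e1, e1]
    simp only [map_add, map_pow, map_natCast, map_one]
  | add y z hy hz =>
    simp only [map_add, smul_add, hy, hz]
    abel

end Quartic

section Lattice

variable {p N N' q : ℕ} [Fact p.Prime] [NeZero N] [NeZero N'] (D : TateDatumA p N)

/-- **The quartic relation on the anemic eigen-lattice of a newform.** -/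
theorem latA_quartic (B : BadNewData p N N' q D) (hN' : N' ∣ N) (hne : N' ≠ N) {g : CuspForm (Gamma0 N) 2}
    (hg : g.IsNewform) (𝒪 : Type) [CommRing 𝒪] [IsDomain 𝒪] [CharZero 𝒪] [Algebra ℤ_[p] 𝒪]
    (χ' : (EigChar.chiC hg.1).range →+* 𝒪) (P : ValuationSubring Qb) (hP : P.LiesOverPrime q)
    (φ : GQ) (hφ : P.IsFrobeniusAt φ q) :
    (AdicMod.rhoA D 𝒪 (χ'.comp (EigChar.chiC hg.1).rangeRestrict) φ) ^ 4
      - ((q : 𝒪) ^ 2 + 1) • (AdicMod.rhoA D 𝒪 (χ'.comp (EigChar.chiC hg.1).rangeRestrict) φ) ^ 2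
      + (q : 𝒪) ^ 2 • (1 : Module.End 𝒪
          (AdicMod.latA D 𝒪 (χ'.comp (EigChar.chiC hg.1).rangeRestrict))) = 0 := by
  set χ := χ'.comp (EigChar.chiC hg.1).rangeRestrict with hχ
  haveI : Module.Flat ℤ_[p] 𝒪 := FlatKer.flat_padicInt p 𝒪
  -- the degeneracy maps kill the eigen-lattice
  have hkill : ∀ (δ : D.Ta →ₗ[ℤ_[p]] B.Ta'),
      (∀ ℓ : Nat.Primes, ¬ (ℓ : ℕ) ∣ N → ∀ x : D.Ta, δ (D.hecke ℓ x) = B.hecke' ℓ (δ x)) →
      ∀ y ∈ AdicMod.latA D 𝒪 χ, δ.baseChange 𝒪 y = 0 := by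
    intro δ hδ y hy
    refine NewGlue.eq_zero_of_mem_eigenspace hN' hne hg B.cmp' 𝒪 χ' _ ?_
    rw [mem_eigenspace]
    intro i
    have hcomm : (B.hecke' i.1).baseChange 𝒪 (δ.baseChange 𝒪 y) =
        δ.baseChange 𝒪 ((D.hecke i.1).baseChange 𝒪 y) := by
      rw [← LinearMap.comp_apply, ← LinearMap.comp_apply, ← LinearMap.baseChange_comp,
        ← LinearMap.baseChange_comp]
      congr 2
      ext x
      exact (hδ i.1 i.2 x).symm
    have hy' := (AdicMod.mem_latA D 𝒪 χ).mp hy i.1 i.2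
    rw [hcomm]
    have : (D.hecke i.1).baseChange 𝒪 y = AdicMod.ev 𝒪 χ i.1 • y := hy'
    rw [this, map_smul]
    rfl
  -- the quartic relation
  have hQ : ∀ x : D.Ta, B.δ₁ x = 0 → B.δ₂ x = 0 → quartic (q := q) D φ x = 0 := by
    intro x h1 h2
    rw [quartic_apply]
    exact B.frob P hP φ hφ x h1 h2
  ext x
  have hx : (x : 𝒪 ⊗[ℤ_[p]] D.Ta) ∈ AdicMod.latA D 𝒪 χ := x.2
  have h0 := FlatKer.baseChange_eq_zero_of_ker 𝒪 B.δ₁ B.δ₂ (quartic (q := q) D φ) hQ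
    (x : 𝒪 ⊗[ℤ_[p]] D.Ta) (hkill B.δ₁ B.δ₁_hecke _ hx) (hkill B.δ₂ B.δ₂_hecke _ hx)
  rw [quartic_baseChange] at h0
  have hpow : ∀ (n : ℕ) (z : AdicMod.latA D 𝒪 χ),
      ((((AdicMod.rhoA D 𝒪 χ φ) ^ n) z : AdicMod.latA D 𝒪 χ) : 𝒪 ⊗[ℤ_[p]] D.Ta) =
        ((AdicMod.galO D 𝒪 φ) ^ n) (z : 𝒪 ⊗[ℤ_[p]] D.Ta) := by
    intro n
    induction n with
    | zero => intro z; simp
    | succ n ih =>
      intro z
      rw [pow_succ, pow_succ, Module.End.mul_apply, Module.End.mul_apply, ih,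
        AdicMod.rhoA_apply_coe]
  simp only [LinearMap.add_apply, LinearMap.sub_apply, LinearMap.smul_apply,
    Module.End.one_apply, LinearMap.zero_apply, Submodule.coe_add, Submodule.coe_sub,
    Submodule.coe_smul, Submodule.coe_zero, hpow]
  exact h0

end Lattice


theorem aeval_quartic {R A : Type*} [CommRing R] [Ring A] [Algebra R A] (x : A) (c d : R) :
    Polynomial.aeval x (X ^ 4 - C c * X ^ 2 + C d : Polynomial R) =
      x ^ 4 - c • x ^ 2 + d • (1 : A) := by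
  rw [map_add, map_sub, map_mul, map_pow, map_pow, aeval_X, aeval_C, aeval_C,
    Algebra.algebraMap_eq_smul_one, Algebra.algebraMap_eq_smul_one, smul_mul_assoc, one_mul]

section Char

variable {M : ℕ} [NeZero M] {g : CuspForm (Gamma0 M) 2}

/-- On the `S`-anemic Hecke algebra (all primes dividing the level in `S`), a character with
the eigenvalues of `g` is the restriction of the eigencharacter of `g`. -/
theorem chig_eq (hg : g.IsNormalizedEigenform) (S : Finset ℕ)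
    (chig : CuspForm.heckeAlgebra M 2 (↑S : Set ℕ) →+* ℂ)
    (hchig : ∀ (ℓ : ℕ) (hℓ : ℓ.Prime) (hℓM : ¬ ℓ ∣ M) (hℓS : ℓ ∉ (↑S : Set ℕ)),
      chig (CuspForm.heckeAlgebra.T hℓ hℓM hℓS) = ModularFormClass.qCoeff g ℓ)
    (hMS : ∀ q : ℕ, q.Prime → q ∣ M → q ∈ S)
    (t : CuspForm.heckeAlgebra M 2 (↑S : Set ℕ)) :
    chig t = EigChar.chiC hg
      (Subalgebra.inclusion (CuspForm.heckeAlgebra_mono (Set.empty_subset (↑S : Set ℕ))) t) := by
  let φ₁ : CuspForm.heckeAlgebra M 2 (↑S : Set ℕ) →ₐ[ℤ] ℂ := chig.toIntAlgHom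
  let φ₂ : CuspForm.heckeAlgebra M 2 (↑S : Set ℕ) →ₐ[ℤ] ℂ :=
    ((EigChar.chiC hg).toIntAlgHom).comp
      (Subalgebra.inclusion (CuspForm.heckeAlgebra_mono (Set.empty_subset (↑S : Set ℕ))))
  have key : φ₁ = φ₂ := by
    refine AlgHom.ext_of_eq_adjoin (S := CuspForm.heckeAlgebra M 2 (↑S : Set ℕ))
      (s := CuspForm.heckeGenerators M 2 (↑S : Set ℕ)) rfl ?_
    rintro x (⟨ℓ, hℓ, hℓM, hℓS, rfl⟩ | ⟨q, hqM, hq, hqS, rfl⟩)
    · have h1 := hchig ℓ hℓ hℓM hℓS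
      have h2 := EigChar.chiC_T hg hℓ hℓM
      show chig _ = EigChar.chiC hg _
      rw [← h2] at h1
      exact h1
    · exact absurd (Finset.mem_coe.mpr (hMS q hq hqM)) hqS
  exact congrArg (fun f : CuspForm.heckeAlgebra M 2 (↑S : Set ℕ) →ₐ[ℤ] ℂ => f t) key

end Char

end S35Of

/-- **S35, conditional form.** Frobenius density and the bad-prime Tate data imply the frozen
statement S35. -/
theorem S35_of (hFrob : FrobDensity) (hbad : TateCmpABadExists)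
    {M : ℕ} [NeZero M] {g : CuspForm (CongruenceSubgroup.Gamma0 M) 2} (hg : g.IsNewform)
    (lam : ℕ) [Fact lam.Prime]
    (S : Finset ℕ)
    (O' : Type) [CommRing O'] [IsDomain O'] [IsDiscreteValuationRing O']
    [IsAdicComplete (IsLocalRing.maximalIdeal O') O'] [Finite (IsLocalRing.ResidueField O')]
    [CharZero O'] (hlamO' : (lam : O') ∈ IsLocalRing.maximalIdeal O')
    (chig : CuspForm.heckeAlgebra M 2 (↑S : Set ℕ) →+* ℂ)
    (hchig : ∀ (ℓ : ℕ) (hℓ : ℓ.Prime) (hℓM : ¬ ℓ ∣ M) (hℓS : ℓ ∉ (↑S : Set ℕ)),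
      chig (CuspForm.heckeAlgebra.T hℓ hℓM hℓS) = ModularFormClass.qCoeff g ℓ)
    (iota : chig.range →+* O')
    (hlamS : lam ∈ S) (hMS : ∀ q : ℕ, q.Prime → q ∣ M → q ∈ S) :
    ∃ (O'' : Type) (_ : CommRing O'') (_ : IsDomain O'') (_ : IsDiscreteValuationRing O'')
      (_ : IsAdicComplete (IsLocalRing.maximalIdeal O'') O'') (_ : Finite (IsLocalRing.ResidueField O''))
      (_ : CharZero O'') (_ : Algebra O' O'') (_ : Module.Finite O' O'') (_ : IsLocalHom (algebraMap O' O'')),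
      Function.Injective (algebraMap O' O'') ∧
      ∃ ρ : GaloisRepAdic O'',
        (∀ (ℓ : ℕ) (hℓ : ℓ.Prime) (hℓM : ¬ ℓ ∣ M) (hℓS : ℓ ∉ (↑S : Set ℕ)),
          ∀ A : ValuationSubring (AlgebraicClosure ℚ), A.LiesOverPrime ℓ →
            ∀ σ : AlgebraicClosure ℚ ≃ₐ[ℚ] AlgebraicClosure ℚ, A.IsFrobeniusAt σ ℓ →
              LinearMap.charpoly (ρ.ρ σ) =
                X ^ 2 - C (algebraMap O' O'' ((iota.comp chig.rangeRestrict) (CuspForm.heckeAlgebra.T hℓ hℓM hℓS))) * X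
                  + C ((ℓ : O''))) ∧
        (∀ q : ℕ, q.Prime → q ≠ lam → q ∣ M → ¬ q ^ 2 ∣ M →
          ∀ A : ValuationSubring (AlgebraicClosure ℚ), A.LiesOverPrime q →
            ∀ σ : AlgebraicClosure ℚ ≃ₐ[ℚ] AlgebraicClosure ℚ, A.IsFrobeniusAt σ q →
              LinearMap.charpoly (ρ.ρ σ) = X ^ 2 - C ((q : O'') + 1) * X + C ((q : O'')) ∨
              LinearMap.charpoly (ρ.ρ σ) = X ^ 2 + C ((q : O'') + 1) * X + C ((q : O''))) := by
  classical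
  have hg1 := hg.1
  -- Step A/B: the full eigencharacter, inclusion of ranges
  set χg := EigChar.chiC hg.1 with hχg
  have hcg := S35Of.chig_eq hg.1 S chig hchig hMS
  have hle : chig.range ≤ χg.range := by
    rintro x ⟨t, rfl⟩
    exact ⟨_, (hcg t).symm⟩
  let i : chig.range →+* χg.range := Subring.inclusion hle
  have hi : Function.Injective i := Subring.inclusion_injective hle
  haveI hfinT : Module.Finite ℤ (CuspForm.heckeAlgebra M 2 (∅ : Set ℕ)) :=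
    Fermat.Agent.S22.result M 2 ∅
  haveI : Module.Finite ℤ χg.range :=
    Module.Finite.of_surjective (χg.rangeRestrict.toIntAlgHom.toLinearMap)
      χg.rangeRestrict_surjective
  -- Step C: extend `iota`
  obtain ⟨O₁, i1, i2, i3, i4, i5, i6, i7, i8, i9, hinj, χ', hχ'⟩ :=
    exists_extension_of_ringHom i hi O' iota
  have hlam₁ : (lam : O₁) ∈ IsLocalRing.maximalIdeal O₁ := by
    have h1 : ¬ IsUnit (lam : O') := hlamO'
    have h2 : ¬ IsUnit (algebraMap O' O₁ (lam : O')) := fun h => h1 (isUnit_of_map_unit _ _ h)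
    rw [map_natCast] at h2
    exact h2
  obtain ⟨f⟩ := exists_padicInt_ringHom lam O₁ hlam₁
  letI : Algebra ℤ_[lam] O₁ := f.toAlgebra
  -- Step E: the Tate datum and the eigen-lattice
  obtain ⟨D, hD⟩ := hbad lam M
  set χ : CuspForm.heckeAlgebra M 2 (∅ : Set ℕ) →+* O₁ := χ'.comp χg.rangeRestrict with hχ
  let a : ℕ → O₁ := fun ℓ => if h : ℓ.Prime then AdicMod.ev O₁ χ ⟨ℓ, h⟩ else 0
  have hquad : ∀ ℓ : ℕ, ℓ.Prime → ℓ ∉ S → ∀ A : ValuationSubring Qb, A.LiesOverPrime ℓ →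
      ∀ σ : GQ, A.IsFrobeniusAt σ ℓ →
        AdicMod.rhoA D O₁ χ σ * AdicMod.rhoA D O₁ χ σ - a ℓ • AdicMod.rhoA D O₁ χ σ
          + (ℓ : O₁) • (1 : Module.End O₁ (AdicMod.latA D O₁ χ)) = 0 := by
    intro ℓ hℓ hℓS A hA σ hσ
    have hℓM : ¬ ℓ ∣ M := fun hd => hℓS (hMS ℓ hℓ hd)
    have hℓp : ℓ ≠ lam := fun h => hℓS (h ▸ hlamS)
    have ha : a ℓ = AdicMod.ev O₁ χ ⟨ℓ, hℓ⟩ := dif_pos hℓ
    rw [ha]
    exact AdicMod.rhoA_quadratic D O₁ χ ⟨ℓ, hℓ⟩ hℓM hℓp A hA σ hσ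
  -- Step F: extraction
  obtain ⟨O₂, j1, j2, j3, j4, j5, j6, j7, j8, j9, hinj', ρ', h1, -, hT1, hT2⟩ :=
    AdicExtract.exists_galoisRepAdic_of_module hFrob O₁ hlam₁ S hlamS a
      (AdicMod.latA D O₁ χ) (AdicMod.rhoA D O₁ χ) (AdicMod.rhoA_continuous D O₁ χ hlam₁) hquad
  letI alg : Algebra O' O₂ := ((algebraMap O₁ O₂).comp (algebraMap O' O₁)).toAlgebra
  haveI tow : IsScalarTower O' O₁ O₂ := IsScalarTower.of_algebraMap_eq (fun x => rfl)
  haveI fin : Module.Finite O' O₂ := Module.Finite.trans O₁ O₂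
  haveI loc : IsLocalHom (algebraMap O' O₂) := by
    show IsLocalHom ((algebraMap O₁ O₂).comp (algebraMap O' O₁))
    infer_instance
  have hinj₂ : Function.Injective (algebraMap O' O₂) := hinj'.comp hinj
  refine ⟨O₂, j1, j2, j3, j4, j5, j6, alg, fin, loc, hinj₂, ρ', ?_, ?_⟩
  · -- clause 1
    intro ℓ hℓ hℓM hℓS A hA σ hσ
    have hℓS' : ℓ ∉ S := fun h => hℓS (Finset.mem_coe.mpr h)
    have h := h1 ℓ hℓ hℓS' A hA σ hσ
    have ha : algebraMap O₁ O₂ (a ℓ) = algebraMap O' O₂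
        ((iota.comp chig.rangeRestrict) (CuspForm.heckeAlgebra.T hℓ hℓM hℓS)) := by
      have e1 : a ℓ = AdicMod.ev O₁ χ ⟨ℓ, hℓ⟩ := dif_pos hℓ
      have e2 : χg.rangeRestrict (CuspForm.heckeFormsGen M 2 ⟨ℓ, hℓ⟩) =
          i (chig.rangeRestrict (CuspForm.heckeAlgebra.T hℓ hℓM hℓS)) := by
        apply Subtype.ext
        show χg (CuspForm.heckeFormsGen M 2 ⟨ℓ, hℓ⟩) = chig (CuspForm.heckeAlgebra.T hℓ hℓM hℓS)
        rw [hchig ℓ hℓ hℓM hℓS, hχg]
        exact EigChar.chiC_heckeFormsGen hg.1 ⟨ℓ, hℓ⟩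
      have e3 : a ℓ = algebraMap O' O₁ (iota (chig.rangeRestrict
          (CuspForm.heckeAlgebra.T hℓ hℓM hℓS))) := by
        rw [e1]
        show χ' (χg.rangeRestrict (CuspForm.heckeFormsGen M 2 ⟨ℓ, hℓ⟩)) = _
        rw [e2, hχ']
      rw [e3]
      rfl
    rw [ha] at h
    exact h
  · -- clause 2
    intro q hq hqlam hqM hq2 A hA σ hσ
    have hM0 : M ≠ 0 := NeZero.ne M
    have hMeq : M = M / q * q := (Nat.div_mul_cancel hqM).symm
    haveI : NeZero (M / q) := ⟨fun h0 => hM0 (by rw [hMeq, h0, zero_mul])⟩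
    have hqN' : ¬ q ∣ M / q := by
      intro hd
      apply hq2
      obtain ⟨c, hc⟩ := hd
      exact ⟨c, by rw [hMeq, hc]; ring⟩
    obtain ⟨B⟩ := hD (M / q) q hq hqlam hMeq hqN'
    have hN'M : M / q ∣ M := ⟨q, hMeq⟩
    have hne : M / q ≠ M := by
      intro h
      have h3 : M / q * q = M / q * 1 := by rw [← hMeq, mul_one, h]
      have h4 : q = 1 := Nat.eq_of_mul_eq_mul_left (Nat.pos_of_ne_zero (NeZero.ne (M / q))) h3
      exact hq.one_lt.ne' h4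
    have hquart := S35Of.latA_quartic D B hN'M hne hg O₁ χ' A hA σ hσ
    -- the polynomial
    let P : Polynomial O₁ := X ^ 4 - C ((q : O₁) ^ 2 + 1) * X ^ 2 + C ((q : O₁) ^ 2)
    have haeval : Polynomial.aeval (AdicMod.rhoA D O₁ χ σ) P = 0 := by
      show Polynomial.aeval (AdicMod.rhoA D O₁ χ σ)
        (X ^ 4 - C ((q : O₁) ^ 2 + 1) * X ^ 2 + C ((q : O₁) ^ 2) : Polynomial O₁) = 0
      rw [S35Of.aeval_quartic]
      exact hquart
    obtain ⟨v, hv0, hv⟩ := hT2 σ P haeval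
    have hdet : LinearMap.det (ρ'.ρ σ) = (q : O₂) := by
      rw [hT1 σ, cyclo_frobenius lam hq hqlam A hA σ hσ, map_natCast, map_natCast]
    have hq0 : (q : O₂) ≠ 0 := Nat.cast_ne_zero.mpr hq.ne_zero
    have hv' : ((ρ'.ρ σ) ^ 4 - ((q : O₂) ^ 2 + 1) • (ρ'.ρ σ) ^ 2
        + (q : O₂) ^ 2 • (1 : Module.End O₂ ρ'.V)) v = 0 := by
      have hPmap : P.map (algebraMap O₁ O₂) =
          X ^ 4 - C ((q : O₂) ^ 2 + 1) * X ^ 2 + C ((q : O₂) ^ 2) := by
        show (X ^ 4 - C ((q : O₁) ^ 2 + 1) * X ^ 2 + C ((q : O₁) ^ 2) : Polynomial O₁).map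
          (algebraMap O₁ O₂) = _
        rw [Polynomial.map_add, Polynomial.map_sub, Polynomial.map_mul, Polynomial.map_pow,
          Polynomial.map_pow, Polynomial.map_X, Polynomial.map_C, Polynomial.map_C,
          _root_.map_add, _root_.map_pow, _root_.map_natCast, _root_.map_one]
      rw [hPmap, S35Of.aeval_quartic] at hv
      exact hv
    exact Mat2.charpoly_of_quartic ρ'.finrank_eq (ρ'.ρ σ) (q : O₂) hq0 hdet v hv0 hv'

end Fermat.Agent.BAD
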