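import Mathlib
import Fermat.Agent.ESJ.Rep.TateAsmA
import Fermat.Agent.BAD.S35Of

/-!
# BAD layer F — the S35 target on torsion levels

`TorsionNewFrob N N' q p` (for `N = N' q`, `q ∤ N'`): in the Prelude's language, two additive
maps `a₁ a₂ : JZero N → JZero N'` (the push-forwards `α_*`, `β_*` along the two degeneracy maps)
commuting with the Hecke correspondences `heckeOperatorBar · ℓ`, `ℓ ∤ N`, such that every
Frobenius lift `φ` at `q` satisfies `(φ² − 1)(φ² − q²) = 0` on the `p`-power torsion of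
`ker a₁ ∩ ker a₂`.

`tateCmpABadExists_of`: the trunk's level maps (the hypotheses of
`BAD.tateCmpAMonodromyExists_of`) together with `TorsionNewFrob` give `TateCmpABadExists`,
hence S35 (`S35_of`).
-/

set_option autoImplicit false

open scoped TensorProduct

namespace Fermat.Agent.BAD

open ModularCurve AlgebraicCurve Fermat.Agent.ESJ Fermat.Agent.ESJ.Rep
  Fermat.Agent.ESJ.Rep.TateAsm Fermat.Agent.ESJ.Rep.TateAsmA Fermat.Agent.Lib.TateLim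

local notation "Qb" => AlgebraicClosure ℚ
local notation "GQ" => (AlgebraicClosure ℚ ≃ₐ[ℚ] AlgebraicClosure ℚ)

/-- **BAD-F′ on torsion levels.** -/
def TorsionNewFrob (N N' q p : ℕ) [NeZero N] [NeZero N'] : Prop :=
  ∃ a₁ a₂ : JZero N →+ JZero N',
    (∀ ℓ : Nat.Primes, ¬ (ℓ : ℕ) ∣ N → ∀ x : JZero N,
      a₁ (heckeOperatorBar N ℓ x) = heckeOperatorBar N' ℓ (a₁ x)) ∧
    (∀ ℓ : Nat.Primes, ¬ (ℓ : ℕ) ∣ N → ∀ x : JZero N,
      a₂ (heckeOperatorBar N ℓ x) = heckeOperatorBar N' ℓ (a₂ x)) ∧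
    ∀ A : ValuationSubring Qb, A.LiesOverPrime q → ∀ φ : GQ, A.IsFrobeniusAt φ q →
      ∀ x : JZero N, (∃ n : ℕ, p ^ n • x = 0) → a₁ x = 0 → a₂ x = 0 →
        φ • φ • φ • φ • x - (q ^ 2 + 1) • (φ • φ • x) + q ^ 2 • x = 0

namespace S35Levels

section Lift

variable {p : ℕ} [Fact p.Prime]
variable {Ta : Type*} [AddCommGroup Ta] [Module ℤ_[p] Ta]
variable {Ta' : Type*} [AddCommGroup Ta'] [Module ℤ_[p] Ta'] [Module.Free ℤ_[p] Ta']
  [Module.Finite ℤ_[p] Ta']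
variable {J J' : Type*} [AddCommGroup J] [AddCommGroup J'] (π : ℕ → Ta →+ J) (π' : ℕ → Ta' →+ J')

/-- **Lifting between two level systems**: an additive map `J → J'` lifts to a `ℤ_p`-linear map
`Ta → Ta'`. -/
theorem exists_lift₂ (hK : ∀ n t, π n t = 0 ↔ ∃ w : Ta, t = (p : ℤ_[p]) ^ n • w)
    (hC : ∀ n t, p • π (n + 1) t = π n t)
    (hK' : ∀ n t, π' n t = 0 ↔ ∃ w : Ta', t = (p : ℤ_[p]) ^ n • w)
    (hS' : ∀ (n : ℕ) (x : J'), p ^ n • x = 0 → ∃ t, π' n t = x)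
    (hC' : ∀ n t, p • π' (n + 1) t = π' n t) (a : J →+ J') :
    ∃ δ : Ta →ₗ[ℤ_[p]] Ta', ∀ n t, π' n (δ t) = a (π n t) := by
  have hφ : ∀ n t, ∃ s, π' n s = a (π n t) := by
    intro n t
    apply hS'
    rw [← map_nsmul, pow_nsmul_map π hK n t, map_zero]
  choose s hs using hφ
  have hcau : ∀ t n, ∃ w, s (n + 1) t - s n t = (p : ℤ_[p]) ^ n • w := by
    intro t n
    apply (hK' n _).mp
    rw [map_sub, hs n t, ← hC' n (s (n + 1) t), hs (n + 1) t, ← map_nsmul, hC n t, sub_self]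
  have hlim : ∀ t, ∃ L : Ta', ∀ n, ∃ w, L - s n t = (p : ℤ_[p]) ^ n • w :=
    fun t => module_limit (fun n => s n t) (hcau t)
  choose Φ₀ hΦ₀ using hlim
  have hΦ : ∀ n t, π' n (Φ₀ t) = a (π n t) := by
    intro n t
    obtain ⟨w, hw⟩ := hΦ₀ t n
    have h0 : π' n (Φ₀ t - s n t) = 0 := (hK' n _).mpr ⟨w, hw⟩
    rw [map_sub, sub_eq_zero] at h0
    rw [h0, hs]
  refine ⟨{ toFun := Φ₀, map_add' := ?_, map_smul' := ?_ }, hΦ⟩
  · intro t t'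
    apply eq_of_forall π' hK'
    intro n
    rw [hΦ, map_add, map_add, map_add, hΦ, hΦ]
  · intro c t
    apply eq_of_forall π' hK'
    intro n
    rw [RingHom.id_apply, hΦ, map_smul_appr π hK, map_smul_appr π' hK', map_nsmul, hΦ]

end Lift

end S35Levels

/-- **S35 from the trunk's level maps and BAD-F′ on torsion levels.** -/
theorem tateCmpABadExists_of
    (h : ∀ (p N : ℕ) [Fact p.Prime] [NeZero N],
      ∃ (Ta : Type) (_ : AddCommGroup Ta) (_ : Module ℤ_[p] Ta) (_ : Module.Free ℤ_[p] Ta)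
        (_ : Module.Finite ℤ_[p] Ta) (hecke : Nat.Primes → Module.End ℤ_[p] Ta)
        (π : ℕ → Ta →+ JZero N),
        (∀ n t, π n t = 0 ↔ ∃ w : Ta, t = (p : ℤ_[p]) ^ n • w) ∧
        (∀ (n : ℕ) (x : JZero N), p ^ n • x = 0 → ∃ t, π n t = x) ∧
        (∀ n t, p • π (n + 1) t = π n t) ∧
        (∀ ℓ : Nat.Primes, ¬ (ℓ : ℕ) ∣ N → ∀ (n : ℕ) (t : Ta),
          π n (hecke ℓ t) = heckeOperatorBar N ℓ (π n t)) ∧
        (∀ ℓ ℓ' : Nat.Primes, Commute (hecke ℓ) (hecke ℓ')) ∧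
        Nonempty (CmpData p N Ta hecke))
    (hG : ∀ (N : ℕ) [NeZero N], HeckeGaloisCommute N)
    (hL : ∀ (N : ℕ) [NeZero N] (n : ℕ), TorsionFiniteLevel N n)
    (hES : ∀ (N p : ℕ) [NeZero N], p.Prime → TorsionESRelation N p)
    (hNew : ∀ (N N' q p : ℕ) [NeZero N] [NeZero N'], p.Prime → q.Prime → q ≠ p →
      N = N' * q → ¬ q ∣ N' → TorsionNewFrob N N' q p) :
    TateCmpABadExists := by
  intro p N _ _
  obtain ⟨Ta, _, _, _, _, hecke, π, hK, hS, hC, hH, hcomm, ⟨C⟩⟩ := h p N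
  obtain ⟨gal, h0, h1, h2, h3, h4⟩ := exists_gal Ta hecke π hK hS hC hH (hG N)
    (fun n => hL N (p ^ n)) (hES N p Fact.out)
  refine ⟨{ Ta := Ta, gal := gal, hecke := hecke, gal_continuous := h1, hecke_comm := hcomm,
            hecke_gal := h2, unram := h3, eichlerShimura := h4,
            eigen_dim := fun E _ _ _ χ => eigen_dim_of_cmpData C E χ }, ?_⟩
  intro N' _ q hq hqp hN hqN'
  obtain ⟨Ta', _, _, _, _, hecke', π', hK', hS', hC', hH', -, ⟨C'⟩⟩ := h p N'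
  obtain ⟨a₁, a₂, hh₁, hh₂, hfrob⟩ := hNew N N' q p Fact.out hq hqp hN hqN'
  obtain ⟨δ₁, hδ₁⟩ := S35Levels.exists_lift₂ π π' hK hC hK' hS' hC' a₁
  obtain ⟨δ₂, hδ₂⟩ := S35Levels.exists_lift₂ π π' hK hC hK' hS' hC' a₂
  have hdvd : ∀ ℓ : Nat.Primes, ¬ (ℓ : ℕ) ∣ N → ¬ (ℓ : ℕ) ∣ N' := by
    intro ℓ hℓ hd
    apply hℓ
    rw [hN]
    exact Dvd.dvd.mul_right hd q
  refine ⟨{ Ta' := Ta', hecke' := hecke', cmp' := C', δ₁ := δ₁, δ₂ := δ₂, δ₁_hecke := ?_,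
            δ₂_hecke := ?_, frob := ?_ }⟩
  · intro ℓ hℓ x
    apply eq_of_forall π' hK'
    intro n
    rw [hδ₁, hH ℓ hℓ, hh₁ ℓ hℓ, hH' ℓ (hdvd ℓ hℓ), hδ₁]
  · intro ℓ hℓ x
    apply eq_of_forall π' hK'
    intro n
    rw [hδ₂, hH ℓ hℓ, hh₂ ℓ hℓ, hH' ℓ (hdvd ℓ hℓ), hδ₂]
  · intro P hP φ hφ x hx1 hx2
    apply sep π hK
    intro n
    have e1 : ((q : ℤ_[p]) ^ 2 + 1) = ((q ^ 2 + 1 : ℕ) : ℤ_[p]) := by push_cast; ring
    have e2 : ((q : ℤ_[p]) ^ 2) = ((q ^ 2 : ℕ) : ℤ_[p]) := by push_cast; ring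
    show π n (gal φ (gal φ (gal φ (gal φ x))) - ((q : ℤ_[p]) ^ 2 + 1) • gal φ (gal φ x)
      + (q : ℤ_[p]) ^ 2 • x) = 0
    rw [e1, e2, Nat.cast_smul_eq_nsmul, Nat.cast_smul_eq_nsmul, map_add, map_sub, map_nsmul,
      map_nsmul]
    simp only [h0]
    refine hfrob P hP φ hφ (π n x) (exists_pow_nsmul_eq_zero π hK n x) ?_ ?_
    · rw [← hδ₁, hx1, map_zero]
    · rw [← hδ₂, hx2, map_zero]

end Fermat.Agent.BAD
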