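import Mathlib
import Fermat.Agent.ESJ.Cong.LevelPush
import Fermat.Agent.BAD.Interfaces
import Fermat.Agent.BAD.S35Levels

/-!
# BAD — level transfer `N · a → N` for the two BAD deliverables (residue characteristics 2, 3)

At residue characteristic `q ∈ {2, 3}` the nodal-fibre argument needs a base function with good
reduction at level `N / q`, which exists only at the good pairs (`q = 3`, `2 ∣ N`; `q = 2`,
`3 ∣ N`).  This file transfers the two BAD statements from level `N · a` (`a` an auxiliary prime,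
`a + 1` prime to `p`) to level `N`:

* `MonodromyAt N p A` : one `(q, A)`-clause of `BAD.TorsionMonodromy N p`;
  `monodromyAt_of_mul` (LT1) : `MonodromyAt (N * a) p A → MonodromyAt N p A`;
  `torsionMonodromy_of_good` : `TorsionMonodromy N p` for all `N` from the good pairs.
* `NewFrobAt N' q p A` : the Frobenius clause of `BAD.TorsionNewFrob (N' * q) N' q p` for the
  concrete maps `levelPushAlpha N' q`, `levelPushBeta N' q`;
  `newFrobAt_of_mul` (LT2) : `NewFrobAt (N' * a) q p A → NewFrobAt N' q p A`;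
  `torsionNewFrob_of_newFrobAt`, `torsionNewFrob_of_good`.

Proofs: pull-back of divisor classes along `F_N ⊆ F_{N a}` is Galois-equivariant with kernel
killed by `a + 1` (`Cong.levelPullback_mul_prime`), and commutes with the push-forwards along
`α_q`, `β_q` (base change for divisors, `LevelDesc.pullbackAlong_pushforwardAlong`).
-/

set_option autoImplicit false
set_option linter.style.haveILetI false

noncomputable section

namespace Fermat.Agent.BAD

open AlgebraicCurve ModularCurve IntermediateField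
open Fermat.Agent.S24 Fermat.Agent.S28 Fermat.Agent.ESJ Fermat.Agent.ESJ.HeckeInputs
  Fermat.Agent.ESJ.LevelDesc Fermat.Agent.ESJ.Cong Fermat.Agent.ESJ.Cong.LevelGen
  Fermat.Agent.ESJ.Cong.LevelPull Fermat.Agent.ESJ.Cong.LevelPush

local notation "Qb" => AlgebraicClosure ℚ
local notation "GQ" => (AlgebraicClosure ℚ ≃ₐ[ℚ] AlgebraicClosure ℚ)

namespace LevelTransfer

/-- An element killed by two coprime integers is zero. -/
theorem eq_zero_of_coprime_nsmul {J : Type*} [AddCommGroup J] {d m : ℕ} (hcop : Nat.Coprime d m)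
    {y : J} (h1 : d • y = 0) (h2 : m • y = 0) : y = 0 := by
  have h := Nat.dvd_gcd (addOrderOf_dvd_of_nsmul_eq_zero h1) (addOrderOf_dvd_of_nsmul_eq_zero h2)
  rw [Nat.Coprime.gcd_eq_one hcop, Nat.dvd_one] at h
  exact AddMonoid.addOrderOf_eq_one_iff.mp h

/-- Integer multiples commute with the action of a group element. -/
theorem nsmul_gsmul {G J : Type*} [Monoid G] [AddCommGroup J] [DistribMulAction G J] (g : G)
    (m : ℕ) (x : J) : m • (g • x) = g • (m • x) :=
  (map_nsmul (DistribSMul.toAddMonoidHom J g) m x).symm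

section Formal

variable {G J J' : Type*} [Monoid G] [AddCommGroup J] [AddCommGroup J'] [DistribMulAction G J]
  [DistribMulAction G J']

theorem nsmul_monodromy_eq_zero (σ τ : G) (m : ℕ) (x : J) (hm : m • x = 0) :
    m • (τ • σ • x - τ • x - σ • x + x) = 0 := by
  simp only [nsmul_add, nsmul_sub, nsmul_gsmul, hm, smul_zero, sub_self, add_zero]

theorem map_monodromy (π : J →+ J') (hπ : ∀ (g : G) (x : J), π (g • x) = g • π x) (σ τ : G)
    (x : J) :
    π (τ • σ • x - τ • x - σ • x + x) = τ • σ • π x - τ • π x - σ • π x + π x := by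
  simp only [map_add, map_sub, hπ]

theorem nsmul_frob_eq_zero (φ : G) (m k l : ℕ) (x : J) (hm : m • x = 0) :
    m • (φ • φ • φ • φ • x - k • (φ • φ • x) + l • x) = 0 := by
  have e1 : m • (φ • φ • φ • φ • x) = 0 := by
    simp only [nsmul_gsmul, hm, smul_zero]
  have e2 : m • (φ • φ • x) = 0 := by
    simp only [nsmul_gsmul, hm, smul_zero]
  rw [nsmul_add, nsmul_sub, e1, nsmul_left_comm (φ • φ • x) k m, e2, nsmul_zero,
    nsmul_left_comm x l m, hm, nsmul_zero, sub_self, add_zero]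

theorem map_frob (π : J →+ J') (hπ : ∀ (g : G) (x : J), π (g • x) = g • π x) (φ : G) (k l : ℕ)
    (x : J) :
    π (φ • φ • φ • φ • x - k • (φ • φ • x) + l • x)
      = φ • φ • φ • φ • π x - k • (φ • φ • π x) + l • π x := by
  simp only [map_add, map_sub, map_nsmul, hπ]

end Formal

section Abstract

variable {K F₀ F₁ F₂ F₃ : Type*} [Field K] [Field F₀] [Field F₁] [Field F₂] [Field F₃]
  [Algebra K F₀] [Algebra K F₁] [Algebra K F₂] [Algebra K F₃]
  [HasPrincipalDivisors K F₁] [HasPrincipalDivisors K F₂] [HasPrincipalDivisors K F₃]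

/-- **Base change on divisor classes**: `a^* ∘ α_* = α'_* ∘ a'^*` on `Pic0`. -/
theorem pic0Pull_pic0Push
    (a : F₀ →ₐ[K] F₁) (α : F₀ →ₐ[K] F₂) (α' : F₁ →ₐ[K] F₃) (a' : F₂ →ₐ[K] F₃)
    (ha : a.toRingHom.IsIntegral) (hα : α.toRingHom.IsIntegral)
    (hα' : α'.toRingHom.IsIntegral) (ha' : a'.toRingHom.IsIntegral)
    (hFIa : FundamentalIdentityAlong K a ha) (hFIa' : FundamentalIdentityAlong K a' ha')
    (hsq : α'.comp a = a'.comp α)
    (hfin : FiniteAlong K α) (hN : NormFormulaAlong K α hfin)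
    (hfin' : FiniteAlong K α') (hN' : NormFormulaAlong K α' hfin')
    (hnorm : ∀ f : F₂, (letI := algebraAlong α'; Algebra.norm F₁ (a' f))
      = a (letI := algebraAlong α; Algebra.norm F₀ f))
    (hWA : ∀ (P : Place K F₂) (S : Finset (Place K F₂)), P ∉ S →
      ∃ f : F₂, f ≠ 0 ∧ P.ord f = 1 ∧ ∀ Q ∈ S, Q.ord f = 0)
    (x : Pic0 K F₂) :
    pic0Pull a ha hFIa (pic0Push α hα hfin hN x)
      = pic0Push α' hα' hfin' hN' (pic0Pull a' ha' hFIa' x) := by
  obtain ⟨D, rfl⟩ := Pic0.mk_surjective x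
  rw [pic0Push_mk, pic0Pull_mk, pic0Pull_mk, pic0Push_mk]
  refine congrArg Pic0.mk (Subtype.ext ?_)
  rw [coe_pullDegZero, coe_pushDegZero, coe_pushDegZero, coe_pullDegZero]
  exact pullbackAlong_pushforwardAlong a α α' a' ha hα hα' ha' hsq hfin hN hfin' hN' hnorm hWA
    (D : Divisor K F₂)

end Abstract

section Modular

variable (N q ℓ : ℕ) [NeZero N] [NeZero q] [NeZero ℓ]

/-- The inclusion `F_{Nℓ} ⊆ F_{Nqℓ}` intertwines the coefficientwise Galois actions. -/
theorem comm_intertwines_incl (σ : Qb ≃ₐ[ℚ] Qb) :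
    SemilinearAut.IntertwinesAlong
      ((incl N q ℓ : FN (N * ℓ) →ₐ[Qb] FN (N * q * ℓ)) : FN (N * ℓ) →+* FN (N * q * ℓ))
      (arithmeticGalois (modularFunctionFieldFull (N * ℓ)) σ)
      (arithmeticGalois (modularFunctionFieldFull (N * q * ℓ)) σ) := by
  intro x
  apply Subtype.ext
  rw [coe_arithmeticGalois_smul]
  show coeffMap (σ : Qb →+* Qb) ((incl N q ℓ x : FN (N * q * ℓ)) : LaurentSeries Qb)
    = ((incl N q ℓ (arithmeticGalois (modularFunctionFieldFull (N * ℓ)) σ • x) :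
        FN (N * q * ℓ)) : LaurentSeries Qb)
  rw [coe_incl, coe_incl, coe_arithmeticGalois_smul]

theorem fundamentalIdentityAlong_incl :
    haveI := hasPrincipalDivisors_bar (N * q * ℓ)
    FundamentalIdentityAlong Qb (incl N q ℓ) (isIntegral_incl N q ℓ) := by
  haveI := isAlgebraic_bar (N * ℓ)
  haveI := isAlgebraic_bar (N * q * ℓ)
  haveI := hasPrincipalDivisors_bar (N * q * ℓ)
  exact fundamentalIdentityAlong _ _ (finiteAlong_incl N q ℓ) (jBar (N * ℓ)) (jBar (N * q * ℓ))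

/-- The degree of `β_ℓ` does not depend on the level: `[F_{Nqℓ} : β_ℓ F_{Nq}] = [F_{Nℓ} : β_ℓ F_N]`
(`ℓ ∤ N q` prime). -/
theorem finrank_beta_mul (hℓ : ℓ.Prime) (hℓNq : ¬ ℓ ∣ N * q) :
    finrankAlong Qb (heckeBetaBar Qb (N * q) ℓ) = finrankAlong Qb (heckeBetaBar Qb N ℓ) := by
  have h1 := finrankAlong_comp (heckeBetaBar Qb N q) (heckeBetaBar Qb (N * q) ℓ)
  have h2 := finrankAlong_comp (heckeBetaBar Qb N ℓ) (inclBeta N q ℓ)
  rw [beta_comp_beta N q ℓ, h2, finrank_inclBeta N q ℓ hℓ hℓNq] at h1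
  have hpos : 0 < finrankAlong Qb (heckeBetaBar Qb N q) := by
    letI := algebraAlong (heckeBetaBar Qb N q)
    haveI : Module.Finite (FN N) (FN (N * q)) := finiteAlong_heckeBetaBar N q
    exact Module.finrank_pos
  have h3 : finrankAlong Qb (heckeBetaBar Qb N q) * finrankAlong Qb (heckeBetaBar Qb (N * q) ℓ)
      = finrankAlong Qb (heckeBetaBar Qb N q) * finrankAlong Qb (heckeBetaBar Qb N ℓ) := by
    rw [← h1, mul_comm]
  exact Nat.eq_of_mul_eq_mul_left hpos h3

/-- Norm compatibility for the square `β_ℓ ∘ α_q = incl ∘ β_ℓ` in the other direction: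
`N_{F_{Nqℓ}/β_ℓ F_{Nq}}(f) = N_{F_{Nℓ}/β_ℓ F_N}(f)` for `f ∈ F_{Nℓ}`. -/
theorem norm_incl_beta (hℓ : ℓ.Prime) (hℓNq : ¬ ℓ ∣ N * q) (f : FN (N * ℓ)) :
    (letI := algebraAlong (heckeBetaBar Qb (N * q) ℓ);
      Algebra.norm (FN (N * q)) (incl N q ℓ f))
      = heckeAlphaBar Qb N q
          (letI := algebraAlong (heckeBetaBar Qb N ℓ); Algebra.norm (FN N) f) := by
  refine norm_along_of_closure_eq_top (heckeAlphaBar Qb N q) (heckeBetaBar Qb N ℓ)
    (heckeBetaBar Qb (N * q) ℓ) (incl N q ℓ) (beta_comp_alpha N q ℓ)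
    (finiteAlong_heckeBetaBar N ℓ) (finrank_beta_mul N q ℓ hℓ hℓNq)
    (heckeAlphaBar Qb N ℓ (jLevel Qb N))
    (closure_range_heckeBetaBar_union N ℓ hℓ) ?_ f
  have e : incl N q ℓ (heckeAlphaBar Qb N ℓ (jLevel Qb N))
      = heckeAlphaBar Qb (N * q) ℓ (jLevel Qb (N * q)) := by
    apply Subtype.ext
    rw [coe_incl, coe_heckeAlphaBar, coe_heckeAlphaBar, coe_jLevel, coe_jLevel]
  rw [e]
  exact closure_range_heckeBetaBar_union (N * q) ℓ hℓ

end Modular

end LevelTransfer

open LevelTransfer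

/-! ### (LT1) monodromy -/

/-- One `(q, A)`-clause of `BAD.TorsionMonodromy N p`: `(τ - 1)(σ - 1) = 0` on the `p`-power
torsion of `J₀(N)` for `σ, τ` in the inertia group of `A`. -/
def MonodromyAt (N p : ℕ) (A : ValuationSubring Qb) : Prop :=
  ∀ σ ∈ A.inertiaSubgroupIn ℚ, ∀ τ ∈ A.inertiaSubgroupIn ℚ,
    ∀ x : JZero N, (∃ n : ℕ, p ^ n • x = 0) → τ • σ • x - τ • x - σ • x + x = 0

theorem torsionMonodromy_iff (N p : ℕ) [NeZero N] :
    TorsionMonodromy N p ↔ ∀ q : ℕ, q.Prime → q ≠ p → q ∣ N → ¬ q ^ 2 ∣ N →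
      ∀ A : ValuationSubring Qb, A.LiesOverPrime q → MonodromyAt N p A :=
  Iff.rfl

/-- **(LT1)** The monodromy clause descends from level `N a` to level `N` (`a ∤ N` prime,
`a + 1` prime to `p`). -/
theorem monodromyAt_of_mul (N a p : ℕ) [NeZero N] (ha : a.Prime) (haN : ¬ a ∣ N)
    (hcop : Nat.Coprime (a + 1) p) (A : ValuationSubring Qb)
    (h : MonodromyAt (N * a) p A) : MonodromyAt N p A := by
  haveI : NeZero (N * a) := ⟨Nat.mul_ne_zero (NeZero.ne N) ha.ne_zero⟩
  obtain ⟨π, hπG, -, hπker⟩ := levelPullback_mul_prime N a ha haN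
  rintro σ hσ τ hτ x ⟨n, hn⟩
  have h1 : π (τ • σ • x - τ • x - σ • x + x) = 0 :=
    (map_monodromy π hπG σ τ x).trans
      (h σ hσ τ hτ (π x) ⟨n, by rw [← map_nsmul, hn, map_zero]⟩)
  have h2 : (a + 1) • (τ • σ • x - τ • x - σ • x + x) = 0 := hπker _ h1
  have h3 : p ^ n • (τ • σ • x - τ • x - σ • x + x) = 0 :=
    nsmul_monodromy_eq_zero σ τ (p ^ n) x hn
  exact eq_zero_of_coprime_nsmul (Nat.Coprime.pow_right n hcop) h2 h3

/-- **BAD-U from the good pairs**: it suffices to prove the monodromy clause at the levels with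
a good base function (`q ≥ 5`; `q = 3` and `2 ∣ N`; `q = 2` and `3 ∣ N`). -/
theorem torsionMonodromy_of_good (p : ℕ) (hp : p.Prime)
    (h : ∀ (N : ℕ) [NeZero N] (q : ℕ), q.Prime → q ≠ p → q ∣ N → ¬ q ^ 2 ∣ N →
      (5 ≤ q ∨ (q = 3 ∧ 2 ∣ N) ∨ (q = 2 ∧ 3 ∣ N)) →
      ∀ A : ValuationSubring Qb, A.LiesOverPrime q → MonodromyAt N p A)
    (N : ℕ) [NeZero N] : TorsionMonodromy N p := by
  intro q hq hqp hqN hq2 A hA
  show MonodromyAt N p A
  by_cases h5 : 5 ≤ q
  · exact h N q hq hqp hqN hq2 (Or.inl h5) A hA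
  have hq23 : q = 2 ∨ q = 3 := by
    have h2 := hq.two_le
    have : q < 5 := not_le.mp h5
    interval_cases q
    · exact Or.inl rfl
    · exact Or.inr rfl
    · exact absurd hq (by decide)
  rcases hq23 with rfl | rfl
  · -- `q = 2`, auxiliary prime `3`
    by_cases h3 : 3 ∣ N
    · exact h N 2 hq hqp hqN hq2 (Or.inr (Or.inr ⟨rfl, h3⟩)) A hA
    · haveI : NeZero (N * 3) := ⟨Nat.mul_ne_zero (NeZero.ne N) (by norm_num)⟩
      have hcop : Nat.Coprime (3 + 1) p := by
        have h2p : Nat.Coprime 2 p :=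
          (Nat.coprime_primes Nat.prime_two hp).mpr hqp
        have : Nat.Coprime (2 ^ 2) p := Nat.Coprime.pow_left 2 h2p
        exact this
      refine monodromyAt_of_mul N 3 p Nat.prime_three h3 hcop A ?_
      refine h (N * 3) 2 hq hqp (Dvd.dvd.mul_right hqN 3) ?_
        (Or.inr (Or.inr ⟨rfl, dvd_mul_left 3 N⟩)) A hA
      intro h4
      apply hq2
      have : Nat.Coprime (2 ^ 2) 3 := by decide
      exact this.dvd_of_dvd_mul_right h4
  · -- `q = 3`, auxiliary prime `2`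
    by_cases h2 : 2 ∣ N
    · exact h N 3 hq hqp hqN hq2 (Or.inr (Or.inl ⟨rfl, h2⟩)) A hA
    · haveI : NeZero (N * 2) := ⟨Nat.mul_ne_zero (NeZero.ne N) (by norm_num)⟩
      have hcop : Nat.Coprime (2 + 1) p :=
        (Nat.coprime_primes Nat.prime_three hp).mpr hqp
      refine monodromyAt_of_mul N 2 p Nat.prime_two h2 hcop A ?_
      refine h (N * 2) 3 hq hqp (Dvd.dvd.mul_right hqN 2) ?_
        (Or.inr (Or.inl ⟨rfl, dvd_mul_left 2 N⟩)) A hA
      intro h9
      apply hq2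
      have : Nat.Coprime (3 ^ 2) 2 := by decide
      exact this.dvd_of_dvd_mul_right h9

/-! ### (LT2) the new-part Frobenius relation -/

/-- The Frobenius clause of `BAD.TorsionNewFrob (N' * q) N' q p` at one valuation subring `A`,
for the concrete degeneracy push-forwards `levelPushAlpha N' q`, `levelPushBeta N' q`. -/
def NewFrobAt (N' q p : ℕ) [NeZero N'] [NeZero q] (A : ValuationSubring Qb) : Prop :=
  ∀ φ : GQ, A.IsFrobeniusAt φ q →
    ∀ x : JZero (N' * q), (∃ n : ℕ, p ^ n • x = 0) →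
      levelPushAlpha N' q x = 0 → levelPushBeta N' q x = 0 →
        φ • φ • φ • φ • x - (q ^ 2 + 1) • (φ • φ • x) + q ^ 2 • x = 0

/-- `TorsionNewFrob` from the Frobenius clause for the concrete push-forwards. -/
theorem torsionNewFrob_of_newFrobAt (N N' q p : ℕ) [NeZero N] [NeZero N'] [NeZero q]
    (hq : q.Prime) (hN : N = N' * q) (hqN' : ¬ q ∣ N')
    (h : ∀ A : ValuationSubring Qb, A.LiesOverPrime q → NewFrobAt N' q p A) :
    TorsionNewFrob N N' q p := by
  subst hN
  exact ⟨levelPushAlpha N' q, levelPushBeta N' q,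
    fun ℓ hℓ x => levelPushAlpha_hecke N' q hq hqN' ℓ hℓ x,
    fun ℓ hℓ x => levelPushBeta_hecke N' q hq ℓ hℓ x,
    fun A hA φ hφ x hx h1 h2 => h A hA φ hφ x hx h1 h2⟩

set_option synthInstance.maxHeartbeats 400000 in
set_option maxHeartbeats 1000000 in
/-- **(LT2)** The new-part Frobenius clause descends from level `N' a` to level `N'`
(`a ∤ N' q` prime, `a + 1` prime to `p`). -/
theorem newFrobAt_of_mul (N' a q p : ℕ) [NeZero N'] [NeZero a] [NeZero q] (ha : a.Prime)
    (haN : ¬ a ∣ N' * q) (hq : q.Prime) (hqN' : ¬ q ∣ N') (hcop : Nat.Coprime (a + 1) p)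
    (A : ValuationSubring Qb) (h : NewFrobAt (N' * a) q p A) : NewFrobAt N' q p A := by
  have haN' : ¬ a ∣ N' := fun hd => haN (Dvd.dvd.mul_right hd q)
  have hqa : q ≠ a := fun hd => haN (hd ▸ dvd_mul_left q N')
  have hqN'a : ¬ q ∣ N' * a := fun hd =>
    (hq.dvd_mul.mp hd).elim hqN' (fun h' => hqa ((Nat.prime_dvd_prime_iff_eq hq ha).mp h'))
  haveI hP1 := hasPrincipalDivisors_bar (N' * a)
  haveI hP2 := hasPrincipalDivisors_bar (N' * q)
  haveI hP3 := hasPrincipalDivisors_bar (N' * a * q)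
  -- the two pull-backs
  have hFIπ := fundamentalIdentityAlong_incl N' a q
  have hFIπ' := fundamentalIdentityAlong_heckeAlphaBar N' a
  set π : JZero (N' * q) →+ JZero (N' * a * q) :=
    pic0Pull (incl N' a q) (isIntegral_incl N' a q) hFIπ with hπ
  set π' : JZero N' →+ JZero (N' * a) :=
    pic0Pull (heckeAlphaBar Qb N' a) (heckeAlphaBarIntegral N' a) hFIπ' with hπ'
  -- Galois equivariance of `π`
  have hπG : ∀ (σ : GQ) (x : JZero (N' * q)), π (σ • x) = σ • π x := by
    intro σ x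
    rw [galois_smul_pic0_def, galois_smul_pic0_def]
    exact pic0Pull_smul (incl N' a q) (isIntegral_incl N' a q) hFIπ
      (comm_intertwines_incl N' a q σ) x
  -- the kernel of `π` is killed by `a + 1`
  have hπker : ∀ x : JZero (N' * q), π x = 0 → (a + 1) • x = 0 := by
    intro x hx
    have hS : SumRamInertiaAlong (incl N' a q) (isIntegral_incl N' a q) := by
      letI := algebraAlong (incl N' a q)
      haveI := isScalarTower_along (incl N' a q)
      haveI := isIntegral_along (incl N' a q) (isIntegral_incl N' a q)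
      haveI : FiniteDimensional (FN (N' * q)) (FN (N' * a * q)) := finiteAlong_incl N' a q
      haveI := isAlgebraic_bar (N' * q)
      haveI := isAlgebraic_bar (N' * a * q)
      exact Fermat.Agent.Lib.FF.ExtNorm.sumRamificationInertia (jBar (N' * q))
        (jBar (N' * a * q))
    have h1 := nsmul_eq_zero_of_pic0Pull_eq_zero (incl N' a q) (isIntegral_incl N' a q) hFIπ
      (finiteAlong_incl N' a q) (normFormulaAlong_incl N' a q) hS x hx
    rwa [finrank_incl N' a q ha haN' hq hqN'a] at h1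
  -- base change with the two push-forwards
  have hA1 : ∀ x : JZero (N' * q), levelPushAlpha (N' * a) q (π x) = π' (levelPushAlpha N' q x) :=
    fun x => (pic0Pull_pic0Push (heckeAlphaBar Qb N' a) (heckeAlphaBar Qb N' q)
      (heckeAlphaBar Qb (N' * a) q) (incl N' a q) (heckeAlphaBarIntegral N' a)
      (heckeAlphaBarIntegral N' q) (heckeAlphaBarIntegral (N' * a) q) (isIntegral_incl N' a q)
      hFIπ' hFIπ (alpha_comp_alpha N' a q) (finiteAlong_heckeAlphaBar N' q)
      (normFormulaAlong_alpha N' q) (finiteAlong_heckeAlphaBar (N' * a) q)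
      (normFormulaAlong_alpha (N' * a) q) (norm_incl N' a q hq hqN'a)
      (exists_ord_eq_one (N' * q)) x).symm
  have hA2 : ∀ x : JZero (N' * q), levelPushBeta (N' * a) q (π x) = π' (levelPushBeta N' q x) :=
    fun x => (pic0Pull_pic0Push (heckeAlphaBar Qb N' a) (heckeBetaBar Qb N' q)
      (heckeBetaBar Qb (N' * a) q) (incl N' a q) (heckeAlphaBarIntegral N' a)
      (heckeBetaBarIntegral N' q) (heckeBetaBarIntegral (N' * a) q) (isIntegral_incl N' a q)
      hFIπ' hFIπ (beta_comp_alpha N' a q) (finiteAlong_heckeBetaBar N' q)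
      (normFormulaAlong_heckeBetaBar N' q) (finiteAlong_heckeBetaBar (N' * a) q)
      (normFormulaAlong_heckeBetaBar (N' * a) q) (norm_incl_beta N' a q hq hqN'a)
      (exists_ord_eq_one (N' * q)) x).symm
  -- the transfer
  rintro φ hφ x ⟨n, hn⟩ hx1 hx2
  have hX := h φ hφ (π x) ⟨n, by rw [← map_nsmul, hn, map_zero]⟩
    (by rw [hA1, hx1, map_zero]) (by rw [hA2, hx2, map_zero])
  have h1 : π (φ • φ • φ • φ • x - (q ^ 2 + 1) • (φ • φ • x) + q ^ 2 • x) = 0 :=
    (map_frob π hπG φ (q ^ 2 + 1) (q ^ 2) x).trans hX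
  have h2 := hπker _ h1
  have h3 : p ^ n • (φ • φ • φ • φ • x - (q ^ 2 + 1) • (φ • φ • x) + q ^ 2 • x) = 0 :=
    nsmul_frob_eq_zero φ (p ^ n) (q ^ 2 + 1) (q ^ 2) x hn
  exact eq_zero_of_coprime_nsmul (Nat.Coprime.pow_right n hcop) h2 h3

/-- **The new-part Frobenius clause from the good pairs** (`q ≥ 5`; `q = 3` and `2 ∣ N'`;
`q = 2` and `3 ∣ N'`). -/
theorem newFrobAt_of_good (p : ℕ) (hp : p.Prime)
    (h : ∀ (N' q : ℕ) [NeZero N'] [NeZero q], q.Prime → ¬ q ∣ N' → q ≠ p →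
      (5 ≤ q ∨ (q = 3 ∧ 2 ∣ N') ∨ (q = 2 ∧ 3 ∣ N')) →
      ∀ A : ValuationSubring Qb, A.LiesOverPrime q → NewFrobAt N' q p A)
    (N' q : ℕ) [NeZero N'] [NeZero q] (hq : q.Prime) (hqN' : ¬ q ∣ N') (hqp : q ≠ p)
    (A : ValuationSubring Qb) (hA : A.LiesOverPrime q) : NewFrobAt N' q p A := by
  by_cases h5 : 5 ≤ q
  · exact h N' q hq hqN' hqp (Or.inl h5) A hA
  have hq23 : q = 2 ∨ q = 3 := by
    have h2 := hq.two_le
    have : q < 5 := not_le.mp h5
    interval_cases q
    · exact Or.inl rfl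
    · exact Or.inr rfl
    · exact absurd hq (by decide)
  rcases hq23 with rfl | rfl
  · -- `q = 2`, auxiliary prime `3`
    by_cases h3 : 3 ∣ N'
    · exact h N' 2 hq hqN' hqp (Or.inr (Or.inr ⟨rfl, h3⟩)) A hA
    · have hcop : Nat.Coprime (3 + 1) p := by
        have h2p : Nat.Coprime 2 p := (Nat.coprime_primes Nat.prime_two hp).mpr hqp
        have : Nat.Coprime (2 ^ 2) p := Nat.Coprime.pow_left 2 h2p
        exact this
      have h3N2 : ¬ 3 ∣ N' * 2 := fun hd =>
        (Nat.prime_three.dvd_mul.mp hd).elim h3 (by decide)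
      have h2N3 : ¬ 2 ∣ N' * 3 := fun hd =>
        (Nat.prime_two.dvd_mul.mp hd).elim hqN' (by decide)
      exact newFrobAt_of_mul N' 3 2 p Nat.prime_three h3N2 hq hqN' hcop A
        (h (N' * 3) 2 hq h2N3 hqp (Or.inr (Or.inr ⟨rfl, dvd_mul_left 3 N'⟩)) A hA)
  · -- `q = 3`, auxiliary prime `2`
    by_cases h2 : 2 ∣ N'
    · exact h N' 3 hq hqN' hqp (Or.inr (Or.inl ⟨rfl, h2⟩)) A hA
    · have hcop : Nat.Coprime (2 + 1) p :=
        (Nat.coprime_primes Nat.prime_three hp).mpr hqp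
      have h2N3 : ¬ 2 ∣ N' * 3 := fun hd =>
        (Nat.prime_two.dvd_mul.mp hd).elim h2 (by decide)
      have h3N2 : ¬ 3 ∣ N' * 2 := fun hd =>
        (Nat.prime_three.dvd_mul.mp hd).elim hqN' (by decide)
      exact newFrobAt_of_mul N' 2 3 p Nat.prime_two h2N3 hq hqN' hcop A
        (h (N' * 2) 3 hq h3N2 hqp (Or.inr (Or.inl ⟨rfl, dvd_mul_left 2 N'⟩)) A hA)

/-- **BAD-F′ from the good pairs**, in the shape of the hypothesis `hNew` of
`BAD.tateCmpABadExists_of`. -/
theorem torsionNewFrob_of_good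
    (h : ∀ (p : ℕ), p.Prime → ∀ (N' q : ℕ) [NeZero N'] [NeZero q], q.Prime → ¬ q ∣ N' → q ≠ p →
      (5 ≤ q ∨ (q = 3 ∧ 2 ∣ N') ∨ (q = 2 ∧ 3 ∣ N')) →
      ∀ A : ValuationSubring Qb, A.LiesOverPrime q → NewFrobAt N' q p A)
    (N N' q p : ℕ) [NeZero N] [NeZero N'] (hp : p.Prime) (hq : q.Prime) (hqp : q ≠ p)
    (hN : N = N' * q) (hqN' : ¬ q ∣ N') : TorsionNewFrob N N' q p :=
  haveI : NeZero q := ⟨hq.ne_zero⟩
  torsionNewFrob_of_newFrobAt N N' q p hq hN hqN'
    (fun A hA => newFrobAt_of_good p hp (h p hp) N' q hq hqN' hqp A hA)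

end Fermat.Agent.BAD

end
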