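import Mathlib
import Fermat.Agent.Lib.Red.Deform
import Fermat.Agent.Lib.Red.CoordLat
import Fermat.Agent.Lib.Red.CoordLatRed
import Fermat.Agent.Lib.Red.CoordOrtho

/-!
# The nodal deformation argument (abstract form of BAD-U)

`L ⊆ F` fields, `A` a valuation subring of `L` with residue field `k`, `O` a subring of `F`
(`= O_inf ∩ O_0` for the two valuations of the bad fibre), `red : O → Ft` the reduction to the
normalisation of the special fibre.  The special fibre is described by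
* a subalgebra `Rn ⊆ Ft` ("regular at the nodes") with evaluations `ev1 e, ev2 e : Rn → k`
  at the two branches of the node `e : σ`;
* spaces `T n₁ n₂ ⊆ Rn` ("poles bounded by `n₁ E₁ + n₂ E₂` on the normalisation");
* the glued spaces `Glued Rn ev1 ev2 μ (T n₁ n₂) = {t ∈ T n₁ n₂ | ev2 e t = μ e * ev1 e t}`.

Three families of `L`-subspaces of `F` : `V0 n₁ n₂ = L(n₁ E₁ + n₂ E₂)`,
`V2 n₁ n₂ = L(D + n₁ E₁ + n₂ E₂)` with `m D = div f2`, `f2` a unit of `O`,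
`V1 n₁ n₂ = L(D' + n₁ E₁ + n₂ E₂)` with `D' = τ D - D`, `m D' = div f1`, `f1 ≡ 1`.

`exists_common_of_nodal` : under the saturation hypothesis `hS2` (reductions of `V0` are the
glued spaces), the lattice hypothesis `HasOrtho`, Riemann–Roch (`hRR1`, `hRR2`) and the
translation hypothesis `hmul12` (`V1 · V2 ⊆ τ V2`, `τ` acting trivially on reductions), there
is a nonzero `s ∈ V1 n₀ 0 ⊓ V1 0 n₀`, i.e. `D'` is principal.
-/

set_option autoImplicit false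

namespace Fermat.Agent.BAD.Nodal

open Fermat.Agent.Lib.Red.Deform Fermat.Agent.Lib.Red.CoordLat

section Glue

variable {k Ft : Type*} [Field k] [CommRing Ft] [Algebra k Ft]
variable (Rn : Subalgebra k Ft)

open Classical in
/-- Evaluation extended by zero outside `Rn`. -/
noncomputable def evT (ev : Rn →ₐ[k] k) (t : Ft) : k := if h : t ∈ Rn then ev ⟨t, h⟩ else 0

variable {Rn}

theorem evT_of_mem (ev : Rn →ₐ[k] k) {t : Ft} (h : t ∈ Rn) : evT Rn ev t = ev ⟨t, h⟩ := by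
  unfold evT; rw [dif_pos h]

theorem evT_add (ev : Rn →ₐ[k] k) {t t' : Ft} (h : t ∈ Rn) (h' : t' ∈ Rn) :
    evT Rn ev (t + t') = evT Rn ev t + evT Rn ev t' := by
  rw [evT_of_mem ev h, evT_of_mem ev h', evT_of_mem ev (Rn.add_mem h h'), ← map_add]; rfl

theorem evT_smul (ev : Rn →ₐ[k] k) (c : k) {t : Ft} (h : t ∈ Rn) :
    evT Rn ev (c • t) = c * evT Rn ev t := by
  rw [evT_of_mem ev h, evT_of_mem ev (Rn.smul_mem h c), ← smul_eq_mul, ← map_smul]; rfl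

theorem evT_mul (ev : Rn →ₐ[k] k) {t t' : Ft} (h : t ∈ Rn) (h' : t' ∈ Rn) :
    evT Rn ev (t * t') = evT Rn ev t * evT Rn ev t' := by
  rw [evT_of_mem ev h, evT_of_mem ev h', evT_of_mem ev (Rn.mul_mem h h'), ← map_mul]; rfl

theorem evT_one (ev : Rn →ₐ[k] k) : evT Rn ev 1 = 1 := by
  rw [evT_of_mem ev Rn.one_mem]; exact map_one ev

theorem evT_pow (ev : Rn →ₐ[k] k) {t : Ft} (h : t ∈ Rn) (n : ℕ) :
    evT Rn ev (t ^ n) = evT Rn ev t ^ n := by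
  induction n with
  | zero => rw [pow_zero, pow_zero]; exact evT_one ev
  | succ n ih => rw [pow_succ, pow_succ, evT_mul ev (Rn.pow_mem h n) h, ih]

/-- The evaluation as a linear map on a subspace of `Rn`. -/
noncomputable def evL {S : Submodule k Ft} (hS : S ≤ Subalgebra.toSubmodule Rn)
    (ev : Rn →ₐ[k] k) : S →ₗ[k] k where
  toFun t := evT Rn ev (t : Ft)
  map_add' t t' := evT_add ev (hS t.2) (hS t'.2)
  map_smul' c t := by
    rw [RingHom.id_apply, smul_eq_mul]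
    exact evT_smul ev c (hS t.2)

variable (Rn)

/-- The glued subspace `{t ∈ T | ev2 e t = μ e * ev1 e t for all nodes e}`. -/
def Glued {σ : Type*} (ev1 ev2 : σ → Rn →ₐ[k] k) (μ : σ → k)
    (T : Submodule k Ft) : Submodule k Ft where
  carrier := {t | t ∈ T ∧ ∃ h : t ∈ Rn, ∀ e, ev2 e ⟨t, h⟩ = μ e * ev1 e ⟨t, h⟩}
  add_mem' := by
    rintro t t' ⟨ht, h, he⟩ ⟨ht', h', he'⟩
    refine ⟨T.add_mem ht ht', Rn.add_mem h h', fun e => ?_⟩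
    have : (⟨t + t', Rn.add_mem h h'⟩ : Rn) = ⟨t, h⟩ + ⟨t', h'⟩ := rfl
    rw [this, map_add, map_add, he e, he' e, mul_add]
  zero_mem' := ⟨T.zero_mem, Rn.zero_mem, fun e => by
    have : (⟨0, Rn.zero_mem⟩ : Rn) = 0 := rfl
    rw [this, map_zero, map_zero, mul_zero]⟩
  smul_mem' := by
    rintro c t ⟨ht, h, he⟩
    refine ⟨T.smul_mem c ht, Rn.smul_mem h c, fun e => ?_⟩
    have : (⟨c • t, Rn.smul_mem h c⟩ : Rn) = c • ⟨t, h⟩ := rfl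
    rw [this, map_smul, map_smul, he e, smul_eq_mul, smul_eq_mul, mul_left_comm]

variable {Rn}

theorem mem_glued_iff {σ : Type*} {ev1 ev2 : σ → Rn →ₐ[k] k} {μ : σ → k}
    {T : Submodule k Ft} (hTR : T ≤ Subalgebra.toSubmodule Rn) {t : Ft} :
    t ∈ Glued Rn ev1 ev2 μ T ↔ t ∈ T ∧ ∀ e, evT Rn (ev2 e) t = μ e * evT Rn (ev1 e) t := by
  constructor
  · rintro ⟨ht, h, he⟩
    refine ⟨ht, fun e => ?_⟩
    rw [evT_of_mem _ h, evT_of_mem _ h]; exact he e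
  · rintro ⟨ht, he⟩
    have h : t ∈ Rn := hTR ht
    refine ⟨ht, h, fun e => ?_⟩
    have := he e
    rwa [evT_of_mem _ h, evT_of_mem _ h] at this

theorem glued_le {σ : Type*} (ev1 ev2 : σ → Rn →ₐ[k] k) (μ : σ → k) (T : Submodule k Ft) :
    Glued Rn ev1 ev2 μ T ≤ T := fun _ h => h.1

/-- Dimension of a glued space when the evaluations are jointly surjective on `T`. -/
theorem finrank_glued_add_card {σ : Type*} [Fintype σ] {ev1 ev2 : σ → Rn →ₐ[k] k}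
    (μ : σ → k) {T : Submodule k Ft} [FiniteDimensional k T]
    (hTR : T ≤ Subalgebra.toSubmodule Rn)
    (hsurj : ∀ a b : σ → k, ∃ t ∈ T, ∀ e, evT Rn (ev1 e) t = a e ∧ evT Rn (ev2 e) t = b e) :
    Module.finrank k (Glued Rn ev1 ev2 μ T) + Fintype.card σ = Module.finrank k T := by
  classical
  let φ : T →ₗ[k] (σ → k) :=
    { toFun := fun t e => evT Rn (ev2 e) (t : Ft) - μ e * evT Rn (ev1 e) (t : Ft)
      map_add' := fun t t' => by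
        funext e
        simp only [Submodule.coe_add, Pi.add_apply]
        rw [evT_add _ (hTR t.2) (hTR t'.2), evT_add _ (hTR t.2) (hTR t'.2)]; ring
      map_smul' := fun c t => by
        funext e
        simp only [Submodule.coe_smul, Pi.smul_apply, RingHom.id_apply, smul_eq_mul]
        rw [evT_smul _ c (hTR t.2), evT_smul _ c (hTR t.2)]; ring }
  have hφ : Function.Surjective φ := by
    intro c
    obtain ⟨t, ht, he⟩ := hsurj 0 c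
    refine ⟨⟨t, ht⟩, ?_⟩
    funext e
    show evT Rn (ev2 e) t - μ e * evT Rn (ev1 e) t = c e
    rw [(he e).1, (he e).2]; simp
  have hker : (LinearMap.ker φ).map T.subtype = Glued Rn ev1 ev2 μ T := by
    ext t
    rw [mem_glued_iff hTR]
    constructor
    · rintro ⟨t', ht', rfl⟩
      refine ⟨t'.2, fun e => ?_⟩
      have := congrFun (LinearMap.mem_ker.1 ht') e
      exact sub_eq_zero.1 this
    · rintro ⟨ht, he⟩
      refine ⟨⟨t, ht⟩, ?_, rfl⟩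
      rw [SetLike.mem_coe, LinearMap.mem_ker]
      funext e
      exact sub_eq_zero.2 (he e)
  have h1 := LinearMap.finrank_range_add_finrank_ker φ
  rw [LinearMap.range_eq_top.2 hφ, finrank_top, Module.finrank_fintype_fun_eq_card] at h1
  rw [← hker, Submodule.finrank_map_subtype_eq]
  omega

/-- A subspace on which `x ^ m = y ^ m` lies on one line `y = μ x`, `μ ^ m = 1`. -/
theorem exists_mu {W : Type*} [AddCommGroup W] [Module k W] (x y : W →ₗ[k] k) (m : ℕ)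
    (hm : m ≠ 0) (h : ∀ w, x w ^ m = y w ^ m) :
    ∃ μ : k, μ ^ m = 1 ∧ ∀ w, y w = μ * x w := by
  by_cases hx : ∀ w, x w = 0
  · refine ⟨1, one_pow _, fun w => ?_⟩
    have := h w
    rw [hx w, zero_pow hm] at this
    rw [hx w, mul_zero]
    exact (pow_eq_zero_iff hm).1 this.symm
  · push Not at hx
    obtain ⟨w0, hw0⟩ := hx
    refine ⟨y w0 / x w0, ?_, fun w => ?_⟩
    · rw [div_pow, ← h w0, div_self (pow_ne_zero _ hw0)]
    · have h0 : x (w - (x w / x w0) • w0) = 0 := by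
        rw [map_sub, map_smul, smul_eq_mul, div_mul_cancel₀ _ hw0, sub_self]
      have h1 := h (w - (x w / x w0) • w0)
      rw [h0, zero_pow hm] at h1
      have h2 : y (w - (x w / x w0) • w0) = 0 := (pow_eq_zero_iff hm).1 h1.symm
      rw [map_sub, map_smul, smul_eq_mul, sub_eq_zero] at h2
      rw [h2]; field_simp

end Glue

/-- **The nodal deformation theorem** (abstract BAD-U). -/
theorem exists_common_of_nodal
    {L F : Type*} [Field L] [Field F] [Algebra L F]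
    {A : ValuationSubring L} {O : Subring F}
    {k Ft : Type*} [Field k] [CommRing Ft] [Algebra k Ft]
    -- the base: valuation ring, reduction
    (hOA : ∀ x : L, algebraMap L F x ∈ O ↔ x ∈ A)
    (hval : ∀ y : F, y ≠ 0 → ∃ c : L, c ≠ 0 ∧ algebraMap L F c * y ∈ O ∧
      ¬ Small A O (algebraMap L F c * y))
    (harch : ∀ a Δ : L, A.valuation a < 1 → Δ ≠ 0 →
      ∃ n : ℕ, A.valuation (a ^ n) < A.valuation Δ)
    (red : O →+* Ft) (π : A →+* k) (hπ : Function.Surjective π)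
    (hπker : ∀ a : A, π a = 0 ↔ A.valuation (a : L) < 1)
    (hconst : ∀ a : A, red ⟨algebraMap L F (a : L), (hOA _).2 a.2⟩ = algebraMap k Ft (π a))
    (hker : ∀ y : O, red y = 0 ↔ Small A O (y : F))
    (m : ℕ) (hm : A.valuation (m : L) = 1)
    -- the nodal special fibre
    {σ : Type*} [Fintype σ] (Rn : Subalgebra k Ft) (ev1 ev2 : σ → Rn →ₐ[k] k)
    (T : ℕ → ℕ → Submodule k Ft) (hTfin : ∀ n₁ n₂, FiniteDimensional k (T n₁ n₂))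
    (hTR : ∀ n₁ n₂, T n₁ n₂ ≤ Subalgebra.toSubmodule Rn)
    (hTroot : ∀ n₁ n₂ (t : Ft), t ^ m ∈ T (m * n₁) (m * n₂) → t ∈ T n₁ n₂)
    (n₀ : ℕ)
    (hTsurj : ∀ a b : σ → k, ∃ t, ∃ h : t ∈ T n₀ 0,
      ∀ e, ev1 e ⟨t, hTR n₀ 0 h⟩ = a e ∧ ev2 e ⟨t, hTR n₀ 0 h⟩ = b e)
    (hH2 : ∀ K, n₀ ≤ K → Glued Rn ev1 ev2 1 (T K 0) ⊓ Glued Rn ev1 ev2 1 (T n₀ K) ≤
      Glued Rn ev1 ev2 1 (T n₀ 0))
    (hH2' : ∀ K, n₀ ≤ K → Glued Rn ev1 ev2 1 (T 0 K) ⊓ Glued Rn ev1 ev2 1 (T K n₀) ≤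
      Glued Rn ev1 ev2 1 (T 0 n₀))
    (hH3 : ∀ n, Glued Rn ev1 ev2 1 (T n 0) ⊓ Glued Rn ev1 ev2 1 (T 0 n) ≤
      Submodule.span k {(1 : Ft)})
    -- the three families of Riemann–Roch spaces
    (V0 V1 V2 : ℕ → ℕ → Submodule L F)
    (hmono0 : ∀ n₁ n₂ n₁' n₂', n₁ ≤ n₁' → n₂ ≤ n₂' → V0 n₁ n₂ ≤ V0 n₁' n₂')
    (hmono1 : ∀ n₁ n₂ n₁' n₂', n₁ ≤ n₁' → n₂ ≤ n₂' → V1 n₁ n₂ ≤ V1 n₁' n₂')
    (hmono2 : ∀ n₁ n₂ n₁' n₂', n₁ ≤ n₁' → n₂ ≤ n₂' → V2 n₁ n₂ ≤ V2 n₁' n₂')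
    (hone : (1 : F) ∈ V0 0 0)
    (hlat0 : ∀ n₁ n₂, HasOrtho A O (V0 n₁ n₂))
    (hlat1 : ∀ n₁ n₂, HasOrtho A O (V1 n₁ n₂))
    (hlat2 : ∀ n₁ n₂, HasOrtho A O (V2 n₁ n₂))
    (hS2 : ∀ n₁ n₂, n₀ ≤ n₁ + n₂ →
      redSub hOA red π hπ hconst (V0 n₁ n₂) = Glued Rn ev1 ev2 1 (T n₁ n₂))
    (hRR1 : ∀ n₁ n₂, n₀ ≤ n₁ + n₂ →
      Module.finrank L (V1 n₁ n₂) = Module.finrank L (V0 n₁ n₂))
    (hRR2 : ∀ n₁ n₂, n₀ ≤ n₁ + n₂ →
      Module.finrank L (V2 n₁ n₂) = Module.finrank L (V0 n₁ n₂))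
    (hmul10 : ∀ n₁ n₂ n₁' n₂', ∀ s ∈ V1 n₁ n₂, ∀ η ∈ V0 n₁' n₂',
      s * η ∈ V1 (n₁ + n₁') (n₂ + n₂'))
    -- the Kummer generators
    (f1 : F) (hf1 : Small A O (f1 - 1))
    (hpow1 : ∀ n₁ n₂, ∀ s ∈ V1 n₁ n₂, s ^ m * f1 ∈ V0 (m * n₁) (m * n₂))
    (f2 : O) (u u' : Ft) (huu' : u * u' = 1) (hum : u ^ m = red f2)
    (hpow2 : ∀ n₁ n₂, ∀ s ∈ V2 n₁ n₂, s ^ m * (f2 : F) ∈ V0 (m * n₁) (m * n₂))
    -- translation: `V1 · V2 ⊆ τ V2` with `τ` trivial on reductions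
    (hmul12 : ∀ n₁ n₂ n₁' n₂', ∀ s : O, (s : F) ∈ V1 n₁ n₂ → ∀ s0 : O, (s0 : F) ∈ V2 n₁' n₂' →
      ∃ z : O, (z : F) ∈ V2 (n₁ + n₁') (n₂ + n₂') ∧ red z = red (s * s0)) :
    ∃ s ∈ V1 n₀ 0, s ∈ V1 0 n₀ ∧ s ≠ 0 := by
  classical
  have hm0 : m ≠ 0 := by
    rintro rfl
    simp at hm
  have hlargem : ∀ n₁ n₂, n₀ ≤ n₁ + n₂ → n₀ ≤ m * n₁ + m * n₂ := by
    intro n₁ n₂ h
    rw [← Nat.mul_add]
    exact h.trans (Nat.le_mul_of_pos_left _ (Nat.pos_of_ne_zero hm0))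
  have hredsmall : ∀ y z : O, Small A O ((y : F) - (z : F)) → red y = red z := by
    intro y z h
    have : red (y - z) = 0 := (hker _).2 h
    rwa [map_sub, sub_eq_zero] at this
  have hsmallred : ∀ y z : O, red y = red z → Small A O ((y : F) - (z : F)) := by
    intro y z h
    have : red (y - z) = 0 := by rw [map_sub, h, sub_self]
    exact (hker _).1 this
  set R : Submodule L F → Submodule k Ft := fun V => redSub hOA red π hπ hconst V with hR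
  set H : ℕ → ℕ → Submodule k Ft := fun n₁ n₂ => Glued Rn ev1 ev2 1 (T n₁ n₂) with hH
  have hsurj' : ∀ a b : σ → k, ∃ t ∈ T n₀ 0,
      ∀ e, evT Rn (ev1 e) t = a e ∧ evT Rn (ev2 e) t = b e := by
    intro a b
    obtain ⟨t, ht, he⟩ := hTsurj a b
    refine ⟨t, ht, fun e => ?_⟩
    rw [evT_of_mem _ (hTR n₀ 0 ht), evT_of_mem _ (hTR n₀ 0 ht)]
    exact he e
  -- the element `f1` as an element of `O`
  have hf1O : f1 ∈ O := mem_of_small_sub_one hOA hf1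
  have hredf1 : red ⟨f1, hf1O⟩ = 1 := by
    have := hredsmall ⟨f1, hf1O⟩ 1 hf1
    rwa [map_one] at this
  -- ### (P1) the twisted reductions of `V2`
  have hU_T : ∀ n₁ n₂, n₀ ≤ n₁ + n₂ → ∀ s : O, (s : F) ∈ V2 n₁ n₂ →
      u * red s ∈ T n₁ n₂ ∧
      ∀ e, evT Rn (ev1 e) (u * red s) ^ m = evT Rn (ev2 e) (u * red s) ^ m := by
    intro n₁ n₂ hl s hs
    have hpowmem : (u * red s) ^ m ∈ H (m * n₁) (m * n₂) := by
      have h1 : (u * red s) ^ m = red (s ^ m * f2) := by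
        rw [mul_pow, hum, map_mul, map_pow, mul_comm]
      rw [h1, hH]
      show red (s ^ m * f2) ∈ Glued Rn ev1 ev2 1 (T (m * n₁) (m * n₂))
      rw [← hS2 _ _ (hlargem _ _ hl)]
      exact ⟨s ^ m * f2, hpow2 n₁ n₂ _ hs, rfl⟩
    have hT : u * red s ∈ T n₁ n₂ := hTroot _ _ _ hpowmem.1
    refine ⟨hT, fun e => ?_⟩
    have hRn : u * red s ∈ Rn := hTR _ _ hT
    have := ((mem_glued_iff (hTR _ _)).1 hpowmem).2 e
    rw [Pi.one_apply, one_mul, evT_pow _ hRn, evT_pow _ hRn] at this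
    exact this.symm
  let mulU : Ft ≃ₗ[k] Ft := LinearEquiv.ofLinearMap (LinearMap.mulLeft k u) (LinearMap.mulLeft k u')
    (by ext t; simp [← mul_assoc, huu'])
    (by ext t; simp [← mul_assoc, mul_comm u' u, huu'])
  have hmulU : ∀ t, mulU t = u * t := fun _ => rfl
  set U : ℕ → ℕ → Submodule k Ft := fun n₁ n₂ =>
    (R (V2 n₁ n₂)).map (mulU : Ft →ₗ[k] Ft) with hU
  have hUmem : ∀ n₁ n₂ t, t ∈ U n₁ n₂ ↔ ∃ s : O, (s : F) ∈ V2 n₁ n₂ ∧ u * red s = t := by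
    intro n₁ n₂ t
    constructor
    · rintro ⟨t', ⟨s, hs, rfl⟩, rfl⟩; exact ⟨s, hs, rfl⟩
    · rintro ⟨s, hs, rfl⟩; exact ⟨red s, ⟨s, hs, rfl⟩, rfl⟩
  have hUT : ∀ n₁ n₂, n₀ ≤ n₁ + n₂ → U n₁ n₂ ≤ T n₁ n₂ := by
    intro n₁ n₂ hl t ht
    obtain ⟨s, hs, rfl⟩ := (hUmem _ _ _).1 ht
    exact (hU_T n₁ n₂ hl s hs).1
  have hUmono : ∀ n₁ n₂ n₁' n₂', n₁ ≤ n₁' → n₂ ≤ n₂' → U n₁ n₂ ≤ U n₁' n₂' := by
    intro n₁ n₂ n₁' n₂' h1 h2
    exact Submodule.map_mono (redSub_mono hOA red π hπ hconst (hmono2 _ _ _ _ h1 h2))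
  have hP1a : ∀ n₁ n₂, n₀ ≤ n₁ + n₂ → ∃ μ : σ → k, (∀ e, μ e ^ m = 1) ∧
      U n₁ n₂ ≤ Glued Rn ev1 ev2 μ (T n₁ n₂) := by
    intro n₁ n₂ hl
    have hUR : U n₁ n₂ ≤ Subalgebra.toSubmodule Rn := (hUT n₁ n₂ hl).trans (hTR _ _)
    have : ∀ e, ∃ μ : k, μ ^ m = 1 ∧
        ∀ w : U n₁ n₂, evT Rn (ev2 e) (w : Ft) = μ * evT Rn (ev1 e) (w : Ft) := by
      intro e
      exact exists_mu (evL hUR (ev1 e)) (evL hUR (ev2 e)) m hm0 (fun w => by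
        obtain ⟨s, hs, hw⟩ := (hUmem _ _ _).1 w.2
        have := (hU_T n₁ n₂ hl s hs).2 e
        rw [hw] at this
        exact this)
    choose μ hμ1 hμ2 using this
    exact ⟨μ, hμ1, fun t ht =>
      (mem_glued_iff (hTR _ _)).2 ⟨hUT _ _ hl ht, fun e => hμ2 e ⟨t, ht⟩⟩⟩
  obtain ⟨μ0, hμ0, hU0⟩ := hP1a n₀ 0 (by omega)
  have hfin_eq : U n₀ 0 = Glued Rn ev1 ev2 μ0 (T n₀ 0) := by
    have := hTfin n₀ 0
    have : FiniteDimensional k (Glued Rn ev1 ev2 μ0 (T n₀ 0)) :=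
      Submodule.finiteDimensional_of_le (glued_le ev1 ev2 μ0 (T n₀ 0))
    apply Submodule.eq_of_le_of_finrank_eq hU0
    have e1 : Module.finrank k (U n₀ 0) = Module.finrank k (R (V2 n₀ 0)) :=
      LinearEquiv.finrank_map_eq mulU _
    have e2 : Module.finrank k (R (V2 n₀ 0)) = Module.finrank L (V2 n₀ 0) :=
      (hlat2 n₀ 0).finrank_redSub hOA red π hπ hπker hconst hker
    have e3 : Module.finrank L (V2 n₀ 0) = Module.finrank L (V0 n₀ 0) := hRR2 n₀ 0 (by omega)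
    have e4 : Module.finrank k (R (V0 n₀ 0)) = Module.finrank L (V0 n₀ 0) :=
      (hlat0 n₀ 0).finrank_redSub hOA red π hπ hπker hconst hker
    have e5 : R (V0 n₀ 0) = H n₀ 0 := hS2 n₀ 0 (by omega)
    have e6 := finrank_glued_add_card (1 : σ → k) (hTR n₀ 0) hsurj'
    have e7 := finrank_glued_add_card μ0 (hTR n₀ 0) hsurj'
    rw [e5] at e4
    have e4' : Module.finrank k (Glued Rn ev1 ev2 1 (T n₀ 0)) = Module.finrank L (V0 n₀ 0) := e4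
    omega
  obtain ⟨t0, ht0T, ht0⟩ := hsurj' 1 μ0
  have ht0U : t0 ∈ U n₀ 0 := by
    rw [hfin_eq]
    refine (mem_glued_iff (hTR _ _)).2 ⟨ht0T, fun e => ?_⟩
    rw [(ht0 e).1, (ht0 e).2, Pi.one_apply, mul_one]
  obtain ⟨s0, hs0, hs0t⟩ := (hUmem _ _ _).1 ht0U
  have hP1c : ∀ n₁ n₂, n₀ ≤ n₁ → U n₁ n₂ ≤ Glued Rn ev1 ev2 μ0 (T n₁ n₂) := by
    intro n₁ n₂ hl
    obtain ⟨μ', -, hU'⟩ := hP1a n₁ n₂ (by omega)
    have : μ' = μ0 := by
      funext e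
      have h1 : t0 ∈ U n₁ n₂ := hUmono n₀ 0 n₁ n₂ hl (Nat.zero_le _) ht0U
      have h2 := ((mem_glued_iff (hTR _ _)).1 (hU' h1)).2 e
      rw [(ht0 e).1, (ht0 e).2, Pi.one_apply, mul_one] at h2
      exact h2.symm
    rw [← this]; exact hU'
  have hμ0ne : ∀ e, μ0 e ≠ 0 := fun e h => by
    have := hμ0 e
    rw [h, zero_pow hm0] at this
    exact zero_ne_one this
  -- ### (P2) the reductions of `V1` are glued
  have hP2 : ∀ n₁ n₂, n₀ ≤ n₁ + n₂ → R (V1 n₁ n₂) ≤ H n₁ n₂ := by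
    rintro n₁ n₂ hl t ⟨s, hs, rfl⟩
    have hpowmem : (red s) ^ m ∈ H (m * n₁) (m * n₂) := by
      have h1 : (red s) ^ m = red (s ^ m * ⟨f1, hf1O⟩) := by
        rw [map_mul, map_pow, hredf1, mul_one]
      rw [h1, hH]
      show red (s ^ m * ⟨f1, hf1O⟩) ∈ Glued Rn ev1 ev2 1 (T (m * n₁) (m * n₂))
      rw [← hS2 _ _ (hlargem _ _ hl)]
      exact ⟨s ^ m * ⟨f1, hf1O⟩, hpow1 n₁ n₂ _ hs, rfl⟩
    have hT : red s ∈ T n₁ n₂ := hTroot _ _ _ hpowmem.1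
    have hRn : red s ∈ Rn := hTR _ _ hT
    refine (mem_glued_iff (hTR _ _)).2 ⟨hT, fun e => ?_⟩
    obtain ⟨z, hz, hzred⟩ := hmul12 n₁ n₂ n₀ 0 s hs s0 hs0
    have hzU : u * red z ∈ U (n₁ + n₀) (n₂ + 0) := (hUmem _ _ _).2 ⟨z, hz, rfl⟩
    have hg := ((mem_glued_iff (hTR _ _)).1 (hP1c _ _ (Nat.le_add_left _ _) hzU)).2 e
    have hprod : u * red z = red s * t0 := by
      rw [hzred, map_mul, ← hs0t]; ring
    have ht0Rn : t0 ∈ Rn := hTR _ _ ht0T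
    rw [hprod, evT_mul _ hRn ht0Rn, evT_mul _ hRn ht0Rn, (ht0 e).1, (ht0 e).2, Pi.one_apply,
      mul_one] at hg
    rw [Pi.one_apply, one_mul]
    exact mul_right_cancel₀ (hμ0ne e) (by rw [hg, mul_comm])
  have hP2eq : ∀ n₁ n₂, n₀ ≤ n₁ + n₂ → R (V1 n₁ n₂) = H n₁ n₂ := by
    intro n₁ n₂ hl
    have := hTfin n₁ n₂
    have : FiniteDimensional k (H n₁ n₂) :=
      Submodule.finiteDimensional_of_le (glued_le ev1 ev2 1 (T n₁ n₂))
    apply Submodule.eq_of_le_of_finrank_eq (hP2 n₁ n₂ hl)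
    have e1 : Module.finrank k (R (V1 n₁ n₂)) = Module.finrank L (V1 n₁ n₂) :=
      (hlat1 n₁ n₂).finrank_redSub hOA red π hπ hπker hconst hker
    have e2 : Module.finrank k (R (V0 n₁ n₂)) = Module.finrank L (V0 n₁ n₂) :=
      (hlat0 n₁ n₂).finrank_redSub hOA red π hπ hπker hconst hker
    have e3 : R (V0 n₁ n₂) = H n₁ n₂ := hS2 n₁ n₂ hl
    rw [e1, hRR1 n₁ n₂ hl, ← e2, e3]
  -- ### (P3) the deformation lemma
  refine exists_common_ne_zero hOA hval harch m hm V0 V1 hmono0 hmono1 hone f1 hf1 hpow1 hmul10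
    n₀ ?_ ?_ ?_ ?_ ?_ ?_ ?_ ?_
  · -- hBA0
    intro n x hx
    have h1 : Submodule.span L {(1 : F)} ≤ V0 n 0 := by
      rw [Submodule.span_le, Set.singleton_subset_iff]
      exact hmono0 0 0 n 0 (Nat.zero_le _) le_rfl hone
    obtain ⟨x₀, hx₀, h⟩ := (hlat0 n 0).exists_best_dvd hOA _ h1 x hx
    obtain ⟨c, rfl⟩ := Submodule.mem_span_singleton.1 hx₀
    refine ⟨c, fun c' a hd => ?_⟩
    have := h (algebraMap L F c')
      (Submodule.mem_span_singleton.2 ⟨c', by rw [Algebra.smul_def, mul_one]⟩) a hd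
    rwa [Algebra.smul_def, mul_one] at this
  · -- hBA1
    intro K hK x hx
    exact (hlat1 K 0).exists_best_dvd hOA (V1 n₀ 0) (hmono1 _ _ _ _ hK le_rfl) x hx
  · -- hBA1'
    intro K hK x hx
    exact (hlat1 0 K).exists_best_dvd hOA (V1 0 n₀) (hmono1 _ _ _ _ le_rfl hK) x hx
  · -- hres0
    intro n u₁ hu₁ u₂ hu₂ hu₁O hsm
    have hu₂O : u₂ ∈ O := by
      have := O.sub_mem hu₁O (hsm.mem hOA)
      rwa [sub_sub_cancel] at this
    have h1 : red ⟨u₁, hu₁O⟩ ∈ H (max n n₀) 0 := by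
      show red ⟨u₁, hu₁O⟩ ∈ Glued Rn ev1 ev2 1 (T (max n n₀) 0)
      rw [← hS2 (max n n₀) 0 (by have := le_max_right n n₀; omega)]
      exact ⟨_, hmono0 n 0 (max n n₀) 0 (le_max_left _ _) le_rfl hu₁, rfl⟩
    have h2 : red ⟨u₁, hu₁O⟩ ∈ H 0 (max n n₀) := by
      rw [hredsmall ⟨u₁, hu₁O⟩ ⟨u₂, hu₂O⟩ hsm]
      show red ⟨u₂, hu₂O⟩ ∈ Glued Rn ev1 ev2 1 (T 0 (max n n₀))
      rw [← hS2 0 (max n n₀) (by have := le_max_right n n₀; omega)]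
      exact ⟨_, hmono0 0 n 0 (max n n₀) le_rfl (le_max_left _ _) hu₂, rfl⟩
    obtain ⟨κ, hκ⟩ := Submodule.mem_span_singleton.1 (hH3 (max n n₀) ⟨h1, h2⟩)
    obtain ⟨a, rfl⟩ := hπ κ
    refine ⟨(a : L), ?_⟩
    exact hsmallred ⟨u₁, hu₁O⟩ ⟨algebraMap L F a, (hOA _).2 a.2⟩
      (by rw [hconst, ← hκ, Algebra.smul_def, mul_one])
  · -- hres1
    intro K hK u₁ hu₁ u₂ hu₂ hu₁O hsm
    have hu₂O : u₂ ∈ O := by
      have := O.sub_mem hu₁O (hsm.mem hOA)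
      rwa [sub_sub_cancel] at this
    have h1 : red ⟨u₁, hu₁O⟩ ∈ H K 0 := hP2 K 0 (by omega) ⟨_, hu₁, rfl⟩
    have h2 : red ⟨u₁, hu₁O⟩ ∈ H n₀ K := by
      rw [hredsmall ⟨u₁, hu₁O⟩ ⟨u₂, hu₂O⟩ hsm]
      exact hP2 n₀ K (by omega) ⟨_, hu₂, rfl⟩
    have h3 : red ⟨u₁, hu₁O⟩ ∈ R (V1 n₀ 0) := by
      rw [hP2eq n₀ 0 (by omega)]
      exact hH2 K hK ⟨h1, h2⟩
    obtain ⟨u₀, hu₀, hu₀red⟩ := h3
    exact ⟨u₀, hu₀, hsmallred ⟨u₁, hu₁O⟩ u₀ hu₀red.symm⟩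
  · -- hres1'
    intro K hK u₁ hu₁ u₂ hu₂ hu₁O hsm
    have hu₂O : u₂ ∈ O := by
      have := O.sub_mem hu₁O (hsm.mem hOA)
      rwa [sub_sub_cancel] at this
    have h1 : red ⟨u₁, hu₁O⟩ ∈ H 0 K := hP2 0 K (by omega) ⟨_, hu₁, rfl⟩
    have h2 : red ⟨u₁, hu₁O⟩ ∈ H K n₀ := by
      rw [hredsmall ⟨u₁, hu₁O⟩ ⟨u₂, hu₂O⟩ hsm]
      exact hP2 K n₀ (by omega) ⟨_, hu₂, rfl⟩
    have h3 : red ⟨u₁, hu₁O⟩ ∈ R (V1 0 n₀) := by
      rw [hP2eq 0 n₀ (by omega)]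
      exact hH2' K hK ⟨h1, h2⟩
    obtain ⟨u₀, hu₀, hu₀red⟩ := h3
    exact ⟨u₀, hu₀, hsmallred ⟨u₁, hu₁O⟩ u₀ hu₀red.symm⟩
  · -- hstart
    have h1 : (1 : Ft) ∈ R (V1 n₀ 0) := by
      rw [hP2eq n₀ 0 (by omega)]
      show (1 : Ft) ∈ Glued Rn ev1 ev2 1 (T n₀ 0)
      rw [← hS2 n₀ 0 (by omega)]
      exact ⟨1, hmono0 0 0 n₀ 0 (Nat.zero_le _) le_rfl hone, map_one red⟩
    have h2 : (1 : Ft) ∈ R (V1 0 n₀) := by
      rw [hP2eq 0 n₀ (by omega)]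
      show (1 : Ft) ∈ Glued Rn ev1 ev2 1 (T 0 n₀)
      rw [← hS2 0 n₀ (by omega)]
      exact ⟨1, hmono0 0 0 0 n₀ le_rfl (Nat.zero_le _) hone, map_one red⟩
    obtain ⟨s₁, hs₁, hs₁red⟩ := h1
    obtain ⟨s₂, hs₂, hs₂red⟩ := h2
    refine ⟨s₁, hs₁, s₂, hs₂, ?_, ?_⟩
    · exact hsmallred s₁ 1 (by rw [hs₁red, map_one])
    · exact hsmallred s₂ 1 (by rw [hs₂red, map_one])
  · -- hangle
    intro hzero
    exact (hlat1 n₀ n₀).exists_angle_dvd hOA (V1 n₀ 0) (V1 0 n₀)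
      (hmono1 _ _ _ _ le_rfl (Nat.zero_le _)) (hmono1 _ _ _ _ (Nat.zero_le _) le_rfl)
      (by
        rw [eq_bot_iff]
        rintro s ⟨h1, h2⟩
        exact (Submodule.mem_bot L).2 (hzero s h1 h2))

end Fermat.Agent.BAD.Nodal
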