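import Mathlib
import Fermat.Agent.Lib.FF.RRApprox

/-!
# BAD (N2): Riemann's theorem on a nodal curve with two components

`F₁`, `F₂` function fields of one variable over `K` (setting `IsFF1`), glued along finitely many
pairs of places `(e₁ i, e₂ i)`, `i : ι`, with a gluing datum `μ : ι → K`.

* `Cong P f c` : `f ≡ c` at the place `P` (`f` is regular at `P` with value `c`); calculus
  `Cong.add`, `Cong.smul`, `Cong.mul`, `Cong.unique`, `exists_cong` (residue field `K`).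
* `evL P hP B hB : L(B) →ₗ[K] K` : the value at `P` of the functions of `L(B)` (`B P ≤ 0`).
* `exists_mem_L_cong` : if `H¹(B - ∑ e i) = 0` the values at the `e i` of the functions of `L(B)`
  can be prescribed arbitrarily.
* `gluedSpace e₁ e₂ μ B₁ B₂ : Submodule K (F₁ × F₂)` : pairs `(a, b) ∈ L(B₁) × L(B₂)` with
  `b(e₂ i) = μ i · a(e₁ i)` for all `i` — the sections of the line bundle with gluing datum `μ`
  and pole bound `(B₁, B₂)` on the nodal curve.
* `finrank_gluedSpace_add_card_ge`, `finrank_gluedSpace_add_card` and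
  **`exists_finrank_gluedSpace`** : for `deg B₁`, `deg B₂` large,
  `dim gluedSpace = deg B₁ + deg B₂ + 2 - g₁ - g₂ - #ι`  (any `μ`).
* `gluedSpace_zero` : `H⁰` of the glued curve: `(a, b)` constants with `b = μ i · a` for all `i`;
  `gluedSpace_zero_one` : for `μ = 1` and `ι` nonempty these are the diagonal constants.
-/

set_option autoImplicit false
set_option linter.style.haveILetI false

noncomputable section

namespace Fermat.Agent.BAD.NodalRiemann

open AlgebraicCurve WithZero Fermat.Agent.Lib.FF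

variable {K : Type*} [Field K]

section OneField

variable {F : Type*} [Field F] [Algebra K F]

/-- `f ≡ c` at the place `P`: `f` is regular at `P` and takes the value `c` there. -/
def Cong (P : Place K F) (f : F) (c : K) : Prop :=
  P.adicValuation (f - algebraMap K F c) < 1

theorem cong_iff {P : Place K F} {f : F} {c : K} :
    Cong P f c ↔ P.adicValuation (f - algebraMap K F c) < 1 := Iff.rfl

theorem cong_zero (P : Place K F) : Cong P (0 : F) (0 : K) := by
  simp [Cong]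

theorem cong_algebraMap (P : Place K F) (c : K) : Cong P (algebraMap K F c) c := by
  simp [Cong]

theorem Cong.add {P : Place K F} {f g : F} {c d : K} (hf : Cong P f c) (hg : Cong P g d) :
    Cong P (f + g) (c + d) := by
  unfold Cong at *
  have h : f + g - algebraMap K F (c + d) = (f - algebraMap K F c) + (g - algebraMap K F d) := by
    rw [map_add]
    ring
  rw [h]
  exact lt_of_le_of_lt (Valuation.map_add _ _ _) (max_lt hf hg)

theorem Cong.smul {P : Place K F} {f : F} {c : K} (hf : Cong P f c) (a : K) :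
    Cong P (a • f) (a * c) := by
  unfold Cong at *
  have h : a • f - algebraMap K F (a * c) = algebraMap K F a * (f - algebraMap K F c) := by
    rw [Algebra.smul_def, map_mul]
    ring
  rw [h, map_mul]
  exact lt_of_le_of_lt (mul_le_of_le_one_left' (P.adicValuation_algebraMap_le_one a)) hf

theorem Cong.le_one {P : Place K F} {f : F} {c : K} (h : Cong P f c) :
    P.adicValuation f ≤ 1 := by
  have h' : f = (f - algebraMap K F c) + algebraMap K F c := by ring
  rw [h']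
  exact (Valuation.map_add _ _ _).trans (max_le h.le (P.adicValuation_algebraMap_le_one c))

theorem Cong.mul {P : Place K F} {f g : F} {c d : K} (hf : Cong P f c) (hg : Cong P g d) :
    Cong P (f * g) (c * d) := by
  have hg1 := hg.le_one
  unfold Cong at *
  have h : f * g - algebraMap K F (c * d)
      = (f - algebraMap K F c) * g + algebraMap K F c * (g - algebraMap K F d) := by
    rw [map_mul]
    ring
  rw [h]
  refine lt_of_le_of_lt (Valuation.map_add _ _ _) (max_lt ?_ ?_)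
  · rw [map_mul]
    exact lt_of_le_of_lt (mul_le_of_le_one_right' hg1) hf
  · rw [map_mul]
    exact lt_of_le_of_lt (mul_le_of_le_one_left' (P.adicValuation_algebraMap_le_one c)) hg

theorem adicValuation_algebraMap_eq_one (P : Place K F) {c : K} (hc : c ≠ 0) :
    P.adicValuation (algebraMap K F c) = 1 := by
  have h0 : algebraMap K F c ≠ 0 := by simpa using hc
  rw [P.adicValuation_eq_exp_neg_ord h0, Fermat.Agent.S24.ord_algebraMap, neg_zero, exp_zero]

/-- The value at a place is unique. -/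
theorem Cong.unique {P : Place K F} {f : F} {c d : K} (h : Cong P f c) (h' : Cong P f d) :
    c = d := by
  by_contra hne
  have h1 : algebraMap K F (c - d) = (f - algebraMap K F d) - (f - algebraMap K F c) := by
    rw [map_sub]
    ring
  have h2 : P.adicValuation (algebraMap K F (c - d)) < 1 := by
    rw [h1]
    exact lt_of_le_of_lt (Valuation.map_sub _ _ _) (max_lt h' h)
  rw [adicValuation_algebraMap_eq_one P (sub_ne_zero.mpr hne)] at h2
  exact lt_irrefl _ h2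

theorem cong_algebraMap_iff (P : Place K F) {c d : K} : Cong P (algebraMap K F c) d ↔ c = d :=
  ⟨fun h => (cong_algebraMap P c).unique h, fun h => h ▸ cong_algebraMap P c⟩

/-- At a place with residue field `K`, every regular function has a value. -/
theorem exists_cong {P : Place K F} (hP : RR.ResK P) {f : F} (hf : P.adicValuation f ≤ 1) :
    ∃ c : K, Cong P f c := by
  obtain ⟨c, hc⟩ := hP ⟨f, RR.mem_of_val_le_one P hf⟩
  refine ⟨c, ?_⟩
  have h2 := RR.val_le_exp_neg_one_of_mem_maximalIdeal P _ hc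
  have h4 : ((⟨f, RR.mem_of_val_le_one P hf⟩ - algebraMap K P.toValuationSubring c :
      P.toValuationSubring) : F) = f - algebraMap K F c := rfl
  rw [h4] at h2
  refine lt_of_le_of_lt h2 ?_
  rw [← exp_zero, exp_lt_exp]
  norm_num

theorem le_one_of_mem_L {P : Place K F} {B : Divisor K F} (hB : B P ≤ 0) {f : F}
    (hf : f ∈ riemannRochSpace B) : P.adicValuation f ≤ 1 := by
  refine (hf P).trans ?_
  rw [← exp_zero, exp_le_exp]
  exact hB

/-- The value at `P` of the functions of `L(B)`, as a linear form (`B P ≤ 0`). -/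
def evL (P : Place K F) (hP : RR.ResK P) (B : Divisor K F) (hB : B P ≤ 0) :
    riemannRochSpace B →ₗ[K] K where
  toFun f := (exists_cong hP (le_one_of_mem_L hB f.2)).choose
  map_add' f g :=
    (exists_cong hP (le_one_of_mem_L hB (f + g).2)).choose_spec.unique
      ((exists_cong hP (le_one_of_mem_L hB f.2)).choose_spec.add
        (exists_cong hP (le_one_of_mem_L hB g.2)).choose_spec)
  map_smul' a f :=
    (exists_cong hP (le_one_of_mem_L hB (a • f).2)).choose_spec.unique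
      ((exists_cong hP (le_one_of_mem_L hB f.2)).choose_spec.smul a)

theorem evL_spec (P : Place K F) (hP : RR.ResK P) (B : Divisor K F) (hB : B P ≤ 0)
    (f : riemannRochSpace B) : Cong P (f : F) (evL P hP B hB f) :=
  (exists_cong hP (le_one_of_mem_L hB f.2)).choose_spec

theorem evL_eq_iff (P : Place K F) (hP : RR.ResK P) (B : Divisor K F) (hB : B P ≤ 0)
    (f : riemannRochSpace B) (c : K) : evL P hP B hB f = c ↔ Cong P (f : F) c :=
  ⟨fun h => h ▸ evL_spec P hP B hB f, fun h => (evL_spec P hP B hB f).unique h⟩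

/-- **Prescribing values**: if `H¹(B - ∑ e i) = 0`, the values at the distinct places `e i` of
the functions of `L(B)` are arbitrary (`B (e i) = 0`). -/
theorem exists_mem_L_cong {ι : Type*} [Fintype ι] (e : ι → Place K F)
    (he : Function.Injective e) (B : Divisor K F) (hB : ∀ i, B (e i) = 0)
    (hMD : RR.MD (B - ∑ i, Finsupp.single (e i) (1 : ℤ)) = ⊤) (c : ι → K) :
    ∃ f ∈ riemannRochSpace B, ∀ i, Cong (e i) f (c i) := by
  classical
  set D : Divisor K F := B - ∑ i, Finsupp.single (e i) (1 : ℤ) with hD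
  have hsum : ∀ v : Place K F,
      (∑ i, Finsupp.single (e i) (1 : ℤ) : Divisor K F) v = if ∃ i, e i = v then 1 else 0 := by
    intro v
    rw [Finsupp.finsetSum_apply]
    simp only [Finsupp.single_apply]
    by_cases h : ∃ i, e i = v
    · obtain ⟨i, rfl⟩ := h
      rw [if_pos ⟨i, rfl⟩, Finset.sum_eq_single i]
      · rw [if_pos rfl]
      · intro j _ hj
        rw [if_neg (fun h' => hj (he h'))]
      · intro hi
        exact absurd (Finset.mem_univ i) hi
    · rw [if_neg h]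
      refine Finset.sum_eq_zero fun j _ => ?_
      rw [if_neg (fun h' => h ⟨j, h'⟩)]
  have hDe : ∀ i, D (e i) = -1 := by
    intro i
    rw [hD, Finsupp.sub_apply, hsum, if_pos ⟨i, rfl⟩, hB i]
    norm_num
  have hDout : ∀ v : Place K F, (¬ ∃ i, e i = v) → D v = B v := by
    intro v hv
    rw [hD, Finsupp.sub_apply, hsum, if_neg hv, sub_zero]
  let a : Place K F → F := fun v => if h : ∃ i, e i = v then algebraMap K F (c h.choose) else 0
  have ha : ∀ i, a (e i) = algebraMap K F (c i) := by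
    intro i
    have h : ∃ j, e j = e i := ⟨i, rfl⟩
    show (if h : ∃ j, e j = e i then algebraMap K F (c h.choose) else 0) = _
    rw [dif_pos h, he h.choose_spec]
  obtain ⟨f, hf1, hf2⟩ := RR.strong_approximation_of_MD_eq_top hMD (Finset.univ.image e) a
  have hcong : ∀ i, Cong (e i) f (c i) := by
    intro i
    have h := hf1 (e i) (Finset.mem_image_of_mem e (Finset.mem_univ i))
    rw [ha i, hDe i] at h
    refine lt_of_le_of_lt h ?_
    rw [← exp_zero, exp_lt_exp]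
    norm_num
  refine ⟨f, fun v => ?_, hcong⟩
  by_cases hv : ∃ i, e i = v
  · obtain ⟨i, rfl⟩ := hv
    rw [hB i, exp_zero]
    exact (hcong i).le_one
  · have hvS : v ∉ Finset.univ.image e := by
      intro h
      obtain ⟨i, -, hi⟩ := Finset.mem_image.mp h
      exact hv ⟨i, hi⟩
    have h := hf2 v hvS
    rwa [hDout v hv] at h

end OneField

section TwoFields

variable {F₁ F₂ : Type*} [Field F₁] [Field F₂] [Algebra K F₁] [Algebra K F₂]
variable {ι : Type*}

/-- Sections on the nodal curve: pairs `(a, b) ∈ L(B₁) × L(B₂)` with `b(e₂ i) = μ i · a(e₁ i)`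
at every glued pair of places. -/
def gluedSpace (e₁ : ι → Place K F₁) (e₂ : ι → Place K F₂) (μ : ι → K) (B₁ : Divisor K F₁)
    (B₂ : Divisor K F₂) : Submodule K (F₁ × F₂) where
  carrier := {p | p.1 ∈ riemannRochSpace B₁ ∧ p.2 ∈ riemannRochSpace B₂ ∧
    ∀ i, ∃ c : K, Cong (e₁ i) p.1 c ∧ Cong (e₂ i) p.2 (μ i * c)}
  zero_mem' := ⟨zero_mem _, zero_mem _, fun i => ⟨0, cong_zero _, by
    rw [mul_zero]
    exact cong_zero _⟩⟩
  add_mem' := by
    rintro p p' ⟨h1, h2, h3⟩ ⟨h1', h2', h3'⟩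
    refine ⟨add_mem h1 h1', add_mem h2 h2', fun i => ?_⟩
    obtain ⟨c, hc1, hc2⟩ := h3 i
    obtain ⟨c', hc1', hc2'⟩ := h3' i
    refine ⟨c + c', hc1.add hc1', ?_⟩
    rw [mul_add]
    exact hc2.add hc2'
  smul_mem' := by
    rintro a p ⟨h1, h2, h3⟩
    refine ⟨Submodule.smul_mem _ a h1, Submodule.smul_mem _ a h2, fun i => ?_⟩
    obtain ⟨c, hc1, hc2⟩ := h3 i
    refine ⟨a * c, hc1.smul a, ?_⟩
    rw [mul_left_comm]
    exact hc2.smul a

theorem mem_gluedSpace {e₁ : ι → Place K F₁} {e₂ : ι → Place K F₂} {μ : ι → K}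
    {B₁ : Divisor K F₁} {B₂ : Divisor K F₂} {p : F₁ × F₂} :
    p ∈ gluedSpace e₁ e₂ μ B₁ B₂ ↔ p.1 ∈ riemannRochSpace B₁ ∧ p.2 ∈ riemannRochSpace B₂ ∧
      ∀ i, ∃ c : K, Cong (e₁ i) p.1 c ∧ Cong (e₂ i) p.2 (μ i * c) := Iff.rfl

theorem gluedSpace_mono {e₁ : ι → Place K F₁} {e₂ : ι → Place K F₂} {μ : ι → K}
    {B₁ B₁' : Divisor K F₁} {B₂ B₂' : Divisor K F₂} (h₁ : B₁ ≤ B₁') (h₂ : B₂ ≤ B₂') :
    gluedSpace e₁ e₂ μ B₁ B₂ ≤ gluedSpace e₁ e₂ μ B₁' B₂' := by
  rintro p ⟨h1, h2, h3⟩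
  refine ⟨fun v => (h1 v).trans (exp_le_exp.mpr (Finsupp.le_def.mp h₁ v)),
    fun v => (h2 v).trans (exp_le_exp.mpr (Finsupp.le_def.mp h₂ v)), h3⟩

/-- The gluing conditions, as a linear map on `L(B₁) × L(B₂)`. -/
def gluingMap (e₁ : ι → Place K F₁) (e₂ : ι → Place K F₂) (he₁ : ∀ i, RR.ResK (e₁ i))
    (he₂ : ∀ i, RR.ResK (e₂ i)) (μ : ι → K) (B₁ : Divisor K F₁) (B₂ : Divisor K F₂)
    (hB₁ : ∀ i, B₁ (e₁ i) ≤ 0) (hB₂ : ∀ i, B₂ (e₂ i) ≤ 0) :
    (riemannRochSpace B₁ × riemannRochSpace B₂) →ₗ[K] (ι → K) :=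
  LinearMap.pi fun i =>
    (evL (e₂ i) (he₂ i) B₂ (hB₂ i)).comp (LinearMap.snd K _ _)
      - μ i • (evL (e₁ i) (he₁ i) B₁ (hB₁ i)).comp (LinearMap.fst K _ _)

theorem gluingMap_apply (e₁ : ι → Place K F₁) (e₂ : ι → Place K F₂)
    (he₁ : ∀ i, RR.ResK (e₁ i)) (he₂ : ∀ i, RR.ResK (e₂ i)) (μ : ι → K) (B₁ : Divisor K F₁)
    (B₂ : Divisor K F₂) (hB₁ : ∀ i, B₁ (e₁ i) ≤ 0) (hB₂ : ∀ i, B₂ (e₂ i) ≤ 0)
    (p : riemannRochSpace B₁ × riemannRochSpace B₂) (i : ι) :
    gluingMap e₁ e₂ he₁ he₂ μ B₁ B₂ hB₁ hB₂ p i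
      = evL (e₂ i) (he₂ i) B₂ (hB₂ i) p.2 - μ i * evL (e₁ i) (he₁ i) B₁ (hB₁ i) p.1 := rfl

/-- The glued space is the image of the kernel of the gluing map. -/
theorem gluedSpace_eq_map_ker (e₁ : ι → Place K F₁) (e₂ : ι → Place K F₂)
    (he₁ : ∀ i, RR.ResK (e₁ i)) (he₂ : ∀ i, RR.ResK (e₂ i)) (μ : ι → K) (B₁ : Divisor K F₁)
    (B₂ : Divisor K F₂) (hB₁ : ∀ i, B₁ (e₁ i) ≤ 0) (hB₂ : ∀ i, B₂ (e₂ i) ≤ 0) :
    gluedSpace e₁ e₂ μ B₁ B₂
      = (LinearMap.ker (gluingMap e₁ e₂ he₁ he₂ μ B₁ B₂ hB₁ hB₂)).map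
          (LinearMap.prodMap (riemannRochSpace B₁).subtype (riemannRochSpace B₂).subtype) := by
  ext p
  rw [Submodule.mem_map]
  constructor
  · rintro ⟨h1, h2, h3⟩
    refine ⟨(⟨p.1, h1⟩, ⟨p.2, h2⟩), ?_, rfl⟩
    rw [LinearMap.mem_ker]
    funext i
    rw [gluingMap_apply, Pi.zero_apply]
    obtain ⟨c, hc1, hc2⟩ := h3 i
    rw [(evL_eq_iff (e₁ i) (he₁ i) B₁ (hB₁ i) ⟨p.1, h1⟩ c).mpr hc1,
      (evL_eq_iff (e₂ i) (he₂ i) B₂ (hB₂ i) ⟨p.2, h2⟩ (μ i * c)).mpr hc2, sub_self]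
  · rintro ⟨⟨a, b⟩, hker, rfl⟩
    refine ⟨a.2, b.2, fun i => ?_⟩
    rw [LinearMap.mem_ker] at hker
    have h := congrFun hker i
    rw [gluingMap_apply, Pi.zero_apply, sub_eq_zero] at h
    refine ⟨evL (e₁ i) (he₁ i) B₁ (hB₁ i) a, evL_spec _ _ _ _ a, ?_⟩
    have h' := evL_spec (e₂ i) (he₂ i) B₂ (hB₂ i) b
    rw [h] at h'
    exact h'

theorem finrank_gluedSpace_eq_ker (e₁ : ι → Place K F₁) (e₂ : ι → Place K F₂)
    (he₁ : ∀ i, RR.ResK (e₁ i)) (he₂ : ∀ i, RR.ResK (e₂ i)) (μ : ι → K) (B₁ : Divisor K F₁)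
    (B₂ : Divisor K F₂) (hB₁ : ∀ i, B₁ (e₁ i) ≤ 0) (hB₂ : ∀ i, B₂ (e₂ i) ≤ 0) :
    Module.finrank K (gluedSpace e₁ e₂ μ B₁ B₂)
      = Module.finrank K (LinearMap.ker (gluingMap e₁ e₂ he₁ he₂ μ B₁ B₂ hB₁ hB₂)) := by
  rw [gluedSpace_eq_map_ker e₁ e₂ he₁ he₂ μ B₁ B₂ hB₁ hB₂]
  have hinj : Function.Injective
      (LinearMap.prodMap (riemannRochSpace B₁).subtype (riemannRochSpace B₂).subtype) := by
    rintro ⟨a, b⟩ ⟨a', b'⟩ h
    simp only [LinearMap.prodMap_apply, Submodule.subtype_apply, Prod.mk.injEq] at h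
    exact Prod.ext (Subtype.ext h.1) (Subtype.ext h.2)
  exact (Submodule.equivMapOfInjective _ hinj _).finrank_eq.symm

variable {x₁ : F₁} {x₂ : F₂}

variable [Fintype ι]

/-- **Lower bound** (no condition on the degrees): the gluing imposes at most `#ι` conditions. -/
theorem finrank_gluedSpace_add_card_ge (h₁ : IsFF1 K F₁ x₁) (h₂ : IsFF1 K F₂ x₂)
    (e₁ : ι → Place K F₁) (e₂ : ι → Place K F₂) (μ : ι → K) (B₁ : Divisor K F₁)
    (B₂ : Divisor K F₂) (hB₁ : ∀ i, B₁ (e₁ i) ≤ 0) (hB₂ : ∀ i, B₂ (e₂ i) ≤ 0) :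
    Module.finrank K (riemannRochSpace B₁) + Module.finrank K (riemannRochSpace B₂)
      ≤ Module.finrank K (gluedSpace e₁ e₂ μ B₁ B₂) + Fintype.card ι := by
  haveI := h₁.finite_L B₁
  haveI := h₂.finite_L B₂
  rw [finrank_gluedSpace_eq_ker e₁ e₂ (fun i => h₁.resK _) (fun i => h₂.resK _) μ B₁ B₂ hB₁ hB₂]
  have hrn := LinearMap.finrank_range_add_finrank_ker
    (gluingMap e₁ e₂ (fun i => h₁.resK _) (fun i => h₂.resK _) μ B₁ B₂ hB₁ hB₂)
  rw [Module.finrank_prod] at hrn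
  have hle : Module.finrank K (LinearMap.range
      (gluingMap e₁ e₂ (fun i => h₁.resK _) (fun i => h₂.resK _) μ B₁ B₂ hB₁ hB₂))
      ≤ Fintype.card ι := by
    have := Submodule.finrank_le (LinearMap.range
      (gluingMap e₁ e₂ (fun i => h₁.resK _) (fun i => h₂.resK _) μ B₁ B₂ hB₁ hB₂))
    rwa [Module.finrank_fintype_fun_eq_card] at this
  omega

/-- **Exact count** when the values on the second component can be prescribed
(`H¹(B₂ - ∑ e₂ i) = 0`): the gluing imposes exactly `#ι` independent conditions. -/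
theorem finrank_gluedSpace_add_card (h₁ : IsFF1 K F₁ x₁) (h₂ : IsFF1 K F₂ x₂)
    (e₁ : ι → Place K F₁) (e₂ : ι → Place K F₂) (he₂ : Function.Injective e₂) (μ : ι → K)
    (B₁ : Divisor K F₁) (B₂ : Divisor K F₂) (hB₁ : ∀ i, B₁ (e₁ i) ≤ 0)
    (hB₂ : ∀ i, B₂ (e₂ i) = 0)
    (hMD : RR.MD (B₂ - ∑ i, Finsupp.single (e₂ i) (1 : ℤ)) = ⊤) :
    Module.finrank K (gluedSpace e₁ e₂ μ B₁ B₂) + Fintype.card ι
      = Module.finrank K (riemannRochSpace B₁) + Module.finrank K (riemannRochSpace B₂) := by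
  haveI := h₁.finite_L B₁
  haveI := h₂.finite_L B₂
  have hB₂' : ∀ i, B₂ (e₂ i) ≤ 0 := fun i => (hB₂ i).le
  rw [finrank_gluedSpace_eq_ker e₁ e₂ (fun i => h₁.resK _) (fun i => h₂.resK _) μ B₁ B₂ hB₁ hB₂']
  have hrn := LinearMap.finrank_range_add_finrank_ker
    (gluingMap e₁ e₂ (fun i => h₁.resK _) (fun i => h₂.resK _) μ B₁ B₂ hB₁ hB₂')
  rw [Module.finrank_prod] at hrn
  have hsurj : LinearMap.range
      (gluingMap e₁ e₂ (fun i => h₁.resK _) (fun i => h₂.resK _) μ B₁ B₂ hB₁ hB₂') = ⊤ := by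
    rw [LinearMap.range_eq_top]
    intro c
    obtain ⟨f, hf, hfc⟩ := exists_mem_L_cong e₂ he₂ B₂ hB₂ hMD c
    refine ⟨(0, ⟨f, hf⟩), ?_⟩
    funext i
    rw [gluingMap_apply]
    simp only [map_zero, mul_zero, sub_zero]
    exact (evL_eq_iff (e₂ i) (h₂.resK _) B₂ (hB₂' i) ⟨f, hf⟩ (c i)).mpr (hfc i)
  rw [hsurj, finrank_top, Module.finrank_fintype_fun_eq_card] at hrn
  omega

/-- **Riemann's theorem on the nodal curve**: for `deg B₁`, `deg B₂` large and any gluing datum,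
`dim gluedSpace = deg B₁ + deg B₂ + 2 - g₁ - g₂ - #ι`. -/
theorem exists_finrank_gluedSpace (h₁ : IsFF1 K F₁ x₁) (h₂ : IsFF1 K F₂ x₂)
    (e₁ : ι → Place K F₁) (e₂ : ι → Place K F₂) (he₂ : Function.Injective e₂) :
    ∃ c : ℤ, ∀ (μ : ι → K) (B₁ : Divisor K F₁) (B₂ : Divisor K F₂),
      c ≤ Divisor.degree B₁ → c ≤ Divisor.degree B₂ →
      (∀ i, B₁ (e₁ i) ≤ 0) → (∀ i, B₂ (e₂ i) = 0) →
      (Module.finrank K (gluedSpace e₁ e₂ μ B₁ B₂) : ℤ)
        = Divisor.degree B₁ + Divisor.degree B₂ + 2 - genusFF K F₁ - genusFF K F₂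
          - Fintype.card ι := by
  classical
  obtain ⟨c₁, hc₁⟩ := h₁.exists_degree_bound
  obtain ⟨c₂, hc₂⟩ := h₂.exists_degree_bound
  refine ⟨max c₁ (c₂ + Fintype.card ι), fun μ B₁ B₂ hd₁ hd₂ hB₁ hB₂ => ?_⟩
  have hdeg : Divisor.degree (B₂ - ∑ i, Finsupp.single (e₂ i) (1 : ℤ))
      = Divisor.degree B₂ - Fintype.card ι := by
    rw [map_sub, map_sum]
    congr 1
    rw [Finset.sum_congr rfl (fun i _ => by
      rw [Divisor.degree_single, h₂.deg_eq_one, Nat.cast_one, mul_one])]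
    simp
  have hMD := (hc₂ (B₂ - ∑ i, Finsupp.single (e₂ i) (1 : ℤ)) (by
    rw [hdeg]
    have := le_trans (le_max_right c₁ (c₂ + Fintype.card ι)) hd₂
    linarith)).1
  have hcount := finrank_gluedSpace_add_card h₁ h₂ e₁ e₂ he₂ μ B₁ B₂ hB₁ hB₂ hMD
  have hl₁ := (hc₁ B₁ (le_trans (le_max_left _ _) hd₁)).2
  have hl₂ := (hc₂ B₂ (by
    have := le_trans (le_max_right c₁ (c₂ + Fintype.card ι)) hd₂
    have hcard : (0 : ℤ) ≤ Fintype.card ι := Int.natCast_nonneg _
    linarith)).2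
  have hcount' : (Module.finrank K (gluedSpace e₁ e₂ μ B₁ B₂) : ℤ) + Fintype.card ι
      = (Module.finrank K (riemannRochSpace B₁) : ℤ) + Module.finrank K (riemannRochSpace B₂) := by
    exact_mod_cast hcount
  linarith

omit [Fintype ι] in
/-- `H⁰` of the glued curve: constants `(a, b)` with `b = μ i · a` at every glued pair. -/
theorem gluedSpace_zero (h₁ : IsFF1 K F₁ x₁) (h₂ : IsFF1 K F₂ x₂) (e₁ : ι → Place K F₁)
    (e₂ : ι → Place K F₂) (μ : ι → K) {p : F₁ × F₂} (hp : p ∈ gluedSpace e₁ e₂ μ 0 0) :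
    ∃ a b : K, p = (algebraMap K F₁ a, algebraMap K F₂ b) ∧ ∀ i, b = μ i * a := by
  obtain ⟨h1, h2, h3⟩ := hp
  rw [h₁.L_zero_eq_range] at h1
  rw [h₂.L_zero_eq_range] at h2
  obtain ⟨a, ha⟩ := h1
  obtain ⟨b, hb⟩ := h2
  refine ⟨a, b, Prod.ext ha.symm hb.symm, fun i => ?_⟩
  obtain ⟨c, hc1, hc2⟩ := h3 i
  rw [← ha] at hc1
  rw [← hb] at hc2
  have hac : a = c := (cong_algebraMap_iff _).mp hc1
  have hbc : b = μ i * c := (cong_algebraMap_iff _).mp hc2
  rw [hac]
  exact hbc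

omit [Fintype ι] in
/-- For the trivial gluing datum and at least one glued pair, `H⁰` of the glued curve consists
of the diagonal constants: the nodal curve is connected. -/
theorem gluedSpace_zero_one [Nonempty ι] (h₁ : IsFF1 K F₁ x₁) (h₂ : IsFF1 K F₂ x₂)
    (e₁ : ι → Place K F₁) (e₂ : ι → Place K F₂) {p : F₁ × F₂} :
    p ∈ gluedSpace e₁ e₂ (fun _ => (1 : K)) 0 0
      ↔ ∃ a : K, p = (algebraMap K F₁ a, algebraMap K F₂ a) := by
  constructor
  · intro hp
    obtain ⟨a, b, hpab, hab⟩ := gluedSpace_zero h₁ h₂ e₁ e₂ _ hp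
    have hba : b = a := by
      have := hab (Classical.arbitrary ι)
      rwa [one_mul] at this
    exact ⟨a, by rw [hpab, hba]⟩
  · rintro ⟨a, rfl⟩
    refine ⟨?_, ?_, fun i => ⟨a, cong_algebraMap _ a, ?_⟩⟩
    · rw [h₁.L_zero_eq_range]
      exact ⟨a, rfl⟩
    · rw [h₂.L_zero_eq_range]
      exact ⟨a, rfl⟩
    · rw [one_mul]
      exact cong_algebraMap _ a

end TwoFields

end Fermat.Agent.BAD.NodalRiemann
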