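import Mathlib
import Fermat.Agent.BAD.Nodal
import Fermat.Agent.BAD.NodalRiemann

/-!
# Bridge: the nodal special fibre of `BAD/Nodal.lean` from two function fields

`F₁`, `F₂` function fields over `K` (setting `IsFF1`), glued along the pairs of places
`(e₁ i, e₂ i)`.  This file produces the special-fibre data consumed by
`Nodal.exists_common_of_nodal`:

* `regSub e₁ e₂ : Subalgebra K (F₁ × F₂)` — pairs regular at all the `e₁ i`, `e₂ i`;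
* `ev₁ e₁ e₂ he₁ i`, `ev₂ e₁ e₂ he₂ i : regSub e₁ e₂ →ₐ[K] K` — the values at the two branches;
* `Tn P₁ Z₁ P₂ Z₂ n₁ n₂ = L(n₁ P₁ + n₂ Z₁) × L(n₁ P₂ + n₂ Z₂)`;
* `glued_eq_gluedSpace` : `Nodal.Glued` of these data is `NodalRiemann.gluedSpace`;
* the hypotheses `hTfin`, `hTR`, `hTroot`, `hTsurj`, `hH2`, `hH2'`, `hH3` of the nodal theorem.
-/

set_option autoImplicit false

noncomputable section

namespace Fermat.Agent.BAD.NodalBridge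

open AlgebraicCurve WithZero Fermat.Agent.Lib.FF Fermat.Agent.BAD.NodalRiemann
  Fermat.Agent.BAD.Nodal

variable {K : Type*} [Field K]
variable {F₁ F₂ : Type*} [Field F₁] [Field F₂] [Algebra K F₁] [Algebra K F₂]
variable {ι : Type*}

/-- Pairs of functions regular at all the glued places. -/
def regSub (e₁ : ι → Place K F₁) (e₂ : ι → Place K F₂) : Subalgebra K (F₁ × F₂) where
  carrier := {p | ∀ i, (e₁ i).adicValuation p.1 ≤ 1 ∧ (e₂ i).adicValuation p.2 ≤ 1}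
  mul_mem' := by
    intro p p' hp hp' i
    refine ⟨?_, ?_⟩
    · rw [Prod.fst_mul, map_mul]; exact mul_le_one' (hp i).1 (hp' i).1
    · rw [Prod.snd_mul, map_mul]; exact mul_le_one' (hp i).2 (hp' i).2
  add_mem' := by
    intro p p' hp hp' i
    refine ⟨?_, ?_⟩
    · rw [Prod.fst_add]; exact (Valuation.map_add _ _ _).trans (max_le (hp i).1 (hp' i).1)
    · rw [Prod.snd_add]; exact (Valuation.map_add _ _ _).trans (max_le (hp i).2 (hp' i).2)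
  algebraMap_mem' := by
    intro c i
    rw [Prod.algebraMap_apply]
    exact ⟨(e₁ i).adicValuation_algebraMap_le_one c, (e₂ i).adicValuation_algebraMap_le_one c⟩

theorem mem_regSub {e₁ : ι → Place K F₁} {e₂ : ι → Place K F₂} {p : F₁ × F₂} :
    p ∈ regSub e₁ e₂ ↔ ∀ i, (e₁ i).adicValuation p.1 ≤ 1 ∧ (e₂ i).adicValuation p.2 ≤ 1 :=
  Iff.rfl

section ev

variable (e₁ : ι → Place K F₁) (e₂ : ι → Place K F₂)

/-- The value at `e₁ i` of the first component. -/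
def val₁ (he₁ : ∀ i, RR.ResK (e₁ i)) (i : ι) (p : regSub e₁ e₂) : K :=
  (exists_cong (he₁ i) (p.2 i).1).choose

theorem val₁_spec (he₁ : ∀ i, RR.ResK (e₁ i)) (i : ι) (p : regSub e₁ e₂) :
    Cong (e₁ i) (p : F₁ × F₂).1 (val₁ e₁ e₂ he₁ i p) :=
  (exists_cong (he₁ i) (p.2 i).1).choose_spec

/-- The value at `e₂ i` of the second component. -/
def val₂ (he₂ : ∀ i, RR.ResK (e₂ i)) (i : ι) (p : regSub e₁ e₂) : K :=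
  (exists_cong (he₂ i) (p.2 i).2).choose

theorem val₂_spec (he₂ : ∀ i, RR.ResK (e₂ i)) (i : ι) (p : regSub e₁ e₂) :
    Cong (e₂ i) (p : F₁ × F₂).2 (val₂ e₁ e₂ he₂ i p) :=
  (exists_cong (he₂ i) (p.2 i).2).choose_spec

theorem cong_one {F : Type*} [Field F] [Algebra K F] (P : Place K F) : Cong P (1 : F) (1 : K) := by
  have := cong_algebraMap P (1 : K)
  rwa [map_one] at this

/-- Evaluation at the first branch of the node `i`. -/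
def ev₁ (he₁ : ∀ i, RR.ResK (e₁ i)) (i : ι) : regSub e₁ e₂ →ₐ[K] K where
  toFun := val₁ e₁ e₂ he₁ i
  map_one' := (val₁_spec e₁ e₂ he₁ i 1).unique (cong_one _)
  map_mul' p p' := (val₁_spec e₁ e₂ he₁ i (p * p')).unique
    ((val₁_spec e₁ e₂ he₁ i p).mul (val₁_spec e₁ e₂ he₁ i p'))
  map_zero' := (val₁_spec e₁ e₂ he₁ i 0).unique (cong_zero _)
  map_add' p p' := (val₁_spec e₁ e₂ he₁ i (p + p')).unique
    ((val₁_spec e₁ e₂ he₁ i p).add (val₁_spec e₁ e₂ he₁ i p'))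
  commutes' c := (val₁_spec e₁ e₂ he₁ i (algebraMap K _ c)).unique (cong_algebraMap _ c)

/-- Evaluation at the second branch of the node `i`. -/
def ev₂ (he₂ : ∀ i, RR.ResK (e₂ i)) (i : ι) : regSub e₁ e₂ →ₐ[K] K where
  toFun := val₂ e₁ e₂ he₂ i
  map_one' := (val₂_spec e₁ e₂ he₂ i 1).unique (cong_one _)
  map_mul' p p' := (val₂_spec e₁ e₂ he₂ i (p * p')).unique
    ((val₂_spec e₁ e₂ he₂ i p).mul (val₂_spec e₁ e₂ he₂ i p'))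
  map_zero' := (val₂_spec e₁ e₂ he₂ i 0).unique (cong_zero _)
  map_add' p p' := (val₂_spec e₁ e₂ he₂ i (p + p')).unique
    ((val₂_spec e₁ e₂ he₂ i p).add (val₂_spec e₁ e₂ he₂ i p'))
  commutes' c := (val₂_spec e₁ e₂ he₂ i (algebraMap K _ c)).unique (cong_algebraMap _ c)

theorem ev₁_spec (he₁ : ∀ i, RR.ResK (e₁ i)) (i : ι) (p : regSub e₁ e₂) :
    Cong (e₁ i) (p : F₁ × F₂).1 (ev₁ e₁ e₂ he₁ i p) := val₁_spec e₁ e₂ he₁ i p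

theorem ev₂_spec (he₂ : ∀ i, RR.ResK (e₂ i)) (i : ι) (p : regSub e₁ e₂) :
    Cong (e₂ i) (p : F₁ × F₂).2 (ev₂ e₁ e₂ he₂ i p) := val₂_spec e₁ e₂ he₂ i p

theorem ev₁_eq_iff (he₁ : ∀ i, RR.ResK (e₁ i)) (i : ι) (p : regSub e₁ e₂) (c : K) :
    ev₁ e₁ e₂ he₁ i p = c ↔ Cong (e₁ i) (p : F₁ × F₂).1 c :=
  ⟨fun h => h ▸ ev₁_spec e₁ e₂ he₁ i p, fun h => (ev₁_spec e₁ e₂ he₁ i p).unique h⟩

theorem ev₂_eq_iff (he₂ : ∀ i, RR.ResK (e₂ i)) (i : ι) (p : regSub e₁ e₂) (c : K) :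
    ev₂ e₁ e₂ he₂ i p = c ↔ Cong (e₂ i) (p : F₁ × F₂).2 c :=
  ⟨fun h => h ▸ ev₂_spec e₁ e₂ he₂ i p, fun h => (ev₂_spec e₁ e₂ he₂ i p).unique h⟩

/-- `L(B₁) × L(B₂)` consists of pairs regular at the nodes when `B_j (e_j i) ≤ 0`. -/
theorem prod_le_regSub (B₁ : Divisor K F₁) (B₂ : Divisor K F₂) (hB₁ : ∀ i, B₁ (e₁ i) ≤ 0)
    (hB₂ : ∀ i, B₂ (e₂ i) ≤ 0) :
    (riemannRochSpace B₁).prod (riemannRochSpace B₂) ≤
      Subalgebra.toSubmodule (regSub e₁ e₂) := by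
  rintro p ⟨h1, h2⟩ i
  exact ⟨le_one_of_mem_L (hB₁ i) h1, le_one_of_mem_L (hB₂ i) h2⟩

/-- **Bridge**: the glued space of `Nodal.lean` is the glued space of `NodalRiemann.lean`. -/
theorem glued_eq_gluedSpace (he₁ : ∀ i, RR.ResK (e₁ i)) (he₂ : ∀ i, RR.ResK (e₂ i))
    (μ : ι → K) (B₁ : Divisor K F₁) (B₂ : Divisor K F₂) (hB₁ : ∀ i, B₁ (e₁ i) ≤ 0)
    (hB₂ : ∀ i, B₂ (e₂ i) ≤ 0) :
    Glued (regSub e₁ e₂) (ev₁ e₁ e₂ he₁) (ev₂ e₁ e₂ he₂) μ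
        ((riemannRochSpace B₁).prod (riemannRochSpace B₂)) = gluedSpace e₁ e₂ μ B₁ B₂ := by
  ext p
  constructor
  · rintro ⟨⟨h1, h2⟩, h, he⟩
    refine ⟨h1, h2, fun i => ⟨ev₁ e₁ e₂ he₁ i ⟨p, h⟩, ev₁_spec e₁ e₂ he₁ i ⟨p, h⟩, ?_⟩⟩
    rw [← he i]
    exact ev₂_spec e₁ e₂ he₂ i ⟨p, h⟩
  · rintro ⟨h1, h2, h3⟩
    have h : p ∈ regSub e₁ e₂ := prod_le_regSub e₁ e₂ B₁ B₂ hB₁ hB₂ ⟨h1, h2⟩
    refine ⟨⟨h1, h2⟩, h, fun i => ?_⟩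
    obtain ⟨c, hc1, hc2⟩ := h3 i
    rw [(ev₁_eq_iff e₁ e₂ he₁ i ⟨p, h⟩ c).2 hc1, (ev₂_eq_iff e₁ e₂ he₂ i ⟨p, h⟩ (μ i * c)).2 hc2]

end ev

/-! ### The spaces `T n₁ n₂` -/

section T

/-- `L(n₁ P₁ + n₂ Z₁) × L(n₁ P₂ + n₂ Z₂)`. -/
def Tn (P₁ Z₁ : Divisor K F₁) (P₂ Z₂ : Divisor K F₂) (n₁ n₂ : ℕ) : Submodule K (F₁ × F₂) :=
  (riemannRochSpace (n₁ • P₁ + n₂ • Z₁)).prod (riemannRochSpace (n₁ • P₂ + n₂ • Z₂))

theorem mem_Tn {P₁ Z₁ : Divisor K F₁} {P₂ Z₂ : Divisor K F₂} {n₁ n₂ : ℕ} {p : F₁ × F₂} :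
    p ∈ Tn P₁ Z₁ P₂ Z₂ n₁ n₂ ↔
      (∀ v : Place K F₁, v.adicValuation p.1 ≤ exp ((n₁ : ℤ) * P₁ v + (n₂ : ℤ) * Z₁ v)) ∧
      (∀ v : Place K F₂, v.adicValuation p.2 ≤ exp ((n₁ : ℤ) * P₂ v + (n₂ : ℤ) * Z₂ v)) := by
  constructor
  · rintro ⟨h1, h2⟩
    refine ⟨fun v => ?_, fun v => ?_⟩
    · have := h1 v
      simpa [Finsupp.add_apply, Finsupp.smul_apply, nsmul_eq_mul] using this
    · have := h2 v
      simpa [Finsupp.add_apply, Finsupp.smul_apply, nsmul_eq_mul] using this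
  · rintro ⟨h1, h2⟩
    refine ⟨fun v => ?_, fun v => ?_⟩
    · have := h1 v
      simpa [Finsupp.add_apply, Finsupp.smul_apply, nsmul_eq_mul] using this
    · have := h2 v
      simpa [Finsupp.add_apply, Finsupp.smul_apply, nsmul_eq_mul] using this

variable {x₁ : F₁} {x₂ : F₂}

theorem finite_Tn (h₁ : IsFF1 K F₁ x₁) (h₂ : IsFF1 K F₂ x₂) (P₁ Z₁ : Divisor K F₁)
    (P₂ Z₂ : Divisor K F₂) (n₁ n₂ : ℕ) : FiniteDimensional K (Tn P₁ Z₁ P₂ Z₂ n₁ n₂) := by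
  have f1 := h₁.finite_L (n₁ • P₁ + n₂ • Z₁)
  have f2 := h₂.finite_L (n₁ • P₂ + n₂ • Z₂)
  exact Module.Finite.iff_fg.2 (Submodule.FG.prod (Module.Finite.iff_fg.1 f1)
    (Module.Finite.iff_fg.1 f2))

omit [Field K] [Algebra K F₁] [Algebra K F₂] in
theorem glued_inf_le {k Ft σ : Type*} [Field k] [CommRing Ft] [Algebra k Ft]
    (Rn : Subalgebra k Ft) (ev1 ev2 : σ → Rn →ₐ[k] k) (μ : σ → k) {T T' T'' : Submodule k Ft}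
    (h : T ⊓ T' ≤ T'') : Glued Rn ev1 ev2 μ T ⊓ Glued Rn ev1 ev2 μ T' ≤ Glued Rn ev1 ev2 μ T'' := by
  rintro t ⟨⟨h1, hr, he⟩, ⟨h2, -, -⟩⟩
  exact ⟨h ⟨h1, h2⟩, hr, he⟩

variable (e₁ : ι → Place K F₁) (e₂ : ι → Place K F₂)
variable (P₁ Z₁ : Divisor K F₁) (P₂ Z₂ : Divisor K F₂)

/-- `hTR`. -/
theorem Tn_le_regSub (hP₁ : ∀ i, P₁ (e₁ i) = 0) (hZ₁ : ∀ i, Z₁ (e₁ i) = 0)
    (hP₂ : ∀ i, P₂ (e₂ i) = 0) (hZ₂ : ∀ i, Z₂ (e₂ i) = 0) (n₁ n₂ : ℕ) :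
    Tn P₁ Z₁ P₂ Z₂ n₁ n₂ ≤ Subalgebra.toSubmodule (regSub e₁ e₂) :=
  prod_le_regSub e₁ e₂ _ _
    (fun i => by simp [Finsupp.add_apply, Finsupp.smul_apply, hP₁ i, hZ₁ i])
    (fun i => by simp [Finsupp.add_apply, Finsupp.smul_apply, hP₂ i, hZ₂ i])

/-- `hTroot`. -/
theorem Tn_root {m : ℕ} (hm : m ≠ 0) (n₁ n₂ : ℕ) (t : F₁ × F₂)
    (h : t ^ m ∈ Tn P₁ Z₁ P₂ Z₂ (m * n₁) (m * n₂)) : t ∈ Tn P₁ Z₁ P₂ Z₂ n₁ n₂ := by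
  rw [mem_Tn] at h ⊢
  refine ⟨fun v => ?_, fun v => ?_⟩
  · have h1 := h.1 v
    rw [Prod.pow_fst, map_pow] at h1
    have e : exp (((m * n₁ : ℕ) : ℤ) * P₁ v + ((m * n₂ : ℕ) : ℤ) * Z₁ v)
        = exp ((n₁ : ℤ) * P₁ v + (n₂ : ℤ) * Z₁ v) ^ m := by
      rw [← exp_nsmul]; congr 1; push_cast; rw [nsmul_eq_mul]; ring
    rw [e] at h1
    exact le_of_pow_le_pow_left₀ hm zero_le h1
  · have h1 := h.2 v
    rw [Prod.pow_snd, map_pow] at h1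
    have e : exp (((m * n₁ : ℕ) : ℤ) * P₂ v + ((m * n₂ : ℕ) : ℤ) * Z₂ v)
        = exp ((n₁ : ℤ) * P₂ v + (n₂ : ℤ) * Z₂ v) ^ m := by
      rw [← exp_nsmul]; congr 1; push_cast; rw [nsmul_eq_mul]; ring
    rw [e] at h1
    exact le_of_pow_le_pow_left₀ hm zero_le h1

/-- `hH2` (pole orders: `L(K P) ∩ L(N P + K Z) ⊆ L(N P)` for disjoint `P`, `Z`). -/
theorem Tn_inf_le (hd₁ : ∀ v, P₁ v = 0 ∨ Z₁ v = 0) (hd₂ : ∀ v, P₂ v = 0 ∨ Z₂ v = 0)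
    (N M : ℕ) :
    Tn P₁ Z₁ P₂ Z₂ M 0 ⊓ Tn P₁ Z₁ P₂ Z₂ N M ≤ Tn P₁ Z₁ P₂ Z₂ N 0 := by
  rintro p ⟨h1, h2⟩
  have h1 := mem_Tn.1 h1
  have h2 := mem_Tn.1 h2
  rw [mem_Tn]
  refine ⟨fun v => ?_, fun v => ?_⟩
  · rcases hd₁ v with h0 | h0
    · have := h1.1 v
      rw [h0] at this ⊢
      simpa using this
    · have := h2.1 v
      rw [h0] at this
      simpa using this
  · rcases hd₂ v with h0 | h0
    · have := h1.2 v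
      rw [h0] at this ⊢
      simpa using this
    · have := h2.2 v
      rw [h0] at this
      simpa using this

/-- `hH2'`. -/
theorem Tn_inf_le' (hd₁ : ∀ v, P₁ v = 0 ∨ Z₁ v = 0) (hd₂ : ∀ v, P₂ v = 0 ∨ Z₂ v = 0)
    (N M : ℕ) :
    Tn P₁ Z₁ P₂ Z₂ 0 M ⊓ Tn P₁ Z₁ P₂ Z₂ M N ≤ Tn P₁ Z₁ P₂ Z₂ 0 N := by
  rintro p ⟨h1, h2⟩
  have h1 := mem_Tn.1 h1
  have h2 := mem_Tn.1 h2
  rw [mem_Tn]
  refine ⟨fun v => ?_, fun v => ?_⟩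
  · rcases hd₁ v with h0 | h0
    · have := h2.1 v
      rw [h0] at this
      simpa using this
    · have := h1.1 v
      rw [h0] at this ⊢
      simpa using this
  · rcases hd₂ v with h0 | h0
    · have := h2.2 v
      rw [h0] at this
      simpa using this
    · have := h1.2 v
      rw [h0] at this ⊢
      simpa using this

/-- `T n 0 ⊓ T 0 n ⊆ L(0) × L(0)`. -/
theorem Tn_inf_le_zero (hd₁ : ∀ v, P₁ v = 0 ∨ Z₁ v = 0) (hd₂ : ∀ v, P₂ v = 0 ∨ Z₂ v = 0)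
    (n : ℕ) :
    Tn P₁ Z₁ P₂ Z₂ n 0 ⊓ Tn P₁ Z₁ P₂ Z₂ 0 n ≤
      (riemannRochSpace (0 : Divisor K F₁)).prod (riemannRochSpace (0 : Divisor K F₂)) := by
  rintro p ⟨h1, h2⟩
  have h1 := mem_Tn.1 h1
  have h2 := mem_Tn.1 h2
  refine ⟨fun v => ?_, fun v => ?_⟩
  · rcases hd₁ v with h0 | h0
    · have := h1.1 v
      rw [h0] at this
      simpa using this
    · have := h2.1 v
      rw [h0] at this
      simpa using this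
  · rcases hd₂ v with h0 | h0
    · have := h1.2 v
      rw [h0] at this
      simpa using this
    · have := h2.2 v
      rw [h0] at this
      simpa using this

variable {e₁ e₂ P₁ Z₁ P₂ Z₂}

/-- `hH3`: the nodal curve is connected (at least one node). -/
theorem glued_zero_le_span [Nonempty ι] (h₁ : IsFF1 K F₁ x₁) (h₂ : IsFF1 K F₂ x₂)
    (hd₁ : ∀ v, P₁ v = 0 ∨ Z₁ v = 0) (hd₂ : ∀ v, P₂ v = 0 ∨ Z₂ v = 0) (n : ℕ) :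
    Glued (regSub e₁ e₂) (ev₁ e₁ e₂ (fun _ => h₁.resK _)) (ev₂ e₁ e₂ (fun _ => h₂.resK _)) 1
        (Tn P₁ Z₁ P₂ Z₂ n 0) ⊓
      Glued (regSub e₁ e₂) (ev₁ e₁ e₂ (fun _ => h₁.resK _)) (ev₂ e₁ e₂ (fun _ => h₂.resK _)) 1
        (Tn P₁ Z₁ P₂ Z₂ 0 n) ≤ Submodule.span K {(1 : F₁ × F₂)} := by
  intro p hp
  have h0 := glued_inf_le (regSub e₁ e₂) (ev₁ e₁ e₂ (fun _ => h₁.resK _))
    (ev₂ e₁ e₂ (fun _ => h₂.resK _)) 1 (Tn_inf_le_zero P₁ Z₁ P₂ Z₂ hd₁ hd₂ n) hp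
  rw [glued_eq_gluedSpace e₁ e₂ _ _ 1 0 0 (fun i => by simp) (fun i => by simp)] at h0
  obtain ⟨a, rfl⟩ := (gluedSpace_zero_one h₁ h₂ e₁ e₂).1 h0
  rw [Submodule.mem_span_singleton]
  exact ⟨a, by rw [Algebra.smul_def, mul_one, Prod.algebraMap_apply]⟩

/-- `hTsurj`: the values at the nodes of the elements of `T n₀ 0` are arbitrary as soon as
`H¹(n₀ P_j - ∑ e_j i) = 0`. -/
theorem Tn_surj [Fintype ι] (he₁ : ∀ i, RR.ResK (e₁ i)) (he₂ : ∀ i, RR.ResK (e₂ i))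
    (hinj₁ : Function.Injective e₁) (hinj₂ : Function.Injective e₂)
    (hP₁ : ∀ i, P₁ (e₁ i) = 0) (hP₂ : ∀ i, P₂ (e₂ i) = 0) (n₀ : ℕ)
    (hMD₁ : RR.MD (n₀ • P₁ - ∑ i, Finsupp.single (e₁ i) (1 : ℤ)) = ⊤)
    (hMD₂ : RR.MD (n₀ • P₂ - ∑ i, Finsupp.single (e₂ i) (1 : ℤ)) = ⊤) (a b : ι → K) :
    ∃ t, t ∈ Tn P₁ Z₁ P₂ Z₂ n₀ 0 ∧ ∀ (hmem : t ∈ regSub e₁ e₂) (i : ι),
      ev₁ e₁ e₂ he₁ i ⟨t, hmem⟩ = a i ∧ ev₂ e₁ e₂ he₂ i ⟨t, hmem⟩ = b i := by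
  obtain ⟨f, hf, hfa⟩ := exists_mem_L_cong e₁ hinj₁ (n₀ • P₁)
    (fun i => by simp [Finsupp.smul_apply, hP₁ i]) hMD₁ a
  obtain ⟨g, hg, hgb⟩ := exists_mem_L_cong e₂ hinj₂ (n₀ • P₂)
    (fun i => by simp [Finsupp.smul_apply, hP₂ i]) hMD₂ b
  refine ⟨(f, g), ⟨?_, ?_⟩, fun hmem i => ⟨?_, ?_⟩⟩
  · show f ∈ riemannRochSpace (n₀ • P₁ + 0 • Z₁)
    rw [zero_smul, add_zero]; exact hf
  · show g ∈ riemannRochSpace (n₀ • P₂ + 0 • Z₂)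
    rw [zero_smul, add_zero]; exact hg
  · exact (ev₁_eq_iff e₁ e₂ he₁ i ⟨(f, g), hmem⟩ (a i)).2 (hfa i)
  · exact (ev₂_eq_iff e₁ e₂ he₂ i ⟨(f, g), hmem⟩ (b i)).2 (hgb i)

end T

end Fermat.Agent.BAD.NodalBridge
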