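import Mathlib
import Fermat.Agent.BAD.Nodal
import Fermat.Agent.Lib.FF.RRApprox
import Fermat.Agent.Lib.Red.TorsionOneStep
import Fermat.Prelude.Def_AlgebraicCurve_BaseChangeGalois

/-!
# BAD-U at the level of divisors and of `Pic⁰`

The abstract nodal deformation theorem `Nodal.exists_common_of_nodal`, instantiated with the
Riemann–Roch spaces `VB D E1 E2 n₁ n₂ = L(D + n₁ E1 + n₂ E2)` of a function field `F/L`
(Prelude `Place` / `Divisor` / `riemannRochSpace`, setting `IsFF1`) and a semilinear automorphism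
`g'` of `F/L` preserving `O`, acting trivially on reductions and fixing `E1`, `E2`:

* `principal_smul_sub` : if `m D = div f2` with `f2` a unit of `O` whose reduction is an `m`-th
  power of a unit `u` (`Normalized`), then `g' • D - D` is principal;
* `monodromy_pic0` : hence `(g' - 1)(g - 1) x = 0` for every `x ∈ Pic⁰(F)` with `m x = 0`, as
  soon as the Kummer generators `g f₀ / f₀` can be normalised.
-/

set_option autoImplicit false

namespace Fermat.Agent.BAD.NodalDiv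

open AlgebraicCurve WithZero Fermat.Agent.Lib.FF Fermat.Agent.Lib.Red.Deform
  Fermat.Agent.Lib.Red.CoordLat Fermat.Agent.BAD.Nodal Fermat.Agent.Lib.Red.OneStep

variable {L F : Type*} [Field L] [Field F] [Algebra L F]

/-- `L(D + n₁ E₁ + n₂ E₂)`. -/
noncomputable def VB (D E1 E2 : Divisor L F) (n₁ n₂ : ℕ) : Submodule L F :=
  riemannRochSpace (D + n₁ • E1 + n₂ • E2)

theorem mem_VB {D E1 E2 : Divisor L F} {n₁ n₂ : ℕ} {f : F} :
    f ∈ VB D E1 E2 n₁ n₂ ↔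
      ∀ v : Place L F, f = 0 ∨ -(D v + (n₁ : ℤ) * E1 v + (n₂ : ℤ) * E2 v) ≤ v.ord f := by
  unfold VB
  rw [mem_riemannRochSpace_iff]
  simp only [Finsupp.add_apply, Finsupp.smul_apply, nsmul_eq_mul]

theorem VB_mono {D E1 E2 : Divisor L F} (hE1 : ∀ v, 0 ≤ E1 v) (hE2 : ∀ v, 0 ≤ E2 v)
    {n₁ n₂ n₁' n₂' : ℕ} (h1 : n₁ ≤ n₁') (h2 : n₂ ≤ n₂') :
    VB D E1 E2 n₁ n₂ ≤ VB D E1 E2 n₁' n₂' := by
  intro f hf
  rw [mem_VB] at hf ⊢
  intro v
  rcases hf v with h | h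
  · exact Or.inl h
  · right
    have e1 : (n₁ : ℤ) * E1 v ≤ (n₁' : ℤ) * E1 v :=
      mul_le_mul_of_nonneg_right (Nat.cast_le.2 h1) (hE1 v)
    have e2 : (n₂ : ℤ) * E2 v ≤ (n₂' : ℤ) * E2 v :=
      mul_le_mul_of_nonneg_right (Nat.cast_le.2 h2) (hE2 v)
    linarith

theorem one_mem_VB (E1 E2 : Divisor L F) : (1 : F) ∈ VB 0 E1 E2 0 0 := by
  rw [mem_VB]
  intro v
  right
  simp

theorem mul_mem_VB {D D' E1 E2 : Divisor L F} {n₁ n₂ n₁' n₂' : ℕ} {s η : F}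
    (hs : s ∈ VB D E1 E2 n₁ n₂) (hη : η ∈ VB D' E1 E2 n₁' n₂') :
    s * η ∈ VB (D + D') E1 E2 (n₁ + n₁') (n₂ + n₂') := by
  rw [mem_VB] at hs hη ⊢
  intro v
  by_cases hs0 : s = 0
  · left; rw [hs0, zero_mul]
  by_cases hη0 : η = 0
  · left; rw [hη0, mul_zero]
  right
  have h1 := (hs v).resolve_left hs0
  have h2 := (hη v).resolve_left hη0
  rw [v.ord_mul hs0 hη0, Finsupp.add_apply]
  push_cast
  linarith

theorem pow_mul_mem_VB {D E1 E2 : Divisor L F} {m : ℕ} (hm : m ≠ 0) {f : F} (hf : f ≠ 0)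
    (hdiv : ∀ P : Place L F, (m : ℤ) * D P = P.ord f) {n₁ n₂ : ℕ} {s : F}
    (hs : s ∈ VB D E1 E2 n₁ n₂) : s ^ m * f ∈ VB 0 E1 E2 (m * n₁) (m * n₂) := by
  rw [mem_VB] at hs ⊢
  intro v
  by_cases hs0 : s = 0
  · left; rw [hs0, zero_pow hm, zero_mul]
  right
  have h1 := (hs v).resolve_left hs0
  have h2 : (m : ℤ) * -(D v + (n₁ : ℤ) * E1 v + (n₂ : ℤ) * E2 v) ≤ (m : ℤ) * v.ord s :=
    mul_le_mul_of_nonneg_left h1 (Nat.cast_nonneg m)
  rw [v.ord_mul (pow_ne_zero m hs0) hf, ord_npow, ← hdiv v, Finsupp.zero_apply]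
  push_cast
  linarith

theorem smul_inv_mem_VB (g : SemilinearAut L F) {D E1 E2 : Divisor L F} (hg1 : g • E1 = E1)
    (hg2 : g • E2 = E2) {n₁ n₂ : ℕ} {s : F} (hs : s ∈ VB (g • D) E1 E2 n₁ n₂) :
    g⁻¹ • s ∈ VB D E1 E2 n₁ n₂ := by
  rw [mem_VB] at hs ⊢
  intro v
  by_cases hs0 : s = 0
  · left; rw [hs0, smul_zero]
  right
  have h1 := (hs (g • v)).resolve_left hs0
  have e0 : (g • D) (g • v) = D v := SemilinearAut.divisor_smul_apply_smul g D v
  have e1 : E1 (g • v) = E1 v := by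
    conv_lhs => rw [← hg1]
    exact SemilinearAut.divisor_smul_apply_smul g E1 v
  have e2 : E2 (g • v) = E2 v := by
    conv_lhs => rw [← hg2]
    exact SemilinearAut.divisor_smul_apply_smul g E2 v
  have e3 : v.ord (g⁻¹ • s) = (g • v).ord s := by
    have := SemilinearAut.ord_smul g v (g⁻¹ • s)
    rw [smul_inv_smul] at this
    exact this.symm
  rw [e0, e1, e2] at h1
  rw [e3]
  exact h1

variable {x : F}

/-- Riemann's theorem: `l(D + B) = l(B)` for `deg D = 0` and `deg B` large. -/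
theorem exists_finrank_eq (hF : IsFF1 L F x) :
    ∃ c : ℤ, ∀ D B : Divisor L F, Divisor.degree D = 0 → c ≤ Divisor.degree B →
      Module.finrank L (riemannRochSpace (D + B)) = Module.finrank L (riemannRochSpace B) := by
  obtain ⟨c, hc⟩ := hF.exists_degree_bound
  refine ⟨c, fun D B hD hB => ?_⟩
  have h1 := (hc B hB).2
  have h2 := (hc (D + B) (by rw [map_add, hD, zero_add]; exact hB)).2
  rw [map_add, hD, zero_add] at h2
  have : (Module.finrank L (riemannRochSpace (D + B)) : ℤ)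
      = Module.finrank L (riemannRochSpace B) := by rw [h1, h2]
  exact_mod_cast this

/-- A divisor `D` of degree zero with a nonzero function in `L(D + n E1) ∩ L(D + n E2)`
(`E1`, `E2` with disjoint supports) is principal. -/
theorem principal_of_common (hF : IsFF1 L F x) {D E1 E2 : Divisor L F}
    (hdisj : ∀ v, E1 v = 0 ∨ E2 v = 0) (hD : Divisor.degree D = 0) {n : ℕ} {s : F}
    (hs0 : s ≠ 0) (h1 : s ∈ VB D E1 E2 n 0) (h2 : s ∈ VB D E1 E2 0 n) :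
    ∃ φ : F, φ ≠ 0 ∧ ∀ P : Place L F, D P = P.ord φ := by
  classical
  have := hF.hasPrincipalDivisors
  rw [mem_VB] at h1 h2
  have hnn : ∀ v : Place L F, 0 ≤ v.ord s + D v := by
    intro v
    have a1 := (h1 v).resolve_left hs0
    have a2 := (h2 v).resolve_left hs0
    rcases hdisj v with h0 | h0
    · rw [h0] at a1; simp at a1; linarith
    · rw [h0] at a2; simp at a2; linarith
  obtain ⟨Ds, hDs, hDsdeg⟩ := HasPrincipalDivisors.exists_divisor (K := L) s hs0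
  have hE : ∀ v, 0 ≤ (Ds + D) v := fun v => by
    rw [Finsupp.add_apply, hDs v]; exact hnn v
  have hEdeg : Divisor.degree (Ds + D) = 0 := by rw [map_add, hDsdeg, hD, add_zero]
  rw [hF.degree_eq_sum] at hEdeg
  have hzero : ∀ v, (Ds + D) v = 0 := by
    intro v
    by_cases hv : v ∈ (Ds + D).support
    · exact (Finset.sum_eq_zero_iff_of_nonneg (fun w _ => hE w)).1 hEdeg v hv
    · exact Finsupp.notMem_support_iff.1 hv
  refine ⟨s⁻¹, inv_ne_zero hs0, fun P => ?_⟩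
  have := hzero P
  rw [Finsupp.add_apply, hDs P] at this
  rw [P.ord_inv]
  linarith

section main

variable {A : ValuationSubring L} {O : Subring F}
variable {k Ft : Type*} [Field k] [CommRing Ft] [Algebra k Ft]

/-- `f` is a unit of `O` whose reduction is the `m`-th power of a unit of `Ft`. -/
def Normalized (red : O →+* Ft) (m : ℕ) (f : F) : Prop :=
  ∃ h : f ∈ O, f⁻¹ ∈ O ∧ ∃ u u' : Ft, u * u' = 1 ∧ u ^ m = red ⟨f, h⟩

/-- **BAD-U, divisor level.**  With the data of `Nodal.exists_common_of_nodal` for the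
Riemann–Roch spaces `L(D + n₁ E1 + n₂ E2)`: if `m D = div f2` with `f2` normalised and `g'`
preserves `O`, is trivial on reductions and fixes `E1`, `E2`, then `g' • D - D` is principal. -/
theorem principal_smul_sub
    (hOA : ∀ x : L, algebraMap L F x ∈ O ↔ x ∈ A)
    (hval : ∀ y : F, y ≠ 0 → ∃ c : L, c ≠ 0 ∧ algebraMap L F c * y ∈ O ∧
      ¬ Small A O (algebraMap L F c * y))
    (harch : ∀ a Δ : L, A.valuation a < 1 → Δ ≠ 0 →
      ∃ n : ℕ, A.valuation (a ^ n) < A.valuation Δ)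
    (red : O →+* Ft) (π : A →+* k) (hπ : Function.Surjective π)
    (hπker : ∀ a : A, π a = 0 ↔ A.valuation (a : L) < 1)
    (hconst : ∀ a : A, red ⟨algebraMap L F (a : L), (hOA _).2 a.2⟩ = algebraMap k Ft (π a))
    (hker : ∀ y : O, red y = 0 ↔ Small A O (y : F))
    (m : ℕ) (hm : A.valuation (m : L) = 1)
    {σ : Type*} [Fintype σ] (Rn : Subalgebra k Ft) (ev1 ev2 : σ → Rn →ₐ[k] k)
    (T : ℕ → ℕ → Submodule k Ft) (hTfin : ∀ n₁ n₂, FiniteDimensional k (T n₁ n₂))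
    (hTR : ∀ n₁ n₂, T n₁ n₂ ≤ Subalgebra.toSubmodule Rn)
    (hTroot : ∀ n₁ n₂ (t : Ft), t ^ m ∈ T (m * n₁) (m * n₂) → t ∈ T n₁ n₂)
    (n₀ : ℕ)
    (hTsurj : ∀ a b : σ → k, ∃ t, ∃ h : t ∈ T n₀ 0,
      ∀ e, ev1 e ⟨t, hTR n₀ 0 h⟩ = a e ∧ ev2 e ⟨t, hTR n₀ 0 h⟩ = b e)
    (hH2 : ∀ K, n₀ ≤ K → Glued Rn ev1 ev2 1 (T K 0) ⊓ Glued Rn ev1 ev2 1 (T n₀ K) ≤
      Glued Rn ev1 ev2 1 (T n₀ 0))
    (hH2' : ∀ K, n₀ ≤ K → Glued Rn ev1 ev2 1 (T 0 K) ⊓ Glued Rn ev1 ev2 1 (T K n₀) ≤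
      Glued Rn ev1 ev2 1 (T 0 n₀))
    (hH3 : ∀ n, Glued Rn ev1 ev2 1 (T n 0) ⊓ Glued Rn ev1 ev2 1 (T 0 n) ≤
      Submodule.span k {(1 : Ft)})
    -- the generic fibre
    (hF : IsFF1 L F x) (E1 E2 : Divisor L F) (hE1 : ∀ v, 0 ≤ E1 v) (hE2 : ∀ v, 0 ≤ E2 v)
    (hdisj : ∀ v, E1 v = 0 ∨ E2 v = 0)
    (hlat : ∀ B : Divisor L F, HasOrtho A O (riemannRochSpace B))
    (hS2 : ∀ n₁ n₂, n₀ ≤ n₁ + n₂ →
      redSub hOA red π hπ hconst (VB 0 E1 E2 n₁ n₂) = Glued Rn ev1 ev2 1 (T n₁ n₂))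
    (hRR : ∀ n₁ n₂, n₀ ≤ n₁ + n₂ → ∀ D : Divisor L F, Divisor.degree D = 0 →
      Module.finrank L (VB D E1 E2 n₁ n₂) = Module.finrank L (VB 0 E1 E2 n₁ n₂))
    -- the automorphism
    (g' : SemilinearAut L F) (hgO : ∀ y ∈ O, g' • y ∈ O) (hgO' : ∀ y ∈ O, g'⁻¹ • y ∈ O)
    (hgred : ∀ (y : O) (h : g' • (y : F) ∈ O), red ⟨g' • (y : F), h⟩ = red y)
    (hgE1 : g' • E1 = E1) (hgE2 : g' • E2 = E2)
    -- the divisor
    (D : Divisor L F) (hD : Divisor.degree D = 0) (f2 : F) (hf2 : f2 ≠ 0)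
    (hdiv : ∀ P : Place L F, (m : ℤ) * D P = P.ord f2) (hn : Normalized red m f2) :
    ∃ φ : F, φ ≠ 0 ∧ ∀ P : Place L F, (g' • D - D) P = P.ord φ := by
  classical
  obtain ⟨hf2O, hf2O', u, u', huu', hum⟩ := hn
  have hm0 : m ≠ 0 := by
    rintro rfl
    simp at hm
  -- the divisor `D' = g' D - D` and its Kummer generator
  set D' : Divisor L F := g' • D - D with hD'
  have hD'deg : Divisor.degree D' = 0 := by
    rw [hD', map_sub, SemilinearAut.degree_smul, hD, sub_zero]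
  set f1 : F := g' • f2 * f2⁻¹ with hf1
  have hgf2 : g' • f2 ≠ 0 := by
    intro h0
    apply hf2
    have := congrArg (fun z => g'⁻¹ • z) h0
    simpa using this
  have hf1ne : f1 ≠ 0 := mul_ne_zero hgf2 (inv_ne_zero hf2)
  have hdiv1 : ∀ P : Place L F, (m : ℤ) * D' P = P.ord f1 := by
    intro P
    have e1 : P.ord (g' • f2) = (g'⁻¹ • P).ord f2 := by
      have := SemilinearAut.ord_smul g' (g'⁻¹ • P) f2
      rwa [smul_inv_smul] at this
    rw [hf1, P.ord_mul hgf2 (inv_ne_zero hf2), P.ord_inv, e1, ← hdiv, ← hdiv, hD',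
      Finsupp.sub_apply, SemilinearAut.divisor_smul_apply]
    ring
  have hgf2O : g' • f2 ∈ O := hgO f2 hf2O
  have hf1O : f1 ∈ O := O.mul_mem hgf2O hf2O'
  have hredf1 : red ⟨f1, hf1O⟩ = 1 := by
    have e : (⟨f1, hf1O⟩ : O) = ⟨g' • f2, hgf2O⟩ * ⟨f2⁻¹, hf2O'⟩ := rfl
    have e2 : (⟨f2, hf2O⟩ : O) * ⟨f2⁻¹, hf2O'⟩ = 1 := Subtype.ext (mul_inv_cancel₀ hf2)
    rw [e, map_mul, hgred ⟨f2, hf2O⟩ hgf2O, ← map_mul, e2, map_one]
  have hsmall : Small A O (f1 - 1) := by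
    have : red (⟨f1, hf1O⟩ - 1) = 0 := by rw [map_sub, hredf1, map_one, sub_self]
    exact (hker _).1 this
  -- reductions are invariant under `g'⁻¹`
  have hgred' : ∀ (y : O) (h : g'⁻¹ • (y : F) ∈ O), red ⟨g'⁻¹ • (y : F), h⟩ = red y := by
    intro y h
    have h2 : g' • ((⟨g'⁻¹ • (y : F), h⟩ : O) : F) ∈ O := by
      show g' • g'⁻¹ • (y : F) ∈ O
      rw [smul_inv_smul]; exact y.2
    have := hgred ⟨g'⁻¹ • (y : F), h⟩ h2
    rw [← this]
    congr 1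
    exact Subtype.ext (by show g' • g'⁻¹ • (y : F) = (y : F); rw [smul_inv_smul])
  obtain ⟨s, hs1, hs2, hs0⟩ := exists_common_of_nodal hOA hval harch red π hπ hπker hconst hker
    m hm Rn ev1 ev2 T hTfin hTR hTroot n₀ hTsurj hH2 hH2' hH3
    (VB 0 E1 E2) (VB D' E1 E2) (VB D E1 E2)
    (fun _ _ _ _ h1 h2 => VB_mono hE1 hE2 h1 h2)
    (fun _ _ _ _ h1 h2 => VB_mono hE1 hE2 h1 h2)
    (fun _ _ _ _ h1 h2 => VB_mono hE1 hE2 h1 h2)
    (one_mem_VB E1 E2) (fun _ _ => hlat _) (fun _ _ => hlat _) (fun _ _ => hlat _)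
    hS2 (fun n₁ n₂ h => hRR n₁ n₂ h D' hD'deg) (fun n₁ n₂ h => hRR n₁ n₂ h D hD)
    (fun n₁ n₂ n₁' n₂' s hs η hη => by
      have := mul_mem_VB hs hη
      rwa [add_zero] at this)
    f1 hsmall (fun n₁ n₂ s hs => pow_mul_mem_VB hm0 hf1ne hdiv1 hs)
    ⟨f2, hf2O⟩ u u' huu' hum (fun n₁ n₂ s hs => pow_mul_mem_VB hm0 hf2 hdiv hs)
    (fun n₁ n₂ n₁' n₂' s hs s0 hs0 => by
      have h1 : (s : F) * (s0 : F) ∈ VB (g' • D) E1 E2 (n₁ + n₁') (n₂ + n₂') := by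
        have := mul_mem_VB hs hs0
        rwa [hD', sub_add_cancel] at this
      have h2 := smul_inv_mem_VB g' hgE1 hgE2 h1
      have h3 : g'⁻¹ • ((s : F) * (s0 : F)) ∈ O := hgO' _ (O.mul_mem s.2 s0.2)
      exact ⟨⟨_, h3⟩, h2, hgred' (s * s0) h3⟩)
  exact principal_of_common hF hdisj hD'deg hs0 hs1 hs2

end main

/-! ### The statement on `Pic⁰` -/

section pic

variable {A : ValuationSubring L} {O : Subring F}
variable {k Ft : Type*} [Field k] [CommRing Ft] [Algebra k Ft]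

/-- **BAD-U on `Pic⁰`**: if `g' • D - D` is principal for every degree-zero divisor `D` with a
normalised `m`-th Kummer generator, and the Kummer generators `g f₀ / f₀` can be normalised,
then `(g' - 1)(g - 1) = 0` on the `m`-torsion of `Pic⁰`. -/
theorem monodromy_pic0 (red : O →+* Ft) (m : ℕ) (g g' : SemilinearAut L F)
    (hprin : ∀ D : Divisor L F, Divisor.degree D = 0 → ∀ f2 : F, f2 ≠ 0 →
      (∀ P : Place L F, (m : ℤ) * D P = P.ord f2) → Normalized red m f2 →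
      ∃ φ : F, φ ≠ 0 ∧ ∀ P : Place L F, (g' • D - D) P = P.ord φ)
    (hnorm : ∀ f₀ : F, f₀ ≠ 0 → ∃ c : L, c ≠ 0 ∧
      Normalized red m (algebraMap L F c * (g • f₀) * f₀⁻¹))
    (x : Pic0 L F) (hx : (m : ℤ) • x = 0) :
    g' • g • x - g' • x - g • x + x = 0 := by
  obtain ⟨D₀, rfl⟩ := Pic0.mk_surjective x
  -- `m D₀` is principal
  have hmD : ((m : ℤ) • D₀ : Divisor.degZero (K := L) (F := F)) ∈
      (Divisor.principal (K := L) (F := F)).addSubgroupOf Divisor.degZero := by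
    have : Pic0.mk ((m : ℤ) • D₀) = 0 := hx
    exact (QuotientAddGroup.eq_zero_iff _).1 this
  obtain ⟨f₀, hf₀, hdiv₀⟩ := hmD
  have hdiv₀' : ∀ P : Place L F, (m : ℤ) * (D₀ : Divisor L F) P = P.ord f₀ := by
    intro P
    have := hdiv₀ P
    simpa using this
  obtain ⟨c, hc, hn⟩ := hnorm f₀ hf₀
  have hgf₀ : g • f₀ ≠ 0 := by
    intro h0
    apply hf₀
    have := congrArg (fun z => g⁻¹ • z) h0
    simpa using this
  set D : Divisor L F := g • (D₀ : Divisor L F) - (D₀ : Divisor L F) with hD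
  have hDdeg : Divisor.degree D = 0 := by
    rw [hD, map_sub, SemilinearAut.degree_smul, sub_self]
  have hf2 : algebraMap L F c * (g • f₀) * f₀⁻¹ ≠ 0 :=
    mul_ne_zero (mul_ne_zero ((map_ne_zero _).2 hc) hgf₀) (inv_ne_zero hf₀)
  have hdiv : ∀ P : Place L F, (m : ℤ) * D P = P.ord (algebraMap L F c * (g • f₀) * f₀⁻¹) := by
    intro P
    have e1 : P.ord (g • f₀) = (g⁻¹ • P).ord f₀ := by
      have := SemilinearAut.ord_smul g (g⁻¹ • P) f₀
      rwa [smul_inv_smul] at this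
    rw [P.ord_mul (mul_ne_zero ((map_ne_zero _).2 hc) hgf₀) (inv_ne_zero hf₀), P.ord_inv,
      ord_const_mul P hc, e1, ← hdiv₀', ← hdiv₀', hD, Finsupp.sub_apply,
      SemilinearAut.divisor_smul_apply]
    ring
  obtain ⟨φ, hφ, hφD⟩ := hprin D hDdeg _ hf2 hdiv hn
  -- conclude in `Pic⁰`
  have key : g' • g • Pic0.mk D₀ - g' • Pic0.mk D₀ - g • Pic0.mk D₀ + Pic0.mk D₀
      = Pic0.mk (SemilinearAut.degZeroSMulHom g' (SemilinearAut.degZeroSMulHom g D₀)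
          - SemilinearAut.degZeroSMulHom g' D₀ - SemilinearAut.degZeroSMulHom g D₀ + D₀) := by
    rw [SemilinearAut.pic0_smul_mk, SemilinearAut.pic0_smul_mk, SemilinearAut.pic0_smul_mk]
    rfl
  rw [key]
  apply (QuotientAddGroup.eq_zero_iff _).2
  refine ⟨φ, hφ, fun P => ?_⟩
  rw [← hφD P]
  show (g' • g • (D₀ : Divisor L F) - g' • (D₀ : Divisor L F) - g • (D₀ : Divisor L F)
    + (D₀ : Divisor L F)) P = (g' • D - D) P
  rw [hD, smul_sub]
  congr 1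
  abel

end pic

end Fermat.Agent.BAD.NodalDiv
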