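import Mathlib
import Fermat.Agent.BAD.Nodal
import Fermat.Agent.BAD.NodalBridge
import Fermat.Agent.BAD.NodalDiv

/-!
# BAD-U from a nodal special fibre with two components (assembly)

`monodromy_of_nodal_fibre` combines `NodalBridge` (special fibre = two `IsFF1` function fields
`F₁`, `F₂` over `k` glued along the pairs of places `(e₁ i, e₂ i)`) with `NodalDiv`
(`principal_smul_sub`, `monodromy_pic0`) and chooses the threshold `n₀`.

Remaining inputs, all hypothesis-shaped: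
* base (two-valuation layer): `hOA`, `hval`, `harch`, `red : O →+* F₁ × F₂`, `π`, `hconst`, `hker`;
* lattices: `hlat : ∀ B, HasOrtho A O (riemannRochSpace B)`;
* saturation: `hS2` — eventually, the reduction of `L(n₁ E1 + n₂ E2) ∩ O` is the glued space
  `gluedSpace e₁ e₂ 1 (n₁ P₁ + n₂ Z₁) (n₁ P₂ + n₂ Z₂)`;
* Galois: `g'` preserves `O`, is trivial on reductions, fixes `E1`, `E2`; the Kummer generators
  `g f₀ / f₀` can be normalised.
-/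

set_option autoImplicit false

namespace Fermat.Agent.BAD.NodalAsm

open AlgebraicCurve WithZero Fermat.Agent.Lib.FF Fermat.Agent.Lib.Red.Deform
  Fermat.Agent.Lib.Red.CoordLat Fermat.Agent.BAD.Nodal Fermat.Agent.BAD.NodalBridge
  Fermat.Agent.BAD.NodalDiv Fermat.Agent.BAD.NodalRiemann

variable {L F : Type*} [Field L] [Field F] [Algebra L F]
variable {A : ValuationSubring L} {O : Subring F}
variable {k F₁ F₂ : Type*} [Field k] [Field F₁] [Field F₂] [Algebra k F₁] [Algebra k F₂]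

/-- **BAD-U from a nodal special fibre** (two components). -/
theorem monodromy_of_nodal_fibre
    (hOA : ∀ x : L, algebraMap L F x ∈ O ↔ x ∈ A)
    (hval : ∀ y : F, y ≠ 0 → ∃ c : L, c ≠ 0 ∧ algebraMap L F c * y ∈ O ∧
      ¬ Small A O (algebraMap L F c * y))
    (harch : ∀ a Δ : L, A.valuation a < 1 → Δ ≠ 0 →
      ∃ n : ℕ, A.valuation (a ^ n) < A.valuation Δ)
    (red : O →+* F₁ × F₂) (π : A →+* k) (hπ : Function.Surjective π)
    (hπker : ∀ a : A, π a = 0 ↔ A.valuation (a : L) < 1)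
    (hconst : ∀ a : A, red ⟨algebraMap L F (a : L), (hOA _).2 a.2⟩
      = algebraMap k (F₁ × F₂) (π a))
    (hker : ∀ y : O, red y = 0 ↔ Small A O (y : F))
    (m : ℕ) (hm : A.valuation (m : L) = 1)
    -- the three function fields
    {x : F} (hF : IsFF1 L F x) {x₁ : F₁} (h₁ : IsFF1 k F₁ x₁) {x₂ : F₂} (h₂ : IsFF1 k F₂ x₂)
    -- the nodes
    {ι : Type*} [Fintype ι] [Nonempty ι] (e₁ : ι → Place k F₁) (e₂ : ι → Place k F₂)
    (hinj₁ : Function.Injective e₁) (hinj₂ : Function.Injective e₂)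
    -- the divisors on the special fibre
    (P₁ Z₁ : Divisor k F₁) (P₂ Z₂ : Divisor k F₂)
    (hP₁ : ∀ i, P₁ (e₁ i) = 0) (hZ₁ : ∀ i, Z₁ (e₁ i) = 0)
    (hP₂ : ∀ i, P₂ (e₂ i) = 0) (hZ₂ : ∀ i, Z₂ (e₂ i) = 0)
    (hd₁ : ∀ v, P₁ v = 0 ∨ Z₁ v = 0) (hd₂ : ∀ v, P₂ v = 0 ∨ Z₂ v = 0)
    (hdegP₁ : 0 < Divisor.degree P₁) (hdegP₂ : 0 < Divisor.degree P₂)
    -- the divisors on the generic fibre
    (E1 E2 : Divisor L F) (hE1 : ∀ v, 0 ≤ E1 v) (hE2 : ∀ v, 0 ≤ E2 v)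
    (hdisj : ∀ v, E1 v = 0 ∨ E2 v = 0)
    (hdegE1 : 0 < Divisor.degree E1) (hdegE2 : 0 < Divisor.degree E2)
    -- lattices and saturation
    (hlat : ∀ B : Divisor L F, HasOrtho A O (riemannRochSpace B))
    (hS2 : ∃ N₀ : ℕ, ∀ n₁ n₂, N₀ ≤ n₁ + n₂ →
      redSub hOA red π hπ hconst (VB 0 E1 E2 n₁ n₂)
        = gluedSpace e₁ e₂ (fun _ => (1 : k)) (n₁ • P₁ + n₂ • Z₁) (n₁ • P₂ + n₂ • Z₂))
    -- the automorphisms
    (g g' : SemilinearAut L F) (hgO : ∀ y ∈ O, g' • y ∈ O) (hgO' : ∀ y ∈ O, g'⁻¹ • y ∈ O)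
    (hgred : ∀ (y : O) (h : g' • (y : F) ∈ O), red ⟨g' • (y : F), h⟩ = red y)
    (hgE1 : g' • E1 = E1) (hgE2 : g' • E2 = E2)
    (hnorm : ∀ f₀ : F, f₀ ≠ 0 → ∃ c : L, c ≠ 0 ∧
      Normalized red m (algebraMap L F c * (g • f₀) * f₀⁻¹))
    (y : Pic0 L F) (hy : (m : ℤ) • y = 0) :
    g' • g • y - g' • y - g • y + y = 0 := by
  classical
  have hm0 : m ≠ 0 := by
    rintro rfl
    simp at hm
  obtain ⟨N₀, hN₀⟩ := hS2
  obtain ⟨c, hc⟩ := exists_finrank_eq hF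
  obtain ⟨c₁, hc₁⟩ := h₁.exists_degree_bound
  obtain ⟨c₂, hc₂⟩ := h₂.exists_degree_bound
  set n₀ : ℕ := max N₀ (max c.toNat (max (c₁ + Fintype.card ι).toNat
    (c₂ + Fintype.card ι).toNat)) with hn₀
  have hn₀N : N₀ ≤ n₀ := le_max_left _ _
  have hn₀c : c ≤ (n₀ : ℤ) := by
    have h1 : c.toNat ≤ n₀ := (le_max_left _ _).trans (le_max_right _ _)
    have h2 : c ≤ (c.toNat : ℤ) := Int.self_le_toNat c
    exact h2.trans (by exact_mod_cast h1)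
  have hn₀c₁ : c₁ + Fintype.card ι ≤ (n₀ : ℤ) := by
    have h1 : (c₁ + Fintype.card ι).toNat ≤ n₀ :=
      ((le_max_left _ _).trans (le_max_right _ _)).trans (le_max_right _ _)
    have h2 := Int.self_le_toNat (c₁ + Fintype.card ι)
    exact h2.trans (by exact_mod_cast h1)
  have hn₀c₂ : c₂ + Fintype.card ι ≤ (n₀ : ℤ) := by
    have h1 : (c₂ + Fintype.card ι).toNat ≤ n₀ :=
      ((le_max_right _ _).trans (le_max_right _ _)).trans (le_max_right _ _)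
    have h2 := Int.self_le_toNat (c₂ + Fintype.card ι)
    exact h2.trans (by exact_mod_cast h1)
  -- degrees
  have hsumdeg₁ : Divisor.degree (∑ i, Finsupp.single (e₁ i) (1 : ℤ) : Divisor k F₁)
      = Fintype.card ι := by
    rw [map_sum, Finset.sum_congr rfl (fun i _ => by
      rw [Divisor.degree_single, h₁.deg_eq_one, Nat.cast_one, mul_one])]
    simp
  have hsumdeg₂ : Divisor.degree (∑ i, Finsupp.single (e₂ i) (1 : ℤ) : Divisor k F₂)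
      = Fintype.card ι := by
    rw [map_sum, Finset.sum_congr rfl (fun i _ => by
      rw [Divisor.degree_single, h₂.deg_eq_one, Nat.cast_one, mul_one])]
    simp
  have hMD₁ : RR.MD (n₀ • P₁ - ∑ i, Finsupp.single (e₁ i) (1 : ℤ)) = ⊤ := by
    refine (hc₁ _ ?_).1
    rw [map_sub, hsumdeg₁, map_nsmul, nsmul_eq_mul]
    nlinarith
  have hMD₂ : RR.MD (n₀ • P₂ - ∑ i, Finsupp.single (e₂ i) (1 : ℤ)) = ⊤ := by
    refine (hc₂ _ ?_).1
    rw [map_sub, hsumdeg₂, map_nsmul, nsmul_eq_mul]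
    nlinarith
  have hRR : ∀ n₁ n₂, n₀ ≤ n₁ + n₂ → ∀ D : Divisor L F, Divisor.degree D = 0 →
      Module.finrank L (VB D E1 E2 n₁ n₂) = Module.finrank L (VB 0 E1 E2 n₁ n₂) := by
    intro n₁ n₂ hl D hD
    have hdeg : c ≤ Divisor.degree (n₁ • E1 + n₂ • E2) := by
      rw [map_add, map_nsmul, map_nsmul, nsmul_eq_mul, nsmul_eq_mul]
      have h1 : (n₀ : ℤ) ≤ (n₁ : ℤ) + n₂ := by exact_mod_cast hl
      nlinarith [Int.natCast_nonneg n₁, Int.natCast_nonneg n₂]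
    have := hc D (n₁ • E1 + n₂ • E2) hD hdeg
    unfold VB
    rw [add_assoc, this, zero_add]
  -- the special fibre
  have hle := Tn_le_regSub e₁ e₂ P₁ Z₁ P₂ Z₂ hP₁ hZ₁ hP₂ hZ₂
  refine monodromy_pic0 red m g g' (fun D hD f2 hf2 hdiv hn => ?_) hnorm y hy
  refine principal_smul_sub hOA hval harch red π hπ hπker hconst hker m hm
    (regSub e₁ e₂) (ev₁ e₁ e₂ (fun _ => h₁.resK _)) (ev₂ e₁ e₂ (fun _ => h₂.resK _))
    (Tn P₁ Z₁ P₂ Z₂) (finite_Tn h₁ h₂ P₁ Z₁ P₂ Z₂) hle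
    (fun n₁ n₂ t ht => Tn_root P₁ Z₁ P₂ Z₂ hm0 n₁ n₂ t ht) n₀ ?_ ?_ ?_ ?_
    hF E1 E2 hE1 hE2 hdisj hlat ?_ hRR g' hgO hgO' hgred hgE1 hgE2 D hD f2 hf2 hdiv hn
  · intro a b
    obtain ⟨t, ht, h⟩ := Tn_surj (Z₁ := Z₁) (Z₂ := Z₂) (fun _ => h₁.resK _) (fun _ => h₂.resK _)
      hinj₁ hinj₂ hP₁ hP₂ n₀ hMD₁ hMD₂ a b
    exact ⟨t, ht, fun e => h _ e⟩
  · intro K _
    exact glued_inf_le _ _ _ _ (Tn_inf_le P₁ Z₁ P₂ Z₂ hd₁ hd₂ n₀ K)
  · intro K _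
    exact glued_inf_le _ _ _ _ (Tn_inf_le' P₁ Z₁ P₂ Z₂ hd₁ hd₂ n₀ K)
  · intro n
    exact glued_zero_le_span h₁ h₂ hd₁ hd₂ n
  · intro n₁ n₂ hl
    rw [hN₀ n₁ n₂ (hn₀N.trans hl)]
    exact (glued_eq_gluedSpace e₁ e₂ (fun _ => h₁.resK _) (fun _ => h₂.resK _) 1
      (n₁ • P₁ + n₂ • Z₁) (n₁ • P₂ + n₂ • Z₂)
      (fun i => by simp [Finsupp.add_apply, Finsupp.smul_apply, hP₁ i, hZ₁ i])
      (fun i => by simp [Finsupp.add_apply, Finsupp.smul_apply, hP₂ i, hZ₂ i])).symm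

end Fermat.Agent.BAD.NodalAsm
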