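import Mathlib
import Fermat.Agent.BAD.Interfaces
import Fermat.Agent.BAD.NodalAsm
import Fermat.Agent.BAD.TwoVal.Semilocal
import Fermat.Agent.BAD.TwoVal.Arch
import Fermat.Agent.BAD.TwoVal.Instance
import Fermat.Agent.Lib.FF.ModLRed
import Fermat.Agent.Lib.FF.CharP.ModLInst
import Fermat.Agent.S05.Inertia
import Fermat.Agent.BAD.LatInst
import Fermat.Agent.BAD.TwoVal.GaloisPair
import Fermat.Agent.BAD.LevelTransfer

/-!
# BAD-U: `TorsionMonodromy N p` from the nodal special fibre of `X₀(Mq)` (final assembly)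

`torsionMonodromy_of_bad : LatBad → GaloisBad → NodalFibreBad → ∀ N p, p.Prime →
  TorsionMonodromy N p`.

The three named hypotheses are statements about a valuation subring `A` of `ℚ̄` over `q`, a level
`M` prime to `q`, the two Gauss valuation rings `OInf h`, `OZero h W` of `F_{Mq}` (helper63's
`BAD/TwoVal`), `O = OPair h W` and `redPair h W : O → κ × κ`, `κ = F̄_M` over the residue field:

* `LatBad` (LAT) : every Riemann–Roch space of `F_{Mq}` has an orthonormal basis w.r.t. `O`;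
* `GaloisBad` (GAL) : inertia preserves `OInf`, `OZero` and is trivial on `redInf`, `redZero`;
* `NodalFibreBad` (S1 + S2 + S3) : nodes `e₁ i ~ e₂ i` (at least one), divisors `P_j, Z_j` on the
  special fibre and inertia-invariant `E1, E2 ≥ 0` on the generic fibre such that, eventually,
  the reduction of `L(n₁ E1 + n₂ E2) ∩ O` is the glued space
  `gluedSpace e₁ e₂ 1 (n₁ P₁ + n₂ Z₁) (n₁ P₂ + n₂ Z₂)`.

Everything else (`IsFF1` for the three fields, the base hypotheses of `Nodal`, the normalisation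
of the Kummer generators `σ f₀ / f₀`) is proved here.

**Final form** (LAT = `LatInst.lat_bad` and GAL = `TwoVal/GaloisPair` are theorems, and
`LevelTransfer.torsionMonodromy_of_good` reduces to the good pairs):

* `NodalFibreAt h W` : the nodal-fibre datum for one `(A, π, M, q, W)` (the body of
  `NodalFibreBad`);
* `monodromyAt_of_nodalFibreAt` : `(∀ W, IsAL M q W → NodalFibreAt h W) → MonodromyAt (M * q) p A`;
* `torsionMonodromy_of_nodalFibre` : `TorsionMonodromy N p` for all `N`, `p` from `NodalFibreAt`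
  at the good pairs (`5 ≤ q`, or `q = 3 ∧ 2 ∣ M`, or `q = 2 ∧ 3 ∣ M`).
-/

set_option autoImplicit false

namespace Fermat.Agent.BAD.BadU

open AlgebraicCurve ModularCurve Fermat.Agent.Lib.FF Fermat.Agent.Lib.Red.Deform
  Fermat.Agent.Lib.Red.CoordLat Fermat.Agent.BAD.NodalDiv Fermat.Agent.BAD.NodalRiemann
  Fermat.Agent.BAD.TwoVal Fermat.Agent.BAD.NodalAsm

local notation "Qb" => AlgebraicClosure ℚ

/-! ### Automorphisms preserving a valuation ring preserve the valuation -/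

section units

variable {L : Type*} [Field L] [Algebra ℚ L] [Algebra.IsAlgebraic ℚ L]

omit [Algebra ℚ L] [Algebra.IsAlgebraic ℚ L] in
theorem prod_range_div_field (f : ℕ → L) (hf : ∀ i, f i ≠ 0) (n : ℕ) :
    ∏ i ∈ Finset.range n, f (i + 1) / f i = f n / f 0 := by
  induction n with
  | zero => simp [div_self (hf 0)]
  | succ n ih =>
    rw [Finset.prod_range_succ, ih]
    have h1 := hf n
    have h2 := hf 0
    field_simp

/-- Every element of an algebraic extension of `ℚ` is fixed by a positive power of a given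
automorphism. -/
theorem exists_pow_apply_eq (σ : L ≃ₐ[ℚ] L) (a : L) : ∃ n : ℕ, 0 < n ∧ (σ ^ n) a = a := by
  classical
  have hint : IsIntegral ℚ a := (Algebra.IsAlgebraic.isAlgebraic a).isIntegral
  have hmem : ∀ i : ℕ, (σ ^ i) a ∈ (minpoly ℚ a).rootSet L := by
    intro i
    rw [Polynomial.mem_rootSet]
    refine ⟨minpoly.ne_zero hint, ?_⟩
    have := Polynomial.aeval_algHom_apply (((σ ^ i : L ≃ₐ[ℚ] L)) : L →ₐ[ℚ] L) a (minpoly ℚ a)
    rw [minpoly.aeval, map_zero] at this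
    exact this
  have : Finite ((minpoly ℚ a).rootSet L) := (Polynomial.rootSet_finite _ _).to_subtype
  obtain ⟨i, j, hij, h⟩ := Finite.exists_ne_map_eq_of_infinite
    (fun i : ℕ => (⟨(σ ^ i) a, hmem i⟩ : (minpoly ℚ a).rootSet L))
  have key : ∀ i j : ℕ, i < j → (σ ^ i) a = (σ ^ j) a → ∃ n : ℕ, 0 < n ∧ (σ ^ n) a = a := by
    intro i j hlt h'
    refine ⟨j - i, Nat.sub_pos_of_lt hlt, ?_⟩
    have e : σ ^ j = σ ^ i * σ ^ (j - i) := by
      rw [← pow_add]; congr 1; omega
    rw [e, AlgEquiv.mul_apply] at h'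
    exact ((σ ^ i).injective h').symm
  have h' : (σ ^ i) a = (σ ^ j) a := congrArg Subtype.val h
  rcases lt_or_gt_of_ne hij with hlt | hlt
  · exact key i j hlt h'
  · exact key j i hlt h'.symm

/-- An automorphism mapping the valuation ring `A` into itself preserves the valuation:
`σ a / a` is a unit of `A`. -/
theorem div_mem_of_map_mem (A : ValuationSubring L) (σ : L ≃ₐ[ℚ] L) (hσ : ∀ x ∈ A, σ x ∈ A)
    (a : L) (ha : a ≠ 0) : σ a / a ∈ A ∧ a / σ a ∈ A := by
  classical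
  obtain ⟨n, hn, hna⟩ := exists_pow_apply_eq σ a
  have hpow : ∀ (i : ℕ) (x : L), x ∈ A → (σ ^ i) x ∈ A := by
    intro i
    induction i with
    | zero => intro x hx; simpa using hx
    | succ i ih =>
      intro x hx
      rw [pow_succ', AlgEquiv.mul_apply]
      exact hσ _ (ih x hx)
  have key : ∀ d : L, d ∈ A → (∏ i ∈ Finset.range n, (σ ^ i) d) = 1 → d⁻¹ ∈ A := by
    intro d hd hprod
    obtain ⟨n', rfl⟩ : ∃ n', n = n' + 1 := ⟨n - 1, by omega⟩
    rw [Finset.prod_range_succ', pow_zero, AlgEquiv.one_apply] at hprod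
    have e : d⁻¹ = ∏ i ∈ Finset.range n', (σ ^ (i + 1)) d := (eq_inv_of_mul_eq_one_left hprod).symm
    rw [e]
    exact prod_mem (fun i _ => hpow (i + 1) d hd)
  have hprod : ∏ i ∈ Finset.range n, (σ ^ i) (σ a / a) = 1 := by
    have e : ∀ i, (σ ^ i) (σ a / a) = (σ ^ (i + 1)) a / (σ ^ i) a := by
      intro i
      rw [map_div₀, pow_succ, AlgEquiv.mul_apply]
    rw [Finset.prod_congr rfl (fun i _ => e i), prod_range_div_field (fun i => (σ ^ i) a)
      (fun i => (map_ne_zero _).2 ha), hna, pow_zero, AlgEquiv.one_apply, div_self ha]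
  rcases A.mem_or_inv_mem (σ a / a) with h1 | h1
  · refine ⟨h1, ?_⟩
    have := key _ h1 hprod
    rwa [inv_div] at this
  · rw [inv_div] at h1
    refine ⟨?_, h1⟩
    have hprod' : ∏ i ∈ Finset.range n, (σ ^ i) (a / σ a) = 1 := by
      have e : ∀ i, (σ ^ i) (a / σ a) = ((σ ^ i) (σ a / a))⁻¹ := by
        intro i
        rw [← map_inv₀, inv_div]
      rw [Finset.prod_congr rfl (fun i _ => e i), Finset.prod_inv_distrib, hprod, inv_one]
    have := key _ h1 hprod'
    rwa [inv_div] at this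

end units

/-! ### Kummer generators `g f₀ / f₀` are units with constant reduction -/

section const

variable {L F κ k : Type*} [Field L] [Field F] [Algebra L F] [Field k] [CommRing κ] [Algebra k κ]

/-- If `g` preserves a valuation ring `O` of `F` with value group that of `A` and is trivial on
its residue field, then `g f₀ / f₀` is a unit of `O` whose residue is a nonzero constant. -/
theorem exists_const_red (A : ValuationSubring L) (π : A →+* k) (O : ValuationSubring F)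
    (red : O →+* κ)
    (hscal : ∀ f : F, f ≠ 0 → ∃ a : L, a ≠ 0 ∧ ∃ hm : algebraMap L F a * f ∈ O, red ⟨_, hm⟩ ≠ 0)
    (hinv : ∀ (f : F) (hf : f ∈ O), red ⟨f, hf⟩ ≠ 0 → f⁻¹ ∈ O)
    (hOA : ∀ a : L, a ∈ A → algebraMap L F a ∈ O)
    (hconst : ∀ (a : A) (ha : algebraMap L F (a : L) ∈ O), red ⟨_, ha⟩ = algebraMap k κ (π a))
    (g : SemilinearAut L F)
    (hg : ∀ (y : F) (hy : y ∈ O), ∃ hy' : g • y ∈ O, red ⟨g • y, hy'⟩ = red ⟨y, hy⟩)
    (hbase : ∀ a : L, a ≠ 0 →
      a / SemilinearAut.baseAut g a ∈ A ∧ SemilinearAut.baseAut g a / a ∈ A)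
    (f₀ : F) (hf₀ : f₀ ≠ 0) :
    ∃ (hF : g • f₀ * f₀⁻¹ ∈ O) (b : A), red ⟨_, hF⟩ = algebraMap k κ (π b) ∧ π b ≠ 0 := by
  obtain ⟨a, ha, hm, hne⟩ := hscal f₀ hf₀
  have hyinv : (algebraMap L F a * f₀)⁻¹ ∈ O := hinv _ hm hne
  obtain ⟨hgy, hgyred⟩ := hg _ hm
  have hσa : SemilinearAut.baseAut g a ≠ 0 := (map_ne_zero _).2 ha
  obtain ⟨hb1, hb2⟩ := hbase a ha
  have hbb' : (⟨a / SemilinearAut.baseAut g a, hb1⟩ : A) * ⟨SemilinearAut.baseAut g a / a, hb2⟩
      = 1 := Subtype.ext (by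
    show a / SemilinearAut.baseAut g a * (SemilinearAut.baseAut g a / a) = 1
    field_simp)
  have hπb : π ⟨a / SemilinearAut.baseAut g a, hb1⟩ ≠ 0 := by
    intro h0
    have := congrArg π hbb'
    rw [map_mul, h0, zero_mul, map_one] at this
    exact zero_ne_one this
  have hbO : algebraMap L F (a / SemilinearAut.baseAut g a) ∈ O := hOA _ hb1
  have e : g • f₀ * f₀⁻¹ = algebraMap L F (a / SemilinearAut.baseAut g a) *
      (g • (algebraMap L F a * f₀) * (algebraMap L F a * f₀)⁻¹) := by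
    have h1 : algebraMap L F a ≠ 0 := (map_ne_zero _).2 ha
    have h2 : algebraMap L F (SemilinearAut.baseAut g a) ≠ 0 := (map_ne_zero _).2 hσa
    rw [smul_mul', SemilinearAut.smul_algebraMap, mul_inv, map_div₀]
    field_simp
  have hF : g • f₀ * f₀⁻¹ ∈ O := by
    rw [e]; exact O.mul_mem _ _ hbO (O.mul_mem _ _ hgy hyinv)
  refine ⟨hF, ⟨a / SemilinearAut.baseAut g a, hb1⟩, ?_, hπb⟩
  have e' : (⟨g • f₀ * f₀⁻¹, hF⟩ : O) = ⟨algebraMap L F (a / SemilinearAut.baseAut g a), hbO⟩ *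
      (⟨g • (algebraMap L F a * f₀), hgy⟩ * ⟨(algebraMap L F a * f₀)⁻¹, hyinv⟩) :=
    Subtype.ext e
  have hy0 : algebraMap L F a * f₀ ≠ 0 := mul_ne_zero ((map_ne_zero _).2 ha) hf₀
  have e2 : (⟨algebraMap L F a * f₀, hm⟩ : O) * ⟨(algebraMap L F a * f₀)⁻¹, hyinv⟩ = 1 :=
    Subtype.ext (mul_inv_cancel₀ hy0)
  rw [e', map_mul, map_mul, hgyred, ← map_mul red, e2, map_one, mul_one]
  exact hconst ⟨a / SemilinearAut.baseAut g a, hb1⟩ hbO

end const

/-! ### Divisors defined by the orders of an invariant function are invariant -/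

section inv

variable {L F : Type*} [Field L] [Field F] [Algebra L F]

/-- A divisor of the shape `v ↦ φ (ord_v x)` with `g • x = x` is `g`-invariant (e.g. the pole
divisor `φ = max 0 ∘ neg`, or the zero divisor `φ = max 0`). -/
theorem smul_divisor_eq_of_ord (g : SemilinearAut L F) (x : F) (hx : g • x = x)
    (E : Divisor L F) (φ : ℤ → ℤ) (hE : ∀ v : Place L F, E v = φ (v.ord x)) : g • E = E := by
  ext P
  rw [SemilinearAut.divisor_smul_apply, hE, hE]
  congr 1
  have := SemilinearAut.ord_smul g (g⁻¹ • P) x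
  rw [smul_inv_smul, hx] at this
  exact this.symm

end inv

/-! ### The modular instance -/

section modular

variable {L : Type*} [Field L] [Algebra ℚ L] {A : ValuationSubring L} {k : Type} [Field k]
  {π : A →+* k} {M ℓ : ℕ} [NeZero M] [NeZero ℓ]
  {W : laurentBaseChange L (modularFunctionFieldFull (M * ℓ)) ≃ₐ[L]
    laurentBaseChange L (modularFunctionFieldFull (M * ℓ))}

/-- **Normalisation of the Kummer generators**: if `g` preserves `O_∞`, `O_0`, is trivial on both
residue maps and its base automorphism preserves the valuation of `A`, then `g f₀ / f₀` is a unit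
of `O_∞ ∩ O_0` whose reduction is a pair of nonzero constants, hence an `m`-th power of a unit as
soon as `k` has `m`-th roots. -/
theorem normalized_of_galois (h : BadSetup A π M ℓ) (m : ℕ) (hm : m ≠ 0)
    (hroot : ∀ c : k, ∃ d : k, d ^ m = c)
    (g : SemilinearAut L (laurentBaseChange L (modularFunctionFieldFull (M * ℓ))))
    (hInf : ∀ (y : laurentBaseChange L (modularFunctionFieldFull (M * ℓ))) (hy : y ∈ OInf h),
      ∃ hy' : g • y ∈ OInf h, redInf h ⟨g • y, hy'⟩ = redInf h ⟨y, hy⟩)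
    (hZero : ∀ (y : laurentBaseChange L (modularFunctionFieldFull (M * ℓ)))
      (hy : y ∈ OZero h W),
      ∃ hy' : g • y ∈ OZero h W, redZero h W ⟨g • y, hy'⟩ = redZero h W ⟨y, hy⟩)
    (hbase : ∀ a : L, a ≠ 0 →
      a / SemilinearAut.baseAut g a ∈ A ∧ SemilinearAut.baseAut g a / a ∈ A)
    (f₀ : laurentBaseChange L (modularFunctionFieldFull (M * ℓ))) (hf₀ : f₀ ≠ 0) :
    ∃ c : L, c ≠ 0 ∧ Normalized (redPair h W) m
      (algebraMap L (laurentBaseChange L (modularFunctionFieldFull (M * ℓ))) c * (g • f₀) *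
        f₀⁻¹) := by
  obtain ⟨hF1, b1, hr1, hb1⟩ := exists_const_red A π (OInf h) (redInf h)
    (exists_scaling_OInf h) (inv_mem_OInf h) (fun a ha => (algebraMap_mem_OInf_iff h a).2 ha)
    (fun a ha => redInf_algebraMap h a ha) g hInf hbase f₀ hf₀
  obtain ⟨hF2, b2, hr2, hb2⟩ := exists_const_red A π (OZero h W) (redZero h W)
    (exists_scaling_OZero h) (inv_mem_OZero h) (fun a ha => (algebraMap_mem_OZero_iff h a).2 ha)
    (fun a ha => redZero_algebraMap h a ha) g hZero hbase f₀ hf₀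
  have hinv1 : (g • f₀ * f₀⁻¹)⁻¹ ∈ OInf h :=
    inv_mem_OInf h _ hF1 (by rw [hr1]; exact (map_ne_zero _).2 hb1)
  have hinv2 : (g • f₀ * f₀⁻¹)⁻¹ ∈ OZero h W :=
    inv_mem_OZero h _ hF2 (by rw [hr2]; exact (map_ne_zero _).2 hb2)
  obtain ⟨d1, hd1⟩ := hroot (π b1)
  obtain ⟨d2, hd2⟩ := hroot (π b2)
  have hd1' : d1 ≠ 0 := by
    rintro rfl
    rw [zero_pow hm] at hd1
    exact hb1 hd1.symm
  have hd2' : d2 ≠ 0 := by
    rintro rfl
    rw [zero_pow hm] at hd2
    exact hb2 hd2.symm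
  refine ⟨1, one_ne_zero, ?_⟩
  rw [map_one, one_mul]
  have hO : g • f₀ * f₀⁻¹ ∈ OPair h W := (mem_OPair_iff h _).2 ⟨hF1, hF2⟩
  have hO' : (g • f₀ * f₀⁻¹)⁻¹ ∈ OPair h W := (mem_OPair_iff h _).2 ⟨hinv1, hinv2⟩
  refine ⟨hO, hO',
    (algebraMap k ↥(modularFunctionFieldFullC k M) d1,
      algebraMap k ↥(modularFunctionFieldFullC k M) d2),
    (algebraMap k ↥(modularFunctionFieldFullC k M) d1⁻¹,
      algebraMap k ↥(modularFunctionFieldFullC k M) d2⁻¹), ?_, ?_⟩
  · refine Prod.ext ?_ ?_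
    · show algebraMap k ↥(modularFunctionFieldFullC k M) d1 *
        algebraMap k ↥(modularFunctionFieldFullC k M) d1⁻¹ = 1
      rw [← map_mul, mul_inv_cancel₀ hd1', map_one]
    · show algebraMap k ↥(modularFunctionFieldFullC k M) d2 *
        algebraMap k ↥(modularFunctionFieldFullC k M) d2⁻¹ = 1
      rw [← map_mul, mul_inv_cancel₀ hd2', map_one]
  · have e1 : algebraMap k ↥(modularFunctionFieldFullC k M) d1 ^ m =
        redInf h ⟨g • f₀ * f₀⁻¹, hF1⟩ :=
      (map_pow (algebraMap k ↥(modularFunctionFieldFullC k M)) d1 m).symm.trans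
        ((congrArg (algebraMap k ↥(modularFunctionFieldFullC k M)) hd1).trans hr1.symm)
    have e2 : algebraMap k ↥(modularFunctionFieldFullC k M) d2 ^ m =
        redZero h W ⟨g • f₀ * f₀⁻¹, hF2⟩ :=
      (map_pow (algebraMap k ↥(modularFunctionFieldFullC k M)) d2 m).symm.trans
        ((congrArg (algebraMap k ↥(modularFunctionFieldFullC k M)) hd2).trans hr2.symm)
    rw [redPair_mk]
    exact Prod.ext e1 e2

end modular

/-! ### The named hypotheses -/

/-- **(LAT)** Every Riemann–Roch space of `F_{Mq}` has an orthonormal basis with respect to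
`O = O_∞ ∩ O_0`. -/
def LatBad : Prop :=
  ∀ (A : ValuationSubring Qb) (k : Type) [Field k] [IsAlgClosed k] (π : A →+* k),
    Function.Surjective π → ∀ (M q : ℕ) [NeZero M] [NeZero q] (h : BadSetup A π M q)
    (W : laurentBaseChange Qb (modularFunctionFieldFull (M * q)) ≃ₐ[Qb]
      laurentBaseChange Qb (modularFunctionFieldFull (M * q))), IsAL M q W →
    ∀ B : Divisor Qb (laurentBaseChange Qb (modularFunctionFieldFull (M * q))),
      HasOrtho A (OPair h W) (riemannRochSpace B)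

/-- **(GAL)** The inertia group preserves the two Gauss valuation rings of `F_{Mq}` and acts
trivially on their residue maps. -/
def GaloisBad : Prop :=
  ∀ (A : ValuationSubring Qb) (k : Type) [Field k] [IsAlgClosed k] (π : A →+* k),
    Function.Surjective π → ∀ (M q : ℕ) [NeZero M] [NeZero q] (h : BadSetup A π M q)
    (W : laurentBaseChange Qb (modularFunctionFieldFull (M * q)) ≃ₐ[Qb]
      laurentBaseChange Qb (modularFunctionFieldFull (M * q))), IsAL M q W →
    A.LiesOverPrime q → ∀ σ ∈ A.inertiaSubgroupIn ℚ,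
    ∀ y : laurentBaseChange Qb (modularFunctionFieldFull (M * q)),
      (∀ hy : y ∈ OInf h, ∃ hy' : arithmeticGalois (modularFunctionFieldFull (M * q)) σ • y ∈
          OInf h, redInf h ⟨_, hy'⟩ = redInf h ⟨y, hy⟩) ∧
      (∀ hy : y ∈ OZero h W, ∃ hy' : arithmeticGalois (modularFunctionFieldFull (M * q)) σ • y ∈
          OZero h W, redZero h W ⟨_, hy'⟩ = redZero h W ⟨y, hy⟩)

/-- **(NODAL)** The nodal special fibre of `X₀(Mq)` at `q`: nodes, divisors on the two components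
and inertia-invariant divisors `E1`, `E2` on the generic fibre such that the reduction of
`L(n₁ E1 + n₂ E2) ∩ O` is eventually the glued space. -/
def NodalFibreBad : Prop :=
  ∀ (A : ValuationSubring Qb) (k : Type) [Field k] [IsAlgClosed k] (π : A →+* k),
    Function.Surjective π → ∀ (M q : ℕ) [NeZero M] [NeZero q] (h : BadSetup A π M q)
    (W : laurentBaseChange Qb (modularFunctionFieldFull (M * q)) ≃ₐ[Qb]
      laurentBaseChange Qb (modularFunctionFieldFull (M * q))), IsAL M q W →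
    A.LiesOverPrime q →
    ∃ (ι : Type) (_ : Fintype ι) (_ : Nonempty ι)
      (e₁ e₂ : ι → Place k (modularFunctionFieldFullC k M))
      (P₁ Z₁ P₂ Z₂ : Divisor k (modularFunctionFieldFullC k M))
      (E1 E2 : Divisor Qb (laurentBaseChange Qb (modularFunctionFieldFull (M * q)))),
      Function.Injective e₁ ∧ Function.Injective e₂ ∧
      (∀ i, P₁ (e₁ i) = 0) ∧ (∀ i, Z₁ (e₁ i) = 0) ∧ (∀ i, P₂ (e₂ i) = 0) ∧ (∀ i, Z₂ (e₂ i) = 0) ∧
      (∀ v, P₁ v = 0 ∨ Z₁ v = 0) ∧ (∀ v, P₂ v = 0 ∨ Z₂ v = 0) ∧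
      0 < Divisor.degree P₁ ∧ 0 < Divisor.degree P₂ ∧
      (∀ v, 0 ≤ E1 v) ∧ (∀ v, 0 ≤ E2 v) ∧ (∀ v, E1 v = 0 ∨ E2 v = 0) ∧
      0 < Divisor.degree E1 ∧ 0 < Divisor.degree E2 ∧
      (∀ σ ∈ A.inertiaSubgroupIn ℚ,
        arithmeticGalois (modularFunctionFieldFull (M * q)) σ • E1 = E1 ∧
        arithmeticGalois (modularFunctionFieldFull (M * q)) σ • E2 = E2) ∧
      ∃ N₀ : ℕ, ∀ n₁ n₂ : ℕ, N₀ ≤ n₁ + n₂ →
        ∀ t : ↥(modularFunctionFieldFullC k M) × ↥(modularFunctionFieldFullC k M),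
          (∃ y : OPair h W,
              (y : laurentBaseChange Qb (modularFunctionFieldFull (M * q))) ∈
                riemannRochSpace (n₁ • E1 + n₂ • E2) ∧ redPair h W y = t) ↔
            t ∈ gluedSpace e₁ e₂ (fun _ => (1 : k))
              (n₁ • P₁ + n₂ • Z₁) (n₁ • P₂ + n₂ • Z₂)

/-! ### The assembly -/

section atLevel

variable {A : ValuationSubring Qb} {k : Type} [Field k] {π : A →+* k} {M q : ℕ} [NeZero M]
  [NeZero q]

/-- **(NODAL) for one `(A, π, M, q, W)`**: the nodal special fibre of `X₀(Mq)` at `q` — nodes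
`e₁ i ~ e₂ i` (at least one), divisors `P_j`, `Z_j` on the two components and inertia-invariant
divisors `E1`, `E2 ≥ 0` on the generic fibre such that the reduction of
`L(n₁ E1 + n₂ E2) ∩ (O_∞ ∩ O_0)` is eventually the glued space
`gluedSpace e₁ e₂ 1 (n₁ P₁ + n₂ Z₁) (n₁ P₂ + n₂ Z₂)`. -/
def NodalFibreAt (h : BadSetup A π M q)
    (W : laurentBaseChange Qb (modularFunctionFieldFull (M * q)) ≃ₐ[Qb]
      laurentBaseChange Qb (modularFunctionFieldFull (M * q))) : Prop :=
  ∃ (ι : Type) (_ : Fintype ι) (_ : Nonempty ι)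
    (e₁ e₂ : ι → Place k (modularFunctionFieldFullC k M))
    (P₁ Z₁ P₂ Z₂ : Divisor k (modularFunctionFieldFullC k M))
    (E1 E2 : Divisor Qb (laurentBaseChange Qb (modularFunctionFieldFull (M * q)))),
    Function.Injective e₁ ∧ Function.Injective e₂ ∧
    (∀ i, P₁ (e₁ i) = 0) ∧ (∀ i, Z₁ (e₁ i) = 0) ∧ (∀ i, P₂ (e₂ i) = 0) ∧ (∀ i, Z₂ (e₂ i) = 0) ∧
    (∀ v, P₁ v = 0 ∨ Z₁ v = 0) ∧ (∀ v, P₂ v = 0 ∨ Z₂ v = 0) ∧
    0 < Divisor.degree P₁ ∧ 0 < Divisor.degree P₂ ∧
    (∀ v, 0 ≤ E1 v) ∧ (∀ v, 0 ≤ E2 v) ∧ (∀ v, E1 v = 0 ∨ E2 v = 0) ∧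
    0 < Divisor.degree E1 ∧ 0 < Divisor.degree E2 ∧
    (∀ σ ∈ A.inertiaSubgroupIn ℚ,
      arithmeticGalois (modularFunctionFieldFull (M * q)) σ • E1 = E1 ∧
      arithmeticGalois (modularFunctionFieldFull (M * q)) σ • E2 = E2) ∧
    ∃ N₀ : ℕ, ∀ n₁ n₂ : ℕ, N₀ ≤ n₁ + n₂ →
      ∀ t : ↥(modularFunctionFieldFullC k M) × ↥(modularFunctionFieldFullC k M),
        (∃ y : OPair h W,
            (y : laurentBaseChange Qb (modularFunctionFieldFull (M * q))) ∈
              riemannRochSpace (n₁ • E1 + n₂ • E2) ∧ redPair h W y = t) ↔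
          t ∈ gluedSpace e₁ e₂ (fun _ => (1 : k))
            (n₁ • P₁ + n₂ • Z₁) (n₁ • P₂ + n₂ • Z₂)

set_option maxHeartbeats 1000000 in
/-- The core of the assembly: `(τ - 1)(σ - 1) = 0` on `p^n`-torsion for one `(A, π, M, q, W)`,
from the lattice property, the Galois property and the nodal fibre datum for this `W`. -/
theorem monodromy_core [IsAlgClosed k] (hπ : Function.Surjective π) (h : BadSetup A π M q)
    (W : laurentBaseChange Qb (modularFunctionFieldFull (M * q)) ≃ₐ[Qb]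
      laurentBaseChange Qb (modularFunctionFieldFull (M * q)))
    (hLat : ∀ B : Divisor Qb (laurentBaseChange Qb (modularFunctionFieldFull (M * q))),
      HasOrtho A (OPair h W) (riemannRochSpace B))
    (hgal : ∀ σ ∈ A.inertiaSubgroupIn ℚ,
      ∀ y : laurentBaseChange Qb (modularFunctionFieldFull (M * q)),
      (∀ hy : y ∈ OInf h, ∃ hy' : arithmeticGalois (modularFunctionFieldFull (M * q)) σ • y ∈
          OInf h, redInf h ⟨_, hy'⟩ = redInf h ⟨y, hy⟩) ∧
      (∀ hy : y ∈ OZero h W, ∃ hy' : arithmeticGalois (modularFunctionFieldFull (M * q)) σ • y ∈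
          OZero h W, redZero h W ⟨_, hy'⟩ = redZero h W ⟨y, hy⟩))
    (hNod : NodalFibreAt h W)
    (p n : ℕ) (hp : p.Prime) (hqp : q ≠ p)
    (σ τ : Qb ≃ₐ[ℚ] Qb) (hσ : σ ∈ A.inertiaSubgroupIn ℚ) (hτ : τ ∈ A.inertiaSubgroupIn ℚ)
    (x : JZero (M * q)) (hx : p ^ n • x = 0) :
    τ • σ • x - τ • x - σ • x + x = 0 := by
  have hq : q.Prime := h.hℓ
  -- the nodal fibre
  obtain ⟨ι, _, _, e₁, e₂, P₁, Z₁, P₂, Z₂, E1, E2, hinj₁, hinj₂, hP₁, hZ₁, hP₂, hZ₂, hd₁, hd₂,
    hdegP₁, hdegP₂, hE1, hE2, hdisj, hdegE1, hdegE2, hgalE, N₀, hS2⟩ := hNod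
  -- the torsion order is a unit
  have hm : A.valuation (((p ^ n : ℕ)) : Qb) = 1 := by
    refine h.valuation_natCast_eq_one (p ^ n) ?_
    have := h.charP
    rw [Nat.cast_pow]
    refine pow_ne_zero n fun h0 => ?_
    exact hqp ((Nat.prime_dvd_prime_iff_eq hq hp).1 ((CharP.cast_eq_zero_iff k q p).1 h0))
  have hm0 : p ^ n ≠ 0 := pow_ne_zero n hp.ne_zero
  have hy : (((p ^ n : ℕ)) : ℤ) • x = 0 := by rw [natCast_zsmul]; exact hx
  -- Galois
  have hτ' : τ⁻¹ ∈ A.inertiaSubgroupIn ℚ := Subgroup.inv_mem _ hτ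
  have halg : Algebra.IsAlgebraic ℚ Qb := AlgebraicClosure.isAlgebraic ℚ
  have hbase : ∀ a : Qb, a ≠ 0 →
      a / SemilinearAut.baseAut (arithmeticGalois (modularFunctionFieldFull (M * q)) σ) a ∈ A ∧
      SemilinearAut.baseAut (arithmeticGalois (modularFunctionFieldFull (M * q)) σ) a / a ∈ A := by
    intro a ha
    have := div_mem_of_map_mem A σ
      (Fermat.Agent.S05.Inertia.mem_and_sub_mem_nonunits A σ hσ).1 a ha
    exact ⟨this.2, this.1⟩
  have hconst : ∀ a : A, redPair h W ⟨algebraMap Qb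
        ↥(laurentBaseChange Qb (modularFunctionFieldFull (M * q))) (a : Qb),
        (OPair_hOA h _).2 a.2⟩ = algebraMap k (↥(modularFunctionFieldFullC k M) ×
        ↥(modularFunctionFieldFullC k M)) (π a) := fun a => (redPair_algebraMap h a _).trans rfl
  have key := monodromy_of_nodal_fibre (A := A) (O := OPair h W) (fun x => OPair_hOA h x)
    (OPair_hval h) h.harch (redPair h W) π hπ h.pi_eq_zero_iff
    hconst (redPair_eq_zero_iff h) (p ^ n) hm
    (isFF1_xL Qb (M * q)) (isFF1_xk k M) (isFF1_xk k M) e₁ e₂ hinj₁ hinj₂ P₁ Z₁ P₂ Z₂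
    hP₁ hZ₁ hP₂ hZ₂ hd₁ hd₂ hdegP₁ hdegP₂ E1 E2 hE1 hE2 hdisj hdegE1 hdegE2
    hLat
    ⟨N₀, fun n₁ n₂ hl => Submodule.ext fun t => by
      have e : VB 0 E1 E2 n₁ n₂ = riemannRochSpace (n₁ • E1 + n₂ • E2) := by
        unfold VB
        rw [zero_add]
      rw [e]
      exact hS2 n₁ n₂ hl t⟩
    (arithmeticGalois (modularFunctionFieldFull (M * q)) σ)
    (arithmeticGalois (modularFunctionFieldFull (M * q)) τ)
    (fun y hy => by
      obtain ⟨h1, h2⟩ := (mem_OPair_iff h y).1 hy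
      obtain ⟨h1', -⟩ := (hgal τ hτ y).1 h1
      obtain ⟨h2', -⟩ := (hgal τ hτ y).2 h2
      exact (mem_OPair_iff h _).2 ⟨h1', h2'⟩)
    (fun y hy => by
      obtain ⟨h1, h2⟩ := (mem_OPair_iff h y).1 hy
      obtain ⟨h1', -⟩ := (hgal τ⁻¹ hτ' y).1 h1
      obtain ⟨h2', -⟩ := (hgal τ⁻¹ hτ' y).2 h2
      rw [← map_inv]
      exact (mem_OPair_iff h _).2 ⟨h1', h2'⟩)
    (fun y hy' => by
      obtain ⟨y, hy⟩ := y
      obtain ⟨h1, h2⟩ := (mem_OPair_iff h y).1 hy
      obtain ⟨h1', r1⟩ := (hgal τ hτ y).1 h1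
      obtain ⟨h2', r2⟩ := (hgal τ hτ y).2 h2
      rw [redPair_mk, redPair_mk]
      exact Prod.ext r1 r2)
    (hgalE τ hτ).1 (hgalE τ hτ).2
    (fun f₀ hf₀ => normalized_of_galois h (p ^ n) hm0
      (fun c => IsAlgClosed.exists_pow_nat_eq c (Nat.pos_of_ne_zero hm0)) _
      (fun y hy => (hgal σ hσ y).1 hy) (fun y hy => (hgal σ hσ y).2 hy) hbase f₀ hf₀)
    x hy
  exact key

/-- Existence of the Atkin–Lehner involution over `ℚ̄`. -/
theorem exists_isAL_Qb (h : BadSetup A π M q) :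
    ∃ W : laurentBaseChange Qb (modularFunctionFieldFull (M * q)) ≃ₐ[Qb]
      laurentBaseChange Qb (modularFunctionFieldFull (M * q)), IsAL M q W := by
  have hq : q.Prime := h.hℓ
  have : NeZero (q : Qb) := ⟨Nat.cast_ne_zero.mpr hq.ne_zero⟩
  obtain ⟨ζ0, hζ0⟩ := HasEnoughRootsOfUnity.exists_primitiveRoot Qb q
  have hζ00 : ζ0 ≠ 0 := hζ0.ne_zero hq.ne_zero
  exact exists_isAL (L := Qb) M q hq h.not_dvd (Units.mk0 ζ0 hζ00)
    (IsPrimitiveRoot.coe_units_iff.mp (by rw [Units.val_mk0]; exact hζ0))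

end atLevel

/-- **BAD-U for one valuation ring** (any residue map `π : A → k` onto an algebraically closed
field), from the three global named hypotheses. -/
theorem monodromy_of_bad (hLat : LatBad) (hGal : GaloisBad) (hNod : NodalFibreBad)
    (A : ValuationSubring Qb) (k : Type) [Field k] [IsAlgClosed k] (π : A →+* k)
    (hπ : Function.Surjective π) (M q : ℕ) [NeZero M] [NeZero q] (h : BadSetup A π M q)
    (hA : A.LiesOverPrime q) (p n : ℕ) (hp : p.Prime) (hqp : q ≠ p)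
    (σ τ : Qb ≃ₐ[ℚ] Qb) (hσ : σ ∈ A.inertiaSubgroupIn ℚ) (hτ : τ ∈ A.inertiaSubgroupIn ℚ)
    (x : JZero (M * q)) (hx : p ^ n • x = 0) :
    τ • σ • x - τ • x - σ • x + x = 0 := by
  obtain ⟨W, hW⟩ := exists_isAL_Qb h
  exact monodromy_core hπ h W (hLat A k π hπ M q h W hW) (hGal A k π hπ M q h W hW hA)
    (hNod A k π hπ M q h W hW hA) p n hp hqp σ τ hσ hτ x hx

/-- **BAD-U**: `TorsionMonodromy N p` for all `N`, `p`, from the three named hypotheses. -/
theorem torsionMonodromy_of_bad (hLat : LatBad) (hGal : GaloisBad) (hNod : NodalFibreBad)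
    (N p : ℕ) [NeZero N] (hp : p.Prime) : TorsionMonodromy N p := by
  intro q hq hqp hqN hq2 A hA σ hσ τ hτ x hx
  obtain ⟨n, hx⟩ := hx
  obtain ⟨M, hM⟩ := hqN
  have hN : N = M * q := by rw [hM, mul_comm]
  subst hN
  have : NeZero q := ⟨hq.ne_zero⟩
  have : NeZero M := ⟨by
    rintro rfl
    exact (NeZero.ne (0 * q)) (zero_mul q)⟩
  have hqM : ¬ q ∣ M := by
    rintro ⟨t, rfl⟩
    exact hq2 ⟨t, by ring⟩
  have : IsAlgClosed (IsLocalRing.ResidueField A) := CharP.isAlgClosed_residueField A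
  have hπ0 : ∀ a : A, ¬ IsUnit a → IsLocalRing.residue A a = 0 := fun a ha =>
    (IsLocalRing.residue_eq_zero_iff a).mpr ((IsLocalRing.mem_maximalIdeal a).mpr ha)
  have h : BadSetup A (IsLocalRing.residue A) M q :=
    badSetup_of_liesOver A _ hπ0 M q hq hA hqM
  exact monodromy_of_bad hLat hGal hNod A (IsLocalRing.ResidueField A) (IsLocalRing.residue A)
    IsLocalRing.residue_surjective M q h hA p n hp hqp σ τ hσ hτ x hx

/-! ### The final form: LAT and GAL are theorems; good pairs only -/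

/-- **(LAT) holds** (helper3's `LatInst.lat_bad`). -/
theorem latBad : LatBad := by
  intro A k _ _ π hπ M q _ _ h W hW B
  have hfin : FiniteDimensional Qb (riemannRochSpace B) := (isFF1_xL Qb (M * q)).finite_L B
  exact Fermat.Agent.BAD.LatInst.lat_bad h hW hπ B

/-- **(GAL) holds** (helper63's `TwoVal/GaloisPair`). -/
theorem galoisBad : GaloisBad := by
  intro A k _ _ π _ M q _ _ h W hW _ σ hσ y
  have hin : Inertial A π (σ : Qb →+* Qb) := inertial_of_mem_inertia h.hπ hσ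
  exact ⟨fun hy => ⟨galois_mem_OInf h hin hy, redInf_galois h hin y hy _⟩,
    fun hy => ⟨galois_mem_OZero h hW hin hy, redZero_galois h hW hin y hy _⟩⟩

/-- **BAD-U at one level from the nodal fibre**: `MonodromyAt (M * q) p A`. -/
theorem monodromyAt_of_nodalFibreAt (A : ValuationSubring Qb) (k : Type) [Field k]
    [IsAlgClosed k] (π : A →+* k) (hπ : Function.Surjective π) (M q : ℕ) [NeZero M] [NeZero q]
    (h : BadSetup A π M q) (hA : A.LiesOverPrime q) (p : ℕ) (hp : p.Prime) (hqp : q ≠ p)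
    (hNod : ∀ W : laurentBaseChange Qb (modularFunctionFieldFull (M * q)) ≃ₐ[Qb]
      laurentBaseChange Qb (modularFunctionFieldFull (M * q)), IsAL M q W → NodalFibreAt h W) :
    MonodromyAt (M * q) p A := by
  intro σ hσ τ hτ x hx
  obtain ⟨n, hx⟩ := hx
  obtain ⟨W, hW⟩ := exists_isAL_Qb h
  exact monodromy_core hπ h W (latBad A k π hπ M q h W hW) (galoisBad A k π hπ M q h W hW hA)
    (hNod W hW) p n hp hqp σ τ hσ hτ x hx

/-- **BAD-U from the nodal fibres at the good pairs**: `TorsionMonodromy N p` for all `N`, `p`. -/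
theorem torsionMonodromy_of_nodalFibre
    (hNod : ∀ (A : ValuationSubring Qb) (k : Type) [Field k] [IsAlgClosed k] (π : A →+* k),
      Function.Surjective π → ∀ (M q : ℕ) [NeZero M] [NeZero q] (h : BadSetup A π M q),
      A.LiesOverPrime q → (5 ≤ q ∨ (q = 3 ∧ 2 ∣ M) ∨ (q = 2 ∧ 3 ∣ M)) →
      ∀ W : laurentBaseChange Qb (modularFunctionFieldFull (M * q)) ≃ₐ[Qb]
        laurentBaseChange Qb (modularFunctionFieldFull (M * q)), IsAL M q W → NodalFibreAt h W)
    (N p : ℕ) [NeZero N] (hp : p.Prime) : TorsionMonodromy N p := by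
  refine torsionMonodromy_of_good p hp (fun N _ q hq hqp hqN hq2 hgood A hA => ?_) N
  obtain ⟨M, hM⟩ := hqN
  have hN : N = M * q := by rw [hM, mul_comm]
  subst hN
  have : NeZero q := ⟨hq.ne_zero⟩
  have : NeZero M := ⟨by
    rintro rfl
    exact (NeZero.ne (0 * q)) (zero_mul q)⟩
  have hqM : ¬ q ∣ M := by
    rintro ⟨t, rfl⟩
    exact hq2 ⟨t, by ring⟩
  have hgood' : 5 ≤ q ∨ (q = 3 ∧ 2 ∣ M) ∨ (q = 2 ∧ 3 ∣ M) := by
    rcases hgood with h5 | ⟨rfl, h2⟩ | ⟨rfl, h3⟩
    · exact Or.inl h5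
    · exact Or.inr (Or.inl ⟨rfl, (Nat.Coprime.dvd_of_dvd_mul_right (by norm_num) h2)⟩)
    · exact Or.inr (Or.inr ⟨rfl, (Nat.Coprime.dvd_of_dvd_mul_right (by norm_num) h3)⟩)
  have : IsAlgClosed (IsLocalRing.ResidueField A) := CharP.isAlgClosed_residueField A
  have hπ0 : ∀ a : A, ¬ IsUnit a → IsLocalRing.residue A a = 0 := fun a ha =>
    (IsLocalRing.residue_eq_zero_iff a).mpr ((IsLocalRing.mem_maximalIdeal a).mpr ha)
  have h : BadSetup A (IsLocalRing.residue A) M q :=
    badSetup_of_liesOver A _ hπ0 M q hq hA hqM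
  exact monodromyAt_of_nodalFibreAt A (IsLocalRing.ResidueField A) (IsLocalRing.residue A)
    IsLocalRing.residue_surjective M q h hA p hp hqp
    (hNod A (IsLocalRing.ResidueField A) (IsLocalRing.residue A) IsLocalRing.residue_surjective
      M q h hA hgood')

/-! ### The same, with the names of directive #2180 (`LatAt`, `GaloisAt`, residue-field form) -/

section atNames

variable {A : ValuationSubring Qb} {k : Type} [Field k] {π : A →+* k} {M q : ℕ} [NeZero M]
  [NeZero q]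

/-- (LAT) for one tuple: the body of `LatBad`. -/
def LatAt (h : BadSetup A π M q)
    (W : laurentBaseChange Qb (modularFunctionFieldFull (M * q)) ≃ₐ[Qb]
      laurentBaseChange Qb (modularFunctionFieldFull (M * q))) : Prop :=
  ∀ B : Divisor Qb (laurentBaseChange Qb (modularFunctionFieldFull (M * q))),
    HasOrtho A (OPair h W) (riemannRochSpace B)

/-- (GAL) for one tuple: the body of `GaloisBad`. -/
def GaloisAt (h : BadSetup A π M q)
    (W : laurentBaseChange Qb (modularFunctionFieldFull (M * q)) ≃ₐ[Qb]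
      laurentBaseChange Qb (modularFunctionFieldFull (M * q))) : Prop :=
  ∀ σ ∈ A.inertiaSubgroupIn ℚ,
    ∀ y : laurentBaseChange Qb (modularFunctionFieldFull (M * q)),
      (∀ hy : y ∈ OInf h, ∃ hy' : arithmeticGalois (modularFunctionFieldFull (M * q)) σ • y ∈
          OInf h, redInf h ⟨_, hy'⟩ = redInf h ⟨y, hy⟩) ∧
      (∀ hy : y ∈ OZero h W, ∃ hy' : arithmeticGalois (modularFunctionFieldFull (M * q)) σ • y ∈
          OZero h W, redZero h W ⟨_, hy'⟩ = redZero h W ⟨y, hy⟩)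

theorem latAt [IsAlgClosed k] (hπ : Function.Surjective π) (h : BadSetup A π M q)
    (W : laurentBaseChange Qb (modularFunctionFieldFull (M * q)) ≃ₐ[Qb]
      laurentBaseChange Qb (modularFunctionFieldFull (M * q))) (hW : IsAL M q W) : LatAt h W :=
  latBad A k π hπ M q h W hW

theorem galoisAt [IsAlgClosed k] (hπ : Function.Surjective π) (h : BadSetup A π M q)
    (W : laurentBaseChange Qb (modularFunctionFieldFull (M * q)) ≃ₐ[Qb]
      laurentBaseChange Qb (modularFunctionFieldFull (M * q))) (hW : IsAL M q W)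
    (hA : A.LiesOverPrime q) : GaloisAt h W :=
  galoisBad A k π hπ M q h W hW hA

end atNames

/-- `MonodromyAt (M * q) p A` from the three properties for every Atkin–Lehner involution. -/
theorem monodromyAt_of_bad (A : ValuationSubring Qb) (k : Type) [Field k] [IsAlgClosed k]
    (π : A →+* k) (hπ : Function.Surjective π) (M q : ℕ) [NeZero M] [NeZero q]
    (h : BadSetup A π M q)
    (hLat : ∀ W : laurentBaseChange Qb (modularFunctionFieldFull (M * q)) ≃ₐ[Qb]
      laurentBaseChange Qb (modularFunctionFieldFull (M * q)), IsAL M q W → LatAt h W)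
    (hGal : ∀ W : laurentBaseChange Qb (modularFunctionFieldFull (M * q)) ≃ₐ[Qb]
      laurentBaseChange Qb (modularFunctionFieldFull (M * q)), IsAL M q W → GaloisAt h W)
    (hNod : ∀ W : laurentBaseChange Qb (modularFunctionFieldFull (M * q)) ≃ₐ[Qb]
      laurentBaseChange Qb (modularFunctionFieldFull (M * q)), IsAL M q W → NodalFibreAt h W)
    (p : ℕ) (hp : p.Prime) (hqp : q ≠ p) : MonodromyAt (M * q) p A := by
  intro σ hσ τ hτ x hx
  obtain ⟨n, hx⟩ := hx
  obtain ⟨W, hW⟩ := exists_isAL_Qb h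
  exact monodromy_core hπ h W (hLat W hW) (hGal W hW) (hNod W hW) p n hp hqp σ τ hσ hτ x hx

/-- **BAD-U from the nodal fibres at the good pairs** (residue-field form): the only remaining
input of `TorsionMonodromy` is `NodalFibreAt h W` at every good pair, for the residue map of `A`. -/
theorem torsionMonodromy_of_nodal
    (hNod : ∀ (A : ValuationSubring Qb) (M q : ℕ) [NeZero M] [NeZero q]
      (h : BadSetup A (IsLocalRing.residue A) M q), A.LiesOverPrime q →
      (5 ≤ q ∨ (q = 3 ∧ 2 ∣ M) ∨ (q = 2 ∧ 3 ∣ M)) →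
      ∀ W : laurentBaseChange Qb (modularFunctionFieldFull (M * q)) ≃ₐ[Qb]
        laurentBaseChange Qb (modularFunctionFieldFull (M * q)), IsAL M q W → NodalFibreAt h W)
    (N p : ℕ) [NeZero N] (hp : p.Prime) : TorsionMonodromy N p := by
  refine torsionMonodromy_of_good p hp (fun N _ q hq hqp hqN hq2 hgood A hA => ?_) N
  obtain ⟨M, hM⟩ := hqN
  have hN : N = M * q := by rw [hM, mul_comm]
  subst hN
  have : NeZero q := ⟨hq.ne_zero⟩
  have : NeZero M := ⟨by
    rintro rfl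
    exact (NeZero.ne (0 * q)) (zero_mul q)⟩
  have hqM : ¬ q ∣ M := by
    rintro ⟨t, rfl⟩
    exact hq2 ⟨t, by ring⟩
  have hgood' : 5 ≤ q ∨ (q = 3 ∧ 2 ∣ M) ∨ (q = 2 ∧ 3 ∣ M) := by
    rcases hgood with h5 | ⟨rfl, h2⟩ | ⟨rfl, h3⟩
    · exact Or.inl h5
    · exact Or.inr (Or.inl ⟨rfl, (Nat.Coprime.dvd_of_dvd_mul_right (by norm_num) h2)⟩)
    · exact Or.inr (Or.inr ⟨rfl, (Nat.Coprime.dvd_of_dvd_mul_right (by norm_num) h3)⟩)
  have : IsAlgClosed (IsLocalRing.ResidueField A) := CharP.isAlgClosed_residueField A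
  have hπ0 : ∀ a : A, ¬ IsUnit a → IsLocalRing.residue A a = 0 := fun a ha =>
    (IsLocalRing.residue_eq_zero_iff a).mpr ((IsLocalRing.mem_maximalIdeal a).mpr ha)
  have h : BadSetup A (IsLocalRing.residue A) M q :=
    badSetup_of_liesOver A _ hπ0 M q hq hA hqM
  exact monodromyAt_of_nodalFibreAt A (IsLocalRing.ResidueField A) (IsLocalRing.residue A)
    IsLocalRing.residue_surjective M q h hA p hp hqp (hNod A M q h hA hgood')

end Fermat.Agent.BAD.BadU
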