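import Mathlib
import Fermat.Prelude.Def_AlgebraicCurve_Repartitions

/-!
# BAD: pole orders of two functions related by a symmetric modular equation (`C2`)

Abstract form of the cusp estimate `|ord_c J_{qM}| ≤ q · |ord_c J_M|`.

Let `F/L` be a function field, `Y1 Y2 : F` and `Φ ∈ L[X][Y]` monic of degree `q + 1` in the
outer variable with `Φ(Y1, Y2) = 0 = Φ(Y2, Y1)` (inner variable first), such that `Φ(Y1, ·)` is
the minimal polynomial of `Y2` over `L(Y1)`, in the form: no nonzero `R ∈ L[X][Y]` of outer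
degree `≤ q` vanishes at `(Y1, Y2)`.  Then

* `swap_eq_C_mul` : `Φ(Y, X) = c · Φ(X, Y)` for a constant `c`;
* `natDegree_coeff_le`, `natDegree_coeff_le'` : every monomial `X^i Y^j` of `Φ` has `i ≤ q + 1`,
  and `i ≤ q` when `j ≥ 1`;
* `ord_le_of_modEq` : at every place `P` with `ord_P Y1 < 0`: `q · ord_P Y1 ≤ ord_P Y2`.
-/

set_option autoImplicit false

noncomputable section

namespace Fermat.Agent.BAD.CuspOrd

open Polynomial AlgebraicCurve WithZero
open scoped Polynomial.Bivariate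

section Swap

variable {R : Type*} [CommRing R]

/-- The coefficients of the swapped polynomial. -/
theorem coeff_coeff_swap (p : R[X][Y]) (i j : ℕ) :
    ((Bivariate.swap p).coeff i).coeff j = (p.coeff j).coeff i := by
  induction p using Polynomial.induction_on' with
  | add p q hp hq => rw [map_add, coeff_add, coeff_add, coeff_add, coeff_add, hp, hq]
  | monomial n a =>
    induction a using Polynomial.induction_on' with
    | add a b ha hb =>
      rw [map_add, map_add, coeff_add, coeff_add, ha, hb, coeff_add, coeff_add]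
    | monomial m r =>
      rw [Bivariate.swap_monomial_monomial, coeff_monomial, coeff_monomial]
      by_cases h1 : m = i
      · by_cases h2 : n = j
        · rw [if_pos h1, if_pos h2, coeff_monomial, coeff_monomial, if_pos h2, if_pos h1]
        · rw [if_pos h1, if_neg h2, coeff_monomial, if_neg h2, coeff_zero]
      · by_cases h2 : n = j
        · rw [if_neg h1, if_pos h2, coeff_zero, coeff_monomial, if_neg h1]
        · rw [if_neg h1, if_neg h2, coeff_zero, coeff_zero]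

/-- Evaluation of a bivariate polynomial as a sum over the outer coefficients. -/
theorem aevalAeval_eq_sum {A : Type*} [CommRing A] [Algebra R A] (x y : A) (p : R[X][Y])
    (n : ℕ) (hn : p.natDegree < n) :
    aevalAeval x y p = ∑ j ∈ Finset.range n, aeval x (p.coeff j) * y ^ j := by
  conv_lhs => rw [p.as_sum_range' n hn]
  rw [map_sum]
  refine Finset.sum_congr rfl fun j _ => ?_
  rw [← C_mul_X_pow_eq_monomial, map_mul, map_pow, aevalAeval_C, aevalAeval_Y]

/-- Algebra homomorphisms commute with `aevalAeval`. -/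
theorem map_aevalAeval {A B : Type*} [CommRing A] [CommRing B] [Algebra R A] [Algebra R B]
    (φ : A →ₐ[R] B) (x y : A) (p : R[X][Y]) :
    φ (aevalAeval x y p) = aevalAeval (φ x) (φ y) p := by
  rw [aevalAeval_eq_sum x y p _ (Nat.lt_succ_self _),
    aevalAeval_eq_sum (φ x) (φ y) p _ (Nat.lt_succ_self _), map_sum]
  refine Finset.sum_congr rfl fun j _ => ?_
  rw [map_mul, map_pow, aeval_algHom_apply]

end Swap

section Shape

variable {L F : Type*} [Field L] [Field F] [Algebra L F]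

/-- A polynomial vanishing at `(Y1, Y2)` is divisible by the minimal relation `Φ`. -/
theorem dvd_of_indep (Φ : L[X][Y]) (hΦm : Φ.Monic) (hΦ1 : Φ ≠ 1) (Y1 Y2 : F)
    (h₁ : aevalAeval Y1 Y2 Φ = 0)
    (hindep : ∀ R : L[X][Y], R.natDegree < Φ.natDegree → aevalAeval Y1 Y2 R = 0 → R = 0)
    (G : L[X][Y]) (hG : aevalAeval Y1 Y2 G = 0) : Φ ∣ G := by
  have h1 := modByMonic_add_div G Φ
  have h2 : aevalAeval Y1 Y2 (G %ₘ Φ) = 0 := by
    have h := congrArg (aevalAeval Y1 Y2) h1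
    rw [map_add, map_mul, h₁, zero_mul, add_zero, hG] at h
    exact h
  have h3 : (G %ₘ Φ).natDegree < Φ.natDegree := natDegree_modByMonic_lt G hΦm hΦ1
  exact (modByMonic_eq_zero_iff_dvd hΦm).1 (hindep _ h3 h2)

/-- **Symmetry.**  `Φ(Y, X) = c · Φ(X, Y)`. -/
theorem swap_eq_C_mul (Φ : L[X][Y]) (hΦm : Φ.Monic) (hΦ1 : Φ ≠ 1) (Y1 Y2 : F)
    (h₁ : aevalAeval Y1 Y2 Φ = 0) (h₂ : aevalAeval Y2 Y1 Φ = 0)
    (hindep : ∀ R : L[X][Y], R.natDegree < Φ.natDegree → aevalAeval Y1 Y2 R = 0 → R = 0) :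
    ∃ c : L, Bivariate.swap Φ = C (C c) * Φ := by
  have hΦ0 : Φ ≠ 0 := hΦm.ne_zero
  have hswap : aevalAeval Y1 Y2 (Bivariate.swap Φ) = 0 := by
    rw [Bivariate.aevalAeval_swap, h₂]
  obtain ⟨Q, hQ⟩ := dvd_of_indep Φ hΦm hΦ1 Y1 Y2 h₁ hindep _ hswap
  have hΨ0 : Bivariate.swap Φ ≠ 0 := by
    intro h0
    apply hΦ0
    have := congrArg Bivariate.swap h0
    rwa [Bivariate.swap_swap_apply, map_zero] at this
  have hQ0 : Q ≠ 0 := by
    rintro rfl
    rw [mul_zero] at hQ
    exact hΨ0 hQ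
  have hsQ0 : Bivariate.swap Q ≠ 0 := by
    intro h0
    apply hQ0
    have := congrArg Bivariate.swap h0
    rwa [Bivariate.swap_swap_apply, map_zero] at this
  have hd1 : (Bivariate.swap Φ).natDegree = Φ.natDegree + Q.natDegree := by
    rw [hQ, natDegree_mul hΦ0 hQ0]
  have hΦeq : Φ = Bivariate.swap Φ * Bivariate.swap Q := by
    have := congrArg Bivariate.swap hQ
    rwa [Bivariate.swap_swap_apply, map_mul] at this
  have hd2 : Φ.natDegree = (Bivariate.swap Φ).natDegree + (Bivariate.swap Q).natDegree := by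
    conv_lhs => rw [hΦeq]
    rw [natDegree_mul hΨ0 hsQ0]
  have hQd : Q.natDegree = 0 := by omega
  have hsQd : (Bivariate.swap Q).natDegree = 0 := by omega
  obtain ⟨Q₀, hQ₀⟩ : ∃ Q₀ : L[X], Q = C Q₀ := ⟨_, eq_C_of_natDegree_eq_zero hQd⟩
  rw [hQ₀, Bivariate.swap_C, natDegree_map_eq_of_injective C_injective] at hsQd
  obtain ⟨c, hc⟩ : ∃ c : L, Q₀ = C c := ⟨_, eq_C_of_natDegree_eq_zero hsQd⟩
  exact ⟨c, by rw [hQ, hQ₀, hc, mul_comm]⟩

/-- The coefficient symmetry `φ_{ij} = c · φ_{ji}`. -/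
theorem coeff_coeff_symm {Φ : L[X][Y]} {c : L} (hc : Bivariate.swap Φ = C (C c) * Φ) (i j : ℕ) :
    (Φ.coeff i).coeff j = c * (Φ.coeff j).coeff i := by
  rw [← coeff_coeff_swap Φ j i, hc, coeff_C_mul, coeff_C_mul]

/-- Every monomial `X^i Y^j` of `Φ` has `i ≤ deg_Y Φ`. -/
theorem natDegree_coeff_le {Φ : L[X][Y]} {c : L} (hc : Bivariate.swap Φ = C (C c) * Φ)
    (j : ℕ) : (Φ.coeff j).natDegree ≤ Φ.natDegree := by
  rw [natDegree_le_iff_coeff_eq_zero]
  intro i hi
  rw [coeff_coeff_symm hc, coeff_eq_zero_of_natDegree_lt hi, coeff_zero, mul_zero]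

/-- A monomial `X^i Y^j` of `Φ` with `j ≥ 1` has `i < deg_Y Φ`. -/
theorem natDegree_coeff_lt {Φ : L[X][Y]} (hΦm : Φ.Monic) {c : L}
    (hc : Bivariate.swap Φ = C (C c) * Φ) (j : ℕ) (hj : j ≠ 0) (i : ℕ) (hi : Φ.natDegree ≤ i) :
    (Φ.coeff j).coeff i = 0 := by
  rw [coeff_coeff_symm hc]
  rcases hi.lt_or_eq with hi | hi
  · rw [coeff_eq_zero_of_natDegree_lt hi, coeff_zero, mul_zero]
  · rw [← hi, coeff_natDegree, hΦm.leadingCoeff, coeff_one, if_neg hj, mul_zero]

end Shape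

section Val

variable {L F : Type*} [Field L] [Field F] [Algebra L F]

/-- The valuation of a polynomial (with constant coefficients) in a function with a pole. -/
theorem adicValuation_aeval_le (P : Place L F) {y : F} (hy : 1 ≤ P.adicValuation y) (p : L[X])
    (n : ℕ) (hn : ∀ i, n < i → p.coeff i = 0) :
    P.adicValuation (aeval y p) ≤ P.adicValuation y ^ n := by
  rw [aeval_eq_sum_range]
  refine Valuation.map_sum_le _ fun i _ => ?_
  by_cases hi : n < i
  · rw [hn i hi, zero_smul, map_zero]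
    exact zero_le
  · rw [Algebra.smul_def, map_mul, map_pow]
    calc P.adicValuation (algebraMap L F (p.coeff i)) * P.adicValuation y ^ i
        ≤ 1 * P.adicValuation y ^ i :=
          mul_le_mul_left (P.adicValuation_algebraMap_le_one _) _
      _ = P.adicValuation y ^ i := one_mul _
      _ ≤ P.adicValuation y ^ n := pow_le_pow_right₀ hy (not_lt.1 hi)

/-- If `Φ(Y1, Y2) = 0` with `Φ` monic in the outer variable, then `Y2` is regular wherever `Y1`
is (`Y2` is integral over `L[Y1]`). -/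
theorem ord_nonneg_of_rel (Φ : L[X][Y]) (hΦm : Φ.Monic) (Y1 Y2 : F)
    (h₁ : aevalAeval Y1 Y2 Φ = 0) (P : Place L F) (hP : 0 ≤ P.ord Y1) : 0 ≤ P.ord Y2 := by
  by_contra hcon
  rw [not_le] at hcon
  have hY2 : Y2 ≠ 0 := by
    rintro rfl
    rw [Place.ord_zero] at hcon
    exact lt_irrefl _ hcon
  obtain ⟨B, hB⟩ : ∃ B, B = P.adicValuation Y2 := ⟨_, rfl⟩
  have hBexp : B = exp (-(P.ord Y2)) := by rw [hB, P.adicValuation_eq_exp_neg_ord hY2]
  have h1B : 1 < B := by
    rw [hBexp, ← exp_zero, exp_lt_exp]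
    omega
  have hB0 : B ≠ 0 := by
    rw [hBexp]
    exact exp_ne_zero
  have hA : P.adicValuation Y1 ≤ 1 := by
    by_cases hY1 : Y1 = 0
    · rw [hY1, map_zero]
      exact zero_le
    · rw [P.adicValuation_eq_exp_neg_ord hY1, ← exp_zero, exp_le_exp]
      omega
  have hcoef : ∀ p : L[X], P.adicValuation (aeval Y1 p) ≤ 1 := by
    intro p
    rw [aeval_eq_sum_range]
    refine Valuation.map_sum_le _ fun i _ => ?_
    rw [Algebra.smul_def, map_mul, map_pow]
    calc P.adicValuation (algebraMap L F (p.coeff i)) * P.adicValuation Y1 ^ i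
        ≤ 1 * 1 := mul_le_mul' (P.adicValuation_algebraMap_le_one _) (pow_le_one₀ zero_le hA)
      _ = 1 := one_mul 1
  obtain ⟨n, hn⟩ : ∃ n, n = Φ.natDegree := ⟨_, rfl⟩
  have hsum := aevalAeval_eq_sum Y1 Y2 Φ (n + 1) (by rw [hn]; omega)
  rw [h₁, Finset.sum_range_succ] at hsum
  have hlead : Φ.coeff n = 1 := by
    rw [hn, coeff_natDegree, hΦm.leadingCoeff]
  rw [hlead, map_one, one_mul] at hsum
  have hY2pow : Y2 ^ n = -∑ j ∈ Finset.range n, aeval Y1 (Φ.coeff j) * Y2 ^ j := by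
    linear_combination -hsum
  have hlt : P.adicValuation (∑ j ∈ Finset.range n, aeval Y1 (Φ.coeff j) * Y2 ^ j) < B ^ n := by
    refine Valuation.map_sum_lt _ (pow_ne_zero _ hB0) fun j hj => ?_
    have hjn : j < n := Finset.mem_range.1 hj
    rw [map_mul, map_pow, ← hB]
    calc P.adicValuation (aeval Y1 (Φ.coeff j)) * B ^ j
        ≤ 1 * B ^ j := mul_le_mul_left (hcoef _) _
      _ = B ^ j := one_mul _
      _ < B ^ n := pow_lt_pow_right₀ h1B hjn
  have hval : P.adicValuation (Y2 ^ n) = B ^ n := by rw [map_pow, hB]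
  rw [hY2pow, Valuation.map_neg] at hval
  rw [hval] at hlt
  exact lt_irrefl _ hlt

/-- **The cusp estimate (`C2`).**  If `Φ(Y1, Y2) = 0 = Φ(Y2, Y1)` for a monic `Φ` of degree
`q + 1` which is the minimal relation of `Y2` over `L(Y1)`, then at every pole `P` of `Y1`:
`q · ord_P Y1 ≤ ord_P Y2`. -/
theorem ord_le_of_modEq (q : ℕ) (hq : 1 ≤ q) (Φ : L[X][Y]) (hΦm : Φ.Monic)
    (hΦd : Φ.natDegree = q + 1) (Y1 Y2 : F)
    (h₁ : aevalAeval Y1 Y2 Φ = 0) (h₂ : aevalAeval Y2 Y1 Φ = 0)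
    (hindep : ∀ R : L[X][Y], R.natDegree < q + 1 → aevalAeval Y1 Y2 R = 0 → R = 0)
    (P : Place L F) (hP : P.ord Y1 < 0) : (q : ℤ) * P.ord Y1 ≤ P.ord Y2 := by
  by_contra hcon
  rw [not_le] at hcon
  have hΦ1 : Φ ≠ 1 := by
    intro h1
    rw [h1, natDegree_one] at hΦd
    omega
  obtain ⟨c, hc⟩ := swap_eq_C_mul Φ hΦm hΦ1 Y1 Y2 h₁ h₂ (by rw [hΦd]; exact hindep)
  have hY1 : Y1 ≠ 0 := by
    rintro rfl
    rw [Place.ord_zero] at hP
    exact lt_irrefl _ hP
  have hqpos : (0 : ℤ) < q := by exact_mod_cast hq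
  have hY2 : Y2 ≠ 0 := by
    rintro rfl
    rw [Place.ord_zero] at hcon
    nlinarith
  -- the valuations
  obtain ⟨A, hA⟩ : ∃ A, A = P.adicValuation Y1 := ⟨_, rfl⟩
  obtain ⟨B, hB⟩ : ∃ B, B = P.adicValuation Y2 := ⟨_, rfl⟩
  have hAexp : A = exp (-(P.ord Y1)) := by rw [hA, P.adicValuation_eq_exp_neg_ord hY1]
  have hBexp : B = exp (-(P.ord Y2)) := by rw [hB, P.adicValuation_eq_exp_neg_ord hY2]
  have h1A : 1 ≤ A := by
    rw [hAexp, ← exp_zero, exp_le_exp]
    omega
  have hAB : A ^ q < B := by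
    rw [hAexp, hBexp, ← exp_nsmul, exp_lt_exp, nsmul_eq_mul]
    linarith
  have hAleAq : A ≤ A ^ q := by
    calc A = A ^ 1 := (pow_one A).symm
      _ ≤ A ^ q := pow_le_pow_right₀ h1A hq
  have hAltB : A < B := lt_of_le_of_lt hAleAq hAB
  have h1B : 1 ≤ B := h1A.trans hAltB.le
  have hB0 : B ≠ 0 := by
    rw [hBexp]
    exact exp_ne_zero
  -- the relation
  have hsum := aevalAeval_eq_sum Y1 Y2 Φ (q + 2) (by rw [hΦd]; omega)
  rw [h₁, Finset.sum_range_succ] at hsum
  have hlead : Φ.coeff (q + 1) = 1 := by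
    rw [← hΦd, coeff_natDegree, hΦm.leadingCoeff]
  rw [hlead, map_one, one_mul] at hsum
  have hY2pow : Y2 ^ (q + 1) =
      -∑ j ∈ Finset.range (q + 1), aeval Y1 (Φ.coeff j) * Y2 ^ j := by
    linear_combination -hsum
  have hlt : P.adicValuation (∑ j ∈ Finset.range (q + 1), aeval Y1 (Φ.coeff j) * Y2 ^ j) <
      B ^ (q + 1) := by
    refine Valuation.map_sum_lt _ (pow_ne_zero _ hB0) fun j hj => ?_
    have hjq : j < q + 1 := Finset.mem_range.1 hj
    rw [map_mul, map_pow, ← hB]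
    by_cases hj0 : j = 0
    · subst hj0
      rw [pow_zero, mul_one]
      have h1 : P.adicValuation (aeval Y1 (Φ.coeff 0)) ≤ A ^ (q + 1) := by
        rw [hA]
        refine adicValuation_aeval_le P (by rw [← hA]; exact h1A) _ _ fun i hi => ?_
        have := natDegree_coeff_le hc 0
        rw [hΦd] at this
        exact coeff_eq_zero_of_natDegree_lt (lt_of_le_of_lt this hi)
      exact lt_of_le_of_lt h1 (pow_lt_pow_left₀ hAltB zero_le (by omega))
    · have h1 : P.adicValuation (aeval Y1 (Φ.coeff j)) ≤ A ^ q := by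
        rw [hA]
        refine adicValuation_aeval_le P (by rw [← hA]; exact h1A) _ _ fun i hi => ?_
        exact natDegree_coeff_lt hΦm hc j hj0 i (by rw [hΦd]; omega)
      have hBj : 0 < B ^ j := pow_pos (lt_of_lt_of_le zero_lt_one h1B) j
      calc P.adicValuation (aeval Y1 (Φ.coeff j)) * B ^ j
          ≤ A ^ q * B ^ j := mul_le_mul_left h1 _
        _ < B * B ^ j := mul_lt_mul_of_pos_right hAB hBj
        _ = B ^ (j + 1) := (pow_succ' B j).symm
        _ ≤ B ^ (q + 1) := pow_le_pow_right₀ h1B (by omega)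
  have hval : P.adicValuation (Y2 ^ (q + 1)) = B ^ (q + 1) := by rw [map_pow, hB]
  rw [hY2pow, Valuation.map_neg] at hval
  rw [hval] at hlt
  exact lt_irrefl _ hlt

end Val

/-! ### Conversion of coordinates: `Y1` is integral over `R[Y1 * Y2]` -/

section Conversion

variable {R S : Type*} [CommRing R] [CommRing S] [Algebra R S]

/-- `s` is an `R[x]`-combination of `1, y, …, y^(d-1)` with coefficient polynomials in `B`. -/
def Repr (B : Subring R[X]) (x y : S) (d : ℕ) (s : S) : Prop :=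
  ∃ e : Fin d → R[X], (∀ j, e j ∈ B) ∧ s = ∑ j, aeval x (e j) * y ^ (j : ℕ)

theorem Repr.zero (B : Subring R[X]) (x y : S) (d : ℕ) : Repr B x y d 0 :=
  ⟨fun _ => 0, fun _ => B.zero_mem, by simp⟩

theorem Repr.add {B : Subring R[X]} {x y : S} {d : ℕ} {s t : S} (hs : Repr B x y d s)
    (ht : Repr B x y d t) : Repr B x y d (s + t) := by
  obtain ⟨e, he, rfl⟩ := hs
  obtain ⟨e', he', rfl⟩ := ht
  refine ⟨fun j => e j + e' j, fun j => B.add_mem (he j) (he' j), ?_⟩
  rw [← Finset.sum_add_distrib]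
  refine Finset.sum_congr rfl fun j _ => ?_
  rw [map_add, add_mul]

theorem Repr.smul {B : Subring R[X]} {x y : S} {d : ℕ} {s : S} (hs : Repr B x y d s)
    {p : R[X]} (hp : p ∈ B) : Repr B x y d (aeval x p * s) := by
  obtain ⟨e, he, rfl⟩ := hs
  refine ⟨fun j => p * e j, fun j => B.mul_mem hp (he j), ?_⟩
  rw [Finset.mul_sum]
  refine Finset.sum_congr rfl fun j _ => ?_
  rw [map_mul, mul_assoc]

theorem Repr.sum {B : Subring R[X]} {x y : S} {d : ℕ} {ι : Type*} (T : Finset ι) (f : ι → S)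
    (hf : ∀ i ∈ T, Repr B x y d (f i)) : Repr B x y d (∑ i ∈ T, f i) := by
  classical
  induction T using Finset.induction_on with
  | empty => rw [Finset.sum_empty]; exact Repr.zero B x y d
  | insert a T ha ih =>
    rw [Finset.sum_insert ha]
    exact (hf a (Finset.mem_insert_self a T)).add
      (ih fun i hi => hf i (Finset.mem_insert_of_mem hi))

theorem Repr.pow_of_lt (B : Subring R[X]) (x y : S) {d m : ℕ} (hm : m < d) :
    Repr B x y d (y ^ m) := by
  classical
  refine ⟨fun j => if (j : ℕ) = m then 1 else 0, fun j => ?_, ?_⟩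
  · show (if (j : ℕ) = m then (1 : R[X]) else 0) ∈ B
    split_ifs
    · exact B.one_mem
    · exact B.zero_mem
  · rw [Finset.sum_eq_single (⟨m, hm⟩ : Fin d)]
    · simp
    · intro j _ hj
      have : (j : ℕ) ≠ m := fun h => hj (Fin.ext h)
      simp [this]
    · intro h
      exact absurd (Finset.mem_univ _) h

/-- **Conversion.**  Let `Φ(Y1, Y2) = 0` where every monomial `X^i Y^j` of `Φ` has `i, j ≤ n`
and the coefficient of `X^n Y^0` is a unit.  Then every power of `Y1` is an `R[Y1 * Y2]`-linear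
combination of `1, Y1, …, Y1^(2n-1)` (with coefficient polynomials in any subring `B` of `R[X]`
containing `X`, the coefficients of `Φ` and the inverse of that unit). -/
theorem repr_pow (n : ℕ) (Φ : R[X][Y]) (hout : Φ.natDegree ≤ n)
    (hin : ∀ j, (Φ.coeff j).natDegree ≤ n) (u : R) (hu : u * (Φ.coeff 0).coeff n = 1)
    (B : Subring R[X]) (hX : (X : R[X]) ∈ B) (hΦ : ∀ i j, C ((Φ.coeff j).coeff i) ∈ B)
    (huB : C u ∈ B) (Y1 Y2 : S) (h₁ : aevalAeval Y1 Y2 Φ = 0) (m : ℕ) :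
    Repr B (Y1 * Y2) Y1 (2 * n) (Y1 ^ m) := by
  classical
  induction m using Nat.strong_induction_on with
  | _ m ih =>
    by_cases hm : m < 2 * n
    · exact Repr.pow_of_lt B _ _ hm
    rw [not_lt] at hm
    -- the relation as a double sum
    have hsum := aevalAeval_eq_sum Y1 Y2 Φ (n + 1) (Nat.lt_succ_of_le hout)
    rw [h₁] at hsum
    have hdouble : ∑ p ∈ Finset.range (n + 1) ×ˢ Finset.range (n + 1),
        algebraMap R S ((Φ.coeff p.2).coeff p.1) * (Y1 * Y2) ^ p.2 * Y1 ^ (m - n + p.1 - p.2) =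
        0 := by
      rw [Finset.sum_product_right]
      have h2 : (0 : S) = Y1 ^ (m - n) * ∑ j ∈ Finset.range (n + 1),
          aeval Y1 (Φ.coeff j) * Y2 ^ j := by rw [← hsum, mul_zero]
      rw [h2, Finset.mul_sum]
      refine Finset.sum_congr rfl fun j hj => ?_
      have hjn : j ≤ n := Nat.lt_succ_iff.1 (Finset.mem_range.1 hj)
      rw [aeval_eq_sum_range' (Nat.lt_succ_of_le (hin j)), Finset.sum_mul, Finset.mul_sum]
      refine Finset.sum_congr rfl fun i _ => ?_
      have hexp : m - n + i = (m - n + i - j) + j := by omega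
      rw [Algebra.smul_def, mul_pow]
      have h3 : Y1 ^ (m - n) * Y1 ^ i = Y1 ^ (m - n + i - j) * Y1 ^ j := by
        rw [← pow_add, ← pow_add, ← hexp]
      calc algebraMap R S ((Φ.coeff j).coeff i) * (Y1 ^ j * Y2 ^ j) * Y1 ^ (m - n + i - j)
          = algebraMap R S ((Φ.coeff j).coeff i) * Y2 ^ j * (Y1 ^ (m - n + i - j) * Y1 ^ j) := by
            ring
        _ = algebraMap R S ((Φ.coeff j).coeff i) * Y2 ^ j * (Y1 ^ (m - n) * Y1 ^ i) := by rw [h3]
        _ = Y1 ^ (m - n) * (algebraMap R S ((Φ.coeff j).coeff i) * Y1 ^ i * Y2 ^ j) := by ring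
    have hmem : ((n, 0) : ℕ × ℕ) ∈ Finset.range (n + 1) ×ˢ Finset.range (n + 1) := by
      rw [Finset.mem_product, Finset.mem_range, Finset.mem_range]
      exact ⟨Nat.lt_succ_self n, Nat.succ_pos n⟩
    rw [← Finset.add_sum_erase _ _ hmem] at hdouble
    have hmn : m - n + n - 0 = m := by omega
    rw [pow_zero, mul_one, hmn] at hdouble
    have hYm : Y1 ^ m = ∑ p ∈ (Finset.range (n + 1) ×ˢ Finset.range (n + 1)).erase (n, 0),
        aeval (Y1 * Y2) (C (-u) * C ((Φ.coeff p.2).coeff p.1) * X ^ p.2) *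
          Y1 ^ (m - n + p.1 - p.2) := by
      have h4 : algebraMap R S ((Φ.coeff 0).coeff n) * Y1 ^ m =
          -∑ p ∈ (Finset.range (n + 1) ×ˢ Finset.range (n + 1)).erase (n, 0),
            algebraMap R S ((Φ.coeff p.2).coeff p.1) * (Y1 * Y2) ^ p.2 *
              Y1 ^ (m - n + p.1 - p.2) := by
        linear_combination hdouble
      have h5 : Y1 ^ m = algebraMap R S u * (algebraMap R S ((Φ.coeff 0).coeff n) * Y1 ^ m) := by
        rw [← mul_assoc, ← map_mul, hu, map_one, one_mul]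
      rw [h5, h4, mul_neg, ← neg_mul, Finset.mul_sum]
      refine Finset.sum_congr rfl fun p _ => ?_
      rw [map_mul, map_mul, map_pow, aeval_C, aeval_C, aeval_X, map_neg]
      ring
    rw [hYm]
    refine Repr.sum _ _ fun p hp => ?_
    have hp' := Finset.mem_erase.1 hp
    have hp2 := Finset.mem_product.1 hp'.2
    have hi : p.1 ≤ n := Nat.lt_succ_iff.1 (Finset.mem_range.1 hp2.1)
    have hj : p.2 ≤ n := Nat.lt_succ_iff.1 (Finset.mem_range.1 hp2.2)
    have hlt : m - n + p.1 - p.2 < m := by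
      by_cases h1 : p.1 = n
      · have h2 : p.2 ≠ 0 := fun h2 => hp'.1 (Prod.ext h1 h2)
        omega
      · omega
    refine (ih _ hlt).smul ?_
    exact B.mul_mem (B.mul_mem (by rw [map_neg]; exact B.neg_mem huB) (hΦ _ _)) (B.pow_mem hX _)

/-- The conversion for polynomials in `Y1`. -/
theorem repr_aeval (n : ℕ) (Φ : R[X][Y]) (hout : Φ.natDegree ≤ n)
    (hin : ∀ j, (Φ.coeff j).natDegree ≤ n) (u : R) (hu : u * (Φ.coeff 0).coeff n = 1)
    (B : Subring R[X]) (hX : (X : R[X]) ∈ B) (hΦ : ∀ i j, C ((Φ.coeff j).coeff i) ∈ B)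
    (huB : C u ∈ B) (Y1 Y2 : S) (h₁ : aevalAeval Y1 Y2 Φ = 0) (p : R[X])
    (hp : ∀ i, C (p.coeff i) ∈ B) :
    Repr B (Y1 * Y2) Y1 (2 * n) (aeval Y1 p) := by
  rw [aeval_eq_sum_range]
  refine Repr.sum _ _ fun i _ => ?_
  have h := (repr_pow n Φ hout hin u hu B hX hΦ huB Y1 Y2 h₁ i).smul (hp i)
  rwa [aeval_C, ← Algebra.smul_def] at h

/-- Reindexing: an `R[Y1]`-combination of a family `β` is an `R[Y1 * Y2]`-combination of the
family `Y1^j · β i`, `j < 2n`. -/
theorem exists_repr_prod (n : ℕ) (Φ : R[X][Y]) (hout : Φ.natDegree ≤ n)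
    (hin : ∀ j, (Φ.coeff j).natDegree ≤ n) (u : R) (hu : u * (Φ.coeff 0).coeff n = 1)
    (B : Subring R[X]) (hX : (X : R[X]) ∈ B) (hΦ : ∀ i j, C ((Φ.coeff j).coeff i) ∈ B)
    (huB : C u ∈ B) (hBC : ∀ p ∈ B, ∀ k, C (p.coeff k) ∈ B) (Y1 Y2 : S)
    (h₁ : aevalAeval Y1 Y2 Φ = 0) {r : ℕ} (β : Fin r → S) (v : S)
    (hv : ∃ e : Fin r → R[X], (∀ i, e i ∈ B) ∧ v = ∑ i, aeval Y1 (e i) * β i) :
    ∃ e : Fin (r * (2 * n)) → R[X], (∀ k, e k ∈ B) ∧
      v = ∑ k, aeval (Y1 * Y2) (e k) *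
        (Y1 ^ ((finProdFinEquiv.symm k).2 : ℕ) * β (finProdFinEquiv.symm k).1) := by
  obtain ⟨e, he, rfl⟩ := hv
  have hrep : ∀ i, Repr B (Y1 * Y2) Y1 (2 * n) (aeval Y1 (e i)) := fun i =>
    repr_aeval n Φ hout hin u hu B hX hΦ huB Y1 Y2 h₁ (e i) (hBC _ (he i))
  choose e' he' h' using hrep
  refine ⟨fun k => e' (finProdFinEquiv.symm k).1 (finProdFinEquiv.symm k).2,
    fun k => he' _ _, ?_⟩
  rw [← Equiv.sum_comp finProdFinEquiv
    (fun k => aeval (Y1 * Y2) (e' (finProdFinEquiv.symm k).1 (finProdFinEquiv.symm k).2) *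
      (Y1 ^ ((finProdFinEquiv.symm k).2 : ℕ) * β (finProdFinEquiv.symm k).1))]
  simp only [Equiv.symm_apply_apply]
  rw [Fintype.sum_prod_type]
  refine Finset.sum_congr rfl fun i _ => ?_
  rw [h' i, Finset.sum_mul]
  refine Finset.sum_congr rfl fun j _ => ?_
  ring

end Conversion

end Fermat.Agent.BAD.CuspOrd
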