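import Mathlib
import Fermat.Agent.BAD.CuspOrd
import Fermat.Agent.S28.Chain
import Fermat.Agent.S28.RJClosed
import Fermat.Agent.Lib.Red.Unconditional
import Fermat.Agent.Lib.Red.Basis
import Fermat.Prelude.Def_ModularCurve_HeckeOperator

/-!
# BAD: the cusp estimate (`C2`) for `(J_M, J_{Mℓ})` in `F_{Mℓ}`

For a field `L` of characteristic `0`, a level `M` and a prime `ℓ`, put
`Y1 := α(xL) = J(q^M)` and `Y2 := β(xL) = J(q^(Mℓ))` in `L·F_{Mℓ}`.  Then at every place `P`: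

* `ord_alpha_xL_neg_iff` : `ord_P Y1 < 0 ↔ ord_P Y2 < 0` (the poles of `Y1`, `Y2` are the cusps);
* `ord_beta_xL_ge` : `ord_P Y1 < 0 → ℓ · ord_P Y1 ≤ ord_P Y2`;
* `ord_alpha_xL_ge` : `ord_P Y2 < 0 → ℓ · ord_P Y2 ≤ ord_P Y1`.
-/

set_option autoImplicit false

noncomputable section

namespace Fermat.Agent.BAD.CuspOrd

open Polynomial AlgebraicCurve ModularCurve Fermat.Agent.S28 Fermat.Agent.Lib.Red
open scoped Polynomial.Bivariate

section Bridge

variable {L S : Type*} [Field L] [CommRing S] [Algebra L S]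

/-- The modular polynomial over `L`, as a bivariate polynomial (inner variable first). -/
def PhiL (L : Type*) [Field L] (Φ : Polynomial (Polynomial ℤ)) : L[X][Y] :=
  Φ.map (mapRingHom (Int.castRingHom L))

theorem PhiL_monic (Φ : Polynomial (Polynomial ℤ)) (hΦ : Φ.Monic) : (PhiL L Φ).Monic :=
  hΦ.map _

theorem PhiL_natDegree (Φ : Polynomial (Polynomial ℤ)) (hΦ : Φ.Monic) :
    (PhiL L Φ).natDegree = Φ.natDegree := hΦ.natDegree_map _

/-- `Φ_L(y, x) = Φ(x; y)` in the notation of `TD.polyAt`. -/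
theorem aevalAeval_PhiL (Φ : Polynomial (Polynomial ℤ)) (x y : S) :
    aevalAeval y x (PhiL L Φ) = (TD.polyAt Φ y).eval x := by
  have hdeg : (PhiL L Φ).natDegree < Φ.natDegree + 1 :=
    lt_of_le_of_lt natDegree_map_le (Nat.lt_succ_self _)
  rw [aevalAeval_eq_sum y x _ _ hdeg]
  unfold TD.polyAt
  rw [eval_map, eval₂_eq_sum_range' _ (Nat.lt_succ_self _)]
  refine Finset.sum_congr rfl fun j _ => ?_
  congr 1
  unfold PhiL
  rw [coeff_map, coe_mapRingHom, coe_eval₂RingHom, aeval_def, eval₂_map]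
  congr 1
  exact RingHom.ext_int _ _

/-- Generic minimality: if `x` is transcendental over `L`, lies in the intermediate field `E`,
and every nonzero polynomial over `E` with root `y` has degree `≥ n`, then no nonzero
`R ∈ L[X][Y]` of outer degree `< n` vanishes at `(x, y)`. -/
theorem indep_of_le_natDegree {L S : Type*} [Field L] [Field S] [Algebra L S]
    (E : IntermediateField L S) (x y : S) (hx : x ∈ E) (hxt : Transcendental L x) (n : ℕ)
    (hmin : ∀ f : Polynomial E, f ≠ 0 → aeval y f = 0 → n ≤ f.natDegree)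
    (R : L[X][Y]) (hR : R.natDegree < n) (h0 : aevalAeval x y R = 0) : R = 0 := by
  have hcoe : ∀ c : L[X], ((aeval (⟨x, hx⟩ : E) c : E) : S) = aeval x c := by
    intro c
    exact (Polynomial.aeval_algHom_apply E.val (⟨x, hx⟩ : E) c).symm
  have hginj : Function.Injective
      ((aeval (⟨x, hx⟩ : E) : L[X] →ₐ[L] E) : L[X] →+* E) := by
    intro c₁ c₂ h12
    have h1 : aeval x c₁ = aeval x c₂ := by
      rw [← hcoe, ← hcoe]
      exact congrArg Subtype.val h12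
    exact (transcendental_iff_injective.1 hxt) h1
  obtain ⟨f, hf⟩ : ∃ f : Polynomial E, f = R.map
      ((aeval (⟨x, hx⟩ : E) : L[X] →ₐ[L] E) : L[X] →+* E) := ⟨_, rfl⟩
  have hroot : aeval y f = 0 := by
    rw [hf, aeval_def, eval₂_map,
      eval₂_eq_sum_range' _ (Nat.lt_succ_self R.natDegree), ← h0,
      aevalAeval_eq_sum _ _ R _ (Nat.lt_succ_self R.natDegree)]
    refine Finset.sum_congr rfl fun j _ => ?_
    congr 1
    exact hcoe (R.coeff j)
  by_contra hRne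
  have hfne : f ≠ 0 := by
    rw [hf]
    intro h
    exact hRne ((Polynomial.map_eq_zero_iff hginj).1 h)
  have hle := hmin f hfne hroot
  have hfdeg : f.natDegree ≤ R.natDegree := by
    rw [hf]
    exact natDegree_map_le
  omega

end Bridge

section Inst

variable (L : Type) [Field L] [Algebra ℚ L] (M ℓ : ℕ) [NeZero M] [NeZero ℓ]

theorem coe_alpha_xL :
    ((heckeAlphaBar L M ℓ (xL L M) : laurentBaseChange L (modularFunctionFieldFull (M * ℓ))) :
      LaurentSeries L) = TD.Jd L M := by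
  rw [coe_heckeAlphaBar]
  rfl

theorem coe_beta_xL :
    ((heckeBetaBar L M ℓ (xL L M) : laurentBaseChange L (modularFunctionFieldFull (M * ℓ))) :
      LaurentSeries L) = TD.Jd L (M * ℓ) := by
  rw [coe_heckeBetaBar]
  show qExpand L ℓ (TD.Jd L M) = _
  rw [TD.qExpand_Jd L ℓ M (NeZero.ne M), mul_comm]

variable {L M ℓ}

/-- The two modular relations between `Y1 = J(q^M)` and `Y2 = J(q^(Mℓ))`. -/
theorem rel_alpha_beta (D : TD.ModEq ℓ) :
    aevalAeval (heckeAlphaBar L M ℓ (xL L M)) (heckeBetaBar L M ℓ (xL L M)) (PhiL L D.Φ) = 0 ∧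
    aevalAeval (heckeBetaBar L M ℓ (xL L M)) (heckeAlphaBar L M ℓ (xL L M)) (PhiL L D.Φ) = 0 := by
  have hinj : Function.Injective
      ((laurentBaseChange L (modularFunctionFieldFull (M * ℓ))).val) :=
    (laurentBaseChange L (modularFunctionFieldFull (M * ℓ))).val.injective
  constructor
  · apply hinj
    rw [map_aevalAeval, map_zero, aevalAeval_PhiL]
    show (TD.polyAt D.Φ ((heckeAlphaBar L M ℓ (xL L M) :
      laurentBaseChange L (modularFunctionFieldFull (M * ℓ))) : LaurentSeries L)).eval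
      ((heckeBetaBar L M ℓ (xL L M) :
      laurentBaseChange L (modularFunctionFieldFull (M * ℓ))) : LaurentSeries L) = 0
    rw [coe_alpha_xL, coe_beta_xL]
    exact D.rel₂' (NeZero.ne ℓ) L M (NeZero.ne M)
  · apply hinj
    rw [map_aevalAeval, map_zero, aevalAeval_PhiL]
    show (TD.polyAt D.Φ ((heckeBetaBar L M ℓ (xL L M) :
      laurentBaseChange L (modularFunctionFieldFull (M * ℓ))) : LaurentSeries L)).eval
      ((heckeAlphaBar L M ℓ (xL L M) :
      laurentBaseChange L (modularFunctionFieldFull (M * ℓ))) : LaurentSeries L) = 0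
    rw [coe_alpha_xL, coe_beta_xL]
    exact D.rel₁' (NeZero.ne ℓ) L M (NeZero.ne M)

/-- Minimality: no nonzero `R ∈ L[X][Y]` of outer degree `≤ ℓ` vanishes at `(J, J(q^ℓ))`,
i.e. `[L(J, J(q^ℓ)) : L(J)] = ℓ + 1`. -/
theorem indep_Jd (hℓ : ℓ.Prime) (R : L[X][Y]) (hR : R.natDegree < ℓ + 1)
    (h0 : aevalAeval (TD.Jd L 1) (TD.Jd L ℓ) R = 0) : R = 0 := by
  have hchar : CharZero L := algebraRat.charZero L
  have hℓL : ((ℓ * 1 : ℕ) : L) ≠ 0 := by
    rw [mul_one]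
    exact Nat.cast_ne_zero.2 hℓ.ne_zero
  refine indep_of_le_natDegree (Chain.kap L (ℓ ^ 0 * 1)) (TD.Jd L 1) (TD.Jd L ℓ)
    (Chain.Jd_mem_kap (one_dvd _)) (Fermat.Agent.S28.RJClosed.transcendental_Jd L 1 one_ne_zero)
    (ℓ + 1) (fun f hf hroot => ?_) R hR h0
  have hroot' : aeval (TD.Jd L (ℓ ^ (0 + 1))) f = 0 := by
    rw [zero_add, pow_one]
    exact hroot
  have hle := Chain.le_natDegree_of_aeval_eq_zero (k := L) hℓ 0 1 one_ne_zero
    (fun h => hℓ.one_lt.ne' (Nat.dvd_one.1 h)) hℓL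
    (fun r hr _ => modEq_all r hr) (baseCase_all ℓ hℓ) f hf hroot'
  rw [if_pos rfl] at hle
  exact hle

/-- Minimality, the other way: no nonzero `R ∈ L[X][Y]` of outer degree `≤ ℓ` vanishes at
`(J(q^ℓ), J)`, i.e. `[L(J, J(q^ℓ)) : L(J(q^ℓ))] = ℓ + 1`. -/
theorem indep_Jd' (hℓ : ℓ.Prime) (R : L[X][Y]) (hR : R.natDegree < ℓ + 1)
    (h0 : aevalAeval (TD.Jd L ℓ) (TD.Jd L 1) R = 0) : R = 0 := by
  have hchar : CharZero L := algebraRat.charZero L
  have hℓL : (ℓ : L) ≠ 0 := Nat.cast_ne_zero.2 hℓ.ne_zero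
  obtain ⟨D⟩ := modEq_all ℓ hℓ
  have hBC : TD.Jd L ℓ ∉ Chain.kap L 1 := by
    rw [Chain.kap_one]
    exact baseCase_all ℓ hℓ L hℓL
  have hmin := Chain.minpoly_J_kapV_one hℓ.one_lt (Chain.ofTD D) hBC
  refine indep_of_le_natDegree (Chain.kapV L ℓ 1) (TD.Jd L ℓ) (TD.Jd L 1)
    Chain.Jd_mem_kapV_one (Fermat.Agent.S28.RJClosed.transcendental_Jd L ℓ hℓ.ne_zero)
    (ℓ + 1) (fun f hf hroot => ?_) R hR h0
  rw [TD.Jd_one] at hroot
  have h1 := Polynomial.natDegree_le_natDegree (minpoly.degree_le_of_ne_zero _ _ hf hroot)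
  rw [hmin, Kummer.natDegree_specialize (Chain.ofTD D).monic] at h1
  have h2 : (Chain.ofTD D).Φ.natDegree = ℓ + 1 := D.natDegree_eq
  omega

/-- Minimality at level `M`: no nonzero `R` of outer degree `≤ ℓ` vanishes at
`(J(q^M), J(q^(Mℓ)))`. -/
theorem indep_alpha_beta (hℓ : ℓ.Prime) (R : L[X][Y]) (hR : R.natDegree < ℓ + 1)
    (h0 : aevalAeval (heckeAlphaBar L M ℓ (xL L M)) (heckeBetaBar L M ℓ (xL L M)) R = 0) :
    R = 0 := by
  have h1 := congrArg ((laurentBaseChange L (modularFunctionFieldFull (M * ℓ))).val) h0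
  rw [map_aevalAeval, map_zero] at h1
  have h2 : aevalAeval (TD.Jd L M) (TD.Jd L (M * ℓ)) R = 0 := by
    rw [← coe_alpha_xL L M ℓ, ← coe_beta_xL L M ℓ]
    exact h1
  have h3 : qExpandAlgHomC L M (aevalAeval (TD.Jd L 1) (TD.Jd L ℓ) R) = 0 := by
    rw [map_aevalAeval, qExpandAlgHomC_apply, qExpandAlgHomC_apply,
      TD.qExpand_Jd L M 1 one_ne_zero, TD.qExpand_Jd L M ℓ (NeZero.ne ℓ), mul_one]
    exact h2
  have h4 : aevalAeval (TD.Jd L 1) (TD.Jd L ℓ) R = 0 := by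
    apply qExpand_injective (R := L) (N := M)
    rw [map_zero]
    exact h3
  exact indep_Jd hℓ R hR h4

/-- **(C2) for the modular curve.**  At every pole `P` of `Y1 = J(q^M)` in `L·F_{Mℓ}`:
`ℓ · ord_P J(q^M) ≤ ord_P J(q^(Mℓ))`. -/
theorem ord_beta_xL_ge (hℓ : ℓ.Prime)
    (P : Place L ↥(laurentBaseChange L (modularFunctionFieldFull (M * ℓ))))
    (hP : P.ord (heckeAlphaBar L M ℓ (xL L M)) < 0) :
    (ℓ : ℤ) * P.ord (heckeAlphaBar L M ℓ (xL L M)) ≤ P.ord (heckeBetaBar L M ℓ (xL L M)) := by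
  obtain ⟨D⟩ := modEq_all ℓ hℓ
  have hrel := rel_alpha_beta (L := L) (M := M) D
  exact ord_le_of_modEq ℓ hℓ.one_lt.le (PhiL L D.Φ) (PhiL_monic D.Φ D.monic)
    (by rw [PhiL_natDegree D.Φ D.monic, D.natDegree_eq]) _ _ hrel.1 hrel.2
    (fun R hR h0 => indep_alpha_beta hℓ R hR h0) P hP

/-- Minimality at level `M`, the other way. -/
theorem indep_beta_alpha (hℓ : ℓ.Prime) (R : L[X][Y]) (hR : R.natDegree < ℓ + 1)
    (h0 : aevalAeval (heckeBetaBar L M ℓ (xL L M)) (heckeAlphaBar L M ℓ (xL L M)) R = 0) :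
    R = 0 := by
  have h1 := congrArg ((laurentBaseChange L (modularFunctionFieldFull (M * ℓ))).val) h0
  rw [map_aevalAeval, map_zero] at h1
  have h2 : aevalAeval (TD.Jd L (M * ℓ)) (TD.Jd L M) R = 0 := by
    rw [← coe_alpha_xL L M ℓ, ← coe_beta_xL L M ℓ]
    exact h1
  have h3 : qExpandAlgHomC L M (aevalAeval (TD.Jd L ℓ) (TD.Jd L 1) R) = 0 := by
    rw [map_aevalAeval, qExpandAlgHomC_apply, qExpandAlgHomC_apply,
      TD.qExpand_Jd L M 1 one_ne_zero, TD.qExpand_Jd L M ℓ (NeZero.ne ℓ), mul_one]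
    exact h2
  have h4 : aevalAeval (TD.Jd L ℓ) (TD.Jd L 1) R = 0 := by
    apply qExpand_injective (R := L) (N := M)
    rw [map_zero]
    exact h3
  exact indep_Jd' hℓ R hR h4

/-- **(C2), mirrored.**  At every pole `P` of `Y2 = J(q^(Mℓ))` in `L·F_{Mℓ}`:
`ℓ · ord_P J(q^(Mℓ)) ≤ ord_P J(q^M)`. -/
theorem ord_alpha_xL_ge (hℓ : ℓ.Prime)
    (P : Place L ↥(laurentBaseChange L (modularFunctionFieldFull (M * ℓ))))
    (hP : P.ord (heckeBetaBar L M ℓ (xL L M)) < 0) :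
    (ℓ : ℤ) * P.ord (heckeBetaBar L M ℓ (xL L M)) ≤ P.ord (heckeAlphaBar L M ℓ (xL L M)) := by
  obtain ⟨D⟩ := modEq_all ℓ hℓ
  have hrel := rel_alpha_beta (L := L) (M := M) D
  exact ord_le_of_modEq ℓ hℓ.one_lt.le (PhiL L D.Φ) (PhiL_monic D.Φ D.monic)
    (by rw [PhiL_natDegree D.Φ D.monic, D.natDegree_eq]) _ _ hrel.2 hrel.1
    (fun R hR h0 => indep_beta_alpha hℓ R hR h0) P hP

/-- `Y2 = J(q^(Mℓ))` is regular wherever `Y1 = J(q^M)` is. -/
theorem ord_beta_xL_nonneg (hℓ : ℓ.Prime)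
    (P : Place L ↥(laurentBaseChange L (modularFunctionFieldFull (M * ℓ))))
    (hP : 0 ≤ P.ord (heckeAlphaBar L M ℓ (xL L M))) :
    0 ≤ P.ord (heckeBetaBar L M ℓ (xL L M)) := by
  obtain ⟨D⟩ := modEq_all ℓ hℓ
  have hrel := rel_alpha_beta (L := L) (M := M) D
  exact ord_nonneg_of_rel (PhiL L D.Φ) (PhiL_monic D.Φ D.monic) _ _ hrel.1 P hP

/-- `Y1 = J(q^M)` is regular wherever `Y2 = J(q^(Mℓ))` is. -/
theorem ord_alpha_xL_nonneg (hℓ : ℓ.Prime)
    (P : Place L ↥(laurentBaseChange L (modularFunctionFieldFull (M * ℓ))))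
    (hP : 0 ≤ P.ord (heckeBetaBar L M ℓ (xL L M))) :
    0 ≤ P.ord (heckeAlphaBar L M ℓ (xL L M)) := by
  obtain ⟨D⟩ := modEq_all ℓ hℓ
  have hrel := rel_alpha_beta (L := L) (M := M) D
  exact ord_nonneg_of_rel (PhiL L D.Φ) (PhiL_monic D.Φ D.monic) _ _ hrel.2 P hP

/-- `Y1` and `Y2` have the same poles. -/
theorem ord_alpha_xL_neg_iff (hℓ : ℓ.Prime)
    (P : Place L ↥(laurentBaseChange L (modularFunctionFieldFull (M * ℓ)))) :
    P.ord (heckeAlphaBar L M ℓ (xL L M)) < 0 ↔ P.ord (heckeBetaBar L M ℓ (xL L M)) < 0 := by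
  constructor
  · intro h
    by_contra h'
    exact absurd (ord_alpha_xL_nonneg hℓ P (not_lt.1 h')) (not_le.2 h)
  · intro h
    by_contra h'
    exact absurd (ord_beta_xL_nonneg hℓ P (not_lt.1 h')) (not_le.2 h)

end Inst

/-! ### Exports: symmetry of the modular polynomial and the conversion of coordinates -/

section Export

variable {ℓ : ℕ} [NeZero ℓ]

theorem PhiL_coeff_coeff (L : Type*) [Field L] (Φ : Polynomial (Polynomial ℤ)) (i j : ℕ) :
    ((PhiL L Φ).coeff j).coeff i = (((Φ.coeff j).coeff i : ℤ) : L) := by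
  unfold PhiL
  rw [coeff_map, coe_mapRingHom, coeff_map, eq_intCast]

/-- **Symmetry of the modular polynomial** over a field of characteristic `0`:
`Φ(Y, X) = c · Φ(X, Y)`. -/
theorem PhiL_swap {L : Type} [Field L] [Algebra ℚ L] (hℓ : ℓ.Prime) (D : TD.ModEq ℓ) :
    ∃ c : L, Bivariate.swap (PhiL L D.Φ) = C (C c) * PhiL L D.Φ := by
  have h₁ : aevalAeval (TD.Jd L 1) (TD.Jd L ℓ) (PhiL L D.Φ) = 0 := by
    rw [aevalAeval_PhiL]
    have h := D.rel₂' hℓ.ne_zero L 1 one_ne_zero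
    rwa [one_mul] at h
  have h₂ : aevalAeval (TD.Jd L ℓ) (TD.Jd L 1) (PhiL L D.Φ) = 0 := by
    rw [aevalAeval_PhiL]
    have h := D.rel₁' hℓ.ne_zero L 1 one_ne_zero
    rwa [one_mul] at h
  have hd : (PhiL L D.Φ).natDegree = ℓ + 1 := by
    rw [PhiL_natDegree D.Φ D.monic, D.natDegree_eq]
  have hΦ1 : PhiL L D.Φ ≠ 1 := by
    intro h1
    rw [h1, natDegree_one] at hd
    omega
  exact swap_eq_C_mul (PhiL L D.Φ) (PhiL_monic D.Φ D.monic) hΦ1 _ _ h₁ h₂
    (by rw [hd]; exact fun R hR h0 => indep_Jd hℓ R hR h0)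

/-- **Symmetry of the modular polynomial over `ℤ`**: `φ_{ij} = c · φ_{ji}` with `c = ± 1`. -/
theorem modEq_coeff_symm (hℓ : ℓ.Prime) (D : TD.ModEq ℓ) :
    ∃ c : ℤ, c * c = 1 ∧ ∀ i j, (D.Φ.coeff i).coeff j = c * (D.Φ.coeff j).coeff i := by
  obtain ⟨cQ, hcQ⟩ := PhiL_swap (L := ℚ) hℓ D
  have hsymm : ∀ i j, (((D.Φ.coeff i).coeff j : ℤ) : ℚ) =
      cQ * (((D.Φ.coeff j).coeff i : ℤ) : ℚ) := by
    intro i j
    have h := coeff_coeff_symm hcQ i j
    rwa [PhiL_coeff_coeff, PhiL_coeff_coeff] at h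
  have hlead : D.Φ.coeff (ℓ + 1) = 1 := by
    rw [← D.natDegree_eq, coeff_natDegree, D.monic.leadingCoeff]
  have hc : cQ = (((D.Φ.coeff 0).coeff (ℓ + 1) : ℤ) : ℚ) := by
    have h := hsymm 0 (ℓ + 1)
    rw [hlead, coeff_one_zero, Int.cast_one, mul_one] at h
    exact h.symm
  refine ⟨(D.Φ.coeff 0).coeff (ℓ + 1), ?_, fun i j => ?_⟩
  · have h := hsymm (ℓ + 1) 0
    rw [hlead, coeff_one_zero, Int.cast_one, hc] at h
    have h' : (((D.Φ.coeff 0).coeff (ℓ + 1) * (D.Φ.coeff 0).coeff (ℓ + 1) : ℤ) : ℚ) =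
        ((1 : ℤ) : ℚ) := by
      rw [Int.cast_mul, Int.cast_one]
      exact h.symm
    exact Int.cast_injective h'
  · have h := hsymm i j
    rw [hc, ← Int.cast_mul] at h
    exact Int.cast_injective h

/-- Every monomial `X^i Y^j` of the modular polynomial has `i ≤ ℓ + 1`. -/
theorem modEq_natDegree_coeff_le (hℓ : ℓ.Prime) (D : TD.ModEq ℓ) (j : ℕ) :
    (D.Φ.coeff j).natDegree ≤ ℓ + 1 := by
  obtain ⟨c, -, hc⟩ := modEq_coeff_symm hℓ D
  rw [natDegree_le_iff_coeff_eq_zero]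
  intro i hi
  have h0 : D.Φ.coeff i = 0 :=
    coeff_eq_zero_of_natDegree_lt (by rw [D.natDegree_eq]; exact hi)
  rw [hc, h0, coeff_zero, mul_zero]

/-- **Conversion of coordinates** (general form): if `Φ_ℓ(Y1, Y2) = 0` in an `L`-algebra `F`,
then every `A[Y1]`-combination of a family `β` is an `A[Y1 * Y2]`-combination of the family
`Y1^j · β i`, `j < 2(ℓ + 1)`; `A` any valuation subring of `L` (char `0`). -/
theorem hgen_convert {L : Type} [Field L] [Algebra ℚ L] (hℓ : ℓ.Prime) (D : TD.ModEq ℓ)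
    {F : Type*} [CommRing F] [Algebra L F] (A : ValuationSubring L) (Y1 Y2 : F)
    (h₁ : aevalAeval Y1 Y2 (PhiL L D.Φ) = 0) {r : ℕ} (β : Fin r → F) (v : F)
    (hv : ∃ e : Fin r → L[X], (∀ i j, (e i).coeff j ∈ A) ∧ v = ∑ i, aeval Y1 (e i) * β i) :
    ∃ e : Fin (r * (2 * (ℓ + 1))) → L[X], (∀ k j, (e k).coeff j ∈ A) ∧
      v = ∑ k, aeval (Y1 * Y2) (e k) *
        (Y1 ^ ((finProdFinEquiv.symm k).2 : ℕ) * β (finProdFinEquiv.symm k).1) := by
  obtain ⟨c, hcc, hc⟩ := modEq_coeff_symm hℓ D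
  have hmemB : ∀ p : L[X], p ∈ Polynomial.liftsRing A.subtype ↔ ∀ j, p.coeff j ∈ A := by
    intro p
    rw [← Polynomial.lifts_iff_liftsRing, Polynomial.lifts_iff_coeff_lifts]
    constructor
    · intro h j
      obtain ⟨a, ha⟩ := h j
      rw [← ha]
      exact a.2
    · intro h j
      exact ⟨⟨_, h j⟩, rfl⟩
  have hCint : ∀ z : ℤ, C ((z : ℤ) : L) ∈ Polynomial.liftsRing A.subtype := by
    intro z
    rw [hmemB]
    intro j
    rw [coeff_C]
    split_ifs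
    · exact intCast_mem A z
    · exact A.zero_mem
  have hlead : D.Φ.coeff (ℓ + 1) = 1 := by
    rw [← D.natDegree_eq, coeff_natDegree, D.monic.leadingCoeff]
  have hu : ((c : ℤ) : L) * ((PhiL L D.Φ).coeff 0).coeff (ℓ + 1) = 1 := by
    rw [PhiL_coeff_coeff, hc 0 (ℓ + 1), hlead, coeff_one_zero, mul_one, ← Int.cast_mul, hcc,
      Int.cast_one]
  obtain ⟨e, he, hve⟩ := hv
  obtain ⟨e', he', hv'⟩ := exists_repr_prod (ℓ + 1) (PhiL L D.Φ)
    (by rw [PhiL_natDegree D.Φ D.monic, D.natDegree_eq])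
    (fun j => by
      unfold PhiL
      rw [coeff_map, coe_mapRingHom]
      exact natDegree_map_le.trans (modEq_natDegree_coeff_le hℓ D j))
    ((c : ℤ) : L) hu (Polynomial.liftsRing A.subtype)
    ((hmemB _).2 fun j => by
      rw [coeff_X]
      split_ifs
      · exact A.one_mem
      · exact A.zero_mem)
    (fun i j => by rw [PhiL_coeff_coeff]; exact hCint _) (hCint c)
    (fun p hp k => by
      rw [hmemB] at hp ⊢
      intro j
      rw [coeff_C]
      split_ifs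
      · exact hp k
      · exact A.zero_mem)
    Y1 Y2 h₁ β v ⟨e, fun i => (hmemB _).2 (he i), hve⟩
  exact ⟨e', fun k => (hmemB _).1 (he' k), hv'⟩

/-- **Conversion of coordinates** for `Y1 = J(q^M)`, `Y2 = J(q^(Mℓ))`, `x = Y1 · Y2`. -/
theorem hgen_convert_alpha {L : Type} [Field L] [Algebra ℚ L] {M : ℕ} [NeZero M] (hℓ : ℓ.Prime)
    (A : ValuationSubring L) {r : ℕ}
    (β : Fin r → ↥(laurentBaseChange L (modularFunctionFieldFull (M * ℓ))))
    (v : ↥(laurentBaseChange L (modularFunctionFieldFull (M * ℓ))))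
    (hv : ∃ e : Fin r → L[X], (∀ i j, (e i).coeff j ∈ A) ∧
      v = ∑ i, aeval (heckeAlphaBar L M ℓ (xL L M)) (e i) * β i) :
    ∃ e : Fin (r * (2 * (ℓ + 1))) → L[X], (∀ k j, (e k).coeff j ∈ A) ∧
      v = ∑ k, aeval (heckeAlphaBar L M ℓ (xL L M) * heckeBetaBar L M ℓ (xL L M)) (e k) *
        (heckeAlphaBar L M ℓ (xL L M) ^ ((finProdFinEquiv.symm k).2 : ℕ) *
          β (finProdFinEquiv.symm k).1) := by
  obtain ⟨D⟩ := modEq_all ℓ hℓ
  exact hgen_convert hℓ D A _ _ (rel_alpha_beta (L := L) (M := M) D).1 β v hv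

end Export

end Fermat.Agent.BAD.CuspOrd
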