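import Mathlib
import Fermat.Agent.BAD.TwoVal.Semilocal
import Fermat.Agent.Lib.FF.Setting
import Fermat.Prelude.Def_ModularCurve_ArithmeticGalois

/-!
# BAD: the level-`M` chart datum

The whole bad-reduction instance at level `M ℓ` (`ℓ ∤ M` the residue characteristic) is built
from ONE function `X` of level `M` (directive #4):

* `X = J(q^M)` for `ℓ ≥ 5`;
* `X = (y - 1)³ / y²` for `ℓ = 3`, `2 ∣ M` (`y` the Hauptmodul of level `2`);
* `X = (y² + y + 1)² / y³` for `ℓ = 2`, `3 ∣ M` (`y` the Hauptmodul of level `3`).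

`IsChartBase h X` collects what the instance files may use about `X`:

* `mem`, `inv_mem` : `X` is a unit of the Gauss valuation ring `O_w` of level `M`;
* `rat` : the reduction `X̄` is `𝔽_ℓ`-rational (`X̄(q^ℓ) = X̄^ℓ`);
* `gal` : `X` is defined over `ℚ` (fixed by the arithmetic Galois action);
* `ff`, `ffRed` : `IsFF1` for `X` and `X̄`;
* `lift`, `lift'` : the two charts `{X ≠ ∞}`, `{X ≠ 0}` of level `M` have good reduction (`T3`, `T3'`
  in the literal shape of `Lib/Red/DiscFinal`);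
* `basis`, `basis'` : a family of functions regular on the chart, spanning the function field over
  `L(X)`, with reductions linearly independent over `k[X̄]` (an integral good basis), for both
  charts;
* `pole_iff`, `ord_beta_ge`, `ord_alpha_ge` : the cusp estimate `(C2)` for `Y1 = α X`, `Y2 = β X`
  at level `M ℓ`: same poles, and `ℓ · ord Y1 ≤ ord Y2`, `ℓ · ord Y2 ≤ ord Y1` there.
-/

set_option autoImplicit false

noncomputable section

namespace Fermat.Agent.BAD

open Polynomial AlgebraicCurve ModularCurve Fermat.Agent.Lib.Red Fermat.Agent.Lib.FF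
  Fermat.Agent.BAD.TwoVal

variable {L : Type*} [Field L] [Algebra ℚ L] {A : ValuationSubring L} {k : Type} [Field k]
  {π : A →+* k} {M ℓ : ℕ} [NeZero M] [NeZero ℓ]

/-- **The level-`M` chart datum** of the bad-reduction instance at level `M ℓ`. -/
structure IsChartBase (h : BadSetup A π M ℓ)
    (X : ↥(laurentBaseChange L (modularFunctionFieldFull M))) : Prop where
  /-- `X` is Gauss-integral. -/
  mem : X ∈ Ow A π M h.hMk
  /-- `X` is a Gauss unit. -/
  inv_mem : X⁻¹ ∈ Ow A π M h.hMk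
  /-- The reduction of `X` is `𝔽_ℓ`-rational. -/
  rat : qExpand k ℓ ((redF A π M h.hπ h.hMk ⟨X, mem⟩ : modularFunctionFieldFullC k M) :
      LaurentSeries k) =
    ((redF A π M h.hπ h.hMk ⟨X, mem⟩ : modularFunctionFieldFullC k M) : LaurentSeries k) ^ ℓ
  /-- `X` is fixed by the arithmetic Galois action (its `q`-expansion is rational). -/
  gal : ∀ σ : L ≃ₐ[ℚ] L, arithmeticGalois (modularFunctionFieldFull M) σ • X = X
  /-- `IsFF1` on the generic fibre. -/
  ff : IsFF1 L ↥(laurentBaseChange L (modularFunctionFieldFull M)) X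
  /-- `IsFF1` on the special fibre. -/
  ffRed : IsFF1 k ↥(modularFunctionFieldFullC k M) (redF A π M h.hπ h.hMk ⟨X, mem⟩)
  /-- (T3): good reduction of the chart `X ≠ ∞`. -/
  lift : ∀ s : ↥(modularFunctionFieldFullC k M),
    (∀ Q : Place k ↥(modularFunctionFieldFullC k M),
      0 ≤ Q.ord (redF A π M h.hπ h.hMk ⟨X, mem⟩) → 0 ≤ Q.ord s) →
    ∃ y : Ow A π M h.hMk, redF A π M h.hπ h.hMk y = s ∧
      ∀ P : Place L ↥(laurentBaseChange L (modularFunctionFieldFull M)),
        0 ≤ P.ord X → 0 ≤ P.ord (y : ↥(laurentBaseChange L (modularFunctionFieldFull M)))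
  /-- (T3'): good reduction of the chart `X ≠ 0`. -/
  lift' : ∀ s : ↥(modularFunctionFieldFullC k M),
    (∀ Q : Place k ↥(modularFunctionFieldFullC k M),
      Q.ord (redF A π M h.hπ h.hMk ⟨X, mem⟩) ≤ 0 → 0 ≤ Q.ord s) →
    ∃ y : Ow A π M h.hMk, redF A π M h.hπ h.hMk y = s ∧
      ∀ P : Place L ↥(laurentBaseChange L (modularFunctionFieldFull M)),
        P.ord X ≤ 0 → 0 ≤ P.ord (y : ↥(laurentBaseChange L (modularFunctionFieldFull M)))
  /-- An integral good basis of the chart `X ≠ ∞`. -/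
  basis : ∃ (n : ℕ) (b : Fin n → Ow A π M h.hMk),
    (∀ i, ∀ P : Place L ↥(laurentBaseChange L (modularFunctionFieldFull M)),
      0 ≤ P.ord X → 0 ≤ P.ord (b i : ↥(laurentBaseChange L (modularFunctionFieldFull M)))) ∧
    (∀ v : ↥(laurentBaseChange L (modularFunctionFieldFull M)),
      ∃ (D : L[X]) (e : Fin n → L[X]), D ≠ 0 ∧
        aeval X D * v = ∑ i, aeval X (e i) *
          (b i : ↥(laurentBaseChange L (modularFunctionFieldFull M)))) ∧
    (∀ g : Fin n → k[X],
      ∑ i, aeval (redF A π M h.hπ h.hMk ⟨X, mem⟩) (g i) * redF A π M h.hπ h.hMk (b i) = 0 →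
        ∀ i, g i = 0)
  /-- An integral good basis of the chart `X ≠ 0`. -/
  basis' : ∃ (n : ℕ) (b : Fin n → Ow A π M h.hMk),
    (∀ i, ∀ P : Place L ↥(laurentBaseChange L (modularFunctionFieldFull M)),
      P.ord X ≤ 0 → 0 ≤ P.ord (b i : ↥(laurentBaseChange L (modularFunctionFieldFull M)))) ∧
    (∀ v : ↥(laurentBaseChange L (modularFunctionFieldFull M)),
      ∃ (D : L[X]) (e : Fin n → L[X]), D ≠ 0 ∧
        aeval X⁻¹ D * v = ∑ i, aeval X⁻¹ (e i) *
          (b i : ↥(laurentBaseChange L (modularFunctionFieldFull M)))) ∧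
    (∀ g : Fin n → k[X],
      ∑ i, aeval (redF A π M h.hπ h.hMk ⟨X⁻¹, inv_mem⟩) (g i) *
        redF A π M h.hπ h.hMk (b i) = 0 → ∀ i, g i = 0)
  /-- `Y1 = α X` and `Y2 = β X` have the same poles. -/
  pole_iff : ∀ P : Place L ↥(laurentBaseChange L (modularFunctionFieldFull (M * ℓ))),
    P.ord (heckeAlphaBar L M ℓ X) < 0 ↔ P.ord (heckeBetaBar L M ℓ X) < 0
  /-- (C2): `ℓ · ord Y1 ≤ ord Y2` at the poles of `Y1`. -/
  ord_beta_ge : ∀ P : Place L ↥(laurentBaseChange L (modularFunctionFieldFull (M * ℓ))),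
    P.ord (heckeAlphaBar L M ℓ X) < 0 →
      (ℓ : ℤ) * P.ord (heckeAlphaBar L M ℓ X) ≤ P.ord (heckeBetaBar L M ℓ X)
  /-- (C2), mirrored: `ℓ · ord Y2 ≤ ord Y1` at the poles of `Y2`. -/
  ord_alpha_ge : ∀ P : Place L ↥(laurentBaseChange L (modularFunctionFieldFull (M * ℓ))),
    P.ord (heckeBetaBar L M ℓ X) < 0 →
      (ℓ : ℤ) * P.ord (heckeBetaBar L M ℓ X) ≤ P.ord (heckeAlphaBar L M ℓ X)

end Fermat.Agent.BAD
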