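import Mathlib
import Fermat.Agent.BAD.NodalRiemann

/-!
# BAD (S2c): Čech splitting on a nodal curve with two components, uniformly in the nodes

`F₁`, `F₂` function fields of one variable over `K` (setting `IsFF1`, coordinates `x₁`, `x₂`),
glued along pairs of places `(e₁ i, e₂ i)`, `i : ι`.

* `Cong` calculus continued: `Cong.neg`, `Cong.sub`, `Cong.pow`, `Cong.inv`, `Cong.div`,
  `cong_zero_iff`, `Cong.val_eq_one`.
* `nodalRing U₁ U₂ e₁ e₂ S : Subalgebra K (F₁ × F₂)` : pairs `(a, b)` with `a` regular on the set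
  of places `U₁`, `b` regular on `U₂` and `a(e₁ i) = b(e₂ i)` for the nodes `i ∈ S`.
* `nodalFin x₁ x₂ e₁ e₂` (chart `x ≠ ∞`), `nodalInf x₁ x₂ e₁ e₂` (chart `x ≠ 0`),
  `nodalOverlap x₁ x₂ e₁ e₂` (chart `x ≠ 0, ∞`).
* `XCompat x₁ x₂ e₁ e₂` : at every node either `x₁`, `x₂` are both regular with the same value,
  or both have a pole.
* `exists_pow_mul_mem_nodalFin`, `exists_pow_mul_mem_nodalInf` : the overlap ring is the
  localisation of either chart ring at `x = (x₁, x₂)`.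
* **`split_succ`** and **`exists_split`** : the Čech `H¹` of `O(n·(x)_∞)` vanishes:
  `nodalOverlap = nodalFin + xⁿ · nodalInf` for `n ≥ n₀`, where `n₀` depends only on the two
  function fields and on a bound `m` for the number of nodes (NOT on the nodes themselves).
* `mem_gluedSpace_iff_nodal` : `nodalFin ∩ xⁿ · nodalInf = gluedSpace e₁ e₂ 1 (n·E₁) (n·E₂)` when
  all nodes are at finite distance, and `exists_finrank_nodal` : its dimension.
-/

set_option autoImplicit false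
set_option linter.style.haveILetI false

noncomputable section

namespace Fermat.Agent.BAD.NodalCech

open AlgebraicCurve WithZero Fermat.Agent.Lib.FF Fermat.Agent.BAD.NodalRiemann

universe w

variable {K : Type*} [Field K]

section OneField

variable {F : Type*} [Field F] [Algebra K F]

theorem cong_zero_iff {P : Place K F} {f : F} : Cong P f 0 ↔ P.adicValuation f < 1 := by
  unfold Cong
  rw [map_zero, sub_zero]

theorem cong_one (P : Place K F) : Cong P (1 : F) (1 : K) := by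
  have h := cong_algebraMap P (1 : K)
  rwa [map_one] at h

theorem _root_.Fermat.Agent.BAD.NodalRiemann.Cong.neg {P : Place K F} {f : F} {c : K} (h : Cong P f c) : Cong P (-f) (-c) := by
  unfold Cong at *
  have e : -f - algebraMap K F (-c) = -(f - algebraMap K F c) := by
    rw [map_neg]
    ring
  rw [e, Valuation.map_neg]
  exact h

theorem _root_.Fermat.Agent.BAD.NodalRiemann.Cong.sub {P : Place K F} {f g : F} {c d : K} (hf : Cong P f c) (hg : Cong P g d) :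
    Cong P (f - g) (c - d) := by
  rw [sub_eq_add_neg, sub_eq_add_neg]
  exact hf.add hg.neg

theorem _root_.Fermat.Agent.BAD.NodalRiemann.Cong.pow {P : Place K F} {f : F} {c : K} (h : Cong P f c) (n : ℕ) :
    Cong P (f ^ n) (c ^ n) := by
  induction n with
  | zero =>
    rw [pow_zero, pow_zero]
    exact cong_one P
  | succ n ih =>
    rw [pow_succ, pow_succ]
    exact ih.mul h

/-- A function with a nonzero value at `P` is a unit at `P`. -/
theorem _root_.Fermat.Agent.BAD.NodalRiemann.Cong.val_eq_one {P : Place K F} {f : F} {c : K} (h : Cong P f c) (hc : c ≠ 0) :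
    P.adicValuation f = 1 := by
  have h1 : P.adicValuation (algebraMap K F c) = 1 := adicValuation_algebraMap_eq_one P hc
  have h2 : P.adicValuation f = P.adicValuation (algebraMap K F c) := by
    refine Valuation.map_eq_of_sub_lt _ ?_
    rw [h1]
    exact h
  rw [h2, h1]

/-- The value is zero iff the function vanishes at `P`. -/
theorem _root_.Fermat.Agent.BAD.NodalRiemann.Cong.val_lt_one_iff {P : Place K F} {f : F} {c : K} (h : Cong P f c) :
    P.adicValuation f < 1 ↔ c = 0 := by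
  constructor
  · intro hlt
    by_contra hc
    rw [h.val_eq_one hc] at hlt
    exact lt_irrefl _ hlt
  · rintro rfl
    exact cong_zero_iff.mp h

theorem _root_.Fermat.Agent.BAD.NodalRiemann.Cong.inv {P : Place K F} {f : F} {c : K} (h : Cong P f c) (hc : c ≠ 0) :
    Cong P f⁻¹ c⁻¹ := by
  have hv := h.val_eq_one hc
  have hf0 : f ≠ 0 := by
    rintro rfl
    rw [map_zero] at hv
    exact zero_ne_one hv
  have hc0 : algebraMap K F c ≠ 0 := by simpa using hc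
  have h1 : P.adicValuation (algebraMap K F c) = 1 := adicValuation_algebraMap_eq_one P hc
  unfold Cong at *
  have e : f⁻¹ - algebraMap K F c⁻¹ = -(f - algebraMap K F c) * (f⁻¹ * (algebraMap K F c)⁻¹) := by
    rw [map_inv₀]
    field_simp
    ring
  rw [e, map_mul, Valuation.map_neg, map_mul, map_inv₀, map_inv₀, hv, h1, inv_one, mul_one,
    mul_one]
  exact h

theorem _root_.Fermat.Agent.BAD.NodalRiemann.Cong.div {P : Place K F} {f g : F} {c d : K} (hf : Cong P f c) (hg : Cong P g d)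
    (hd : d ≠ 0) : Cong P (f / g) (c / d) := by
  rw [div_eq_mul_inv, div_eq_mul_inv]
  exact hf.mul (hg.inv hd)

theorem val_le_one_iff_ord (P : Place K F) {f : F} (hf : f ≠ 0) :
    P.adicValuation f ≤ 1 ↔ 0 ≤ P.ord f := by
  rw [P.adicValuation_le_one_iff, or_iff_right hf]

theorem one_lt_val_iff_ord (P : Place K F) {f : F} (hf : f ≠ 0) :
    1 < P.adicValuation f ↔ P.ord f < 0 := by
  rw [← not_le, val_le_one_iff_ord P hf, not_le]

theorem one_le_val_iff_ord (P : Place K F) {f : F} (hf : f ≠ 0) :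
    1 ≤ P.adicValuation f ↔ P.ord f ≤ 0 := by
  rw [P.adicValuation_eq_exp_neg_ord hf, ← exp_zero, exp_le_exp]
  omega

theorem val_eq_one_iff_ord (P : Place K F) {f : F} (hf : f ≠ 0) :
    P.adicValuation f = 1 ↔ P.ord f = 0 := by
  rw [P.adicValuation_eq_exp_neg_ord hf, ← exp_zero, exp_inj]
  omega

variable {x : F}

theorem poleDiv_eq_zero_of_val_le_one (h : IsFF1 K F x) {P : Place K F}
    (hP : P.adicValuation x ≤ 1) : h.poleDiv P = 0 := by
  have hx0 : x ≠ 0 := fun h0 => h.transcendental (h0 ▸ isAlgebraic_zero)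
  rw [h.poleDiv_apply]
  have := (val_le_one_iff_ord P hx0).mp hP
  omega

theorem nsmul_poleDiv_eq_zero_of_val_le_one (h : IsFF1 K F x) {P : Place K F}
    (hP : P.adicValuation x ≤ 1) (n : ℕ) : (n • h.poleDiv) P = 0 := by
  rw [Finsupp.smul_apply, poleDiv_eq_zero_of_val_le_one h hP, smul_zero]

theorem mem_support_poleDiv_iff (h : IsFF1 K F x) {P : Place K F} :
    P ∈ h.poleDiv.support ↔ 1 < P.adicValuation x := by
  have hx0 : x ≠ 0 := fun h0 => h.transcendental (h0 ▸ isAlgebraic_zero)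
  rw [Finsupp.mem_support_iff, h.poleDiv_apply, one_lt_val_iff_ord P hx0]
  omega

/-- At a pole of `x`: if `u` has a pole of order at most `n·e` (`e` the pole order of `x`) then
`u / x ^ (n + 1)` vanishes. -/
theorem val_div_pow_lt_one (h : IsFF1 K F x) {P : Place K F} (hP : 1 < P.adicValuation x)
    (n : ℕ) {u : F} (hu : P.adicValuation u ≤ exp ((n • h.poleDiv) P)) :
    P.adicValuation (u / x ^ (n + 1)) < 1 := by
  have hx0 : x ≠ 0 := fun h0 => h.transcendental (h0 ▸ isAlgebraic_zero)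
  have hord := (one_lt_val_iff_ord P hx0).mp hP
  have hE : h.poleDiv P = -P.ord x := by
    rw [h.poleDiv_apply]
    omega
  rw [Finsupp.smul_apply, hE] at hu
  rw [map_div₀, map_pow, P.adicValuation_eq_exp_neg_ord hx0]
  have hpos : (0 : WithZero (Multiplicative ℤ)) < exp (-P.ord x) ^ (n + 1) := by
    rw [← exp_nsmul]
    exact exp_pos
  rw [div_lt_one₀ hpos]
  refine lt_of_le_of_lt hu ?_
  rw [← exp_nsmul, exp_lt_exp]
  simp only [nsmul_eq_mul]
  push_cast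
  nlinarith

/-- At a place where `x` is a unit, dividing by a power of `x` preserves regularity. -/
theorem val_div_pow_le_one {P : Place K F} (hP : P.adicValuation x = 1) (n : ℕ) {u : F}
    (hu : P.adicValuation u ≤ 1) : P.adicValuation (u / x ^ n) ≤ 1 := by
  rw [map_div₀, map_pow, hP, one_pow, div_one]
  exact hu

end OneField

section TwoFields

variable {F₁ F₂ : Type*} [Field F₁] [Field F₂] [Algebra K F₁] [Algebra K F₂]

/-- Pairs `(a, b)` with `a` regular on `U₁`, `b` regular on `U₂` and equal values at the glued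
pairs of places `(e₁ i, e₂ i)`, `i ∈ S`. -/
def nodalRing {ι : Type*} (U₁ : Set (Place K F₁)) (U₂ : Set (Place K F₂))
    (e₁ : ι → Place K F₁) (e₂ : ι → Place K F₂) (S : Set ι) : Subalgebra K (F₁ × F₂) where
  carrier := {p | (∀ P ∈ U₁, P.adicValuation p.1 ≤ 1) ∧ (∀ P ∈ U₂, P.adicValuation p.2 ≤ 1) ∧
    ∀ i ∈ S, ∃ c : K, Cong (e₁ i) p.1 c ∧ Cong (e₂ i) p.2 c}
  mul_mem' := by
    rintro p p' ⟨h1, h2, h3⟩ ⟨h1', h2', h3'⟩
    refine ⟨fun P hP => ?_, fun P hP => ?_, fun i hi => ?_⟩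
    · show P.adicValuation (p.1 * p'.1) ≤ 1
      rw [map_mul]
      exact mul_le_one' (h1 P hP) (h1' P hP)
    · show P.adicValuation (p.2 * p'.2) ≤ 1
      rw [map_mul]
      exact mul_le_one' (h2 P hP) (h2' P hP)
    · obtain ⟨c, hc1, hc2⟩ := h3 i hi
      obtain ⟨c', hc1', hc2'⟩ := h3' i hi
      exact ⟨c * c', hc1.mul hc1', hc2.mul hc2'⟩
  add_mem' := by
    rintro p p' ⟨h1, h2, h3⟩ ⟨h1', h2', h3'⟩
    refine ⟨fun P hP => ?_, fun P hP => ?_, fun i hi => ?_⟩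
    · exact (Valuation.map_add _ _ _).trans (max_le (h1 P hP) (h1' P hP))
    · exact (Valuation.map_add _ _ _).trans (max_le (h2 P hP) (h2' P hP))
    · obtain ⟨c, hc1, hc2⟩ := h3 i hi
      obtain ⟨c', hc1', hc2'⟩ := h3' i hi
      exact ⟨c + c', hc1.add hc1', hc2.add hc2'⟩
  algebraMap_mem' := by
    intro r
    refine ⟨fun P _ => P.adicValuation_algebraMap_le_one r,
      fun P _ => P.adicValuation_algebraMap_le_one r, fun i _ => ⟨r, ?_, ?_⟩⟩
    · exact cong_algebraMap _ r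
    · exact cong_algebraMap _ r

theorem mem_nodalRing {ι : Type*} {U₁ : Set (Place K F₁)} {U₂ : Set (Place K F₂)}
    {e₁ : ι → Place K F₁} {e₂ : ι → Place K F₂} {S : Set ι} {p : F₁ × F₂} :
    p ∈ nodalRing U₁ U₂ e₁ e₂ S ↔
      (∀ P ∈ U₁, P.adicValuation p.1 ≤ 1) ∧ (∀ P ∈ U₂, P.adicValuation p.2 ≤ 1) ∧
        ∀ i ∈ S, ∃ c : K, Cong (e₁ i) p.1 c ∧ Cong (e₂ i) p.2 c := Iff.rfl

/-- The glued chart ring on `x ≠ ∞`. -/
def nodalFin {ι : Type*} (x₁ : F₁) (x₂ : F₂) (e₁ : ι → Place K F₁) (e₂ : ι → Place K F₂) :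
    Subalgebra K (F₁ × F₂) :=
  nodalRing {P | P.adicValuation x₁ ≤ 1} {P | P.adicValuation x₂ ≤ 1} e₁ e₂
    {i | (e₁ i).adicValuation x₁ ≤ 1}

/-- The glued chart ring on `x ≠ 0`. -/
def nodalInf {ι : Type*} (x₁ : F₁) (x₂ : F₂) (e₁ : ι → Place K F₁) (e₂ : ι → Place K F₂) :
    Subalgebra K (F₁ × F₂) :=
  nodalRing {P | 1 ≤ P.adicValuation x₁} {P | 1 ≤ P.adicValuation x₂} e₁ e₂
    {i | 1 ≤ (e₁ i).adicValuation x₁}

/-- The glued chart ring on `x ≠ 0, ∞`. -/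
def nodalOverlap {ι : Type*} (x₁ : F₁) (x₂ : F₂) (e₁ : ι → Place K F₁) (e₂ : ι → Place K F₂) :
    Subalgebra K (F₁ × F₂) :=
  nodalRing {P | P.adicValuation x₁ = 1} {P | P.adicValuation x₂ = 1} e₁ e₂
    {i | (e₁ i).adicValuation x₁ = 1}

theorem mem_nodalFin {ι : Type*} {x₁ : F₁} {x₂ : F₂} {e₁ : ι → Place K F₁}
    {e₂ : ι → Place K F₂} {p : F₁ × F₂} :
    p ∈ nodalFin x₁ x₂ e₁ e₂ ↔
      (∀ P : Place K F₁, P.adicValuation x₁ ≤ 1 → P.adicValuation p.1 ≤ 1) ∧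
      (∀ P : Place K F₂, P.adicValuation x₂ ≤ 1 → P.adicValuation p.2 ≤ 1) ∧
        ∀ i, (e₁ i).adicValuation x₁ ≤ 1 → ∃ c : K, Cong (e₁ i) p.1 c ∧ Cong (e₂ i) p.2 c :=
  Iff.rfl

theorem mem_nodalInf {ι : Type*} {x₁ : F₁} {x₂ : F₂} {e₁ : ι → Place K F₁}
    {e₂ : ι → Place K F₂} {p : F₁ × F₂} :
    p ∈ nodalInf x₁ x₂ e₁ e₂ ↔
      (∀ P : Place K F₁, 1 ≤ P.adicValuation x₁ → P.adicValuation p.1 ≤ 1) ∧
      (∀ P : Place K F₂, 1 ≤ P.adicValuation x₂ → P.adicValuation p.2 ≤ 1) ∧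
        ∀ i, 1 ≤ (e₁ i).adicValuation x₁ → ∃ c : K, Cong (e₁ i) p.1 c ∧ Cong (e₂ i) p.2 c :=
  Iff.rfl

theorem mem_nodalOverlap {ι : Type*} {x₁ : F₁} {x₂ : F₂} {e₁ : ι → Place K F₁}
    {e₂ : ι → Place K F₂} {p : F₁ × F₂} :
    p ∈ nodalOverlap x₁ x₂ e₁ e₂ ↔
      (∀ P : Place K F₁, P.adicValuation x₁ = 1 → P.adicValuation p.1 ≤ 1) ∧
      (∀ P : Place K F₂, P.adicValuation x₂ = 1 → P.adicValuation p.2 ≤ 1) ∧
        ∀ i, (e₁ i).adicValuation x₁ = 1 → ∃ c : K, Cong (e₁ i) p.1 c ∧ Cong (e₂ i) p.2 c :=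
  Iff.rfl

theorem nodalFin_le_nodalOverlap {ι : Type*} (x₁ : F₁) (x₂ : F₂) (e₁ : ι → Place K F₁)
    (e₂ : ι → Place K F₂) : nodalFin x₁ x₂ e₁ e₂ ≤ nodalOverlap x₁ x₂ e₁ e₂ := by
  rintro p ⟨h1, h2, h3⟩
  exact ⟨fun P hP => h1 P (le_of_eq hP), fun P hP => h2 P (le_of_eq hP),
    fun i hi => h3 i (le_of_eq hi)⟩

theorem nodalInf_le_nodalOverlap {ι : Type*} (x₁ : F₁) (x₂ : F₂) (e₁ : ι → Place K F₁)
    (e₂ : ι → Place K F₂) : nodalInf x₁ x₂ e₁ e₂ ≤ nodalOverlap x₁ x₂ e₁ e₂ := by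
  rintro p ⟨h1, h2, h3⟩
  exact ⟨fun P hP => h1 P (le_of_eq hP.symm), fun P hP => h2 P (le_of_eq hP.symm),
    fun i hi => h3 i (le_of_eq hi.symm)⟩

/-- The coordinate is compatible with the gluing: at every node either `x₁` and `x₂` are regular
with the same value, or both have a pole. -/
def XCompat {ι : Type*} (x₁ : F₁) (x₂ : F₂) (e₁ : ι → Place K F₁) (e₂ : ι → Place K F₂) :
    Prop :=
  ∀ i, (∃ t : K, Cong (e₁ i) x₁ t ∧ Cong (e₂ i) x₂ t) ∨
    (1 < (e₁ i).adicValuation x₁ ∧ 1 < (e₂ i).adicValuation x₂)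

/-- If all nodes are at finite distance and `x` takes the same value on both sides, the
coordinate is compatible with the gluing. -/
theorem xCompat_of_cong {ι : Type*} {x₁ : F₁} {x₂ : F₂} {e₁ : ι → Place K F₁}
    {e₂ : ι → Place K F₂} (h : ∀ i, ∃ t : K, Cong (e₁ i) x₁ t ∧ Cong (e₂ i) x₂ t) :
    XCompat x₁ x₂ e₁ e₂ := fun i => Or.inl (h i)

variable {ι : Type*} {x₁ : F₁} {x₂ : F₂} {e₁ : ι → Place K F₁} {e₂ : ι → Place K F₂}

theorem XCompat.val_le_one_iff (hx : XCompat x₁ x₂ e₁ e₂) (i : ι) :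
    (e₁ i).adicValuation x₁ ≤ 1 ↔ (e₂ i).adicValuation x₂ ≤ 1 := by
  rcases hx i with ⟨t, h1, h2⟩ | ⟨h1, h2⟩
  · exact ⟨fun _ => h2.le_one, fun _ => h1.le_one⟩
  · exact ⟨fun h => absurd h (not_le.mpr h1), fun h => absurd h (not_le.mpr h2)⟩

theorem XCompat.one_lt_val_iff (hx : XCompat x₁ x₂ e₁ e₂) (i : ι) :
    1 < (e₁ i).adicValuation x₁ ↔ 1 < (e₂ i).adicValuation x₂ := by
  rw [← not_le, ← not_le, hx.val_le_one_iff i]

theorem XCompat.exists_cong (hx : XCompat x₁ x₂ e₁ e₂) {i : ι}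
    (hi : (e₁ i).adicValuation x₁ ≤ 1) : ∃ t : K, Cong (e₁ i) x₁ t ∧ Cong (e₂ i) x₂ t := by
  rcases hx i with h | ⟨h1, -⟩
  · exact h
  · exact absurd hi (not_le.mpr h1)

theorem XCompat.exists_cong_ne_zero (hx : XCompat x₁ x₂ e₁ e₂) {i : ι}
    (hi : (e₁ i).adicValuation x₁ = 1) :
    ∃ t : K, t ≠ 0 ∧ Cong (e₁ i) x₁ t ∧ Cong (e₂ i) x₂ t := by
  obtain ⟨t, h1, h2⟩ := hx.exists_cong (le_of_eq hi)
  refine ⟨t, ?_, h1, h2⟩
  rintro rfl
  have := cong_zero_iff.mp h1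
  rw [hi] at this
  exact lt_irrefl _ this

theorem XCompat.val_eq_one_iff (hx : XCompat x₁ x₂ e₁ e₂) (i : ι) :
    (e₁ i).adicValuation x₁ = 1 ↔ (e₂ i).adicValuation x₂ = 1 := by
  constructor
  · intro h
    obtain ⟨t, ht, -, h2⟩ := hx.exists_cong_ne_zero h
    exact h2.val_eq_one ht
  · intro h
    obtain ⟨t, h1, h2⟩ := hx.exists_cong ((hx.val_le_one_iff i).mpr (le_of_eq h))
    have ht : t ≠ 0 := by
      rintro rfl
      have := cong_zero_iff.mp h2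
      rw [h] at this
      exact lt_irrefl _ this
    exact h1.val_eq_one ht

/-- `x = (x₁, x₂)` lies in the chart ring `x ≠ ∞`. -/
theorem x_mem_nodalFin (hx : XCompat x₁ x₂ e₁ e₂) : (x₁, x₂) ∈ nodalFin x₁ x₂ e₁ e₂ :=
  ⟨fun _ hP => hP, fun _ hP => hP, fun _ hi => hx.exists_cong hi⟩

/-- `x⁻¹ = (x₁⁻¹, x₂⁻¹)` lies in the chart ring `x ≠ 0`. -/
theorem x_inv_mem_nodalInf (hx : XCompat x₁ x₂ e₁ e₂) :
    (x₁⁻¹, x₂⁻¹) ∈ nodalInf x₁ x₂ e₁ e₂ := by
  refine ⟨fun P hP => ?_, fun P hP => ?_, fun i hi => ?_⟩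
  · show P.adicValuation x₁⁻¹ ≤ 1
    rw [map_inv₀]
    exact inv_le_one_of_one_le₀ hP
  · show P.adicValuation x₂⁻¹ ≤ 1
    rw [map_inv₀]
    exact inv_le_one_of_one_le₀ hP
  · rcases hx i with ⟨t, h1, h2⟩ | ⟨h1, h2⟩
    · have ht : t ≠ 0 := by
        rintro rfl
        have := cong_zero_iff.mp h1
        exact absurd hi (not_le.mpr this)
      exact ⟨t⁻¹, h1.inv ht, h2.inv ht⟩
    · refine ⟨0, cong_zero_iff.mpr ?_, cong_zero_iff.mpr ?_⟩
      · rw [map_inv₀]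
        exact inv_lt_one_of_one_lt₀ h1
      · rw [map_inv₀]
        exact inv_lt_one_of_one_lt₀ h2

end TwoFields

section Localisation

variable {F : Type*} [Field F] [Algebra K F] {x : F}

/-- Multiplying by a large power of `x` kills the poles at the zeros of `x` (and then vanishes
there). -/
theorem exists_pow_mul_val_lt_one [HasPrincipalDivisors K F] (hx0 : x ≠ 0) (a : F) :
    ∃ m : ℕ, ∀ m' : ℕ, m ≤ m' → ∀ P : Place K F, P.adicValuation x < 1 →
      P.adicValuation (x ^ m' * a) < 1 := by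
  classical
  rcases eq_or_ne a 0 with rfl | ha
  · refine ⟨0, fun m' _ P _ => ?_⟩
    rw [mul_zero, map_zero]
    exact zero_lt_one
  obtain ⟨D, hD, -⟩ := HasPrincipalDivisors.exists_divisor (K := K) a ha
  refine ⟨1 + ∑ Q ∈ D.support, (D Q).natAbs, fun m' hm' P hP => ?_⟩
  have hbound : (P.ord a).natAbs ≤ ∑ Q ∈ D.support, (D Q).natAbs := by
    by_cases hPs : P ∈ D.support
    · rw [← hD P]
      exact Finset.single_le_sum (f := fun Q => (D Q).natAbs) (fun _ _ => Nat.zero_le _) hPs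
    · rw [Finsupp.notMem_support_iff] at hPs
      rw [← hD P, hPs]
      simp
  have hordx : 0 < P.ord x := by
    rw [P.adicValuation_eq_exp_neg_ord hx0, ← exp_zero, exp_lt_exp] at hP
    omega
  rw [map_mul, map_pow, P.adicValuation_eq_exp_neg_ord hx0, P.adicValuation_eq_exp_neg_ord ha,
    ← exp_nsmul, ← exp_add, ← exp_zero, exp_lt_exp]
  simp only [nsmul_eq_mul]
  have h1 : (1 : ℤ) + (P.ord a).natAbs ≤ m' := by
    have : 1 + (P.ord a).natAbs ≤ m' := by omega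
    exact_mod_cast this
  have h2 : -(P.ord a) ≤ ((P.ord a).natAbs : ℤ) := by
    rw [Int.natCast_natAbs]
    exact neg_le_abs _
  have h3 : (m' : ℤ) ≤ m' * P.ord x := by
    have : (0 : ℤ) ≤ m' := Int.natCast_nonneg _
    nlinarith
  linarith

theorem exp_nsmul_poleDiv_of_one_le (h : IsFF1 K F x) {P : Place K F}
    (hP : 1 ≤ P.adicValuation x) (n : ℕ) :
    exp ((n • h.poleDiv) P) = P.adicValuation x ^ n := by
  have hx0 : x ≠ 0 := fun h0 => h.transcendental (h0 ▸ isAlgebraic_zero)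
  have hord := (one_le_val_iff_ord P hx0).mp hP
  have hE : h.poleDiv P = -P.ord x := by
    rw [h.poleDiv_apply]
    omega
  rw [Finsupp.smul_apply, hE, exp_nsmul, P.adicValuation_eq_exp_neg_ord hx0]

theorem val_inv_pow_mul_le_one_iff {P : Place K F} (hx0 : x ≠ 0) (n : ℕ) (a : F) :
    P.adicValuation (x⁻¹ ^ n * a) ≤ 1 ↔ P.adicValuation a ≤ P.adicValuation x ^ n := by
  have hpos : (0 : WithZero (Multiplicative ℤ)) < P.adicValuation x ^ n :=
    pow_pos (pos_iff_ne_zero.mpr ((Valuation.ne_zero_iff _).mpr hx0)) n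
  rw [map_mul, map_pow, map_inv₀, inv_pow, inv_mul_le_iff₀ hpos, mul_one]

/-- `L(n·(x)_∞)` in terms of the two charts. -/
theorem mem_L_nsmul_poleDiv_iff (h : IsFF1 K F x) (n : ℕ) (a : F) :
    a ∈ riemannRochSpace (n • h.poleDiv) ↔
      (∀ P : Place K F, P.adicValuation x ≤ 1 → P.adicValuation a ≤ 1) ∧
      (∀ P : Place K F, 1 ≤ P.adicValuation x → P.adicValuation (x⁻¹ ^ n * a) ≤ 1) := by
  have hx0 : x ≠ 0 := fun h0 => h.transcendental (h0 ▸ isAlgebraic_zero)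
  constructor
  · intro ha
    refine ⟨fun P hP => ?_, fun P hP => ?_⟩
    · have := ha P
      rwa [nsmul_poleDiv_eq_zero_of_val_le_one h hP, exp_zero] at this
    · rw [val_inv_pow_mul_le_one_iff hx0, ← exp_nsmul_poleDiv_of_one_le h hP]
      exact ha P
  · rintro ⟨h1, h2⟩ P
    rcases le_or_gt (P.adicValuation x) 1 with hP | hP
    · rw [nsmul_poleDiv_eq_zero_of_val_le_one h hP, exp_zero]
      exact h1 P hP
    · rw [exp_nsmul_poleDiv_of_one_le h hP.le, ← val_inv_pow_mul_le_one_iff hx0]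
      exact h2 P hP.le

end Localisation

section Split

variable {F₁ F₂ : Type*} [Field F₁] [Field F₂] [Algebra K F₁] [Algebra K F₂]
variable {ι : Type*} {x₁ : F₁} {x₂ : F₂} {e₁ : ι → Place K F₁} {e₂ : ι → Place K F₂}

/-- The overlap ring is the localisation of the chart ring `x ≠ ∞` at `x`. -/
theorem exists_pow_mul_mem_nodalFin (h₁ : IsFF1 K F₁ x₁) (h₂ : IsFF1 K F₂ x₂)
    (hx : XCompat x₁ x₂ e₁ e₂) {f : F₁ × F₂} (hf : f ∈ nodalOverlap x₁ x₂ e₁ e₂) :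
    ∃ m : ℕ, ∀ m' : ℕ, m ≤ m' → (x₁, x₂) ^ m' * f ∈ nodalFin x₁ x₂ e₁ e₂ := by
  obtain ⟨a, b⟩ := f
  obtain ⟨hfa, hfb, hfn⟩ := hf
  have hx₁0 : x₁ ≠ 0 := fun h0 => h₁.transcendental (h0 ▸ isAlgebraic_zero)
  have hx₂0 : x₂ ≠ 0 := fun h0 => h₂.transcendental (h0 ▸ isAlgebraic_zero)
  haveI := h₁.hasPrincipalDivisors
  haveI := h₂.hasPrincipalDivisors
  obtain ⟨m₁, hm₁⟩ := exists_pow_mul_val_lt_one (K := K) hx₁0 a
  obtain ⟨m₂, hm₂⟩ := exists_pow_mul_val_lt_one (K := K) hx₂0 b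
  refine ⟨max m₁ m₂, fun m' hm' =>
    mem_nodalFin.mpr ⟨fun P hP => ?_, fun P hP => ?_, fun i hi => ?_⟩⟩
  · show P.adicValuation (x₁ ^ m' * a) ≤ 1
    rcases eq_or_lt_of_le hP with hP1 | hP1
    · rw [map_mul, map_pow, hP1, one_pow, one_mul]
      exact hfa P hP1
    · exact (hm₁ m' ((le_max_left _ _).trans hm') P hP1).le
  · show P.adicValuation (x₂ ^ m' * b) ≤ 1
    rcases eq_or_lt_of_le hP with hP1 | hP1
    · rw [map_mul, map_pow, hP1, one_pow, one_mul]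
      exact hfb P hP1
    · exact (hm₂ m' ((le_max_right _ _).trans hm') P hP1).le
  · show ∃ c : K, Cong (e₁ i) (x₁ ^ m' * a) c ∧ Cong (e₂ i) (x₂ ^ m' * b) c
    rcases eq_or_lt_of_le hi with hi1 | hi1
    · obtain ⟨t, -, ht1, ht2⟩ := hx.exists_cong_ne_zero hi1
      obtain ⟨c, hc1, hc2⟩ := hfn i hi1
      exact ⟨t ^ m' * c, (ht1.pow m').mul hc1, (ht2.pow m').mul hc2⟩
    · obtain ⟨t, ht1, ht2⟩ := hx.exists_cong (le_of_lt hi1)
      have ht : t = 0 := ht1.val_lt_one_iff.mp hi1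
      have hi2 : (e₂ i).adicValuation x₂ < 1 := by
        rw [ht] at ht2
        exact cong_zero_iff.mp ht2
      exact ⟨0, cong_zero_iff.mpr (hm₁ m' ((le_max_left _ _).trans hm') _ hi1),
        cong_zero_iff.mpr (hm₂ m' ((le_max_right _ _).trans hm') _ hi2)⟩

/-- **Čech splitting, pointwise form**: if `H¹(n·E₁) = 0` on the first component and
`H¹(D) = 0` on the second one for every divisor of degree `≥ n·deg E₂ - #ι`, then every
function on the overlap is `g + x ^ (n + 1) · h` with `g` regular on the chart `x ≠ ∞` and `h`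
regular on the chart `x ≠ 0` (both compatible with the gluing). -/
theorem split_succ [Fintype ι] (h₁ : IsFF1 K F₁ x₁) (h₂ : IsFF1 K F₂ x₂)
    (he₂ : Function.Injective e₂) (hx : XCompat x₁ x₂ e₁ e₂) (n : ℕ)
    (hMD₁ : RR.MD (n • h₁.poleDiv) = ⊤)
    (hMD₂ : ∀ D : Divisor K F₂,
      Divisor.degree (n • h₂.poleDiv) - Fintype.card ι ≤ Divisor.degree D → RR.MD D = ⊤)
    {f : F₁ × F₂} (hf : f ∈ nodalOverlap x₁ x₂ e₁ e₂) :
    ∃ g ∈ nodalFin x₁ x₂ e₁ e₂, ∃ h ∈ nodalInf x₁ x₂ e₁ e₂,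
      f = g + (x₁, x₂) ^ (n + 1) * h := by
  classical
  obtain ⟨a, b⟩ := f
  obtain ⟨hfa, hfb, hfn⟩ := hf
  have hx₁0 : x₁ ≠ 0 := fun h0 => h₁.transcendental (h0 ▸ isAlgebraic_zero)
  have hx₂0 : x₂ ≠ 0 := fun h0 => h₂.transcendental (h0 ▸ isAlgebraic_zero)
  -- approximate `a` at the poles of `x₁`
  obtain ⟨a', ha'1, ha'2⟩ :=
    RR.strong_approximation_of_MD_eq_top hMD₁ h₁.poleDiv.support (fun _ => a)
  have hMD₂0 : RR.MD (n • h₂.poleDiv) = ⊤ := hMD₂ _ (by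
    have : (0 : ℤ) ≤ Fintype.card ι := Int.natCast_nonneg _
    linarith)
  obtain ⟨b₀, hb₀1, hb₀2⟩ :=
    RR.strong_approximation_of_MD_eq_top hMD₂0 h₂.poleDiv.support (fun _ => b)
  have ha'reg : ∀ P : Place K F₁, P.adicValuation x₁ ≤ 1 → P.adicValuation a' ≤ 1 := by
    intro P hP
    have hnot : P ∉ h₁.poleDiv.support := fun hmem =>
      absurd hP (not_le.mpr ((mem_support_poleDiv_iff h₁).mp hmem))
    have := ha'2 P hnot
    rwa [nsmul_poleDiv_eq_zero_of_val_le_one h₁ hP, exp_zero] at this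
  have hb₀reg : ∀ P : Place K F₂, P.adicValuation x₂ ≤ 1 → P.adicValuation b₀ ≤ 1 := by
    intro P hP
    have hnot : P ∉ h₂.poleDiv.support := fun hmem =>
      absurd hP (not_le.mpr ((mem_support_poleDiv_iff h₂).mp hmem))
    have := hb₀2 P hnot
    rwa [nsmul_poleDiv_eq_zero_of_val_le_one h₂ hP, exp_zero] at this
  -- the nodes at finite distance
  have hc : ∀ i : {i : ι // (e₁ i).adicValuation x₁ ≤ 1}, ∃ c : K, Cong (e₁ i) a' c :=
    fun i => exists_cong (h₁.resK _) (ha'reg _ i.2)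
  have hd : ∀ i : {i : ι // (e₁ i).adicValuation x₁ ≤ 1}, ∃ d : K, Cong (e₂ i) b₀ d :=
    fun i => exists_cong (h₂.resK _) (hb₀reg _ ((hx.val_le_one_iff i).mp i.2))
  choose c hc using hc
  choose d hd using hd
  have hinj : Function.Injective (fun i : {i : ι // (e₁ i).adicValuation x₁ ≤ 1} => e₂ i) :=
    he₂.comp Subtype.val_injective
  have hB : ∀ i : {i : ι // (e₁ i).adicValuation x₁ ≤ 1}, (n • h₂.poleDiv) (e₂ i) = 0 :=
    fun i => nsmul_poleDiv_eq_zero_of_val_le_one h₂ ((hx.val_le_one_iff i).mp i.2) n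
  have hdeg : Divisor.degree (n • h₂.poleDiv
        - ∑ i : {i : ι // (e₁ i).adicValuation x₁ ≤ 1}, Finsupp.single (e₂ i) (1 : ℤ))
      = Divisor.degree (n • h₂.poleDiv)
        - Fintype.card {i : ι // (e₁ i).adicValuation x₁ ≤ 1} := by
    rw [map_sub, map_sum]
    congr 1
    rw [Finset.sum_congr rfl (fun i _ => by
      rw [Divisor.degree_single, h₂.deg_eq_one, Nat.cast_one, mul_one])]
    simp
  have hMD' : RR.MD (n • h₂.poleDiv
      - ∑ i : {i : ι // (e₁ i).adicValuation x₁ ≤ 1}, Finsupp.single (e₂ i) (1 : ℤ)) = ⊤ := by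
    apply hMD₂
    rw [hdeg]
    have : (Fintype.card {i : ι // (e₁ i).adicValuation x₁ ≤ 1} : ℤ) ≤ Fintype.card ι := by
      exact_mod_cast Fintype.card_subtype_le _
    linarith
  obtain ⟨δ, hδL, hδ⟩ := exists_mem_L_cong
    (fun i : {i : ι // (e₁ i).adicValuation x₁ ≤ 1} => e₂ i) hinj (n • h₂.poleDiv) hB hMD'
    (fun i => c i - d i)
  have hδreg : ∀ P : Place K F₂, P.adicValuation x₂ ≤ 1 → P.adicValuation δ ≤ 1 := by
    intro P hP
    have := hδL P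
    rwa [nsmul_poleDiv_eq_zero_of_val_le_one h₂ hP, exp_zero] at this
  have hg : (a', b₀ + δ) ∈ nodalFin x₁ x₂ e₁ e₂ := by
    refine ⟨ha'reg, fun P hP => ?_, fun i hi => ⟨c ⟨i, hi⟩, hc ⟨i, hi⟩, ?_⟩⟩
    · exact (Valuation.map_add _ _ _).trans (max_le (hb₀reg P hP) (hδreg P hP))
    · have := (hd ⟨i, hi⟩).add (hδ ⟨i, hi⟩)
      rwa [add_sub_cancel] at this
  -- behaviour of the quotients at the poles
  have hpoleA : ∀ P : Place K F₁, 1 < P.adicValuation x₁ →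
      P.adicValuation ((a - a') / x₁ ^ (n + 1)) < 1 := by
    intro P hP
    refine val_div_pow_lt_one h₁ hP n ?_
    rw [Valuation.map_sub_swap]
    exact ha'1 P ((mem_support_poleDiv_iff h₁).mpr hP)
  have hpoleB : ∀ P : Place K F₂, 1 < P.adicValuation x₂ →
      P.adicValuation ((b - (b₀ + δ)) / x₂ ^ (n + 1)) < 1 := by
    intro P hP
    refine val_div_pow_lt_one h₂ hP n ?_
    have e : b - (b₀ + δ) = -((b₀ - b) + δ) := by ring
    rw [e, Valuation.map_neg]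
    exact (Valuation.map_add _ _ _).trans
      (max_le (hb₀1 P ((mem_support_poleDiv_iff h₂).mpr hP)) (hδL P))
  refine ⟨(a', b₀ + δ), hg, ((a - a') / x₁ ^ (n + 1), (b - (b₀ + δ)) / x₂ ^ (n + 1)), ?_, ?_⟩
  · refine mem_nodalInf.mpr ⟨fun P hP => ?_, fun P hP => ?_, fun i hi => ?_⟩
    · show P.adicValuation ((a - a') / x₁ ^ (n + 1)) ≤ 1
      rcases eq_or_lt_of_le hP with hP1 | hP1
      · exact val_div_pow_le_one hP1.symm _ ((Valuation.map_sub _ _ _).trans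
          (max_le (hfa P hP1.symm) (ha'reg P (le_of_eq hP1.symm))))
      · exact (hpoleA P hP1).le
    · show P.adicValuation ((b - (b₀ + δ)) / x₂ ^ (n + 1)) ≤ 1
      rcases eq_or_lt_of_le hP with hP1 | hP1
      · exact val_div_pow_le_one hP1.symm _ ((Valuation.map_sub _ _ _).trans
          (max_le (hfb P hP1.symm) (hg.2.1 P (le_of_eq hP1.symm))))
      · exact (hpoleB P hP1).le
    · show ∃ c : K, Cong (e₁ i) ((a - a') / x₁ ^ (n + 1)) c ∧
        Cong (e₂ i) ((b - (b₀ + δ)) / x₂ ^ (n + 1)) c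
      rcases eq_or_lt_of_le hi with hi1 | hi1
      · obtain ⟨t, ht, ht1, ht2⟩ := hx.exists_cong_ne_zero hi1.symm
        obtain ⟨cf, hcf1, hcf2⟩ := hfn i hi1.symm
        obtain ⟨cg, hcg1, hcg2⟩ := hg.2.2 i (le_of_eq hi1.symm)
        exact ⟨(cf - cg) / t ^ (n + 1),
          (hcf1.sub hcg1).div (ht1.pow _) (pow_ne_zero _ ht),
          (hcf2.sub hcg2).div (ht2.pow _) (pow_ne_zero _ ht)⟩
      · exact ⟨0, cong_zero_iff.mpr (hpoleA _ hi1),
          cong_zero_iff.mpr (hpoleB _ ((hx.one_lt_val_iff i).mp hi1))⟩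
  · refine Prod.ext ?_ ?_
    · show a = a' + x₁ ^ (n + 1) * ((a - a') / x₁ ^ (n + 1))
      field_simp
      ring
    · show b = b₀ + δ + x₂ ^ (n + 1) * ((b - (b₀ + δ)) / x₂ ^ (n + 1))
      field_simp
      ring

/-- **Čech splitting, uniform form (S2c)**: there is `n₀`, depending only on the two function
fields, the coordinates and the bound `m` on the number of nodes, such that for EVERY gluing
datum with at most `m` nodes and every `n ≥ n₀` the overlap ring is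
`nodalFin + xⁿ · nodalInf`. -/
theorem exists_split (h₁ : IsFF1 K F₁ x₁) (h₂ : IsFF1 K F₂ x₂) (m : ℕ) :
    ∃ n₀ : ℕ, ∀ (ι : Type w) [Fintype ι] (e₁ : ι → Place K F₁) (e₂ : ι → Place K F₂),
      Fintype.card ι ≤ m → Function.Injective e₂ → XCompat x₁ x₂ e₁ e₂ →
      ∀ n : ℕ, n₀ ≤ n → ∀ f ∈ nodalOverlap x₁ x₂ e₁ e₂,
        ∃ g ∈ nodalFin x₁ x₂ e₁ e₂, ∃ h ∈ nodalInf x₁ x₂ e₁ e₂,
          f = g + (x₁, x₂) ^ n * h := by
  obtain ⟨c₁, hc₁⟩ := h₁.exists_degree_bound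
  obtain ⟨c₂, hc₂⟩ := h₂.exists_degree_bound
  refine ⟨max c₁.toNat (c₂.toNat + m) + 1, fun ι _ e₁ e₂ hcard he₂ hx n hn f hf => ?_⟩
  obtain ⟨n', rfl⟩ : ∃ n', n = n' + 1 := ⟨n - 1, by omega⟩
  have hn' : max c₁.toNat (c₂.toNat + m) ≤ n' := by omega
  have hn'0 : (0 : ℤ) ≤ n' := Int.natCast_nonneg _
  refine split_succ h₁ h₂ he₂ hx n' ?_ ?_ hf
  · refine (hc₁ _ ?_).1
    rw [map_nsmul, nsmul_eq_mul]
    have hpos := h₁.degree_poleDiv_pos
    have h1 : c₁ ≤ (c₁.toNat : ℤ) := Int.self_le_toNat c₁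
    have h2 : (c₁.toNat : ℤ) ≤ n' := by exact_mod_cast (le_max_left _ _).trans hn'
    nlinarith
  · intro D hD
    refine (hc₂ D ?_).1
    rw [map_nsmul, nsmul_eq_mul] at hD
    have hpos := h₂.degree_poleDiv_pos
    have h1 : c₂ ≤ (c₂.toNat : ℤ) := Int.self_le_toNat c₂
    have h2 : (c₂.toNat : ℤ) + m ≤ n' := by exact_mod_cast (le_max_right _ _).trans hn'
    have h3 : (Fintype.card ι : ℤ) ≤ m := by exact_mod_cast hcard
    nlinarith

/-- The overlap ring is the localisation of the chart ring `x ≠ 0` at `x⁻¹`. -/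
theorem exists_pow_mul_mem_nodalInf (h₁ : IsFF1 K F₁ x₁) (h₂ : IsFF1 K F₂ x₂)
    (hx : XCompat x₁ x₂ e₁ e₂) {f : F₁ × F₂} (hf : f ∈ nodalOverlap x₁ x₂ e₁ e₂) :
    ∃ m : ℕ, ∀ m' : ℕ, m ≤ m' → (x₁⁻¹, x₂⁻¹) ^ m' * f ∈ nodalInf x₁ x₂ e₁ e₂ := by
  obtain ⟨a, b⟩ := f
  obtain ⟨hfa, hfb, hfn⟩ := hf
  have hx₁0 : x₁ ≠ 0 := fun h0 => h₁.transcendental (h0 ▸ isAlgebraic_zero)
  have hx₂0 : x₂ ≠ 0 := fun h0 => h₂.transcendental (h0 ▸ isAlgebraic_zero)
  haveI := h₁.hasPrincipalDivisors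
  haveI := h₂.hasPrincipalDivisors
  obtain ⟨m₁, hm₁⟩ := exists_pow_mul_val_lt_one (K := K) (inv_ne_zero hx₁0) a
  obtain ⟨m₂, hm₂⟩ := exists_pow_mul_val_lt_one (K := K) (inv_ne_zero hx₂0) b
  have hinv₁ : ∀ P : Place K F₁, 1 < P.adicValuation x₁ → P.adicValuation x₁⁻¹ < 1 := by
    intro P hP
    rw [map_inv₀]
    exact inv_lt_one_of_one_lt₀ hP
  have hinv₂ : ∀ P : Place K F₂, 1 < P.adicValuation x₂ → P.adicValuation x₂⁻¹ < 1 := by
    intro P hP
    rw [map_inv₀]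
    exact inv_lt_one_of_one_lt₀ hP
  refine ⟨max m₁ m₂, fun m' hm' =>
    mem_nodalInf.mpr ⟨fun P hP => ?_, fun P hP => ?_, fun i hi => ?_⟩⟩
  · show P.adicValuation (x₁⁻¹ ^ m' * a) ≤ 1
    rcases eq_or_lt_of_le hP with hP1 | hP1
    · rw [map_mul, map_pow, map_inv₀, ← hP1, inv_one, one_pow, one_mul]
      exact hfa P hP1.symm
    · exact (hm₁ m' ((le_max_left _ _).trans hm') P (hinv₁ P hP1)).le
  · show P.adicValuation (x₂⁻¹ ^ m' * b) ≤ 1
    rcases eq_or_lt_of_le hP with hP1 | hP1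
    · rw [map_mul, map_pow, map_inv₀, ← hP1, inv_one, one_pow, one_mul]
      exact hfb P hP1.symm
    · exact (hm₂ m' ((le_max_right _ _).trans hm') P (hinv₂ P hP1)).le
  · show ∃ c : K, Cong (e₁ i) (x₁⁻¹ ^ m' * a) c ∧ Cong (e₂ i) (x₂⁻¹ ^ m' * b) c
    rcases eq_or_lt_of_le hi with hi1 | hi1
    · obtain ⟨t, ht, ht1, ht2⟩ := hx.exists_cong_ne_zero hi1.symm
      obtain ⟨c, hc1, hc2⟩ := hfn i hi1.symm
      exact ⟨t⁻¹ ^ m' * c, ((ht1.inv ht).pow m').mul hc1, ((ht2.inv ht).pow m').mul hc2⟩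
    · exact ⟨0, cong_zero_iff.mpr (hm₁ m' ((le_max_left _ _).trans hm') _ (hinv₁ _ hi1)),
        cong_zero_iff.mpr (hm₂ m' ((le_max_right _ _).trans hm') _
          (hinv₂ _ ((hx.one_lt_val_iff i).mp hi1)))⟩

/-- **Sections of `O(n·(x)_∞)` on the nodal curve** (all nodes at finite distance):
`nodalFin ∩ xⁿ · nodalInf` is the glued Riemann–Roch space of `NodalRiemann`. -/
theorem mem_gluedSpace_iff_nodal (h₁ : IsFF1 K F₁ x₁) (h₂ : IsFF1 K F₂ x₂)
    (hx : XCompat x₁ x₂ e₁ e₂) (hfin : ∀ i, (e₁ i).adicValuation x₁ ≤ 1) (n : ℕ)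
    (p : F₁ × F₂) :
    p ∈ gluedSpace e₁ e₂ (fun _ => (1 : K)) (n • h₁.poleDiv) (n • h₂.poleDiv) ↔
      p ∈ nodalFin x₁ x₂ e₁ e₂ ∧ (x₁⁻¹, x₂⁻¹) ^ n * p ∈ nodalInf x₁ x₂ e₁ e₂ := by
  obtain ⟨a, b⟩ := p
  constructor
  · rintro ⟨h1, h2, h3⟩
    have h1' := (mem_L_nsmul_poleDiv_iff h₁ n a).mp h1
    have h2' := (mem_L_nsmul_poleDiv_iff h₂ n b).mp h2
    refine ⟨mem_nodalFin.mpr ⟨h1'.1, h2'.1, fun i _ => ?_⟩,
      mem_nodalInf.mpr ⟨h1'.2, h2'.2, fun i hi => ?_⟩⟩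
    · obtain ⟨c, hc1, hc2⟩ := h3 i
      rw [one_mul] at hc2
      exact ⟨c, hc1, hc2⟩
    · obtain ⟨c, hc1, hc2⟩ := h3 i
      rw [one_mul] at hc2
      obtain ⟨t, ht, ht1, ht2⟩ := hx.exists_cong_ne_zero (le_antisymm (hfin i) hi)
      exact ⟨t⁻¹ ^ n * c, ((ht1.inv ht).pow n).mul hc1, ((ht2.inv ht).pow n).mul hc2⟩
  · rintro ⟨hF, hI⟩
    obtain ⟨hF1, hF2, hF3⟩ := mem_nodalFin.mp hF
    obtain ⟨hI1, hI2, -⟩ := mem_nodalInf.mp hI
    refine ⟨(mem_L_nsmul_poleDiv_iff h₁ n a).mpr ⟨hF1, hI1⟩,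
      (mem_L_nsmul_poleDiv_iff h₂ n b).mpr ⟨hF2, hI2⟩, fun i => ?_⟩
    obtain ⟨c, hc1, hc2⟩ := hF3 i (hfin i)
    refine ⟨c, hc1, ?_⟩
    rw [one_mul]
    exact hc2

/-- **Riemann's theorem on the nodal curve for `O(n·(x)_∞)`, uniformly in the nodes**: there is
`n₁` depending only on the function fields and the bound `m` on the number of nodes such that
`dim gluedSpace (n·E₁) (n·E₂) = n (deg E₁ + deg E₂) + 2 - g₁ - g₂ - #ι` for all `n ≥ n₁`, every
gluing datum with at most `m` nodes (at finite distance) and every `μ`. -/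
theorem exists_finrank_gluedSpace_nsmul (h₁ : IsFF1 K F₁ x₁) (h₂ : IsFF1 K F₂ x₂) (m : ℕ) :
    ∃ n₁ : ℕ, ∀ (ι : Type w) [Fintype ι] (e₁ : ι → Place K F₁) (e₂ : ι → Place K F₂),
      Fintype.card ι ≤ m → Function.Injective e₂ → XCompat x₁ x₂ e₁ e₂ →
      (∀ i, (e₁ i).adicValuation x₁ ≤ 1) → ∀ n : ℕ, n₁ ≤ n → ∀ μ : ι → K,
        (Module.finrank K (gluedSpace e₁ e₂ μ (n • h₁.poleDiv) (n • h₂.poleDiv)) : ℤ)
          = n * (Divisor.degree h₁.poleDiv + Divisor.degree h₂.poleDiv) + 2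
            - genusFF K F₁ - genusFF K F₂ - Fintype.card ι := by
  classical
  obtain ⟨c₁, hc₁⟩ := h₁.exists_degree_bound
  obtain ⟨c₂, hc₂⟩ := h₂.exists_degree_bound
  refine ⟨max c₁.toNat (c₂.toNat + m), fun ι _ e₁ e₂ hcard he₂ hx hfin n hn μ => ?_⟩
  have hn0 : (0 : ℤ) ≤ n := Int.natCast_nonneg _
  have hpos₁ := h₁.degree_poleDiv_pos
  have hpos₂ := h₂.degree_poleDiv_pos
  have h11 : c₁ ≤ (c₁.toNat : ℤ) := Int.self_le_toNat c₁
  have h12 : (c₁.toNat : ℤ) ≤ n := by exact_mod_cast (le_max_left _ _).trans hn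
  have h21 : c₂ ≤ (c₂.toNat : ℤ) := Int.self_le_toNat c₂
  have h22 : (c₂.toNat : ℤ) + m ≤ n := by exact_mod_cast (le_max_right _ _).trans hn
  have h23 : (Fintype.card ι : ℤ) ≤ m := by exact_mod_cast hcard
  have h24 : (0 : ℤ) ≤ Fintype.card ι := Int.natCast_nonneg _
  have e1 : Divisor.degree (n • h₁.poleDiv) = n * Divisor.degree h₁.poleDiv := by
    rw [map_nsmul, nsmul_eq_mul]
  have e2 : Divisor.degree (n • h₂.poleDiv) = n * Divisor.degree h₂.poleDiv := by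
    rw [map_nsmul, nsmul_eq_mul]
  have hdeg : Divisor.degree (n • h₂.poleDiv - ∑ i, Finsupp.single (e₂ i) (1 : ℤ))
      = Divisor.degree (n • h₂.poleDiv) - Fintype.card ι := by
    rw [map_sub, map_sum]
    congr 1
    rw [Finset.sum_congr rfl (fun i _ => by
      rw [Divisor.degree_single, h₂.deg_eq_one, Nat.cast_one, mul_one])]
    simp
  have hMD := (hc₂ (n • h₂.poleDiv - ∑ i, Finsupp.single (e₂ i) (1 : ℤ)) (by
    rw [hdeg, e2]
    nlinarith)).1
  have hB₁ : ∀ i, (n • h₁.poleDiv) (e₁ i) ≤ 0 := fun i =>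
    (nsmul_poleDiv_eq_zero_of_val_le_one h₁ (hfin i) n).le
  have hB₂ : ∀ i, (n • h₂.poleDiv) (e₂ i) = 0 := fun i =>
    nsmul_poleDiv_eq_zero_of_val_le_one h₂ ((hx.val_le_one_iff i).mp (hfin i)) n
  have hcount := finrank_gluedSpace_add_card h₁ h₂ e₁ e₂ he₂ μ (n • h₁.poleDiv)
    (n • h₂.poleDiv) hB₁ hB₂ hMD
  have hl₁ := (hc₁ (n • h₁.poleDiv) (by rw [e1]; nlinarith)).2
  have hl₂ := (hc₂ (n • h₂.poleDiv) (by rw [e2]; nlinarith)).2
  have hcount' : (Module.finrank K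
      (gluedSpace e₁ e₂ μ (n • h₁.poleDiv) (n • h₂.poleDiv)) : ℤ) + Fintype.card ι
      = (Module.finrank K (riemannRochSpace (n • h₁.poleDiv)) : ℤ)
        + Module.finrank K (riemannRochSpace (n • h₂.poleDiv)) := by
    exact_mod_cast hcount
  rw [e1] at hl₁
  rw [e2] at hl₂
  linarith

end Split

end Fermat.Agent.BAD.NodalCech
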