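/-
BAD (helper54) — (S2a) + (S2b): lifting and Čech–Nakayama, Mathlib only.

Setting of (S2b): `A` a commutative ring, `π ∈ A` in the Jacobson radical (e.g. a non-unit of a
local ring), `Ω` a commutative `A`-algebra, `J : Ωˣ`, `R`, `R∞` two `A`-subalgebras of `Ω` with
`J ∈ R`, `J⁻¹ ∈ R∞`; `R = ∑ A[J]·e i` (finitely many `e i`) and `J⁻ᵈ e i ∈ R∞`.
`R[1/J]` is the set of `f` with `J ^ k * f ∈ R` for some `k : ℕ`.

* `exists_mem_inf`   (S2a): `M ≤ M₁ ⊔ M₂`, `x ∈ M₁`, `y ∈ M₂`, `x - y ∈ π • M` ⟹ there is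
  `z ∈ M₁ ⊓ M₂` with `z - x ∈ π • M₁`, `z - y ∈ π • M₂`.
* `le_of_nakayama`   : Nakayama in the shape "`M ≤ N ⊔ G`, `G` finitely generated, `G ≤ M`,
  `M ≤ N + π M` ⟹ `M ≤ N`".
* `exists_fg_span`   : `R[1/J] ≤ R + Jⁿ R∞ + G` with `G` a finitely generated `A`-module
  (spanned by the `Jˡ e i`, `n - d < l < 0`).
* `cech_nakayama`    (S2b): if every `f ∈ R[1/J]` is `a + Jⁿ b + π c` (`a ∈ R`, `b ∈ R∞`,
  `c ∈ R[1/J]`), then every `f ∈ R[1/J]` is `a + Jⁿ b`.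
* `red_inter`        (abstract core of (S2d)): with a ring hom `red : Ω →+* Ft` killing `π`, with
  `ker red ∩ R[1/J] = π R[1/J]`, `R∞ ⊆ R[1/J]` and the Čech `H¹` of the special fibre vanishing
  (`red f ∈ red R + red(J)ⁿ red R∞` for `f ∈ R[1/J]`):
  `red R ∩ red(J)ⁿ red R∞ = red (R ∩ Jⁿ R∞)`.
* `le_of_nakayama_ideal`, `cech_nakayama_ideal`, `red_inter_ideal` : the same with an ideal
  `I ≤ jacobson ⊥` (the maximal ideal of a non-discrete valuation ring) in place of `π`.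
* `loc_le_sup_of_le`, `red_inter_large` : for `n ≥ d - 1` the gap is EMPTY, so
  `R[1/J] = R + Jⁿ R∞` and the saturation statement hold with no Nakayama and no hypothesis on
  the special fibre.
* `exists_pow_mul_isIntegral` : `b` integral over `A[J⁻¹]` ⟹ `J ^ k * b` integral over `A[J]`
  for some `k` (used for `R∞ ⊆ R[1/J]` and for `J⁻ᵈ e i ∈ R∞` in the instance).
-/
import Mathlib

set_option autoImplicit false

namespace Fermat.Agent.BAD.CechNakayama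

open Polynomial

section Lifting

variable {A X : Type*} [CommRing A] [AddCommGroup X] [Module A X]

/-- **(S2a) Lifting.**  If `M ≤ M₁ ⊔ M₂`, `x ∈ M₁`, `y ∈ M₂` and `x - y = π • m` with `m ∈ M`,
there is `z ∈ M₁ ⊓ M₂` with `z - x ∈ π • M₁` and `z - y ∈ π • M₂`. -/
theorem exists_mem_inf (π : A) (M₁ M₂ M : Submodule A X) (hM : M ≤ M₁ ⊔ M₂)
    {x y m : X} (hx : x ∈ M₁) (hy : y ∈ M₂) (hm : m ∈ M) (hxy : x - y = π • m) :
    ∃ z, z ∈ M₁ ∧ z ∈ M₂ ∧ (∃ a ∈ M₁, z - x = π • a) ∧ (∃ b ∈ M₂, z - y = π • b) := by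
  obtain ⟨a, ha, b, hb, hab⟩ := Submodule.mem_sup.mp (hM hm)
  have hz : x - π • a = y + π • b := by
    have h1 : x = y + π • (a + b) := by rw [hab, ← hxy]; abel
    rw [smul_add] at h1
    rw [h1]; abel
  refine ⟨x - π • a, M₁.sub_mem hx (M₁.smul_mem π ha), ?_, ⟨-a, M₁.neg_mem ha, ?_⟩, ⟨b, hb, ?_⟩⟩
  · rw [hz]; exact M₂.add_mem hy (M₂.smul_mem π hb)
  · rw [smul_neg]; abel
  · rw [hz]; abel

/-- **Nakayama**, in the shape used for the Čech `H¹`: if `M ≤ N ⊔ G` with `G ≤ M` finitely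
generated and every element of `M` is in `N + π M`, `π` in the Jacobson radical, then `M ≤ N`. -/
theorem le_of_nakayama (π : A) (hπ : π ∈ Ideal.jacobson (⊥ : Ideal A)) (N G M : Submodule A X)
    (hG : G.FG) (hGM : G ≤ M) (hMG : M ≤ N ⊔ G)
    (hM : ∀ f ∈ M, ∃ a ∈ N, ∃ c ∈ M, f = a + π • c) : M ≤ N := by
  have hGN : G ≤ N := by
    refine Submodule.le_of_le_smul_of_le_jacobson_bot (I := Ideal.span {π}) hG ?_ ?_
    · rw [Ideal.span_le, Set.singleton_subset_iff]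
      exact hπ
    · intro g hg
      obtain ⟨a, ha, c, hc, rfl⟩ := hM g (hGM hg)
      obtain ⟨a', ha', g', hg', rfl⟩ := Submodule.mem_sup.mp (hMG hc)
      rw [smul_add, ← add_assoc]
      exact Submodule.add_mem_sup (N.add_mem ha (N.smul_mem π ha'))
        (Submodule.smul_mem_smul (Ideal.subset_span rfl) hg')
  exact hMG.trans (sup_le le_rfl hGN)

/-- **Nakayama** with an ideal `I` inside the Jacobson radical (e.g. the maximal ideal of a local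
ring, not necessarily principal): if `M ≤ N ⊔ G` with `G ≤ M` finitely generated and every element
of `M` is in `N + I M`, then `M ≤ N`. -/
theorem le_of_nakayama_ideal (I : Ideal A) (hI : I ≤ Ideal.jacobson (⊥ : Ideal A))
    (N G M : Submodule A X) (hG : G.FG) (hGM : G ≤ M) (hMG : M ≤ N ⊔ G)
    (hM : ∀ f ∈ M, ∃ a ∈ N, ∃ π ∈ I, ∃ c ∈ M, f = a + π • c) : M ≤ N := by
  have hGN : G ≤ N := by
    refine Submodule.le_of_le_smul_of_le_jacobson_bot (I := I) hG hI ?_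
    intro g hg
    obtain ⟨a, ha, π, hπ, c, hc, rfl⟩ := hM g (hGM hg)
    obtain ⟨a', ha', g', hg', rfl⟩ := Submodule.mem_sup.mp (hMG hc)
    rw [smul_add, ← add_assoc]
    exact Submodule.add_mem_sup (N.add_mem ha (N.smul_mem π ha'))
      (Submodule.smul_mem_smul hπ hg')
  exact hMG.trans (sup_le le_rfl hGN)

end Lifting

section Cech

variable {A Ω : Type*} [CommRing A] [CommRing Ω] [Algebra A Ω]

/-- `R[1/J]` as an `A`-submodule of `Ω`: the `f` with `J ^ k * f ∈ R` for some `k`. -/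
def loc (R : Subalgebra A Ω) (J : Ωˣ) (hJR : (J : Ω) ∈ R) : Submodule A Ω where
  carrier := {f | ∃ k : ℕ, (J : Ω) ^ k * f ∈ R}
  add_mem' := by
    rintro f g ⟨k, hk⟩ ⟨l, hl⟩
    refine ⟨k + l, ?_⟩
    have e : (J : Ω) ^ (k + l) * (f + g)
        = (J : Ω) ^ l * ((J : Ω) ^ k * f) + (J : Ω) ^ k * ((J : Ω) ^ l * g) := by ring
    rw [e]
    exact R.add_mem (R.mul_mem (R.pow_mem hJR l) hk) (R.mul_mem (R.pow_mem hJR k) hl)
  zero_mem' := ⟨0, by rw [mul_zero]; exact R.zero_mem⟩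
  smul_mem' := by
    rintro c f ⟨k, hk⟩
    refine ⟨k, ?_⟩
    show (J : Ω) ^ k * c • f ∈ R
    rw [mul_smul_comm]
    exact R.smul_mem hk c

theorem mem_loc {R : Subalgebra A Ω} {J : Ωˣ} {hJR : (J : Ω) ∈ R} {f : Ω} :
    f ∈ loc R J hJR ↔ ∃ k : ℕ, (J : Ω) ^ k * f ∈ R := Iff.rfl

theorem le_loc (R : Subalgebra A Ω) (J : Ωˣ) (hJR : (J : Ω) ∈ R) :
    Subalgebra.toSubmodule R ≤ loc R J hJR := fun f hf =>
  ⟨0, by rw [pow_zero, one_mul]; exact hf⟩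

/-- `R[1/J]` is stable under multiplication by `J ^ n`, `n : ℤ`. -/
theorem zpow_mul_mem_loc {R : Subalgebra A Ω} {J : Ωˣ} {hJR : (J : Ω) ∈ R} {f : Ω}
    (hf : f ∈ loc R J hJR) (n : ℤ) : ((J ^ n : Ωˣ) : Ω) * f ∈ loc R J hJR := by
  obtain ⟨k, hk⟩ := hf
  rcases le_total 0 n with hn | hn
  · obtain ⟨m, rfl⟩ := Int.eq_ofNat_of_zero_le hn
    refine ⟨k, ?_⟩
    have e : (J : Ω) ^ k * (((J ^ (m : ℤ) : Ωˣ) : Ω) * f) = (J : Ω) ^ m * ((J : Ω) ^ k * f) := by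
      rw [zpow_natCast, Units.val_pow_eq_pow_val]; ring
    rw [e]
    exact R.mul_mem (R.pow_mem hJR m) hk
  · obtain ⟨m, hm⟩ := Int.eq_ofNat_of_zero_le (neg_nonneg.mpr hn)
    refine ⟨k + m, ?_⟩
    have e : (J : Ω) ^ (k + m) * (((J ^ n : Ωˣ) : Ω) * f) = (J : Ω) ^ k * f := by
      have hn' : n = -(m : ℤ) := by omega
      have h1 : (J : Ω) ^ m * ((J ^ n : Ωˣ) : Ω) = 1 := by
        rw [hn', zpow_neg, zpow_natCast, ← Units.val_pow_eq_pow_val, ← Units.val_mul,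
          mul_inv_cancel, Units.val_one]
      calc (J : Ω) ^ (k + m) * (((J ^ n : Ωˣ) : Ω) * f)
          = ((J : Ω) ^ m * ((J ^ n : Ωˣ) : Ω)) * ((J : Ω) ^ k * f) := by ring
        _ = (J : Ω) ^ k * f := by rw [h1, one_mul]
    rw [e]
    exact hk

/-- `J ^ n • R∞` as an `A`-submodule of `Ω`. -/
def shift (J : Ωˣ) (n : ℤ) (Rinf : Subalgebra A Ω) : Submodule A Ω :=
  (Subalgebra.toSubmodule Rinf).map (LinearMap.mulLeft A ((J ^ n : Ωˣ) : Ω))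

theorem mem_shift {J : Ωˣ} {n : ℤ} {Rinf : Subalgebra A Ω} {f : Ω} :
    f ∈ shift J n Rinf ↔ ∃ b ∈ Rinf, f = ((J ^ n : Ωˣ) : Ω) * b := by
  unfold shift
  rw [Submodule.mem_map]
  constructor
  · rintro ⟨b, hb, rfl⟩
    exact ⟨b, hb, rfl⟩
  · rintro ⟨b, hb, rfl⟩
    exact ⟨b, hb, rfl⟩

variable (R Rinf : Subalgebra A Ω) (J : Ωˣ) {ι : Type*} (e : ι → Ω)

/-- The finitely many "gap" monomials `J ^ l * e i`, `n - d < l < 0`. -/
def gap (d : ℕ) (n : ℤ) : Submodule A Ω :=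
  Submodule.span A ((fun p : ι × ℤ => ((J ^ p.2 : Ωˣ) : Ω) * e p.1) ''
    ((Set.univ : Set ι) ×ˢ Set.Ioo (n - d) 0))

theorem gap_fg [Finite ι] (d : ℕ) (n : ℤ) : (gap (A := A) J e d n).FG :=
  Submodule.fg_span ((Set.finite_univ.prod (Set.finite_Ioo _ _)).image _)

variable {R Rinf J e}

theorem zpow_mul_mem_of_nonneg (hJR : (J : Ω) ∈ R) {x : Ω} (hx : x ∈ R) {l : ℤ} (hl : 0 ≤ l) :
    ((J ^ l : Ωˣ) : Ω) * x ∈ R := by
  obtain ⟨m, rfl⟩ := Int.eq_ofNat_of_zero_le hl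
  rw [zpow_natCast, Units.val_pow_eq_pow_val]
  exact R.mul_mem (R.pow_mem hJR m) hx

theorem zpow_mul_mem_of_nonpos (hJinf : ((J⁻¹ : Ωˣ) : Ω) ∈ Rinf) {x : Ω} (hx : x ∈ Rinf) {l : ℤ}
    (hl : l ≤ 0) : ((J ^ l : Ωˣ) : Ω) * x ∈ Rinf := by
  obtain ⟨m, hm⟩ := Int.eq_ofNat_of_zero_le (neg_nonneg.mpr hl)
  have hl' : l = -(m : ℤ) := by omega
  rw [hl', zpow_neg, ← inv_zpow, zpow_natCast, Units.val_pow_eq_pow_val]
  exact Rinf.mul_mem (Rinf.pow_mem hJinf m) hx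

/-- Every monomial `J ^ l * e i` lies in `R + Jⁿ R∞ + gap`. -/
theorem zpow_mul_gen_mem (hJR : (J : Ω) ∈ R) (hJinf : ((J⁻¹ : Ωˣ) : Ω) ∈ Rinf)
    (he : ∀ i, e i ∈ R) (d : ℕ) (hd : ∀ i, ((J⁻¹ ^ d : Ωˣ) : Ω) * e i ∈ Rinf) (n : ℤ) (l : ℤ)
    (i : ι) :
    ((J ^ l : Ωˣ) : Ω) * e i ∈ (Subalgebra.toSubmodule R ⊔ shift J n Rinf) ⊔ gap J e d n := by
  rcases le_or_gt 0 l with h0 | h0
  · exact Submodule.mem_sup_left (Submodule.mem_sup_left (zpow_mul_mem_of_nonneg hJR (he i) h0))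
  rcases le_or_gt l (n - d) with h1 | h1
  · refine Submodule.mem_sup_left (Submodule.mem_sup_right ?_)
    rw [mem_shift]
    refine ⟨((J ^ (l - n + d) : Ωˣ) : Ω) * (((J⁻¹ ^ d : Ωˣ) : Ω) * e i),
      zpow_mul_mem_of_nonpos hJinf (hd i) (by omega), ?_⟩
    rw [← mul_assoc, ← mul_assoc, ← Units.val_mul, ← Units.val_mul]
    congr 2
    rw [inv_pow, ← zpow_natCast J d, ← zpow_neg, ← zpow_add, ← zpow_add]
    congr 1
    omega
  · refine Submodule.mem_sup_right (Submodule.subset_span ?_)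
    exact ⟨(i, l), ⟨Set.mem_univ _, ⟨h1, h0⟩⟩, rfl⟩

/-- `J ^ k * p(J) * e i ∈ R + Jⁿ R∞ + gap` for every polynomial `p` over `A` and `k : ℤ`. -/
theorem zpow_mul_aeval_mem (hJR : (J : Ω) ∈ R) (hJinf : ((J⁻¹ : Ωˣ) : Ω) ∈ Rinf)
    (he : ∀ i, e i ∈ R) (d : ℕ) (hd : ∀ i, ((J⁻¹ ^ d : Ωˣ) : Ω) * e i ∈ Rinf) (n : ℤ) (k : ℤ)
    (p : A[X]) (i : ι) :
    ((J ^ k : Ωˣ) : Ω) * (aeval (J : Ω) p * e i)
      ∈ (Subalgebra.toSubmodule R ⊔ shift J n Rinf) ⊔ gap J e d n := by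
  induction p using Polynomial.induction_on' with
  | add p q hp hq =>
    rw [map_add, add_mul, mul_add]
    exact Submodule.add_mem _ hp hq
  | monomial j a =>
    have h := zpow_mul_gen_mem hJR hJinf he d hd n (k + j) i
    have e1 : ((J ^ k : Ωˣ) : Ω) * (aeval (J : Ω) (monomial j a) * e i)
        = a • (((J ^ (k + j) : Ωˣ) : Ω) * e i) := by
      rw [aeval_monomial, zpow_add, zpow_natCast, Units.val_mul, Units.val_pow_eq_pow_val,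
        Algebra.smul_def]
      ring
    rw [e1]
    exact Submodule.smul_mem _ a h

/-- **Finite generation of the Čech `H¹`**: `R[1/J] ≤ R + Jⁿ R∞ + gap`, and `gap ≤ R[1/J]` is
finitely generated over `A`. -/
theorem loc_le_sup_gap [Fintype ι] (hJR : (J : Ω) ∈ R) (hJinf : ((J⁻¹ : Ωˣ) : Ω) ∈ Rinf)
    (he : ∀ i, e i ∈ R)
    (hgen : ∀ x ∈ R, ∃ c : ι → A[X], x = ∑ i, aeval (J : Ω) (c i) * e i)
    (d : ℕ) (hd : ∀ i, ((J⁻¹ ^ d : Ωˣ) : Ω) * e i ∈ Rinf) (n : ℤ) :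
    loc R J hJR ≤ (Subalgebra.toSubmodule R ⊔ shift J n Rinf) ⊔ gap J e d n := by
  rintro f ⟨k, hk⟩
  obtain ⟨c, hc⟩ := hgen _ hk
  have hf : f = ∑ i, ((J ^ (-(k : ℤ)) : Ωˣ) : Ω) * (aeval (J : Ω) (c i) * e i) := by
    rw [← Finset.mul_sum, ← hc, ← mul_assoc, zpow_neg, zpow_natCast,
      ← Units.val_pow_eq_pow_val, ← Units.val_mul, inv_mul_cancel, Units.val_one, one_mul]
  rw [hf]
  exact Submodule.sum_mem _ fun i _ => zpow_mul_aeval_mem hJR hJinf he d hd n _ _ i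

theorem gap_le_loc (hJR : (J : Ω) ∈ R) (he : ∀ i, e i ∈ R) (d : ℕ) (n : ℤ) :
    gap J e d n ≤ loc R J hJR := by
  unfold gap
  rw [Submodule.span_le]
  rintro _ ⟨p, -, rfl⟩
  exact zpow_mul_mem_loc (le_loc R J hJR (he p.1)) p.2

/-- **(S2b) Čech–Nakayama.**  If every `f ∈ R[1/J]` is of the form `a + Jⁿ b + π c` with
`a ∈ R`, `b ∈ R∞`, `c ∈ R[1/J]`, and `π` is in the Jacobson radical of `A`, then every
`f ∈ R[1/J]` is of the form `a + Jⁿ b`. -/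
theorem cech_nakayama [Fintype ι] (π : A) (hπ : π ∈ Ideal.jacobson (⊥ : Ideal A))
    (hJR : (J : Ω) ∈ R) (hJinf : ((J⁻¹ : Ωˣ) : Ω) ∈ Rinf) (he : ∀ i, e i ∈ R)
    (hgen : ∀ x ∈ R, ∃ c : ι → A[X], x = ∑ i, aeval (J : Ω) (c i) * e i)
    (d : ℕ) (hd : ∀ i, ((J⁻¹ ^ d : Ωˣ) : Ω) * e i ∈ Rinf) (n : ℤ)
    (hmod : ∀ f : Ω, (∃ k : ℕ, (J : Ω) ^ k * f ∈ R) →
      ∃ a ∈ R, ∃ b ∈ Rinf, ∃ c : Ω, (∃ k : ℕ, (J : Ω) ^ k * c ∈ R) ∧
        f = a + ((J ^ n : Ωˣ) : Ω) * b + π • c)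
    (f : Ω) (hf : ∃ k : ℕ, (J : Ω) ^ k * f ∈ R) :
    ∃ a ∈ R, ∃ b ∈ Rinf, f = a + ((J ^ n : Ωˣ) : Ω) * b := by
  have key : loc R J hJR ≤ Subalgebra.toSubmodule R ⊔ shift J n Rinf := by
    refine le_of_nakayama π hπ _ (gap J e d n) _ (gap_fg J e d n) (gap_le_loc hJR he d n)
      (loc_le_sup_gap hJR hJinf he hgen d hd n) ?_
    intro g hg
    obtain ⟨a, ha, b, hb, c, hc, rfl⟩ := hmod g hg
    exact ⟨a + ((J ^ n : Ωˣ) : Ω) * b,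
      Submodule.add_mem_sup ha (mem_shift.mpr ⟨b, hb, rfl⟩), c, hc, rfl⟩
  obtain ⟨a, ha, y, hy, rfl⟩ := Submodule.mem_sup.mp (key hf)
  obtain ⟨b, hb, rfl⟩ := mem_shift.mp hy
  exact ⟨a, ha, b, hb, rfl⟩

/-- **Abstract core of (S2d)**: reduction commutes with `R ∩ Jⁿ R∞`.  Let `red : Ω →+* Ft` be a
ring homomorphism killing `π` such that `ker red ∩ R[1/J] = π R[1/J]`, `R∞ ⊆ R[1/J]` and the
Čech `H¹` of the special fibre vanishes in degree `n`.  Then every element of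
`red R ∩ red(J)ⁿ red R∞` is the reduction of an element of `R ∩ Jⁿ R∞`. -/
theorem red_inter [Fintype ι] (π : A) (hπ : π ∈ Ideal.jacobson (⊥ : Ideal A))
    (hJR : (J : Ω) ∈ R) (hJinf : ((J⁻¹ : Ωˣ) : Ω) ∈ Rinf) (he : ∀ i, e i ∈ R)
    (hgen : ∀ x ∈ R, ∃ c : ι → A[X], x = ∑ i, aeval (J : Ω) (c i) * e i)
    (d : ℕ) (hd : ∀ i, ((J⁻¹ ^ d : Ωˣ) : Ω) * e i ∈ Rinf) (n : ℤ)
    {Ft : Type*} [CommRing Ft] (red : Ω →+* Ft) (hπred : red (algebraMap A Ω π) = 0)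
    (hker : ∀ f : Ω, (∃ k : ℕ, (J : Ω) ^ k * f ∈ R) → red f = 0 →
      ∃ c : Ω, (∃ k : ℕ, (J : Ω) ^ k * c ∈ R) ∧ f = π • c)
    (hinf : ∀ b ∈ Rinf, ∃ k : ℕ, (J : Ω) ^ k * b ∈ R)
    (hH1 : ∀ f : Ω, (∃ k : ℕ, (J : Ω) ^ k * f ∈ R) →
      ∃ a ∈ R, ∃ b ∈ Rinf, red f = red a + red ((J ^ n : Ωˣ) : Ω) * red b)
    {x y : Ω} (hx : x ∈ R) (hy : y ∈ Rinf) (hxy : red x = red ((J ^ n : Ωˣ) : Ω) * red y) :
    ∃ z ∈ R, ∃ z' ∈ Rinf, z = ((J ^ n : Ωˣ) : Ω) * z' ∧ red z = red x := by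
  have hshift : ∀ b ∈ Rinf, ((J ^ n : Ωˣ) : Ω) * b ∈ loc R J hJR := fun b hb =>
    zpow_mul_mem_loc (hinf b hb) n
  have hmod : ∀ f : Ω, (∃ k : ℕ, (J : Ω) ^ k * f ∈ R) →
      ∃ a ∈ R, ∃ b ∈ Rinf, ∃ c : Ω, (∃ k : ℕ, (J : Ω) ^ k * c ∈ R) ∧
        f = a + ((J ^ n : Ωˣ) : Ω) * b + π • c := by
    intro f hf
    obtain ⟨a, ha, b, hb, hab⟩ := hH1 f hf
    have hg : f - a - ((J ^ n : Ωˣ) : Ω) * b ∈ loc R J hJR :=
      Submodule.sub_mem _ (Submodule.sub_mem _ hf (le_loc R J hJR ha)) (hshift b hb)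
    have hg0 : red (f - a - ((J ^ n : Ωˣ) : Ω) * b) = 0 := by
      rw [map_sub, map_sub, map_mul, hab]; ring
    obtain ⟨c, hc, hfc⟩ := hker _ hg hg0
    exact ⟨a, ha, b, hb, c, hc, by rw [← hfc]; ring⟩
  have key : loc R J hJR ≤ Subalgebra.toSubmodule R ⊔ shift J n Rinf := by
    intro f hf
    obtain ⟨a, ha, b, hb, rfl⟩ := cech_nakayama π hπ hJR hJinf he hgen d hd n hmod f hf
    exact Submodule.add_mem_sup ha (mem_shift.mpr ⟨b, hb, rfl⟩)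
  have hd0 : x - ((J ^ n : Ωˣ) : Ω) * y ∈ loc R J hJR :=
    Submodule.sub_mem _ (le_loc R J hJR hx) (hshift y hy)
  have hd1 : red (x - ((J ^ n : Ωˣ) : Ω) * y) = 0 := by
    rw [map_sub, map_mul, hxy, sub_self]
  obtain ⟨m, hm, hxm⟩ := hker _ hd0 hd1
  obtain ⟨z, hz1, hz2, ⟨a, ha, hza⟩, -⟩ :=
    exists_mem_inf π (Subalgebra.toSubmodule R) (shift J n Rinf) (loc R J hJR) key
      (x := x) (y := ((J ^ n : Ωˣ) : Ω) * y) hx (mem_shift.mpr ⟨y, hy, rfl⟩) hm hxm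
  obtain ⟨z', hz', rfl⟩ := mem_shift.mp hz2
  refine ⟨_, hz1, z', hz', rfl, ?_⟩
  have h2 : ((J ^ n : Ωˣ) : Ω) * z' = x + π • a := by rw [← hza]; ring
  rw [h2, map_add, Algebra.smul_def, map_mul, hπred, zero_mul, add_zero]

/-- **(S2b) Čech–Nakayama, ideal form.**  As `cech_nakayama`, with an ideal `I` inside the
Jacobson radical instead of a single element (for a non-discrete valuation ring `A`:
`I = 𝔪_A`). -/
theorem cech_nakayama_ideal [Fintype ι] (I : Ideal A) (hI : I ≤ Ideal.jacobson (⊥ : Ideal A))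
    (hJR : (J : Ω) ∈ R) (hJinf : ((J⁻¹ : Ωˣ) : Ω) ∈ Rinf) (he : ∀ i, e i ∈ R)
    (hgen : ∀ x ∈ R, ∃ c : ι → A[X], x = ∑ i, aeval (J : Ω) (c i) * e i)
    (d : ℕ) (hd : ∀ i, ((J⁻¹ ^ d : Ωˣ) : Ω) * e i ∈ Rinf) (n : ℤ)
    (hmod : ∀ f : Ω, (∃ k : ℕ, (J : Ω) ^ k * f ∈ R) →
      ∃ a ∈ R, ∃ b ∈ Rinf, ∃ π ∈ I, ∃ c : Ω, (∃ k : ℕ, (J : Ω) ^ k * c ∈ R) ∧
        f = a + ((J ^ n : Ωˣ) : Ω) * b + π • c)
    (f : Ω) (hf : ∃ k : ℕ, (J : Ω) ^ k * f ∈ R) :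
    ∃ a ∈ R, ∃ b ∈ Rinf, f = a + ((J ^ n : Ωˣ) : Ω) * b := by
  have key : loc R J hJR ≤ Subalgebra.toSubmodule R ⊔ shift J n Rinf := by
    refine le_of_nakayama_ideal I hI _ (gap J e d n) _ (gap_fg J e d n) (gap_le_loc hJR he d n)
      (loc_le_sup_gap hJR hJinf he hgen d hd n) ?_
    intro g hg
    obtain ⟨a, ha, b, hb, π, hπ, c, hc, rfl⟩ := hmod g hg
    exact ⟨a + ((J ^ n : Ωˣ) : Ω) * b,
      Submodule.add_mem_sup ha (mem_shift.mpr ⟨b, hb, rfl⟩), π, hπ, c, hc, rfl⟩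
  obtain ⟨a, ha, y, hy, rfl⟩ := Submodule.mem_sup.mp (key hf)
  obtain ⟨b, hb, rfl⟩ := mem_shift.mp hy
  exact ⟨a, ha, b, hb, rfl⟩

/-- **Abstract core of (S2d), ideal form**: as `red_inter`, with an ideal `I` inside the Jacobson
radical killed by `red`, and `ker red ∩ R[1/J] ⊆ I · R[1/J]` elementwise. -/
theorem red_inter_ideal [Fintype ι] (I : Ideal A) (hI : I ≤ Ideal.jacobson (⊥ : Ideal A))
    (hJR : (J : Ω) ∈ R) (hJinf : ((J⁻¹ : Ωˣ) : Ω) ∈ Rinf) (he : ∀ i, e i ∈ R)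
    (hgen : ∀ x ∈ R, ∃ c : ι → A[X], x = ∑ i, aeval (J : Ω) (c i) * e i)
    (d : ℕ) (hd : ∀ i, ((J⁻¹ ^ d : Ωˣ) : Ω) * e i ∈ Rinf) (n : ℤ)
    {Ft : Type*} [CommRing Ft] (red : Ω →+* Ft) (hIred : ∀ π ∈ I, red (algebraMap A Ω π) = 0)
    (hker : ∀ f : Ω, (∃ k : ℕ, (J : Ω) ^ k * f ∈ R) → red f = 0 →
      ∃ π ∈ I, ∃ c : Ω, (∃ k : ℕ, (J : Ω) ^ k * c ∈ R) ∧ f = π • c)
    (hinf : ∀ b ∈ Rinf, ∃ k : ℕ, (J : Ω) ^ k * b ∈ R)
    (hH1 : ∀ f : Ω, (∃ k : ℕ, (J : Ω) ^ k * f ∈ R) →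
      ∃ a ∈ R, ∃ b ∈ Rinf, red f = red a + red ((J ^ n : Ωˣ) : Ω) * red b)
    {x y : Ω} (hx : x ∈ R) (hy : y ∈ Rinf) (hxy : red x = red ((J ^ n : Ωˣ) : Ω) * red y) :
    ∃ z ∈ R, ∃ z' ∈ Rinf, z = ((J ^ n : Ωˣ) : Ω) * z' ∧ red z = red x := by
  have hshift : ∀ b ∈ Rinf, ((J ^ n : Ωˣ) : Ω) * b ∈ loc R J hJR := fun b hb =>
    zpow_mul_mem_loc (hinf b hb) n
  have hmod : ∀ f : Ω, (∃ k : ℕ, (J : Ω) ^ k * f ∈ R) →
      ∃ a ∈ R, ∃ b ∈ Rinf, ∃ π ∈ I, ∃ c : Ω, (∃ k : ℕ, (J : Ω) ^ k * c ∈ R) ∧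
        f = a + ((J ^ n : Ωˣ) : Ω) * b + π • c := by
    intro f hf
    obtain ⟨a, ha, b, hb, hab⟩ := hH1 f hf
    have hg : f - a - ((J ^ n : Ωˣ) : Ω) * b ∈ loc R J hJR :=
      Submodule.sub_mem _ (Submodule.sub_mem _ hf (le_loc R J hJR ha)) (hshift b hb)
    have hg0 : red (f - a - ((J ^ n : Ωˣ) : Ω) * b) = 0 := by
      rw [map_sub, map_sub, map_mul, hab]; ring
    obtain ⟨π, hπ, c, hc, hfc⟩ := hker _ hg hg0
    exact ⟨a, ha, b, hb, π, hπ, c, hc, by rw [← hfc]; ring⟩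
  have key : loc R J hJR ≤ Subalgebra.toSubmodule R ⊔ shift J n Rinf := by
    intro f hf
    obtain ⟨a, ha, b, hb, rfl⟩ := cech_nakayama_ideal I hI hJR hJinf he hgen d hd n hmod f hf
    exact Submodule.add_mem_sup ha (mem_shift.mpr ⟨b, hb, rfl⟩)
  have hd0 : x - ((J ^ n : Ωˣ) : Ω) * y ∈ loc R J hJR :=
    Submodule.sub_mem _ (le_loc R J hJR hx) (hshift y hy)
  have hd1 : red (x - ((J ^ n : Ωˣ) : Ω) * y) = 0 := by
    rw [map_sub, map_mul, hxy, sub_self]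
  obtain ⟨π, hπ, m, hm, hxm⟩ := hker _ hd0 hd1
  obtain ⟨z, hz1, hz2, ⟨a, ha, hza⟩, -⟩ :=
    exists_mem_inf π (Subalgebra.toSubmodule R) (shift J n Rinf) (loc R J hJR) key
      (x := x) (y := ((J ^ n : Ωˣ) : Ω) * y) hx (mem_shift.mpr ⟨y, hy, rfl⟩) hm hxm
  obtain ⟨z', hz', rfl⟩ := mem_shift.mp hz2
  refine ⟨_, hz1, z', hz', rfl, ?_⟩
  have h2 : ((J ^ n : Ωˣ) : Ω) * z' = x + π • a := by rw [← hza]; ring
  rw [h2, map_add, Algebra.smul_def, map_mul, hIred π hπ, zero_mul, add_zero]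

/-- For `n ≥ d - 1` there is no gap: `R[1/J] ≤ R + Jⁿ R∞` (no Nakayama, no hypothesis on the
special fibre). -/
theorem loc_le_sup_of_le [Fintype ι] (hJR : (J : Ω) ∈ R) (hJinf : ((J⁻¹ : Ωˣ) : Ω) ∈ Rinf)
    (he : ∀ i, e i ∈ R)
    (hgen : ∀ x ∈ R, ∃ c : ι → A[X], x = ∑ i, aeval (J : Ω) (c i) * e i)
    (d : ℕ) (hd : ∀ i, ((J⁻¹ ^ d : Ωˣ) : Ω) * e i ∈ Rinf) (n : ℤ) (hn : (d : ℤ) ≤ n + 1) :
    loc R J hJR ≤ Subalgebra.toSubmodule R ⊔ shift J n Rinf := by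
  have h := loc_le_sup_gap hJR hJinf he hgen d hd n
  have hgap : gap (A := A) J e d n = ⊥ := by
    unfold gap
    have hI : Set.Ioo (n - (d : ℤ)) 0 = ∅ := by
      rw [Set.eq_empty_iff_forall_notMem]
      rintro l ⟨h1, h2⟩
      omega
    rw [hI, Set.prod_empty, Set.image_empty, Submodule.span_empty]
  rwa [hgap, sup_bot_eq] at h

/-- **Saturation for large `n`, abstract form** (no Nakayama, no `H¹` hypothesis): if
`R = ∑ A[J] e i`, `J⁻ᵈ e i ∈ R∞`, `R∞ ⊆ R[1/J]` and every element of `ker red ∩ R[1/J]` is of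
the form `π • c` with `red π = 0`, `c ∈ R[1/J]`, then for `n ≥ d - 1` every element of
`red R ∩ red(J)ⁿ red R∞` is the reduction of an element of `R ∩ Jⁿ R∞`. -/
theorem red_inter_large [Fintype ι]
    (hJR : (J : Ω) ∈ R) (hJinf : ((J⁻¹ : Ωˣ) : Ω) ∈ Rinf) (he : ∀ i, e i ∈ R)
    (hgen : ∀ x ∈ R, ∃ c : ι → A[X], x = ∑ i, aeval (J : Ω) (c i) * e i)
    (d : ℕ) (hd : ∀ i, ((J⁻¹ ^ d : Ωˣ) : Ω) * e i ∈ Rinf) (n : ℤ) (hn : (d : ℤ) ≤ n + 1)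
    {Ft : Type*} [CommRing Ft] (red : Ω →+* Ft)
    (hker : ∀ f : Ω, (∃ k : ℕ, (J : Ω) ^ k * f ∈ R) → red f = 0 →
      ∃ π : A, red (algebraMap A Ω π) = 0 ∧ ∃ c : Ω, (∃ k : ℕ, (J : Ω) ^ k * c ∈ R) ∧ f = π • c)
    (hinf : ∀ b ∈ Rinf, ∃ k : ℕ, (J : Ω) ^ k * b ∈ R)
    {x y : Ω} (hx : x ∈ R) (hy : y ∈ Rinf) (hxy : red x = red ((J ^ n : Ωˣ) : Ω) * red y) :
    ∃ z ∈ R, ∃ z' ∈ Rinf, z = ((J ^ n : Ωˣ) : Ω) * z' ∧ red z = red x := by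
  have hshift : ∀ b ∈ Rinf, ((J ^ n : Ωˣ) : Ω) * b ∈ loc R J hJR := fun b hb =>
    zpow_mul_mem_loc (hinf b hb) n
  have key : loc R J hJR ≤ Subalgebra.toSubmodule R ⊔ shift J n Rinf :=
    loc_le_sup_of_le hJR hJinf he hgen d hd n hn
  have hd0 : x - ((J ^ n : Ωˣ) : Ω) * y ∈ loc R J hJR :=
    Submodule.sub_mem _ (le_loc R J hJR hx) (hshift y hy)
  have hd1 : red (x - ((J ^ n : Ωˣ) : Ω) * y) = 0 := by
    rw [map_sub, map_mul, hxy, sub_self]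
  obtain ⟨π, hπ, m, hm, hxm⟩ := hker _ hd0 hd1
  obtain ⟨z, hz1, hz2, ⟨a, ha, hza⟩, -⟩ :=
    exists_mem_inf π (Subalgebra.toSubmodule R) (shift J n Rinf) (loc R J hJR) key
      (x := x) (y := ((J ^ n : Ωˣ) : Ω) * y) hx (mem_shift.mpr ⟨y, hy, rfl⟩) hm hxm
  obtain ⟨z', hz', rfl⟩ := mem_shift.mp hz2
  refine ⟨_, hz1, z', hz', rfl, ?_⟩
  have h2 : ((J ^ n : Ωˣ) : Ω) * z' = x + π • a := by rw [← hza]; ring
  rw [h2, map_add, Algebra.smul_def, map_mul, hπ, zero_mul, add_zero]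

end Cech

section Integral

variable {A F : Type*} [CommRing A] [Field F] [Algebra A F]

/-- The elements of `F` which high powers of `J` multiply into the subalgebra `B ∋ J`. -/
def powMulSubalgebra (B : Subalgebra A F) (J : F) (hJB : J ∈ B) : Subalgebra A F where
  carrier := {c | ∃ k : ℕ, ∀ j, k ≤ j → J ^ j * c ∈ B}
  mul_mem' := by
    rintro c c' ⟨k, hk⟩ ⟨k', hk'⟩
    refine ⟨k + k', fun j hj => ?_⟩
    obtain ⟨i, rfl⟩ : ∃ i, j = i + k' := ⟨j - k', by omega⟩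
    have e : J ^ (i + k') * (c * c') = (J ^ i * c) * (J ^ k' * c') := by ring
    rw [e]
    exact B.mul_mem (hk i (by omega)) (hk' k' le_rfl)
  add_mem' := by
    rintro c c' ⟨k, hk⟩ ⟨k', hk'⟩
    refine ⟨max k k', fun j hj => ?_⟩
    rw [mul_add]
    exact B.add_mem (hk j (le_trans (le_max_left _ _) hj)) (hk' j (le_trans (le_max_right _ _) hj))
  algebraMap_mem' := fun a => ⟨0, fun j _ => B.mul_mem (B.pow_mem hJB j) (B.algebraMap_mem a)⟩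

theorem adjoin_inv_le_powMulSubalgebra (B : Subalgebra A F) (J : F) (hJ : J ≠ 0) (hJB : J ∈ B) :
    Algebra.adjoin A {J⁻¹} ≤ powMulSubalgebra B J hJB := by
  refine Algebra.adjoin_le ?_
  rintro _ rfl
  refine ⟨1, fun j hj => ?_⟩
  obtain ⟨i, rfl⟩ : ∃ i, j = i + 1 := ⟨j - 1, by omega⟩
  rw [pow_succ, mul_assoc, mul_inv_cancel₀ hJ, mul_one]
  exact B.pow_mem hJB i

/-- If `b` is integral over `A[J⁻¹]` then `J ^ k * b` is integral over every subalgebra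
`B ∋ J`, for some `k`. -/
theorem exists_pow_mul_isIntegral_of_mem (B : Subalgebra A F) (J : F) (hJ : J ≠ 0) (hJB : J ∈ B)
    (b : F) (hb : IsIntegral (Algebra.adjoin A {J⁻¹}) b) :
    ∃ k : ℕ, IsIntegral B (J ^ k * b) := by
  classical
  obtain ⟨p, hp, hpb⟩ := hb
  have hcoef : ∀ i, ∃ k : ℕ, ∀ j, k ≤ j → J ^ j * ((p.coeff i : Algebra.adjoin A {J⁻¹}) : F) ∈ B :=
    fun i => adjoin_inv_le_powMulSubalgebra B J hJ hJB (p.coeff i).2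
  choose kk hkk using hcoef
  set k := (Finset.range (p.natDegree + 1)).sup kk with hk
  refine ⟨k, ?_⟩
  set p' : F[X] := p.map (algebraMap (Algebra.adjoin A {J⁻¹}) F) with hp'
  have hp'm : p'.Monic := hp.map _
  have hdeg : p'.natDegree = p.natDegree := hp.natDegree_map _
  have hroot : eval₂ (RingHom.id F) b p' = 0 := by
    rw [hp', eval₂_map, RingHom.id_comp]
    exact hpb
  set q : F[X] := scaleRoots p' (J ^ k) with hq
  have hqm : q.Monic := (monic_scaleRoots_iff _).mpr hp'm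
  have hqroot : eval₂ (RingHom.id F) (J ^ k * b) q = 0 :=
    scaleRoots_eval₂_eq_zero (RingHom.id F) hroot
  have hqcoeff : ∀ i, q.coeff i ∈ Set.range (algebraMap B F) := by
    intro i
    rw [hq, coeff_scaleRoots, hdeg]
    rcases lt_trichotomy i p.natDegree with hi | hi | hi
    · have h1 : p'.coeff i = ((p.coeff i : Algebra.adjoin A {J⁻¹}) : F) := by
        rw [hp', coeff_map]; rfl
      have h2 : k ≤ k * (p.natDegree - i) := Nat.le_mul_of_pos_right k (by omega)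
      have h3 : kk i ≤ k := Finset.le_sup (f := kk) (Finset.mem_range.mpr (by omega))
      have h4 := hkk i (k * (p.natDegree - i)) (le_trans h3 h2)
      refine ⟨⟨_, h4⟩, ?_⟩
      show J ^ (k * (p.natDegree - i)) * ((p.coeff i : Algebra.adjoin A {J⁻¹}) : F)
        = p'.coeff i * (J ^ k) ^ (p.natDegree - i)
      rw [h1, ← pow_mul, mul_comm]
    · rw [hi, Nat.sub_self, pow_zero, mul_one, ← hdeg, hp'm.coeff_natDegree]
      exact ⟨1, map_one _⟩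
    · rw [coeff_eq_zero_of_natDegree_lt (by omega), zero_mul]
      exact ⟨0, map_zero _⟩
  have hlift : q ∈ lifts (algebraMap B F) := (lifts_iff_coeff_lifts q).mpr hqcoeff
  obtain ⟨q₀, hq₀, -, hq₀m⟩ := lifts_and_natDegree_eq_and_monic hlift hqm
  refine ⟨q₀, hq₀m, ?_⟩
  have h5 : eval₂ (algebraMap B F) (J ^ k * b) q₀ = eval₂ (RingHom.id F) (J ^ k * b) q := by
    rw [← hq₀, eval₂_map, RingHom.id_comp]
  rw [h5]
  exact hqroot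

/-- If `b` is integral over `A[J⁻¹]` then `J ^ k * b` is integral over `A[J]` for some `k`. -/
theorem exists_pow_mul_isIntegral (J : F) (hJ : J ≠ 0) (b : F)
    (hb : IsIntegral (Algebra.adjoin A {J⁻¹}) b) :
    ∃ k : ℕ, IsIntegral (Algebra.adjoin A {J}) (J ^ k * b) :=
  exists_pow_mul_isIntegral_of_mem (Algebra.adjoin A {J}) J hJ
    (Algebra.subset_adjoin (Set.mem_singleton J)) b hb

/-- If `b` is integral over `A[J]` then `J⁻¹ ^ k * b` is integral over `A[J⁻¹]` for some `k`. -/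
theorem exists_inv_pow_mul_isIntegral (J : F) (hJ : J ≠ 0) (b : F)
    (hb : IsIntegral (Algebra.adjoin A {J}) b) :
    ∃ k : ℕ, IsIntegral (Algebra.adjoin A {J⁻¹}) (J⁻¹ ^ k * b) := by
  have hb' : IsIntegral (Algebra.adjoin A {J⁻¹⁻¹}) b := by rwa [inv_inv]
  exact exists_pow_mul_isIntegral J⁻¹ (inv_ne_zero hJ) b hb'

end Integral

end Fermat.Agent.BAD.CechNakayama
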