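/-
BAD (helper54) — (S2d), abstract assembly: SATURATION over the valuation ring `A` itself.

Setting of `BAD/Nodal.lean` and `Lib/Red/Deform.lean`: `L ⊆ F` fields, `A` a valuation subring
of `L` (any rank, not necessarily discrete), `O` a subring of `F` with
`hOA : algebraMap L F x ∈ O ↔ x ∈ A`, `red : O →+* Ft` with `red y = 0 ↔ Small A O y`.
`J ∈ F` with `J, J⁻¹ ∈ O`.

  `R  := {x ∈ O | x integral over L[J]}`,   `R∞ := {y ∈ O | y integral over L[J⁻¹]}`.

* `sat` : assume `R` is generated over `A[J]` by finitely many `β i` (the conclusion of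
  `Lib.Red.Lattice.exists_orthonormal_basis_field` for `M = ` integral closure of `L[J]`), and the
  Čech `H¹` of the special fibre vanishes in degree `n`:
  `red f ∈ red R + red(J)ⁿ red R∞` for all `f ∈ R[1/J]`.  Then every element of
  `red R ∩ red(J)ⁿ red R∞` is the reduction of an element of `R ∩ Jⁿ R∞`.

* `sat_charts` : the form used by the modular instance (directive #2): abstract charts `R`, `R∞`
  (subrings of `F`), a coordinate `x`, and NO hypothesis on the special fibre: for `n ≥ d - 1`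
  (`x⁻ᵈ β i ∈ R∞`) the Čech `H¹` vanishes by splitting monomials, and
  `red R ∩ red(x)ⁿ red R∞ = red (R ∩ xⁿ R∞)`.

No number fields, no discreteness: in `sat` Nakayama is applied to the finitely generated `A`-module
`R[1/J] / (R + Jⁿ R∞)` and the maximal ideal of `A` (`CechNakayama.red_inter_ideal`).
-/
import Mathlib
import Fermat.Agent.BAD.CechNakayama
import Fermat.Agent.Lib.Red.Deform

set_option autoImplicit false

namespace Fermat.Agent.BAD.Saturation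

open Polynomial Fermat.Agent.Lib.Red.Deform Fermat.Agent.BAD.CechNakayama

variable {L F : Type*} [Field L] [Field F] [Algebra L F]

/-- A constant is integral over every `L`-subalgebra. -/
theorem isIntegral_const (S : Subalgebra L F) (c : L) : IsIntegral S (algebraMap L F c) :=
  (isIntegral_algebraMap (R := S) (A := F) (x := ⟨algebraMap L F c, S.algebraMap_mem c⟩))

/-- An element of a subalgebra is integral over it. -/
theorem isIntegral_of_mem (S : Subalgebra L F) {x : F} (hx : x ∈ S) : IsIntegral S x :=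
  (isIntegral_algebraMap (R := S) (A := F) (x := ⟨x, hx⟩))

variable {A : ValuationSubring L} {O : Subring F} {Ft : Type*} [CommRing Ft]

/-- Evaluation in `O` of a polynomial with coefficients in `A`, computed in `F`. -/
theorem coe_eval₂_toO (φ : A →+* O) (hφ : ∀ a : A, ((φ a : O) : F) = algebraMap L F (a : L))
    (Jo : O) (c : (↥A)[X]) :
    ((eval₂ φ Jo c : O) : F) = aeval (Jo : F) (c.map A.subtype) := by
  induction c using Polynomial.induction_on' with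
  | add p q hp hq =>
    rw [eval₂_add, Polynomial.map_add, map_add, Subring.coe_add, hp, hq]
  | monomial j a =>
    rw [eval₂_monomial, Polynomial.map_monomial, aeval_monomial, Subring.coe_mul,
      Subring.coe_pow, hφ]
    rfl

/-- **Saturation over `A`** (abstract (S2d)).  See the file header. -/
theorem sat (hOA : ∀ x : L, algebraMap L F x ∈ O ↔ x ∈ A)
    (red : O →+* Ft) (hker : ∀ y : O, red y = 0 ↔ Small A O (y : F))
    (J : F) (hJ0 : J ≠ 0) (hJO : J ∈ O) (hJO' : J⁻¹ ∈ O)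
    {r : ℕ} (β : Fin r → F) (hβO : ∀ i, β i ∈ O)
    (hβint : ∀ i, IsIntegral (Algebra.adjoin L {J}) (β i))
    (hgen : ∀ v ∈ O, IsIntegral (Algebra.adjoin L {J}) v →
      ∃ e : Fin r → L[X], (∀ i j, (e i).coeff j ∈ A) ∧ v = ∑ i, aeval J (e i) * β i)
    (n : ℕ)
    (hH1 : ∀ f : O, (∃ k : ℕ, IsIntegral (Algebra.adjoin L {J}) (J ^ k * (f : F))) →
      ∃ a b : O, IsIntegral (Algebra.adjoin L {J}) (a : F) ∧
        IsIntegral (Algebra.adjoin L {J⁻¹}) (b : F) ∧ red f = red a + red ⟨J, hJO⟩ ^ n * red b)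
    (x y : O) (hx : IsIntegral (Algebra.adjoin L {J}) (x : F))
    (hy : IsIntegral (Algebra.adjoin L {J⁻¹}) (y : F))
    (hxy : red x = red ⟨J, hJO⟩ ^ n * red y) :
    ∃ z z' : O, IsIntegral (Algebra.adjoin L {J}) (z : F) ∧
      IsIntegral (Algebra.adjoin L {J⁻¹}) (z' : F) ∧ (z : F) = J ^ n * (z' : F) ∧
      red z = red x := by
  classical
  -- the structure map `A → O`
  let φ : A →+* O :=
    ((algebraMap L F).comp A.subtype).codRestrict O (fun a => (hOA _).2 a.2)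
  have hφ : ∀ a : A, ((φ a : O) : F) = algebraMap L F (a : L) := fun a => rfl
  let algAO : Algebra A O := φ.toAlgebra
  have halg : ∀ a : A, algebraMap A O a = φ a := fun a => rfl
  -- the unit `J` of `O`
  let Jo : O := ⟨J, hJO⟩
  let Ju : Oˣ := ⟨Jo, ⟨J⁻¹, hJO'⟩, Subtype.ext (mul_inv_cancel₀ hJ0),
    Subtype.ext (inv_mul_cancel₀ hJ0)⟩
  have hJu : (Ju : O) = Jo := rfl
  have hJuinv : ((Ju⁻¹ : Oˣ) : O) = ⟨J⁻¹, hJO'⟩ := rfl
  have hJmem : J ∈ Algebra.adjoin L {J} := Algebra.subset_adjoin (Set.mem_singleton J)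
  have hJinvmem : J⁻¹ ∈ Algebra.adjoin L {J⁻¹} := Algebra.subset_adjoin (Set.mem_singleton J⁻¹)
  -- the two charts
  let R : Subalgebra A O :=
    { carrier := {v | IsIntegral (Algebra.adjoin L {J}) (v : F)}
      mul_mem' := fun {a b} ha hb => IsIntegral.mul ha hb
      add_mem' := fun {a b} ha hb => IsIntegral.add ha hb
      algebraMap_mem' := fun a => isIntegral_const _ (a : L) }
  let Rinf : Subalgebra A O :=
    { carrier := {v | IsIntegral (Algebra.adjoin L {J⁻¹}) (v : F)}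
      mul_mem' := fun {a b} ha hb => IsIntegral.mul ha hb
      add_mem' := fun {a b} ha hb => IsIntegral.add ha hb
      algebraMap_mem' := fun a => isIntegral_const _ (a : L) }
  have hR : ∀ v : O, v ∈ R ↔ IsIntegral (Algebra.adjoin L {J}) (v : F) := fun v => Iff.rfl
  have hRinf : ∀ v : O, v ∈ Rinf ↔ IsIntegral (Algebra.adjoin L {J⁻¹}) (v : F) :=
    fun v => Iff.rfl
  have hloc : ∀ f : O, (∃ k : ℕ, (Ju : O) ^ k * f ∈ R) ↔
      ∃ k : ℕ, IsIntegral (Algebra.adjoin L {J}) (J ^ k * (f : F)) := by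
    intro f
    constructor
    · rintro ⟨k, hk⟩
      exact ⟨k, by simpa [hR, hJu, Jo] using hk⟩
    · rintro ⟨k, hk⟩
      exact ⟨k, by simpa [hR, hJu, Jo] using hk⟩
  -- the maximal ideal
  set I : Ideal A := IsLocalRing.maximalIdeal A with hIdef
  have hI : I ≤ Ideal.jacobson (⊥ : Ideal A) :=
    le_of_eq (IsLocalRing.jacobson_eq_maximalIdeal ⊥ bot_ne_top).symm
  have hIval : ∀ π : A, π ∈ I ↔ A.valuation (π : L) < 1 := fun π =>
    A.valuation_lt_one_iff π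
  -- generators
  let e : Fin r → O := fun i => ⟨β i, hβO i⟩
  have he : ∀ i, e i ∈ R := fun i => hβint i
  have hgen' : ∀ v ∈ R, ∃ c : Fin r → (↥A)[X], v = ∑ i, aeval (Ju : O) (c i) * e i := by
    intro v hv
    obtain ⟨E, hE, hvE⟩ := hgen (v : F) v.2 hv
    have hlift : ∀ i, ∃ c : (↥A)[X], c.map A.subtype = E i := fun i =>
      (mem_lifts (E i)).mp ((lifts_iff_coeff_lifts (E i)).mpr fun j => ⟨⟨_, hE i j⟩, rfl⟩)
    choose c hc using hlift
    refine ⟨c, Subtype.ext ?_⟩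
    rw [hvE, AddSubmonoidClass.coe_finsetSum]
    refine Finset.sum_congr rfl fun i _ => ?_
    have h1 : ((aeval (Ju : O) (c i) : O) : F) = aeval J (E i) := by
      rw [← hc i]
      exact coe_eval₂_toO φ hφ Jo (c i)
    rw [Subring.coe_mul, h1]
  -- `J⁻ᵈ e i ∈ R∞`
  have hdi : ∀ i, ∃ k : ℕ, IsIntegral (Algebra.adjoin L {J⁻¹}) (J⁻¹ ^ k * β i) := fun i =>
    exists_inv_pow_mul_isIntegral J hJ0 (β i) (hβint i)
  choose kd hkd using hdi
  set d : ℕ := Finset.univ.sup kd with hd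
  have hd' : ∀ i, ((Ju⁻¹ ^ d : Oˣ) : O) * e i ∈ Rinf := by
    intro i
    have hle : kd i ≤ d := Finset.le_sup (f := kd) (Finset.mem_univ i)
    have h1 : J⁻¹ ^ d * β i = J⁻¹ ^ (d - kd i) * (J⁻¹ ^ kd i * β i) := by
      rw [← mul_assoc, ← pow_add, Nat.sub_add_cancel hle]
    have h2 : IsIntegral (Algebra.adjoin L {J⁻¹}) (J⁻¹ ^ d * β i) := by
      rw [h1]
      exact IsIntegral.mul (IsIntegral.pow (isIntegral_of_mem _ hJinvmem) _) (hkd i)
    have h3 : ((((Ju⁻¹ ^ d : Oˣ) : O) * e i : O) : F) = J⁻¹ ^ d * β i := by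
      rw [Units.val_pow_eq_pow_val, hJuinv, Subring.coe_mul, Subring.coe_pow]
    show IsIntegral (Algebra.adjoin L {J⁻¹}) ((((Ju⁻¹ ^ d : Oˣ) : O) * e i : O) : F)
    rw [h3]
    exact h2
  -- `R∞ ⊆ R[1/J]`
  have hinf' : ∀ b ∈ Rinf, ∃ k : ℕ, (Ju : O) ^ k * b ∈ R := by
    intro b hb
    exact (hloc b).mpr (exists_pow_mul_isIntegral J hJ0 (b : F) hb)
  -- `red` kills the maximal ideal
  have hIred : ∀ π ∈ I, red (algebraMap A O π) = 0 := by
    intro π hπ
    rw [hker]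
    exact ⟨(π : L), (hIval π).mp hπ, 1, O.one_mem, by rw [mul_one]; rfl⟩
  -- the kernel of `red` on `R[1/J]`
  have hker' : ∀ f : O, (∃ k : ℕ, (Ju : O) ^ k * f ∈ R) → red f = 0 →
      ∃ π ∈ I, ∃ c : O, (∃ k : ℕ, (Ju : O) ^ k * c ∈ R) ∧ f = π • c := by
    intro f hf hf0
    obtain ⟨a, ha, o, ho, hfo⟩ := (hker f).mp hf0
    have haA : a ∈ A := (A.valuation_le_one_iff a).mp ha.le
    by_cases ha0 : a = 0
    · refine ⟨0, I.zero_mem, 0, ⟨0, ?_⟩, ?_⟩
      · rw [mul_zero]; exact R.zero_mem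
      · rw [smul_zero]
        apply Subtype.ext
        rw [hfo, ha0, map_zero, zero_mul]; rfl
    · refine ⟨⟨a, haA⟩, (hIval _).mpr ha, ⟨o, ho⟩, ?_, ?_⟩
      · obtain ⟨k, hk⟩ := (hloc f).mp hf
        refine (hloc _).mpr ⟨k, ?_⟩
        have h1 : J ^ k * o = algebraMap L F a⁻¹ * (J ^ k * (f : F)) := by
          rw [hfo, map_inv₀]
          have : algebraMap L F a ≠ 0 := by simpa using ha0
          field_simp
        show IsIntegral (Algebra.adjoin L {J}) (J ^ k * o)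
        rw [h1]
        exact IsIntegral.mul (isIntegral_const _ _) hk
      · apply Subtype.ext
        rw [hfo]
        rfl
  -- the Čech `H¹` of the special fibre
  have hJn : ((Ju ^ (n : ℤ) : Oˣ) : O) = Jo ^ n := by
    rw [zpow_natCast, Units.val_pow_eq_pow_val]
  have hH1' : ∀ f : O, (∃ k : ℕ, (Ju : O) ^ k * f ∈ R) →
      ∃ a ∈ R, ∃ b ∈ Rinf, red f = red a + red ((Ju ^ (n : ℤ) : Oˣ) : O) * red b := by
    intro f hf
    obtain ⟨a, b, ha, hb, hab⟩ := hH1 f ((hloc f).mp hf)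
    refine ⟨a, ha, b, hb, ?_⟩
    rw [hJn, map_pow]
    exact hab
  have hxy' : red x = red ((Ju ^ (n : ℤ) : Oˣ) : O) * red y := by
    rw [hJn, map_pow]
    exact hxy
  obtain ⟨z, hz, z', hz', hzz', hred⟩ :=
    red_inter_ideal (R := R) (Rinf := Rinf) (J := Ju) (e := e) I hI
      (isIntegral_of_mem _ hJmem) (isIntegral_of_mem _ hJinvmem) he hgen' d hd' (n : ℤ)
      red hIred hker' hinf' hH1' (x := x) (y := y) hx hy hxy'
  refine ⟨z, z', hz, hz', ?_, hred⟩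
  rw [hzz', hJn, Subring.coe_mul, Subring.coe_pow]

/-- **Saturation for two abstract charts, large `n`** (no Nakayama, no hypothesis on the special
fibre).  `x ∈ F` a coordinate with `x, x⁻¹ ∈ O`; `R`, `R∞` subrings of `F` containing the
constants of `A`, with `x ∈ R`, `x⁻¹ ∈ R∞`; `R ∩ O = ∑ A[x]·β i`; `x⁻ᵈ β i ∈ R∞`;
`R∞ ∩ O ⊆ R[1/x]`; and `R[1/x] ∩ O` saturated under division by nonzero constants.  Then for
`n ≥ d - 1`: if `f₁ ∈ R ∩ O`, `f₂ ∈ R∞ ∩ O` and `red f₁ = red(x)ⁿ red f₂`, there is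
`z ∈ R ∩ xⁿ R∞ ∩ O` with `red z = red f₁`. -/
theorem sat_charts (hOA : ∀ x : L, algebraMap L F x ∈ O ↔ x ∈ A)
    (red : O →+* Ft) (hker : ∀ y : O, red y = 0 ↔ Small A O (y : F))
    (x : F) (hx0 : x ≠ 0) (hxO : x ∈ O) (hxO' : x⁻¹ ∈ O)
    (R Rinf : Subring F)
    (hAR : ∀ a ∈ A, algebraMap L F a ∈ R) (hARinf : ∀ a ∈ A, algebraMap L F a ∈ Rinf)
    (hxR : x ∈ R) (hxRinf : x⁻¹ ∈ Rinf)
    {r : ℕ} (β : Fin r → F) (hβO : ∀ i, β i ∈ O) (hβR : ∀ i, β i ∈ R)
    (hgen : ∀ v ∈ O, v ∈ R →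
      ∃ e : Fin r → L[X], (∀ i j, (e i).coeff j ∈ A) ∧ v = ∑ i, aeval x (e i) * β i)
    (d : ℕ) (hd : ∀ i, x⁻¹ ^ d * β i ∈ Rinf)
    (hinf : ∀ b ∈ O, b ∈ Rinf → ∃ k : ℕ, x ^ k * b ∈ R)
    (hsat : ∀ f ∈ O, ∀ a : L, a ≠ 0 → (∃ k : ℕ, x ^ k * (algebraMap L F a * f) ∈ R) →
      ∃ k : ℕ, x ^ k * f ∈ R)
    (n : ℕ) (hn : d ≤ n + 1)
    (f₁ f₂ : O) (h₁ : (f₁ : F) ∈ R) (h₂ : (f₂ : F) ∈ Rinf)
    (h₁₂ : red f₁ = red ⟨x, hxO⟩ ^ n * red f₂) :
    ∃ z z' : O, (z : F) ∈ R ∧ (z' : F) ∈ Rinf ∧ (z : F) = x ^ n * (z' : F) ∧ red z = red f₁ := by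
  classical
  -- the structure map `A → O`
  let φ : A →+* O :=
    ((algebraMap L F).comp A.subtype).codRestrict O (fun a => (hOA _).2 a.2)
  have hφ : ∀ a : A, ((φ a : O) : F) = algebraMap L F (a : L) := fun a => rfl
  let algAO : Algebra A O := φ.toAlgebra
  -- the unit `x` of `O`
  let xo : O := ⟨x, hxO⟩
  let xu : Oˣ := ⟨xo, ⟨x⁻¹, hxO'⟩, Subtype.ext (mul_inv_cancel₀ hx0),
    Subtype.ext (inv_mul_cancel₀ hx0)⟩
  have hxu : (xu : O) = xo := rfl
  have hxuinv : ((xu⁻¹ : Oˣ) : O) = ⟨x⁻¹, hxO'⟩ := rfl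
  -- the two charts
  let R' : Subalgebra A O :=
    { carrier := {v | (v : F) ∈ R}
      mul_mem' := fun {a b} ha hb => R.mul_mem ha hb
      add_mem' := fun {a b} ha hb => R.add_mem ha hb
      algebraMap_mem' := fun a => hAR (a : L) a.2 }
  let Rinf' : Subalgebra A O :=
    { carrier := {v | (v : F) ∈ Rinf}
      mul_mem' := fun {a b} ha hb => Rinf.mul_mem ha hb
      add_mem' := fun {a b} ha hb => Rinf.add_mem ha hb
      algebraMap_mem' := fun a => hARinf (a : L) a.2 }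
  have hR' : ∀ v : O, v ∈ R' ↔ (v : F) ∈ R := fun v => Iff.rfl
  have hloc : ∀ f : O, (∃ k : ℕ, (xu : O) ^ k * f ∈ R') ↔ ∃ k : ℕ, x ^ k * (f : F) ∈ R := by
    intro f
    constructor
    · rintro ⟨k, hk⟩
      exact ⟨k, by simpa [hR', hxu, xo] using hk⟩
    · rintro ⟨k, hk⟩
      exact ⟨k, by simpa [hR', hxu, xo] using hk⟩
  -- generators
  let e : Fin r → O := fun i => ⟨β i, hβO i⟩
  have he : ∀ i, e i ∈ R' := fun i => hβR i
  have hgen' : ∀ v ∈ R', ∃ c : Fin r → (↥A)[X], v = ∑ i, aeval (xu : O) (c i) * e i := by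
    intro v hv
    obtain ⟨E, hE, hvE⟩ := hgen (v : F) v.2 hv
    have hlift : ∀ i, ∃ c : (↥A)[X], c.map A.subtype = E i := fun i =>
      (mem_lifts (E i)).mp ((lifts_iff_coeff_lifts (E i)).mpr fun j => ⟨⟨_, hE i j⟩, rfl⟩)
    choose c hc using hlift
    refine ⟨c, Subtype.ext ?_⟩
    rw [hvE, AddSubmonoidClass.coe_finsetSum]
    refine Finset.sum_congr rfl fun i _ => ?_
    have h1 : ((aeval (xu : O) (c i) : O) : F) = aeval x (E i) := by
      rw [← hc i]
      exact coe_eval₂_toO φ hφ xo (c i)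
    rw [Subring.coe_mul, h1]
  have hd' : ∀ i, ((xu⁻¹ ^ d : Oˣ) : O) * e i ∈ Rinf' := by
    intro i
    have h3 : ((((xu⁻¹ ^ d : Oˣ) : O) * e i : O) : F) = x⁻¹ ^ d * β i := by
      rw [Units.val_pow_eq_pow_val, hxuinv, Subring.coe_mul, Subring.coe_pow]
    show ((((xu⁻¹ ^ d : Oˣ) : O) * e i : O) : F) ∈ Rinf
    rw [h3]
    exact hd i
  have hinf' : ∀ b ∈ Rinf', ∃ k : ℕ, (xu : O) ^ k * b ∈ R' := by
    intro b hb
    exact (hloc b).mpr (hinf (b : F) b.2 hb)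
  have hker' : ∀ f : O, (∃ k : ℕ, (xu : O) ^ k * f ∈ R') → red f = 0 →
      ∃ π : A, red (algebraMap A O π) = 0 ∧
        ∃ c : O, (∃ k : ℕ, (xu : O) ^ k * c ∈ R') ∧ f = π • c := by
    intro f hf hf0
    obtain ⟨a, ha, o, ho, hfo⟩ := (hker f).mp hf0
    have haA : a ∈ A := (A.valuation_le_one_iff a).mp ha.le
    by_cases ha0 : a = 0
    · refine ⟨0, by rw [map_zero, map_zero], 0, ⟨0, ?_⟩, ?_⟩
      · rw [mul_zero]; exact R'.zero_mem
      · rw [smul_zero]
        apply Subtype.ext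
        rw [hfo, ha0, map_zero, zero_mul]; rfl
    · refine ⟨⟨a, haA⟩, ?_, ⟨o, ho⟩, ?_, ?_⟩
      · rw [hker]
        exact ⟨a, ha, 1, O.one_mem, by rw [mul_one]; rfl⟩
      · obtain ⟨k, hk⟩ := (hloc f).mp hf
        refine (hloc _).mpr (hsat o ho a ha0 ⟨k, ?_⟩)
        rw [← hfo]
        exact hk
      · apply Subtype.ext
        rw [hfo]
        rfl
  have hxn : ((xu ^ (n : ℤ) : Oˣ) : O) = xo ^ n := by
    rw [zpow_natCast, Units.val_pow_eq_pow_val]
  have h₁₂' : red f₁ = red ((xu ^ (n : ℤ) : Oˣ) : O) * red f₂ := by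
    rw [hxn, map_pow]
    exact h₁₂
  obtain ⟨z, hz, z', hz', hzz', hred⟩ :=
    red_inter_large (R := R') (Rinf := Rinf') (J := xu) (e := e)
      hxR hxRinf he hgen' d hd' (n : ℤ) (by exact_mod_cast hn)
      red hker' hinf' (x := f₁) (y := f₂) h₁ h₂ h₁₂'
  refine ⟨z, z', hz, hz', ?_, hred⟩
  rw [hzz', hxn, Subring.coe_mul, Subring.coe_pow]

end Fermat.Agent.BAD.Saturation
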