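/-
BAD (helper54) — the instance of `Saturation.sat_charts` for the PLACE-DEFINED charts of a
function field `F/L` with coordinate `x` (directive #2, item 6):

  `chartFin L x := {a | ∀ P : Place L F, P.adicValuation x ≤ 1 → P.adicValuation a ≤ 1}`   (`x ≠ ∞`)
  `chartInf L x := {b | ∀ P : Place L F, 1 ≤ P.adicValuation x → P.adicValuation b ≤ 1}`   (`x ≠ 0`)

(the same conditions as in `NodalCech.mem_L_nsmul_poleDiv_iff`, so that
`chartFin ∩ xⁿ · chartInf = L(n·(x)_∞)`).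

* `sat_places` : given the LAT data for chart 1 (`chartFin ∩ O = ∑ A[x]·β i`), there is `d` such
  that for all `n ≥ d`: `f₁ ∈ chartFin ∩ O`, `f₂ ∈ chartInf ∩ O`, `red f₁ = red(x)ⁿ red f₂` imply
  the existence of `z ∈ O` with `z ∈ chartFin`, `x⁻ⁿ z ∈ chartInf`, `red z = red f₁`.
* `sat_poleDiv` : the same with `z ∈ riemannRochSpace (n • h.poleDiv)` for `h : IsFF1 L F x`.
* `mem_redSub_poleDiv_iff` : `t ∈ redSub (L(n·(x)_∞)) ↔ t ∈ red (chartFin ∩ O) ∧
  t ∈ red(x)ⁿ · red (chartInf ∩ O)` for `n ≥ d` — the shape of `hS2` in `Nodal.exists_common_of_nodal`.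
-/
import Mathlib
import Fermat.Agent.BAD.Saturation
import Fermat.Agent.BAD.NodalCech
import Fermat.Agent.Lib.Red.CoordLatRed

set_option autoImplicit false

namespace Fermat.Agent.BAD.SatInst

open Polynomial AlgebraicCurve Fermat.Agent.Lib.Red.Deform Fermat.Agent.Lib.FF
  Fermat.Agent.BAD.NodalCech Fermat.Agent.BAD.NodalRiemann Fermat.Agent.Lib.Red.CoordLat

variable {L F : Type*} [Field L] [Field F] [Algebra L F]

/-- The chart `x ≠ ∞`: functions regular at all places where `x` is regular. -/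
def chartFin (L : Type*) {F : Type*} [Field L] [Field F] [Algebra L F] (x : F) : Subring F where
  carrier := {a | ∀ P : Place L F, P.adicValuation x ≤ 1 → P.adicValuation a ≤ 1}
  mul_mem' := fun {a b} ha hb P hP => by
    rw [map_mul]
    exact mul_le_one' (ha P hP) (hb P hP)
  one_mem' := fun P _ => by rw [map_one]
  add_mem' := fun {a b} ha hb P hP =>
    (Valuation.map_add _ _ _).trans (max_le (ha P hP) (hb P hP))
  zero_mem' := fun P _ => by rw [map_zero]; exact zero_le_one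
  neg_mem' := fun {a} ha P hP => by rw [Valuation.map_neg]; exact ha P hP

/-- The chart `x ≠ 0`: functions regular at all places where `x` is a unit or has a pole. -/
def chartInf (L : Type*) {F : Type*} [Field L] [Field F] [Algebra L F] (x : F) : Subring F where
  carrier := {a | ∀ P : Place L F, 1 ≤ P.adicValuation x → P.adicValuation a ≤ 1}
  mul_mem' := fun {a b} ha hb P hP => by
    rw [map_mul]
    exact mul_le_one' (ha P hP) (hb P hP)
  one_mem' := fun P _ => by rw [map_one]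
  add_mem' := fun {a b} ha hb P hP =>
    (Valuation.map_add _ _ _).trans (max_le (ha P hP) (hb P hP))
  zero_mem' := fun P _ => by rw [map_zero]; exact zero_le_one
  neg_mem' := fun {a} ha P hP => by rw [Valuation.map_neg]; exact ha P hP

theorem mem_chartFin {x a : F} :
    a ∈ chartFin L x ↔ ∀ P : Place L F, P.adicValuation x ≤ 1 → P.adicValuation a ≤ 1 := Iff.rfl

theorem mem_chartInf {x a : F} :
    a ∈ chartInf L x ↔ ∀ P : Place L F, 1 ≤ P.adicValuation x → P.adicValuation a ≤ 1 := Iff.rfl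

theorem algebraMap_mem_chartFin (x : F) (c : L) : algebraMap L F c ∈ chartFin L x :=
  fun P _ => P.adicValuation_algebraMap_le_one c

theorem algebraMap_mem_chartInf (x : F) (c : L) : algebraMap L F c ∈ chartInf L x :=
  fun P _ => P.adicValuation_algebraMap_le_one c

theorem self_mem_chartFin (x : F) : x ∈ chartFin L x := fun _ hP => hP

theorem inv_mem_chartInf (x : F) : x⁻¹ ∈ chartInf L x := fun P hP => by
  rw [map_inv₀]
  exact inv_le_one_of_one_le₀ hP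

/-- `chartInf x` is `chartFin x⁻¹`. -/
theorem chartInf_eq (x : F) (hx0 : x ≠ 0) : chartInf L x = chartFin L x⁻¹ := by
  ext a
  have key : ∀ P : Place L F, 1 ≤ P.adicValuation x ↔ P.adicValuation x⁻¹ ≤ 1 := by
    intro P
    have hpos : (0 : WithZero (Multiplicative ℤ)) < P.adicValuation x :=
      pos_iff_ne_zero.mpr ((Valuation.ne_zero_iff _).mpr hx0)
    rw [map_inv₀, inv_le_one₀ hpos]
  constructor
  · intro ha P hP
    exact ha P ((key P).mpr hP)
  · intro ha P hP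
    exact ha P ((key P).mp hP)

section Loc

variable [HasPrincipalDivisors L F]

/-- `chartInf ⊆ chartFin[1/x]`, uniformly in the exponent. -/
theorem exists_pow_mul_mem_chartFin {x : F} (hx0 : x ≠ 0) {b : F} (hb : b ∈ chartInf L x) :
    ∃ m : ℕ, ∀ m' : ℕ, m ≤ m' → x ^ m' * b ∈ chartFin L x := by
  obtain ⟨m, hm⟩ := exists_pow_mul_val_lt_one (K := L) hx0 b
  refine ⟨m, fun m' hm' P hP => ?_⟩
  rcases lt_or_eq_of_le hP with h | h
  · exact (hm m' hm' P h).le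
  · rw [map_mul, map_pow, h, one_pow, one_mul]
    exact hb P h.ge

/-- `chartFin ⊆ chartInf[x]`, uniformly in the exponent. -/
theorem exists_inv_pow_mul_mem_chartInf {x : F} (hx0 : x ≠ 0) {a : F} (ha : a ∈ chartFin L x) :
    ∃ m : ℕ, ∀ m' : ℕ, m ≤ m' → x⁻¹ ^ m' * a ∈ chartInf L x := by
  have ha' : a ∈ chartInf L x⁻¹ := by
    rw [chartInf_eq x⁻¹ (inv_ne_zero hx0), inv_inv]
    exact ha
  obtain ⟨m, hm⟩ := exists_pow_mul_mem_chartFin (inv_ne_zero hx0) ha'
  refine ⟨m, fun m' hm' => ?_⟩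
  rw [chartInf_eq x hx0]
  exact hm m' hm'

end Loc

/-- Division by a nonzero constant preserves `chartFin`. -/
theorem mem_chartFin_of_const_mul {x : F} {a : L} (ha : a ≠ 0) {f : F}
    (h : algebraMap L F a * f ∈ chartFin L x) : f ∈ chartFin L x := fun P hP => by
  have h1 := h P hP
  rwa [map_mul, adicValuation_algebraMap_eq_one P ha, one_mul] at h1

variable {A : ValuationSubring L} {O : Subring F} {Ft : Type*} [CommRing Ft]

/-- **Saturation for the place-defined charts.** -/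
theorem sat_places [HasPrincipalDivisors L F]
    (hOA : ∀ x : L, algebraMap L F x ∈ O ↔ x ∈ A)
    (red : O →+* Ft) (hker : ∀ y : O, red y = 0 ↔ Small A O (y : F))
    (x : F) (hx0 : x ≠ 0) (hxO : x ∈ O) (hxO' : x⁻¹ ∈ O)
    {r : ℕ} (β : Fin r → F) (hβO : ∀ i, β i ∈ O) (hβR : ∀ i, β i ∈ chartFin L x)
    (hgen : ∀ v ∈ O, v ∈ chartFin L x →
      ∃ e : Fin r → L[X], (∀ i j, (e i).coeff j ∈ A) ∧ v = ∑ i, aeval x (e i) * β i) :
    ∃ d : ℕ, ∀ n : ℕ, d ≤ n → ∀ f₁ f₂ : O, (f₁ : F) ∈ chartFin L x → (f₂ : F) ∈ chartInf L x →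
      red f₁ = red ⟨x, hxO⟩ ^ n * red f₂ →
      ∃ z : O, (z : F) ∈ chartFin L x ∧ x⁻¹ ^ n * (z : F) ∈ chartInf L x ∧ red z = red f₁ := by
  classical
  have hdi : ∀ i, ∃ m : ℕ, ∀ m' : ℕ, m ≤ m' → x⁻¹ ^ m' * β i ∈ chartInf L x := fun i =>
    exists_inv_pow_mul_mem_chartInf hx0 (hβR i)
  choose kd hkd using hdi
  refine ⟨Finset.univ.sup kd, fun n hn f₁ f₂ h₁ h₂ h₁₂ => ?_⟩
  set d : ℕ := Finset.univ.sup kd with hd
  obtain ⟨z, z', hz, hz', hzz', hred⟩ :=
    Saturation.sat_charts hOA red hker x hx0 hxO hxO' (chartFin L x) (chartInf L x)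
      (fun a _ => algebraMap_mem_chartFin x a) (fun a _ => algebraMap_mem_chartInf x a)
      (self_mem_chartFin x) (inv_mem_chartInf x) β hβO hβR hgen d
      (fun i => hkd i d (Finset.le_sup (f := kd) (Finset.mem_univ i)))
      (fun b _ hb => by
        obtain ⟨m, hm⟩ := exists_pow_mul_mem_chartFin hx0 hb
        exact ⟨m, hm m le_rfl⟩)
      (fun f _ a ha ⟨k, hk⟩ => ⟨k, by
        have e : x ^ k * (algebraMap L F a * f) = algebraMap L F a * (x ^ k * f) := by ring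
        rw [e] at hk
        exact mem_chartFin_of_const_mul ha hk⟩)
      n (by omega) f₁ f₂ h₁ h₂ h₁₂
  refine ⟨z, hz, ?_, hred⟩
  have e : x⁻¹ ^ n * (z : F) = (z' : F) := by
    rw [hzz', ← mul_assoc, ← mul_pow, inv_mul_cancel₀ hx0, one_pow, one_mul]
  rw [e]
  exact hz'

/-- **Saturation in Riemann–Roch form**: the lift lies in `L(n·(x)_∞)`. -/
theorem sat_poleDiv {x : F} (h : IsFF1 L F x)
    (hOA : ∀ x : L, algebraMap L F x ∈ O ↔ x ∈ A)
    (red : O →+* Ft) (hker : ∀ y : O, red y = 0 ↔ Small A O (y : F))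
    (hxO : x ∈ O) (hxO' : x⁻¹ ∈ O)
    {r : ℕ} (β : Fin r → F) (hβO : ∀ i, β i ∈ O) (hβR : ∀ i, β i ∈ chartFin L x)
    (hgen : ∀ v ∈ O, v ∈ chartFin L x →
      ∃ e : Fin r → L[X], (∀ i j, (e i).coeff j ∈ A) ∧ v = ∑ i, aeval x (e i) * β i) :
    ∃ d : ℕ, ∀ n : ℕ, d ≤ n → ∀ f₁ f₂ : O, (f₁ : F) ∈ chartFin L x → (f₂ : F) ∈ chartInf L x →
      red f₁ = red ⟨x, hxO⟩ ^ n * red f₂ →
      ∃ z : O, (z : F) ∈ riemannRochSpace (n • h.poleDiv) ∧ red z = red f₁ := by
  have hx0 : x ≠ 0 := fun h0 => h.transcendental (h0 ▸ isAlgebraic_zero)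
  have := h.hasPrincipalDivisors
  obtain ⟨d, hd⟩ := sat_places hOA red hker x hx0 hxO hxO' β hβO hβR hgen
  refine ⟨d, fun n hn f₁ f₂ h₁ h₂ h₁₂ => ?_⟩
  obtain ⟨z, hz, hz', hred⟩ := hd n hn f₁ f₂ h₁ h₂ h₁₂
  exact ⟨z, (mem_L_nsmul_poleDiv_iff h n (z : F)).mpr ⟨hz, hz'⟩, hred⟩

/-- Elements of `L(n·(x)_∞)` lie in the first chart and, divided by `xⁿ`, in the second. -/
theorem mem_charts_of_mem_L {x : F} (h : IsFF1 L F x) {n : ℕ} {a : F}
    (ha : a ∈ riemannRochSpace (n • h.poleDiv)) :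
    a ∈ chartFin L x ∧ x⁻¹ ^ n * a ∈ chartInf L x :=
  (mem_L_nsmul_poleDiv_iff h n a).mp ha

/-- **`hS2` for the family `n·(x)_∞`**: for `n ≥ d`, the reduction of the lattice
`L(n·(x)_∞) ∩ O` is the set of `t` which are at the same time the reduction of an element of
the first chart and `red(x)ⁿ` times the reduction of an element of the second chart. -/
theorem mem_redSub_poleDiv_iff {x : F} (h : IsFF1 L F x) {k : Type*} [Field k] [Algebra k Ft]
    (hOA : ∀ x : L, algebraMap L F x ∈ O ↔ x ∈ A)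
    (red : O →+* Ft) (hker : ∀ y : O, red y = 0 ↔ Small A O (y : F))
    (π : A →+* k) (hπ : Function.Surjective π)
    (hconst : ∀ a : A, red ⟨algebraMap L F (a : L), (hOA _).2 a.2⟩ = algebraMap k Ft (π a))
    (hxO : x ∈ O) (hxO' : x⁻¹ ∈ O)
    {r : ℕ} (β : Fin r → F) (hβO : ∀ i, β i ∈ O) (hβR : ∀ i, β i ∈ chartFin L x)
    (hgen : ∀ v ∈ O, v ∈ chartFin L x →
      ∃ e : Fin r → L[X], (∀ i j, (e i).coeff j ∈ A) ∧ v = ∑ i, aeval x (e i) * β i) :
    ∃ d : ℕ, ∀ n : ℕ, d ≤ n → ∀ t : Ft,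
      t ∈ redSub hOA red π hπ hconst (riemannRochSpace (n • h.poleDiv)) ↔
        (∃ f₁ : O, (f₁ : F) ∈ chartFin L x ∧ red f₁ = t) ∧
        (∃ f₂ : O, (f₂ : F) ∈ chartInf L x ∧ red ⟨x, hxO⟩ ^ n * red f₂ = t) := by
  have hx0 : x ≠ 0 := fun h0 => h.transcendental (h0 ▸ isAlgebraic_zero)
  obtain ⟨d, hd⟩ := sat_poleDiv h hOA red hker hxO hxO' β hβO hβR hgen
  refine ⟨d, fun n hn t => ⟨?_, ?_⟩⟩
  · rintro ⟨y, hy, rfl⟩
    obtain ⟨h1, h2⟩ := mem_charts_of_mem_L h hy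
    refine ⟨⟨y, h1, rfl⟩, ⟨⟨x⁻¹, hxO'⟩ ^ n * y, ?_, ?_⟩⟩
    · show x⁻¹ ^ n * (y : F) ∈ chartInf L x
      exact h2
    · rw [← map_pow, ← map_mul]
      congr 1
      apply Subtype.ext
      show x ^ n * (x⁻¹ ^ n * (y : F)) = (y : F)
      rw [← mul_assoc, ← mul_pow, mul_inv_cancel₀ hx0, one_pow, one_mul]
  · rintro ⟨⟨f₁, h₁, rfl⟩, ⟨f₂, h₂, h₁₂⟩⟩
    obtain ⟨z, hz, hred⟩ := hd n hn f₁ f₂ h₁ h₂ h₁₂.symm
    exact ⟨z, hz, hred⟩

end Fermat.Agent.BAD.SatInst
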