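import Mathlib
import Fermat.Agent.BAD.ChartBase
import Fermat.Agent.BAD.LatInst
import Fermat.Agent.BAD.CuspOrdInst
import Fermat.Agent.BAD.TwoVal.ChartElts
import Fermat.Agent.BAD.SatInst
import Fermat.Agent.Lib.Red.DiscFinal
import Fermat.Agent.Lib.Red.InstGenus
import Fermat.Agent.Lib.Red.Integral

/-!
# BAD: the chart datum `X = J(q^M)` (residue characteristic `≥ 5`)

* `basis_inv` : for ANY chart function `X` (a Gauss unit with `IsFF1`), an integral good basis of
  the chart `X ≠ ∞` gives one of the chart `X ≠ 0` (multiply by a power of `X⁻¹`).  So an instance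
  of `IsChartBase` only has to provide the field `basis`.
* `isChartBase_ofJ` : `IsChartBase h (xL KQ M)` when `1728 ≠ 0` in the residue field.
-/

set_option autoImplicit false

noncomputable section

namespace Fermat.Agent.BAD

open Polynomial AlgebraicCurve ModularCurve Fermat.Agent.Lib.Red Fermat.Agent.Lib.FF
  Fermat.Agent.BAD.TwoVal Fermat.Agent.S24

section Reflect

variable {K E : Type*} [Field K] [Field E] [Algebra K E]

/-- `p(x) = x^N · p^rev(x⁻¹)`. -/
theorem aeval_reflect_mul_pow (x : E) (hx : x ≠ 0) (N : ℕ) (p : K[X]) (hp : p.natDegree ≤ N) :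
    aeval x⁻¹ (p.reflect N) * x ^ N = aeval x p := by
  letI : Invertible x := invertibleOfNonzero hx
  have h := Polynomial.eval₂_reflect_mul_pow (algebraMap K E) x N p hp
  rw [invOf_eq_inv] at h
  exact h

end Reflect

section Inv

variable {L : Type*} [Field L] [Algebra ℚ L] {A : ValuationSubring L} {k : Type} [Field k]
  {π : A →+* k} {M ℓ : ℕ} [NeZero M] [NeZero ℓ]

/-- **The chart at infinity from the finite chart.**  An integral good basis of the chart
`X ≠ ∞` yields one of the chart `X ≠ 0`. -/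
theorem basis_inv (h : BadSetup A π M ℓ)
    {X : ↥(laurentBaseChange L (modularFunctionFieldFull M))}
    (hmem : X ∈ Ow A π M h.hMk) (hinv : X⁻¹ ∈ Ow A π M h.hMk)
    (hff : IsFF1 L ↥(laurentBaseChange L (modularFunctionFieldFull M)) X)
    (hb : ∃ (n : ℕ) (b : Fin n → Ow A π M h.hMk),
      (∀ i, ∀ P : Place L ↥(laurentBaseChange L (modularFunctionFieldFull M)),
        0 ≤ P.ord X → 0 ≤ P.ord (b i : ↥(laurentBaseChange L (modularFunctionFieldFull M)))) ∧
      (∀ v : ↥(laurentBaseChange L (modularFunctionFieldFull M)),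
        ∃ (D : L[X]) (e : Fin n → L[X]), D ≠ 0 ∧
          aeval X D * v = ∑ i, aeval X (e i) *
            (b i : ↥(laurentBaseChange L (modularFunctionFieldFull M)))) ∧
      (∀ g : Fin n → k[X],
        ∑ i, aeval (redF A π M h.hπ h.hMk ⟨X, hmem⟩) (g i) * redF A π M h.hπ h.hMk (b i) = 0 →
          ∀ i, g i = 0)) :
    ∃ (n : ℕ) (b : Fin n → Ow A π M h.hMk),
      (∀ i, ∀ P : Place L ↥(laurentBaseChange L (modularFunctionFieldFull M)),
        P.ord X ≤ 0 → 0 ≤ P.ord (b i : ↥(laurentBaseChange L (modularFunctionFieldFull M)))) ∧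
      (∀ v : ↥(laurentBaseChange L (modularFunctionFieldFull M)),
        ∃ (D : L[X]) (e : Fin n → L[X]), D ≠ 0 ∧
          aeval X⁻¹ D * v = ∑ i, aeval X⁻¹ (e i) *
            (b i : ↥(laurentBaseChange L (modularFunctionFieldFull M)))) ∧
      (∀ g : Fin n → k[X],
        ∑ i, aeval (redF A π M h.hπ h.hMk ⟨X⁻¹, hinv⟩) (g i) *
          redF A π M h.hπ h.hMk (b i) = 0 → ∀ i, g i = 0) := by
  classical
  obtain ⟨n, b, hreg, hspan, hind⟩ := hb
  have hX0 : X ≠ 0 := fun h0 => hff.transcendental (h0 ▸ isAlgebraic_zero)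
  haveI := hff.hasPrincipalDivisors
  -- the exponent
  have hm : ∀ i, ∃ m : ℕ, ∀ m' : ℕ, m ≤ m' →
      X⁻¹ ^ m' * (b i : ↥(laurentBaseChange L (modularFunctionFieldFull M))) ∈
        SatInst.chartInf L X := by
    intro i
    refine SatInst.exists_inv_pow_mul_mem_chartInf hX0 ?_
    intro P hP
    rw [Place.adicValuation_le_one_iff] at hP ⊢
    rcases hP with hP | hP
    · exact absurd hP hX0
    · exact Or.inr (hreg i P hP)
  choose m hm using hm
  set d : ℕ := Finset.univ.sup m with hd
  have hdm : ∀ i, m i ≤ d := fun i => Finset.le_sup (Finset.mem_univ i)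
  have hone : ∀ P : Place L ↥(laurentBaseChange L (modularFunctionFieldFull M)),
      P.ord X ≤ 0 → 1 ≤ P.adicValuation X := by
    intro P hP
    rw [P.adicValuation_eq_exp_neg_ord hX0, ← WithZero.exp_zero, WithZero.exp_le_exp]
    omega
  let u : Ow A π M h.hMk := ⟨X⁻¹, hinv⟩
  let b' : Fin n → Ow A π M h.hMk := fun i => u ^ d * b i
  have hb'coe : ∀ i, ((b' i : Ow A π M h.hMk) :
      ↥(laurentBaseChange L (modularFunctionFieldFull M))) =
      X⁻¹ ^ d * (b i : ↥(laurentBaseChange L (modularFunctionFieldFull M))) := fun i => rfl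
  have hbb' : ∀ i, (b i : ↥(laurentBaseChange L (modularFunctionFieldFull M))) =
      X ^ d * ((b' i : Ow A π M h.hMk) :
        ↥(laurentBaseChange L (modularFunctionFieldFull M))) := by
    intro i
    rw [hb'coe, ← mul_assoc, ← mul_pow, mul_inv_cancel₀ hX0, one_pow, one_mul]
  -- reductions
  set xb := redF A π M h.hπ h.hMk ⟨X, hmem⟩ with hxb
  set xb' := redF A π M h.hπ h.hMk ⟨X⁻¹, hinv⟩ with hxb'
  have hxx : xb * xb' = 1 := by
    rw [hxb, hxb', ← map_mul]
    have e : (⟨X, hmem⟩ : Ow A π M h.hMk) * ⟨X⁻¹, hinv⟩ = 1 :=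
      Subtype.ext (mul_inv_cancel₀ hX0)
    rw [e, map_one]
  have hxb'0 : xb' ≠ 0 := right_ne_zero_of_mul_eq_one hxx
  have hxbinv : xb'⁻¹ = xb := (eq_inv_of_mul_eq_one_left hxx).symm
  refine ⟨n, b', fun i P hP => ?_, fun v => ?_, fun g hg => ?_⟩
  · -- regularity
    have h1 := hm i d (hdm i) P (hone P hP)
    rw [Place.adicValuation_le_one_iff] at h1
    rcases h1 with h1 | h1
    · rw [hb'coe, h1, Place.ord_zero]
    · rw [hb'coe]; exact h1
  · -- spanning
    obtain ⟨D, e, hD, hv⟩ := hspan v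
    set N : ℕ := max D.natDegree (Finset.univ.sup fun i => (e i).natDegree) with hN
    have hDN : D.natDegree ≤ N := le_max_left _ _
    have heN : ∀ i, (e i).natDegree ≤ N := fun i =>
      (Finset.le_sup (f := fun i => (e i).natDegree) (Finset.mem_univ i)).trans (le_max_right _ _)
    refine ⟨Polynomial.X ^ d * D.reflect N, fun i => (e i).reflect N, ?_, ?_⟩
    · refine mul_ne_zero (pow_ne_zero _ Polynomial.X_ne_zero) ?_
      rw [Ne, Polynomial.reflect_eq_zero_iff]
      exact hD
    · have hXN : X ^ N ≠ 0 := pow_ne_zero _ hX0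
      have hXd : X ^ d ≠ 0 := pow_ne_zero _ hX0
      have h1 : aeval X⁻¹ (D.reflect N) * X ^ N * v =
          X ^ N * (X ^ d * ∑ i, aeval X⁻¹ ((e i).reflect N) *
            ((b' i : Ow A π M h.hMk) :
              ↥(laurentBaseChange L (modularFunctionFieldFull M)))) := by
        rw [aeval_reflect_mul_pow X hX0 N D hDN, hv, Finset.mul_sum, Finset.mul_sum]
        refine Finset.sum_congr rfl fun i _ => ?_
        rw [← aeval_reflect_mul_pow X hX0 N (e i) (heN i), hbb' i]
        ring
      have h2 : aeval X⁻¹ (D.reflect N) * v =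
          X ^ d * ∑ i, aeval X⁻¹ ((e i).reflect N) *
            ((b' i : Ow A π M h.hMk) :
              ↥(laurentBaseChange L (modularFunctionFieldFull M))) := by
        apply mul_left_cancel₀ hXN
        rw [← h1]
        ring
      rw [map_mul, map_pow, aeval_X, mul_assoc, h2, ← mul_assoc, ← mul_pow,
        inv_mul_cancel₀ hX0, one_pow, one_mul]
  · -- independence of the reductions
    set N : ℕ := Finset.univ.sup fun i => (g i).natDegree with hN
    have hgN : ∀ i, (g i).natDegree ≤ N := fun i =>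
      Finset.le_sup (f := fun i => (g i).natDegree) (Finset.mem_univ i)
    have hred : ∀ i, redF A π M h.hπ h.hMk (b' i) = xb' ^ d * redF A π M h.hπ h.hMk (b i) := by
      intro i
      show redF A π M h.hπ h.hMk (u ^ d * b i) = _
      rw [map_mul, map_pow]
    have h1 : xb' ^ (N + d) * ∑ i, aeval xb ((g i).reflect N) * redF A π M h.hπ h.hMk (b i)
        = 0 := by
      rw [← hg, Finset.mul_sum]
      refine Finset.sum_congr rfl fun i _ => ?_
      have h2 := aeval_reflect_mul_pow xb' hxb'0 N (g i) (hgN i)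
      rw [hxbinv] at h2
      rw [hred i, ← h2]
      ring
    have h3 : ∑ i, aeval xb ((g i).reflect N) * redF A π M h.hπ h.hMk (b i) = 0 := by
      rcases mul_eq_zero.1 h1 with h4 | h4
      · exact absurd h4 (pow_ne_zero _ hxb'0)
      · exact h4
    intro i
    have := hind (fun i => (g i).reflect N) h3 i
    rwa [Polynomial.reflect_eq_zero_iff] at this

end Inv

section OfJ

variable {A : ValuationSubring KQ} {k : Type} [Field k] [IsAlgClosed k] {π : A →+* k}
  {M ℓ : ℕ} [NeZero M] [NeZero ℓ]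

/-- The integral good basis of the chart `J(q^M) ≠ ∞`, in polynomial form. -/
theorem basis_xL (h : BadSetup A π M ℓ) (hsurj : Function.Surjective π) :
    ∃ (n : ℕ) (b : Fin n → Ow A π M h.hMk),
      (∀ i, ∀ P : Place KQ ↥(laurentBaseChange KQ (modularFunctionFieldFull M)),
        0 ≤ P.ord (xL KQ M) →
          0 ≤ P.ord (b i : ↥(laurentBaseChange KQ (modularFunctionFieldFull M)))) ∧
      (∀ v : ↥(laurentBaseChange KQ (modularFunctionFieldFull M)),
        ∃ (D : KQ[X]) (e : Fin n → KQ[X]), D ≠ 0 ∧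
          aeval (xL KQ M) D * v = ∑ i, aeval (xL KQ M) (e i) *
            (b i : ↥(laurentBaseChange KQ (modularFunctionFieldFull M)))) ∧
      (∀ g : Fin n → k[X],
        ∑ i, aeval (xk k M) (g i) * redF A π M h.hπ h.hMk (b i) = 0 → ∀ i, g i = 0) := by
  classical
  obtain ⟨ι, hι, G, hG⟩ := Fermat.Agent.Lib.Red.exists_goodBasis_integral (A := A) (π := π)
    (N := M) h.hπ hsurj h.hMk
  have hff := InstGenus.isFF1_xL (A := A) (π := π) (N := M) h.hπ hsurj h.hMk
  let en : ι ≃ Fin (Fintype.card ι) := Fintype.equivFin ι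
  refine ⟨Fintype.card ι, fun j => G.b (en.symm j), fun j P hP => ?_, fun v => ?_, fun g hg => ?_⟩
  · exact (hff.isIntegral_adjoin_iff _).1 (isIntegral_adjoin_of_isIntegral_AX (hG _)) P hP
  · obtain ⟨c, hc⟩ := G.span v
    obtain ⟨D, hD, e, he⟩ := PolyRed.exists_common_denom (xL KQ M)
      (fun e he => LatInst.aeval_xL_ne_zero e he)
      (fun i => algebraMap ↥(IntermediateField.adjoin KQ {xL KQ M})
        ↥(laurentBaseChange KQ (modularFunctionFieldFull M)) (c i)) (fun i => (c i).2)
    refine ⟨D, fun j => e (en.symm j), hD, ?_⟩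
    rw [hc, Finset.mul_sum]
    rw [← Equiv.sum_comp en.symm]
    refine Finset.sum_congr rfl fun j _ => ?_
    rw [← mul_assoc, he]
  · have h1 : ∑ i, aeval (xk k M) (g (en i)) * redF A π M h.hπ h.hMk (G.b i) = 0 := by
      rw [← hg, ← Equiv.sum_comp en.symm]
      refine Finset.sum_congr rfl fun j _ => ?_
      rw [Equiv.apply_symm_apply]
    intro j
    have := LatInst.goodBasis_polyIndep h.hπ h.hMk G (fun i => g (en i)) h1 (en.symm j)
    rwa [Equiv.apply_symm_apply] at this

/-- **The chart datum `X = J(q^M)`**, residue characteristic `≥ 5`. -/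
theorem isChartBase_ofJ (h : BadSetup A π M ℓ) (hsurj : Function.Surjective π)
    (h1728 : (1728 : k) ≠ 0) : IsChartBase h (xL KQ M) := by
  have hmem : xL KQ M ∈ Ow A π M h.hMk := LatInst.xL_mem_Ow h.hMk
  have hinv : (xL KQ M)⁻¹ ∈ Ow A π M h.hMk := InstGenus.xL_inv_mem_Ow h.hπ h.hMk
  have hred : redF A π M h.hπ h.hMk ⟨xL KQ M, hmem⟩ = xk k M := LatInst.redF_xL h.hπ h.hMk
  have hff := InstGenus.isFF1_xL (A := A) (π := π) (N := M) h.hπ hsurj h.hMk
  have hbasis : ∃ (n : ℕ) (b : Fin n → Ow A π M h.hMk),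
      (∀ i, ∀ P : Place KQ ↥(laurentBaseChange KQ (modularFunctionFieldFull M)),
        0 ≤ P.ord (xL KQ M) →
          0 ≤ P.ord (b i : ↥(laurentBaseChange KQ (modularFunctionFieldFull M)))) ∧
      (∀ v : ↥(laurentBaseChange KQ (modularFunctionFieldFull M)),
        ∃ (D : KQ[X]) (e : Fin n → KQ[X]), D ≠ 0 ∧
          aeval (xL KQ M) D * v = ∑ i, aeval (xL KQ M) (e i) *
            (b i : ↥(laurentBaseChange KQ (modularFunctionFieldFull M)))) ∧
      (∀ g : Fin n → k[X],
        ∑ i, aeval (redF A π M h.hπ h.hMk ⟨xL KQ M, hmem⟩) (g i) *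
          redF A π M h.hπ h.hMk (b i) = 0 → ∀ i, g i = 0) := by
    rw [hred]
    exact basis_xL h hsurj
  refine
    { mem := hmem
      inv_mem := hinv
      rat := xL_rat h
      gal := fun σ => galois_smul_xL σ M
      ff := hff
      ffRed := ?_
      lift := ?_
      lift' := ?_
      basis := hbasis
      basis' := basis_inv h hmem hinv hff hbasis
      pole_iff := fun P => CuspOrd.ord_alpha_xL_neg_iff h.hℓ P
      ord_beta_ge := fun P hP => CuspOrd.ord_beta_xL_ge h.hℓ P hP
      ord_alpha_ge := fun P hP => CuspOrd.ord_alpha_xL_ge h.hℓ P hP }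
  · rw [hred]
    exact InstGenus.isFF1_xk (A := A) (π := π) (N := M) h.hπ hsurj h.hMk
  · have hT := DiscInst.hT3_ofJ (A := A) (π := π) M h.hπ hsurj h.hMk h1728
    rw [BaseFn.Data.ofJ_x, BaseFn.Data.ofJ_xt] at hT
    intro s hs
    rw [hred] at hs
    exact hT s hs
  · have hT := DiscInst.hT3'_ofJ (A := A) (π := π) M h.hπ hsurj h.hMk h1728
    rw [BaseFn.Data.ofJ_x, BaseFn.Data.ofJ_xt] at hT
    intro s hs
    rw [hred] at hs
    exact hT s hs

end OfJ

end Fermat.Agent.BAD
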