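import Mathlib
import Fermat.Agent.BAD.NodalCech
import Fermat.Agent.Lib.FF.Holo

/-!
# BAD: characters of the chart rings are places; Čech splitting from the two charts

Bridge between `KroneckerNodal.exists_nodes` (a subalgebra `B ⊆ R × R` cut out by finitely many
pairs of characters) and `NodalCech` (rings of pairs of functions glued along pairs of places).

* `finRing K x : Subalgebra K F` : the functions regular wherever `x` is regular;
  `mem_finRing_iff_isIntegral` : these are the elements integral over `K[x]`.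
* `exists_place_of_character` : if `ρ : R →ₐ[K] F` is injective with `x ∈ ρ(R)`, every character
  `s : R →ₐ[K] K` is the evaluation at a place `P` with `x` regular at `P`:
  `Cong P (ρ r) (s r)` for all `r`.
* `exists_nodes_of_characters` : if `ρ₁(R₁)`, `ρ₂(R₂)` are the chart rings of `x₁`, `x₂`, then for
  any family of pairs of characters `(s₁ i, s₂ i)` (`s₂` injective) there are places
  `e₁ i`, `e₂ i` (`e₂` injective) with
  `nodalFin x₁ x₂ e₁ e₂ = {(ρ₁ a, ρ₂ b) | ∀ i, s₁ i a = s₂ i b}`.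
* `nodalFin_inv` : `nodalFin x₁⁻¹ x₂⁻¹ = nodalInf x₁ x₂` (the chart at infinity is the finite
  chart of `x⁻¹`), `xCompat_of_mem_nodalFin`, `xCompat_of_inv_mem_nodalInf`.
* `mem_nodalOverlap_iff_exists_pow_fin` / `_inf` : the overlap ring is the localisation of either
  chart ring.
* **`exists_split_of_charts`** : if the chart ring at finite distance is `nodalFin` of one family
  of nodes, the chart ring at infinity is `nodalInf` of ANOTHER family, and both have the same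
  localisation at `x`, then `Bfin[1/x] = Bfin + xⁿ · Binf` for `n ≥ n₀` — the two node families
  need not be reconciled by hand.
-/

set_option autoImplicit false
set_option linter.style.haveILetI false

noncomputable section

namespace Fermat.Agent.BAD.NodalPlaces

open AlgebraicCurve WithZero Fermat.Agent.Lib.FF Fermat.Agent.BAD.NodalRiemann
  Fermat.Agent.BAD.NodalCech

universe w

variable {K : Type*} [Field K]

section OneField

variable {F : Type*} [Field F] [Algebra K F] {x : F}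

variable (K) in
/-- The chart ring of `x ≠ ∞`: the functions regular at every place at which `x` is regular. -/
def finRing (x : F) : Subalgebra K F where
  carrier := {a | ∀ P : Place K F, P.adicValuation x ≤ 1 → P.adicValuation a ≤ 1}
  mul_mem' := fun {a b} ha hb P hP => by
    rw [map_mul]
    exact mul_le_one' (ha P hP) (hb P hP)
  add_mem' := fun {a b} ha hb P hP =>
    (Valuation.map_add _ _ _).trans (max_le (ha P hP) (hb P hP))
  algebraMap_mem' := fun r P _ => P.adicValuation_algebraMap_le_one r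

theorem mem_finRing {a : F} :
    a ∈ finRing K x ↔ ∀ P : Place K F, P.adicValuation x ≤ 1 → P.adicValuation a ≤ 1 := Iff.rfl

theorem self_mem_finRing : x ∈ finRing K x := fun _ hP => hP

/-- The chart ring is the integral closure of `K[x]`. -/
theorem mem_finRing_iff_isIntegral (h : IsFF1 K F x) (a : F) :
    a ∈ finRing K x ↔ IsIntegral (Algebra.adjoin K {x}) a := by
  have hx0 : x ≠ 0 := fun h0 => h.transcendental (h0 ▸ isAlgebraic_zero)
  rw [h.isIntegral_adjoin_iff, mem_finRing]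
  refine forall_congr' fun P => ?_
  rw [val_le_one_iff_ord P hx0, P.adicValuation_le_one_iff]
  constructor
  · intro h1 h2
    rcases h1 h2 with rfl | h3
    · rw [Place.ord_zero]
    · exact h3
  · intro h1 h2
    exact Or.inr (h1 h2)

/-- **Characters are places**: if `ρ : R →ₐ[K] F` is injective and `x ∈ ρ(R)`, every character
of `R` is the evaluation at a place at which `x` is regular. -/
theorem exists_place_of_character (h : IsFF1 K F x) {R : Type*} [CommRing R] [Algebra K R]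
    (ρ : R →ₐ[K] F) (hρ : Function.Injective ρ) (hx : ∃ ξ : R, ρ ξ = x) (s : R →ₐ[K] K) :
    ∃ P : Place K F, P.adicValuation x ≤ 1 ∧ ∀ r : R, Cong P (ρ r) (s r) := by
  haveI := h.finiteDimensional
  obtain ⟨ξ, hξ⟩ := hx
  set A : Subring F := (ρ : R →+* F).range with hA
  set I : Ideal A := Ideal.map (ρ : R →+* F).rangeRestrict (RingHom.ker (s : R →+* K)) with hI
  have hsurj : Function.Surjective (ρ : R →+* F).rangeRestrict :=
    (ρ : R →+* F).rangeRestrict_surjective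
  have hItop : I ≠ ⊤ := by
    intro htop
    have h1 : (1 : A) ∈ I := by
      rw [htop]
      exact Submodule.mem_top
    rw [hI, Ideal.mem_map_iff_of_surjective _ hsurj] at h1
    obtain ⟨r, hr, hr1⟩ := h1
    have hr1' : ρ r = 1 := congrArg Subtype.val hr1
    have hr2 : r = 1 := hρ (by rw [hr1', map_one])
    rw [RingHom.mem_ker, hr2, map_one] at hr
    exact one_ne_zero hr
  obtain ⟨B, hAB, hIB⟩ := Ideal.image_subset_nonunits_valuationSubring I hItop
  have hker : ∀ r : R, s r = 0 → ρ r ∈ B.nonunits := by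
    intro r hr
    refine hIB ⟨(ρ : R →+* F).rangeRestrict r, ?_, rfl⟩
    exact Ideal.mem_map_of_mem _ (by rw [RingHom.mem_ker]; exact hr)
  have hmem : ∀ r : R, ρ r ∈ B := fun r => hAB ⟨r, rfl⟩
  have hK : ∀ c : K, algebraMap K F c ∈ B := by
    intro c
    have := hmem (algebraMap K R c)
    rwa [AlgHom.commutes] at this
  have hsub : ∀ r : R, ρ r - algebraMap K F (s r) ∈ B.nonunits := by
    intro r
    have h1 := hker (r - algebraMap K R (s r)) (by
      rw [map_sub, AlgHom.commutes]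
      simp)
    rwa [map_sub, AlgHom.commutes] at h1
  have hBtop : B ≠ ⊤ := by
    intro htop
    have h1 := hsub ξ
    rw [hξ] at h1
    have h2 : x - algebraMap K F (s ξ) ≠ 0 := by
      intro h0
      exact h.transcendental ((sub_eq_zero.mp h0) ▸ isAlgebraic_algebraMap (s ξ))
    have h3 : (x - algebraMap K F (s ξ))⁻¹ ∈ B := by
      rw [htop]
      exact ValuationSubring.mem_top _
    rw [ValuationSubring.mem_nonunits_iff] at h1
    have h4 := (B.valuation_le_one_iff _).mpr h3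
    rw [map_inv₀] at h4
    have h5 : B.valuation (x - algebraMap K F (s ξ)) ≠ 0 := (Valuation.ne_zero_iff _).mpr h2
    have h6 : (1 : _) ≤ B.valuation (x - algebraMap K F (s ξ)) := by
      rwa [inv_le_one₀ (pos_iff_ne_zero.mpr h5)] at h4
    exact absurd h1 (not_lt.mpr h6)
  refine ⟨Holo.placeOfValuationSubring x B hK hBtop, ?_, fun r => ?_⟩
  · have hxB : x ∈ B := hξ ▸ hmem ξ
    exact Place.adicValuation_le_one_of_mem _ hxB
  · have h1 := hsub r
    rw [ValuationSubring.mem_nonunits_iff_exists_mem_maximalIdeal] at h1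
    obtain ⟨ha, hm⟩ := h1
    have h2 := RR.val_le_exp_neg_one_of_mem_maximalIdeal
      (Holo.placeOfValuationSubring x B hK hBtop) ⟨_, ha⟩ hm
    refine lt_of_le_of_lt h2 ?_
    rw [← exp_zero, exp_lt_exp]
    norm_num

end OneField

section TwoFields

variable {F₁ F₂ : Type*} [Field F₁] [Field F₂] [Algebra K F₁] [Algebra K F₂]
variable {x₁ : F₁} {x₂ : F₂}

/-- **Pairs of characters are nodes**: the subring of `ρ₁(R₁) × ρ₂(R₂)` cut out by the
conditions `s₁ i a = s₂ i b` is the glued chart ring `nodalFin` for suitable places. -/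
theorem exists_nodes_of_characters (h₁ : IsFF1 K F₁ x₁) (h₂ : IsFF1 K F₂ x₂)
    {R₁ R₂ : Type*} [CommRing R₁] [CommRing R₂] [Algebra K R₁] [Algebra K R₂]
    (ρ₁ : R₁ →ₐ[K] F₁) (ρ₂ : R₂ →ₐ[K] F₂) (hρ₁ : Function.Injective ρ₁)
    (hρ₂ : Function.Injective ρ₂)
    (hr₁ : ∀ a : F₁, (∃ r, ρ₁ r = a) ↔ a ∈ finRing K x₁)
    (hr₂ : ∀ b : F₂, (∃ r, ρ₂ r = b) ↔ b ∈ finRing K x₂)
    {ι : Type*} (s₁ : ι → R₁ →ₐ[K] K) (s₂ : ι → R₂ →ₐ[K] K) (hs₂ : Function.Injective s₂) :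
    ∃ (e₁ : ι → Place K F₁) (e₂ : ι → Place K F₂), Function.Injective e₂ ∧
      (∀ i, (e₁ i).adicValuation x₁ ≤ 1) ∧ (∀ i, (e₂ i).adicValuation x₂ ≤ 1) ∧
      (∀ i r, Cong (e₁ i) (ρ₁ r) (s₁ i r)) ∧ (∀ i r, Cong (e₂ i) (ρ₂ r) (s₂ i r)) ∧
      ∀ p : F₁ × F₂, p ∈ nodalFin x₁ x₂ e₁ e₂ ↔
        ∃ a b, p = (ρ₁ a, ρ₂ b) ∧ ∀ i, s₁ i a = s₂ i b := by
  have hx₁ : ∃ ξ, ρ₁ ξ = x₁ := (hr₁ x₁).mpr self_mem_finRing
  have hx₂ : ∃ ξ, ρ₂ ξ = x₂ := (hr₂ x₂).mpr self_mem_finRing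
  choose e₁ he₁x he₁ using fun i => exists_place_of_character h₁ ρ₁ hρ₁ hx₁ (s₁ i)
  choose e₂ he₂x he₂ using fun i => exists_place_of_character h₂ ρ₂ hρ₂ hx₂ (s₂ i)
  refine ⟨e₁, e₂, ?_, he₁x, he₂x, he₁, he₂, fun p => ?_⟩
  · intro i j hij
    apply hs₂
    refine AlgHom.ext fun r => ?_
    have h1 := he₂ i r
    rw [hij] at h1
    exact h1.unique (he₂ j r)
  · obtain ⟨a', b'⟩ := p
    constructor
    · rintro ⟨ha, hb, hn⟩
      obtain ⟨a, rfl⟩ := (hr₁ a').mpr ha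
      obtain ⟨b, rfl⟩ := (hr₂ b').mpr hb
      refine ⟨a, b, rfl, fun i => ?_⟩
      obtain ⟨c, hc1, hc2⟩ := hn i (he₁x i)
      rw [(he₁ i a).unique hc1, (he₂ i b).unique hc2]
    · rintro ⟨a, b, hp, hab⟩
      rw [Prod.mk.injEq] at hp
      obtain ⟨rfl, rfl⟩ := hp
      refine mem_nodalFin.mpr ⟨(hr₁ _).mp ⟨a, rfl⟩, (hr₂ _).mp ⟨b, rfl⟩, fun i _ => ?_⟩
      refine ⟨s₁ i a, he₁ i a, ?_⟩
      rw [hab i]
      exact he₂ i b

variable {ι : Type*} {e₁ : ι → Place K F₁} {e₂ : ι → Place K F₂}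

/-- The chart at infinity is the finite chart of `x⁻¹`. -/
theorem nodalFin_inv (hx₁ : x₁ ≠ 0) (hx₂ : x₂ ≠ 0) :
    nodalFin x₁⁻¹ x₂⁻¹ e₁ e₂ = nodalInf x₁ x₂ e₁ e₂ := by
  have e1 : ∀ P : Place K F₁, P.adicValuation x₁⁻¹ ≤ 1 ↔ 1 ≤ P.adicValuation x₁ := by
    intro P
    rw [map_inv₀, inv_le_one₀ (pos_iff_ne_zero.mpr ((Valuation.ne_zero_iff _).mpr hx₁))]
  have e2 : ∀ P : Place K F₂, P.adicValuation x₂⁻¹ ≤ 1 ↔ 1 ≤ P.adicValuation x₂ := by
    intro P
    rw [map_inv₀, inv_le_one₀ (pos_iff_ne_zero.mpr ((Valuation.ne_zero_iff _).mpr hx₂))]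
  ext p
  rw [mem_nodalFin, mem_nodalInf]
  simp only [e1, e2]

/-- If all nodes are at finite distance and `(x₁, x₂)` is glued, the coordinate is compatible. -/
theorem xCompat_of_mem_nodalFin (hfin : ∀ i, (e₁ i).adicValuation x₁ ≤ 1)
    (h : (x₁, x₂) ∈ nodalFin x₁ x₂ e₁ e₂) : XCompat x₁ x₂ e₁ e₂ :=
  fun i => Or.inl ((mem_nodalFin.mp h).2.2 i (hfin i))

/-- If all nodes are in the chart at infinity and `(x₁⁻¹, x₂⁻¹)` is glued, the coordinate is
compatible. -/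
theorem xCompat_of_inv_mem_nodalInf (hx₁ : x₁ ≠ 0) (hx₂ : x₂ ≠ 0)
    (hinf : ∀ i, 1 ≤ (e₁ i).adicValuation x₁)
    (h : (x₁⁻¹, x₂⁻¹) ∈ nodalInf x₁ x₂ e₁ e₂) : XCompat x₁ x₂ e₁ e₂ := by
  intro i
  obtain ⟨c, hc1, hc2⟩ := (mem_nodalInf.mp h).2.2 i (hinf i)
  rcases eq_or_ne c 0 with rfl | hc
  · right
    have h1 := cong_zero_iff.mp hc1
    have h2 := cong_zero_iff.mp hc2
    rw [map_inv₀] at h1 h2
    constructor
    · exact (inv_lt_one₀ (pos_iff_ne_zero.mpr ((Valuation.ne_zero_iff _).mpr hx₁))).mp h1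
    · exact (inv_lt_one₀ (pos_iff_ne_zero.mpr ((Valuation.ne_zero_iff _).mpr hx₂))).mp h2
  · left
    refine ⟨c⁻¹, ?_, ?_⟩
    · have := hc1.inv hc
      rwa [inv_inv] at this
    · have := hc2.inv hc
      rwa [inv_inv] at this

theorem XCompat.val_lt_one_iff (hx : XCompat x₁ x₂ e₁ e₂) (i : ι) :
    (e₁ i).adicValuation x₁ < 1 ↔ (e₂ i).adicValuation x₂ < 1 := by
  rw [lt_iff_le_and_ne, lt_iff_le_and_ne, hx.val_le_one_iff i, Ne, Ne, hx.val_eq_one_iff i]

theorem XCompat.one_le_val_iff (hx : XCompat x₁ x₂ e₁ e₂) (i : ι) :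
    1 ≤ (e₁ i).adicValuation x₁ ↔ 1 ≤ (e₂ i).adicValuation x₂ := by
  rw [← not_lt, ← not_lt, XCompat.val_lt_one_iff hx i]

/-- The overlap ring is the localisation of the finite chart ring at `x`. -/
theorem mem_nodalOverlap_iff_exists_pow_fin (h₁ : IsFF1 K F₁ x₁) (h₂ : IsFF1 K F₂ x₂)
    (hx : XCompat x₁ x₂ e₁ e₂) (f : F₁ × F₂) :
    f ∈ nodalOverlap x₁ x₂ e₁ e₂ ↔ ∃ k : ℕ, (x₁, x₂) ^ k * f ∈ nodalFin x₁ x₂ e₁ e₂ := by
  have hx₁0 : x₁ ≠ 0 := fun h0 => h₁.transcendental (h0 ▸ isAlgebraic_zero)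
  have hx₂0 : x₂ ≠ 0 := fun h0 => h₂.transcendental (h0 ▸ isAlgebraic_zero)
  constructor
  · intro hf
    obtain ⟨m, hm⟩ := exists_pow_mul_mem_nodalFin h₁ h₂ hx hf
    exact ⟨m, hm m le_rfl⟩
  · rintro ⟨k, hk⟩
    have h1 := nodalFin_le_nodalOverlap x₁ x₂ e₁ e₂ hk
    have h2 := nodalInf_le_nodalOverlap x₁ x₂ e₁ e₂ (x_inv_mem_nodalInf hx)
    have h3 := mul_mem (pow_mem h2 k) h1
    have e : (x₁⁻¹, x₂⁻¹) ^ k * ((x₁, x₂) ^ k * f) = f := by
      refine Prod.ext ?_ ?_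
      · show x₁⁻¹ ^ k * (x₁ ^ k * f.1) = f.1
        rw [← mul_assoc, ← mul_pow, inv_mul_cancel₀ hx₁0, one_pow, one_mul]
      · show x₂⁻¹ ^ k * (x₂ ^ k * f.2) = f.2
        rw [← mul_assoc, ← mul_pow, inv_mul_cancel₀ hx₂0, one_pow, one_mul]
    rwa [e] at h3

/-- The overlap ring is the localisation of the chart ring at infinity at `x⁻¹`. -/
theorem mem_nodalOverlap_iff_exists_pow_inf (h₁ : IsFF1 K F₁ x₁) (h₂ : IsFF1 K F₂ x₂)
    (hx : XCompat x₁ x₂ e₁ e₂) (f : F₁ × F₂) :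
    f ∈ nodalOverlap x₁ x₂ e₁ e₂ ↔
      ∃ k : ℕ, (x₁⁻¹, x₂⁻¹) ^ k * f ∈ nodalInf x₁ x₂ e₁ e₂ := by
  have hx₁0 : x₁ ≠ 0 := fun h0 => h₁.transcendental (h0 ▸ isAlgebraic_zero)
  have hx₂0 : x₂ ≠ 0 := fun h0 => h₂.transcendental (h0 ▸ isAlgebraic_zero)
  constructor
  · intro hf
    obtain ⟨m, hm⟩ := exists_pow_mul_mem_nodalInf h₁ h₂ hx hf
    exact ⟨m, hm m le_rfl⟩
  · rintro ⟨k, hk⟩
    have h1 := nodalInf_le_nodalOverlap x₁ x₂ e₁ e₂ hk
    have h2 := nodalFin_le_nodalOverlap x₁ x₂ e₁ e₂ (x_mem_nodalFin hx)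
    have h3 := mul_mem (pow_mem h2 k) h1
    have e : (x₁, x₂) ^ k * ((x₁⁻¹, x₂⁻¹) ^ k * f) = f := by
      refine Prod.ext ?_ ?_
      · show x₁ ^ k * (x₁⁻¹ ^ k * f.1) = f.1
        rw [← mul_assoc, ← mul_pow, mul_inv_cancel₀ hx₁0, one_pow, one_mul]
      · show x₂ ^ k * (x₂⁻¹ ^ k * f.2) = f.2
        rw [← mul_assoc, ← mul_pow, mul_inv_cancel₀ hx₂0, one_pow, one_mul]
    rwa [e] at h3

end TwoFields

section Charts

variable {F₁ F₂ : Type*} [Field F₁] [Field F₂] [Algebra K F₁] [Algebra K F₂]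
variable {x₁ : F₁} {x₂ : F₂}

/-- **Čech splitting from the two charts.**  Suppose the chart ring at finite distance is
`nodalFin` for a family of nodes `(e₁, e₂)`, the chart ring at infinity is `nodalInf` for a second
family `(e₁', e₂')` (all in the chart at infinity), and the two rings have the same localisation
at `x`.  Then for `n ≥ n₀` (depending only on the fields and a bound `m` on the number of nodes)
every element of the common localisation is `g + xⁿ h` with `g` in the first ring and `h` in the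
second one. -/
theorem exists_split_of_charts (h₁ : IsFF1 K F₁ x₁) (h₂ : IsFF1 K F₂ x₂) (m : ℕ) :
    ∃ n₀ : ℕ, ∀ (ι ι' : Type w) [Fintype ι] [Fintype ι'] (e₁ : ι → Place K F₁)
      (e₂ : ι → Place K F₂) (e₁' : ι' → Place K F₁) (e₂' : ι' → Place K F₂),
      Fintype.card ι + Fintype.card ι' ≤ m → Function.Injective e₂ → Function.Injective e₂' →
      XCompat x₁ x₂ e₁ e₂ → XCompat x₁ x₂ e₁' e₂' → (∀ i, 1 ≤ (e₁' i).adicValuation x₁) →
      (∀ f : F₁ × F₂, (∃ k : ℕ, (x₁, x₂) ^ k * f ∈ nodalFin x₁ x₂ e₁ e₂) ↔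
        (∃ k : ℕ, (x₁⁻¹, x₂⁻¹) ^ k * f ∈ nodalInf x₁ x₂ e₁' e₂')) →
      ∀ n : ℕ, n₀ ≤ n → ∀ f : F₁ × F₂, (∃ k : ℕ, (x₁, x₂) ^ k * f ∈ nodalFin x₁ x₂ e₁ e₂) →
        ∃ g ∈ nodalFin x₁ x₂ e₁ e₂, ∃ h ∈ nodalInf x₁ x₂ e₁' e₂',
          f = g + (x₁, x₂) ^ n * h := by
  classical
  obtain ⟨n₀, hn₀⟩ := exists_split.{w} h₁ h₂ m
  refine ⟨n₀, fun ι ι' _ _ e₁ e₂ e₁' e₂' hcard he₂ he₂' hx hx' hinf hloc n hn f hf => ?_⟩
  -- the overlap rings agree
  have hov : ∀ f, f ∈ nodalOverlap x₁ x₂ e₁ e₂ ↔ f ∈ nodalOverlap x₁ x₂ e₁' e₂' := fun f => by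
    rw [mem_nodalOverlap_iff_exists_pow_fin h₁ h₂ hx,
      mem_nodalOverlap_iff_exists_pow_inf h₁ h₂ hx', hloc]
  -- the merged family: the nodes of the first family at the zeros of `x`, and the second family
  have hcardκ : Fintype.card ({i : ι // (e₁ i).adicValuation x₁ < 1} ⊕ ι') ≤ m := by
    rw [Fintype.card_sum]
    have := Fintype.card_subtype_le (fun i : ι => (e₁ i).adicValuation x₁ < 1)
    omega
  have hE₂ : Function.Injective
      (Sum.elim (fun i : {i : ι // (e₁ i).adicValuation x₁ < 1} => e₂ i) e₂') := by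
    rintro (⟨i, hi⟩ | j) (⟨i', hi'⟩ | j') hEq
    · simp only [Sum.elim_inl] at hEq
      have := he₂ hEq
      subst this
      rfl
    · exfalso
      simp only [Sum.elim_inl, Sum.elim_inr] at hEq
      have h1 : (e₂ i).adicValuation x₂ < 1 := (XCompat.val_lt_one_iff hx i).mp hi
      have h2 : 1 ≤ (e₂' j').adicValuation x₂ := (XCompat.one_le_val_iff hx' j').mp (hinf j')
      rw [hEq] at h1
      exact absurd h1 (not_lt.mpr h2)
    · exfalso
      simp only [Sum.elim_inl, Sum.elim_inr] at hEq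
      have h1 : (e₂ i').adicValuation x₂ < 1 := (XCompat.val_lt_one_iff hx i').mp hi'
      have h2 : 1 ≤ (e₂' j).adicValuation x₂ := (XCompat.one_le_val_iff hx' j).mp (hinf j)
      rw [← hEq] at h1
      exact absurd h1 (not_lt.mpr h2)
    · simp only [Sum.elim_inr] at hEq
      rw [he₂' hEq]
  have hX : XCompat x₁ x₂
      (Sum.elim (fun i : {i : ι // (e₁ i).adicValuation x₁ < 1} => e₁ i) e₁')
      (Sum.elim (fun i : {i : ι // (e₁ i).adicValuation x₁ < 1} => e₂ i) e₂') := by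
    rintro (⟨i, hi⟩ | j)
    · exact hx i
    · exact hx' j
  have hfO : f ∈ nodalOverlap x₁ x₂ e₁ e₂ :=
    (mem_nodalOverlap_iff_exists_pow_fin h₁ h₂ hx f).mpr hf
  have hfO' : f ∈ nodalOverlap x₁ x₂
      (Sum.elim (fun i : {i : ι // (e₁ i).adicValuation x₁ < 1} => e₁ i) e₁')
      (Sum.elim (fun i : {i : ι // (e₁ i).adicValuation x₁ < 1} => e₂ i) e₂') := by
    obtain ⟨h1, h2, h3⟩ := mem_nodalOverlap.mp ((hov f).mp hfO)
    refine mem_nodalOverlap.mpr ⟨h1, h2, ?_⟩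
    rintro (⟨i, hi⟩ | j) hval
    · exact absurd hval (ne_of_lt hi)
    · exact h3 j hval
  obtain ⟨g, hg, h, hh, hfgh⟩ := hn₀ _ _ _ hcardκ hE₂ hX n hn f hfO'
  refine ⟨g, ?_, h, ?_, hfgh⟩
  · obtain ⟨hg1, hg2, hg3⟩ := mem_nodalFin.mp hg
    have hgO' : g ∈ nodalOverlap x₁ x₂ e₁' e₂' :=
      mem_nodalOverlap.mpr ⟨fun P hP => hg1 P (le_of_eq hP), fun P hP => hg2 P (le_of_eq hP),
        fun j hj => hg3 (Sum.inr j) (le_of_eq hj)⟩
    have hgO := mem_nodalOverlap.mp ((hov g).mpr hgO')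
    refine mem_nodalFin.mpr ⟨hg1, hg2, fun i hi => ?_⟩
    rcases eq_or_lt_of_le hi with hi1 | hi1
    · exact hgO.2.2 i hi1
    · exact hg3 (Sum.inl ⟨i, hi1⟩) (le_of_lt hi1)
  · obtain ⟨hh1, hh2, hh3⟩ := mem_nodalInf.mp hh
    exact mem_nodalInf.mpr ⟨hh1, hh2, fun j hj => hh3 (Sum.inr j) hj⟩

end Charts

end Fermat.Agent.BAD.NodalPlaces
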