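import Mathlib
import Fermat.Agent.BAD.NodalPlaces
import Fermat.Agent.BAD.NodalDiv

/-!
# BAD (hS2 assembly): the reduction of `L(n₁ E1 + n₂ E2) ∩ O` is the glued Riemann–Roch space

Abstract form of directive #2, item 5.  `F/L` the generic fibre (`IsFF1 L F x`, `x` the Čech
coordinate, `x, x⁻¹ ∈ O`), `red : O →+* F₁ × F₂` the reduction to the two components
(`IsFF1 k F_j x_j`, `red x = (x₁, x₂)`).

Inputs:
* `hB₁` : the reductions of the elements of `O` regular off the poles of `x` are exactly the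
  glued chart ring `nodalFin x₁ x₂ e₁ e₂` (S1, chart 1);
* `hB₂` : the reductions of the elements of `O` regular off the zeros of `x` are exactly
  `nodalInf x₁ x₂ e₁' e₂'` (S1, chart 2; a second family of nodes, none of them at a pole of `x₁`);
* `hsat` : saturation (`Saturation.sat_charts`, conclusion shape) for `R = finRing L x`,
  `R∞ = finRing L x⁻¹`;
* a bi-unit `z` with `div z = E2 - q·E1` whose reduction `(c₁, c₂)` has `div c_j = Z_j - q·P_j`.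

Outputs:
* `mem_gluedSpace_iff_charts` : `gluedSpace e₁ e₂ 1 (n·P₁) (n·P₂) = nodalFin(e) ∩ xⁿ·nodalInf(e')`;
* `gluedSpace_mul_iff` : twisting the glued space by a function which is a unit at the nodes;
* `reduction_eq_glued_nsmul` : `red (L(n·E1) ∩ O) = gluedSpace e₁ e₂ 1 (n·P₁) (n·P₂)`;
* `reduction_eq_glued` : the same for `L(n₁ E1 + n₂ E2)` and `(n₁ P_j + n₂ Z_j)`;
* **`hS2_of_sat`** : literally the hypothesis `hS2` of `NodalAsm.monodromy_of_nodal_fibre`.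
-/

set_option autoImplicit false
set_option linter.style.haveILetI false

noncomputable section

namespace Fermat.Agent.BAD.SatAsm

open AlgebraicCurve WithZero Fermat.Agent.Lib.FF Fermat.Agent.BAD.NodalRiemann
  Fermat.Agent.BAD.NodalCech Fermat.Agent.BAD.NodalPlaces

section OneField

variable {K F : Type*} [Field K] [Field F] [Algebra K F]

/-- `f ∈ L(B) ⟺ c f ∈ L(B - div c)`. -/
theorem mul_mem_L_iff {c : F} (hc : c ≠ 0) {B B' : Divisor K F}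
    (hB' : ∀ v : Place K F, B' v = B v - v.ord c) (f : F) :
    f ∈ riemannRochSpace B ↔ c * f ∈ riemannRochSpace B' := by
  rw [mem_riemannRochSpace_iff, mem_riemannRochSpace_iff]
  refine forall_congr' fun v => ?_
  rcases eq_or_ne f 0 with rfl | hf
  · simp
  · rw [or_iff_right hf, or_iff_right (mul_ne_zero hc hf), Place.ord_mul _ hc hf, hB' v]
    constructor <;> intro h <;> linarith

theorem ord_pow' (v : Place K F) (f : F) (n : ℕ) : v.ord (f ^ n) = (n : ℤ) * v.ord f := by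
  rw [← zpow_natCast, Place.ord_zpow]

variable {x : F}

theorem val_inv_le_one_iff (P : Place K F) (hx0 : x ≠ 0) :
    P.adicValuation x⁻¹ ≤ 1 ↔ 1 ≤ P.adicValuation x := by
  rw [map_inv₀, inv_le_one₀ (pos_iff_ne_zero.mpr ((Valuation.ne_zero_iff _).mpr hx0))]

/-- `L(n·(x)_∞)` = regular off the poles of `x`, and `x⁻ⁿ ·` regular off the zeros of `x`. -/
theorem mem_L_iff_finRing (h : IsFF1 K F x) (n : ℕ) (y : F) :
    y ∈ riemannRochSpace (n • h.poleDiv) ↔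
      y ∈ finRing K x ∧ x⁻¹ ^ n * y ∈ finRing K x⁻¹ := by
  have hx0 : x ≠ 0 := fun h0 => h.transcendental (h0 ▸ isAlgebraic_zero)
  rw [mem_L_nsmul_poleDiv_iff h n y, mem_finRing, mem_finRing]
  simp only [val_inv_le_one_iff _ hx0]

/-- If `xᵏ g` is regular off the poles of `x`, some `x⁻ᵏ' g` is regular off the zeros of `x`. -/
theorem exists_inv_pow_mul_mem_finRing (h : IsFF1 K F x) {g : F} {j : ℕ}
    (hg : x ^ j * g ∈ finRing K x) : ∃ j' : ℕ, x⁻¹ ^ j' * g ∈ finRing K x⁻¹ := by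
  have hx0 : x ≠ 0 := fun h0 => h.transcendental (h0 ▸ isAlgebraic_zero)
  haveI := h.hasPrincipalDivisors
  obtain ⟨m, hm⟩ := exists_pow_mul_val_lt_one (K := K) (inv_ne_zero hx0) g
  refine ⟨m, fun P hP => ?_⟩
  rw [val_inv_le_one_iff P hx0] at hP
  rcases eq_or_lt_of_le hP with hP1 | hP1
  · have h1 := hg P (le_of_eq hP1.symm)
    rw [map_mul, map_pow, ← hP1, one_pow, one_mul] at h1
    rw [map_mul, map_pow, map_inv₀, ← hP1, inv_one, one_pow, one_mul]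
    exact h1
  · refine (hm m le_rfl P ?_).le
    rw [map_inv₀]
    exact inv_lt_one_of_one_lt₀ hP1

end OneField

section TwoFields

variable {K : Type*} [Field K]
variable {F₁ F₂ : Type*} [Field F₁] [Field F₂] [Algebra K F₁] [Algebra K F₂]
variable {x₁ : F₁} {x₂ : F₂}
variable {ι ι' : Type*} {e₁ : ι → Place K F₁} {e₂ : ι → Place K F₂}
  {e₁' : ι' → Place K F₁} {e₂' : ι' → Place K F₂}

/-- Cusps are not glued: a function of the chart ring at infinity which is `1` on the first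
component and vanishes at the poles of `x₂` on the second one forbids nodes at infinity. -/
theorem val_le_one_of_separating (hx' : XCompat x₁ x₂ e₁' e₂') {u : F₁ × F₂}
    (hu : u ∈ nodalInf x₁ x₂ e₁' e₂') (hu1 : u.1 = 1)
    (hu2 : ∀ P : Place K F₂, 1 < P.adicValuation x₂ → P.adicValuation u.2 < 1)
    (hinf : ∀ i, 1 ≤ (e₁' i).adicValuation x₁) (i : ι') :
    (e₁' i).adicValuation x₁ ≤ 1 := by
  by_contra hcon
  rw [not_le] at hcon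
  have h2 := hu2 _ ((hx'.one_lt_val_iff i).mp hcon)
  obtain ⟨c, hc1, hc2⟩ := (mem_nodalInf.mp hu).2.2 i (hinf i)
  have hc0 : c = 0 := hc2.unique (cong_zero_iff.mpr h2)
  rw [hu1] at hc1
  have hc1' : c = 1 := hc1.unique (cong_one _)
  rw [hc0] at hc1'
  exact zero_ne_one hc1'

/-- **Sections of `O(n·(x)_∞)` from the two charts.**  If the two node families define the same
overlap ring, the first family is at finite distance and the second one in the overlap, then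
`gluedSpace e₁ e₂ 1 (n·P₁) (n·P₂) = nodalFin(e) ∩ xⁿ · nodalInf(e')`. -/
theorem mem_gluedSpace_iff_charts (h₁ : IsFF1 K F₁ x₁) (h₂ : IsFF1 K F₂ x₂)
    (hx : XCompat x₁ x₂ e₁ e₂) (hfin : ∀ i, (e₁ i).adicValuation x₁ ≤ 1)
    (hov : ∀ i, (e₁' i).adicValuation x₁ = 1)
    (hloc : ∀ f : F₁ × F₂, f ∈ nodalOverlap x₁ x₂ e₁ e₂ ↔ f ∈ nodalOverlap x₁ x₂ e₁' e₂')
    (n : ℕ) (p : F₁ × F₂) :
    p ∈ gluedSpace e₁ e₂ (fun _ => (1 : K)) (n • h₁.poleDiv) (n • h₂.poleDiv) ↔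
      p ∈ nodalFin x₁ x₂ e₁ e₂ ∧ (x₁⁻¹, x₂⁻¹) ^ n * p ∈ nodalInf x₁ x₂ e₁' e₂' := by
  rw [mem_gluedSpace_iff_nodal h₁ h₂ hx hfin n p]
  refine and_congr_right fun _ => ?_
  constructor
  · intro hq
    obtain ⟨hq1, hq2, -⟩ := mem_nodalInf.mp hq
    have hqO := mem_nodalOverlap.mp ((hloc _).mp (nodalInf_le_nodalOverlap x₁ x₂ e₁ e₂ hq))
    exact mem_nodalInf.mpr ⟨hq1, hq2, fun i _ => hqO.2.2 i (hov i)⟩
  · intro hq
    obtain ⟨hq1, hq2, -⟩ := mem_nodalInf.mp hq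
    have hqO := mem_nodalOverlap.mp ((hloc _).mpr (nodalInf_le_nodalOverlap x₁ x₂ e₁' e₂' hq))
    exact mem_nodalInf.mpr ⟨hq1, hq2, fun i hi => hqO.2.2 i (le_antisymm (hfin i) hi)⟩

/-- **Twisting the glued space** by a pair of functions which are units with the same value at
every node. -/
theorem gluedSpace_mul_iff {u₁ : F₁} {u₂ : F₂} (hu₁ : u₁ ≠ 0) (hu₂ : u₂ ≠ 0)
    {B₁ B₁' : Divisor K F₁} {B₂ B₂' : Divisor K F₂}
    (hB₁' : ∀ v : Place K F₁, B₁' v = B₁ v - v.ord u₁)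
    (hB₂' : ∀ v : Place K F₂, B₂' v = B₂ v - v.ord u₂)
    (hnode : ∀ i, ∃ t : K, t ≠ 0 ∧ Cong (e₁ i) u₁ t ∧ Cong (e₂ i) u₂ t) (p : F₁ × F₂) :
    p ∈ gluedSpace e₁ e₂ (fun _ => (1 : K)) B₁ B₂ ↔
      (u₁, u₂) * p ∈ gluedSpace e₁ e₂ (fun _ => (1 : K)) B₁' B₂' := by
  obtain ⟨a, b⟩ := p
  rw [mem_gluedSpace, mem_gluedSpace]
  show (a ∈ riemannRochSpace B₁ ∧ b ∈ riemannRochSpace B₂ ∧
      ∀ i, ∃ c : K, Cong (e₁ i) a c ∧ Cong (e₂ i) b (1 * c)) ↔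
    (u₁ * a ∈ riemannRochSpace B₁' ∧ u₂ * b ∈ riemannRochSpace B₂' ∧
      ∀ i, ∃ c : K, Cong (e₁ i) (u₁ * a) c ∧ Cong (e₂ i) (u₂ * b) (1 * c))
  rw [← mul_mem_L_iff hu₁ hB₁' a, ← mul_mem_L_iff hu₂ hB₂' b]
  refine and_congr_right fun _ => and_congr_right fun _ => forall_congr' fun i => ?_
  obtain ⟨t, ht, ht1, ht2⟩ := hnode i
  constructor
  · rintro ⟨c, hc1, hc2⟩
    rw [one_mul] at hc2
    refine ⟨t * c, ht1.mul hc1, ?_⟩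
    rw [one_mul]
    exact ht2.mul hc2
  · rintro ⟨c, hc1, hc2⟩
    rw [one_mul] at hc2
    refine ⟨t⁻¹ * c, ?_, ?_⟩
    · have h := (ht1.inv ht).mul hc1
      rwa [← mul_assoc, inv_mul_cancel₀ hu₁, one_mul] at h
    · rw [one_mul]
      have h := (ht2.inv ht).mul hc2
      rwa [← mul_assoc, inv_mul_cancel₀ hu₂, one_mul] at h

end TwoFields

section Assembly

variable {L F : Type*} [Field L] [Field F] [Algebra L F] {O : Subring F}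
variable {k F₁ F₂ : Type*} [Field k] [Field F₁] [Field F₂] [Algebra k F₁] [Algebra k F₂]
variable {x : F} {x₁ : F₁} {x₂ : F₂}
variable {ι ι' : Type*} {e₁ : ι → Place k F₁} {e₂ : ι → Place k F₂}
  {e₁' : ι' → Place k F₁} {e₂' : ι' → Place k F₂}

/-- The reduction of `x⁻¹`. -/
theorem red_inv (red : O →+* F₁ × F₂) {z : F} (hz0 : z ≠ 0) (hzO : z ∈ O) (hzO' : z⁻¹ ∈ O)
    {c₁ : F₁} {c₂ : F₂} (hredz : red ⟨z, hzO⟩ = (c₁, c₂)) :
    c₁ ≠ 0 ∧ c₂ ≠ 0 ∧ red ⟨z⁻¹, hzO'⟩ = (c₁⁻¹, c₂⁻¹) := by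
  have h1 : (⟨z, hzO⟩ : O) * ⟨z⁻¹, hzO'⟩ = 1 := Subtype.ext (mul_inv_cancel₀ hz0)
  have h2 := congrArg red h1
  rw [map_mul, map_one, hredz] at h2
  have h3 : c₁ * (red ⟨z⁻¹, hzO'⟩).1 = 1 := congrArg Prod.fst h2
  have h4 : c₂ * (red ⟨z⁻¹, hzO'⟩).2 = 1 := congrArg Prod.snd h2
  have hc₁ : c₁ ≠ 0 := left_ne_zero_of_mul_eq_one h3
  have hc₂ : c₂ ≠ 0 := left_ne_zero_of_mul_eq_one h4
  refine ⟨hc₁, hc₂, Prod.ext ?_ ?_⟩
  · exact eq_inv_of_mul_eq_one_right h3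
  · exact eq_inv_of_mul_eq_one_right h4

/-- The two node families define the same overlap ring (both are the reductions of the elements
of `O` regular off the zeros and poles of `x`). -/
theorem overlap_agree (red : O →+* F₁ × F₂) (hF : IsFF1 L F x) (hxO : x ∈ O) (hxO' : x⁻¹ ∈ O)
    (h₁ : IsFF1 k F₁ x₁) (h₂ : IsFF1 k F₂ x₂) (hredx : red ⟨x, hxO⟩ = (x₁, x₂))
    (hx : XCompat x₁ x₂ e₁ e₂) (hx' : XCompat x₁ x₂ e₁' e₂')
    (hB₁ : ∀ t : F₁ × F₂, (∃ f : O, (f : F) ∈ finRing L x ∧ red f = t) ↔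
      t ∈ nodalFin x₁ x₂ e₁ e₂)
    (hB₂ : ∀ t : F₁ × F₂, (∃ f : O, (f : F) ∈ finRing L x⁻¹ ∧ red f = t) ↔
      t ∈ nodalInf x₁ x₂ e₁' e₂') (f : F₁ × F₂) :
    f ∈ nodalOverlap x₁ x₂ e₁ e₂ ↔ f ∈ nodalOverlap x₁ x₂ e₁' e₂' := by
  have hx0 : x ≠ 0 := fun h0 => hF.transcendental (h0 ▸ isAlgebraic_zero)
  have hx₁0 : x₁ ≠ 0 := fun h0 => h₁.transcendental (h0 ▸ isAlgebraic_zero)
  have hx₂0 : x₂ ≠ 0 := fun h0 => h₂.transcendental (h0 ▸ isAlgebraic_zero)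
  obtain ⟨-, -, hredxi⟩ := red_inv red hx0 hxO hxO' hredx
  rw [mem_nodalOverlap_iff_exists_pow_fin h₁ h₂ hx, mem_nodalOverlap_iff_exists_pow_inf h₁ h₂ hx']
  constructor
  · rintro ⟨j, hj⟩
    obtain ⟨r, hr, hrj⟩ := (hB₁ _).mpr hj
    -- `g = x⁻ʲ r` reduces to `f`
    have hgx : x ^ j * (x⁻¹ ^ j * (r : F)) ∈ finRing L x := by
      rw [← mul_assoc, ← mul_pow, mul_inv_cancel₀ hx0, one_pow, one_mul]
      exact hr
    obtain ⟨j', hj'⟩ := exists_inv_pow_mul_mem_finRing hF hgx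
    have hmem : ((⟨x⁻¹, hxO'⟩ ^ j' * (⟨x⁻¹, hxO'⟩ ^ j * r) : O) : F) ∈ finRing L x⁻¹ := by
      rw [Subring.coe_mul, Subring.coe_pow, Subring.coe_mul, Subring.coe_pow]
      exact hj'
    refine ⟨j', (hB₂ ((x₁⁻¹, x₂⁻¹) ^ j' * f)).mp ⟨_, hmem, ?_⟩⟩
    rw [map_mul, map_pow, map_mul, map_pow, hredxi, hrj]
    congr 1
    refine Prod.ext ?_ ?_
    · show x₁⁻¹ ^ j * (x₁ ^ j * f.1) = f.1
      rw [← mul_assoc, ← mul_pow, inv_mul_cancel₀ hx₁0, one_pow, one_mul]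
    · show x₂⁻¹ ^ j * (x₂ ^ j * f.2) = f.2
      rw [← mul_assoc, ← mul_pow, inv_mul_cancel₀ hx₂0, one_pow, one_mul]
  · rintro ⟨j, hj⟩
    obtain ⟨r, hr, hrj⟩ := (hB₂ _).mpr hj
    have hgx : x⁻¹ ^ j * (x ^ j * (r : F)) ∈ finRing L x⁻¹ := by
      rw [← mul_assoc, ← mul_pow, inv_mul_cancel₀ hx0, one_pow, one_mul]
      exact hr
    obtain ⟨j', hj'⟩ := exists_inv_pow_mul_mem_finRing hF.inv hgx
    rw [inv_inv] at hj'
    have hmem : ((⟨x, hxO⟩ ^ j' * (⟨x, hxO⟩ ^ j * r) : O) : F) ∈ finRing L x := by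
      rw [Subring.coe_mul, Subring.coe_pow, Subring.coe_mul, Subring.coe_pow]
      exact hj'
    refine ⟨j', (hB₁ ((x₁, x₂) ^ j' * f)).mp ⟨_, hmem, ?_⟩⟩
    rw [map_mul, map_pow, map_mul, map_pow, hredx, hrj]
    congr 1
    refine Prod.ext ?_ ?_
    · show x₁ ^ j * (x₁⁻¹ ^ j * f.1) = f.1
      rw [← mul_assoc, ← mul_pow, mul_inv_cancel₀ hx₁0, one_pow, one_mul]
    · show x₂ ^ j * (x₂⁻¹ ^ j * f.2) = f.2
      rw [← mul_assoc, ← mul_pow, mul_inv_cancel₀ hx₂0, one_pow, one_mul]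

/-- **hS2 for the multiples of `E1 = (x)_∞`**: the reduction of `L(n·E1) ∩ O` is the glued
Riemann–Roch space `gluedSpace e₁ e₂ 1 (n·P₁) (n·P₂)`. -/
theorem reduction_eq_glued_nsmul (red : O →+* F₁ × F₂) (hF : IsFF1 L F x) (hxO : x ∈ O)
    (hxO' : x⁻¹ ∈ O) (h₁ : IsFF1 k F₁ x₁) (h₂ : IsFF1 k F₂ x₂)
    (hredx : red ⟨x, hxO⟩ = (x₁, x₂))
    (hfin : ∀ i, (e₁ i).adicValuation x₁ ≤ 1) (hov : ∀ i, (e₁' i).adicValuation x₁ = 1)
    (hB₁ : ∀ t : F₁ × F₂, (∃ f : O, (f : F) ∈ finRing L x ∧ red f = t) ↔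
      t ∈ nodalFin x₁ x₂ e₁ e₂)
    (hB₂ : ∀ t : F₁ × F₂, (∃ f : O, (f : F) ∈ finRing L x⁻¹ ∧ red f = t) ↔
      t ∈ nodalInf x₁ x₂ e₁' e₂')
    (n : ℕ)
    (hsat : ∀ f₁ f₂ : O, (f₁ : F) ∈ finRing L x → (f₂ : F) ∈ finRing L x⁻¹ →
      red f₁ = red ⟨x, hxO⟩ ^ n * red f₂ →
      ∃ z z' : O, (z : F) ∈ finRing L x ∧ (z' : F) ∈ finRing L x⁻¹ ∧
        (z : F) = x ^ n * (z' : F) ∧ red z = red f₁)
    (t : F₁ × F₂) :
    (∃ y : O, (y : F) ∈ riemannRochSpace (n • hF.poleDiv) ∧ red y = t) ↔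
      t ∈ gluedSpace e₁ e₂ (fun _ => (1 : k)) (n • h₁.poleDiv) (n • h₂.poleDiv) := by
  have hx0 : x ≠ 0 := fun h0 => hF.transcendental (h0 ▸ isAlgebraic_zero)
  have hx₁0 : x₁ ≠ 0 := fun h0 => h₁.transcendental (h0 ▸ isAlgebraic_zero)
  have hx₂0 : x₂ ≠ 0 := fun h0 => h₂.transcendental (h0 ▸ isAlgebraic_zero)
  obtain ⟨-, -, hredxi⟩ := red_inv red hx0 hxO hxO' hredx
  -- the coordinate is compatible with both families
  have hxfin : (x₁, x₂) ∈ nodalFin x₁ x₂ e₁ e₂ :=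
    (hB₁ _).mp ⟨⟨x, hxO⟩, self_mem_finRing, hredx⟩
  have hx : XCompat x₁ x₂ e₁ e₂ := xCompat_of_mem_nodalFin hfin hxfin
  have hxinf : (x₁⁻¹, x₂⁻¹) ∈ nodalInf x₁ x₂ e₁' e₂' :=
    (hB₂ _).mp ⟨⟨x⁻¹, hxO'⟩, self_mem_finRing, hredxi⟩
  have hx' : XCompat x₁ x₂ e₁' e₂' :=
    xCompat_of_inv_mem_nodalInf hx₁0 hx₂0 (fun i => le_of_eq (hov i).symm) hxinf
  have hloc := overlap_agree red hF hxO hxO' h₁ h₂ hredx hx hx' hB₁ hB₂
  rw [mem_gluedSpace_iff_charts h₁ h₂ hx hfin hov hloc n t]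
  constructor
  · rintro ⟨y, hy, rfl⟩
    obtain ⟨hy1, hy2⟩ := (mem_L_iff_finRing hF n (y : F)).mp hy
    have hmem : ((⟨x⁻¹, hxO'⟩ ^ n * y : O) : F) ∈ finRing L x⁻¹ := by
      rw [Subring.coe_mul, Subring.coe_pow]
      exact hy2
    refine ⟨(hB₁ _).mp ⟨y, hy1, rfl⟩, (hB₂ ((x₁⁻¹, x₂⁻¹) ^ n * red y)).mp ⟨_, hmem, ?_⟩⟩
    rw [map_mul, map_pow, hredxi]
  · rintro ⟨ht1, ht2⟩
    obtain ⟨f₁, hf₁, rfl⟩ := (hB₁ _).mpr ht1
    obtain ⟨f₂, hf₂, hf₂t⟩ := (hB₂ _).mpr ht2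
    have h12 : red f₁ = red ⟨x, hxO⟩ ^ n * red f₂ := by
      rw [hf₂t, hredx]
      refine Prod.ext ?_ ?_
      · show (red f₁).1 = x₁ ^ n * (x₁⁻¹ ^ n * (red f₁).1)
        rw [← mul_assoc, ← mul_pow, mul_inv_cancel₀ hx₁0, one_pow, one_mul]
      · show (red f₁).2 = x₂ ^ n * (x₂⁻¹ ^ n * (red f₁).2)
        rw [← mul_assoc, ← mul_pow, mul_inv_cancel₀ hx₂0, one_pow, one_mul]
    obtain ⟨z, z', hz, hz', hzz', hzred⟩ := hsat f₁ f₂ hf₁ hf₂ h12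
    refine ⟨z, (mem_L_iff_finRing hF n (z : F)).mpr ⟨hz, ?_⟩, hzred⟩
    rw [hzz', ← mul_assoc, ← mul_pow, inv_mul_cancel₀ hx0, one_pow, one_mul]
    exact hz'

/-- **hS2 for `L(n₁ E1 + n₂ E2)`**, `E2 = (z)_0` for a bi-unit `z` with `div z = E2 - q·E1` whose
reduction `(c₁, c₂)` has divisors `Z_j - q·P_j`. -/
theorem reduction_eq_glued (red : O →+* F₁ × F₂) (hF : IsFF1 L F x) (hxO : x ∈ O)
    (hxO' : x⁻¹ ∈ O) (h₁ : IsFF1 k F₁ x₁) (h₂ : IsFF1 k F₂ x₂)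
    (hredx : red ⟨x, hxO⟩ = (x₁, x₂))
    (hfin : ∀ i, (e₁ i).adicValuation x₁ ≤ 1) (hov : ∀ i, (e₁' i).adicValuation x₁ = 1)
    (hB₁ : ∀ t : F₁ × F₂, (∃ f : O, (f : F) ∈ finRing L x ∧ red f = t) ↔
      t ∈ nodalFin x₁ x₂ e₁ e₂)
    (hB₂ : ∀ t : F₁ × F₂, (∃ f : O, (f : F) ∈ finRing L x⁻¹ ∧ red f = t) ↔
      t ∈ nodalInf x₁ x₂ e₁' e₂')
    (d : ℕ)
    (hsat : ∀ n : ℕ, d ≤ n → ∀ f₁ f₂ : O, (f₁ : F) ∈ finRing L x → (f₂ : F) ∈ finRing L x⁻¹ →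
      red f₁ = red ⟨x, hxO⟩ ^ n * red f₂ →
      ∃ z z' : O, (z : F) ∈ finRing L x ∧ (z' : F) ∈ finRing L x⁻¹ ∧
        (z : F) = x ^ n * (z' : F) ∧ red z = red f₁)
    {z : F} (hz0 : z ≠ 0) (hzO : z ∈ O) (hzO' : z⁻¹ ∈ O) (q : ℕ) (E2 : Divisor L F)
    (hE2 : ∀ v, 0 ≤ E2 v)
    (hdivz : ∀ v : Place L F, v.ord z = E2 v - q * hF.poleDiv v)
    {c₁ : F₁} {c₂ : F₂} (hredz : red ⟨z, hzO⟩ = (c₁, c₂))
    (Z₁ : Divisor k F₁) (Z₂ : Divisor k F₂)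
    (hdivc₁ : ∀ v : Place k F₁, v.ord c₁ = Z₁ v - q * h₁.poleDiv v)
    (hdivc₂ : ∀ v : Place k F₂, v.ord c₂ = Z₂ v - q * h₂.poleDiv v)
    (hZ₁ : ∀ i, Z₁ (e₁ i) = 0)
    (n₁ n₂ : ℕ) (hn : d ≤ n₁ + q * n₂) (t : F₁ × F₂) :
    (∃ y : O, (y : F) ∈ riemannRochSpace (n₁ • hF.poleDiv + n₂ • E2) ∧ red y = t) ↔
      t ∈ gluedSpace e₁ e₂ (fun _ => (1 : k)) (n₁ • h₁.poleDiv + n₂ • Z₁)
        (n₁ • h₂.poleDiv + n₂ • Z₂) := by
  have hx0 : x ≠ 0 := fun h0 => hF.transcendental (h0 ▸ isAlgebraic_zero)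
  obtain ⟨hc₁, hc₂, hredzi⟩ := red_inv red hz0 hzO hzO' hredz
  -- `z` is regular off the poles of `x`, so `(c₁, c₂)` is glued
  have hzfin : z ∈ finRing L x := by
    intro P hP
    rw [Place.adicValuation_le_one_iff]
    right
    rw [hdivz P, poleDiv_eq_zero_of_val_le_one hF hP, mul_zero, sub_zero]
    exact hE2 P
  have hcfin : (c₁, c₂) ∈ nodalFin x₁ x₂ e₁ e₂ := (hB₁ _).mp ⟨⟨z, hzO⟩, hzfin, hredz⟩
  have hnode : ∀ i, ∃ s : k, s ≠ 0 ∧ Cong (e₁ i) (c₁ ^ n₂) s ∧ Cong (e₂ i) (c₂ ^ n₂) s := by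
    intro i
    obtain ⟨s, hs1, hs2⟩ := (mem_nodalFin.mp hcfin).2.2 i (hfin i)
    have hs : s ≠ 0 := by
      intro hs0
      have h1 := hs1.val_lt_one_iff.mpr hs0
      rw [Place.adicValuation_eq_exp_neg_ord _ hc₁, hdivc₁, hZ₁ i,
        poleDiv_eq_zero_of_val_le_one h₁ (hfin i), mul_zero, sub_zero, neg_zero, exp_zero] at h1
      exact lt_irrefl _ h1
    exact ⟨s ^ n₂, pow_ne_zero _ hs, hs1.pow n₂, hs2.pow n₂⟩
  -- twist on the generic fibre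
  have hgen : ∀ y : F, y ∈ riemannRochSpace (n₁ • hF.poleDiv + n₂ • E2) ↔
      z ^ n₂ * y ∈ riemannRochSpace ((n₁ + q * n₂) • hF.poleDiv) := by
    intro y
    refine mul_mem_L_iff (pow_ne_zero _ hz0) (fun v => ?_) y
    rw [ord_pow', hdivz v]
    simp only [Finsupp.add_apply, Finsupp.smul_apply, nsmul_eq_mul]
    push_cast
    ring
  -- twist on the special fibre
  have hspec := gluedSpace_mul_iff (e₁ := e₁) (e₂ := e₂) (pow_ne_zero n₂ hc₁) (pow_ne_zero n₂ hc₂)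
    (B₁ := n₁ • h₁.poleDiv + n₂ • Z₁) (B₁' := (n₁ + q * n₂) • h₁.poleDiv)
    (B₂ := n₁ • h₂.poleDiv + n₂ • Z₂) (B₂' := (n₁ + q * n₂) • h₂.poleDiv)
    (fun v => by
      rw [ord_pow', hdivc₁ v]
      simp only [Finsupp.add_apply, Finsupp.smul_apply, nsmul_eq_mul]
      push_cast
      ring)
    (fun v => by
      rw [ord_pow', hdivc₂ v]
      simp only [Finsupp.add_apply, Finsupp.smul_apply, nsmul_eq_mul]
      push_cast
      ring) hnode t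
  have hbase := reduction_eq_glued_nsmul red hF hxO hxO' h₁ h₂ hredx hfin hov hB₁ hB₂
    (n₁ + q * n₂) (hsat _ hn)
  rw [hspec, ← hbase]
  constructor
  · rintro ⟨y, hy, rfl⟩
    have hmem : ((⟨z, hzO⟩ ^ n₂ * y : O) : F)
        ∈ riemannRochSpace ((n₁ + q * n₂) • hF.poleDiv) := by
      rw [Subring.coe_mul, Subring.coe_pow]
      exact (hgen _).mp hy
    refine ⟨_, hmem, ?_⟩
    rw [map_mul, map_pow, hredz, Prod.pow_mk]
  · rintro ⟨y', hy', hy't⟩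
    have hmem : ((⟨z⁻¹, hzO'⟩ ^ n₂ * y' : O) : F)
        ∈ riemannRochSpace (n₁ • hF.poleDiv + n₂ • E2) := by
      rw [Subring.coe_mul, Subring.coe_pow, hgen]
      show z ^ n₂ * (z⁻¹ ^ n₂ * (y' : F)) ∈ _
      rw [← mul_assoc, ← mul_pow, mul_inv_cancel₀ hz0, one_pow, one_mul]
      exact hy'
    refine ⟨_, hmem, ?_⟩
    rw [map_mul, map_pow, hredzi, hy't]
    refine Prod.ext ?_ ?_
    · show c₁⁻¹ ^ n₂ * (c₁ ^ n₂ * t.1) = t.1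
      rw [← mul_assoc, ← mul_pow, inv_mul_cancel₀ hc₁, one_pow, one_mul]
    · show c₂⁻¹ ^ n₂ * (c₂ ^ n₂ * t.2) = t.2
      rw [← mul_assoc, ← mul_pow, inv_mul_cancel₀ hc₂, one_pow, one_mul]

/-- **The saturation hypothesis `hS2` of `NodalAsm.monodromy_of_nodal_fibre`**, with
`E1 = (x)_∞`, `P_j = (x_j)_∞`. -/
theorem hS2_of_sat {A : ValuationSubring L} (hOA : ∀ a : L, algebraMap L F a ∈ O ↔ a ∈ A)
    (red : O →+* F₁ × F₂) (π : A →+* k) (hπ : Function.Surjective π)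
    (hconst : ∀ a : A, red ⟨algebraMap L F (a : L), (hOA _).2 a.2⟩
      = algebraMap k (F₁ × F₂) (π a))
    (hF : IsFF1 L F x) (hxO : x ∈ O) (hxO' : x⁻¹ ∈ O) (h₁ : IsFF1 k F₁ x₁)
    (h₂ : IsFF1 k F₂ x₂) (hredx : red ⟨x, hxO⟩ = (x₁, x₂))
    (hfin : ∀ i, (e₁ i).adicValuation x₁ ≤ 1) (hov : ∀ i, (e₁' i).adicValuation x₁ = 1)
    (hB₁ : ∀ t : F₁ × F₂, (∃ f : O, (f : F) ∈ finRing L x ∧ red f = t) ↔
      t ∈ nodalFin x₁ x₂ e₁ e₂)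
    (hB₂ : ∀ t : F₁ × F₂, (∃ f : O, (f : F) ∈ finRing L x⁻¹ ∧ red f = t) ↔
      t ∈ nodalInf x₁ x₂ e₁' e₂')
    (d : ℕ)
    (hsat : ∀ n : ℕ, d ≤ n → ∀ f₁ f₂ : O, (f₁ : F) ∈ finRing L x → (f₂ : F) ∈ finRing L x⁻¹ →
      red f₁ = red ⟨x, hxO⟩ ^ n * red f₂ →
      ∃ z z' : O, (z : F) ∈ finRing L x ∧ (z' : F) ∈ finRing L x⁻¹ ∧
        (z : F) = x ^ n * (z' : F) ∧ red z = red f₁)
    {z : F} (hz0 : z ≠ 0) (hzO : z ∈ O) (hzO' : z⁻¹ ∈ O) (q : ℕ) (hq : 1 ≤ q)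
    (E2 : Divisor L F) (hE2 : ∀ v, 0 ≤ E2 v)
    (hdivz : ∀ v : Place L F, v.ord z = E2 v - q * hF.poleDiv v)
    {c₁ : F₁} {c₂ : F₂} (hredz : red ⟨z, hzO⟩ = (c₁, c₂))
    (Z₁ : Divisor k F₁) (Z₂ : Divisor k F₂)
    (hdivc₁ : ∀ v : Place k F₁, v.ord c₁ = Z₁ v - q * h₁.poleDiv v)
    (hdivc₂ : ∀ v : Place k F₂, v.ord c₂ = Z₂ v - q * h₂.poleDiv v)
    (hZ₁ : ∀ i, Z₁ (e₁ i) = 0) :
    ∃ N₀ : ℕ, ∀ n₁ n₂, N₀ ≤ n₁ + n₂ →
      Fermat.Agent.Lib.Red.CoordLat.redSub hOA red π hπ hconst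
          (Fermat.Agent.BAD.NodalDiv.VB 0 hF.poleDiv E2 n₁ n₂)
        = gluedSpace e₁ e₂ (fun _ => (1 : k)) (n₁ • h₁.poleDiv + n₂ • Z₁)
            (n₁ • h₂.poleDiv + n₂ • Z₂) := by
  refine ⟨d, fun n₁ n₂ hn => Submodule.ext fun t => ?_⟩
  rw [Fermat.Agent.Lib.Red.CoordLat.mem_redSub]
  unfold Fermat.Agent.BAD.NodalDiv.VB
  rw [zero_add]
  have hn' : d ≤ n₁ + q * n₂ := by nlinarith
  exact reduction_eq_glued red hF hxO hxO' h₁ h₂ hredx hfin hov hB₁ hB₂ d hsat hz0 hzO hzO' q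
    E2 hE2 hdivz hredz Z₁ Z₂ hdivc₁ hdivc₂ hZ₁ n₁ n₂ hn' t

end Assembly

end Fermat.Agent.BAD.SatAsm
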