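import Mathlib
import Fermat.Agent.BAD.SatAsm
import Fermat.Agent.Lib.Red.CoordOrtho

/-!
# BAD (S3): the number of nodes is `g + 1 - g₁ - g₂`

Abstract count (directive #2, item 5, second part).  `F/L` the generic fibre, `F₁`, `F₂` the two
components of the special fibre glued along `(e₁ i, e₂ i)`, `i : ι`.  If the reductions of the
lattices `L(n·E1) ∩ O` are the glued spaces `gluedSpace e₁ e₂ 1 (n·P₁) (n·P₂)` (`hS2`) and these
lattices have orthonormal bases (`hlat`, so that reduction preserves dimensions), then comparing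
Riemann's theorem on `F` and on the nodal curve for two large `n` gives

* `deg E1 = deg P₁ + deg P₂`, and
* `#ι = g(F) + 1 - g(F₁) - g(F₂)`  (`card_nodes`).

Hence `ι` is nonempty as soon as `g(F₁) + g(F₂) ≤ g(F)` (`nonempty_nodes`).
Also `injective_of_cong` : the places attached to distinct characters are distinct.
-/

set_option autoImplicit false
set_option linter.style.haveILetI false

noncomputable section

namespace Fermat.Agent.BAD.NodeCount

open AlgebraicCurve WithZero Fermat.Agent.Lib.FF Fermat.Agent.Lib.Red.Deform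
  Fermat.Agent.Lib.Red.CoordLat Fermat.Agent.BAD.NodalRiemann Fermat.Agent.BAD.NodalCech
  Fermat.Agent.BAD.NodalPlaces

section Count

variable {L F : Type*} [Field L] [Field F] [Algebra L F]
variable {A : ValuationSubring L} {O : Subring F}
variable {k F₁ F₂ : Type*} [Field k] [Field F₁] [Field F₂] [Algebra k F₁] [Algebra k F₂]
variable {x : F} {x₁ : F₁} {x₂ : F₂} {ι : Type*} [Fintype ι]

/-- **The count**: `deg E1 = deg P₁ + deg P₂` and `#ι = g + 1 - g₁ - g₂`. -/
theorem card_nodes (hOA : ∀ a : L, algebraMap L F a ∈ O ↔ a ∈ A)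
    (red : O →+* F₁ × F₂) (π : A →+* k) (hπ : Function.Surjective π)
    (hπker : ∀ a : A, π a = 0 ↔ A.valuation (a : L) < 1)
    (hconst : ∀ a : A, red ⟨algebraMap L F (a : L), (hOA _).2 a.2⟩
      = algebraMap k (F₁ × F₂) (π a))
    (hker : ∀ y : O, red y = 0 ↔ Small A O (y : F))
    (hF : IsFF1 L F x) (h₁ : IsFF1 k F₁ x₁) (h₂ : IsFF1 k F₂ x₂)
    (e₁ : ι → Place k F₁) (e₂ : ι → Place k F₂) (he₂ : Function.Injective e₂)
    (hfin₁ : ∀ i, (e₁ i).adicValuation x₁ ≤ 1) (hfin₂ : ∀ i, (e₂ i).adicValuation x₂ ≤ 1)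
    (hlat : ∀ n : ℕ, HasOrtho A O (riemannRochSpace (n • hF.poleDiv)))
    (hS2 : ∃ N₀ : ℕ, ∀ n : ℕ, N₀ ≤ n →
      redSub hOA red π hπ hconst (riemannRochSpace (n • hF.poleDiv))
        = gluedSpace e₁ e₂ (fun _ => (1 : k)) (n • h₁.poleDiv) (n • h₂.poleDiv)) :
    Divisor.degree hF.poleDiv = Divisor.degree h₁.poleDiv + Divisor.degree h₂.poleDiv ∧
      (Fintype.card ι : ℤ) = genusFF L F + 1 - genusFF k F₁ - genusFF k F₂ := by
  obtain ⟨N₀, hN₀⟩ := hS2
  obtain ⟨c, hc⟩ := hF.exists_degree_bound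
  obtain ⟨c', hc'⟩ := exists_finrank_gluedSpace h₁ h₂ e₁ e₂ he₂
  have hposF := hF.degree_poleDiv_pos
  have hpos₁ := h₁.degree_poleDiv_pos
  have hpos₂ := h₂.degree_poleDiv_pos
  set n₀ : ℕ := max N₀ (max c.toNat c'.toNat) with hn₀
  have key : ∀ n : ℕ, n₀ ≤ n →
      (n : ℤ) * Divisor.degree hF.poleDiv + 1 - genusFF L F
        = (n : ℤ) * Divisor.degree h₁.poleDiv + (n : ℤ) * Divisor.degree h₂.poleDiv + 2
          - genusFF k F₁ - genusFF k F₂ - Fintype.card ι := by
    intro n hn
    have hnN : N₀ ≤ n := (le_max_left _ _).trans hn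
    have hnc : c ≤ (n : ℤ) := by
      have h1 : c.toNat ≤ n := ((le_max_left _ _).trans (le_max_right _ _)).trans hn
      have h2 := Int.self_le_toNat c
      exact h2.trans (by exact_mod_cast h1)
    have hnc' : c' ≤ (n : ℤ) := by
      have h1 : c'.toNat ≤ n := ((le_max_right _ _).trans (le_max_right _ _)).trans hn
      have h2 := Int.self_le_toNat c'
      exact h2.trans (by exact_mod_cast h1)
    have hn0 : (0 : ℤ) ≤ n := Int.natCast_nonneg _
    have eF : Divisor.degree (n • hF.poleDiv) = n * Divisor.degree hF.poleDiv := by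
      rw [map_nsmul, nsmul_eq_mul]
    have e1 : Divisor.degree (n • h₁.poleDiv) = n * Divisor.degree h₁.poleDiv := by
      rw [map_nsmul, nsmul_eq_mul]
    have e2 : Divisor.degree (n • h₂.poleDiv) = n * Divisor.degree h₂.poleDiv := by
      rw [map_nsmul, nsmul_eq_mul]
    have hL := (hc (n • hF.poleDiv) (by rw [eF]; nlinarith)).2
    have hG := hc' (fun _ => (1 : k)) (n • h₁.poleDiv) (n • h₂.poleDiv)
      (by rw [e1]; nlinarith) (by rw [e2]; nlinarith)
      (fun i => (nsmul_poleDiv_eq_zero_of_val_le_one h₁ (hfin₁ i) n).le)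
      (fun i => nsmul_poleDiv_eq_zero_of_val_le_one h₂ (hfin₂ i) n)
    have hred := (hlat n).finrank_redSub hOA red π hπ hπker hconst hker
    rw [hN₀ n hnN] at hred
    have hred' : (Module.finrank k (gluedSpace e₁ e₂ (fun _ => (1 : k)) (n • h₁.poleDiv)
        (n • h₂.poleDiv)) : ℤ) = Module.finrank L (riemannRochSpace (n • hF.poleDiv)) := by
      exact_mod_cast hred
    rw [hG, hL, eF, e1, e2] at hred'
    linarith
  have k0 := key n₀ le_rfl
  have k1 := key (n₀ + 1) (Nat.le_succ _)
  push_cast at k1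
  have hdeg : Divisor.degree hF.poleDiv
      = Divisor.degree h₁.poleDiv + Divisor.degree h₂.poleDiv := by linarith
  refine ⟨hdeg, ?_⟩
  rw [hdeg] at k0
  linarith

omit [Fintype ι] in
/-- At least one node if `g₁ + g₂ ≤ g`. -/
theorem nonempty_nodes [Fintype ι] {g g₁ g₂ : ℕ}
    (hcard : (Fintype.card ι : ℤ) = g + 1 - g₁ - g₂) (hg : g₁ + g₂ ≤ g) : Nonempty ι := by
  have h1 : (0 : ℤ) < Fintype.card ι := by
    have : ((g₁ + g₂ : ℕ) : ℤ) ≤ g := by exact_mod_cast hg
    push_cast at this
    linarith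
  have h2 : 0 < Fintype.card ι := by exact_mod_cast h1
  exact Fintype.card_pos_iff.mp h2

end Count

section Inj

variable {K F : Type*} [Field K] [Field F] [Algebra K F]

/-- The places attached to distinct characters are distinct. -/
theorem injective_of_cong {R : Type*} [CommRing R] [Algebra K R] (ρ : R →ₐ[K] F) {ι : Type*}
    (s : ι → R →ₐ[K] K) (hs : Function.Injective s) (e : ι → Place K F)
    (he : ∀ i r, Cong (e i) (ρ r) (s i r)) : Function.Injective e := by
  intro i j hij
  apply hs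
  refine AlgHom.ext fun r => ?_
  have h1 := he i r
  rw [hij] at h1
  exact h1.unique (he j r)

end Inj

end Fermat.Agent.BAD.NodeCount
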