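import Mathlib
import Fermat.Agent.BAD.NodeCount
import Fermat.Agent.Lib.FF.RRNonSpecial

/-!
# BAD / S33 (RC-2, lattice half): base points on a nodal special fibre

Abstract setting of `BAD/NodeCount.lean`: generic fibre `F/L` with the semi-local ring `O` and
`red : O → F₁ × F₂`, the two components `F₁`, `F₂` of the special fibre glued along
`(e₁ i, e₂ i)`, and the count `#ι = g + 1 - g₁ - g₂`.

`exists_reduction_sub_points` : if the reduction of `L(D) ∩ O` is the glued space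
`gluedSpace e₁ e₂ 1 D₁ D₂`, and `T` is a finite set of places of `F` off `D` such that every place
`v` of `T₁` (on the first component) and of `T₂` (on the second) is the reduction of a place
`Q ∈ T` in the weak sense

  `y ∈ L(D) ∩ O`, `y(Q) = 0`  ⟹  `(red y)_j (v) = 0`,

then, in large degree, the reduction of `L(D - ∑_{Q ∈ T} Q) ∩ O` is
`gluedSpace e₁ e₂ 1 (D₁ - ∑_{v ∈ T₁} v) (D₂ - ∑_{v ∈ T₂} v)`.

Inclusion `⊆` by evaluation, equality by the rank count (orthonormal bases on the generic side,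
Riemann's theorem on the nodal curve on the special side).
-/

set_option autoImplicit false
set_option linter.style.haveILetI false

noncomputable section

namespace Fermat.Agent.BAD.BasePts

open AlgebraicCurve WithZero Fermat.Agent.Lib.FF Fermat.Agent.Lib.Red.Deform
  Fermat.Agent.Lib.Red.CoordLat Fermat.Agent.BAD.NodalRiemann

section OneField

variable {K F : Type*} [Field K] [Field F] [Algebra K F]

/-- `f(P) = 0` in valuation form. -/
theorem val_lt_one_iff_le (P : Place K F) (f : F) :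
    P.adicValuation f < 1 ↔ P.adicValuation f ≤ exp (-1 : ℤ) := by
  by_cases hf : f = 0
  · subst hf
    simp
  · rw [P.adicValuation_eq_exp_neg_ord hf, ← exp_zero, exp_lt_exp, exp_le_exp]
    omega

/-- `L(D - ∑_{Q ∈ T} Q) ⊆ L(D)`. -/
theorem mem_L_of_mem_L_sub_sumPl {D : Divisor K F} {T : Finset (Place K F)} {f : F}
    (hf : f ∈ riemannRochSpace (D - RR.sumPl T)) : f ∈ riemannRochSpace D := by
  intro v
  refine (hf v).trans (exp_le_exp.mpr ?_)
  have h := Finsupp.le_def.mp (RR.sumPl_nonneg T) v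
  rw [Finsupp.sub_apply]
  simp only [Finsupp.coe_zero, Pi.zero_apply] at h
  omega

/-- Elements of `L(D - ∑_{Q ∈ T} Q)` vanish at the points of `T` off `D`. -/
theorem val_lt_one_of_mem_L_sub_sumPl {D : Divisor K F} {T : Finset (Place K F)} {f : F}
    (hf : f ∈ riemannRochSpace (D - RR.sumPl T)) {Q : Place K F} (hQ : Q ∈ T) (hD : D Q = 0) :
    Q.adicValuation f < 1 := by
  rw [val_lt_one_iff_le]
  have h := hf Q
  rwa [Finsupp.sub_apply, RR.sumPl_apply_of_mem hQ, hD, zero_sub] at h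

/-- Membership in `L(D - ∑_{v ∈ T} v)` from membership in `L(D)` and vanishing on `T`. -/
theorem mem_L_sub_sumPl {D : Divisor K F} {T : Finset (Place K F)} {f : F}
    (hf : f ∈ riemannRochSpace D) (hD : ∀ v ∈ T, D v = 0)
    (hv : ∀ v ∈ T, v.adicValuation f < 1) : f ∈ riemannRochSpace (D - RR.sumPl T) := by
  intro v
  rw [Finsupp.sub_apply]
  by_cases hvT : v ∈ T
  · rw [RR.sumPl_apply_of_mem hvT, hD v hvT, zero_sub]
    exact (val_lt_one_iff_le v f).mp (hv v hvT)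
  · rw [RR.sumPl_apply_of_notMem hvT, sub_zero]
    exact hf v

end OneField

section Count

variable {L F : Type*} [Field L] [Field F] [Algebra L F]
variable {A : ValuationSubring L} {O : Subring F}
variable {k F₁ F₂ : Type*} [Field k] [Field F₁] [Field F₂] [Algebra k F₁] [Algebra k F₂]
variable {x : F} {x₁ : F₁} {x₂ : F₂} {ι : Type*} [Fintype ι]

omit [Fintype ι] in
/-- The glued spaces are finite-dimensional. -/
theorem finite_gluedSpace' (h₁ : IsFF1 k F₁ x₁) (h₂ : IsFF1 k F₂ x₂)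
    (e₁ : ι → Place k F₁) (e₂ : ι → Place k F₂) (μ : ι → k) (B₁ : Divisor k F₁)
    (B₂ : Divisor k F₂) (hB₁ : ∀ i, B₁ (e₁ i) ≤ 0) (hB₂ : ∀ i, B₂ (e₂ i) ≤ 0) :
    Module.Finite k (gluedSpace e₁ e₂ μ B₁ B₂) := by
  haveI := h₁.finite_L B₁
  haveI := h₂.finite_L B₂
  rw [gluedSpace_eq_map_ker e₁ e₂ (fun i => h₁.resK _) (fun i => h₂.resK _) μ B₁ B₂ hB₁ hB₂]
  infer_instance

/-- **Base points on the nodal fibre** (abstract form of S33 (RC-2), lattice half). -/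
theorem exists_reduction_sub_points (hOA : ∀ a : L, algebraMap L F a ∈ O ↔ a ∈ A)
    (red : O →+* F₁ × F₂) (π : A →+* k) (hπ : Function.Surjective π)
    (hπker : ∀ a : A, π a = 0 ↔ A.valuation (a : L) < 1)
    (hconst : ∀ a : A, red ⟨algebraMap L F (a : L), (hOA _).2 a.2⟩
      = algebraMap k (F₁ × F₂) (π a))
    (hker : ∀ y : O, red y = 0 ↔ Small A O (y : F))
    (hF : IsFF1 L F x) (h₁ : IsFF1 k F₁ x₁) (h₂ : IsFF1 k F₂ x₂)
    (e₁ : ι → Place k F₁) (e₂ : ι → Place k F₂) (he₂ : Function.Injective e₂)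
    (hcard : (Fintype.card ι : ℤ) = genusFF L F + 1 - genusFF k F₁ - genusFF k F₂) :
    ∃ c : ℤ, ∀ (D : Divisor L F) (D₁ : Divisor k F₁) (D₂ : Divisor k F₂)
      (T : Finset (Place L F)) (T₁ : Finset (Place k F₁)) (T₂ : Finset (Place k F₂)),
      Divisor.degree D = Divisor.degree D₁ + Divisor.degree D₂ →
      (∀ i, D₁ (e₁ i) ≤ 0) → (∀ i, D₂ (e₂ i) = 0) → (∀ i, e₂ i ∉ T₂) →
      (∀ t : F₁ × F₂, (∃ y : O, (y : F) ∈ riemannRochSpace D ∧ red y = t) ↔
        t ∈ gluedSpace e₁ e₂ (fun _ => (1 : k)) D₁ D₂) →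
      T.card ≤ T₁.card + T₂.card → (∀ Q ∈ T, D Q = 0) →
      (∀ v ∈ T₁, D₁ v = 0 ∧ ∃ Q ∈ T, ∀ y : O, (y : F) ∈ riemannRochSpace D →
        Q.adicValuation (y : F) < 1 → v.adicValuation (red y).1 < 1) →
      (∀ v ∈ T₂, D₂ v = 0 ∧ ∃ Q ∈ T, ∀ y : O, (y : F) ∈ riemannRochSpace D →
        Q.adicValuation (y : F) < 1 → v.adicValuation (red y).2 < 1) →
      HasOrtho A O (riemannRochSpace (D - RR.sumPl T)) →
      c ≤ Divisor.degree D₁ - T₁.card → c ≤ Divisor.degree D₂ - T₂.card →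
      ∀ t : F₁ × F₂, (∃ y : O, (y : F) ∈ riemannRochSpace (D - RR.sumPl T) ∧ red y = t) ↔
        t ∈ gluedSpace e₁ e₂ (fun _ => (1 : k)) (D₁ - RR.sumPl T₁) (D₂ - RR.sumPl T₂) := by
  classical
  obtain ⟨cF, hcF⟩ := hF.exists_degree_bound
  obtain ⟨c', hc'⟩ := exists_finrank_gluedSpace h₁ h₂ e₁ e₂ he₂
  refine ⟨max (max cF c') 0, ?_⟩
  intro D D₁ D₂ T T₁ T₂ hdeg hD₁ hD₂ hn₂ hS hTcard hDT hT₁ hT₂ hlat hb₁ hb₂
  have hc0 : (0 : ℤ) ≤ max (max cF c') 0 := le_max_right _ _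
  have hcF' : cF ≤ max (max cF c') 0 := (le_max_left _ _).trans (le_max_left _ _)
  have hcc' : c' ≤ max (max cF c') 0 := (le_max_right _ _).trans (le_max_left _ _)
  -- degrees
  have edT : Divisor.degree (D - RR.sumPl T) = Divisor.degree D - T.card := by
    rw [map_sub, RR.degree_sumPl hF.resK]
  have edT₁ : Divisor.degree (D₁ - RR.sumPl T₁) = Divisor.degree D₁ - T₁.card := by
    rw [map_sub, RR.degree_sumPl h₁.resK]
  have edT₂ : Divisor.degree (D₂ - RR.sumPl T₂) = Divisor.degree D₂ - T₂.card := by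
    rw [map_sub, RR.degree_sumPl h₂.resK]
  -- the node conditions for the smaller divisors
  have hB₁ : ∀ i, (D₁ - RR.sumPl T₁) (e₁ i) ≤ 0 := by
    intro i
    have h := Finsupp.le_def.mp (RR.sumPl_nonneg T₁) (e₁ i)
    simp only [Finsupp.coe_zero, Pi.zero_apply] at h
    have h' := hD₁ i
    rw [Finsupp.sub_apply]
    omega
  have hB₂ : ∀ i, (D₂ - RR.sumPl T₂) (e₂ i) = 0 := by
    intro i
    rw [Finsupp.sub_apply, RR.sumPl_apply_of_notMem (hn₂ i), hD₂ i, sub_zero]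
  -- inclusion
  have hle : redSub hOA red π hπ hconst (riemannRochSpace (D - RR.sumPl T))
      ≤ gluedSpace e₁ e₂ (fun _ => (1 : k)) (D₁ - RR.sumPl T₁) (D₂ - RR.sumPl T₂) := by
    rintro t ⟨y, hy, rfl⟩
    have hyD : (y : F) ∈ riemannRochSpace D := mem_L_of_mem_L_sub_sumPl hy
    obtain ⟨g1, g2, g3⟩ := (hS (red y)).mp ⟨y, hyD, rfl⟩
    refine ⟨mem_L_sub_sumPl g1 (fun v hv => (hT₁ v hv).1) (fun v hv => ?_),
      mem_L_sub_sumPl g2 (fun v hv => (hT₂ v hv).1) (fun v hv => ?_), g3⟩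
    · obtain ⟨-, Q, hQ, hQv⟩ := hT₁ v hv
      exact hQv y hyD (val_lt_one_of_mem_L_sub_sumPl hy hQ (hDT Q hQ))
    · obtain ⟨-, Q, hQ, hQv⟩ := hT₂ v hv
      exact hQv y hyD (val_lt_one_of_mem_L_sub_sumPl hy hQ (hDT Q hQ))
  -- ranks
  have hcardT : (T.card : ℤ) ≤ (T₁.card : ℤ) + T₂.card := by exact_mod_cast hTcard
  have hLF := (hcF (D - RR.sumPl T) (by rw [edT, hdeg]; linarith)).2
  have hG := hc' (fun _ => (1 : k)) (D₁ - RR.sumPl T₁) (D₂ - RR.sumPl T₂)
    (by rw [edT₁]; linarith) (by rw [edT₂]; linarith) hB₁ hB₂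
  have hred := hlat.finrank_redSub hOA red π hπ hπker hconst hker
  have hred' : (Module.finrank k (redSub hOA red π hπ hconst
      (riemannRochSpace (D - RR.sumPl T))) : ℤ)
      = Module.finrank L (riemannRochSpace (D - RR.sumPl T)) := by
    exact_mod_cast hred
  haveI := finite_gluedSpace' h₁ h₂ e₁ e₂ (fun _ => (1 : k)) (D₁ - RR.sumPl T₁)
    (D₂ - RR.sumPl T₂) hB₁ (fun i => (hB₂ i).le)
  have hfin : Module.finrank k (gluedSpace e₁ e₂ (fun _ => (1 : k)) (D₁ - RR.sumPl T₁)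
      (D₂ - RR.sumPl T₂))
      ≤ Module.finrank k (redSub hOA red π hπ hconst (riemannRochSpace (D - RR.sumPl T))) := by
    have : (Module.finrank k (gluedSpace e₁ e₂ (fun _ => (1 : k)) (D₁ - RR.sumPl T₁)
        (D₂ - RR.sumPl T₂)) : ℤ)
        ≤ Module.finrank k (redSub hOA red π hπ hconst
          (riemannRochSpace (D - RR.sumPl T))) := by
      rw [hred', hLF, hG, edT, edT₁, edT₂, hdeg]
      linarith
    exact_mod_cast this
  have heq := Submodule.eq_of_le_of_finrank_le hle hfin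
  intro t
  rw [← heq]
  exact Iff.rfl

/-- **The count from a nodal-fibre datum** (general divisors `E1`, `E2`, `P_j`, `Z_j`): comparing
Riemann's theorem on `F` and on the nodal curve for the spaces `L(n₁ E1 + n₂ E2)` gives
`deg E1 = deg P₁ + deg P₂`, `deg E2 = deg Z₁ + deg Z₂` and `#ι = g + 1 - g₁ - g₂`. -/
theorem count_of_datum (hOA : ∀ a : L, algebraMap L F a ∈ O ↔ a ∈ A)
    (red : O →+* F₁ × F₂) (π : A →+* k) (hπ : Function.Surjective π)
    (hπker : ∀ a : A, π a = 0 ↔ A.valuation (a : L) < 1)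
    (hconst : ∀ a : A, red ⟨algebraMap L F (a : L), (hOA _).2 a.2⟩
      = algebraMap k (F₁ × F₂) (π a))
    (hker : ∀ y : O, red y = 0 ↔ Small A O (y : F))
    (hF : IsFF1 L F x) (h₁ : IsFF1 k F₁ x₁) (h₂ : IsFF1 k F₂ x₂)
    (e₁ : ι → Place k F₁) (e₂ : ι → Place k F₂) (he₂ : Function.Injective e₂)
    (P₁ Z₁ : Divisor k F₁) (P₂ Z₂ : Divisor k F₂)
    (hP₁ : ∀ i, P₁ (e₁ i) = 0) (hZ₁ : ∀ i, Z₁ (e₁ i) = 0)
    (hP₂ : ∀ i, P₂ (e₂ i) = 0) (hZ₂ : ∀ i, Z₂ (e₂ i) = 0)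
    (hdegP₁ : 0 < Divisor.degree P₁) (hdegP₂ : 0 < Divisor.degree P₂)
    (E1 E2 : Divisor L F) (hdegE1 : 0 < Divisor.degree E1) (hdegE2 : 0 ≤ Divisor.degree E2)
    (hlat : ∀ B : Divisor L F, HasOrtho A O (riemannRochSpace B))
    (hS2 : ∃ N₀ : ℕ, ∀ n₁ n₂ : ℕ, N₀ ≤ n₁ + n₂ → ∀ t : F₁ × F₂,
      (∃ y : O, (y : F) ∈ riemannRochSpace (n₁ • E1 + n₂ • E2) ∧ red y = t) ↔
        t ∈ gluedSpace e₁ e₂ (fun _ => (1 : k)) (n₁ • P₁ + n₂ • Z₁) (n₁ • P₂ + n₂ • Z₂)) :
    Divisor.degree E1 = Divisor.degree P₁ + Divisor.degree P₂ ∧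
    Divisor.degree E2 = Divisor.degree Z₁ + Divisor.degree Z₂ ∧
    (Fintype.card ι : ℤ) = genusFF L F + 1 - genusFF k F₁ - genusFF k F₂ := by
  classical
  obtain ⟨N₀, hN₀⟩ := hS2
  obtain ⟨cF, hcF⟩ := hF.exists_degree_bound
  obtain ⟨c', hc'⟩ := exists_finrank_gluedSpace h₁ h₂ e₁ e₂ he₂
  have key : ∀ n₁ n₂ : ℕ, N₀ ≤ n₁ + n₂ →
      cF ≤ (n₁ : ℤ) * Divisor.degree E1 + (n₂ : ℤ) * Divisor.degree E2 →
      c' ≤ (n₁ : ℤ) * Divisor.degree P₁ + (n₂ : ℤ) * Divisor.degree Z₁ →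
      c' ≤ (n₁ : ℤ) * Divisor.degree P₂ + (n₂ : ℤ) * Divisor.degree Z₂ →
      (n₁ : ℤ) * Divisor.degree E1 + (n₂ : ℤ) * Divisor.degree E2 + 1 - genusFF L F
        = (n₁ : ℤ) * Divisor.degree P₁ + (n₂ : ℤ) * Divisor.degree Z₁
          + ((n₁ : ℤ) * Divisor.degree P₂ + (n₂ : ℤ) * Divisor.degree Z₂) + 2
          - genusFF k F₁ - genusFF k F₂ - Fintype.card ι := by
    intro n₁ n₂ hn hb hb₁ hb₂
    have eF : Divisor.degree (n₁ • E1 + n₂ • E2)
        = (n₁ : ℤ) * Divisor.degree E1 + (n₂ : ℤ) * Divisor.degree E2 := by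
      rw [map_add, map_nsmul, map_nsmul, nsmul_eq_mul, nsmul_eq_mul]
    have e1 : Divisor.degree (n₁ • P₁ + n₂ • Z₁)
        = (n₁ : ℤ) * Divisor.degree P₁ + (n₂ : ℤ) * Divisor.degree Z₁ := by
      rw [map_add, map_nsmul, map_nsmul, nsmul_eq_mul, nsmul_eq_mul]
    have e2 : Divisor.degree (n₁ • P₂ + n₂ • Z₂)
        = (n₁ : ℤ) * Divisor.degree P₂ + (n₂ : ℤ) * Divisor.degree Z₂ := by
      rw [map_add, map_nsmul, map_nsmul, nsmul_eq_mul, nsmul_eq_mul]
    have hL := (hcF (n₁ • E1 + n₂ • E2) (by rw [eF]; exact hb)).2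
    have hG := hc' (fun _ => (1 : k)) (n₁ • P₁ + n₂ • Z₁) (n₁ • P₂ + n₂ • Z₂)
      (by rw [e1]; exact hb₁) (by rw [e2]; exact hb₂)
      (fun i => by
        rw [Finsupp.add_apply, Finsupp.smul_apply, Finsupp.smul_apply, hP₁ i, hZ₁ i]
        simp)
      (fun i => by
        rw [Finsupp.add_apply, Finsupp.smul_apply, Finsupp.smul_apply, hP₂ i, hZ₂ i]
        simp)
    have hred := (hlat (n₁ • E1 + n₂ • E2)).finrank_redSub hOA red π hπ hπker hconst hker
    have hsub : redSub hOA red π hπ hconst (riemannRochSpace (n₁ • E1 + n₂ • E2))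
        = gluedSpace e₁ e₂ (fun _ => (1 : k)) (n₁ • P₁ + n₂ • Z₁) (n₁ • P₂ + n₂ • Z₂) :=
      Submodule.ext fun t => hN₀ n₁ n₂ hn t
    rw [hsub] at hred
    have hred' : (Module.finrank k (gluedSpace e₁ e₂ (fun _ => (1 : k)) (n₁ • P₁ + n₂ • Z₁)
        (n₁ • P₂ + n₂ • Z₂)) : ℤ)
        = Module.finrank L (riemannRochSpace (n₁ • E1 + n₂ • E2)) := by
      exact_mod_cast hred
    rw [hG, hL, eF, e1, e2] at hred'
    linarith
  -- a large `n`
  set n : ℕ := N₀ + cF.toNat + (c' - Divisor.degree Z₁).toNat + (c' - Divisor.degree Z₂).toNat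
    + c'.toNat with hn
  have hnN : N₀ ≤ n := by omega
  have hncF : cF ≤ (n : ℤ) := by
    have h2 := Int.self_le_toNat cF
    have h1 : (cF.toNat : ℤ) ≤ n := by exact_mod_cast (by omega : cF.toNat ≤ n)
    exact h2.trans h1
  have hnc' : c' ≤ (n : ℤ) := by
    have h2 := Int.self_le_toNat c'
    have h1 : (c'.toNat : ℤ) ≤ n := by exact_mod_cast (by omega : c'.toNat ≤ n)
    exact h2.trans h1
  have hnZ₁ : c' - Divisor.degree Z₁ ≤ (n : ℤ) := by
    have h2 := Int.self_le_toNat (c' - Divisor.degree Z₁)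
    have h1 : ((c' - Divisor.degree Z₁).toNat : ℤ) ≤ n := by
      exact_mod_cast (by omega : (c' - Divisor.degree Z₁).toNat ≤ n)
    exact h2.trans h1
  have hnZ₂ : c' - Divisor.degree Z₂ ≤ (n : ℤ) := by
    have h2 := Int.self_le_toNat (c' - Divisor.degree Z₂)
    have h1 : ((c' - Divisor.degree Z₂).toNat : ℤ) ≤ n := by
      exact_mod_cast (by omega : (c' - Divisor.degree Z₂).toNat ≤ n)
    exact h2.trans h1
  have hn0 : (0 : ℤ) ≤ n := Int.natCast_nonneg _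
  have k0 := key n 0 (by omega) (by push_cast; nlinarith) (by push_cast; nlinarith)
    (by push_cast; nlinarith)
  have k1 := key (n + 1) 0 (by omega) (by push_cast; nlinarith) (by push_cast; nlinarith)
    (by push_cast; nlinarith)
  have k2 := key n 1 (by omega) (by push_cast; nlinarith) (by push_cast; nlinarith)
    (by push_cast; nlinarith)
  push_cast at k0 k1 k2
  have hdeg1 : Divisor.degree E1 = Divisor.degree P₁ + Divisor.degree P₂ := by linarith
  have hdeg2 : Divisor.degree E2 = Divisor.degree Z₁ + Divisor.degree Z₂ := by linarith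
  refine ⟨hdeg1, hdeg2, ?_⟩
  rw [hdeg1] at k0
  linarith

end Count

end Fermat.Agent.BAD.BasePts
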