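import Mathlib
import Fermat.Agent.BAD.Nodal

/-!
# (P1) of the nodal argument for an arbitrary exponent `m ≠ 0`

In `Nodal.exists_common_of_nodal` the hypothesis "`m` is a unit of `A`" is used only in the
deformation step (P3).  The first step (P1) — the twisted reductions `u · red (L(D + B) ∩ O)` of
a divisor `D` with a Kummer generator `f2` (`m D = div f2`, `f2 ∈ O`, `red f2 = u ^ m`, `u` a
unit) form a `μ`-glued space with `μ ^ m = 1` — needs only `m ≠ 0`.  In particular, when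
`x ↦ x ^ m` is injective on `k` (residue characteristic `p`, `m = p ^ j`):

* `twisted_reduction_eq` : `u · red (L(D + B) ∩ O) = red (L(B) ∩ O)` for all large `B`, i.e.
  "the line bundle of `D` is trivial on the special fibre".

Notation as in `Nodal.lean`: `V0 n₁ n₂ = L(n₁ E₁ + n₂ E₂)`, `V2 n₁ n₂ = L(D + n₁ E₁ + n₂ E₂)`.
-/

set_option autoImplicit false

namespace Fermat.Agent.BAD.NodalP1

open Fermat.Agent.Lib.Red.Deform Fermat.Agent.Lib.Red.CoordLat Fermat.Agent.BAD.Nodal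

variable {L F : Type*} [Field L] [Field F] [Algebra L F]
  {A : ValuationSubring L} {O : Subring F}
  {k Ft : Type*} [Field k] [CommRing Ft] [Algebra k Ft]

/-- **(P1), pointwise**: for `s ∈ L(D + B) ∩ O`, `B` large, `u · red s` lies in `T B` and its
values at the two branches of every node have the same `m`-th power. -/
theorem mul_red_mem
    (hOA : ∀ x : L, algebraMap L F x ∈ O ↔ x ∈ A)
    (red : O →+* Ft) (π : A →+* k) (hπ : Function.Surjective π)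
    (hconst : ∀ a : A, red ⟨algebraMap L F (a : L), (hOA _).2 a.2⟩ = algebraMap k Ft (π a))
    (m : ℕ) (hm0 : m ≠ 0)
    {σ : Type*} (Rn : Subalgebra k Ft) (ev1 ev2 : σ → Rn →ₐ[k] k)
    (T : ℕ → ℕ → Submodule k Ft)
    (hTR : ∀ n₁ n₂, T n₁ n₂ ≤ Subalgebra.toSubmodule Rn)
    (hTroot : ∀ n₁ n₂ (t : Ft), t ^ m ∈ T (m * n₁) (m * n₂) → t ∈ T n₁ n₂)
    (n₀ : ℕ)
    (V0 V2 : ℕ → ℕ → Submodule L F)
    (hS2 : ∀ n₁ n₂, n₀ ≤ n₁ + n₂ →
      redSub hOA red π hπ hconst (V0 n₁ n₂) = Glued Rn ev1 ev2 1 (T n₁ n₂))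
    (f2 : O) (u : Ft) (hum : u ^ m = red f2)
    (hpow2 : ∀ n₁ n₂, ∀ s ∈ V2 n₁ n₂, s ^ m * (f2 : F) ∈ V0 (m * n₁) (m * n₂))
    (n₁ n₂ : ℕ) (hl : n₀ ≤ n₁ + n₂) (s : O) (hs : (s : F) ∈ V2 n₁ n₂) :
    u * red s ∈ T n₁ n₂ ∧
      ∀ e, evT Rn (ev1 e) (u * red s) ^ m = evT Rn (ev2 e) (u * red s) ^ m := by
  have hlargem : n₀ ≤ m * n₁ + m * n₂ := by
    rw [← Nat.mul_add]
    exact hl.trans (Nat.le_mul_of_pos_left _ (Nat.pos_of_ne_zero hm0))
  have hpowmem : (u * red s) ^ m ∈ Glued Rn ev1 ev2 1 (T (m * n₁) (m * n₂)) := by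
    have h1 : (u * red s) ^ m = red (s ^ m * f2) := by
      rw [mul_pow, hum, map_mul, map_pow, mul_comm]
    rw [h1, ← hS2 _ _ hlargem]
    exact ⟨s ^ m * f2, hpow2 n₁ n₂ _ hs, rfl⟩
  have hT : u * red s ∈ T n₁ n₂ := hTroot _ _ _ hpowmem.1
  refine ⟨hT, fun e => ?_⟩
  have hRn : u * red s ∈ Rn := hTR _ _ hT
  have := ((mem_glued_iff (hTR _ _)).1 hpowmem).2 e
  rw [Pi.one_apply, one_mul, evT_pow _ hRn, evT_pow _ hRn] at this
  exact this.symm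

/-- **(P1) when `m`-th powers are injective on `k`** (e.g. `m = p ^ j` in characteristic `p`):
the twisted reductions of `L(D + B) ∩ O` are exactly the reductions of `L(B) ∩ O`. -/
theorem twisted_reduction_eq
    (hOA : ∀ x : L, algebraMap L F x ∈ O ↔ x ∈ A)
    (red : O →+* Ft) (π : A →+* k) (hπ : Function.Surjective π)
    (hπker : ∀ a : A, π a = 0 ↔ A.valuation (a : L) < 1)
    (hconst : ∀ a : A, red ⟨algebraMap L F (a : L), (hOA _).2 a.2⟩ = algebraMap k Ft (π a))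
    (hker : ∀ y : O, red y = 0 ↔ Small A O (y : F))
    (m : ℕ) (hm0 : m ≠ 0) (hinj : ∀ c : k, c ^ m = 1 → c = 1)
    {σ : Type*} (Rn : Subalgebra k Ft) (ev1 ev2 : σ → Rn →ₐ[k] k)
    (T : ℕ → ℕ → Submodule k Ft) (hTfin : ∀ n₁ n₂, FiniteDimensional k (T n₁ n₂))
    (hTR : ∀ n₁ n₂, T n₁ n₂ ≤ Subalgebra.toSubmodule Rn)
    (hTroot : ∀ n₁ n₂ (t : Ft), t ^ m ∈ T (m * n₁) (m * n₂) → t ∈ T n₁ n₂)
    (n₀ : ℕ)
    (V0 V2 : ℕ → ℕ → Submodule L F)
    (hS2 : ∀ n₁ n₂, n₀ ≤ n₁ + n₂ →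
      redSub hOA red π hπ hconst (V0 n₁ n₂) = Glued Rn ev1 ev2 1 (T n₁ n₂))
    (f2 : O) (u u' : Ft) (huu' : u * u' = 1) (hum : u ^ m = red f2)
    (hpow2 : ∀ n₁ n₂, ∀ s ∈ V2 n₁ n₂, s ^ m * (f2 : F) ∈ V0 (m * n₁) (m * n₂))
    (n₁ n₂ : ℕ) (hl : n₀ ≤ n₁ + n₂)
    (hlat0 : HasOrtho A O (V0 n₁ n₂)) (hlat2 : HasOrtho A O (V2 n₁ n₂))
    (hRR2 : Module.finrank L (V2 n₁ n₂) = Module.finrank L (V0 n₁ n₂)) (t : Ft) :
    (∃ s : O, (s : F) ∈ V2 n₁ n₂ ∧ u * red s = t) ↔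
      t ∈ redSub hOA red π hπ hconst (V0 n₁ n₂) := by
  classical
  let mulU : Ft ≃ₗ[k] Ft := LinearEquiv.ofLinearMap (LinearMap.mulLeft k u) (LinearMap.mulLeft k u')
    (by ext t; simp [← mul_assoc, huu'])
    (by ext t; simp [← mul_assoc, mul_comm u' u, huu'])
  set U : Submodule k Ft :=
    (redSub hOA red π hπ hconst (V2 n₁ n₂)).map (mulU : Ft →ₗ[k] Ft) with hU
  have hUmem : ∀ t, t ∈ U ↔ ∃ s : O, (s : F) ∈ V2 n₁ n₂ ∧ u * red s = t := by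
    intro t
    constructor
    · rintro ⟨t', ⟨s, hs, rfl⟩, rfl⟩; exact ⟨s, hs, rfl⟩
    · rintro ⟨s, hs, rfl⟩; exact ⟨red s, ⟨s, hs, rfl⟩, rfl⟩
  have key := fun (s : O) (hs : (s : F) ∈ V2 n₁ n₂) =>
    mul_red_mem hOA red π hπ hconst m hm0 Rn ev1 ev2 T hTR hTroot n₀ V0 V2 hS2 f2 u hum hpow2
      n₁ n₂ hl s hs
  have hUT : U ≤ T n₁ n₂ := by
    intro t ht
    obtain ⟨s, hs, rfl⟩ := (hUmem _).1 ht
    exact (key s hs).1
  have hUR : U ≤ Subalgebra.toSubmodule Rn := hUT.trans (hTR _ _)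
  have hle : U ≤ Glued Rn ev1 ev2 1 (T n₁ n₂) := by
    intro t ht
    refine (mem_glued_iff (hTR _ _)).2 ⟨hUT ht, fun e => ?_⟩
    obtain ⟨μ, hμ1, hμ2⟩ := exists_mu (evL hUR (ev1 e)) (evL hUR (ev2 e)) m hm0 (fun w => by
      obtain ⟨s, hs, hw⟩ := (hUmem _).1 w.2
      have := (key s hs).2 e
      rw [hw] at this
      exact this)
    have := hμ2 ⟨t, ht⟩
    rw [hinj μ hμ1, one_mul] at this
    rw [Pi.one_apply, one_mul]
    exact this
  have heq : U = redSub hOA red π hπ hconst (V0 n₁ n₂) := by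
    rw [hS2 n₁ n₂ hl]
    have := hTfin n₁ n₂
    have : FiniteDimensional k (Glued Rn ev1 ev2 1 (T n₁ n₂)) :=
      Submodule.finiteDimensional_of_le (glued_le ev1 ev2 1 (T n₁ n₂))
    apply Submodule.eq_of_le_of_finrank_eq hle
    have e1 : Module.finrank k U = Module.finrank k (redSub hOA red π hπ hconst (V2 n₁ n₂)) :=
      LinearEquiv.finrank_map_eq mulU _
    have e2 : Module.finrank k (redSub hOA red π hπ hconst (V2 n₁ n₂)) =
        Module.finrank L (V2 n₁ n₂) := hlat2.finrank_redSub hOA red π hπ hπker hconst hker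
    have e4 : Module.finrank k (redSub hOA red π hπ hconst (V0 n₁ n₂)) =
        Module.finrank L (V0 n₁ n₂) := hlat0.finrank_redSub hOA red π hπ hπker hconst hker
    rw [hS2 n₁ n₂ hl] at e4
    rw [e1, e2, hRR2, e4]
  rw [← heq]
  exact (hUmem t).symm

end Fermat.Agent.BAD.NodalP1
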