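import Mathlib
import Fermat.Agent.BAD.NodalP1
import Fermat.Agent.BAD.NodalBridge
import Fermat.Agent.BAD.NodalDiv

/-!
# (P1) for an arbitrary exponent: two-component nodal fibre, Riemann–Roch spaces

`twisted_of_kummer` is `NodalP1.twisted_reduction_eq` for the Riemann–Roch spaces
`VB D E1 E2 n₁ n₂ = L(D + n₁ E1 + n₂ E2)` of a function field `F/L` whose special fibre consists of
two function fields `F₁`, `F₂` over `k` glued along the pairs of places `(e₁ i, e₂ i)`: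

if `m D = div f2` with `f2 ∈ O`, `red f2 = u ^ m`, `u` a unit, and `x ↦ x ^ m` is injective on `k`,
then `u · red (L(D + B) ∩ O) = red (L(B) ∩ O)` for all large `B = n₁ E1 + n₂ E2`.

`twisted_of_sections` is the converse-type statement used by consumers: if `-D` has sections with
reduction `w` (a unit) on the charts `(a, 0)` and `(0, a)`, then
`w⁻¹ · red (L(D + B) ∩ O) = red (L(B) ∩ O)` for all large `B`.
-/

set_option autoImplicit false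

namespace Fermat.Agent.BAD.NodalP1Asm

open AlgebraicCurve WithZero Fermat.Agent.Lib.FF Fermat.Agent.Lib.Red.Deform
  Fermat.Agent.Lib.Red.CoordLat Fermat.Agent.BAD.Nodal Fermat.Agent.BAD.NodalBridge
  Fermat.Agent.BAD.NodalDiv Fermat.Agent.BAD.NodalRiemann Fermat.Agent.BAD.NodalP1

variable {L F : Type*} [Field L] [Field F] [Algebra L F]
variable {A : ValuationSubring L} {O : Subring F}
variable {k F₁ F₂ : Type*} [Field k] [Field F₁] [Field F₂] [Algebra k F₁] [Algebra k F₂]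

/-- Riemann for the spaces `VB`: `l(D + n₁ E1 + n₂ E2) = l(n₁ E1 + n₂ E2)` for `deg D = 0` and
`n₁ + n₂` large. -/
theorem exists_finrank_VB_eq {x : F} (hF : IsFF1 L F x) (E1 E2 : Divisor L F)
    (hdegE1 : 0 < Divisor.degree E1) (hdegE2 : 0 < Divisor.degree E2) :
    ∃ N : ℕ, ∀ n₁ n₂, N ≤ n₁ + n₂ → ∀ D : Divisor L F, Divisor.degree D = 0 →
      Module.finrank L (VB D E1 E2 n₁ n₂) = Module.finrank L (VB 0 E1 E2 n₁ n₂) := by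
  obtain ⟨c, hc⟩ := exists_finrank_eq hF
  refine ⟨c.toNat, fun n₁ n₂ hl D hD => ?_⟩
  have hn₀c : c ≤ ((n₁ + n₂ : ℕ) : ℤ) := by
    have h2 : c ≤ (c.toNat : ℤ) := Int.self_le_toNat c
    exact h2.trans (by exact_mod_cast hl)
  have hdeg : c ≤ Divisor.degree (n₁ • E1 + n₂ • E2) := by
    rw [map_add, map_nsmul, map_nsmul, nsmul_eq_mul, nsmul_eq_mul]
    push_cast at hn₀c
    nlinarith [Int.natCast_nonneg n₁, Int.natCast_nonneg n₂]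
  have := hc D (n₁ • E1 + n₂ • E2) hD hdeg
  unfold VB
  rw [add_assoc, this, zero_add]

/-- **(P1) at an arbitrary exponent, two-component nodal fibre.** -/
theorem twisted_of_kummer
    (hOA : ∀ x : L, algebraMap L F x ∈ O ↔ x ∈ A)
    (red : O →+* F₁ × F₂) (π : A →+* k) (hπ : Function.Surjective π)
    (hπker : ∀ a : A, π a = 0 ↔ A.valuation (a : L) < 1)
    (hconst : ∀ a : A, red ⟨algebraMap L F (a : L), (hOA _).2 a.2⟩
      = algebraMap k (F₁ × F₂) (π a))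
    (hker : ∀ y : O, red y = 0 ↔ Small A O (y : F))
    (m : ℕ) (hm0 : m ≠ 0) (hinj : ∀ c : k, c ^ m = 1 → c = 1)
    {x : F} (hF : IsFF1 L F x) {x₁ : F₁} (h₁ : IsFF1 k F₁ x₁) {x₂ : F₂} (h₂ : IsFF1 k F₂ x₂)
    {ι : Type*} (e₁ : ι → Place k F₁) (e₂ : ι → Place k F₂)
    (P₁ Z₁ : Divisor k F₁) (P₂ Z₂ : Divisor k F₂)
    (hP₁ : ∀ i, P₁ (e₁ i) = 0) (hZ₁ : ∀ i, Z₁ (e₁ i) = 0)
    (hP₂ : ∀ i, P₂ (e₂ i) = 0) (hZ₂ : ∀ i, Z₂ (e₂ i) = 0)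
    (E1 E2 : Divisor L F)
    (hdegE1 : 0 < Divisor.degree E1) (hdegE2 : 0 < Divisor.degree E2)
    (hlat : ∀ B : Divisor L F, HasOrtho A O (riemannRochSpace B))
    (hS2 : ∃ N₀ : ℕ, ∀ n₁ n₂, N₀ ≤ n₁ + n₂ →
      redSub hOA red π hπ hconst (VB 0 E1 E2 n₁ n₂)
        = gluedSpace e₁ e₂ (fun _ => (1 : k)) (n₁ • P₁ + n₂ • Z₁) (n₁ • P₂ + n₂ • Z₂))
    (D : Divisor L F) (hD : Divisor.degree D = 0) (f2 : F) (hf2 : f2 ≠ 0)
    (hdiv : ∀ P : Place L F, (m : ℤ) * D P = P.ord f2)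
    (hf2O : f2 ∈ O) (u u' : F₁ × F₂) (huu' : u * u' = 1) (hum : u ^ m = red ⟨f2, hf2O⟩) :
    ∃ N : ℕ, ∀ n₁ n₂, N ≤ n₁ + n₂ → ∀ t : F₁ × F₂,
      (∃ s : O, (s : F) ∈ VB D E1 E2 n₁ n₂ ∧ u * red s = t) ↔
        t ∈ redSub hOA red π hπ hconst (VB 0 E1 E2 n₁ n₂) := by
  classical
  obtain ⟨N₀, hN₀⟩ := hS2
  obtain ⟨N₁, hN₁⟩ := exists_finrank_VB_eq hF E1 E2 hdegE1 hdegE2
  refine ⟨max N₀ N₁, fun n₁ n₂ hl t => ?_⟩
  have hlN : N₀ ≤ n₁ + n₂ := (le_max_left _ _).trans hl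
  have hlN₁ : N₁ ≤ n₁ + n₂ := (le_max_right _ _).trans hl
  have hle := Tn_le_regSub e₁ e₂ P₁ Z₁ P₂ Z₂ hP₁ hZ₁ hP₂ hZ₂
  exact twisted_reduction_eq hOA red π hπ hπker hconst hker m hm0 hinj
    (regSub e₁ e₂) (ev₁ e₁ e₂ (fun _ => h₁.resK _)) (ev₂ e₁ e₂ (fun _ => h₂.resK _))
    (Tn P₁ Z₁ P₂ Z₂) (finite_Tn h₁ h₂ P₁ Z₁ P₂ Z₂) hle
    (fun n₁ n₂ t ht => Tn_root P₁ Z₁ P₂ Z₂ hm0 n₁ n₂ t ht) N₀
    (VB 0 E1 E2) (VB D E1 E2)
    (fun n₁ n₂ hl => by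
      rw [hN₀ n₁ n₂ hl]
      exact (glued_eq_gluedSpace e₁ e₂ (fun _ => h₁.resK _) (fun _ => h₂.resK _) 1
        (n₁ • P₁ + n₂ • Z₁) (n₁ • P₂ + n₂ • Z₂)
        (fun i => by simp [Finsupp.add_apply, Finsupp.smul_apply, hP₁ i, hZ₁ i])
        (fun i => by simp [Finsupp.add_apply, Finsupp.smul_apply, hP₂ i, hZ₂ i])).symm)
    ⟨f2, hf2O⟩ u u' huu' hum (fun n₁ n₂ s hs => pow_mul_mem_VB hm0 hf2 hdiv hs)
    n₁ n₂ hlN (hlat _) (hlat _) (hN₁ n₁ n₂ hlN₁ D hD) t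

end Fermat.Agent.BAD.NodalP1Asm
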