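import Mathlib
import Fermat.Agent.BAD.BadU
import Fermat.Agent.BAD.NodalP1Asm

/-!
# The kernel of reduction of `J₀(Mq)` at `q` and inertia: `(σ - 1) J[m] ⊆ ker(red)`

Setting of `BadU`: `A` a valuation subring of `ℚ̄`, `π : A → k`, `h : BadSetup A π M q`,
`O = OPair h W = O_∞ ∩ O_0 ⊆ F = F_{Mq}`, `redPair h W : O → κ × κ`, `κ = F̄_M`.  No prime `p`
occurs: `q` is the residue characteristic, and `q`-power torsion is allowed.

* `NodalFibreFor h W E1 E2` : the body of `BadU.NodalFibreAt h W` for given `E1`, `E2`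
  (`nodalFibreAt_iff`);
* `HasSec h W E1 E2 D` : on every chart `X ∖ (n₁ E1 + n₂ E2)`, `n₁ + n₂` large, `O(D)` has a
  section in `O` whose reduction is a pair of nonzero constants;
* `kerRed h W : AddSubgroup (JZero (M * q))` : the classes having a representative `D` of degree
  zero such that `D` and `-D` have such sections for every nodal datum `(E1, E2)`
  ("the line bundle is trivial on the special fibre");
* `hasSec_smul_sub` / `smul_sub_mem_kerRed_of_pow_inj` / `smul_sub_mem_kerRed` : **(U1)** — for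
  `σ` in the inertia group and `x` with `m x = 0`, `x ↦ x ^ m` injective on `k` (e.g.
  `m = q ^ j`), `σ x - x ∈ kerRed h W`.
-/

set_option autoImplicit false

namespace Fermat.Agent.BAD.KerRed

open AlgebraicCurve ModularCurve Fermat.Agent.Lib.FF Fermat.Agent.Lib.Red.Deform
  Fermat.Agent.Lib.Red.CoordLat Fermat.Agent.BAD.NodalDiv Fermat.Agent.BAD.NodalRiemann
  Fermat.Agent.BAD.TwoVal Fermat.Agent.BAD.NodalAsm Fermat.Agent.BAD.BadU
  Fermat.Agent.BAD.NodalP1Asm

local notation "Qb" => AlgebraicClosure ℚ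

/-- In characteristic `q`, `c ^ (q ^ j) = 1` forces `c = 1`. -/
theorem eq_one_of_pow_char_pow {k : Type*} [Field k] (q : ℕ) (hq : q.Prime) [CharP k q] (j : ℕ)
    (c : k) (hc : c ^ q ^ j = 1) : c = 1 := by
  have : Fact q.Prime := ⟨hq⟩
  have h := sub_pow_char_pow (R := k) (p := q) (n := j) (x := c) (y := 1)
  rw [hc, one_pow, sub_self] at h
  exact sub_eq_zero.1 ((pow_eq_zero_iff (pow_ne_zero j hq.ne_zero)).1 h)

section defs

variable {A : ValuationSubring Qb} {k : Type} [Field k] {π : A →+* k} {M q : ℕ} [NeZero M]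
  [NeZero q]

/-- The body of `BadU.NodalFibreAt h W` for given divisors `E1`, `E2` on the generic fibre. -/
def NodalFibreFor (h : BadSetup A π M q)
    (W : laurentBaseChange Qb (modularFunctionFieldFull (M * q)) ≃ₐ[Qb]
      laurentBaseChange Qb (modularFunctionFieldFull (M * q)))
    (E1 E2 : Divisor Qb (laurentBaseChange Qb (modularFunctionFieldFull (M * q)))) : Prop :=
  ∃ (ι : Type) (_ : Fintype ι) (_ : Nonempty ι)
    (e₁ e₂ : ι → Place k (modularFunctionFieldFullC k M))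
    (P₁ Z₁ P₂ Z₂ : Divisor k (modularFunctionFieldFullC k M)),
    Function.Injective e₁ ∧ Function.Injective e₂ ∧
    (∀ i, P₁ (e₁ i) = 0) ∧ (∀ i, Z₁ (e₁ i) = 0) ∧ (∀ i, P₂ (e₂ i) = 0) ∧ (∀ i, Z₂ (e₂ i) = 0) ∧
    (∀ v, P₁ v = 0 ∨ Z₁ v = 0) ∧ (∀ v, P₂ v = 0 ∨ Z₂ v = 0) ∧
    0 < Divisor.degree P₁ ∧ 0 < Divisor.degree P₂ ∧
    (∀ v, 0 ≤ E1 v) ∧ (∀ v, 0 ≤ E2 v) ∧ (∀ v, E1 v = 0 ∨ E2 v = 0) ∧
    0 < Divisor.degree E1 ∧ 0 < Divisor.degree E2 ∧
    (∀ σ ∈ A.inertiaSubgroupIn ℚ,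
      arithmeticGalois (modularFunctionFieldFull (M * q)) σ • E1 = E1 ∧
      arithmeticGalois (modularFunctionFieldFull (M * q)) σ • E2 = E2) ∧
    ∃ N₀ : ℕ, ∀ n₁ n₂ : ℕ, N₀ ≤ n₁ + n₂ →
      ∀ t : ↥(modularFunctionFieldFullC k M) × ↥(modularFunctionFieldFullC k M),
        (∃ y : OPair h W,
            (y : laurentBaseChange Qb (modularFunctionFieldFull (M * q))) ∈
              riemannRochSpace (n₁ • E1 + n₂ • E2) ∧ redPair h W y = t) ↔
          t ∈ gluedSpace e₁ e₂ (fun _ => (1 : k))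
            (n₁ • P₁ + n₂ • Z₁) (n₁ • P₂ + n₂ • Z₂)

theorem nodalFibreAt_iff (h : BadSetup A π M q)
    (W : laurentBaseChange Qb (modularFunctionFieldFull (M * q)) ≃ₐ[Qb]
      laurentBaseChange Qb (modularFunctionFieldFull (M * q))) :
    NodalFibreAt h W ↔ ∃ E1 E2, NodalFibreFor h W E1 E2 := by
  constructor
  · rintro ⟨ι, i1, i2, e₁, e₂, P₁, Z₁, P₂, Z₂, E1, E2, hrest⟩
    exact ⟨E1, E2, ι, i1, i2, e₁, e₂, P₁, Z₁, P₂, Z₂, hrest⟩
  · rintro ⟨E1, E2, ι, i1, i2, e₁, e₂, P₁, Z₁, P₂, Z₂, hrest⟩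
    exact ⟨ι, i1, i2, e₁, e₂, P₁, Z₁, P₂, Z₂, E1, E2, hrest⟩

theorem NodalFibreFor.nonneg {h : BadSetup A π M q}
    {W : laurentBaseChange Qb (modularFunctionFieldFull (M * q)) ≃ₐ[Qb]
      laurentBaseChange Qb (modularFunctionFieldFull (M * q))}
    {E1 E2 : Divisor Qb (laurentBaseChange Qb (modularFunctionFieldFull (M * q)))}
    (hNF : NodalFibreFor h W E1 E2) : (∀ v, 0 ≤ E1 v) ∧ (∀ v, 0 ≤ E2 v) := by
  obtain ⟨ι, _, _, e₁, e₂, P₁, Z₁, P₂, Z₂, -, -, -, -, -, -, -, -, -, -, hE1, hE2, -⟩ := hNF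
  exact ⟨hE1, hE2⟩

/-- On every chart `X ∖ (n₁ E1 + n₂ E2)` (`n₁ + n₂` large) the divisor `D` has a section in
`O = O_∞ ∩ O_0` whose reduction is a pair of nonzero constants. -/
def HasSec (h : BadSetup A π M q)
    (W : laurentBaseChange Qb (modularFunctionFieldFull (M * q)) ≃ₐ[Qb]
      laurentBaseChange Qb (modularFunctionFieldFull (M * q)))
    (E1 E2 D : Divisor Qb (laurentBaseChange Qb (modularFunctionFieldFull (M * q)))) : Prop :=
  ∃ c₁ c₂ : k, c₁ ≠ 0 ∧ c₂ ≠ 0 ∧ ∃ N₀ : ℕ, ∀ n₁ n₂ : ℕ, N₀ ≤ n₁ + n₂ →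
    ∃ y : OPair h W,
      (y : laurentBaseChange Qb (modularFunctionFieldFull (M * q))) ∈
        riemannRochSpace (D + n₁ • E1 + n₂ • E2) ∧
      redPair h W y = (algebraMap k ↥(modularFunctionFieldFullC k M) c₁,
        algebraMap k ↥(modularFunctionFieldFullC k M) c₂)

variable {h : BadSetup A π M q}
  {W : laurentBaseChange Qb (modularFunctionFieldFull (M * q)) ≃ₐ[Qb]
    laurentBaseChange Qb (modularFunctionFieldFull (M * q))}
  {E1 E2 : Divisor Qb (laurentBaseChange Qb (modularFunctionFieldFull (M * q)))}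

theorem hasSec_zero (hE1 : ∀ v, 0 ≤ E1 v) (hE2 : ∀ v, 0 ≤ E2 v) : HasSec h W E1 E2 0 := by
  refine ⟨1, 1, one_ne_zero, one_ne_zero, 0, fun n₁ n₂ _ => ⟨1, ?_, ?_⟩⟩
  · have h1 := one_mem_VB (L := Qb) E1 E2
    exact VB_mono hE1 hE2 (Nat.zero_le n₁) (Nat.zero_le n₂) h1
  · rw [map_one, map_one]; rfl

theorem HasSec.add {D D' : Divisor Qb (laurentBaseChange Qb (modularFunctionFieldFull (M * q)))}
    (hD : HasSec h W E1 E2 D) (hD' : HasSec h W E1 E2 D') : HasSec h W E1 E2 (D + D') := by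
  obtain ⟨c₁, c₂, hc₁, hc₂, N, hN⟩ := hD
  obtain ⟨c₁', c₂', hc₁', hc₂', N', hN'⟩ := hD'
  refine ⟨c₁ * c₁', c₂ * c₂', mul_ne_zero hc₁ hc₁', mul_ne_zero hc₂ hc₂', 2 * (N + N') + 1,
    fun n₁ n₂ hl => ?_⟩
  obtain ⟨y, hy, hry⟩ := hN (n₁ / 2) (n₂ - n₂ / 2) (by omega)
  obtain ⟨y', hy', hry'⟩ := hN' (n₁ - n₁ / 2) (n₂ / 2) (by omega)
  refine ⟨y * y', ?_, ?_⟩
  · have h1 : ((y : laurentBaseChange Qb (modularFunctionFieldFull (M * q))) *
        (y' : laurentBaseChange Qb (modularFunctionFieldFull (M * q)))) ∈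
        VB (D + D') E1 E2 (n₁ / 2 + (n₁ - n₁ / 2)) (n₂ - n₂ / 2 + n₂ / 2) :=
      mul_mem_VB (D := D) (D' := D') hy hy'
    have e1 : n₁ / 2 + (n₁ - n₁ / 2) = n₁ := by omega
    have e2 : n₂ - n₂ / 2 + n₂ / 2 = n₂ := by omega
    rw [e1, e2] at h1
    exact h1
  · rw [map_mul, hry, hry', Prod.mk_mul_mk, map_mul, map_mul]

/-- **The kernel of reduction**: classes with a representative `D` such that `D` and `-D` have
sections with constant nonzero reductions on all charts, for every nodal datum. -/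
def kerRed (h : BadSetup A π M q)
    (W : laurentBaseChange Qb (modularFunctionFieldFull (M * q)) ≃ₐ[Qb]
      laurentBaseChange Qb (modularFunctionFieldFull (M * q))) : AddSubgroup (JZero (M * q)) where
  carrier := {x | ∃ D : Divisor.degZero (K := Qb)
      (F := laurentBaseChange Qb (modularFunctionFieldFull (M * q))),
    Pic0.mk D = x ∧ ∀ E1 E2, NodalFibreFor h W E1 E2 →
      HasSec h W E1 E2 (D : Divisor Qb (laurentBaseChange Qb (modularFunctionFieldFull (M * q)))) ∧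
      HasSec h W E1 E2
        (-(D : Divisor Qb (laurentBaseChange Qb (modularFunctionFieldFull (M * q)))))}
  zero_mem' := ⟨0, rfl, fun E1 E2 hNF => by
    obtain ⟨hE1, hE2⟩ := hNF.nonneg
    refine ⟨hasSec_zero hE1 hE2, ?_⟩
    have := hasSec_zero (h := h) (W := W) hE1 hE2
    simpa using this⟩
  add_mem' := by
    rintro _ _ ⟨D, rfl, hD⟩ ⟨D', rfl, hD'⟩
    refine ⟨D + D', rfl, fun E1 E2 hNF => ⟨(hD E1 E2 hNF).1.add (hD' E1 E2 hNF).1, ?_⟩⟩
    have := (hD E1 E2 hNF).2.add (hD' E1 E2 hNF).2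
    rw [← neg_add] at this
    exact this
  neg_mem' := by
    rintro _ ⟨D, rfl, hD⟩
    refine ⟨-D, rfl, fun E1 E2 hNF => ⟨(hD E1 E2 hNF).2, ?_⟩⟩
    have := (hD E1 E2 hNF).1
    show HasSec h W E1 E2 (- -(D : Divisor Qb
      (laurentBaseChange Qb (modularFunctionFieldFull (M * q)))))
    rw [neg_neg]
    exact this

theorem mem_kerRed {x : JZero (M * q)} :
    x ∈ kerRed h W ↔ ∃ D : Divisor.degZero (K := Qb)
      (F := laurentBaseChange Qb (modularFunctionFieldFull (M * q))),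
    Pic0.mk D = x ∧ ∀ E1 E2, NodalFibreFor h W E1 E2 →
      HasSec h W E1 E2 (D : Divisor Qb (laurentBaseChange Qb (modularFunctionFieldFull (M * q)))) ∧
      HasSec h W E1 E2
        (-(D : Divisor Qb (laurentBaseChange Qb (modularFunctionFieldFull (M * q))))) :=
  Iff.rfl

end defs

/-! ### (U1) -/

section u1

variable {A : ValuationSubring Qb} {k : Type} [Field k] {π : A →+* k} {M q : ℕ} [NeZero M]
  [NeZero q]

theorem smul_neg_divisor {L F : Type*} [Field L] [Field F] [Algebra L F] (g : SemilinearAut L F)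
    (D : Divisor L F) : g • (-D) = -(g • D) := by
  ext P
  rw [SemilinearAut.divisor_smul_apply, Finsupp.neg_apply, Finsupp.neg_apply,
    SemilinearAut.divisor_smul_apply]

set_option maxHeartbeats 1000000 in
/-- **(U1), divisor form**: for `σ` in the inertia group and a degree-zero divisor `D₀` with
`m D₀ = div f₀`, where `x ↦ x ^ m` is injective on `k`, the divisor `σ D₀ - D₀` has sections with
constant nonzero reductions on all charts of any nodal datum. -/
theorem hasSec_smul_sub [IsAlgClosed k] (hπ : Function.Surjective π) (h : BadSetup A π M q)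
    (W : laurentBaseChange Qb (modularFunctionFieldFull (M * q)) ≃ₐ[Qb]
      laurentBaseChange Qb (modularFunctionFieldFull (M * q))) (hW : IsAL M q W)
    (hA : A.LiesOverPrime q)
    {E1 E2 : Divisor Qb (laurentBaseChange Qb (modularFunctionFieldFull (M * q)))}
    (hNF : NodalFibreFor h W E1 E2)
    (m : ℕ) (hm0 : m ≠ 0) (hinj : ∀ c : k, c ^ m = 1 → c = 1)
    (σ : Qb ≃ₐ[ℚ] Qb) (hσ : σ ∈ A.inertiaSubgroupIn ℚ)
    (D₀ : Divisor Qb (laurentBaseChange Qb (modularFunctionFieldFull (M * q))))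
    (f₀ : laurentBaseChange Qb (modularFunctionFieldFull (M * q))) (hf₀ : f₀ ≠ 0)
    (hdiv₀ : ∀ P : Place Qb (laurentBaseChange Qb (modularFunctionFieldFull (M * q))),
      (m : ℤ) * D₀ P = P.ord f₀) :
    HasSec h W E1 E2 (arithmeticGalois (modularFunctionFieldFull (M * q)) σ • D₀ - D₀) := by
  obtain ⟨ι, _, _, e₁, e₂, P₁, Z₁, P₂, Z₂, hinj₁, hinj₂, hP₁, hZ₁, hP₂, hZ₂, hd₁, hd₂,
    hdegP₁, hdegP₂, hE1, hE2, hdisj, hdegE1, hdegE2, hgalE, N₀, hS2⟩ := hNF
  have hLat : LatAt h W := latAt hπ h W hW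
  have hgal : GaloisAt h W := galoisAt hπ h W hW hA
  have halg : Algebra.IsAlgebraic ℚ Qb := AlgebraicClosure.isAlgebraic ℚ
  set g : SemilinearAut Qb (laurentBaseChange Qb (modularFunctionFieldFull (M * q))) :=
    arithmeticGalois (modularFunctionFieldFull (M * q)) σ with hg
  have hbase : ∀ a : Qb, a ≠ 0 →
      a / SemilinearAut.baseAut g a ∈ A ∧ SemilinearAut.baseAut g a / a ∈ A := by
    intro a ha
    have := div_mem_of_map_mem A σ
      (Fermat.Agent.S05.Inertia.mem_and_sub_mem_nonunits A σ hσ).1 a ha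
    exact ⟨this.2, this.1⟩
  -- the Kummer generator has constant reductions
  obtain ⟨hF1, b1, hr1, hb1⟩ := exists_const_red A π (OInf h) (redInf h)
    (exists_scaling_OInf h) (inv_mem_OInf h) (fun a ha => (algebraMap_mem_OInf_iff h a).2 ha)
    (fun a ha => redInf_algebraMap h a ha) g (fun y hy => (hgal σ hσ y).1 hy) hbase f₀ hf₀
  obtain ⟨hF2, b2, hr2, hb2⟩ := exists_const_red A π (OZero h W) (redZero h W)
    (exists_scaling_OZero h) (inv_mem_OZero h) (fun a ha => (algebraMap_mem_OZero_iff h a).2 ha)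
    (fun a ha => redZero_algebraMap h a ha) g (fun y hy => (hgal σ hσ y).2 hy) hbase f₀ hf₀
  obtain ⟨d1, hd1⟩ := IsAlgClosed.exists_pow_nat_eq (π b1) (Nat.pos_of_ne_zero hm0)
  obtain ⟨d2, hd2⟩ := IsAlgClosed.exists_pow_nat_eq (π b2) (Nat.pos_of_ne_zero hm0)
  have hd1' : d1 ≠ 0 := by
    rintro rfl
    rw [zero_pow hm0] at hd1
    exact hb1 hd1.symm
  have hd2' : d2 ≠ 0 := by
    rintro rfl
    rw [zero_pow hm0] at hd2
    exact hb2 hd2.symm
  have hO : g • f₀ * f₀⁻¹ ∈ OPair h W := (mem_OPair_iff h _).2 ⟨hF1, hF2⟩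
  -- the divisor
  have hDdeg : Divisor.degree (g • D₀ - D₀) = 0 := by
    rw [map_sub, SemilinearAut.degree_smul, sub_self]
  have hgf₀ : g • f₀ ≠ 0 := by
    intro h0
    apply hf₀
    have := congrArg (fun z => g⁻¹ • z) h0
    simpa using this
  have hf2 : g • f₀ * f₀⁻¹ ≠ 0 := mul_ne_zero hgf₀ (inv_ne_zero hf₀)
  have hdiv : ∀ P : Place Qb (laurentBaseChange Qb (modularFunctionFieldFull (M * q))),
      (m : ℤ) * (g • D₀ - D₀) P = P.ord (g • f₀ * f₀⁻¹) := by
    intro P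
    have e1 : P.ord (g • f₀) = (g⁻¹ • P).ord f₀ := by
      have := SemilinearAut.ord_smul g (g⁻¹ • P) f₀
      rwa [smul_inv_smul] at this
    rw [P.ord_mul hgf₀ (inv_ne_zero hf₀), P.ord_inv, e1, ← hdiv₀, ← hdiv₀,
      Finsupp.sub_apply, SemilinearAut.divisor_smul_apply]
    ring
  have hconst : ∀ a : A, redPair h W ⟨algebraMap Qb
        ↥(laurentBaseChange Qb (modularFunctionFieldFull (M * q))) (a : Qb),
        (OPair_hOA h _).2 a.2⟩ = algebraMap k (↥(modularFunctionFieldFullC k M) ×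
        ↥(modularFunctionFieldFullC k M)) (π a) := fun a => (redPair_algebraMap h a _).trans rfl
  have huu' : ((algebraMap k ↥(modularFunctionFieldFullC k M) d1,
        algebraMap k ↥(modularFunctionFieldFullC k M) d2) :
        ↥(modularFunctionFieldFullC k M) × ↥(modularFunctionFieldFullC k M)) *
      (algebraMap k ↥(modularFunctionFieldFullC k M) d1⁻¹,
        algebraMap k ↥(modularFunctionFieldFullC k M) d2⁻¹) = 1 := by
    refine Prod.ext ?_ ?_
    · show algebraMap k ↥(modularFunctionFieldFullC k M) d1 *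
        algebraMap k ↥(modularFunctionFieldFullC k M) d1⁻¹ = 1
      rw [← map_mul, mul_inv_cancel₀ hd1', map_one]
    · show algebraMap k ↥(modularFunctionFieldFullC k M) d2 *
        algebraMap k ↥(modularFunctionFieldFullC k M) d2⁻¹ = 1
      rw [← map_mul, mul_inv_cancel₀ hd2', map_one]
  have hum : ((algebraMap k ↥(modularFunctionFieldFullC k M) d1,
        algebraMap k ↥(modularFunctionFieldFullC k M) d2) :
        ↥(modularFunctionFieldFullC k M) × ↥(modularFunctionFieldFullC k M)) ^ m =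
      redPair h W ⟨g • f₀ * f₀⁻¹, hO⟩ := by
    have e1 : algebraMap k ↥(modularFunctionFieldFullC k M) d1 ^ m =
        redInf h ⟨g • f₀ * f₀⁻¹, hF1⟩ :=
      (map_pow (algebraMap k ↥(modularFunctionFieldFullC k M)) d1 m).symm.trans
        ((congrArg (algebraMap k ↥(modularFunctionFieldFullC k M)) hd1).trans hr1.symm)
    have e2 : algebraMap k ↥(modularFunctionFieldFullC k M) d2 ^ m =
        redZero h W ⟨g • f₀ * f₀⁻¹, hF2⟩ :=
      (map_pow (algebraMap k ↥(modularFunctionFieldFullC k M)) d2 m).symm.trans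
        ((congrArg (algebraMap k ↥(modularFunctionFieldFullC k M)) hd2).trans hr2.symm)
    rw [redPair_mk]
    exact Prod.ext e1 e2
  obtain ⟨N, hN⟩ := twisted_of_kummer (A := A) (O := OPair h W) (fun x => OPair_hOA h x)
    (redPair h W) π hπ h.pi_eq_zero_iff hconst (redPair_eq_zero_iff h) m hm0 hinj
    (isFF1_xL Qb (M * q)) (isFF1_xk k M) (isFF1_xk k M) e₁ e₂ P₁ Z₁ P₂ Z₂
    hP₁ hZ₁ hP₂ hZ₂ E1 E2 hdegE1 hdegE2 hLat
    ⟨N₀, fun n₁ n₂ hl => Submodule.ext fun t => by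
      have e : VB 0 E1 E2 n₁ n₂ = riemannRochSpace (n₁ • E1 + n₂ • E2) := by
        unfold VB
        rw [zero_add]
      rw [e]
      exact hS2 n₁ n₂ hl t⟩
    (g • D₀ - D₀) hDdeg (g • f₀ * f₀⁻¹) hf2 hdiv hO _ _ huu' hum
  refine ⟨d1⁻¹, d2⁻¹, inv_ne_zero hd1', inv_ne_zero hd2', N, fun n₁ n₂ hl => ?_⟩
  have h1 : (1 : ↥(modularFunctionFieldFullC k M) × ↥(modularFunctionFieldFullC k M)) ∈
      redSub (fun x => OPair_hOA h x) (redPair h W) π hπ hconst (VB 0 E1 E2 n₁ n₂) :=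
    ⟨1, VB_mono hE1 hE2 (Nat.zero_le n₁) (Nat.zero_le n₂) (one_mem_VB (L := Qb) E1 E2),
      map_one _⟩
  obtain ⟨s, hs, hs1⟩ := (hN n₁ n₂ hl 1).2 h1
  refine ⟨s, hs, ?_⟩
  have huu2 : ((algebraMap k ↥(modularFunctionFieldFullC k M) d1⁻¹,
        algebraMap k ↥(modularFunctionFieldFullC k M) d2⁻¹) :
        ↥(modularFunctionFieldFullC k M) × ↥(modularFunctionFieldFullC k M)) *
      (algebraMap k ↥(modularFunctionFieldFullC k M) d1,
        algebraMap k ↥(modularFunctionFieldFullC k M) d2) = 1 := by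
    rw [mul_comm]; exact huu'
  have e3 := congrArg (fun z => ((algebraMap k ↥(modularFunctionFieldFullC k M) d1⁻¹,
        algebraMap k ↥(modularFunctionFieldFullC k M) d2⁻¹) :
        ↥(modularFunctionFieldFullC k M) × ↥(modularFunctionFieldFullC k M)) * z) hs1
  simp only [← mul_assoc] at e3
  rw [huu2, one_mul, mul_one] at e3
  exact e3

/-- **(U1)**: `(σ - 1) x ∈ ker(red)` for `σ` in the inertia group and `m x = 0`, when `x ↦ x ^ m`
is injective on `k`. -/
theorem smul_sub_mem_kerRed_of_pow_inj [IsAlgClosed k] (hπ : Function.Surjective π)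
    (h : BadSetup A π M q)
    (W : laurentBaseChange Qb (modularFunctionFieldFull (M * q)) ≃ₐ[Qb]
      laurentBaseChange Qb (modularFunctionFieldFull (M * q))) (hW : IsAL M q W)
    (hA : A.LiesOverPrime q)
    (m : ℕ) (hm0 : m ≠ 0) (hinj : ∀ c : k, c ^ m = 1 → c = 1)
    (σ : Qb ≃ₐ[ℚ] Qb) (hσ : σ ∈ A.inertiaSubgroupIn ℚ)
    (x : JZero (M * q)) (hx : m • x = 0) : σ • x - x ∈ kerRed h W := by
  obtain ⟨D₀, rfl⟩ := Pic0.mk_surjective x
  have hmD : ((m : ℤ) • D₀ : Divisor.degZero (K := Qb)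
      (F := laurentBaseChange Qb (modularFunctionFieldFull (M * q)))) ∈
      (Divisor.principal (K := Qb)
        (F := laurentBaseChange Qb (modularFunctionFieldFull (M * q)))).addSubgroupOf
        Divisor.degZero := by
    have h1 : (m : ℤ) • Pic0.mk D₀ = 0 := by rw [natCast_zsmul]; exact hx
    have : Pic0.mk ((m : ℤ) • D₀) = 0 := h1
    exact (QuotientAddGroup.eq_zero_iff _).1 this
  obtain ⟨f₀, hf₀, hdiv₀⟩ := hmD
  have hdiv₀' : ∀ P : Place Qb (laurentBaseChange Qb (modularFunctionFieldFull (M * q))),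
      (m : ℤ) * (D₀ : Divisor Qb (laurentBaseChange Qb (modularFunctionFieldFull (M * q)))) P
        = P.ord f₀ := by
    intro P
    have := hdiv₀ P
    simpa using this
  refine ⟨SemilinearAut.degZeroSMulHom (arithmeticGalois (modularFunctionFieldFull (M * q)) σ) D₀
    - D₀, rfl, fun E1 E2 hNF => ⟨?_, ?_⟩⟩
  · exact hasSec_smul_sub hπ h W hW hA hNF m hm0 hinj σ hσ _ f₀ hf₀ hdiv₀'
  · have := hasSec_smul_sub hπ h W hW hA hNF m hm0 hinj σ hσ
      (-(D₀ : Divisor Qb (laurentBaseChange Qb (modularFunctionFieldFull (M * q))))) f₀⁻¹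
      (inv_ne_zero hf₀) (fun P => by rw [Finsupp.neg_apply, P.ord_inv, ← hdiv₀']; ring)
    rw [smul_neg_divisor, neg_sub_neg, ← neg_sub] at this
    exact this

/-- **(U1) for `q`-power torsion**: `(σ - 1) J₀(Mq)[q^∞] ⊆ ker(red)` for `σ` in the inertia
group at `q`. -/
theorem smul_sub_mem_kerRed [IsAlgClosed k] (hπ : Function.Surjective π)
    (h : BadSetup A π M q)
    (W : laurentBaseChange Qb (modularFunctionFieldFull (M * q)) ≃ₐ[Qb]
      laurentBaseChange Qb (modularFunctionFieldFull (M * q))) (hW : IsAL M q W)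
    (hA : A.LiesOverPrime q)
    (σ : Qb ≃ₐ[ℚ] Qb) (hσ : σ ∈ A.inertiaSubgroupIn ℚ)
    (x : JZero (M * q)) (j : ℕ) (hx : q ^ j • x = 0) : σ • x - x ∈ kerRed h W := by
  have hq : q.Prime := h.hℓ
  have := h.charP
  exact smul_sub_mem_kerRed_of_pow_inj hπ h W hW hA (q ^ j) (pow_ne_zero j hq.ne_zero)
    (fun c hc => eq_one_of_pow_char_pow q hq j c hc) σ hσ x hx

end u1

end Fermat.Agent.BAD.KerRed
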