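import Mathlib
import Fermat.Agent.BAD.BasePts
import Fermat.Agent.BAD.KerRed

/-!
# BAD / S33 (RC-2, lattice half): base points on the nodal fibre of `X₀(Mq)` — modular instance

Setting of `BadU` / `KerRed`: `A` a valuation subring of `ℚ̄`, `π : A → k`, `h : BadSetup A π M q`,
`O = OPair h W ⊆ F = F_{Mq}`, `redPair h W : O → κ × κ`, a nodal datum
`(ι, e₁, e₂, P₁, Z₁, P₂, Z₂, E1, E2)` as in `KerRed.NodalFibreFor`.

* `RedTo₁ h W E1 E2 Q v` / `RedTo₂` : the place `Q` of the generic fibre reduces to the point `v`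
  of the first / second component, in the weak form
  `y ∈ L(n₁ E1 + n₂ E2) ∩ O`, `y(Q) = 0` ⟹ `(redPair y)_j (v) = 0`;
* `count_modular` : `deg E1 = deg P₁ + deg P₂`, `deg E2 = deg Z₁ + deg Z₂`,
  `#ι = g(F) + 1 - 2 g(κ)` from the datum;
* `exists_reduction_sub_points_modular` : for base points `T ↦ (T₁, T₂)`,
  `red (L(n₁ E1 + n₂ E2 - ∑_T Q) ∩ O) = gluedSpace e₁ e₂ 1 (n₁ P₁ + n₂ Z₁ - ∑_{T₁} v)
  (n₁ P₂ + n₂ Z₂ - ∑_{T₂} v)` in large degree.
-/

set_option autoImplicit false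

namespace Fermat.Agent.BAD.BasePts

open AlgebraicCurve ModularCurve Fermat.Agent.Lib.FF Fermat.Agent.Lib.Red.Deform
  Fermat.Agent.Lib.Red.CoordLat Fermat.Agent.BAD.NodalDiv Fermat.Agent.BAD.NodalRiemann
  Fermat.Agent.BAD.TwoVal Fermat.Agent.BAD.NodalAsm Fermat.Agent.BAD.BadU

local notation "Qb" => AlgebraicClosure ℚ

variable {A : ValuationSubring Qb} {k : Type} [Field k] {π : A →+* k} {M q : ℕ} [NeZero M]
  [NeZero q]

/-- The place `Q` of `F_{Mq}` reduces to the point `v` of the FIRST component of the special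
fibre: a function of `L(n₁ E1 + n₂ E2) ∩ O` vanishing at `Q` has first reduction vanishing
at `v`. -/
def RedTo₁ (h : BadSetup A π M q)
    (W : laurentBaseChange Qb (modularFunctionFieldFull (M * q)) ≃ₐ[Qb]
      laurentBaseChange Qb (modularFunctionFieldFull (M * q)))
    (E1 E2 : Divisor Qb (laurentBaseChange Qb (modularFunctionFieldFull (M * q))))
    (Q : Place Qb (laurentBaseChange Qb (modularFunctionFieldFull (M * q))))
    (v : Place k (modularFunctionFieldFullC k M)) : Prop :=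
  ∀ (n₁ n₂ : ℕ) (y : OPair h W),
    (y : laurentBaseChange Qb (modularFunctionFieldFull (M * q))) ∈
      riemannRochSpace (n₁ • E1 + n₂ • E2) →
    Q.adicValuation (y : laurentBaseChange Qb (modularFunctionFieldFull (M * q))) < 1 →
    v.adicValuation (redPair h W y).1 < 1

/-- The place `Q` of `F_{Mq}` reduces to the point `v` of the SECOND component. -/
def RedTo₂ (h : BadSetup A π M q)
    (W : laurentBaseChange Qb (modularFunctionFieldFull (M * q)) ≃ₐ[Qb]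
      laurentBaseChange Qb (modularFunctionFieldFull (M * q)))
    (E1 E2 : Divisor Qb (laurentBaseChange Qb (modularFunctionFieldFull (M * q))))
    (Q : Place Qb (laurentBaseChange Qb (modularFunctionFieldFull (M * q))))
    (v : Place k (modularFunctionFieldFullC k M)) : Prop :=
  ∀ (n₁ n₂ : ℕ) (y : OPair h W),
    (y : laurentBaseChange Qb (modularFunctionFieldFull (M * q))) ∈
      riemannRochSpace (n₁ • E1 + n₂ • E2) →
    Q.adicValuation (y : laurentBaseChange Qb (modularFunctionFieldFull (M * q))) < 1 →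
    v.adicValuation (redPair h W y).2 < 1

section

variable [IsAlgClosed k] (hπ : Function.Surjective π) (h : BadSetup A π M q)
  (W : laurentBaseChange Qb (modularFunctionFieldFull (M * q)) ≃ₐ[Qb]
    laurentBaseChange Qb (modularFunctionFieldFull (M * q))) (hW : IsAL M q W)
  (E1 E2 : Divisor Qb (laurentBaseChange Qb (modularFunctionFieldFull (M * q))))
  {ι : Type} [Fintype ι]
  (e₁ e₂ : ι → Place k (modularFunctionFieldFullC k M))
  (P₁ Z₁ P₂ Z₂ : Divisor k (modularFunctionFieldFullC k M))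
  (hinj₂ : Function.Injective e₂)
  (hP₁ : ∀ i, P₁ (e₁ i) = 0) (hZ₁ : ∀ i, Z₁ (e₁ i) = 0)
  (hP₂ : ∀ i, P₂ (e₂ i) = 0) (hZ₂ : ∀ i, Z₂ (e₂ i) = 0)
  (hdegP₁ : 0 < Divisor.degree P₁) (hdegP₂ : 0 < Divisor.degree P₂)
  (hdegE1 : 0 < Divisor.degree E1) (hdegE2 : 0 < Divisor.degree E2)
  (hS2 : ∃ N₀ : ℕ, ∀ n₁ n₂ : ℕ, N₀ ≤ n₁ + n₂ →
    ∀ t : ↥(modularFunctionFieldFullC k M) × ↥(modularFunctionFieldFullC k M),
      (∃ y : OPair h W,
          (y : laurentBaseChange Qb (modularFunctionFieldFull (M * q))) ∈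
            riemannRochSpace (n₁ • E1 + n₂ • E2) ∧ redPair h W y = t) ↔
        t ∈ gluedSpace e₁ e₂ (fun _ => (1 : k))
          (n₁ • P₁ + n₂ • Z₁) (n₁ • P₂ + n₂ • Z₂))

include hπ hW hinj₂ hP₁ hZ₁ hP₂ hZ₂ hdegP₁ hdegP₂ hdegE1 hdegE2 hS2

/-- **The count for the modular nodal datum**: degrees and the number of nodes. -/
theorem count_modular :
    Divisor.degree E1 = Divisor.degree P₁ + Divisor.degree P₂ ∧
    Divisor.degree E2 = Divisor.degree Z₁ + Divisor.degree Z₂ ∧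
    (Fintype.card ι : ℤ) = genusFF Qb ↥(laurentBaseChange Qb (modularFunctionFieldFull (M * q)))
      + 1 - genusFF k ↥(modularFunctionFieldFullC k M)
      - genusFF k ↥(modularFunctionFieldFullC k M) := by
  have hLat : LatAt h W := latAt hπ h W hW
  have hconst : ∀ a : A, redPair h W ⟨algebraMap Qb
        ↥(laurentBaseChange Qb (modularFunctionFieldFull (M * q))) (a : Qb),
        (OPair_hOA h _).2 a.2⟩ = algebraMap k (↥(modularFunctionFieldFullC k M) ×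
        ↥(modularFunctionFieldFullC k M)) (π a) := fun a => (redPair_algebraMap h a _).trans rfl
  exact count_of_datum (A := A) (O := OPair h W) (fun x => OPair_hOA h x) (redPair h W) π hπ
    h.pi_eq_zero_iff hconst (redPair_eq_zero_iff h) (isFF1_xL Qb (M * q)) (isFF1_xk k M)
    (isFF1_xk k M) e₁ e₂ hinj₂ P₁ Z₁ P₂ Z₂ hP₁ hZ₁ hP₂ hZ₂ hdegP₁ hdegP₂ E1 E2 hdegE1 hdegE2.le
    hLat hS2

/-- **S33 (RC-2), lattice half, modular form.**  For base points `T` on the generic fibre off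
`E1`, `E2` whose reductions (`RedTo₁`, `RedTo₂`) cover the finite sets `T₁`, `T₂` of points of
the two components (off `P_j`, `Z_j`, and off the nodes on the second component), in large
degree the reduction of `L(n₁ E1 + n₂ E2 - ∑_{Q ∈ T} Q) ∩ O` is the glued space with the
vanishing conditions at `T₁`, `T₂`. -/
theorem exists_reduction_sub_points_modular :
    ∃ (c : ℤ) (N₀ : ℕ), ∀ n₁ n₂ : ℕ, N₀ ≤ n₁ + n₂ →
      ∀ (T : Finset (Place Qb (laurentBaseChange Qb (modularFunctionFieldFull (M * q)))))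
        (T₁ T₂ : Finset (Place k (modularFunctionFieldFullC k M))),
      T.card ≤ T₁.card + T₂.card → (∀ Q ∈ T, E1 Q = 0 ∧ E2 Q = 0) → (∀ i, e₂ i ∉ T₂) →
      (∀ v ∈ T₁, P₁ v = 0 ∧ Z₁ v = 0 ∧ ∃ Q ∈ T, RedTo₁ h W E1 E2 Q v) →
      (∀ v ∈ T₂, P₂ v = 0 ∧ Z₂ v = 0 ∧ ∃ Q ∈ T, RedTo₂ h W E1 E2 Q v) →
      c ≤ Divisor.degree (n₁ • P₁ + n₂ • Z₁) - T₁.card →
      c ≤ Divisor.degree (n₁ • P₂ + n₂ • Z₂) - T₂.card →
      ∀ t : ↥(modularFunctionFieldFullC k M) × ↥(modularFunctionFieldFullC k M),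
        (∃ y : OPair h W,
            (y : laurentBaseChange Qb (modularFunctionFieldFull (M * q))) ∈
              riemannRochSpace (n₁ • E1 + n₂ • E2 - RR.sumPl T) ∧ redPair h W y = t) ↔
          t ∈ gluedSpace e₁ e₂ (fun _ => (1 : k))
            (n₁ • P₁ + n₂ • Z₁ - RR.sumPl T₁) (n₁ • P₂ + n₂ • Z₂ - RR.sumPl T₂) := by
  have hLat : LatAt h W := latAt hπ h W hW
  have hconst : ∀ a : A, redPair h W ⟨algebraMap Qb
        ↥(laurentBaseChange Qb (modularFunctionFieldFull (M * q))) (a : Qb),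
        (OPair_hOA h _).2 a.2⟩ = algebraMap k (↥(modularFunctionFieldFullC k M) ×
        ↥(modularFunctionFieldFullC k M)) (π a) := fun a => (redPair_algebraMap h a _).trans rfl
  obtain ⟨hd1, hd2, hcard⟩ := count_modular hπ h W hW E1 E2 e₁ e₂ P₁ Z₁ P₂ Z₂ hinj₂ hP₁ hZ₁
    hP₂ hZ₂ hdegP₁ hdegP₂ hdegE1 hdegE2 hS2
  obtain ⟨c, hc⟩ := exists_reduction_sub_points (A := A) (O := OPair h W)
    (fun x => OPair_hOA h x) (redPair h W) π hπ h.pi_eq_zero_iff hconst (redPair_eq_zero_iff h)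
    (isFF1_xL Qb (M * q)) (isFF1_xk k M) (isFF1_xk k M) e₁ e₂ hinj₂ hcard
  obtain ⟨N₀, hN₀⟩ := hS2
  refine ⟨c, N₀, fun n₁ n₂ hn T T₁ T₂ hT hTE hn₂ hT₁ hT₂ hb₁ hb₂ => ?_⟩
  refine hc (n₁ • E1 + n₂ • E2) (n₁ • P₁ + n₂ • Z₁) (n₁ • P₂ + n₂ • Z₂) T T₁ T₂ ?_ ?_ ?_ hn₂
    (hN₀ n₁ n₂ hn) hT ?_ ?_ ?_ (hLat _) hb₁ hb₂
  · simp only [map_add, map_nsmul, hd1, hd2]
    simp only [nsmul_eq_mul]
    ring
  · intro i
    rw [Finsupp.add_apply, Finsupp.smul_apply, Finsupp.smul_apply, hP₁ i, hZ₁ i]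
    simp
  · intro i
    rw [Finsupp.add_apply, Finsupp.smul_apply, Finsupp.smul_apply, hP₂ i, hZ₂ i]
    simp
  · intro Q hQ
    rw [Finsupp.add_apply, Finsupp.smul_apply, Finsupp.smul_apply, (hTE Q hQ).1, (hTE Q hQ).2]
    simp
  · intro v hv
    obtain ⟨h1, h2, Q, hQ, hQv⟩ := hT₁ v hv
    refine ⟨?_, Q, hQ, fun y hy hyQ => hQv n₁ n₂ y hy hyQ⟩
    rw [Finsupp.add_apply, Finsupp.smul_apply, Finsupp.smul_apply, h1, h2]
    simp
  · intro v hv
    obtain ⟨h1, h2, Q, hQ, hQv⟩ := hT₂ v hv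
    refine ⟨?_, Q, hQ, fun y hy hyQ => hQv n₁ n₂ y hy hyQ⟩
    rw [Finsupp.add_apply, Finsupp.smul_apply, Finsupp.smul_apply, h1, h2]
    simp

end

end Fermat.Agent.BAD.BasePts
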