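import Mathlib
import Fermat.Agent.BAD.BasePtsInst
import Fermat.Agent.Padic.S33.RC.NodalGenPos

/-!
# BAD / S33 (RC-2): the base divisor `B` on the nodal fibre of `X₀(Mq)` — assembly

Setting of `BAD/BasePtsInst.lean` (a nodal datum `(ι, e₁, e₂, P₁, Z₁, P₂, Z₂, E1, E2)` as in
`KerRed.NodalFibreFor`).  Input (as a hypothesis, `hlift₁`, `hlift₂`): every point of the two
components off the nodes, off `P_j`, `Z_j` and off a finite set `S_j` is the reduction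
(`RedTo₁` / `RedTo₂`) of an inertia-fixed place of `F_{Mq}` off `E1`, `E2`.

Output `exists_basePoints`: finite sets `T` (places of the generic fibre), `T₁`, `T₂` (points of
the two components) such that `B = ∑_{Q ∈ T} Q` is inertia-invariant of degree `g(F)`,
`B~ = (∑ T₁, ∑ T₂)` is a non-special divisor of degree `g` supported at smooth points off the
nodes (`gluedSpace (∑ T₁) (∑ T₂) = gluedSpace 0 0`), and in large degree

  `red (L(n₁ E1 + n₂ E2 - B) ∩ O) = gluedSpace e₁ e₂ 1 (n₁ P₁ + n₂ Z₁ - ∑ T₁) (n₁ P₂ + n₂ Z₂ - ∑ T₂)`.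

* `exists_card_eq` (abstract): the lattice statement forces `#T = #T₁ + #T₂`;
* `smul_sumPl` : `∑_{Q ∈ T} Q` is fixed by a semilinear automorphism fixing the points of `T`;
* `redTo₁_of_forall`, `redTo₂_of_forall` : `RedTo_j` from the per-point lattice inclusion
  `red (L(n₁ E1 + n₂ E2 - Q) ∩ O) ⊆ gluedSpace (… - Q~) …` on the large charts.
-/

set_option autoImplicit false
set_option linter.style.haveILetI false

noncomputable section

namespace Fermat.Agent.BAD.BasePts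

open AlgebraicCurve ModularCurve WithZero Fermat.Agent.Lib.FF Fermat.Agent.Lib.Red.Deform
  Fermat.Agent.Lib.Red.CoordLat Fermat.Agent.BAD.NodalDiv Fermat.Agent.BAD.NodalRiemann
  Fermat.Agent.BAD.TwoVal Fermat.Agent.BAD.NodalAsm Fermat.Agent.BAD.BadU

section Abstract

variable {L F : Type*} [Field L] [Field F] [Algebra L F]
variable {A : ValuationSubring L} {O : Subring F}
variable {k F₁ F₂ : Type*} [Field k] [Field F₁] [Field F₂] [Algebra k F₁] [Algebra k F₂]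
variable {x : F} {x₁ : F₁} {x₂ : F₂} {ι : Type*} [Fintype ι]

/-- A divisor `∑_{Q ∈ T} Q` is fixed by a semilinear automorphism fixing the points of `T`. -/
theorem smul_sumPl (g : SemilinearAut L F) (T : Finset (Place L F)) (hT : ∀ Q ∈ T, g • Q = Q) :
    g • RR.sumPl T = RR.sumPl T := by
  classical
  ext P
  rw [SemilinearAut.divisor_smul_apply]
  by_cases hP : P ∈ T
  · have h1 : g⁻¹ • P = P := by
      have := hT P hP
      rw [inv_smul_eq_iff, this]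
    rw [h1]
  · have h1 : g⁻¹ • P ∉ T := by
      intro h2
      have h3 := hT _ h2
      rw [smul_inv_smul] at h3
      exact hP (h3 ▸ h2)
    rw [RR.sumPl_apply_of_notMem h1, RR.sumPl_apply_of_notMem hP]

/-- **The lattice statement counts the base points**: if the reduction of `L(D - ∑_T Q) ∩ O` is
`gluedSpace (D₁ - ∑_{T₁} v) (D₂ - ∑_{T₂} v)` in large degree, then `#T = #T₁ + #T₂`. -/
theorem exists_card_eq (hOA : ∀ a : L, algebraMap L F a ∈ O ↔ a ∈ A)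
    (red : O →+* F₁ × F₂) (π : A →+* k) (hπ : Function.Surjective π)
    (hπker : ∀ a : A, π a = 0 ↔ A.valuation (a : L) < 1)
    (hconst : ∀ a : A, red ⟨algebraMap L F (a : L), (hOA _).2 a.2⟩
      = algebraMap k (F₁ × F₂) (π a))
    (hker : ∀ y : O, red y = 0 ↔ Small A O (y : F))
    (hF : IsFF1 L F x) (h₁ : IsFF1 k F₁ x₁) (h₂ : IsFF1 k F₂ x₂)
    (e₁ : ι → Place k F₁) (e₂ : ι → Place k F₂) (he₂ : Function.Injective e₂)
    (hcard : (Fintype.card ι : ℤ) = genusFF L F + 1 - genusFF k F₁ - genusFF k F₂) :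
    ∃ c : ℤ, ∀ (D : Divisor L F) (D₁ : Divisor k F₁) (D₂ : Divisor k F₂)
      (T : Finset (Place L F)) (T₁ : Finset (Place k F₁)) (T₂ : Finset (Place k F₂)),
      Divisor.degree D = Divisor.degree D₁ + Divisor.degree D₂ →
      (∀ i, D₁ (e₁ i) ≤ 0) → (∀ i, D₂ (e₂ i) = 0) → (∀ i, e₂ i ∉ T₂) →
      HasOrtho A O (riemannRochSpace (D - RR.sumPl T)) →
      c ≤ Divisor.degree D₁ - T₁.card → c ≤ Divisor.degree D₂ - T₂.card →
      c ≤ Divisor.degree D - T.card →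
      (∀ t : F₁ × F₂, (∃ y : O, (y : F) ∈ riemannRochSpace (D - RR.sumPl T) ∧ red y = t) ↔
        t ∈ gluedSpace e₁ e₂ (fun _ => (1 : k)) (D₁ - RR.sumPl T₁) (D₂ - RR.sumPl T₂)) →
      T.card = T₁.card + T₂.card := by
  classical
  obtain ⟨cF, hcF⟩ := hF.exists_degree_bound
  obtain ⟨c', hc'⟩ := exists_finrank_gluedSpace h₁ h₂ e₁ e₂ he₂
  refine ⟨max cF c', ?_⟩
  intro D D₁ D₂ T T₁ T₂ hdeg hD₁ hD₂ hn₂ hlat hb₁ hb₂ hb hS
  have hcF' : cF ≤ max cF c' := le_max_left _ _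
  have hcc' : c' ≤ max cF c' := le_max_right _ _
  have edT : Divisor.degree (D - RR.sumPl T) = Divisor.degree D - T.card := by
    rw [map_sub, RR.degree_sumPl hF.resK]
  have edT₁ : Divisor.degree (D₁ - RR.sumPl T₁) = Divisor.degree D₁ - T₁.card := by
    rw [map_sub, RR.degree_sumPl h₁.resK]
  have edT₂ : Divisor.degree (D₂ - RR.sumPl T₂) = Divisor.degree D₂ - T₂.card := by
    rw [map_sub, RR.degree_sumPl h₂.resK]
  have hB₁ : ∀ i, (D₁ - RR.sumPl T₁) (e₁ i) ≤ 0 := by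
    intro i
    have h := Finsupp.le_def.mp (RR.sumPl_nonneg T₁) (e₁ i)
    simp only [Finsupp.coe_zero, Pi.zero_apply] at h
    have h' := hD₁ i
    rw [Finsupp.sub_apply]
    omega
  have hB₂ : ∀ i, (D₂ - RR.sumPl T₂) (e₂ i) = 0 := by
    intro i
    rw [Finsupp.sub_apply, RR.sumPl_apply_of_notMem (hn₂ i), hD₂ i, sub_zero]
  have hLF := (hcF (D - RR.sumPl T) (by rw [edT]; linarith)).2
  have hG := hc' (fun _ => (1 : k)) (D₁ - RR.sumPl T₁) (D₂ - RR.sumPl T₂)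
    (by rw [edT₁]; linarith) (by rw [edT₂]; linarith) hB₁ hB₂
  have hred := hlat.finrank_redSub hOA red π hπ hπker hconst hker
  have hsub : redSub hOA red π hπ hconst (riemannRochSpace (D - RR.sumPl T))
      = gluedSpace e₁ e₂ (fun _ => (1 : k)) (D₁ - RR.sumPl T₁) (D₂ - RR.sumPl T₂) :=
    Submodule.ext fun t => hS t
  rw [hsub] at hred
  have hred' : (Module.finrank k (gluedSpace e₁ e₂ (fun _ => (1 : k)) (D₁ - RR.sumPl T₁)
      (D₂ - RR.sumPl T₂)) : ℤ)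
      = Module.finrank L (riemannRochSpace (D - RR.sumPl T)) := by
    exact_mod_cast hred
  rw [hG, hLF, edT, edT₁, edT₂, hdeg] at hred'
  have : (T.card : ℤ) = (T₁.card : ℤ) + T₂.card := by linarith
  exact_mod_cast this

end Abstract

section Modular

local notation "Qb" => AlgebraicClosure ℚ

variable {A : ValuationSubring Qb} {k : Type} [Field k] {π : A →+* k} {M q : ℕ} [NeZero M]
  [NeZero q]

variable {h : BadSetup A π M q}
  {W : laurentBaseChange Qb (modularFunctionFieldFull (M * q)) ≃ₐ[Qb]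
    laurentBaseChange Qb (modularFunctionFieldFull (M * q))}
  {E1 E2 : Divisor Qb (laurentBaseChange Qb (modularFunctionFieldFull (M * q)))}
  {ι : Type} {e₁ e₂ : ι → Place k (modularFunctionFieldFullC k M)}
  {P₁ Z₁ P₂ Z₂ : Divisor k (modularFunctionFieldFullC k M)}

/-- `RedTo₁` from the per-point lattice inclusion on the large charts. -/
theorem redTo₁_of_forall (hE1 : ∀ v, 0 ≤ E1 v)
    {Q : Place Qb (laurentBaseChange Qb (modularFunctionFieldFull (M * q)))}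
    {Qt : Place k (modularFunctionFieldFullC k M)}
    (hQ1 : E1 Q = 0) (hQ2 : E2 Q = 0) (hPt : P₁ Qt = 0) (hZt : Z₁ Qt = 0) (N₀ : ℕ)
    (hpt : ∀ n₁ n₂ : ℕ, N₀ ≤ n₁ + n₂ →
      ∀ y : OPair h W, (y : laurentBaseChange Qb (modularFunctionFieldFull (M * q))) ∈
          riemannRochSpace (n₁ • E1 + n₂ • E2 - Finsupp.single Q (1 : ℤ)) →
        redPair h W y ∈ gluedSpace e₁ e₂ (fun _ => (1 : k))
          (n₁ • P₁ + n₂ • Z₁ - Finsupp.single Qt (1 : ℤ)) (n₁ • P₂ + n₂ • Z₂)) :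
    RedTo₁ h W E1 E2 Q Qt := by
  intro n₁ n₂ y hy hyQ
  have hmem : (y : laurentBaseChange Qb (modularFunctionFieldFull (M * q))) ∈
      riemannRochSpace ((n₁ + N₀) • E1 + n₂ • E2 - Finsupp.single Q (1 : ℤ)) := by
    intro v
    by_cases hv : v = Q
    · subst hv
      rw [Finsupp.sub_apply, Finsupp.add_apply, Finsupp.smul_apply, Finsupp.smul_apply, hQ1, hQ2,
        Finsupp.single_eq_same]
      simp only [smul_zero, add_zero, zero_sub]
      exact (val_lt_one_iff_le v _).mp hyQ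
    · rw [Finsupp.sub_apply, Finsupp.single_eq_of_ne hv, sub_zero]
      refine (hy v).trans (exp_le_exp.mpr ?_)
      rw [Finsupp.add_apply, Finsupp.add_apply, Finsupp.smul_apply, Finsupp.smul_apply,
        Finsupp.smul_apply, add_smul]
      have := hE1 v
      have h2 : 0 ≤ N₀ • E1 v := nsmul_nonneg this N₀
      linarith
  obtain ⟨g1, -, -⟩ := hpt (n₁ + N₀) n₂ (by omega) y hmem
  have h3 := g1 Qt
  rw [Finsupp.sub_apply, Finsupp.add_apply, Finsupp.smul_apply, Finsupp.smul_apply, hPt, hZt,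
    Finsupp.single_eq_same] at h3
  simp only [smul_zero, add_zero, zero_sub] at h3
  exact (val_lt_one_iff_le Qt _).mpr h3

/-- `RedTo₂` from the per-point lattice inclusion on the large charts. -/
theorem redTo₂_of_forall (hE1 : ∀ v, 0 ≤ E1 v)
    {Q : Place Qb (laurentBaseChange Qb (modularFunctionFieldFull (M * q)))}
    {Qt : Place k (modularFunctionFieldFullC k M)}
    (hQ1 : E1 Q = 0) (hQ2 : E2 Q = 0) (hPt : P₂ Qt = 0) (hZt : Z₂ Qt = 0) (N₀ : ℕ)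
    (hpt : ∀ n₁ n₂ : ℕ, N₀ ≤ n₁ + n₂ →
      ∀ y : OPair h W, (y : laurentBaseChange Qb (modularFunctionFieldFull (M * q))) ∈
          riemannRochSpace (n₁ • E1 + n₂ • E2 - Finsupp.single Q (1 : ℤ)) →
        redPair h W y ∈ gluedSpace e₁ e₂ (fun _ => (1 : k))
          (n₁ • P₁ + n₂ • Z₁) (n₁ • P₂ + n₂ • Z₂ - Finsupp.single Qt (1 : ℤ))) :
    RedTo₂ h W E1 E2 Q Qt := by
  intro n₁ n₂ y hy hyQ
  have hmem : (y : laurentBaseChange Qb (modularFunctionFieldFull (M * q))) ∈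
      riemannRochSpace ((n₁ + N₀) • E1 + n₂ • E2 - Finsupp.single Q (1 : ℤ)) := by
    intro v
    by_cases hv : v = Q
    · subst hv
      rw [Finsupp.sub_apply, Finsupp.add_apply, Finsupp.smul_apply, Finsupp.smul_apply, hQ1, hQ2,
        Finsupp.single_eq_same]
      simp only [smul_zero, add_zero, zero_sub]
      exact (val_lt_one_iff_le v _).mp hyQ
    · rw [Finsupp.sub_apply, Finsupp.single_eq_of_ne hv, sub_zero]
      refine (hy v).trans (exp_le_exp.mpr ?_)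
      rw [Finsupp.add_apply, Finsupp.add_apply, Finsupp.smul_apply, Finsupp.smul_apply,
        Finsupp.smul_apply, add_smul]
      have := hE1 v
      have h2 : 0 ≤ N₀ • E1 v := nsmul_nonneg this N₀
      linarith
  obtain ⟨-, g2, -⟩ := hpt (n₁ + N₀) n₂ (by omega) y hmem
  have h3 := g2 Qt
  rw [Finsupp.sub_apply, Finsupp.add_apply, Finsupp.smul_apply, Finsupp.smul_apply, hPt, hZt,
    Finsupp.single_eq_same] at h3
  simp only [smul_zero, add_zero, zero_sub] at h3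
  exact (val_lt_one_iff_le Qt _).mpr h3

end Modular

section Assembly

local notation "Qb" => AlgebraicClosure ℚ

variable {A : ValuationSubring Qb} {k : Type} [Field k] {π : A →+* k} {M q : ℕ} [NeZero M]
  [NeZero q]

variable [IsAlgClosed k] (hπ : Function.Surjective π) (h : BadSetup A π M q)
  (W : laurentBaseChange Qb (modularFunctionFieldFull (M * q)) ≃ₐ[Qb]
    laurentBaseChange Qb (modularFunctionFieldFull (M * q))) (hW : IsAL M q W)
  (E1 E2 : Divisor Qb (laurentBaseChange Qb (modularFunctionFieldFull (M * q))))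
  {ι : Type} [Fintype ι] [Nonempty ι]
  (e₁ e₂ : ι → Place k (modularFunctionFieldFullC k M))
  (P₁ Z₁ P₂ Z₂ : Divisor k (modularFunctionFieldFullC k M))
  (hinj₂ : Function.Injective e₂)
  (hP₁ : ∀ i, P₁ (e₁ i) = 0) (hZ₁ : ∀ i, Z₁ (e₁ i) = 0)
  (hP₂ : ∀ i, P₂ (e₂ i) = 0) (hZ₂ : ∀ i, Z₂ (e₂ i) = 0)
  (hdegP₁ : 0 < Divisor.degree P₁) (hdegP₂ : 0 < Divisor.degree P₂)
  (hdegE1 : 0 < Divisor.degree E1) (hdegE2 : 0 < Divisor.degree E2)
  (hS2 : ∃ N₀ : ℕ, ∀ n₁ n₂ : ℕ, N₀ ≤ n₁ + n₂ →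
    ∀ t : ↥(modularFunctionFieldFullC k M) × ↥(modularFunctionFieldFullC k M),
      (∃ y : OPair h W,
          (y : laurentBaseChange Qb (modularFunctionFieldFull (M * q))) ∈
            riemannRochSpace (n₁ • E1 + n₂ • E2) ∧ redPair h W y = t) ↔
        t ∈ gluedSpace e₁ e₂ (fun _ => (1 : k))
          (n₁ • P₁ + n₂ • Z₁) (n₁ • P₂ + n₂ • Z₂))

include hπ hW hinj₂ hP₁ hZ₁ hP₂ hZ₂ hdegP₁ hdegP₂ hdegE1 hdegE2 hS2

set_option maxHeartbeats 1000000 in
/-- **S33 (RC-2): the base divisor.**  If every point of the two components of the special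
fibre off the nodes, off `P_j`, `Z_j` and off the finite sets `S_j` is the reduction of an
inertia-fixed place of `F_{Mq}` off `E1`, `E2` (`hlift₁`, `hlift₂`), there are finite sets `T`,
`T₁`, `T₂` such that `B = ∑_{Q ∈ T} Q` is inertia-invariant of degree `g(F)`, supported off `E1`,
`E2`; `(∑ T₁, ∑ T₂)` is a non-special divisor of degree `g` on the nodal curve supported at
smooth points off the nodes, `P_j`, `Z_j`, `S_j`; and in large degree the reduction of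
`L(n₁ E1 + n₂ E2 - B) ∩ O` is `gluedSpace e₁ e₂ 1 (n₁ P₁ + n₂ Z₁ - ∑ T₁) (n₁ P₂ + n₂ Z₂ - ∑ T₂)`. -/
theorem exists_basePoints
    (S₁ S₂ : Finset (Place k (modularFunctionFieldFullC k M)))
    (hlift₁ : ∀ Qt : Place k (modularFunctionFieldFullC k M), Qt ∉ S₁ → (∀ i, e₁ i ≠ Qt) →
      P₁ Qt = 0 → Z₁ Qt = 0 →
      ∃ Q : Place Qb (laurentBaseChange Qb (modularFunctionFieldFull (M * q))),
        (∀ σ ∈ A.inertiaSubgroupIn ℚ,
          arithmeticGalois (modularFunctionFieldFull (M * q)) σ • Q = Q) ∧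
        E1 Q = 0 ∧ E2 Q = 0 ∧ RedTo₁ h W E1 E2 Q Qt)
    (hlift₂ : ∀ Qt : Place k (modularFunctionFieldFullC k M), Qt ∉ S₂ → (∀ i, e₂ i ≠ Qt) →
      P₂ Qt = 0 → Z₂ Qt = 0 →
      ∃ Q : Place Qb (laurentBaseChange Qb (modularFunctionFieldFull (M * q))),
        (∀ σ ∈ A.inertiaSubgroupIn ℚ,
          arithmeticGalois (modularFunctionFieldFull (M * q)) σ • Q = Q) ∧
        E1 Q = 0 ∧ E2 Q = 0 ∧ RedTo₂ h W E1 E2 Q Qt) :
    ∃ (T : Finset (Place Qb (laurentBaseChange Qb (modularFunctionFieldFull (M * q)))))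
      (T₁ T₂ : Finset (Place k (modularFunctionFieldFullC k M))),
      (T.card : ℤ) = genusFF Qb ↥(laurentBaseChange Qb (modularFunctionFieldFull (M * q))) ∧
      T.card = T₁.card + T₂.card ∧
      (∀ σ ∈ A.inertiaSubgroupIn ℚ, ∀ Q ∈ T,
        arithmeticGalois (modularFunctionFieldFull (M * q)) σ • Q = Q) ∧
      (∀ σ ∈ A.inertiaSubgroupIn ℚ,
        arithmeticGalois (modularFunctionFieldFull (M * q)) σ • RR.sumPl T = RR.sumPl T) ∧
      (∀ Q ∈ T, E1 Q = 0 ∧ E2 Q = 0) ∧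
      Disjoint T₁ S₁ ∧ Disjoint T₂ S₂ ∧ (∀ i, e₁ i ∉ T₁) ∧ (∀ i, e₂ i ∉ T₂) ∧
      (∀ v ∈ T₁, P₁ v = 0 ∧ Z₁ v = 0) ∧ (∀ v ∈ T₂, P₂ v = 0 ∧ Z₂ v = 0) ∧
      gluedSpace e₁ e₂ (fun _ => (1 : k)) (RR.sumPl T₁) (RR.sumPl T₂)
        = gluedSpace e₁ e₂ (fun _ => (1 : k)) 0 0 ∧
      ∃ (c : ℤ) (N₀ : ℕ), ∀ n₁ n₂ : ℕ, N₀ ≤ n₁ + n₂ →
        c ≤ Divisor.degree (n₁ • P₁ + n₂ • Z₁) → c ≤ Divisor.degree (n₁ • P₂ + n₂ • Z₂) →
        ∀ t : ↥(modularFunctionFieldFullC k M) × ↥(modularFunctionFieldFullC k M),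
          (∃ y : OPair h W,
              (y : laurentBaseChange Qb (modularFunctionFieldFull (M * q))) ∈
                riemannRochSpace (n₁ • E1 + n₂ • E2 - RR.sumPl T) ∧ redPair h W y = t) ↔
            t ∈ gluedSpace e₁ e₂ (fun _ => (1 : k))
              (n₁ • P₁ + n₂ • Z₁ - RR.sumPl T₁) (n₁ • P₂ + n₂ • Z₂ - RR.sumPl T₂) := by
  classical
  have hLat : LatAt h W := latAt hπ h W hW
  have hconst : ∀ a : A, redPair h W ⟨algebraMap Qb
        ↥(laurentBaseChange Qb (modularFunctionFieldFull (M * q))) (a : Qb),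
        (OPair_hOA h _).2 a.2⟩ = algebraMap k (↥(modularFunctionFieldFullC k M) ×
        ↥(modularFunctionFieldFullC k M)) (π a) := fun a => (redPair_algebraMap h a _).trans rfl
  obtain ⟨hd1, hd2, hcard⟩ := count_modular hπ h W hW E1 E2 e₁ e₂ P₁ Z₁ P₂ Z₂ hinj₂ hP₁ hZ₁
    hP₂ hZ₂ hdegP₁ hdegP₂ hdegE1 hdegE2 hS2
  -- the non-special divisor on the nodal curve
  obtain ⟨T₁, T₂, hdis₁, hdis₂, hn₁, hn₂, hTcard, hns⟩ :=
    Fermat.Agent.Padic.S33.RC.NodalGenPos.exists_nonspecial_genus (isFF1_xk k M) (isFF1_xk k M)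
      e₁ e₂ hinj₂ (S₁ ∪ P₁.support ∪ Z₁.support) (S₂ ∪ P₂.support ∪ Z₂.support)
  have hT₁ : ∀ v ∈ T₁, v ∉ S₁ ∧ P₁ v = 0 ∧ Z₁ v = 0 := by
    intro v hv
    have h1 := Finset.disjoint_left.mp hdis₁ hv
    simp only [Finset.mem_union, Finsupp.mem_support_iff, not_or, not_not] at h1
    exact ⟨h1.1.1, h1.1.2, h1.2⟩
  have hT₂ : ∀ v ∈ T₂, v ∉ S₂ ∧ P₂ v = 0 ∧ Z₂ v = 0 := by
    intro v hv
    have h1 := Finset.disjoint_left.mp hdis₂ hv
    simp only [Finset.mem_union, Finsupp.mem_support_iff, not_or, not_not] at h1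
    exact ⟨h1.1.1, h1.1.2, h1.2⟩
  -- the lifts
  have hl₁ : ∀ v : T₁, ∃ Q : Place Qb (laurentBaseChange Qb (modularFunctionFieldFull (M * q))),
      (∀ σ ∈ A.inertiaSubgroupIn ℚ,
        arithmeticGalois (modularFunctionFieldFull (M * q)) σ • Q = Q) ∧
      E1 Q = 0 ∧ E2 Q = 0 ∧ RedTo₁ h W E1 E2 Q v.1 := fun v =>
    hlift₁ v.1 (hT₁ v.1 v.2).1 (fun i hi => hn₁ i (hi ▸ v.2)) (hT₁ v.1 v.2).2.1 (hT₁ v.1 v.2).2.2
  have hl₂ : ∀ v : T₂, ∃ Q : Place Qb (laurentBaseChange Qb (modularFunctionFieldFull (M * q))),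
      (∀ σ ∈ A.inertiaSubgroupIn ℚ,
        arithmeticGalois (modularFunctionFieldFull (M * q)) σ • Q = Q) ∧
      E1 Q = 0 ∧ E2 Q = 0 ∧ RedTo₂ h W E1 E2 Q v.1 := fun v =>
    hlift₂ v.1 (hT₂ v.1 v.2).1 (fun i hi => hn₂ i (hi ▸ v.2)) (hT₂ v.1 v.2).2.1 (hT₂ v.1 v.2).2.2
  choose f₁ hf₁ using hl₁
  choose f₂ hf₂ using hl₂
  set T : Finset (Place Qb (laurentBaseChange Qb (modularFunctionFieldFull (M * q)))) :=
    Finset.univ.image f₁ ∪ Finset.univ.image f₂ with hTdef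
  have hTmem : ∀ Q ∈ T, (∃ v, f₁ v = Q) ∨ ∃ v, f₂ v = Q := by
    intro Q hQ
    rw [hTdef, Finset.mem_union, Finset.mem_image, Finset.mem_image] at hQ
    rcases hQ with ⟨v, -, hv⟩ | ⟨v, -, hv⟩
    · exact Or.inl ⟨v, hv⟩
    · exact Or.inr ⟨v, hv⟩
  have hTle : T.card ≤ T₁.card + T₂.card := by
    refine (Finset.card_union_le _ _).trans (Nat.add_le_add ?_ ?_)
    · refine Finset.card_image_le.trans ?_
      rw [Finset.card_univ, Fintype.card_coe]
    · refine Finset.card_image_le.trans ?_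
      rw [Finset.card_univ, Fintype.card_coe]
  have hTfix : ∀ σ ∈ A.inertiaSubgroupIn ℚ, ∀ Q ∈ T,
      arithmeticGalois (modularFunctionFieldFull (M * q)) σ • Q = Q := by
    intro σ hσ Q hQ
    rcases hTmem Q hQ with ⟨v, rfl⟩ | ⟨v, rfl⟩
    · exact (hf₁ v).1 σ hσ
    · exact (hf₂ v).1 σ hσ
  have hTE : ∀ Q ∈ T, E1 Q = 0 ∧ E2 Q = 0 := by
    intro Q hQ
    rcases hTmem Q hQ with ⟨v, rfl⟩ | ⟨v, rfl⟩
    · exact ⟨(hf₁ v).2.1, (hf₁ v).2.2.1⟩
    · exact ⟨(hf₂ v).2.1, (hf₂ v).2.2.1⟩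
  have hR₁ : ∀ v ∈ T₁, P₁ v = 0 ∧ Z₁ v = 0 ∧ ∃ Q ∈ T, RedTo₁ h W E1 E2 Q v := by
    intro v hv
    refine ⟨(hT₁ v hv).2.1, (hT₁ v hv).2.2, f₁ ⟨v, hv⟩, ?_, (hf₁ ⟨v, hv⟩).2.2.2⟩
    rw [hTdef]
    exact Finset.mem_union_left _ (Finset.mem_image_of_mem _ (Finset.mem_univ _))
  have hR₂ : ∀ v ∈ T₂, P₂ v = 0 ∧ Z₂ v = 0 ∧ ∃ Q ∈ T, RedTo₂ h W E1 E2 Q v := by
    intro v hv
    refine ⟨(hT₂ v hv).2.1, (hT₂ v hv).2.2, f₂ ⟨v, hv⟩, ?_, (hf₂ ⟨v, hv⟩).2.2.2⟩
    rw [hTdef]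
    exact Finset.mem_union_right _ (Finset.mem_image_of_mem _ (Finset.mem_univ _))
  -- the lattice statement
  obtain ⟨c, N₀, hc⟩ := exists_reduction_sub_points_modular hπ h W hW E1 E2 e₁ e₂ P₁ Z₁ P₂ Z₂
    hinj₂ hP₁ hZ₁ hP₂ hZ₂ hdegP₁ hdegP₂ hdegE1 hdegE2 hS2
  have hchart : ∀ n₁ n₂ : ℕ, N₀ ≤ n₁ + n₂ →
      c + (T₁.card + T₂.card : ℕ) ≤ Divisor.degree (n₁ • P₁ + n₂ • Z₁) →
      c + (T₁.card + T₂.card : ℕ) ≤ Divisor.degree (n₁ • P₂ + n₂ • Z₂) →
      ∀ t : ↥(modularFunctionFieldFullC k M) × ↥(modularFunctionFieldFullC k M),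
        (∃ y : OPair h W,
            (y : laurentBaseChange Qb (modularFunctionFieldFull (M * q))) ∈
              riemannRochSpace (n₁ • E1 + n₂ • E2 - RR.sumPl T) ∧ redPair h W y = t) ↔
          t ∈ gluedSpace e₁ e₂ (fun _ => (1 : k))
            (n₁ • P₁ + n₂ • Z₁ - RR.sumPl T₁) (n₁ • P₂ + n₂ • Z₂ - RR.sumPl T₂) := by
    intro n₁ n₂ hn hb₁ hb₂
    refine hc n₁ n₂ hn T T₁ T₂ hTle hTE hn₂ hR₁ hR₂ ?_ ?_
    · push_cast at hb₁
      have : (0 : ℤ) ≤ T₂.card := Int.natCast_nonneg _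
      linarith
    · push_cast at hb₂
      have : (0 : ℤ) ≤ T₁.card := Int.natCast_nonneg _
      linarith
  -- the number of base points
  obtain ⟨c₂, hc₂⟩ := exists_card_eq (A := A) (O := OPair h W)
    (fun x => OPair_hOA h x) (redPair h W) π hπ h.pi_eq_zero_iff hconst (redPair_eq_zero_iff h)
    (isFF1_xL Qb (M * q)) (isFF1_xk k M) (isFF1_xk k M) e₁ e₂ hinj₂ hcard
  have hTeq : T.card = T₁.card + T₂.card := by
    set n : ℕ := N₀ + (max c c₂ + (T₁.card + T₂.card : ℕ) + (T.card : ℕ)).toNat with hn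
    have hn1 : max c c₂ + (T₁.card + T₂.card : ℕ) + (T.card : ℕ) ≤ (n : ℤ) := by
      have h2 := Int.self_le_toNat (max c c₂ + (T₁.card + T₂.card : ℕ) + (T.card : ℕ))
      have h1 : ((max c c₂ + (T₁.card + T₂.card : ℕ) + (T.card : ℕ)).toNat : ℤ) ≤ n := by
        exact_mod_cast (by omega :
          (max c c₂ + (T₁.card + T₂.card : ℕ) + (T.card : ℕ)).toNat ≤ n)
      exact h2.trans h1
    have hcn : c ≤ max c c₂ := le_max_left _ _
    have hcn₂ : c₂ ≤ max c c₂ := le_max_right _ _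
    have hT0 : (0 : ℤ) ≤ T.card := Int.natCast_nonneg _
    have hT10 : (0 : ℤ) ≤ T₁.card := Int.natCast_nonneg _
    have hT20 : (0 : ℤ) ≤ T₂.card := Int.natCast_nonneg _
    have hn0 : (0 : ℤ) ≤ n := Int.natCast_nonneg _
    have e1 : Divisor.degree (n • P₁ + 0 • Z₁) = (n : ℤ) * Divisor.degree P₁ := by
      rw [zero_smul, add_zero, map_nsmul, nsmul_eq_mul]
    have e2 : Divisor.degree (n • P₂ + 0 • Z₂) = (n : ℤ) * Divisor.degree P₂ := by
      rw [zero_smul, add_zero, map_nsmul, nsmul_eq_mul]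
    have eF : Divisor.degree (n • E1 + 0 • E2) = (n : ℤ) * Divisor.degree E1 := by
      rw [zero_smul, add_zero, map_nsmul, nsmul_eq_mul]
    have hS := hchart n 0 (by omega) (by rw [e1]; push_cast at hn1 ⊢; nlinarith)
      (by rw [e2]; push_cast at hn1 ⊢; nlinarith)
    refine hc₂ (n • E1 + 0 • E2) (n • P₁ + 0 • Z₁) (n • P₂ + 0 • Z₂) T T₁ T₂ ?_ ?_ ?_ hn₂
      (hLat _) ?_ ?_ ?_ hS
    · rw [eF, e1, e2, hd1]
      ring
    · intro i
      rw [Finsupp.add_apply, Finsupp.smul_apply, Finsupp.smul_apply, hP₁ i, hZ₁ i]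
      simp
    · intro i
      rw [Finsupp.add_apply, Finsupp.smul_apply, Finsupp.smul_apply, hP₂ i, hZ₂ i]
      simp
    · rw [e1]
      push_cast at hn1
      nlinarith
    · rw [e2]
      push_cast at hn1
      nlinarith
    · rw [eF]
      push_cast at hn1
      nlinarith
  have hTg : (T.card : ℤ)
      = genusFF Qb ↥(laurentBaseChange Qb (modularFunctionFieldFull (M * q))) := by
    have h1 : ((T₁.card + T₂.card + 1 : ℕ) : ℤ)
        = ((genusFF k ↥(modularFunctionFieldFullC k M) + genusFF k ↥(modularFunctionFieldFullC k M)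
          + Fintype.card ι : ℕ) : ℤ) := by exact_mod_cast hTcard
    have h2 : (T.card : ℤ) = ((T₁.card + T₂.card : ℕ) : ℤ) := by exact_mod_cast hTeq
    push_cast at h1 h2
    linarith
  refine ⟨T, T₁, T₂, hTg, hTeq, hTfix, fun σ hσ => smul_sumPl _ T (hTfix σ hσ), hTE, ?_, ?_, hn₁,
    hn₂, fun v hv => (hT₁ v hv).2, fun v hv => (hT₂ v hv).2, hns,
    c + (T₁.card + T₂.card : ℕ), N₀, hchart⟩
  · exact Finset.disjoint_left.mpr fun v hv => (hT₁ v hv).1
  · exact Finset.disjoint_left.mpr fun v hv => (hT₂ v hv).1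

end Assembly

end Fermat.Agent.BAD.BasePts
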