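import Mathlib
import Fermat.Agent.BAD.ChartBaseJ
import Fermat.Agent.BAD.Base.ChartBaseHaupt
import Fermat.Agent.BAD.Base.TowerX

/-!
# BAD: a level-`M` chart datum exists at every good pair

`exists_isChartBase_of_good` : for `h : BadSetup A π M ℓ` over a valuation subring `A` of `ℚ̄` with
algebraically closed residue field, and a good pair `(M, ℓ)`

  `5 ≤ ℓ`,  or  `ℓ = 3 ∧ 2 ∣ M`,  or  `ℓ = 2 ∧ 3 ∣ M`,

there is a level-`M` function `X` with `IsChartBase h X`:

* `X = J(q^M)` for `5 ≤ ℓ` (`isChartBase_ofJ`);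
* `X = (y - 1)³ / y²`, `y` the Hauptmodul of level 2, for `ℓ = 3`, `2 ∣ M` (`isChartBase_haupt2`);
* `X = (y² + y + 1)² / y³`, `y` the Hauptmodul of level 3, for `ℓ = 2`, `3 ∣ M`
  (`isChartBase_haupt3`).
-/

set_option autoImplicit false
set_option linter.unusedSectionVars false

noncomputable section

namespace Fermat.Agent.BAD

open Polynomial AlgebraicCurve ModularCurve Fermat.Agent.Lib.Red Fermat.Agent.Lib.FF
  Fermat.Agent.BAD.TwoVal Fermat.Agent.S24

variable {A : ValuationSubring KQ} {k : Type} [Field k] {π : A →+* k}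
  {M ℓ : ℕ} [NeZero M] [NeZero ℓ]

/-- **The chart datum `X₂ = (y - 1)³ / y²`** (Hauptmodul of level 2, `M = m * 2`). -/
theorem isChartBase_haupt2 [IsAlgClosed k] (h : BadSetup A π M ℓ)
    (hsurj : Function.Surjective π) (m : ℕ) [NeZero m] (hM : M = m * 2) (h2 : (2 : k) ≠ 0) :
    IsChartBase h ((Base.hauptX2 M m hM h2 h.hπ h.hMk : Ow A π M h.hMk) :
      ↥(laurentBaseChange KQ (modularFunctionFieldFull M))) :=
  Base.isChartBase_haupt2_of_basis m hM h2 h hsurj
    (TowerX.basis_haupt2 A π M m hM h2 h.hπ hsurj h.hMk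
      (Base.hauptX2_rel M m hM h2 h.hπ h.hMk) (Base.hauptX2 M m hM h2 h.hπ h.hMk).2)

/-- **The chart datum `X₃ = (y² + y + 1)² / y³`** (Hauptmodul of level 3, `M = m * 3`). -/
theorem isChartBase_haupt3 [IsAlgClosed k] (h : BadSetup A π M ℓ)
    (hsurj : Function.Surjective π) (m : ℕ) [NeZero m] (hM : M = m * 3) (h3 : (3 : k) ≠ 0) :
    IsChartBase h ((Base.hauptX3 M m hM h3 h.hπ h.hMk : Ow A π M h.hMk) :
      ↥(laurentBaseChange KQ (modularFunctionFieldFull M))) :=
  Base.isChartBase_haupt3_of_basis m hM h3 h hsurj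
    (TowerX.basis_haupt3 A π M m hM h3 h.hπ hsurj h.hMk
      (Base.hauptX3_rel M m hM h3 h.hπ h.hMk) (Base.hauptX3 M m hM h3 h.hπ h.hMk).2)

/-- A natural number not divisible by the residue characteristic is nonzero in `k`. -/
theorem natCast_ne_zero_of_badSetup (h : BadSetup A π M ℓ) (n : ℕ) (hn : ¬ ℓ ∣ n) :
    (n : k) ≠ 0 := by
  have := h.charP
  intro h0
  exact hn ((CharP.cast_eq_zero_iff k ℓ n).1 h0)

/-- **A chart datum exists at every good pair.** -/
theorem exists_isChartBase_of_good [IsAlgClosed k] (h : BadSetup A π M ℓ)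
    (hsurj : Function.Surjective π)
    (hgood : 5 ≤ ℓ ∨ (ℓ = 3 ∧ 2 ∣ M) ∨ (ℓ = 2 ∧ 3 ∣ M)) :
    ∃ X : ↥(laurentBaseChange KQ (modularFunctionFieldFull M)), IsChartBase h X := by
  rcases hgood with h5 | ⟨h3, hdvd⟩ | ⟨h2, hdvd⟩
  · -- `ℓ ≥ 5`: `X = J(q^M)`
    refine ⟨xL KQ M, isChartBase_ofJ h hsurj ?_⟩
    have h1728 : ¬ ℓ ∣ 1728 := by
      intro hd
      have e : (1728 : ℕ) = 2 ^ 6 * 3 ^ 3 := by norm_num
      rw [e] at hd
      rcases (Nat.Prime.dvd_mul h.hℓ).1 hd with hd | hd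
      · have := Nat.le_of_dvd (by norm_num) (h.hℓ.dvd_of_dvd_pow hd)
        omega
      · have := Nat.le_of_dvd (by norm_num) (h.hℓ.dvd_of_dvd_pow hd)
        omega
    have := natCast_ne_zero_of_badSetup h 1728 h1728
    exact_mod_cast this
  · -- `ℓ = 3`, `2 ∣ M`: the Hauptmodul of level 2
    obtain ⟨m, hm⟩ := hdvd
    have hM : M = m * 2 := by rw [hm, mul_comm]
    have : NeZero m := ⟨by
      rintro rfl
      exact (NeZero.ne M) (by rw [hM, zero_mul])⟩
    have h2k : (2 : k) ≠ 0 := by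
      have := natCast_ne_zero_of_badSetup h 2 (by rw [h3]; norm_num)
      exact_mod_cast this
    exact ⟨_, isChartBase_haupt2 h hsurj m hM h2k⟩
  · -- `ℓ = 2`, `3 ∣ M`: the Hauptmodul of level 3
    obtain ⟨m, hm⟩ := hdvd
    have hM : M = m * 3 := by rw [hm, mul_comm]
    have : NeZero m := ⟨by
      rintro rfl
      exact (NeZero.ne M) (by rw [hM, zero_mul])⟩
    have h3k : (3 : k) ≠ 0 := by
      have := natCast_ne_zero_of_badSetup h 3 (by rw [h2]; norm_num)
      exact_mod_cast this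
    exact ⟨_, isChartBase_haupt3 h hsurj m hM h3k⟩

end Fermat.Agent.BAD
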