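/-
BAD (helper54) — the DIVISOR DATA of `NodalAsm.monodromy_of_nodal_fibre` / `SatAsm.hS2_of_sat`
for a coordinate `x` and the bi-unit `z = p(x)` (`p` monic of degree `q`, e.g. `X^q - X - 1`).

For `h : IsFF1 K F x`:
* `zeroDiv h z` : the divisor of zeros of `z` (`zeroDiv_apply : zeroDiv h z v = max (v.ord z) 0`);
* `ord_aeval_eq` : `v.ord (p(x)) = zeroDiv h (p(x)) v - q * h.poleDiv v`          (`hdivz`, `hdivc_j`);
* `poleDiv_disjoint_zeroDiv` : `h.poleDiv v = 0 ∨ zeroDiv h (p(x)) v = 0`            (`hdisj`, `hd_j`);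
* `degree_zeroDiv_aeval` : `deg (zeroDiv h (p(x))) = q * deg h.poleDiv`, `degree_zeroDiv_aeval_pos`;
* `smul_poleDiv`, `smul_zeroDiv` : invariance under a semilinear automorphism fixing `x`, `z`
                                                                                    (`hgE1`, `hgE2`);
* `zeroDiv_eq_zero_of_cong`, `poleDiv_eq_zero_of_cong` : at a place where the function has a
  nonzero finite value, resp. where `x` is regular                                  (`hZ_j`, `hP_j`);
* `zPoly q = X^q - X - 1`, monic of degree `q` (`2 ≤ q`); `cong_zfun` : if `x ≡ a` at `P` with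
  `a^q = a`, then `x^q - x - 1 ≡ -1` at `P`; `pow_succ_pow_eq` : `t^(q²) = t → (t^(q+1))^q = t^(q+1)`.
-/
import Mathlib
import Fermat.Agent.BAD.NodalCech
import Fermat.Agent.Lib.ECHeight.Pole
import Fermat.Prelude.Def_AlgebraicCurve_BaseChangeGalois

set_option autoImplicit false

noncomputable section

namespace Fermat.Agent.BAD.ChartDiv

open AlgebraicCurve Polynomial Fermat.Agent.Lib.FF Fermat.Agent.BAD.NodalRiemann
  Fermat.Agent.BAD.NodalCech

variable {K F : Type*} [Field K] [Field F] [Algebra K F] {x : F}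

/-! ### The divisor of zeros -/

open Classical in
/-- The divisor of zeros of `z` (zero for `z = 0`). -/
def zeroDiv (h : IsFF1 K F x) (z : F) : Divisor K F :=
  if hz : z = 0 then 0 else
    Finsupp.onFinset (h.hasPrincipalDivisors.exists_divisor z hz).choose.support
      (fun v => max (v.ord z) 0) (fun v hv => by
        rw [Finsupp.mem_support_iff,
          (h.hasPrincipalDivisors.exists_divisor z hz).choose_spec.1 v]
        intro h0
        apply hv
        rw [h0]
        rfl)

theorem zeroDiv_apply (h : IsFF1 K F x) (z : F) (v : Place K F) :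
    zeroDiv h z v = max (v.ord z) 0 := by
  unfold zeroDiv
  split_ifs with hz
  · rw [hz, Place.ord_zero]
    rfl
  · rfl

theorem zeroDiv_nonneg (h : IsFF1 K F x) (z : F) (v : Place K F) : 0 ≤ zeroDiv h z v := by
  rw [zeroDiv_apply]
  exact le_max_right _ _

/-- The order of a monic polynomial in `x` in terms of the two divisors. -/
theorem ord_aeval_eq (h : IsFF1 K F x) {p : K[X]} (hp : p.Monic) (v : Place K F) :
    v.ord (aeval x p) = zeroDiv h (aeval x p) v - p.natDegree * h.poleDiv v := by
  rw [zeroDiv_apply, h.poleDiv_apply]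
  rcases lt_or_ge (v.ord x) 0 with hx | hx
  · have h1 := Lib.ECHeight.ord_aeval_monic v hp hx
    have h2 : (p.natDegree : ℤ) * v.ord x ≤ 0 :=
      mul_nonpos_of_nonneg_of_nonpos (Int.natCast_nonneg _) hx.le
    rw [h1, max_eq_right h2, max_eq_left (by omega)]
    ring
  · have h1 := Lib.ECHeight.ord_aeval_nonneg v p hx
    rw [max_eq_left h1, max_eq_right (by omega)]
    ring

/-- The poles of `x` and the zeros of `p(x)` are disjoint. -/
theorem poleDiv_disjoint_zeroDiv (h : IsFF1 K F x) {p : K[X]} (hp : p.Monic) (v : Place K F) :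
    h.poleDiv v = 0 ∨ zeroDiv h (aeval x p) v = 0 := by
  rw [zeroDiv_apply, h.poleDiv_apply]
  rcases lt_or_ge (v.ord x) 0 with hx | hx
  · right
    have h1 := Lib.ECHeight.ord_aeval_monic v hp hx
    have h2 : (p.natDegree : ℤ) * v.ord x ≤ 0 :=
      mul_nonpos_of_nonneg_of_nonpos (Int.natCast_nonneg _) hx.le
    rw [h1, max_eq_right h2]
  · left
    rw [max_eq_right (by omega)]

theorem aeval_ne_zero (h : IsFF1 K F x) {p : K[X]} (hp : p ≠ 0) : aeval x p ≠ 0 :=
  fun h0 => hp (transcendental_iff.mp h.transcendental p h0)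

/-- The degree of the divisor of zeros of `p(x)`. -/
theorem degree_zeroDiv_aeval (h : IsFF1 K F x) {p : K[X]} (hp : p.Monic) :
    Divisor.degree (zeroDiv h (aeval x p)) = p.natDegree * Divisor.degree h.poleDiv := by
  have hz : aeval x p ≠ 0 := aeval_ne_zero h hp.ne_zero
  obtain ⟨D, hD, hdeg⟩ := h.hasPrincipalDivisors.exists_divisor _ hz
  have e : zeroDiv h (aeval x p) = D + p.natDegree • h.poleDiv := by
    ext v
    rw [Finsupp.add_apply, Finsupp.smul_apply, hD v, ord_aeval_eq h hp v, nsmul_eq_mul]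
    ring
  rw [e, map_add, hdeg, zero_add, map_nsmul, nsmul_eq_mul]

theorem degree_zeroDiv_aeval_pos (h : IsFF1 K F x) {p : K[X]} (hp : p.Monic)
    (hq : 0 < p.natDegree) : 0 < Divisor.degree (zeroDiv h (aeval x p)) := by
  rw [degree_zeroDiv_aeval h hp]
  exact mul_pos (by exact_mod_cast hq) h.degree_poleDiv_pos

/-! ### Invariance under semilinear automorphisms -/

theorem ord_of_smul_eq (g : SemilinearAut K F) {f : F} (hg : g • f = f) (w : Place K F) :
    (g⁻¹ • w).ord f = w.ord f := by
  have h1 := SemilinearAut.ord_smul g (g⁻¹ • w) f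
  rw [smul_inv_smul, hg] at h1
  exact h1.symm

/-- The pole divisor of `x` is fixed by every semilinear automorphism fixing `x`. -/
theorem smul_poleDiv (h : IsFF1 K F x) (g : SemilinearAut K F) (hg : g • x = x) :
    g • h.poleDiv = h.poleDiv := by
  ext w
  rw [SemilinearAut.divisor_smul_apply, h.poleDiv_apply, h.poleDiv_apply, ord_of_smul_eq g hg]

/-- The divisor of zeros of `z` is fixed by every semilinear automorphism fixing `z`. -/
theorem smul_zeroDiv (h : IsFF1 K F x) (g : SemilinearAut K F) {z : F} (hg : g • z = z) :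
    g • zeroDiv h z = zeroDiv h z := by
  ext w
  rw [SemilinearAut.divisor_smul_apply, zeroDiv_apply, zeroDiv_apply, ord_of_smul_eq g hg]

/-! ### Values at places -/

/-- A function with a nonzero value at `P` has no zero at `P`. -/
theorem zeroDiv_eq_zero_of_cong (h : IsFF1 K F x) {P : Place K F} {z : F} {c : K}
    (hz : Cong P z c) (hc : c ≠ 0) : zeroDiv h z P = 0 := by
  have hv := hz.val_eq_one hc
  have hz0 : z ≠ 0 := by
    rintro rfl
    rw [map_zero] at hv
    exact zero_ne_one hv
  rw [zeroDiv_apply]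
  rw [Place.adicValuation_eq_exp_neg_ord _ hz0, ← WithZero.exp_zero, WithZero.exp_inj] at hv
  omega

/-- `x` has no pole at a place where it has a value. -/
theorem poleDiv_eq_zero_of_cong (h : IsFF1 K F x) {P : Place K F} {a : K} (hx : Cong P x a) :
    h.poleDiv P = 0 :=
  poleDiv_eq_zero_of_val_le_one h hx.le_one

/-! ### The polynomial `X^q - X - 1` -/

/-- The polynomial `X^q - X - 1`. -/
def zPoly (K : Type*) [Field K] (q : ℕ) : K[X] := X ^ q - (X + 1)

theorem zPoly_monic (q : ℕ) (hq : 2 ≤ q) : (zPoly K q).Monic := by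
  refine monic_X_pow_sub ?_
  have h1 : (X + 1 : K[X]).degree = 1 := by
    have := degree_X_add_C (1 : K)
    rwa [map_one] at this
  rw [h1]
  exact_mod_cast hq

theorem zPoly_natDegree (q : ℕ) (hq : 2 ≤ q) : (zPoly K q).natDegree = q := by
  have h1 : (X + 1 : K[X]).natDegree = 1 := by
    have := natDegree_X_add_C (1 : K)
    rwa [map_one] at this
  unfold zPoly
  rw [natDegree_sub_eq_left_of_natDegree_lt (by rw [h1, natDegree_X_pow]; omega),
    natDegree_X_pow]

theorem aeval_zPoly (q : ℕ) (f : F) : aeval f (zPoly K q) = f ^ q - f - 1 := by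
  unfold zPoly
  simp only [map_sub, map_pow, aeval_X, map_add, map_one]
  ring

/-- If `x` takes a value `a` with `a^q = a` at `P`, then `x^q - x - 1` takes the value `-1`. -/
theorem cong_zfun {P : Place K F} {f : F} {a : K} (hf : Cong P f a) (q : ℕ) (ha : a ^ q = a) :
    Cong P (f ^ q - f - 1) (-1) := by
  have h1 := ((hf.pow q).sub hf).sub (cong_one P)
  rwa [ha, sub_self, zero_sub] at h1

/-- `t^(q²) = t ⟹ (t^(q+1))^q = t^(q+1)`: the norm of an `𝔽_{q²}`-point is an `𝔽_q`-point. -/
theorem pow_succ_pow_eq {R : Type*} [CommMonoid R] {t : R} {q : ℕ} (ht : t ^ (q ^ 2) = t) :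
    (t ^ (q + 1)) ^ q = t ^ (q + 1) := by
  have e : (q + 1) * q = q ^ 2 + q := by ring
  rw [← pow_mul, e, pow_add, ht, pow_succ, mul_comm]

end Fermat.Agent.BAD.ChartDiv
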