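/-
BAD (helper54) — two consequences of the LAT description of a chart
`finRing L x ∩ O = ∑ A[x]·β i` (`hgen`), in the shapes consumed by `SatAsm.hS2_of_sat` and by (S1):

* `hsat_finRing` : the hypothesis `hsat` of `SatAsm.hS2_of_sat` / `SatAsm.reduction_eq_glued`
  (saturation for the charts `finRing L x`, `finRing L x⁻¹`), from `SatInst.sat_places`;
* `val_le_one_of_gen` (abstract) : a ring which is a finitely generated module over `φ(A)[X]`
  consists of elements of valuation `≤ 1` as soon as `φ(A)` and `X` do  (`m² ≤ m ⟹ m ≤ 1`);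
* `red_mem_finRing` : **integrality of the reductions** (`hint`): for `v ∈ finRing L x ∩ O`, both
  components of `red v` are regular wherever the reduced coordinate is: `(red v).1 ∈ finRing k x₁`,
  `(red v).2 ∈ finRing k x₂`.
-/
import Mathlib
import Fermat.Agent.BAD.SatInst
import Fermat.Agent.BAD.NodalPlaces

set_option autoImplicit false
set_option linter.style.haveILetI false

namespace Fermat.Agent.BAD.ChartLat

open Polynomial AlgebraicCurve Fermat.Agent.Lib.Red.Deform Fermat.Agent.Lib.FF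
  Fermat.Agent.BAD.NodalPlaces Fermat.Agent.BAD.SatInst

/-! ### A valuation bound for finitely generated modules which are rings -/

theorem val_eval₂_le_one {O Γ A : Type*} [CommRing O] [LinearOrderedCommGroupWithZero Γ]
    [CommRing A] (u : Valuation O Γ) (φ : A →+* O) (hφ : ∀ a, u (φ a) ≤ 1) {X : O}
    (hX : u X ≤ 1) (c : A[X]) : u (eval₂ φ X c) ≤ 1 := by
  rw [eval₂_eq_sum, Polynomial.sum]
  refine Valuation.map_sum_le u fun j _ => ?_
  rw [map_mul, map_pow]
  exact mul_le_one' (hφ _) (pow_le_one' hX j)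

/-- If the set `R` (closed under the products `b i * b j`) is contained in `∑ φ(A)[X]·b i` and
`φ(A)`, `X` have valuation `≤ 1`, then so has every element of `R`. -/
theorem val_le_one_of_gen {O Γ A : Type*} [CommRing O] [LinearOrderedCommGroupWithZero Γ]
    [CommRing A] (u : Valuation O Γ) (φ : A →+* O) (hφ : ∀ a, u (φ a) ≤ 1) {X : O}
    (hX : u X ≤ 1) {r : ℕ} (b : Fin r → O) (R : Set O) (hbR : ∀ i j, b i * b j ∈ R)
    (hgen : ∀ v ∈ R, ∃ c : Fin r → A[X], v = ∑ i, eval₂ φ X (c i) * b i)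
    (v : O) (hv : v ∈ R) : u v ≤ 1 := by
  rcases Nat.eq_zero_or_pos r with rfl | hr
  · obtain ⟨c, rfl⟩ := hgen v hv
    rw [Finset.univ_eq_empty, Finset.sum_empty, map_zero]
    exact zero_le_one
  · haveI : Nonempty (Fin r) := ⟨⟨0, hr⟩⟩
    obtain ⟨i₀, hi₀⟩ := Finite.exists_max (fun i => u (b i))
    have hle : ∀ w ∈ R, u w ≤ u (b i₀) := by
      intro w hw
      obtain ⟨c, rfl⟩ := hgen w hw
      refine Valuation.map_sum_le u fun i _ => ?_
      rw [map_mul]
      calc u (eval₂ φ X (c i)) * u (b i) ≤ 1 * u (b i₀) :=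
            mul_le_mul' (val_eval₂_le_one u φ hφ hX (c i)) (hi₀ i)
        _ = u (b i₀) := one_mul _
    have hsq := hle _ (hbR i₀ i₀)
    rw [map_mul] at hsq
    rcases eq_or_ne (u (b i₀)) 0 with h0 | h0
    · exact (hle v hv).trans (h0 ▸ zero_le_one)
    · have h1 : u (b i₀) ≤ 1 := by
        by_contra hcon
        rw [not_le] at hcon
        have h2 : u (b i₀) * 1 < u (b i₀) * u (b i₀) :=
          mul_lt_mul_of_pos_left hcon (zero_lt_iff.mpr h0)
        rw [mul_one] at h2
        exact absurd hsq (not_le.mpr h2)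
      exact (hle v hv).trans h1

variable {L F : Type*} [Field L] [Field F] [Algebra L F]
variable {A : ValuationSubring L} {O : Subring F}

/-! ### Saturation in the shape of `SatAsm` -/

/-- **The hypothesis `hsat` of `SatAsm.hS2_of_sat`** from the LAT data of the chart
`finRing L x`. -/
theorem hsat_finRing [HasPrincipalDivisors L F] {Ft : Type*} [CommRing Ft]
    (hOA : ∀ a : L, algebraMap L F a ∈ O ↔ a ∈ A)
    (red : O →+* Ft) (hker : ∀ y : O, red y = 0 ↔ Small A O (y : F))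
    (x : F) (hx0 : x ≠ 0) (hxO : x ∈ O) (hxO' : x⁻¹ ∈ O)
    {r : ℕ} (β : Fin r → F) (hβO : ∀ i, β i ∈ O) (hβR : ∀ i, β i ∈ finRing L x)
    (hgen : ∀ v ∈ O, v ∈ finRing L x →
      ∃ e : Fin r → L[X], (∀ i j, (e i).coeff j ∈ A) ∧ v = ∑ i, aeval x (e i) * β i) :
    ∃ d : ℕ, ∀ n : ℕ, d ≤ n → ∀ f₁ f₂ : O, (f₁ : F) ∈ finRing L x →
      (f₂ : F) ∈ finRing L x⁻¹ → red f₁ = red ⟨x, hxO⟩ ^ n * red f₂ →
      ∃ z z' : O, (z : F) ∈ finRing L x ∧ (z' : F) ∈ finRing L x⁻¹ ∧
        (z : F) = x ^ n * (z' : F) ∧ red z = red f₁ := by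
  obtain ⟨d, hd⟩ := sat_places hOA red hker x hx0 hxO hxO' β hβO
    (fun i => mem_chartFin.mpr (mem_finRing.mp (hβR i)))
    (fun v hvO hv => hgen v hvO (mem_finRing.mpr (mem_chartFin.mp hv)))
  refine ⟨d, fun n hn f₁ f₂ h₁ h₂ h₁₂ => ?_⟩
  have h₂' : (f₂ : F) ∈ chartInf L x := by
    rw [chartInf_eq x hx0]
    exact mem_chartFin.mpr (mem_finRing.mp h₂)
  obtain ⟨z, hz, hz', hzred⟩ := hd n hn f₁ f₂ (mem_chartFin.mpr (mem_finRing.mp h₁)) h₂' h₁₂
  refine ⟨z, ⟨x⁻¹, hxO'⟩ ^ n * z, mem_finRing.mpr (mem_chartFin.mp hz), ?_, ?_, hzred⟩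
  · rw [chartInf_eq x hx0] at hz'
    rw [Subring.coe_mul, Subring.coe_pow]
    exact mem_finRing.mpr (mem_chartFin.mp hz')
  · rw [Subring.coe_mul, Subring.coe_pow]
    show (z : F) = x ^ n * (x⁻¹ ^ n * (z : F))
    rw [← mul_assoc, ← mul_pow, mul_inv_cancel₀ hx0, one_pow, one_mul]

/-! ### Integrality of the reductions -/

variable {k F₁ F₂ : Type*} [Field k] [Field F₁] [Field F₂] [Algebra k F₁] [Algebra k F₂]

/-- **Integrality of reductions** (`hint`): the reduction of an element of `O` regular off the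
poles of `x` is, on both components, regular off the poles of the reduced coordinate. -/
theorem red_mem_finRing
    (hOA : ∀ a : L, algebraMap L F a ∈ O ↔ a ∈ A)
    (red : O →+* F₁ × F₂) (π : A →+* k)
    (hconst : ∀ a : A, red ⟨algebraMap L F (a : L), (hOA _).2 a.2⟩
      = algebraMap k (F₁ × F₂) (π a))
    (x : F) (hxO : x ∈ O) {x₁ : F₁} {x₂ : F₂} (hredx : red ⟨x, hxO⟩ = (x₁, x₂))
    {r : ℕ} (β : Fin r → F) (hβO : ∀ i, β i ∈ O) (hβR : ∀ i, β i ∈ finRing L x)
    (hgen : ∀ v ∈ O, v ∈ finRing L x →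
      ∃ e : Fin r → L[X], (∀ i j, (e i).coeff j ∈ A) ∧ v = ∑ i, aeval x (e i) * β i)
    (v : O) (hv : (v : F) ∈ finRing L x) :
    (red v).1 ∈ finRing k x₁ ∧ (red v).2 ∈ finRing k x₂ := by
  classical
  let φ : A →+* O :=
    ((algebraMap L F).comp A.subtype).codRestrict O (fun a => (hOA _).2 a.2)
  have hφ : ∀ a : A, ((φ a : O) : F) = algebraMap L F (a : L) := fun a => rfl
  have hφred : ∀ a : A, red (φ a) = algebraMap k (F₁ × F₂) (π a) := fun a => hconst a
  let xo : O := ⟨x, hxO⟩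
  let e : Fin r → O := fun i => ⟨β i, hβO i⟩
  let R : Set O := {w | (w : F) ∈ finRing L x}
  have hbR : ∀ i j, e i * e j ∈ R := fun i j => (finRing L x).mul_mem (hβR i) (hβR j)
  have hgen' : ∀ w ∈ R, ∃ c : Fin r → (↥A)[X], w = ∑ i, eval₂ φ xo (c i) * e i := by
    intro w hw
    obtain ⟨E, hE, hwE⟩ := hgen (w : F) w.2 hw
    have hlift : ∀ i, ∃ c : (↥A)[X], c.map A.subtype = E i := fun i =>
      (mem_lifts (E i)).mp ((lifts_iff_coeff_lifts (E i)).mpr fun j => ⟨⟨_, hE i j⟩, rfl⟩)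
    choose c hc using hlift
    refine ⟨c, Subtype.ext ?_⟩
    rw [hwE, AddSubmonoidClass.coe_finsetSum]
    refine Finset.sum_congr rfl fun i _ => ?_
    rw [Subring.coe_mul, Saturation.coe_eval₂_toO φ hφ xo (c i), hc i]
  constructor
  · intro P hP
    let u : Valuation O (WithZero (Multiplicative ℤ)) :=
      (P.adicValuation.comap (RingHom.fst F₁ F₂)).comap red
    have hu : ∀ w : O, u w = P.adicValuation (red w).1 := fun w => rfl
    have h1 : ∀ a, u (φ a) ≤ 1 := by
      intro a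
      rw [hu, hφred]
      exact P.adicValuation_algebraMap_le_one (π a)
    have h2 : u xo ≤ 1 := by
      rw [hu, hredx]
      exact hP
    have h3 := val_le_one_of_gen u φ h1 h2 e R hbR hgen' v hv
    rwa [hu] at h3
  · intro P hP
    let u : Valuation O (WithZero (Multiplicative ℤ)) :=
      (P.adicValuation.comap (RingHom.snd F₁ F₂)).comap red
    have hu : ∀ w : O, u w = P.adicValuation (red w).2 := fun w => rfl
    have h1 : ∀ a, u (φ a) ≤ 1 := by
      intro a
      rw [hu, hφred]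
      exact P.adicValuation_algebraMap_le_one (π a)
    have h2 : u xo ≤ 1 := by
      rw [hu, hredx]
      exact hP
    have h3 := val_le_one_of_gen u φ h1 h2 e R hbR hgen' v hv
    rwa [hu] at h3

end Fermat.Agent.BAD.ChartLat
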