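import Mathlib

/-!
# BAD (N1): "at worst nodes" — subalgebras glued along a partial bijection

Pure algebra (Mathlib only).

* `NodalAlg.exists_sep` : in a subalgebra `B` of a `k`-algebra `R` with finitely many characters
  `χ s : R →ₐ[k] k`, for every `s` there is `u ∈ B` with `χ s u = 1` and `χ t u = 0` for every `t`
  that `B` separates from `s`.
* `NodalAlg.mem_iff_of_ker_le` : if `B` contains the common kernel of the characters, then
  `r ∈ B` iff `χ s r = χ t r` for all pairs `s, t` that `B` does not separate.  (Subalgebras of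
  `k^S` are given by partitions of `S`.)
* `NodalAlg.exists_gluing` : a subalgebra `B` of `R₁ × R₂` containing `I₁ × I₂` (`I_i` the common
  kernel of finitely many distinct characters `e_i s` of `R_i`) and projecting ONTO both factors
  is `{(a, b) | ∀ (s, s') ∈ Σ, e₁ s a = e₂ s' b}` for a partial bijection `Σ ⊆ S₁ × S₂`: the two
  affine curves are glued transversally along pairs of points, and nothing worse.
* `NodalAlg.gluingSet` : the canonical `Σ`; `mem_iff_gluingSet`, `gluingSet_fst_inj`,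
  `gluingSet_snd_inj`.
-/

set_option autoImplicit false

namespace Fermat.Agent.BAD.NodalAlg

variable {k R : Type*} [Field k] [CommRing R] [Algebra k R]

/-- A separating element: `χ s u = 1`, and `χ t u = 0` for all `t` separated from `s` by `B`. -/
theorem exists_sep (B : Subalgebra k R) {S : Type*} [Fintype S] (χ : S → (R →ₐ[k] k)) (s : S) :
    ∃ u ∈ B, χ s u = 1 ∧ ∀ t, (∃ b ∈ B, χ s b ≠ χ t b) → χ t u = 0 := by
  classical
  have hx : ∀ t : S, ∃ x ∈ B, χ s x = 1 ∧ ((∃ b ∈ B, χ s b ≠ χ t b) → χ t x = 0) := by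
    intro t
    by_cases h : ∃ b ∈ B, χ s b ≠ χ t b
    · obtain ⟨b, hb, hne⟩ := h
      have hne' : χ s b - χ t b ≠ 0 := sub_ne_zero.mpr hne
      refine ⟨(χ s b - χ t b)⁻¹ • (b - algebraMap k R (χ t b)), ?_, ?_, ?_⟩
      · exact B.smul_mem (B.sub_mem hb (B.algebraMap_mem _)) _
      · rw [map_smul, map_sub, AlgHom.commutes, smul_eq_mul]
        exact inv_mul_cancel₀ hne'
      · intro _
        rw [map_smul, map_sub, AlgHom.commutes, smul_eq_mul]
        simp
    · exact ⟨1, B.one_mem, map_one _, fun h' => absurd h' h⟩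
  choose x hxB hx1 hx0 using hx
  refine ⟨∏ t, x t, prod_mem (fun t _ => hxB t), ?_, ?_⟩
  · rw [map_prod]
    exact Finset.prod_eq_one (fun t _ => hx1 t)
  · intro t ht
    rw [map_prod]
    exact Finset.prod_eq_zero (Finset.mem_univ t) (hx0 t ht)

/-- **Subalgebras between the common kernel of finitely many characters and the whole algebra
are given by partitions of the set of characters.** -/
theorem mem_iff_of_ker_le (B : Subalgebra k R) {S : Type*} [Finite S] (χ : S → (R →ₐ[k] k))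
    (hker : ∀ r : R, (∀ s, χ s r = 0) → r ∈ B) (r : R) :
    r ∈ B ↔ ∀ s t, (∀ b ∈ B, χ s b = χ t b) → χ s r = χ t r := by
  classical
  cases nonempty_fintype S
  refine ⟨fun hr s t h => h r hr, fun hr => ?_⟩
  have key : ∀ T : Finset S, ∃ b ∈ B, ∀ s ∈ T, χ s b = χ s r := by
    intro T
    induction T using Finset.induction_on with
    | empty => exact ⟨0, B.zero_mem, by simp⟩
    | insert s₀ T hs₀ ih =>
      obtain ⟨b, hb, hbT⟩ := ih
      obtain ⟨u, hu, hu1, hu0⟩ := exists_sep B χ s₀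
      refine ⟨b + (χ s₀ (r - b)) • u, B.add_mem hb (B.smul_mem hu _), ?_⟩
      intro t ht
      rw [Finset.mem_insert] at ht
      rcases ht with rfl | ht
      · rw [map_add, map_smul, hu1, smul_eq_mul, mul_one, map_sub]
        ring
      · by_cases hsep : ∃ b' ∈ B, χ s₀ b' ≠ χ t b'
        · rw [map_add, map_smul, hu0 t hsep, smul_zero, add_zero]
          exact hbT t ht
        · push Not at hsep
          have h1 : χ s₀ r = χ t r := hr s₀ t hsep
          have h2 : χ s₀ b = χ t b := hsep b hb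
          rw [map_add, map_smul, map_sub, h1, h2, hbT t ht, sub_self, zero_smul, add_zero]
  obtain ⟨b, hb, hbr⟩ := key Finset.univ
  have hmem : r - b ∈ B := hker _ (fun s => by
    rw [map_sub, hbr s (Finset.mem_univ s), sub_self])
  have := B.add_mem hmem hb
  rwa [sub_add_cancel] at this

section Gluing

variable {R₁ R₂ : Type*} [CommRing R₁] [CommRing R₂] [Algebra k R₁] [Algebra k R₂]
variable {S₁ S₂ : Type*}

/-- The pairs of points glued by the subalgebra `B ⊆ R₁ × R₂`. -/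
def gluingSet (e₁ : S₁ → (R₁ →ₐ[k] k)) (e₂ : S₂ → (R₂ →ₐ[k] k)) (B : Subalgebra k (R₁ × R₂)) :
    Set (S₁ × S₂) :=
  {p | ∀ x ∈ B, e₁ p.1 x.1 = e₂ p.2 x.2}

theorem mem_gluingSet {e₁ : S₁ → (R₁ →ₐ[k] k)} {e₂ : S₂ → (R₂ →ₐ[k] k)}
    {B : Subalgebra k (R₁ × R₂)} {p : S₁ × S₂} :
    p ∈ gluingSet e₁ e₂ B ↔ ∀ x ∈ B, e₁ p.1 x.1 = e₂ p.2 x.2 := Iff.rfl

/-- A point of the first curve is glued to at most one point of the second. -/
theorem gluingSet_snd_inj {e₁ : S₁ → (R₁ →ₐ[k] k)} {e₂ : S₂ → (R₂ →ₐ[k] k)}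
    (he₂ : Function.Injective e₂) {B : Subalgebra k (R₁ × R₂)} (h2 : ∀ b, ∃ a, (a, b) ∈ B)
    {p p' : S₁ × S₂} (hp : p ∈ gluingSet e₁ e₂ B) (hp' : p' ∈ gluingSet e₁ e₂ B)
    (h : p.1 = p'.1) : p.2 = p'.2 := by
  apply he₂
  refine AlgHom.ext fun b => ?_
  obtain ⟨a, hab⟩ := h2 b
  have h1 := hp (a, b) hab
  have h1' := hp' (a, b) hab
  simp only at h1 h1'
  rw [← h1, ← h1', h]

/-- A point of the second curve is glued to at most one point of the first. -/
theorem gluingSet_fst_inj {e₁ : S₁ → (R₁ →ₐ[k] k)} {e₂ : S₂ → (R₂ →ₐ[k] k)}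
    (he₁ : Function.Injective e₁) {B : Subalgebra k (R₁ × R₂)} (h1 : ∀ a, ∃ b, (a, b) ∈ B)
    {p p' : S₁ × S₂} (hp : p ∈ gluingSet e₁ e₂ B) (hp' : p' ∈ gluingSet e₁ e₂ B)
    (h : p.2 = p'.2) : p.1 = p'.1 := by
  apply he₁
  refine AlgHom.ext fun a => ?_
  obtain ⟨b, hab⟩ := h1 a
  have h2 := hp (a, b) hab
  have h2' := hp' (a, b) hab
  simp only at h2 h2'
  rw [h2, h2', h]

/-- **At worst nodes.** A subalgebra `B ⊆ R₁ × R₂` which contains `I₁ × I₂` (`I_i` the common
kernel of the finitely many distinct characters `e_i`) and projects onto both factors consists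
exactly of the pairs `(a, b)` with `e₁ s a = e₂ s' b` for all glued pairs `(s, s')`. -/
theorem mem_iff_gluingSet [Finite S₁] [Finite S₂] (e₁ : S₁ → (R₁ →ₐ[k] k))
    (e₂ : S₂ → (R₂ →ₐ[k] k)) (he₁ : Function.Injective e₁) (he₂ : Function.Injective e₂)
    (B : Subalgebra k (R₁ × R₂))
    (hI : ∀ a b, (∀ s, e₁ s a = 0) → (∀ s, e₂ s b = 0) → (a, b) ∈ B)
    (h1 : ∀ a, ∃ b, (a, b) ∈ B) (h2 : ∀ b, ∃ a, (a, b) ∈ B) (a : R₁) (b : R₂) :
    (a, b) ∈ B ↔ ∀ p ∈ gluingSet e₁ e₂ B, e₁ p.1 a = e₂ p.2 b := by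
  classical
  let χ : S₁ ⊕ S₂ → (R₁ × R₂ →ₐ[k] k) :=
    Sum.elim (fun s => (e₁ s).comp (AlgHom.fst k R₁ R₂)) (fun s => (e₂ s).comp (AlgHom.snd k R₁ R₂))
  have hχl : ∀ (s : S₁) (x : R₁ × R₂), χ (Sum.inl s) x = e₁ s x.1 := fun _ _ => rfl
  have hχr : ∀ (s : S₂) (x : R₁ × R₂), χ (Sum.inr s) x = e₂ s x.2 := fun _ _ => rfl
  have hker : ∀ r : R₁ × R₂, (∀ s, χ s r = 0) → r ∈ B := by
    rintro ⟨a', b'⟩ h
    exact hI a' b' (fun s => h (Sum.inl s)) (fun s => h (Sum.inr s))
  rw [mem_iff_of_ker_le B χ hker (a, b)]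
  constructor
  · intro h p hp
    exact h (Sum.inl p.1) (Sum.inr p.2) (fun x hx => hp x hx)
  · intro h s t hst
    rcases s with s | s <;> rcases t with t | t
    · -- two points of the first curve that `B` does not separate are equal
      have : s = t := by
        apply he₁
        refine AlgHom.ext fun a' => ?_
        obtain ⟨b', hab'⟩ := h1 a'
        exact hst (a', b') hab'
      rw [this]
    · exact h (s, t) (fun x hx => hst x hx)
    · exact (h (t, s) (fun x hx => (hst x hx).symm)).symm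
    · have : s = t := by
        apply he₂
        refine AlgHom.ext fun b' => ?_
        obtain ⟨a', hab'⟩ := h2 b'
        exact hst (a', b') hab'
      rw [this]

/-- **At worst nodes**, existential form: `B` is the gluing of the two factors along a partial
bijection `Σ ⊆ S₁ × S₂`. -/
theorem exists_gluing [Finite S₁] [Finite S₂] (e₁ : S₁ → (R₁ →ₐ[k] k))
    (e₂ : S₂ → (R₂ →ₐ[k] k)) (he₁ : Function.Injective e₁) (he₂ : Function.Injective e₂)
    (B : Subalgebra k (R₁ × R₂))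
    (hI : ∀ a b, (∀ s, e₁ s a = 0) → (∀ s, e₂ s b = 0) → (a, b) ∈ B)
    (h1 : ∀ a, ∃ b, (a, b) ∈ B) (h2 : ∀ b, ∃ a, (a, b) ∈ B) :
    ∃ Sg : Set (S₁ × S₂), (∀ p ∈ Sg, ∀ p' ∈ Sg, p.1 = p'.1 ↔ p.2 = p'.2) ∧
      ∀ a b, (a, b) ∈ B ↔ ∀ p ∈ Sg, e₁ p.1 a = e₂ p.2 b :=
  ⟨gluingSet e₁ e₂ B,
    fun _ hp _ hp' => ⟨gluingSet_snd_inj he₂ h2 hp hp', gluingSet_fst_inj he₁ h1 hp hp'⟩,
    mem_iff_gluingSet e₁ e₂ he₁ he₂ B hI h1 h2⟩

end Gluing

end Fermat.Agent.BAD.NodalAlg
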