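import Mathlib
import Fermat.Agent.BAD.NodalAlg

/-!
# BAD (S1, abstract): Kronecker elements ⇒ the special fibre has at worst nodes `z ∼ Fr z`

Pure algebra (Mathlib + `BAD/NodalAlg`).  `k` an algebraically closed field of characteristic
`p`, `R` a commutative `k`-algebra with an "`𝔽_p`-structure" `R₀ ⊆ R` (a spanning set on which the
`k`-algebra endomorphism `Φ` — "`q ↦ q^p`", the relative Frobenius — is `f ↦ f ^ p`).

* `kronIdeal n R₀` : the ideal generated by the `f ^ n - f`, `f ∈ R₀`.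
* `isReduced_of_span` : a `k`-algebra spanned by elements with `q ^ (p ^ r) = q` is reduced.
* `exists_character` : ... and its characters `Q →ₐ[k] k` separate its elements from `0`.
* `mem_kronIdeal_of_characters` : **the Kronecker ideal is the ideal of its points**: `a ∈ R`
  killed by all characters `χ` with `χ f ^ (p ^ r) = χ f` (`f ∈ R₀`) lies in
  `kronIdeal (p ^ r) R₀`.
* `finite_characters` : finitely many such characters if `R ⧸ kronIdeal` is finite-dimensional;
  `finite_quotient_kronIdeal` : which holds if `R` is a finite module over `k[x]`, `x ∈ R₀`.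
* `exists_nodes` : **at worst nodes**.  A subalgebra `B ⊆ R × R` containing the graphs
  `(h, Φ h)`, `(Φ h, h)` and the Kronecker elements `(f ^ (p ^ r) - f, 0)` is
  `{(a, b) | ∀ s ∈ T, s a = s (Φ b)}` for a finite set `T` of characters (`𝔽_{p^r}`-points).
* `comp_mem_points`, `comp_pow_eq`, `comp_injOn` : `s ↦ s ∘ Φ` permutes the points.
-/

set_option autoImplicit false
set_option linter.style.haveILetI false

namespace Fermat.Agent.BAD.KroneckerNodal

open Fermat.Agent.BAD.NodalAlg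

variable {k : Type*} [Field k]

/-- The Kronecker ideal: generated by the `f ^ n - f`, `f ∈ R₀`. -/
def kronIdeal {R : Type*} [CommRing R] (n : ℕ) (R₀ : Set R) : Ideal R :=
  Ideal.span ((fun f => f ^ n - f) '' R₀)

theorem pow_sub_mem_kronIdeal {R : Type*} [CommRing R] {n : ℕ} {R₀ : Set R} {f : R}
    (hf : f ∈ R₀) : f ^ n - f ∈ kronIdeal n R₀ :=
  Ideal.subset_span ⟨f, hf, rfl⟩

/-- The points: characters taking values in `𝔽_n` on `R₀`. -/
def points {R : Type*} [CommRing R] [Algebra k R] (n : ℕ) (R₀ : Set R) : Set (R →ₐ[k] k) :=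
  {χ | ∀ f ∈ R₀, χ f ^ n = χ f}

theorem mem_points {R : Type*} [CommRing R] [Algebra k R] {n : ℕ} {R₀ : Set R}
    {χ : R →ₐ[k] k} : χ ∈ points n R₀ ↔ ∀ f ∈ R₀, χ f ^ n = χ f := Iff.rfl

/-- A point kills the Kronecker ideal. -/
theorem apply_eq_zero_of_mem_kronIdeal {R : Type*} [CommRing R] [Algebra k R] {n : ℕ}
    {R₀ : Set R} {χ : R →ₐ[k] k} (hχ : χ ∈ points n R₀) {a : R} (ha : a ∈ kronIdeal n R₀) :
    χ a = 0 := by
  have hle : kronIdeal n R₀ ≤ RingHom.ker (χ : R →+* k) := by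
    refine Ideal.span_le.mpr ?_
    rintro _ ⟨f, hf, rfl⟩
    show (χ : R →+* k) (f ^ n - f) = 0
    simp only [AlgHom.coe_toRingHom, map_sub, map_pow]
    rw [hχ f hf, sub_self]
  exact hle ha

section Reduced

variable (p : ℕ) [Fact p.Prime] [CharP k p]

/-- A commutative `k`-algebra of characteristic `p` spanned by elements with `q ^ (p ^ r) = q`
(`r ≥ 1`) is reduced. -/
theorem isReduced_of_span {Q : Type*} [CommRing Q] [Algebra k Q] (r : ℕ) (hr : 0 < r)
    (Q₀ : Set Q) (hQ₀ : ∀ q ∈ Q₀, q ^ (p ^ r) = q) (hspan : Submodule.span k Q₀ = ⊤) :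
    IsReduced Q := by
  classical
  rcases subsingleton_or_nontrivial Q with hsub | hnt
  · exact ⟨fun x _ => Subsingleton.elim x 0⟩
  haveI : CharP Q p := charP_of_injective_algebraMap (algebraMap k Q).injective p
  obtain ⟨b, hbQ, hbspan, hbli⟩ := exists_linearIndependent k Q₀
  rw [hspan] at hbspan
  have hpow : ∀ j : ℕ, ∀ q ∈ Q₀, q ^ (p ^ (r * j)) = q := by
    intro j q hq
    induction j with
    | zero => simp
    | succ j ih => rw [Nat.mul_succ, pow_add, pow_mul, ih, hQ₀ q hq]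
  refine ⟨fun a ha => ?_⟩
  obtain ⟨m, hm⟩ := ha
  have hle : m ≤ p ^ (r * m) := by
    calc m ≤ 2 ^ m := Nat.lt_two_pow_self.le
      _ ≤ p ^ m := Nat.pow_le_pow_left (Fact.out : p.Prime).two_le m
      _ ≤ p ^ (r * m) :=
        Nat.pow_le_pow_right (Fact.out : p.Prime).pos (Nat.le_mul_of_pos_left m hr)
  have h0 : a ^ (p ^ (r * m)) = 0 := pow_eq_zero_of_le hle hm
  -- expand `a` in the linearly independent spanning family `b`
  have hab : a ∈ Submodule.span k (Set.range ((↑) : b → Q)) := by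
    rw [Subtype.range_coe, hbspan]
    exact Submodule.mem_top
  obtain ⟨c, hc⟩ := (Finsupp.mem_span_range_iff_exists_finsupp).mp hab
  rw [Finsupp.sum] at hc
  rw [← hc, sum_pow_char_pow] at h0
  have h1 : ∑ i ∈ c.support, (c i ^ (p ^ (r * m))) • (i : Q) = 0 := by
    rw [← h0]
    refine Finset.sum_congr rfl fun i _ => ?_
    rw [smul_pow, hpow m (i : Q) (hbQ i.2)]
  have h2 := (linearIndependent_iff'.mp hbli) _ _ h1
  rw [← hc]
  refine Finset.sum_eq_zero fun i hi => ?_
  have hci : c i = 0 := by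
    have := h2 i hi
    exact pow_eq_zero_iff (pow_ne_zero _ (Fact.out : p.Prime).ne_zero) |>.mp this
  rw [hci, zero_smul]

omit [Fact p.Prime] [CharP k p] in
/-- A `k`-algebra spanned by elements with `q ^ n = q` (`n ≥ 2`) is integral over `k`. -/
theorem isIntegral_of_span {Q : Type*} [CommRing Q] [Algebra k Q] (n : ℕ) (hn : 1 < n)
    (Q₀ : Set Q) (hQ₀ : ∀ q ∈ Q₀, q ^ n = q) (hspan : Submodule.span k Q₀ = ⊤) :
    Algebra.IsIntegral k Q := by
  refine ⟨fun a => ?_⟩
  have ha : a ∈ Submodule.span k Q₀ := hspan ▸ Submodule.mem_top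
  induction ha using Submodule.span_induction with
  | mem q hq =>
    refine ⟨Polynomial.X ^ n - Polynomial.X, Polynomial.monic_X_pow_sub ?_, ?_⟩
    · rw [Polynomial.degree_X]
      exact_mod_cast hn
    · simp [hQ₀ q hq]
  | zero => exact isIntegral_zero
  | add x y _ _ hx hy => exact hx.add hy
  | smul c x _ hx =>
    rw [Algebra.smul_def]
    exact isIntegral_algebraMap.mul hx

/-- In a `k`-algebra (`k` algebraically closed of characteristic `p`) spanned by elements with
`q ^ (p ^ r) = q`, the characters separate every nonzero element from `0`. -/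
theorem exists_character [IsAlgClosed k] {Q : Type*} [CommRing Q] [Algebra k Q] (r : ℕ)
    (hr : 0 < r) (Q₀ : Set Q) (hQ₀ : ∀ q ∈ Q₀, q ^ (p ^ r) = q)
    (hspan : Submodule.span k Q₀ = ⊤) {a : Q} (ha : a ≠ 0) : ∃ χ : Q →ₐ[k] k, χ a ≠ 0 := by
  haveI := isReduced_of_span p r hr Q₀ hQ₀ hspan
  have hn : 1 < p ^ r := Nat.one_lt_pow hr.ne' (Fact.out : p.Prime).one_lt
  haveI : Algebra.IsIntegral k Q := isIntegral_of_span (p ^ r) hn Q₀ hQ₀ hspan
  have hnil : a ∉ nilradical Q := by
    rw [nilradical_eq_zero]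
    exact ha
  rw [nilradical_eq_sInf, Ideal.mem_sInf] at hnil
  push Not at hnil
  obtain ⟨𝔭, h𝔭, ha𝔭⟩ := hnil
  haveI : 𝔭.IsPrime := h𝔭
  haveI : Algebra.IsIntegral k (Q ⧸ 𝔭) := ⟨fun y => by
    obtain ⟨x, rfl⟩ := Ideal.Quotient.mk_surjective y
    exact (Algebra.IsIntegral.isIntegral (R := k) x).map (Ideal.Quotient.mkₐ k 𝔭)⟩
  have hbij : Function.Bijective (algebraMap k (Q ⧸ 𝔭)) :=
    IsAlgClosed.algebraMap_bijective_of_isIntegral
  let e : k ≃ₐ[k] (Q ⧸ 𝔭) := AlgEquiv.ofBijective (Algebra.ofId k (Q ⧸ 𝔭)) hbij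
  refine ⟨(e.symm : (Q ⧸ 𝔭) →ₐ[k] k).comp (Ideal.Quotient.mkₐ k 𝔭), fun h => ha𝔭 ?_⟩
  have h' : e.symm (Ideal.Quotient.mk 𝔭 a) = 0 := h
  rw [map_eq_zero_iff e.symm e.symm.injective] at h'
  exact Ideal.Quotient.eq_zero_iff_mem.mp h'

variable {R : Type*} [CommRing R] [Algebra k R]

/-- **The Kronecker ideal is the ideal of its points.** -/
theorem mem_kronIdeal_of_characters [IsAlgClosed k] (r : ℕ) (hr : 0 < r) (R₀ : Set R)
    (hspan : Submodule.span k R₀ = ⊤) (a : R)
    (ha : ∀ χ ∈ points (k := k) (p ^ r) R₀, χ a = 0) : a ∈ kronIdeal (p ^ r) R₀ := by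
  by_contra hna
  have hne : Ideal.Quotient.mk (kronIdeal (p ^ r) R₀) a ≠ 0 :=
    fun h => hna (Ideal.Quotient.eq_zero_iff_mem.mp h)
  have hQ₀ : ∀ q ∈ Ideal.Quotient.mk (kronIdeal (p ^ r) R₀) '' R₀, q ^ (p ^ r) = q := by
    rintro _ ⟨f, hf, rfl⟩
    rw [← map_pow]
    exact Ideal.Quotient.eq.mpr (pow_sub_mem_kronIdeal hf)
  have hspanQ : Submodule.span k (Ideal.Quotient.mk (kronIdeal (p ^ r) R₀) '' R₀) = ⊤ := by
    have h1 := Submodule.map_span (Ideal.Quotient.mkₐ k (kronIdeal (p ^ r) R₀)).toLinearMap R₀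
    rw [hspan, Submodule.map_top] at h1
    have h2 : LinearMap.range (Ideal.Quotient.mkₐ k (kronIdeal (p ^ r) R₀)).toLinearMap = ⊤ :=
      LinearMap.range_eq_top.mpr (Ideal.Quotient.mkₐ_surjective k _)
    rw [h2] at h1
    exact h1.symm
  obtain ⟨χ, hχ⟩ := exists_character p r hr _ hQ₀ hspanQ hne
  apply hχ
  refine ha (χ.comp (Ideal.Quotient.mkₐ k (kronIdeal (p ^ r) R₀))) fun f hf => ?_
  show χ (Ideal.Quotient.mk _ f) ^ (p ^ r) = χ (Ideal.Quotient.mk _ f)
  rw [← map_pow]
  exact congrArg χ (hQ₀ _ ⟨f, hf, rfl⟩)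

omit [Fact p.Prime] [CharP k p] in
/-- Finitely many points if the quotient by the Kronecker ideal is finite-dimensional. -/
theorem finite_points (n : ℕ) (R₀ : Set R) [Module.Finite k (R ⧸ kronIdeal n R₀)] :
    (points (k := k) n R₀).Finite := by
  haveI : Finite ((R ⧸ kronIdeal n R₀) →ₐ[k] k) :=
    (linearIndependent_toLinearMap k (R ⧸ kronIdeal n R₀) k).finite_of_isNoetherian
  let φ : points (k := k) n R₀ → ((R ⧸ kronIdeal n R₀) →ₐ[k] k) := fun χ =>
    Ideal.Quotient.liftₐ (kronIdeal n R₀) χ.1 (fun a ha => apply_eq_zero_of_mem_kronIdeal χ.2 ha)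
  have hφ : Function.Injective φ := by
    intro χ χ' h
    apply Subtype.ext
    refine AlgHom.ext fun a => ?_
    have := congrArg (fun ψ : (R ⧸ kronIdeal n R₀) →ₐ[k] k => ψ (Ideal.Quotient.mk _ a)) h
    exact this
  exact Set.finite_coe_iff.mp (Finite.of_injective φ hφ)

omit [Fact p.Prime] [CharP k p] in
/-- If `R` is a finite module over `k[x]` with `x ∈ R₀`, the quotient by the Kronecker ideal is
finite-dimensional over `k`. -/
theorem finite_quotient_kronIdeal (n : ℕ) (hn : 1 < n) (R₀ : Set R) {x : R} (hx : x ∈ R₀)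
    (hfin : Module.Finite (Algebra.adjoin k {x}) R) :
    Module.Finite k (R ⧸ kronIdeal n R₀) := by
  classical
  obtain ⟨G, hG⟩ := hfin.fg_top
  let mk : R →ₐ[k] (R ⧸ kronIdeal n R₀) := Ideal.Quotient.mkₐ k (kronIdeal n R₀)
  let W : Finset (R ⧸ kronIdeal n R₀) :=
    (Finset.range n ×ˢ G).image (fun ig => mk (x ^ ig.1 * ig.2))
  have hW : ∀ i g, i < n → g ∈ G → mk (x ^ i * g) ∈ Submodule.span k (W : Set (R ⧸ kronIdeal n R₀)) :=
    fun i g hi hg => Submodule.subset_span (Finset.mem_coe.mpr (Finset.mem_image.mpr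
      ⟨(i, g), Finset.mem_product.mpr ⟨Finset.mem_range.mpr hi, hg⟩, rfl⟩))
  -- stability under multiplication by `mk x`
  have hxU : ∀ u ∈ Submodule.span k (W : Set (R ⧸ kronIdeal n R₀)),
      mk x * u ∈ Submodule.span k (W : Set (R ⧸ kronIdeal n R₀)) := by
    intro u hu
    induction hu using Submodule.span_induction with
    | mem w hw =>
      obtain ⟨⟨i, g⟩, hig, rfl⟩ := Finset.mem_image.mp (Finset.mem_coe.mp hw)
      rw [Finset.mem_product, Finset.mem_range] at hig
      by_cases hi : i + 1 < n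
      · have h1 : mk x * mk (x ^ i * g) = mk (x ^ (i + 1) * g) := by
          rw [← map_mul]
          congr 1
          ring
        rw [h1]
        exact hW _ _ hi hig.2
      · have hi' : i + 1 = n := by
          have := hig.1
          omega
        have h1 : mk x * mk (x ^ i * g) = mk (x ^ 1 * g) := by
          rw [← map_mul]
          refine Ideal.Quotient.eq.mpr ?_
          have h2 : x * (x ^ i * g) - x ^ 1 * g = (x ^ n - x) * g := by
            rw [← hi']
            ring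
          rw [h2]
          exact Ideal.mul_mem_right _ _ (pow_sub_mem_kronIdeal hx)
        rw [h1]
        exact hW _ _ hn hig.2
    | zero => simp
    | add u v _ _ hu hv =>
      rw [mul_add]
      exact Submodule.add_mem _ hu hv
    | smul c u _ hu =>
      rw [mul_smul_comm]
      exact Submodule.smul_mem _ c hu
  -- stability under multiplication by `mk a`, `a ∈ k[x]`
  have hAU : ∀ a ∈ Algebra.adjoin k {x}, ∀ u ∈ Submodule.span k (W : Set (R ⧸ kronIdeal n R₀)),
      mk a * u ∈ Submodule.span k (W : Set (R ⧸ kronIdeal n R₀)) := by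
    intro a ha
    induction ha using Algebra.adjoin_induction with
    | mem z hz =>
      rw [Set.mem_singleton_iff] at hz
      subst hz
      exact hxU
    | algebraMap c =>
      intro u hu
      rw [AlgHom.commutes, ← Algebra.smul_def]
      exact Submodule.smul_mem _ c hu
    | add a b _ _ ha hb =>
      intro u hu
      rw [map_add, add_mul]
      exact Submodule.add_mem _ (ha u hu) (hb u hu)
    | mul a b _ _ ha hb =>
      intro u hu
      rw [map_mul, mul_assoc]
      exact ha _ (hb u hu)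
  have hall : ∀ t : R, mk t ∈ Submodule.span k (W : Set (R ⧸ kronIdeal n R₀)) := by
    intro t
    have ht : t ∈ Submodule.span (Algebra.adjoin k {x}) (G : Set R) := hG ▸ Submodule.mem_top
    induction ht using Submodule.span_induction with
    | mem g hg =>
      have h1 : mk g = mk (x ^ 0 * g) := by rw [pow_zero, one_mul]
      rw [h1]
      exact hW 0 g (by omega) (Finset.mem_coe.mp hg)
    | zero => simp
    | add u v _ _ hu hv =>
      rw [map_add]
      exact Submodule.add_mem _ hu hv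
    | smul a u _ hu =>
      have h1 : mk (a • u) = mk (a : R) * mk u := by
        rw [← map_mul]
        rfl
      rw [h1]
      exact hAU a a.2 _ hu
  refine (Module.finite_def (R := k) (M := R ⧸ kronIdeal n R₀)).mpr ⟨W, ?_⟩
  rw [eq_top_iff]
  rintro y -
  obtain ⟨t, rfl⟩ := Ideal.Quotient.mk_surjective y
  exact hall t

/-! ### The Frobenius action on the points -/

variable (Φ : R →ₐ[k] R)

omit [Fact p.Prime] [CharP k p] in
theorem iterate_apply_of_mem {R₀ : Set R} (hΦ : ∀ f ∈ R₀, Φ f = f ^ p) {f : R} (hf : f ∈ R₀)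
    (j : ℕ) : (Φ ^ j) f = f ^ (p ^ j) := by
  induction j with
  | zero => simp
  | succ j ih =>
    rw [pow_succ', AlgHom.mul_apply, ih, map_pow, hΦ f hf, ← pow_mul, ← pow_succ']

omit [Fact p.Prime] [CharP k p] in
/-- `s ↦ s ∘ Φ` maps points to points. -/
theorem comp_mem_points {n : ℕ} {R₀ : Set R} (hΦ : ∀ f ∈ R₀, Φ f = f ^ p) {s : R →ₐ[k] k}
    (hs : s ∈ points n R₀) : s.comp Φ ∈ points n R₀ := by
  intro f hf
  show s (Φ f) ^ n = s (Φ f)
  rw [hΦ f hf, map_pow, ← pow_mul, mul_comm, pow_mul, hs f hf]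

omit [Fact p.Prime] [CharP k p] in
/-- `Φ ^ r` fixes the `𝔽_{p^r}`-points. -/
theorem comp_pow_eq {r : ℕ} {R₀ : Set R} (hspan : Submodule.span k R₀ = ⊤)
    (hΦ : ∀ f ∈ R₀, Φ f = f ^ p) {s : R →ₐ[k] k} (hs : s ∈ points (p ^ r) R₀) (a : R) :
    s ((Φ ^ r) a) = s a := by
  have h : (s.comp (Φ ^ r)).toLinearMap = s.toLinearMap := by
    refine LinearMap.ext_on hspan fun f hf => ?_
    show s ((Φ ^ r) f) = s f
    rw [iterate_apply_of_mem p Φ hΦ hf, map_pow, hs f hf]
  exact congrArg (fun ψ : R →ₗ[k] k => ψ a) h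

omit [Fact p.Prime] [CharP k p] in
/-- `s ↦ s ∘ Φ` is injective on the `𝔽_{p^r}`-points. -/
theorem comp_injOn {r : ℕ} (hr : 0 < r) {R₀ : Set R} (hspan : Submodule.span k R₀ = ⊤)
    (hΦ : ∀ f ∈ R₀, Φ f = f ^ p) :
    Set.InjOn (fun s : R →ₐ[k] k => s.comp Φ) (points (p ^ r) R₀) := by
  intro s hs s' hs' h
  refine AlgHom.ext fun a => ?_
  obtain ⟨j, rfl⟩ : ∃ j, r = j + 1 := ⟨r - 1, by omega⟩
  rw [← comp_pow_eq p Φ hspan hΦ hs a, ← comp_pow_eq p Φ hspan hΦ hs' a, pow_succ',
    AlgHom.mul_apply]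
  exact congrArg (fun ψ : R →ₐ[k] k => ψ ((Φ ^ j) a)) h

/-! ### At worst nodes -/

/-- **At worst nodes `z ∼ Fr z`.**  A subalgebra `B ⊆ R × R` containing the graphs `(h, Φ h)`,
`(Φ h, h)` of the relative Frobenius and the Kronecker elements `(f ^ (p ^ r) - f, 0)`,
`f ∈ R₀`, is cut out by finitely many conditions `s a = s (Φ b)`, `s` a point. -/
theorem exists_nodes [IsAlgClosed k] (r : ℕ) (hr : 0 < r) (R₀ : Set R)
    (hspan : Submodule.span k R₀ = ⊤) (hΦ : ∀ f ∈ R₀, Φ f = f ^ p)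
    (B : Subalgebra k (R × R)) (hα : ∀ h, (h, Φ h) ∈ B) (hβ : ∀ h, (Φ h, h) ∈ B)
    (hK : ∀ f ∈ R₀, (f ^ (p ^ r) - f, (0 : R)) ∈ B)
    (hfin : (points (k := k) (p ^ r) R₀).Finite) :
    ∃ T : Set (R →ₐ[k] k), T ⊆ points (p ^ r) R₀ ∧ T.Finite ∧
      ∀ a b, (a, b) ∈ B ↔ ∀ s ∈ T, s a = s (Φ b) := by
  classical
  -- `I × 0 ⊆ B`
  have hI1 : ∀ a ∈ kronIdeal (p ^ r) R₀, (a, (0 : R)) ∈ B := by
    intro a ha
    induction ha using Submodule.span_induction with
    | mem x hx =>
      obtain ⟨f, hf, rfl⟩ := hx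
      exact hK f hf
    | zero => exact B.zero_mem
    | add x y _ _ hx hy =>
      have := B.add_mem hx hy
      simpa using this
    | smul c x _ hx =>
      have := B.mul_mem (hα c) hx
      simpa using this
  -- the Kronecker elements on the second factor
  have hK2 : ∀ f ∈ R₀, ((0 : R), f ^ (p ^ r) - f) ∈ B := by
    intro f hf
    rcases subsingleton_or_nontrivial R with hsub | hnt
    · have : ((0 : R), f ^ (p ^ r) - f) = 0 := Subsingleton.elim _ _
      rw [this]
      exact B.zero_mem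
    haveI : CharP R p := charP_of_injective_algebraMap (algebraMap k R).injective p
    have hΦg : Φ (f ^ (p ^ r) - f) = (f ^ (p ^ r) - f) ^ p := by
      rw [map_sub, map_pow, hΦ f hf, sub_pow_char, ← pow_mul, ← pow_mul, mul_comm]
    have h1 := hβ (f ^ (p ^ r) - f)
    have h2 := B.pow_mem (hK f hf) p
    have h3 := B.sub_mem h1 h2
    have h4 : (Φ (f ^ (p ^ r) - f), f ^ (p ^ r) - f) - (f ^ (p ^ r) - f, (0 : R)) ^ p
        = ((0 : R), f ^ (p ^ r) - f) := by
      rw [hΦg]
      ext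
      · simp
      · simp [(Fact.out : p.Prime).ne_zero]
    rwa [h4] at h3
  have hI2 : ∀ b ∈ kronIdeal (p ^ r) R₀, ((0 : R), b) ∈ B := by
    intro b hb
    induction hb using Submodule.span_induction with
    | mem x hx =>
      obtain ⟨f, hf, rfl⟩ := hx
      exact hK2 f hf
    | zero => exact B.zero_mem
    | add x y _ _ hx hy =>
      have := B.add_mem hx hy
      simpa using this
    | smul c x _ hx =>
      have := B.mul_mem (hβ c) hx
      simpa using this
  haveI : Finite (points (k := k) (p ^ r) R₀) := hfin.to_subtype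
  let e : points (k := k) (p ^ r) R₀ → (R →ₐ[k] k) := Subtype.val
  have he : Function.Injective e := Subtype.val_injective
  have hI : ∀ a b, (∀ s, e s a = 0) → (∀ s, e s b = 0) → (a, b) ∈ B := by
    intro a b ha hb
    have ha' := mem_kronIdeal_of_characters p r hr R₀ hspan a (fun χ hχ => ha ⟨χ, hχ⟩)
    have hb' := mem_kronIdeal_of_characters p r hr R₀ hspan b (fun χ hχ => hb ⟨χ, hχ⟩)
    have := B.add_mem (hI1 a ha') (hI2 b hb')
    simpa using this
  have hmem := mem_iff_gluingSet e e he he B hI (fun a => ⟨Φ a, hα a⟩) (fun b => ⟨Φ b, hβ b⟩)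
  refine ⟨{s | ∃ (h : s ∈ points (p ^ r) R₀) (h' : s.comp Φ ∈ points (p ^ r) R₀),
      ((⟨s, h⟩, ⟨s.comp Φ, h'⟩) : points (k := k) (p ^ r) R₀ × points (k := k) (p ^ r) R₀)
        ∈ gluingSet e e B}, ?_, ?_, ?_⟩
  · rintro s ⟨h, -, -⟩
    exact h
  · refine hfin.subset ?_
    rintro s ⟨h, -, -⟩
    exact h
  · intro a b
    rw [hmem a b]
    constructor
    · rintro h s ⟨hs, hs', hmemG⟩
      exact h _ hmemG
    · intro h pr hpr
      -- the second point of a glued pair is the Frobenius image of the first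
      have hcomp : pr.2.1 = pr.1.1.comp Φ := by
        refine AlgHom.ext fun c => ?_
        exact (hpr (Φ c, c) (hβ c)).symm
      have hmemT : pr.1.1 ∈ {s : R →ₐ[k] k | ∃ (h : s ∈ points (p ^ r) R₀)
          (h' : s.comp Φ ∈ points (p ^ r) R₀),
          ((⟨s, h⟩, ⟨s.comp Φ, h'⟩) : points (k := k) (p ^ r) R₀ × points (k := k) (p ^ r) R₀)
            ∈ gluingSet e e B} := by
        refine ⟨pr.1.2, hcomp ▸ pr.2.2, ?_⟩
        have hpair : ((⟨pr.1.1, pr.1.2⟩, ⟨pr.1.1.comp Φ, hcomp ▸ pr.2.2⟩) :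
            points (k := k) (p ^ r) R₀ × points (k := k) (p ^ r) R₀) = pr := by
          refine Prod.ext rfl (Subtype.ext ?_)
          exact hcomp.symm
        rw [hpair]
        exact hpr
      have := h _ hmemT
      show pr.1.1 a = pr.2.1 b
      rw [hcomp]
      exact this

end Reduced

end Fermat.Agent.BAD.KroneckerNodal
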