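import Mathlib
import Fermat.Agent.BAD.KroneckerNodal
import Fermat.Agent.BAD.NodalPlaces
import Fermat.Agent.BAD.TwoVal.Semilocal
import Fermat.Agent.ESJ.Cong.FrobAut
import Fermat.Agent.Lib.Descent.Laurent
import Fermat.Agent.Lib.FF.SettingP
import Fermat.Agent.Lib.FF.IntP

/-!
# BAD (S1): the special fibre at a bad prime is glued along `𝔽_{ℓ²}`-points — modular instance

Setting of `BAD/TwoVal`: `F_N = L·F_{Mℓ}` with the two valuation rings `O_∞`, `O_0`, the semi-local
ring `OPair = O_∞ ∩ O_0` and `redPair : OPair →+* κ × κ`, `κ` the mod-`ℓ` function field of level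
`M`.  `Φ = vHom k ℓ M` is `q ↦ q^ℓ` (`k`-linear), `σ = frobAut k ℓ M` the coefficientwise Frobenius
(`Φ f = (σ⁻¹ f)^ℓ`).

* char-`ℓ` side: `phiAlg`, `phiRes` (restriction of `Φ` to a stable subalgebra `Rc ⊆ κ`),
  `fixedSet` (the `σ`-fixed elements; on them `Φ f = f^ℓ`: `phiRes_eq_pow`),
  `span_fixedSet` (`σ`-descent: `Rc` is spanned by its `σ`-fixed elements as soon as it is
  exhausted by finite-dimensional `σ`-stable subspaces; `Lib.Descent.le_span_fixed` on Laurent
  coefficients);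
* chart rings: for a `σ`-fixed `t ∈ κ` with `IsFF1 k κ t`, the chart ring
  `NodalPlaces.finRing k t` satisfies all of this: `vHom_mem_finRing`, `exists_stable_finRing`,
  `finite_finRing`;
* **`exists_nodes_of_lifts`** (chart-agnostic): if every `f ∈ Rc` lifts to `H` at level `M` with
  `α H, β H ∈ Rg` (`Rg` a subring of `OPair` containing `A`), then the pairs of `Rc × Rc` which
  are reductions of elements of `Rg` are exactly those with `s a = s (Φ b)` for `s` in a finite set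
  `T` of `𝔽_{ℓ²}`-points (characters of `Rc`);
* **`exists_nodes_finRing`**: the same for `Rc = finRing k t`.
-/

set_option autoImplicit false
set_option linter.style.haveILetI false

noncomputable section

namespace Fermat.Agent.BAD.SpecialFibre

open HahnSeries ModularCurve AlgebraicCurve WithZero
open Fermat.Agent.Lib.Red Fermat.Agent.Lib.FF Fermat.Agent.Lib.Descent
open Fermat.Agent.ESJ.Cong.FrobAut Fermat.Agent.BAD.TwoVal Fermat.Agent.BAD.KroneckerNodal
open Fermat.Agent.BAD.NodalPlaces Fermat.Agent.BAD.NodalCech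

/-! ### Semilinear automorphisms and chart rings -/

section Semilinear

variable {K F : Type*} [Field K] [Field F] [Algebra K F]

theorem val_smul (g : SemilinearAut K F) (P : Place K F) (f : F) :
    (g • P).adicValuation (g • f) = P.adicValuation f := by
  rcases eq_or_ne f 0 with rfl | hf
  · simp
  · have hgf : g • f ≠ 0 := (smul_ne_zero_iff_ne _).mpr hf
    rw [Place.adicValuation_eq_exp_neg_ord _ hgf, Place.adicValuation_eq_exp_neg_ord _ hf,
      SemilinearAut.ord_smul]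

theorem val_smul' (g : SemilinearAut K F) (P : Place K F) (f : F) :
    P.adicValuation (g • f) = (g⁻¹ • P).adicValuation f := by
  have h := val_smul g (g⁻¹ • P) f
  rwa [smul_inv_smul] at h

/-- A semilinear automorphism fixing `x` preserves the chart ring of `x`. -/
theorem smul_mem_finRing (g : SemilinearAut K F) {x : F} (hx : g • x = x) {a : F}
    (ha : a ∈ finRing K x) : g • a ∈ finRing K x := by
  intro P hP
  rw [val_smul']
  apply ha
  rw [← val_smul', hx]
  exact hP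

/-- A semilinear automorphism fixing `x` preserves the spaces `L(n·(x)_∞)`. -/
theorem smul_mem_L (g : SemilinearAut K F) {x : F} (h : IsFF1 K F x) (hx : g • x = x) (n : ℕ)
    {a : F} (ha : a ∈ riemannRochSpace (n • h.poleDiv)) :
    g • a ∈ riemannRochSpace (n • h.poleDiv) := by
  rw [mem_L_nsmul_poleDiv_iff] at ha ⊢
  refine ⟨smul_mem_finRing g hx ha.1, fun P hP => ?_⟩
  have e : x⁻¹ ^ n * g • a = g • (x⁻¹ ^ n * a) := by
    rw [smul_mul', smul_pow', smul_inv'', hx]
  rw [e, val_smul']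
  apply ha.2
  rw [← val_smul', hx]
  exact hP

/-- A function regular where `x` is regular lies in some `L(n·(x)_∞)`. -/
theorem exists_mem_L_of_mem_finRing {x : F} (h : IsFF1 K F x) {a : F} (ha : a ∈ finRing K x) :
    ∃ n : ℕ, a ∈ riemannRochSpace (n • h.poleDiv) := by
  have hx0 : x ≠ 0 := fun h0 => h.transcendental (h0 ▸ isAlgebraic_zero)
  haveI := h.hasPrincipalDivisors
  obtain ⟨m, hm⟩ := exists_pow_mul_val_lt_one (K := K) (inv_ne_zero hx0) a
  refine ⟨m, (mem_L_nsmul_poleDiv_iff h m a).mpr ⟨ha, fun P hP => ?_⟩⟩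
  rcases hP.lt_or_eq with hlt | heq
  · refine (hm m le_rfl P ?_).le
    rw [map_inv₀]
    exact inv_lt_one_of_one_lt₀ hlt
  · rw [map_mul, map_pow, map_inv₀, ← heq, inv_one, one_pow, one_mul]
    exact ha P heq.symm.le

/-- The chart ring is a finite module over `K[x]`. -/
theorem finite_finRing [PerfectField K] {x : F} (h : IsFF1 K F x) :
    Module.Finite (Algebra.adjoin K {(⟨x, self_mem_finRing⟩ : finRing K x)}) (finRing K x) := by
  classical
  haveI := h.finiteDimensional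
  have hI := IntP.finite_integralClosure x h.transcendental
  obtain ⟨G, hG⟩ := hI.fg_top
  set t : finRing K x := ⟨x, self_mem_finRing⟩ with ht
  have hmem : ∀ z : F, IsIntegral (Algebra.adjoin K {x}) z → z ∈ finRing K x :=
    fun z hz => (mem_finRing_iff_isIntegral h z).mpr hz
  let G' : Finset (finRing K x) :=
    G.image (fun g : integralClosure (Algebra.adjoin K {x}) F =>
      (⟨(g : F), hmem _ g.2⟩ : finRing K x))
  have hadj : ∀ a : Algebra.adjoin K {x}, ∃ a' ∈ Algebra.adjoin K {t}, ((a' : finRing K x) : F) = a := by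
    intro a
    have h1 : (Algebra.adjoin K {t}).map (finRing K x).val = Algebra.adjoin K {x} := by
      rw [AlgHom.map_adjoin_singleton]
      rfl
    have h2 : (a : F) ∈ (Algebra.adjoin K {t}).map (finRing K x).val := by
      rw [h1]
      exact a.2
    obtain ⟨a', ha', e⟩ := h2
    exact ⟨a', ha', e⟩
  refine ⟨⟨G', ?_⟩⟩
  rw [eq_top_iff]
  rintro r -
  have hr : (⟨(r : F), (mem_finRing_iff_isIntegral h _).mp r.2⟩ :
      integralClosure (Algebra.adjoin K {x}) F) ∈
      Submodule.span (Algebra.adjoin K {x}) (G : Set (integralClosure (Algebra.adjoin K {x}) F)) := by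
    rw [hG]
    exact Submodule.mem_top
  have key : ∀ z ∈ Submodule.span (Algebra.adjoin K {x})
      (G : Set (integralClosure (Algebra.adjoin K {x}) F)),
      (⟨(z : F), hmem _ z.2⟩ : finRing K x) ∈
        Submodule.span (Algebra.adjoin K {t}) (G' : Set (finRing K x)) := by
    intro z hz
    induction hz using Submodule.span_induction with
    | mem g hg =>
      exact Submodule.subset_span (Finset.mem_coe.mpr (Finset.mem_image.mpr ⟨g, hg, rfl⟩))
    | zero => exact Submodule.zero_mem _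
    | add u v _ _ hu hv => exact Submodule.add_mem _ hu hv
    | smul a u _ hu =>
      obtain ⟨a', ha', e⟩ := hadj a
      have e2 : (⟨((a • u : integralClosure (Algebra.adjoin K {x}) F) : F), hmem _ (a • u).2⟩ :
          finRing K x) = (⟨a', ha'⟩ : Algebra.adjoin K {t}) • (⟨(u : F), hmem _ u.2⟩ : finRing K x) := by
        apply Subtype.ext
        show ((a • u : integralClosure (Algebra.adjoin K {x}) F) : F) = (a' : F) * (u : F)
        rw [e]
        rfl
      rw [e2]
      exact Submodule.smul_mem _ _ hu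
  exact key _ hr

end Semilinear

/-! ### The characteristic-`ℓ` side -/

section CharL

variable (k : Type*) [Field k] (ℓ : ℕ) [Fact ℓ.Prime] [CharP k ℓ] [PerfectRing k ℓ] (M : ℕ)

/-- `q ↦ q^ℓ` as a `k`-algebra endomorphism of the mod-`ℓ` function field of level `M`. -/
def phiAlg : modularFunctionFieldFullC k M →ₐ[k] modularFunctionFieldFullC k M :=
  { vHom k ℓ M with
    commutes' := fun a => Subtype.ext (by
      show qExpand k ℓ (algebraMap k (LaurentSeries k) a) = algebraMap k (LaurentSeries k) a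
      rw [algebraMap_laurentSeries_eq_single, qExpand_single, mul_zero]) }

@[simp]
theorem phiAlg_apply (f : modularFunctionFieldFullC k M) : phiAlg k ℓ M f = vHom k ℓ M f := rfl

/-- The `σ`-fixed elements of a subalgebra (`σ` the coefficientwise Frobenius). -/
def fixedSet (Rc : Subalgebra k (modularFunctionFieldFullC k M)) : Set ↥Rc :=
  {f | frobAut k ℓ M • (f : modularFunctionFieldFullC k M) = f}

variable {k ℓ M}

theorem mem_fixedSet {Rc : Subalgebra k (modularFunctionFieldFullC k M)} {f : ↥Rc} :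
    f ∈ fixedSet k ℓ M Rc ↔ frobAut k ℓ M • (f : modularFunctionFieldFullC k M) = f := Iff.rfl

/-- `σ f = f` iff `f(q^ℓ) = f^ℓ`. -/
theorem frobAut_smul_eq_iff (f : modularFunctionFieldFullC k M) :
    frobAut k ℓ M • f = f ↔ vHom k ℓ M f = f ^ ℓ := by
  constructor
  · intro h
    rw [vHom_eq_pow, inv_smul_eq_iff.mpr h.symm]
  · intro h
    have h1 : vHom k ℓ M (frobAut k ℓ M • f) = vHom k ℓ M f := by
      rw [vHom_frobAut_smul, h]
    exact (vHom k ℓ M).injective h1

/-- The restriction of `Φ` to a stable subalgebra. -/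
def phiRes (Rc : Subalgebra k (modularFunctionFieldFullC k M))
    (hΦ : ∀ f ∈ Rc, vHom k ℓ M f ∈ Rc) : ↥Rc →ₐ[k] ↥Rc :=
  ((phiAlg k ℓ M).comp Rc.val).codRestrict Rc (fun f => hΦ f f.2)

@[simp]
theorem coe_phiRes (Rc : Subalgebra k (modularFunctionFieldFullC k M))
    (hΦ : ∀ f ∈ Rc, vHom k ℓ M f ∈ Rc) (f : ↥Rc) :
    ((phiRes Rc hΦ f : ↥Rc) : modularFunctionFieldFullC k M) = vHom k ℓ M f := rfl

theorem phiRes_eq_pow (Rc : Subalgebra k (modularFunctionFieldFullC k M))
    (hΦ : ∀ f ∈ Rc, vHom k ℓ M f ∈ Rc) {f : ↥Rc} (hf : f ∈ fixedSet k ℓ M Rc) :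
    phiRes Rc hΦ f = f ^ ℓ := by
  apply Subtype.ext
  rw [coe_phiRes, (frobAut_smul_eq_iff _).mp hf]
  rfl

/-- **`σ`-descent**: a subalgebra exhausted by finite-dimensional `σ`-stable subspaces is spanned
by its `σ`-fixed elements. -/
theorem span_fixedSet (Rc : Subalgebra k (modularFunctionFieldFullC k M))
    (hex : ∀ f ∈ Rc, ∃ W : Submodule k (modularFunctionFieldFullC k M), Module.Finite k W ∧
      (∀ g ∈ W, g ∈ Rc) ∧ f ∈ W ∧ ∀ g ∈ W, frobAut k ℓ M • g ∈ W) :
    Submodule.span k (fixedSet k ℓ M Rc) = ⊤ := by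
  rw [eq_top_iff]
  rintro ⟨f, hf⟩ -
  obtain ⟨W, hWfin, hWR, hfW, hWσ⟩ := hex f hf
  let c : modularFunctionFieldFullC k M →ₗ[k] (ℤ → k) :=
    { toFun := fun g i => (g : LaurentSeries k).coeff i
      map_add' := fun _ _ => rfl
      map_smul' := fun a g => funext fun i => by
        show ((a • g : modularFunctionFieldFullC k M) : LaurentSeries k).coeff i =
          a * (g : LaurentSeries k).coeff i
        rw [IntermediateField.coe_smul, Algebra.smul_def, algebraMap_laurentSeries_eq_single]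
        exact coeff_C_mul a _ i }
  have hc : Function.Injective c := fun g g' hgg' =>
    Subtype.ext (coeffLin_injective (Ω := k) hgg')
  have hcσ : ∀ g : modularFunctionFieldFullC k M, ∀ i, c (frobAut k ℓ M • g) i = frobenius k ℓ (c g i) :=
    fun g i => coeff_frobAut_smul k ℓ M g i
  let W' : Submodule k (ℤ → k) := W.map c
  haveI : FiniteDimensional k W' := Module.Finite.map W c
  have hst : ∀ φ ∈ ({frobenius k ℓ} : Set (k →+* k)), ∀ x ∈ W', (fun i => φ (x i)) ∈ W' := by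
    rintro φ rfl x ⟨g, hg, rfl⟩
    exact ⟨frobAut k ℓ M • g, hWσ g hg, funext fun i => hcσ g i⟩
  have h1 := le_span_fixed W' {frobenius k ℓ} hst (Submodule.mem_map_of_mem hfW)
  have hsub : {x | x ∈ W' ∧ ∀ φ ∈ ({frobenius k ℓ} : Set (k →+* k)), ∀ i, φ (x i) = x i} ⊆
      c '' {g | g ∈ W ∧ frobAut k ℓ M • g = g} := by
    rintro x ⟨⟨g, hg, rfl⟩, hx⟩
    refine ⟨g, ⟨hg, hc (funext fun i => ?_)⟩, rfl⟩
    rw [hcσ]
    exact hx _ rfl i
  have h2 := Submodule.span_mono hsub h1
  rw [Submodule.span_image] at h2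
  obtain ⟨f', hf', hff'⟩ := h2
  obtain rfl : f' = f := hc hff'
  have h3 : Submodule.span k {g | g ∈ W ∧ frobAut k ℓ M • g = g} ≤
      (Submodule.span k (fixedSet k ℓ M Rc)).map Rc.val.toLinearMap := by
    rw [Submodule.span_le]
    rintro g ⟨hg, hgσ⟩
    exact ⟨⟨g, hWR g hg⟩, Submodule.subset_span hgσ, rfl⟩
  obtain ⟨f'', hf'', e⟩ := h3 hf'
  obtain rfl : f'' = ⟨f', hf⟩ := Subtype.ext e
  exact hf''

/-! #### Chart rings -/

/-- `Φ` preserves the chart ring of a `σ`-fixed function. -/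
theorem vHom_mem_finRing {t : modularFunctionFieldFullC k M} (ht : frobAut k ℓ M • t = t)
    {f : modularFunctionFieldFullC k M} (hf : f ∈ finRing k t) : vHom k ℓ M f ∈ finRing k t := by
  rw [vHom_eq_pow]
  exact pow_mem (smul_mem_finRing _ (inv_smul_eq_iff.mpr ht.symm) hf) ℓ

/-- The chart ring of a `σ`-fixed function is exhausted by finite-dimensional `σ`-stable
subspaces. -/
theorem exists_stable_finRing {t : modularFunctionFieldFullC k M}
    (h : IsFF1 k (modularFunctionFieldFullC k M) t) (ht : frobAut k ℓ M • t = t) :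
    ∀ f ∈ finRing k t, ∃ W : Submodule k (modularFunctionFieldFullC k M), Module.Finite k W ∧
      (∀ g ∈ W, g ∈ finRing k t) ∧ f ∈ W ∧ ∀ g ∈ W, frobAut k ℓ M • g ∈ W := by
  intro f hf
  obtain ⟨n, hn⟩ := exists_mem_L_of_mem_finRing h hf
  exact ⟨riemannRochSpace (n • h.poleDiv), h.finite_L _,
    fun g hg => ((mem_L_nsmul_poleDiv_iff h n g).mp hg).1, hn,
    fun g hg => smul_mem_L _ h ht n hg⟩

end CharL

/-! ### The two-valuation layer: at worst nodes `z ∼ Fr z` -/

section Main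

variable {L : Type*} [Field L] [Algebra ℚ L] {A : ValuationSubring L} {k : Type} [Field k]
  {π : A →+* k} {M ℓ : ℕ} [NeZero M] [NeZero ℓ]
  {W : laurentBaseChange L (modularFunctionFieldFull (M * ℓ)) ≃ₐ[L]
    laurentBaseChange L (modularFunctionFieldFull (M * ℓ))}

/-- The pairs of `Rc × Rc` which are reductions of elements of the subring `Rg ≤ OPair`. -/
def redSub (h : BadSetup A π M ℓ) (hsurj : Function.Surjective π)
    (Rc : Subalgebra k (modularFunctionFieldFullC k M))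
    (Rg : Subring ↥(laurentBaseChange L (modularFunctionFieldFull (M * ℓ))))
    (hRgO : Rg ≤ OPair h W)
    (hconst : ∀ a : A,
      algebraMap L ↥(laurentBaseChange L (modularFunctionFieldFull (M * ℓ))) (a : L) ∈ Rg) :
    Subalgebra k (↥Rc × ↥Rc) where
  carrier := {p | ∃ (y : ↥(laurentBaseChange L (modularFunctionFieldFull (M * ℓ))))
    (hy : y ∈ Rg), redPair h W ⟨y, hRgO hy⟩ =
      ((p.1 : modularFunctionFieldFullC k M), (p.2 : modularFunctionFieldFullC k M))}
  mul_mem' := by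
    rintro p q ⟨y₁, hy₁, e₁⟩ ⟨y₂, hy₂, e₂⟩
    refine ⟨y₁ * y₂, Rg.mul_mem hy₁ hy₂, ?_⟩
    have e : (⟨y₁ * y₂, hRgO (Rg.mul_mem hy₁ hy₂)⟩ : OPair h W) =
        ⟨y₁, hRgO hy₁⟩ * ⟨y₂, hRgO hy₂⟩ := rfl
    rw [e, map_mul, e₁, e₂]
    rfl
  add_mem' := by
    rintro p q ⟨y₁, hy₁, e₁⟩ ⟨y₂, hy₂, e₂⟩
    refine ⟨y₁ + y₂, Rg.add_mem hy₁ hy₂, ?_⟩
    have e : (⟨y₁ + y₂, hRgO (Rg.add_mem hy₁ hy₂)⟩ : OPair h W) =
        ⟨y₁, hRgO hy₁⟩ + ⟨y₂, hRgO hy₂⟩ := rfl
    rw [e, map_add, e₁, e₂]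
    rfl
  algebraMap_mem' := by
    intro c
    obtain ⟨a, rfl⟩ := hsurj c
    refine ⟨_, hconst a, ?_⟩
    rw [redPair_algebraMap h a]
    rfl

theorem mem_redSub (h : BadSetup A π M ℓ) (hsurj : Function.Surjective π)
    (Rc : Subalgebra k (modularFunctionFieldFullC k M))
    (Rg : Subring ↥(laurentBaseChange L (modularFunctionFieldFull (M * ℓ))))
    (hRgO : Rg ≤ OPair h W)
    (hconst : ∀ a : A,
      algebraMap L ↥(laurentBaseChange L (modularFunctionFieldFull (M * ℓ))) (a : L) ∈ Rg)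
    (a b : ↥Rc) :
    (a, b) ∈ redSub h hsurj Rc Rg hRgO hconst ↔
      ∃ (y : ↥(laurentBaseChange L (modularFunctionFieldFull (M * ℓ)))) (hy : y ∈ Rg),
        redPair h W ⟨y, hRgO hy⟩ =
          ((a : modularFunctionFieldFullC k M), (b : modularFunctionFieldFullC k M)) := Iff.rfl

variable [Fact ℓ.Prime] [CharP k ℓ] [IsAlgClosed k]

/-- **(S1), chart-agnostic form.**  `Rc ⊆ κ` a `k`-subalgebra stable under `Φ` (`q ↦ q^ℓ`),
exhausted by finite-dimensional `σ`-stable subspaces, module-finite over `k[t]` for a `σ`-fixed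
`t ∈ Rc`; `Rg` a subring of `OPair` containing `A`.  If every `f ∈ Rc` lifts to a function `H` of
level `M` (in the Gauss ring, `red H = f`) with `α H, β H ∈ Rg`, then the set of pairs
`(a, b) ∈ Rc × Rc` which are reductions of elements of `Rg` is cut out by finitely many conditions
`s a = s (Φ b)`, `s` an `𝔽_{ℓ²}`-point of `Rc`. -/
theorem exists_nodes_of_lifts (h : BadSetup A π M ℓ) (hW : IsAL M ℓ W)
    (hsurj : Function.Surjective π)
    (Rc : Subalgebra k (modularFunctionFieldFullC k M))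
    (hRΦ : ∀ f ∈ Rc, vHom k ℓ M f ∈ Rc)
    (hex : ∀ f ∈ Rc, ∃ W' : Submodule k (modularFunctionFieldFullC k M), Module.Finite k W' ∧
      (∀ g ∈ W', g ∈ Rc) ∧ f ∈ W' ∧ ∀ g ∈ W', frobAut k ℓ M • g ∈ W')
    (t : ↥Rc) (ht : t ∈ fixedSet k ℓ M Rc) (hfin : Module.Finite (Algebra.adjoin k {t}) ↥Rc)
    (Rg : Subring ↥(laurentBaseChange L (modularFunctionFieldFull (M * ℓ))))
    (hRgO : Rg ≤ OPair h W)
    (hconst : ∀ a : A,
      algebraMap L ↥(laurentBaseChange L (modularFunctionFieldFull (M * ℓ))) (a : L) ∈ Rg)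
    (hlift : ∀ f ∈ Rc, ∃ (H : ↥(laurentBaseChange L (modularFunctionFieldFull M)))
      (hH : H ∈ Ow A π M h.hMk), redF A π M h.hπ h.hMk ⟨H, hH⟩ = f ∧
        heckeAlphaBar L M ℓ H ∈ Rg ∧ heckeBetaBar L M ℓ H ∈ Rg) :
    ∃ T : Set (↥Rc →ₐ[k] k), T ⊆ points (ℓ ^ 2) (fixedSet k ℓ M Rc) ∧ T.Finite ∧
      ∀ a b : ↥Rc,
        (∃ (y : ↥(laurentBaseChange L (modularFunctionFieldFull (M * ℓ)))) (hy : y ∈ Rg),
          redPair h W ⟨y, hRgO hy⟩ =
            ((a : modularFunctionFieldFullC k M), (b : modularFunctionFieldFullC k M))) ↔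
        ∀ s ∈ T, s a = s (phiRes Rc hRΦ b) := by
  set B := redSub h hsurj Rc Rg hRgO hconst with hB
  have hα : ∀ f : ↥Rc, (f, phiRes Rc hRΦ f) ∈ B := by
    intro f
    obtain ⟨H, hH, hHf, hHα, -⟩ := hlift f f.2
    refine ⟨heckeAlphaBar L M ℓ H, hHα, ?_⟩
    rw [redPair_mk]
    refine Prod.ext ?_ (Subtype.ext ?_)
    · show redInf h ⟨_, _⟩ = (f : modularFunctionFieldFullC k M)
      rw [redInf_heckeAlphaBar h H hH, hHf]
    · show ((redZero h W ⟨_, _⟩ : modularFunctionFieldFullC k M) : LaurentSeries k) = _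
      rw [coe_redZero_heckeAlphaBar h hW H hH, hHf]
      rfl
  have hβ : ∀ f : ↥Rc, (phiRes Rc hRΦ f, f) ∈ B := by
    intro f
    obtain ⟨H, hH, hHf, -, hHβ⟩ := hlift f f.2
    refine ⟨heckeBetaBar L M ℓ H, hHβ, ?_⟩
    rw [redPair_mk]
    refine Prod.ext (Subtype.ext ?_) ?_
    · show ((redInf h ⟨_, _⟩ : modularFunctionFieldFullC k M) : LaurentSeries k) = _
      rw [coe_redInf_heckeBetaBar h H hH, hHf]
      rfl
    · show redZero h W ⟨_, _⟩ = (f : modularFunctionFieldFullC k M)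
      rw [redZero_heckeBetaBar h hW H hH, hHf]
  have hΦ : ∀ f ∈ fixedSet k ℓ M Rc, phiRes Rc hRΦ f = f ^ ℓ :=
    fun f hf => phiRes_eq_pow Rc hRΦ hf
  have hK : ∀ f ∈ fixedSet k ℓ M Rc, (f ^ (ℓ ^ 2) - f, (0 : ↥Rc)) ∈ B := by
    intro f hf
    have h3 := B.sub_mem (B.pow_mem (hβ f) ℓ) (hα f)
    rw [hΦ f hf] at h3
    have e : ((f ^ ℓ, f) ^ ℓ - (f, f ^ ℓ) : ↥Rc × ↥Rc) = (f ^ (ℓ ^ 2) - f, 0) := by
      refine Prod.ext ?_ ?_
      · show (f ^ ℓ) ^ ℓ - f = f ^ (ℓ ^ 2) - f
        rw [← pow_mul, sq]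
      · show f ^ ℓ - f ^ ℓ = 0
        rw [sub_self]
    rwa [e] at h3
  have hspan := span_fixedSet Rc hex
  have hℓ2 : 1 < ℓ ^ 2 := Nat.one_lt_pow two_ne_zero (Fact.out : ℓ.Prime).one_lt
  haveI := finite_quotient_kronIdeal (k := k) (ℓ ^ 2) hℓ2 (fixedSet k ℓ M Rc) ht hfin
  have hpts := finite_points (k := k) (ℓ ^ 2) (fixedSet k ℓ M Rc)
  obtain ⟨T, hT, hTfin, hTB⟩ := exists_nodes ℓ (phiRes Rc hRΦ) 2 two_pos
    (fixedSet k ℓ M Rc) hspan hΦ B hα hβ hK hpts
  exact ⟨T, hT, hTfin, fun a b => hTB a b⟩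

/-- **(S1) for a chart ring.**  `t ∈ κ` a `σ`-fixed transcendental function; `Rc` the ring of the
functions regular where `t` is regular. -/
theorem exists_nodes_finRing (h : BadSetup A π M ℓ) (hW : IsAL M ℓ W)
    (hsurj : Function.Surjective π)
    (t : modularFunctionFieldFullC k M) (hFt : IsFF1 k (modularFunctionFieldFullC k M) t)
    (ht : frobAut k ℓ M • t = t)
    (Rg : Subring ↥(laurentBaseChange L (modularFunctionFieldFull (M * ℓ))))
    (hRgO : Rg ≤ OPair h W)
    (hconst : ∀ a : A,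
      algebraMap L ↥(laurentBaseChange L (modularFunctionFieldFull (M * ℓ))) (a : L) ∈ Rg)
    (hlift : ∀ f ∈ finRing k t, ∃ (H : ↥(laurentBaseChange L (modularFunctionFieldFull M)))
      (hH : H ∈ Ow A π M h.hMk), redF A π M h.hπ h.hMk ⟨H, hH⟩ = f ∧
        heckeAlphaBar L M ℓ H ∈ Rg ∧ heckeBetaBar L M ℓ H ∈ Rg) :
    ∃ T : Set (↥(finRing k t) →ₐ[k] k), T ⊆ points (ℓ ^ 2) (fixedSet k ℓ M (finRing k t)) ∧
      T.Finite ∧
      ∀ a b : ↥(finRing k t),
        (∃ (y : ↥(laurentBaseChange L (modularFunctionFieldFull (M * ℓ)))) (hy : y ∈ Rg),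
          redPair h W ⟨y, hRgO hy⟩ =
            ((a : modularFunctionFieldFullC k M), (b : modularFunctionFieldFullC k M))) ↔
        ∀ s ∈ T, s a = s (phiRes (finRing k t) (fun _ hf => vHom_mem_finRing ht hf) b) :=
  exists_nodes_of_lifts h hW hsurj (finRing k t) (fun _ hf => vHom_mem_finRing ht hf)
    (exists_stable_finRing hFt ht) ⟨t, self_mem_finRing⟩ ht (finite_finRing hFt) Rg hRgO hconst
    hlift

end Main

end Fermat.Agent.BAD.SpecialFibre
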