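import Mathlib
import Fermat.Agent.BAD.SpecialFibre
import Fermat.Agent.Lib.FF.Holo

/-!
# BAD (S1): the two charts of the special fibre at a bad prime

Level-`M` base function `y` (abstract: `J_M`, or a Hauptmodul), `ȳ` its reduction,
`Y1 = α y`, `Y2 = β y`, coordinate `x = Y1 · Y2` at level `Mℓ` (`xN`), with reductions
`(ȳ^(ℓ+1), ȳ^(ℓ+1))`.

* `chartRing h W x` : the elements of `OPair` integral over `L[x]`;
* `ord_nonneg_of_ord_mul_nonneg`, `ord_nonpos_of_ord_mul_nonpos` : if `Y1`, `Y2` are integral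
  over each other (monic modular equation), then `Y1`, `Y2` are regular where `Y1·Y2` is, and
  nonzero where `Y1·Y2` is nonzero;
* `exists_nodes_chart_fin` : chart `x ≠ ∞`, lifts from RED's `hT3`;
* `exists_nodes_chart_inf` : chart `x ≠ 0`, lifts from RED's `hT3'`; with `(C2)`
  (`ℓ · ord_P Y1 ≤ ord_P Y2` at the poles of `Y1`) the cusps are not glued: `s(1/x̄) ≠ 0` for every
  node `s`.
-/

set_option autoImplicit false
set_option linter.style.haveILetI false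
set_option linter.unusedSectionVars false

noncomputable section

namespace Fermat.Agent.BAD.SpecialFibre

open HahnSeries ModularCurve AlgebraicCurve WithZero
open Fermat.Agent.Lib.Red Fermat.Agent.Lib.FF
open Fermat.Agent.ESJ.Cong.FrobAut Fermat.Agent.BAD.TwoVal Fermat.Agent.BAD.KroneckerNodal
open Fermat.Agent.BAD.NodalPlaces

/-! ### Generic lemmas -/

section Generic

variable {K F : Type*} [Field K] [Field F] [Algebra K F]

theorem val_le_one_iff_ord_nonneg (P : Place K F) (f : F) :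
    P.adicValuation f ≤ 1 ↔ 0 ≤ P.ord f := by
  rw [P.adicValuation_le_one_iff]
  constructor
  · rintro (rfl | h)
    · rw [Place.ord_zero]
    · exact h
  · exact Or.inr

theorem ord_pow_nat (P : Place K F) (f : F) (n : ℕ) : P.ord (f ^ n) = n * P.ord f := by
  rw [← zpow_natCast, Place.ord_zpow]

/-- The chart ring of a power is the chart ring. -/
theorem finRing_pow (x : F) {n : ℕ} (hn : n ≠ 0) : finRing K (x ^ n) = finRing K x := by
  ext a
  simp only [mem_finRing]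
  refine forall_congr' fun P => ?_
  rw [map_pow, pow_le_one_iff hn]

/-- If `Y1`, `Y2` are integral over each other, they are regular where `Y1 · Y2` is regular. -/
theorem ord_nonneg_of_ord_mul_nonneg {Y1 Y2 : F}
    (h12 : IsIntegral (Algebra.adjoin K {Y2}) Y1) (h21 : IsIntegral (Algebra.adjoin K {Y1}) Y2)
    (hY1 : Y1 ≠ 0) (hY2 : Y2 ≠ 0) (P : Place K F) (hP : 0 ≤ P.ord (Y1 * Y2)) :
    0 ≤ P.ord Y1 ∧ 0 ≤ P.ord Y2 := by
  rw [P.ord_mul hY1 hY2] at hP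
  by_contra hcon
  rcases not_and_or.mp hcon with h1 | h2
  · have h2' : P.ord Y2 < 0 := by
      by_contra h2'
      exact h1 (Holo.ord_nonneg_of_isIntegral h12 P (not_lt.mp h2'))
    omega
  · have h1' : P.ord Y1 < 0 := by
      by_contra h1'
      exact h2 (Holo.ord_nonneg_of_isIntegral h21 P (not_lt.mp h1'))
    omega

/-- If `Y1`, `Y2` are integral over each other, they do not vanish where `Y1 · Y2` does not. -/
theorem ord_nonpos_of_ord_mul_nonpos {Y1 Y2 : F}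
    (h12 : IsIntegral (Algebra.adjoin K {Y2}) Y1) (h21 : IsIntegral (Algebra.adjoin K {Y1}) Y2)
    (hY1 : Y1 ≠ 0) (hY2 : Y2 ≠ 0) (P : Place K F) (hP : P.ord (Y1 * Y2) ≤ 0) :
    P.ord Y1 ≤ 0 ∧ P.ord Y2 ≤ 0 := by
  rw [P.ord_mul hY1 hY2] at hP
  by_contra hcon
  rcases not_and_or.mp hcon with h1 | h2
  · have h1' : 0 < P.ord Y1 := not_le.mp h1
    have h2' : 0 ≤ P.ord Y2 := Holo.ord_nonneg_of_isIntegral h21 P h1'.le
    omega
  · have h2' : 0 < P.ord Y2 := not_le.mp h2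
    have h1' : 0 ≤ P.ord Y1 := Holo.ord_nonneg_of_isIntegral h12 P h2'.le
    omega

/-- Integrality over `K[y]` is transported by `K`-algebra homomorphisms. -/
theorem isIntegral_map_adjoin {F' : Type*} [Field F'] [Algebra K F'] (φ : F →ₐ[K] F') {y H : F}
    (hH : IsIntegral (Algebra.adjoin K {y}) H) : IsIntegral (Algebra.adjoin K {φ y}) (φ H) := by
  have hmap : ∀ a : Algebra.adjoin K {y}, φ a ∈ Algebra.adjoin K {φ y} := by
    intro a
    rw [← AlgHom.map_adjoin_singleton φ y]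
    exact ⟨a, a.2, rfl⟩
  let ψ : Algebra.adjoin K {y} →+* Algebra.adjoin K {φ y} :=
    { toFun := fun a => ⟨φ a, hmap a⟩
      map_one' := Subtype.ext (map_one φ)
      map_mul' := fun a b => Subtype.ext (map_mul φ _ _)
      map_zero' := Subtype.ext (map_zero φ)
      map_add' := fun a b => Subtype.ext (map_add φ _ _) }
  exact IsIntegral.map_of_comp_eq ψ (φ : F →+* F') (RingHom.ext fun a => rfl) hH

theorem field_identity (z : F) (n : ℕ) (hz : z ≠ 0) :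
    z * ((z ^ (n + 1))⁻¹) ^ (n + 1) = ((z ^ (n + 2))⁻¹) ^ n := by
  rw [inv_pow, inv_pow, ← pow_mul, ← pow_mul]
  field_simp
  ring

theorem field_identity' (z : F) (l : ℕ) (hl : 0 < l) (hz : z ≠ 0) :
    z * ((z ^ l)⁻¹) ^ l = ((z ^ (l + 1))⁻¹) ^ (l - 1) := by
  obtain ⟨n, rfl⟩ : ∃ n, l = n + 1 := ⟨l - 1, by omega⟩
  exact field_identity z n hz

end Generic

/-! ### The chart rings at the bad level -/

section Charts

variable {L : Type*} [Field L] [Algebra ℚ L] {A : ValuationSubring L} {k : Type} [Field k]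
  {π : A →+* k} {M ℓ : ℕ} [NeZero M] [NeZero ℓ]
  {W : laurentBaseChange L (modularFunctionFieldFull (M * ℓ)) ≃ₐ[L]
    laurentBaseChange L (modularFunctionFieldFull (M * ℓ))}

variable (L M ℓ) in
/-- The coordinate `x = α y · β y` at the bad level. -/
def xN (y : ↥(laurentBaseChange L (modularFunctionFieldFull M))) :
    ↥(laurentBaseChange L (modularFunctionFieldFull (M * ℓ))) :=
  heckeAlphaBar L M ℓ y * heckeBetaBar L M ℓ y

/-- The chart ring at the bad level: the elements of `OPair` integral over `L[x]`. -/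
def chartRing (h : BadSetup A π M ℓ)
    (W : laurentBaseChange L (modularFunctionFieldFull (M * ℓ)) ≃ₐ[L]
      laurentBaseChange L (modularFunctionFieldFull (M * ℓ)))
    (x : ↥(laurentBaseChange L (modularFunctionFieldFull (M * ℓ)))) :
    Subring ↥(laurentBaseChange L (modularFunctionFieldFull (M * ℓ))) :=
  OPair h W ⊓ (integralClosure (Algebra.adjoin L {x})
    ↥(laurentBaseChange L (modularFunctionFieldFull (M * ℓ)))).toSubring

theorem mem_chartRing (h : BadSetup A π M ℓ)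
    {x f : ↥(laurentBaseChange L (modularFunctionFieldFull (M * ℓ)))} :
    f ∈ chartRing h W x ↔ f ∈ OPair h W ∧ IsIntegral (Algebra.adjoin L {x}) f := Iff.rfl

theorem chartRing_le (h : BadSetup A π M ℓ)
    (x : ↥(laurentBaseChange L (modularFunctionFieldFull (M * ℓ)))) :
    chartRing h W x ≤ OPair h W := inf_le_left

theorem algebraMap_mem_chartRing (h : BadSetup A π M ℓ)
    (x : ↥(laurentBaseChange L (modularFunctionFieldFull (M * ℓ)))) (a : A) :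
    algebraMap L ↥(laurentBaseChange L (modularFunctionFieldFull (M * ℓ))) (a : L) ∈
      chartRing h W x :=
  ⟨(OPair_hOA h (a : L)).mpr a.2,
    isIntegral_algebraMap (R := Algebra.adjoin L {x})
      (A := ↥(laurentBaseChange L (modularFunctionFieldFull (M * ℓ))))
      (x := ⟨algebraMap L ↥(laurentBaseChange L (modularFunctionFieldFull (M * ℓ))) (a : L),
        (Algebra.adjoin L {x}).algebraMap_mem (a : L)⟩)⟩

theorem alpha_mem_OPair (h : BadSetup A π M ℓ) (hW : IsAL M ℓ W)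
    {H : ↥(laurentBaseChange L (modularFunctionFieldFull M))} (hH : H ∈ Ow A π M h.hMk) :
    heckeAlphaBar L M ℓ H ∈ OPair h W :=
  (mem_OPair_iff h _).mpr ⟨(heckeAlphaBar_mem_OInf_iff h H).mpr hH,
    (heckeAlphaBar_mem_OZero_iff h hW H).mpr hH⟩

theorem beta_mem_OPair (h : BadSetup A π M ℓ) (hW : IsAL M ℓ W)
    {H : ↥(laurentBaseChange L (modularFunctionFieldFull M))} (hH : H ∈ Ow A π M h.hMk) :
    heckeBetaBar L M ℓ H ∈ OPair h W :=
  (mem_OPair_iff h _).mpr ⟨(heckeBetaBar_mem_OInf_iff h H).mpr hH,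
    (heckeBetaBar_mem_OZero_iff h hW H).mpr hH⟩

variable [Fact ℓ.Prime] [CharP k ℓ] [IsAlgClosed k]

/-- `redPair (α H) = (H̄, Φ H̄)`. -/
theorem redPair_alpha (h : BadSetup A π M ℓ) (hW : IsAL M ℓ W)
    {H : ↥(laurentBaseChange L (modularFunctionFieldFull M))} (hH : H ∈ Ow A π M h.hMk)
    (hm : heckeAlphaBar L M ℓ H ∈ OPair h W) :
    redPair h W ⟨heckeAlphaBar L M ℓ H, hm⟩ =
      (redF A π M h.hπ h.hMk ⟨H, hH⟩, vHom k ℓ M (redF A π M h.hπ h.hMk ⟨H, hH⟩)) := by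
  rw [redPair_mk]
  refine Prod.ext ?_ (Subtype.ext ?_)
  · exact redInf_heckeAlphaBar h H hH _
  · show ((redZero h W ⟨_, _⟩ : modularFunctionFieldFullC k M) : LaurentSeries k) = _
    rw [coe_redZero_heckeAlphaBar h hW H hH]
    rfl

/-- `redPair (β H) = (Φ H̄, H̄)`. -/
theorem redPair_beta (h : BadSetup A π M ℓ) (hW : IsAL M ℓ W)
    {H : ↥(laurentBaseChange L (modularFunctionFieldFull M))} (hH : H ∈ Ow A π M h.hMk)
    (hm : heckeBetaBar L M ℓ H ∈ OPair h W) :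
    redPair h W ⟨heckeBetaBar L M ℓ H, hm⟩ =
      (vHom k ℓ M (redF A π M h.hπ h.hMk ⟨H, hH⟩), redF A π M h.hπ h.hMk ⟨H, hH⟩) := by
  rw [redPair_mk]
  refine Prod.ext (Subtype.ext ?_) ?_
  · show ((redInf h ⟨_, _⟩ : modularFunctionFieldFullC k M) : LaurentSeries k) = _
    rw [coe_redInf_heckeBetaBar h H hH]
    rfl
  · exact redZero_heckeBetaBar h hW H hH _

/-- `Φ` on the chart ring of a `σ`-fixed function. -/
def phiFin {t : modularFunctionFieldFullC k M} (ht : frobAut k ℓ M • t = t) :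
    ↥(finRing k t) →ₐ[k] ↥(finRing k t) :=
  phiRes (finRing k t) (fun _ hf => vHom_mem_finRing ht hf)

theorem coe_phiFin {t : modularFunctionFieldFullC k M} (ht : frobAut k ℓ M • t = t)
    (f : ↥(finRing k t)) :
    ((phiFin ht f : ↥(finRing k t)) : modularFunctionFieldFullC k M) = vHom k ℓ M f := rfl

theorem pow_fixed {t : modularFunctionFieldFullC k M} (ht : frobAut k ℓ M • t = t) (n : ℕ) :
    frobAut k ℓ M • t ^ n = t ^ n := by
  rw [smul_pow', ht]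

theorem inv_fixed {t : modularFunctionFieldFullC k M} (ht : frobAut k ℓ M • t = t) :
    frobAut k ℓ M • t⁻¹ = t⁻¹ := by
  rw [smul_inv'', ht]

/-- **Lifts for the chart `x ≠ ∞`** from RED's `hT3` at level `M`. -/
theorem exists_lift_fin (h : BadSetup A π M ℓ) (hW : IsAL M ℓ W)
    (y : ↥(laurentBaseChange L (modularFunctionFieldFull M))) (hyO : y ∈ Ow A π M h.hMk)
    (hF : IsFF1 L ↥(laurentBaseChange L (modularFunctionFieldFull M)) y)
    (hFN : IsFF1 L ↥(laurentBaseChange L (modularFunctionFieldFull (M * ℓ))) (xN L M ℓ y))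
    (h12 : IsIntegral (Algebra.adjoin L {heckeBetaBar L M ℓ y}) (heckeAlphaBar L M ℓ y))
    (h21 : IsIntegral (Algebra.adjoin L {heckeAlphaBar L M ℓ y}) (heckeBetaBar L M ℓ y))
    (hT3 : ∀ s : ↥(modularFunctionFieldFullC k M),
      (∀ Q : Place k ↥(modularFunctionFieldFullC k M),
        0 ≤ Q.ord (redF A π M h.hπ h.hMk ⟨y, hyO⟩) → 0 ≤ Q.ord s) →
      ∃ H : Ow A π M h.hMk, redF A π M h.hπ h.hMk H = s ∧
        ∀ P : Place L ↥(laurentBaseChange L (modularFunctionFieldFull M)),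
          0 ≤ P.ord y → 0 ≤ P.ord (H : ↥(laurentBaseChange L (modularFunctionFieldFull M)))) :
    ∀ f ∈ finRing k (redF A π M h.hπ h.hMk ⟨y, hyO⟩ ^ (ℓ + 1)),
      ∃ (H : ↥(laurentBaseChange L (modularFunctionFieldFull M))) (hH : H ∈ Ow A π M h.hMk),
        redF A π M h.hπ h.hMk ⟨H, hH⟩ = f ∧
        heckeAlphaBar L M ℓ H ∈ chartRing h W (xN L M ℓ y) ∧
        heckeBetaBar L M ℓ H ∈ chartRing h W (xN L M ℓ y) := by
  intro f hf
  rw [finRing_pow _ (Nat.succ_ne_zero ℓ)] at hf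
  obtain ⟨⟨H, hH⟩, hHf, hreg⟩ := hT3 f (fun Q hQ =>
    (val_le_one_iff_ord_nonneg Q f).mp (hf Q ((val_le_one_iff_ord_nonneg Q _).mpr hQ)))
  have hy0 : y ≠ 0 := fun h0 => hF.transcendental (h0 ▸ isAlgebraic_zero)
  have hY1 : heckeAlphaBar L M ℓ y ≠ 0 := (map_ne_zero _).mpr hy0
  have hY2 : heckeBetaBar L M ℓ y ≠ 0 := (map_ne_zero _).mpr hy0
  have hHint : IsIntegral (Algebra.adjoin L {y}) H := (hF.isIntegral_adjoin_iff H).mpr hreg
  refine ⟨H, hH, hHf, ⟨alpha_mem_OPair h hW hH, ?_⟩, ⟨beta_mem_OPair h hW hH, ?_⟩⟩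
  · refine (hFN.isIntegral_adjoin_iff _).mpr fun P hP => ?_
    exact Holo.ord_nonneg_of_isIntegral (isIntegral_map_adjoin (heckeAlphaBar L M ℓ) hHint) P
      (ord_nonneg_of_ord_mul_nonneg h12 h21 hY1 hY2 P hP).1
  · refine (hFN.isIntegral_adjoin_iff _).mpr fun P hP => ?_
    exact Holo.ord_nonneg_of_isIntegral (isIntegral_map_adjoin (heckeBetaBar L M ℓ) hHint) P
      (ord_nonneg_of_ord_mul_nonneg h12 h21 hY1 hY2 P hP).2

/-- **(S1), chart `x ≠ ∞`** (`x = α y · β y`, reductions `(ȳ^(ℓ+1), ȳ^(ℓ+1))`): the reductions in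
`Rc × Rc` (`Rc` = functions regular where `ȳ` is) of the elements of `OPair` integral over `L[x]`
are cut out by finitely many conditions `s a = s (Φ b)`, `s` an `𝔽_{ℓ²}`-point. -/
theorem exists_nodes_chart_fin (h : BadSetup A π M ℓ) (hW : IsAL M ℓ W)
    (hsurj : Function.Surjective π)
    (y : ↥(laurentBaseChange L (modularFunctionFieldFull M))) (hyO : y ∈ Ow A π M h.hMk)
    (hF : IsFF1 L ↥(laurentBaseChange L (modularFunctionFieldFull M)) y)
    (hFt : IsFF1 k ↥(modularFunctionFieldFullC k M) (redF A π M h.hπ h.hMk ⟨y, hyO⟩))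
    (hrat : frobAut k ℓ M • redF A π M h.hπ h.hMk ⟨y, hyO⟩ = redF A π M h.hπ h.hMk ⟨y, hyO⟩)
    (hFN : IsFF1 L ↥(laurentBaseChange L (modularFunctionFieldFull (M * ℓ))) (xN L M ℓ y))
    (h12 : IsIntegral (Algebra.adjoin L {heckeBetaBar L M ℓ y}) (heckeAlphaBar L M ℓ y))
    (h21 : IsIntegral (Algebra.adjoin L {heckeAlphaBar L M ℓ y}) (heckeBetaBar L M ℓ y))
    (hT3 : ∀ s : ↥(modularFunctionFieldFullC k M),
      (∀ Q : Place k ↥(modularFunctionFieldFullC k M),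
        0 ≤ Q.ord (redF A π M h.hπ h.hMk ⟨y, hyO⟩) → 0 ≤ Q.ord s) →
      ∃ H : Ow A π M h.hMk, redF A π M h.hπ h.hMk H = s ∧
        ∀ P : Place L ↥(laurentBaseChange L (modularFunctionFieldFull M)),
          0 ≤ P.ord y → 0 ≤ P.ord (H : ↥(laurentBaseChange L (modularFunctionFieldFull M)))) :
    ∃ T : Set (↥(finRing k (redF A π M h.hπ h.hMk ⟨y, hyO⟩ ^ (ℓ + 1))) →ₐ[k] k),
      T ⊆ points (ℓ ^ 2)
        (fixedSet k ℓ M (finRing k (redF A π M h.hπ h.hMk ⟨y, hyO⟩ ^ (ℓ + 1)))) ∧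
      T.Finite ∧
      ∀ a b : ↥(finRing k (redF A π M h.hπ h.hMk ⟨y, hyO⟩ ^ (ℓ + 1))),
        (∃ (f : ↥(laurentBaseChange L (modularFunctionFieldFull (M * ℓ))))
          (hf : f ∈ chartRing h W (xN L M ℓ y)),
          redPair h W ⟨f, chartRing_le h _ hf⟩ =
            ((a : modularFunctionFieldFullC k M), (b : modularFunctionFieldFullC k M))) ↔
        ∀ s ∈ T, s a = s (phiFin (pow_fixed hrat (ℓ + 1)) b) :=
  exists_nodes_finRing h hW hsurj _
    (hFt.of_transcendental (hFt.transcendental.pow (Nat.succ_pos ℓ))) (pow_fixed hrat (ℓ + 1))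
    (chartRing h W (xN L M ℓ y)) (chartRing_le h _) (algebraMap_mem_chartRing h _)
    (exists_lift_fin h hW y hyO hF hFN h12 h21 hT3)

/-- **Lifts for the chart `x ≠ 0`** from RED's `hT3'` at level `M`. -/
theorem exists_lift_inf (h : BadSetup A π M ℓ) (hW : IsAL M ℓ W)
    (y : ↥(laurentBaseChange L (modularFunctionFieldFull M))) (hyO : y ∈ Ow A π M h.hMk)
    (hF : IsFF1 L ↥(laurentBaseChange L (modularFunctionFieldFull M)) y)
    (hFN : IsFF1 L ↥(laurentBaseChange L (modularFunctionFieldFull (M * ℓ))) (xN L M ℓ y))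
    (h12 : IsIntegral (Algebra.adjoin L {heckeBetaBar L M ℓ y}) (heckeAlphaBar L M ℓ y))
    (h21 : IsIntegral (Algebra.adjoin L {heckeAlphaBar L M ℓ y}) (heckeBetaBar L M ℓ y))
    (hT3' : ∀ s : ↥(modularFunctionFieldFullC k M),
      (∀ Q : Place k ↥(modularFunctionFieldFullC k M),
        Q.ord (redF A π M h.hπ h.hMk ⟨y, hyO⟩) ≤ 0 → 0 ≤ Q.ord s) →
      ∃ H : Ow A π M h.hMk, redF A π M h.hπ h.hMk H = s ∧
        ∀ P : Place L ↥(laurentBaseChange L (modularFunctionFieldFull M)),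
          P.ord y ≤ 0 → 0 ≤ P.ord (H : ↥(laurentBaseChange L (modularFunctionFieldFull M)))) :
    ∀ f ∈ finRing k (redF A π M h.hπ h.hMk ⟨y, hyO⟩ ^ (ℓ + 1))⁻¹,
      ∃ (H : ↥(laurentBaseChange L (modularFunctionFieldFull M))) (hH : H ∈ Ow A π M h.hMk),
        redF A π M h.hπ h.hMk ⟨H, hH⟩ = f ∧
        heckeAlphaBar L M ℓ H ∈ chartRing h W (xN L M ℓ y)⁻¹ ∧
        heckeBetaBar L M ℓ H ∈ chartRing h W (xN L M ℓ y)⁻¹ := by
  intro f hf
  have hf' : ∀ Q : Place k ↥(modularFunctionFieldFullC k M),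
      Q.ord (redF A π M h.hπ h.hMk ⟨y, hyO⟩) ≤ 0 → 0 ≤ Q.ord f := by
    intro Q hQ
    refine (val_le_one_iff_ord_nonneg Q f).mp (hf Q ((val_le_one_iff_ord_nonneg Q _).mpr ?_))
    rw [Place.ord_inv, ord_pow_nat]
    have h1 : ((ℓ + 1 : ℕ) : ℤ) * Q.ord (redF A π M h.hπ h.hMk ⟨y, hyO⟩) ≤ 0 :=
      mul_nonpos_of_nonneg_of_nonpos (Int.natCast_nonneg _) hQ
    linarith
  obtain ⟨⟨H, hH⟩, hHf, hreg⟩ := hT3' f hf'
  have hy0 : y ≠ 0 := fun h0 => hF.transcendental (h0 ▸ isAlgebraic_zero)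
  have hY1 : heckeAlphaBar L M ℓ y ≠ 0 := (map_ne_zero _).mpr hy0
  have hY2 : heckeBetaBar L M ℓ y ≠ 0 := (map_ne_zero _).mpr hy0
  have hHint : IsIntegral (Algebra.adjoin L {y⁻¹}) H := (hF.isIntegral_adjoin_inv_iff H).mpr hreg
  have hα := isIntegral_map_adjoin (heckeAlphaBar L M ℓ) hHint
  have hβ := isIntegral_map_adjoin (heckeBetaBar L M ℓ) hHint
  rw [map_inv₀] at hα hβ
  refine ⟨H, hH, hHf, ⟨alpha_mem_OPair h hW hH, ?_⟩, ⟨beta_mem_OPair h hW hH, ?_⟩⟩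
  · refine (hFN.isIntegral_adjoin_inv_iff _).mpr fun P hP => ?_
    refine Holo.ord_nonneg_of_isIntegral hα P ?_
    have := (ord_nonpos_of_ord_mul_nonpos h12 h21 hY1 hY2 P hP).1
    rw [Place.ord_inv]
    linarith
  · refine (hFN.isIntegral_adjoin_inv_iff _).mpr fun P hP => ?_
    refine Holo.ord_nonneg_of_isIntegral hβ P ?_
    have := (ord_nonpos_of_ord_mul_nonpos h12 h21 hY1 hY2 P hP).2
    rw [Place.ord_inv]
    linarith

/-- **The cusp element** `e = Y2 / Y1^ℓ`: under `(C2)` it lies in the chart ring of `x ≠ 0`, with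
reductions `(1, (1/ȳ^(ℓ+1))^(ℓ-1))`. -/
theorem exists_cusp_elt (h : BadSetup A π M ℓ) (hW : IsAL M ℓ W)
    (y : ↥(laurentBaseChange L (modularFunctionFieldFull M))) (hyO : y ∈ Ow A π M h.hMk)
    (hF : IsFF1 L ↥(laurentBaseChange L (modularFunctionFieldFull M)) y)
    (hFt : IsFF1 k ↥(modularFunctionFieldFullC k M) (redF A π M h.hπ h.hMk ⟨y, hyO⟩))
    (hrat : frobAut k ℓ M • redF A π M h.hπ h.hMk ⟨y, hyO⟩ = redF A π M h.hπ h.hMk ⟨y, hyO⟩)
    (hFN : IsFF1 L ↥(laurentBaseChange L (modularFunctionFieldFull (M * ℓ))) (xN L M ℓ y))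
    (h12 : IsIntegral (Algebra.adjoin L {heckeBetaBar L M ℓ y}) (heckeAlphaBar L M ℓ y))
    (h21 : IsIntegral (Algebra.adjoin L {heckeAlphaBar L M ℓ y}) (heckeBetaBar L M ℓ y))
    (hC2 : ∀ P : Place L ↥(laurentBaseChange L (modularFunctionFieldFull (M * ℓ))),
      P.ord (heckeAlphaBar L M ℓ y) < 0 →
        (ℓ : ℤ) * P.ord (heckeAlphaBar L M ℓ y) ≤ P.ord (heckeBetaBar L M ℓ y)) :
    ∃ (e : ↥(laurentBaseChange L (modularFunctionFieldFull (M * ℓ))))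
      (he : e ∈ chartRing h W (xN L M ℓ y)⁻¹),
      redPair h W ⟨e, chartRing_le h _ he⟩ =
        ((1 : modularFunctionFieldFullC k M),
          ((redF A π M h.hπ h.hMk ⟨y, hyO⟩ ^ (ℓ + 1))⁻¹) ^ (ℓ - 1)) := by
  set yb := redF A π M h.hπ h.hMk ⟨y, hyO⟩ with hyb
  set Y1 := heckeAlphaBar L M ℓ y with hY1def
  set Y2 := heckeBetaBar L M ℓ y with hY2def
  have hℓpos : 0 < ℓ := (Fact.out : ℓ.Prime).pos
  have hy0 : y ≠ 0 := fun h0 => hF.transcendental (h0 ▸ isAlgebraic_zero)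
  have hyb0 : yb ≠ 0 := fun h0 => hFt.transcendental (h0 ▸ isAlgebraic_zero)
  have hY1 : Y1 ≠ 0 := (map_ne_zero _).mpr hy0
  have hY2 : Y2 ≠ 0 := (map_ne_zero _).mpr hy0
  have hΦ : vHom k ℓ M yb = yb ^ ℓ := (frobAut_smul_eq_iff yb).mp hrat
  have hY1O : Y1 ∈ OPair h W := alpha_mem_OPair h hW hyO
  have hY2O : Y2 ∈ OPair h W := beta_mem_OPair h hW hyO
  have r1 : redPair h W ⟨Y1, hY1O⟩ = (yb, yb ^ ℓ) := by
    rw [redPair_alpha h hW hyO hY1O, hΦ]
  have r2 : redPair h W ⟨Y2, hY2O⟩ = (yb ^ ℓ, yb) := by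
    rw [redPair_beta h hW hyO hY2O, hΦ]
  -- `Y1⁻¹ ∈ OPair`
  have hY1inv : Y1⁻¹ ∈ OPair h W := by
    have h1 := (mem_OPair_iff h Y1).mp hY1O
    refine (mem_OPair_iff h _).mpr ⟨inv_mem_OInf h Y1 h1.1 ?_, inv_mem_OZero h Y1 h1.2 ?_⟩
    · have e1 : redInf h ⟨Y1, h1.1⟩ = (redPair h W ⟨Y1, hY1O⟩).1 := rfl
      rw [e1, r1]
      exact hyb0
    · have e1 : redZero h W ⟨Y1, h1.2⟩ = (redPair h W ⟨Y1, hY1O⟩).2 := rfl
      rw [e1, r1]
      exact pow_ne_zero ℓ hyb0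
  have r1inv : redPair h W ⟨Y1⁻¹, hY1inv⟩ = (yb⁻¹, (yb ^ ℓ)⁻¹) := by
    have hmul : (⟨Y1, hY1O⟩ : OPair h W) * ⟨Y1⁻¹, hY1inv⟩ = 1 :=
      Subtype.ext (mul_inv_cancel₀ hY1)
    have h1 := congrArg (redPair h W) hmul
    rw [map_mul, map_one, r1] at h1
    have h2 := congrArg Prod.fst h1
    have h3 := congrArg Prod.snd h1
    refine Prod.ext ?_ ?_
    · exact eq_inv_of_mul_eq_one_right h2
    · exact eq_inv_of_mul_eq_one_right h3
  have heO : Y2 * Y1⁻¹ ^ ℓ ∈ OPair h W := (OPair h W).mul_mem hY2O ((OPair h W).pow_mem hY1inv ℓ)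
  have hint : IsIntegral (Algebra.adjoin L {(xN L M ℓ y)⁻¹}) (Y2 * Y1⁻¹ ^ ℓ) := by
    refine (hFN.isIntegral_adjoin_inv_iff _).mpr fun P hP => ?_
    obtain ⟨h1, h2⟩ := ord_nonpos_of_ord_mul_nonpos h12 h21 hY1 hY2 P hP
    have e : P.ord (Y2 * Y1⁻¹ ^ ℓ) = P.ord Y2 - (ℓ : ℤ) * P.ord Y1 := by
      rw [P.ord_mul hY2 (pow_ne_zero ℓ (inv_ne_zero hY1)), ord_pow_nat, Place.ord_inv]
      ring
    rw [e]
    rcases h1.lt_or_eq with hlt | heq
    · have := hC2 P hlt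
      linarith
    · have h3 : 0 ≤ P.ord Y2 := Holo.ord_nonneg_of_isIntegral h21 P heq.ge
      rw [heq, mul_zero, sub_zero]
      exact h3
  refine ⟨Y2 * Y1⁻¹ ^ ℓ, ⟨heO, hint⟩, ?_⟩
  have e : (⟨Y2 * Y1⁻¹ ^ ℓ, chartRing_le h _ ⟨heO, hint⟩⟩ : OPair h W) =
      ⟨Y2, hY2O⟩ * ⟨Y1⁻¹, hY1inv⟩ ^ ℓ := rfl
  rw [e, map_mul, map_pow, r2, r1inv]
  refine Prod.ext ?_ ?_
  · show yb ^ ℓ * yb⁻¹ ^ ℓ = 1
    rw [← mul_pow, mul_inv_cancel₀ hyb0, one_pow]
  · show yb * ((yb ^ ℓ)⁻¹) ^ ℓ = ((yb ^ (ℓ + 1))⁻¹) ^ (ℓ - 1)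
    exact field_identity' yb ℓ hℓpos hyb0

/-- **(S1), chart `x ≠ 0`** (`x = α y · β y`): the reductions in `Rc × Rc` (`Rc` = functions
regular where `ȳ ≠ 0`) of the elements of `OPair` integral over `L[x⁻¹]` are cut out by finitely
many conditions `s a = s (Φ b)`; and under `(C2)` no node lies on a cusp: `s(1/ȳ^(ℓ+1)) ≠ 0`. -/
theorem exists_nodes_chart_inf (h : BadSetup A π M ℓ) (hW : IsAL M ℓ W)
    (hsurj : Function.Surjective π)
    (y : ↥(laurentBaseChange L (modularFunctionFieldFull M))) (hyO : y ∈ Ow A π M h.hMk)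
    (hF : IsFF1 L ↥(laurentBaseChange L (modularFunctionFieldFull M)) y)
    (hFt : IsFF1 k ↥(modularFunctionFieldFullC k M) (redF A π M h.hπ h.hMk ⟨y, hyO⟩))
    (hrat : frobAut k ℓ M • redF A π M h.hπ h.hMk ⟨y, hyO⟩ = redF A π M h.hπ h.hMk ⟨y, hyO⟩)
    (hFN : IsFF1 L ↥(laurentBaseChange L (modularFunctionFieldFull (M * ℓ))) (xN L M ℓ y))
    (h12 : IsIntegral (Algebra.adjoin L {heckeBetaBar L M ℓ y}) (heckeAlphaBar L M ℓ y))
    (h21 : IsIntegral (Algebra.adjoin L {heckeAlphaBar L M ℓ y}) (heckeBetaBar L M ℓ y))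
    (hT3' : ∀ s : ↥(modularFunctionFieldFullC k M),
      (∀ Q : Place k ↥(modularFunctionFieldFullC k M),
        Q.ord (redF A π M h.hπ h.hMk ⟨y, hyO⟩) ≤ 0 → 0 ≤ Q.ord s) →
      ∃ H : Ow A π M h.hMk, redF A π M h.hπ h.hMk H = s ∧
        ∀ P : Place L ↥(laurentBaseChange L (modularFunctionFieldFull M)),
          P.ord y ≤ 0 → 0 ≤ P.ord (H : ↥(laurentBaseChange L (modularFunctionFieldFull M)))) :
    ∃ T : Set (↥(finRing k (redF A π M h.hπ h.hMk ⟨y, hyO⟩ ^ (ℓ + 1))⁻¹) →ₐ[k] k),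
      T ⊆ points (ℓ ^ 2)
        (fixedSet k ℓ M (finRing k (redF A π M h.hπ h.hMk ⟨y, hyO⟩ ^ (ℓ + 1))⁻¹)) ∧
      T.Finite ∧
      (∀ a b : ↥(finRing k (redF A π M h.hπ h.hMk ⟨y, hyO⟩ ^ (ℓ + 1))⁻¹),
        (∃ (f : ↥(laurentBaseChange L (modularFunctionFieldFull (M * ℓ))))
          (hf : f ∈ chartRing h W (xN L M ℓ y)⁻¹),
          redPair h W ⟨f, chartRing_le h _ hf⟩ =
            ((a : modularFunctionFieldFullC k M), (b : modularFunctionFieldFullC k M))) ↔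
        ∀ s ∈ T, s a = s (phiFin (inv_fixed (pow_fixed hrat (ℓ + 1))) b)) ∧
      ((∀ P : Place L ↥(laurentBaseChange L (modularFunctionFieldFull (M * ℓ))),
        P.ord (heckeAlphaBar L M ℓ y) < 0 →
          (ℓ : ℤ) * P.ord (heckeAlphaBar L M ℓ y) ≤ P.ord (heckeBetaBar L M ℓ y)) →
        ∀ s ∈ T, s ⟨(redF A π M h.hπ h.hMk ⟨y, hyO⟩ ^ (ℓ + 1))⁻¹, self_mem_finRing⟩ ≠ 0) := by
  have hFt' : IsFF1 k ↥(modularFunctionFieldFullC k M)
      (redF A π M h.hπ h.hMk ⟨y, hyO⟩ ^ (ℓ + 1))⁻¹ :=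
    (hFt.of_transcendental (hFt.transcendental.pow (Nat.succ_pos ℓ))).inv
  have hfix := inv_fixed (pow_fixed hrat (ℓ + 1))
  obtain ⟨T, hT, hTfin, hTB⟩ := exists_nodes_finRing h hW hsurj _ hFt' hfix
    (chartRing h W (xN L M ℓ y)⁻¹) (chartRing_le h _) (algebraMap_mem_chartRing h _)
    (exists_lift_inf h hW y hyO hF hFN h12 h21 hT3')
  refine ⟨T, hT, hTfin, hTB, fun hC2 s hs h0 => ?_⟩
  obtain ⟨e, he, hred⟩ := exists_cusp_elt h hW y hyO hF hFt hrat hFN h12 h21 hC2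
  set t₂ : ↥(finRing k (redF A π M h.hπ h.hMk ⟨y, hyO⟩ ^ (ℓ + 1))⁻¹) :=
    ⟨(redF A π M h.hπ h.hMk ⟨y, hyO⟩ ^ (ℓ + 1))⁻¹, self_mem_finRing⟩ with ht₂
  have key := (hTB 1 (t₂ ^ (ℓ - 1))).mp ⟨e, he, hred⟩ s hs
  have ht₂fix : t₂ ∈ fixedSet k ℓ M (finRing k (redF A π M h.hπ h.hMk ⟨y, hyO⟩ ^ (ℓ + 1))⁻¹) :=
    hfix
  have hℓ2 : 2 ≤ ℓ := (Fact.out : ℓ.Prime).two_le
  rw [map_one, map_pow, phiRes_eq_pow _ _ ht₂fix, map_pow, map_pow, h0,
    zero_pow (by omega : ℓ ≠ 0), zero_pow (by omega : ℓ - 1 ≠ 0)] at key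
  exact one_ne_zero key

end Charts

end Fermat.Agent.BAD.SpecialFibre
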