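import Mathlib
import Fermat.Agent.BAD.NodeCount
import Fermat.Agent.BAD.SpecialFibreCharts

/-!
# BAD (S1 → S2 bridge): from points of a chart ring to nodes of the special fibre

`SpecialFibre.exists_nodes_of_lifts` (and `exists_nodes_chart_fin/inf`) describe the reduction of
a chart ring as the set of pairs `(a, b)` of functions of the chart ring `R = finRing K t` of the
special fibre with `s a = s (Φ b)` for `s` in a finite set `T` of `𝔽_{p^r}`-points of `R`.
`SatAsm.hS2_of_sat` consumes the description `red (chart ring) = nodalFin x₁ x₂ e₁ e₂` by pairs of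
PLACES.  This file is the conversion.

* `exists_places_of_points` : characters → places (`ι = T`), both families injective, with the
  evaluations `Cong (e₁ s) r (s r)`, `Cong (e₂ s) r (s (Φ r))`.
* `exists_nodes_of_points` : a set `S ⊆ κ × κ` of pairs of chart functions (`hint`) with
  `(a, b) ∈ S ↔ ∀ s ∈ T, s a = s (Φ b)` is `nodalFin t t e₁ e₂`; the nodes are
  `𝔽_{p^r}`-rational: a function of `R₀` (the "rational" functions, `Φ f = f ^ p`) takes a value
  `c` with `c ^ (p ^ r) = c` at `e₁ i` and the value `c ^ p` at `e₂ i`; every node comes from a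
  character of `T`.
* `val_eq_one_of_points` : a chart function which no character of `T` kills is a unit at the
  nodes ("cusps are not glued").
* `finRing_congr`, `nodalFin_congr`, `nodalFin_pow`, `nodalInf_pow`,
  `nodalFin_inv_eq_nodalInf_pow` : the chart rings only depend on the set of poles of the
  coordinate.
* `exists_chart_nodes_of_points`, `exists_chart_nodes` : the modular instance (level `M ℓ`,
  `κ` the mod-`ℓ` function field of level `M`, `Φ = (q ↦ q^ℓ)`), on top of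
  `SpecialFibre.exists_nodes_finRing`.

(`hint` itself is `ChartLat.red_mem_finRing`.)
-/

set_option autoImplicit false
set_option linter.style.haveILetI false

noncomputable section

namespace Fermat.Agent.BAD.ChartNodes

open AlgebraicCurve WithZero Fermat.Agent.Lib.FF Fermat.Agent.BAD.NodalRiemann
  Fermat.Agent.BAD.NodalCech Fermat.Agent.BAD.NodalPlaces Fermat.Agent.BAD.KroneckerNodal

universe u v

section Abstract

variable {K : Type u} {κ : Type v} [Field K] [Field κ] [Algebra K κ] {t : κ}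

/-- **Characters are places** (one chart ring, second branch twisted by `Φ`). -/
theorem exists_places_of_points (ht : IsFF1 K κ t) (Φ : finRing K t →ₐ[K] finRing K t)
    (T : Set (finRing K t →ₐ[K] K))
    (hinj : Set.InjOn (fun s : finRing K t →ₐ[K] K => s.comp Φ) T) :
    ∃ (e₁ e₂ : ↥T → Place K κ), Function.Injective e₁ ∧ Function.Injective e₂ ∧
      (∀ i, (e₁ i).adicValuation t ≤ 1) ∧ (∀ i, (e₂ i).adicValuation t ≤ 1) ∧
      (∀ (i : ↥T) (r : finRing K t), Cong (e₁ i) (r : κ) ((i : finRing K t →ₐ[K] K) r)) ∧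
      (∀ (i : ↥T) (r : finRing K t), Cong (e₂ i) (r : κ) ((i : finRing K t →ₐ[K] K) (Φ r))) ∧
      ∀ p : κ × κ, p ∈ nodalFin t t e₁ e₂ ↔
        ∃ a b : finRing K t, p = ((a : κ), (b : κ)) ∧ ∀ s ∈ T, s a = s (Φ b) := by
  have hr : ∀ a : κ, (∃ r : finRing K t, (finRing K t).val r = a) ↔ a ∈ finRing K t :=
    fun a => ⟨fun ⟨r, e⟩ => e ▸ r.2, fun h => ⟨⟨a, h⟩, rfl⟩⟩
  obtain ⟨e₁, e₂, he₂, hf₁, hf₂, hc₁, hc₂, hmem⟩ :=
    exists_nodes_of_characters ht ht (finRing K t).val (finRing K t).val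
      Subtype.val_injective Subtype.val_injective hr hr
      (fun i : ↥T => (i : finRing K t →ₐ[K] K))
      (fun i : ↥T => (i : finRing K t →ₐ[K] K).comp Φ)
      (fun i j hij => Subtype.ext (hinj i.2 j.2 hij))
  refine ⟨e₁, e₂, ?_, he₂, hf₁, hf₂, hc₁, hc₂, fun p => ?_⟩
  · exact NodeCount.injective_of_cong (finRing K t).val
      (fun i : ↥T => (i : finRing K t →ₐ[K] K)) Subtype.val_injective e₁ hc₁
  · rw [hmem p]
    constructor
    · rintro ⟨a, b, hp, hab⟩
      exact ⟨a, b, hp, fun s hs => hab ⟨s, hs⟩⟩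
    · rintro ⟨a, b, hp, hab⟩
      exact ⟨a, b, hp, fun i => hab i.1 i.2⟩

/-- **Points are nodes.**  A set `S` of pairs of functions of the chart ring `R = finRing K t`
cut out by the conditions `s a = s (Φ b)`, `s ∈ T` a finite set of `𝔽_{p^r}`-points of `R`, is
the glued chart ring `nodalFin t t e₁ e₂` for two injective families of places; the nodes are
`𝔽_{p^r}`-rational and come from the characters of `T`. -/
theorem exists_nodes_of_points (ht : IsFF1 K κ t) (Φ : finRing K t →ₐ[K] finRing K t) (p : ℕ)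
    {r : ℕ} (hr : 0 < r) {R₀ : Set (finRing K t)} (hspan : Submodule.span K R₀ = ⊤)
    (hΦ : ∀ f ∈ R₀, Φ f = f ^ p)
    (T : Set (finRing K t →ₐ[K] K)) (hT : T ⊆ points (p ^ r) R₀) (hTfin : T.Finite)
    (S : Set (κ × κ)) (hint : ∀ q ∈ S, q.1 ∈ finRing K t ∧ q.2 ∈ finRing K t)
    (hS : ∀ a b : finRing K t, ((a : κ), (b : κ)) ∈ S ↔ ∀ s ∈ T, s a = s (Φ b)) :
    ∃ (ι : Type (max u v)) (_ : Fintype ι) (e₁ e₂ : ι → Place K κ),
      Function.Injective e₁ ∧ Function.Injective e₂ ∧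
      (∀ i, (e₁ i).adicValuation t ≤ 1) ∧ (∀ i, (e₂ i).adicValuation t ≤ 1) ∧
      (∀ i, ∃ s ∈ T, (∀ a : finRing K t, Cong (e₁ i) (a : κ) (s a)) ∧
        ∀ a : finRing K t, Cong (e₂ i) (a : κ) (s (Φ a))) ∧
      (∀ i, ∀ f ∈ R₀, ∃ c : K, c ^ (p ^ r) = c ∧ Cong (e₁ i) (f : κ) c ∧
        Cong (e₂ i) (f : κ) (c ^ p)) ∧
      ∀ q : κ × κ, q ∈ S ↔ q ∈ nodalFin t t e₁ e₂ := by
  have hinj : Set.InjOn (fun s : finRing K t →ₐ[K] K => s.comp Φ) T :=
    (comp_injOn p Φ hr hspan hΦ).mono hT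
  obtain ⟨e₁, e₂, he₁, he₂, hf₁, hf₂, hc₁, hc₂, hmem⟩ := exists_places_of_points ht Φ T hinj
  haveI : Fintype ↥T := hTfin.fintype
  refine ⟨↥T, inferInstance, e₁, e₂, he₁, he₂, hf₁, hf₂,
    fun i => ⟨i.1, i.2, hc₁ i, hc₂ i⟩, fun i f hf => ?_, fun q => ?_⟩
  · refine ⟨(i : finRing K t →ₐ[K] K) f, hT i.2 f hf, hc₁ i f, ?_⟩
    have h := hc₂ i f
    rwa [hΦ f hf, map_pow] at h
  · rw [hmem q]
    constructor
    · intro hq
      obtain ⟨h1, h2⟩ := hint q hq
      exact ⟨⟨q.1, h1⟩, ⟨q.2, h2⟩, rfl, (hS ⟨q.1, h1⟩ ⟨q.2, h2⟩).mp hq⟩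
    · rintro ⟨a, b, rfl, hab⟩
      exact (hS a b).mpr hab

/-- A chart function which is not killed by the character of a node is a unit at the node. -/
theorem val_eq_one_of_points {P : Place K κ} {s : finRing K t →ₐ[K] K}
    (hP : ∀ a : finRing K t, Cong P (a : κ) (s a)) {a : finRing K t} (ha : s a ≠ 0) :
    P.adicValuation (a : κ) = 1 :=
  (hP a).val_eq_one ha

end Abstract

/-! ### The chart rings only depend on the poles of the coordinate -/

section Congr

variable {K : Type*} [Field K]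

theorem finRing_congr {F : Type*} [Field F] [Algebra K F] {x x' : F}
    (h : ∀ P : Place K F, P.adicValuation x ≤ 1 ↔ P.adicValuation x' ≤ 1) :
    finRing K x = finRing K x' := by
  ext a
  exact forall_congr' fun P => by rw [h P]

theorem finRing_pow {F : Type*} [Field F] [Algebra K F] (x : F) {n : ℕ} (hn : n ≠ 0) :
    finRing K (x ^ n) = finRing K x :=
  finRing_congr fun P => by rw [map_pow, pow_le_one_iff hn]

variable {F₁ F₂ : Type*} [Field F₁] [Field F₂] [Algebra K F₁] [Algebra K F₂]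
  {ι : Type*} (e₁ : ι → Place K F₁) (e₂ : ι → Place K F₂)

theorem nodalFin_congr {x₁ x₁' : F₁} {x₂ x₂' : F₂}
    (h₁ : ∀ P : Place K F₁, P.adicValuation x₁ ≤ 1 ↔ P.adicValuation x₁' ≤ 1)
    (h₂ : ∀ P : Place K F₂, P.adicValuation x₂ ≤ 1 ↔ P.adicValuation x₂' ≤ 1) :
    nodalFin x₁ x₂ e₁ e₂ = nodalFin x₁' x₂' e₁ e₂ := by
  ext p
  rw [mem_nodalFin, mem_nodalFin]
  refine and_congr (forall_congr' fun P => by rw [h₁ P])
    (and_congr (forall_congr' fun P => by rw [h₂ P]) (forall_congr' fun i => by rw [h₁ (e₁ i)]))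

theorem nodalInf_congr {x₁ x₁' : F₁} {x₂ x₂' : F₂}
    (h₁ : ∀ P : Place K F₁, 1 ≤ P.adicValuation x₁ ↔ 1 ≤ P.adicValuation x₁')
    (h₂ : ∀ P : Place K F₂, 1 ≤ P.adicValuation x₂ ↔ 1 ≤ P.adicValuation x₂') :
    nodalInf x₁ x₂ e₁ e₂ = nodalInf x₁' x₂' e₁ e₂ := by
  ext p
  rw [mem_nodalInf, mem_nodalInf]
  refine and_congr (forall_congr' fun P => by rw [h₁ P])
    (and_congr (forall_congr' fun P => by rw [h₂ P]) (forall_congr' fun i => by rw [h₁ (e₁ i)]))

theorem nodalFin_pow (x₁ : F₁) (x₂ : F₂) {n m : ℕ} (hn : n ≠ 0) (hm : m ≠ 0) :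
    nodalFin (x₁ ^ n) (x₂ ^ m) e₁ e₂ = nodalFin x₁ x₂ e₁ e₂ :=
  nodalFin_congr e₁ e₂ (fun P => by rw [map_pow, pow_le_one_iff hn])
    (fun P => by rw [map_pow, pow_le_one_iff hm])

theorem nodalInf_pow (x₁ : F₁) (x₂ : F₂) {n m : ℕ} (hn : n ≠ 0) (hm : m ≠ 0) :
    nodalInf (x₁ ^ n) (x₂ ^ m) e₁ e₂ = nodalInf x₁ x₂ e₁ e₂ :=
  nodalInf_congr e₁ e₂ (fun P => by rw [map_pow, one_le_pow_iff hn])
    (fun P => by rw [map_pow, one_le_pow_iff hm])

/-- The chart at infinity of `x` is the finite chart of any `t` with the zeros of `t` = the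
poles of `x`... in the form used for `t = y⁻¹`, `x = y ^ n`. -/
theorem nodalFin_inv_eq_nodalInf_pow {y₁ : F₁} {y₂ : F₂} (hy₁ : y₁ ≠ 0) (hy₂ : y₂ ≠ 0)
    {n m : ℕ} (hn : n ≠ 0) (hm : m ≠ 0) :
    nodalFin y₁⁻¹ y₂⁻¹ e₁ e₂ = nodalInf (y₁ ^ n) (y₂ ^ m) e₁ e₂ := by
  rw [nodalFin_inv hy₁ hy₂, nodalInf_pow e₁ e₂ y₁ y₂ hn hm]

end Congr

/-! ### The modular instance -/

section Modular

open ModularCurve Fermat.Agent.Lib.Red Fermat.Agent.ESJ.Cong.FrobAut Fermat.Agent.BAD.TwoVal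
  Fermat.Agent.BAD.SpecialFibre

variable {L : Type*} [Field L] [Algebra ℚ L] {A : ValuationSubring L} {k : Type} [Field k]
  {π : A →+* k} {M ℓ : ℕ} [NeZero M] [NeZero ℓ]
  {W : laurentBaseChange L (modularFunctionFieldFull (M * ℓ)) ≃ₐ[L]
    laurentBaseChange L (modularFunctionFieldFull (M * ℓ))}
  [Fact ℓ.Prime] [CharP k ℓ] [IsAlgClosed k]

/-- **(S1) in place form, from the character form.**  `t` a `σ`-fixed coordinate of the special
fibre, `Rg ≤ OPair` a chart ring of the generic fibre whose reductions are chart functions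
(`hint`) and are cut out in `finRing k t × finRing k t` by the characters of `T` (the conclusion
of `SpecialFibre.exists_nodes_finRing` / `exists_nodes_chart_fin` / `exists_nodes_chart_inf`).
Then `redPair (Rg) = nodalFin t t e₁ e₂` for two injective families of places. -/
theorem exists_chart_nodes_of_points (h : BadSetup A π M ℓ)
    {t : modularFunctionFieldFullC k M} (hFt : IsFF1 k (modularFunctionFieldFullC k M) t)
    (ht : frobAut k ℓ M • t = t)
    (Rg : Subring ↥(laurentBaseChange L (modularFunctionFieldFull (M * ℓ))))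
    (hRgO : Rg ≤ OPair h W)
    (T : Set (↥(finRing k t) →ₐ[k] k))
    (hT : T ⊆ points (ℓ ^ 2) (fixedSet k ℓ M (finRing k t))) (hTfin : T.Finite)
    (hTB : ∀ a b : ↥(finRing k t),
      (∃ (f : ↥(laurentBaseChange L (modularFunctionFieldFull (M * ℓ)))) (hf : f ∈ Rg),
        redPair h W ⟨f, hRgO hf⟩ =
          ((a : modularFunctionFieldFullC k M), (b : modularFunctionFieldFullC k M))) ↔
      ∀ s ∈ T, s a = s (phiFin ht b))
    (hint : ∀ (f : ↥(laurentBaseChange L (modularFunctionFieldFull (M * ℓ)))) (hf : f ∈ Rg),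
      (redPair h W ⟨f, hRgO hf⟩).1 ∈ finRing k t ∧ (redPair h W ⟨f, hRgO hf⟩).2 ∈ finRing k t) :
    ∃ (ι : Type) (_ : Fintype ι) (e₁ e₂ : ι → Place k (modularFunctionFieldFullC k M)),
      Function.Injective e₁ ∧ Function.Injective e₂ ∧
      (∀ i, (e₁ i).adicValuation t ≤ 1) ∧ (∀ i, (e₂ i).adicValuation t ≤ 1) ∧
      (∀ i, ∃ s ∈ T,
        (∀ a : ↥(finRing k t), Cong (e₁ i) (a : modularFunctionFieldFullC k M) (s a)) ∧
        ∀ a : ↥(finRing k t), Cong (e₂ i) (a : modularFunctionFieldFullC k M)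
          (s (phiFin ht a))) ∧
      (∀ i, ∀ f ∈ finRing k t, frobAut k ℓ M • f = f →
        ∃ c : k, c ^ (ℓ ^ 2) = c ∧ Cong (e₁ i) f c ∧ Cong (e₂ i) f (c ^ ℓ)) ∧
      ∀ p : ↥(modularFunctionFieldFullC k M) × ↥(modularFunctionFieldFullC k M),
        (∃ (f : ↥(laurentBaseChange L (modularFunctionFieldFull (M * ℓ)))) (hf : f ∈ Rg),
          redPair h W ⟨f, hRgO hf⟩ = p) ↔ p ∈ nodalFin t t e₁ e₂ := by
  obtain ⟨ι, hι, e₁, e₂, he₁, he₂, hf₁, hf₂, hch, hrat, hmem⟩ :=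
    exists_nodes_of_points hFt (phiFin ht) ℓ two_pos
      (span_fixedSet (finRing k t) (exists_stable_finRing hFt ht))
      (fun f hf => phiRes_eq_pow (finRing k t) _ hf) T hT hTfin
      {p | ∃ (f : ↥(laurentBaseChange L (modularFunctionFieldFull (M * ℓ)))) (hf : f ∈ Rg),
        redPair h W ⟨f, hRgO hf⟩ = p}
      (by
        rintro q ⟨f, hf, rfl⟩
        exact hint f hf)
      (fun a b => hTB a b)
  exact ⟨ι, hι, e₁, e₂, he₁, he₂, hf₁, hf₂, hch,
    fun i f hf hfix => hrat i ⟨f, hf⟩ hfix, fun p => hmem p⟩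

/-- **(S1) in place form** for the chart ring of a `σ`-fixed coordinate `t`, from level-`M` lifts
(`SpecialFibre.exists_nodes_finRing`) and `hint`. -/
theorem exists_chart_nodes (h : BadSetup A π M ℓ) (hW : IsAL M ℓ W)
    (hsurj : Function.Surjective π)
    (t : modularFunctionFieldFullC k M) (hFt : IsFF1 k (modularFunctionFieldFullC k M) t)
    (ht : frobAut k ℓ M • t = t)
    (Rg : Subring ↥(laurentBaseChange L (modularFunctionFieldFull (M * ℓ))))
    (hRgO : Rg ≤ OPair h W)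
    (hconst : ∀ a : A,
      algebraMap L ↥(laurentBaseChange L (modularFunctionFieldFull (M * ℓ))) (a : L) ∈ Rg)
    (hlift : ∀ f ∈ finRing k t, ∃ (H : ↥(laurentBaseChange L (modularFunctionFieldFull M)))
      (hH : H ∈ Ow A π M h.hMk), redF A π M h.hπ h.hMk ⟨H, hH⟩ = f ∧
        heckeAlphaBar L M ℓ H ∈ Rg ∧ heckeBetaBar L M ℓ H ∈ Rg)
    (hint : ∀ (f : ↥(laurentBaseChange L (modularFunctionFieldFull (M * ℓ)))) (hf : f ∈ Rg),
      (redPair h W ⟨f, hRgO hf⟩).1 ∈ finRing k t ∧ (redPair h W ⟨f, hRgO hf⟩).2 ∈ finRing k t) :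
    ∃ (ι : Type) (_ : Fintype ι) (e₁ e₂ : ι → Place k (modularFunctionFieldFullC k M)),
      Function.Injective e₁ ∧ Function.Injective e₂ ∧
      (∀ i, (e₁ i).adicValuation t ≤ 1) ∧ (∀ i, (e₂ i).adicValuation t ≤ 1) ∧
      (∀ i, ∀ f ∈ finRing k t, frobAut k ℓ M • f = f →
        ∃ c : k, c ^ (ℓ ^ 2) = c ∧ Cong (e₁ i) f c ∧ Cong (e₂ i) f (c ^ ℓ)) ∧
      ∀ p : ↥(modularFunctionFieldFullC k M) × ↥(modularFunctionFieldFullC k M),
        (∃ (f : ↥(laurentBaseChange L (modularFunctionFieldFull (M * ℓ)))) (hf : f ∈ Rg),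
          redPair h W ⟨f, hRgO hf⟩ = p) ↔ p ∈ nodalFin t t e₁ e₂ := by
  obtain ⟨T, hT, hTfin, hTB⟩ := exists_nodes_finRing h hW hsurj t hFt ht Rg hRgO hconst hlift
  obtain ⟨ι, hι, e₁, e₂, he₁, he₂, hf₁, hf₂, -, hrat, hmem⟩ :=
    exists_chart_nodes_of_points h hFt ht Rg hRgO T hT hTfin hTB hint
  exact ⟨ι, hι, e₁, e₂, he₁, he₂, hf₁, hf₂, hrat, hmem⟩

end Modular

end Fermat.Agent.BAD.ChartNodes
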