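import Mathlib
import Fermat.Agent.BAD.SpecialFibreCharts
import Fermat.Agent.Lib.FF.ModLRed
import Fermat.Agent.Lib.Red.InstGenusX
import Fermat.Agent.Lib.Red.DiscFinal

/-!
# BAD (S1): the modular instance, inputs discharged

* `xN_mem_OPair`, `redPair_xN` : the coordinate `x = α y · β y` lies in `OPair`, with reductions
  `(ȳ^(ℓ+1), ȳ^(ℓ+1))`; `transcendental_xN`, `isFF1_xN` (`L` algebraically closed);
* `exists_nodes_chart_fin'`, `exists_nodes_chart_inf'` : the chart theorems of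
  `SpecialFibreCharts` with `IsFF1 L F_N x` discharged and the reduction `ȳ` as a variable;
* `exists_nodes_fin_of_base`, `exists_nodes_inf_of_base` : for a base function
  `B : BaseFn.Data A π M` of the RED layer (lifts from `DiscInst.hT3`, `hT3'`);
* `isIntegral_alpha_xL`, `isIntegral_beta_xL` : `J(q^M)` and `J(q^(Mℓ))` are integral over each
  other (modular equation); `frobAut_smul_xk`;
* **`exists_nodes_fin_xL`, `exists_nodes_inf_xL`** : `y = J(q^M)` over `ℚ̄`, residue characteristic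
  `≥ 5`: no hypothesis left except `(C2)` in the cusp clause.
-/

set_option autoImplicit false
set_option linter.style.haveILetI false
set_option linter.unusedSectionVars false

noncomputable section

namespace Fermat.Agent.BAD.SpecialFibre

open HahnSeries ModularCurve AlgebraicCurve WithZero
open Fermat.Agent.Lib.Red Fermat.Agent.Lib.FF Fermat.Agent.S28
open Fermat.Agent.ESJ.Cong.FrobAut Fermat.Agent.BAD.TwoVal Fermat.Agent.BAD.KroneckerNodal
open Fermat.Agent.BAD.NodalPlaces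

section Generic

variable {K F : Type*} [Field K] [Field F] [Algebra K F]

/-- A root of `Φ(X, b)`, `Φ ∈ ℤ[Y][X]` monic, is integral over `K[b]`. -/
theorem isIntegral_adjoin_of_polyAt {Φ : Polynomial (Polynomial ℤ)} (hΦ : Φ.Monic) {a b : F}
    (hab : (TD.polyAt Φ b).eval a = 0) : IsIntegral (Algebra.adjoin K {b}) a := by
  have hb : b ∈ Algebra.adjoin K {b} := Algebra.subset_adjoin rfl
  refine ⟨TD.polyAt Φ (⟨b, hb⟩ : Algebra.adjoin K {b}), TD.polyAt_monic hΦ _, ?_⟩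
  rw [Polynomial.eval₂_eq_eval_map, TD.polyAt_map]
  exact hab

end Generic

section Inst

variable {L : Type*} [Field L] [Algebra ℚ L] {A : ValuationSubring L} {k : Type} [Field k]
  {π : A →+* k} {M ℓ : ℕ} [NeZero M] [NeZero ℓ]
  {W : laurentBaseChange L (modularFunctionFieldFull (M * ℓ)) ≃ₐ[L]
    laurentBaseChange L (modularFunctionFieldFull (M * ℓ))}
  [Fact ℓ.Prime] [CharP k ℓ] [IsAlgClosed k]

theorem xN_mem_OPair (h : BadSetup A π M ℓ) (hW : IsAL M ℓ W)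
    {y : ↥(laurentBaseChange L (modularFunctionFieldFull M))} (hyO : y ∈ Ow A π M h.hMk) :
    xN L M ℓ y ∈ OPair h W :=
  (OPair h W).mul_mem (alpha_mem_OPair h hW hyO) (beta_mem_OPair h hW hyO)

/-- `redPair x = (ȳ^(ℓ+1), ȳ^(ℓ+1))`. -/
theorem redPair_xN (h : BadSetup A π M ℓ) (hW : IsAL M ℓ W)
    {y : ↥(laurentBaseChange L (modularFunctionFieldFull M))} (hyO : y ∈ Ow A π M h.hMk)
    (hrat : frobAut k ℓ M • redF A π M h.hπ h.hMk ⟨y, hyO⟩ = redF A π M h.hπ h.hMk ⟨y, hyO⟩)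
    (hm : xN L M ℓ y ∈ OPair h W) :
    redPair h W ⟨xN L M ℓ y, hm⟩ =
      (redF A π M h.hπ h.hMk ⟨y, hyO⟩ ^ (ℓ + 1), redF A π M h.hπ h.hMk ⟨y, hyO⟩ ^ (ℓ + 1)) := by
  have e : (⟨xN L M ℓ y, hm⟩ : OPair h W) =
      ⟨_, alpha_mem_OPair h hW hyO⟩ * ⟨_, beta_mem_OPair h hW hyO⟩ := rfl
  rw [e, map_mul, redPair_alpha h hW hyO, redPair_beta h hW hyO,
    (frobAut_smul_eq_iff _).mp hrat]
  refine Prod.ext ?_ ?_
  · show redF A π M h.hπ h.hMk ⟨y, hyO⟩ * redF A π M h.hπ h.hMk ⟨y, hyO⟩ ^ ℓ = _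
    rw [pow_succ']
  · show redF A π M h.hπ h.hMk ⟨y, hyO⟩ ^ ℓ * redF A π M h.hπ h.hMk ⟨y, hyO⟩ = _
    rw [pow_succ]

/-- The coordinate `x = α y · β y` is transcendental over `L`. -/
theorem transcendental_xN [IsAlgClosed L] (h : BadSetup A π M ℓ) (hW : IsAL M ℓ W)
    (y : ↥(laurentBaseChange L (modularFunctionFieldFull M))) (hyO : y ∈ Ow A π M h.hMk)
    (hFt : IsFF1 k ↥(modularFunctionFieldFullC k M) (redF A π M h.hπ h.hMk ⟨y, hyO⟩))
    (hrat : frobAut k ℓ M • redF A π M h.hπ h.hMk ⟨y, hyO⟩ = redF A π M h.hπ h.hMk ⟨y, hyO⟩) :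
    Transcendental L (xN L M ℓ y) := by
  intro halg
  obtain ⟨c, hc⟩ := exists_eq_algebraMap_of_isAlgebraic halg
  have hxO : xN L M ℓ y ∈ OPair h W := xN_mem_OPair h hW hyO
  have hcO : algebraMap L ↥(laurentBaseChange L (modularFunctionFieldFull (M * ℓ))) c ∈
      OPair h W := hc ▸ hxO
  have hcA : c ∈ A := (OPair_hOA h c).mp hcO
  have r := redPair_xN h hW hyO hrat hxO
  have e : (⟨xN L M ℓ y, hxO⟩ : OPair h W) = ⟨_, hcO⟩ := Subtype.ext hc
  rw [e, redPair_algebraMap h ⟨c, hcA⟩ hcO] at r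
  have r1 : algebraMap k ↥(modularFunctionFieldFullC k M) (π ⟨c, hcA⟩) =
      redF A π M h.hπ h.hMk ⟨y, hyO⟩ ^ (ℓ + 1) := congrArg Prod.fst r
  apply hFt.transcendental.pow (Nat.succ_pos ℓ)
  rw [← r1]
  exact isAlgebraic_algebraMap _

/-- `IsFF1` for the bad level with the coordinate `x = α y · β y`. -/
theorem isFF1_xN [IsAlgClosed L] (h : BadSetup A π M ℓ) (hW : IsAL M ℓ W)
    (y : ↥(laurentBaseChange L (modularFunctionFieldFull M))) (hyO : y ∈ Ow A π M h.hMk)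
    (hFt : IsFF1 k ↥(modularFunctionFieldFullC k M) (redF A π M h.hπ h.hMk ⟨y, hyO⟩))
    (hrat : frobAut k ℓ M • redF A π M h.hπ h.hMk ⟨y, hyO⟩ = redF A π M h.hπ h.hMk ⟨y, hyO⟩) :
    IsFF1 L ↥(laurentBaseChange L (modularFunctionFieldFull (M * ℓ))) (xN L M ℓ y) :=
  (isFF1_xL L (M * ℓ)).of_transcendental (transcendental_xN h hW y hyO hFt hrat)

/-- `exists_nodes_chart_fin` with `IsFF1 L F_N x` discharged and the reduction as a variable. -/
theorem exists_nodes_chart_fin' [IsAlgClosed L] (h : BadSetup A π M ℓ) (hW : IsAL M ℓ W)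
    (hsurj : Function.Surjective π)
    (y : ↥(laurentBaseChange L (modularFunctionFieldFull M))) (hyO : y ∈ Ow A π M h.hMk)
    (hF : IsFF1 L ↥(laurentBaseChange L (modularFunctionFieldFull M)) y)
    (yb : ↥(modularFunctionFieldFullC k M)) (hyb : redF A π M h.hπ h.hMk ⟨y, hyO⟩ = yb)
    (hFt : IsFF1 k ↥(modularFunctionFieldFullC k M) yb)
    (hrat : frobAut k ℓ M • yb = yb)
    (h12 : IsIntegral (Algebra.adjoin L {heckeBetaBar L M ℓ y}) (heckeAlphaBar L M ℓ y))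
    (h21 : IsIntegral (Algebra.adjoin L {heckeAlphaBar L M ℓ y}) (heckeBetaBar L M ℓ y))
    (hT3 : ∀ s : ↥(modularFunctionFieldFullC k M),
      (∀ Q : Place k ↥(modularFunctionFieldFullC k M), 0 ≤ Q.ord yb → 0 ≤ Q.ord s) →
      ∃ H : Ow A π M h.hMk, redF A π M h.hπ h.hMk H = s ∧
        ∀ P : Place L ↥(laurentBaseChange L (modularFunctionFieldFull M)),
          0 ≤ P.ord y → 0 ≤ P.ord (H : ↥(laurentBaseChange L (modularFunctionFieldFull M)))) :
    ∃ T : Set (↥(finRing k (yb ^ (ℓ + 1))) →ₐ[k] k),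
      T ⊆ points (ℓ ^ 2) (fixedSet k ℓ M (finRing k (yb ^ (ℓ + 1)))) ∧ T.Finite ∧
      ∀ a b : ↥(finRing k (yb ^ (ℓ + 1))),
        (∃ (f : ↥(laurentBaseChange L (modularFunctionFieldFull (M * ℓ))))
          (hf : f ∈ chartRing h W (xN L M ℓ y)),
          redPair h W ⟨f, chartRing_le h _ hf⟩ =
            ((a : modularFunctionFieldFullC k M), (b : modularFunctionFieldFullC k M))) ↔
        ∀ s ∈ T, s a = s (phiFin (pow_fixed hrat (ℓ + 1)) b) := by
  subst hyb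
  exact exists_nodes_chart_fin h hW hsurj y hyO hF hFt hrat (isFF1_xN h hW y hyO hFt hrat)
    h12 h21 hT3

/-- `exists_nodes_chart_inf` with `IsFF1 L F_N x` discharged and the reduction as a variable. -/
theorem exists_nodes_chart_inf' [IsAlgClosed L] (h : BadSetup A π M ℓ) (hW : IsAL M ℓ W)
    (hsurj : Function.Surjective π)
    (y : ↥(laurentBaseChange L (modularFunctionFieldFull M))) (hyO : y ∈ Ow A π M h.hMk)
    (hF : IsFF1 L ↥(laurentBaseChange L (modularFunctionFieldFull M)) y)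
    (yb : ↥(modularFunctionFieldFullC k M)) (hyb : redF A π M h.hπ h.hMk ⟨y, hyO⟩ = yb)
    (hFt : IsFF1 k ↥(modularFunctionFieldFullC k M) yb)
    (hrat : frobAut k ℓ M • yb = yb)
    (h12 : IsIntegral (Algebra.adjoin L {heckeBetaBar L M ℓ y}) (heckeAlphaBar L M ℓ y))
    (h21 : IsIntegral (Algebra.adjoin L {heckeAlphaBar L M ℓ y}) (heckeBetaBar L M ℓ y))
    (hT3' : ∀ s : ↥(modularFunctionFieldFullC k M),
      (∀ Q : Place k ↥(modularFunctionFieldFullC k M), Q.ord yb ≤ 0 → 0 ≤ Q.ord s) →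
      ∃ H : Ow A π M h.hMk, redF A π M h.hπ h.hMk H = s ∧
        ∀ P : Place L ↥(laurentBaseChange L (modularFunctionFieldFull M)),
          P.ord y ≤ 0 → 0 ≤ P.ord (H : ↥(laurentBaseChange L (modularFunctionFieldFull M)))) :
    ∃ T : Set (↥(finRing k (yb ^ (ℓ + 1))⁻¹) →ₐ[k] k),
      T ⊆ points (ℓ ^ 2) (fixedSet k ℓ M (finRing k (yb ^ (ℓ + 1))⁻¹)) ∧ T.Finite ∧
      (∀ a b : ↥(finRing k (yb ^ (ℓ + 1))⁻¹),
        (∃ (f : ↥(laurentBaseChange L (modularFunctionFieldFull (M * ℓ))))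
          (hf : f ∈ chartRing h W (xN L M ℓ y)⁻¹),
          redPair h W ⟨f, chartRing_le h _ hf⟩ =
            ((a : modularFunctionFieldFullC k M), (b : modularFunctionFieldFullC k M))) ↔
        ∀ s ∈ T, s a = s (phiFin (inv_fixed (pow_fixed hrat (ℓ + 1))) b)) ∧
      ((∀ P : Place L ↥(laurentBaseChange L (modularFunctionFieldFull (M * ℓ))),
        P.ord (heckeAlphaBar L M ℓ y) < 0 →
          (ℓ : ℤ) * P.ord (heckeAlphaBar L M ℓ y) ≤ P.ord (heckeBetaBar L M ℓ y)) →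
        ∀ s ∈ T, s ⟨(yb ^ (ℓ + 1))⁻¹, self_mem_finRing⟩ ≠ 0) := by
  subst hyb
  exact exists_nodes_chart_inf h hW hsurj y hyO hF hFt hrat (isFF1_xN h hW y hyO hFt hrat)
    h12 h21 hT3'

/-- **(S1), chart `x ≠ ∞`, for a base function of the RED layer.** -/
theorem exists_nodes_fin_of_base [IsAlgClosed L] (h : BadSetup A π M ℓ) (hW : IsAL M ℓ W)
    (hsurj : Function.Surjective π) (B : BaseFn.Data A π M)
    (hrat : frobAut k ℓ M • B.xt h.hπ h.hMk = B.xt h.hπ h.hMk)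
    (h12 : IsIntegral (Algebra.adjoin L {heckeBetaBar L M ℓ B.x}) (heckeAlphaBar L M ℓ B.x))
    (h21 : IsIntegral (Algebra.adjoin L {heckeAlphaBar L M ℓ B.x}) (heckeBetaBar L M ℓ B.x))
    (hbr : ∀ γ : k, ∃ c₀ : A, π c₀ = γ ∧ ∀ c : A, π c = γ → c ≠ c₀ →
      ∀ P : Place L ↥(laurentBaseChange L (modularFunctionFieldFull M)),
        0 < P.ord (B.x - algebraMap L _ (c : L)) → P.ord (B.x - algebraMap L _ (c : L)) = 1) :
    ∃ T : Set (↥(finRing k (B.xt h.hπ h.hMk ^ (ℓ + 1))) →ₐ[k] k),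
      T ⊆ points (ℓ ^ 2) (fixedSet k ℓ M (finRing k (B.xt h.hπ h.hMk ^ (ℓ + 1)))) ∧ T.Finite ∧
      ∀ a b : ↥(finRing k (B.xt h.hπ h.hMk ^ (ℓ + 1))),
        (∃ (f : ↥(laurentBaseChange L (modularFunctionFieldFull (M * ℓ))))
          (hf : f ∈ chartRing h W (xN L M ℓ B.x)),
          redPair h W ⟨f, chartRing_le h _ hf⟩ =
            ((a : modularFunctionFieldFullC k M), (b : modularFunctionFieldFullC k M))) ↔
        ∀ s ∈ T, s a = s (phiFin (pow_fixed hrat (ℓ + 1)) b) :=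
  exists_nodes_chart_fin' h hW hsurj B.x (B.x_mem_Ow h.hMk)
    (InstGenusX.isFF1_x B h.hπ hsurj h.hMk) (B.xt h.hπ h.hMk) (B.redF_x h.hπ h.hMk)
    (InstGenusX.isFF1_xt B h.hπ hsurj h.hMk) hrat h12 h21
    (DiscInst.hT3 B h.hπ hsurj h.hMk hbr)

/-- **(S1), chart `x ≠ 0`, for a base function of the RED layer**; cusps not glued under
`(C2)`. -/
theorem exists_nodes_inf_of_base [IsAlgClosed L] (h : BadSetup A π M ℓ) (hW : IsAL M ℓ W)
    (hsurj : Function.Surjective π) (B : BaseFn.Data A π M)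
    (hrat : frobAut k ℓ M • B.xt h.hπ h.hMk = B.xt h.hπ h.hMk)
    (h12 : IsIntegral (Algebra.adjoin L {heckeBetaBar L M ℓ B.x}) (heckeAlphaBar L M ℓ B.x))
    (h21 : IsIntegral (Algebra.adjoin L {heckeAlphaBar L M ℓ B.x}) (heckeBetaBar L M ℓ B.x))
    (hbr' : ∀ γ : k, ∃ c₀ : A, π c₀ = γ ∧ ∀ c : A, π c = γ → c ≠ c₀ →
      ∀ P : Place L ↥(laurentBaseChange L (modularFunctionFieldFull M)),
        0 < P.ord ((B.x)⁻¹ - algebraMap L _ (c : L)) →
          P.ord ((B.x)⁻¹ - algebraMap L _ (c : L)) = 1) :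
    ∃ T : Set (↥(finRing k (B.xt h.hπ h.hMk ^ (ℓ + 1))⁻¹) →ₐ[k] k),
      T ⊆ points (ℓ ^ 2) (fixedSet k ℓ M (finRing k (B.xt h.hπ h.hMk ^ (ℓ + 1))⁻¹)) ∧
      T.Finite ∧
      (∀ a b : ↥(finRing k (B.xt h.hπ h.hMk ^ (ℓ + 1))⁻¹),
        (∃ (f : ↥(laurentBaseChange L (modularFunctionFieldFull (M * ℓ))))
          (hf : f ∈ chartRing h W (xN L M ℓ B.x)⁻¹),
          redPair h W ⟨f, chartRing_le h _ hf⟩ =
            ((a : modularFunctionFieldFullC k M), (b : modularFunctionFieldFullC k M))) ↔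
        ∀ s ∈ T, s a = s (phiFin (inv_fixed (pow_fixed hrat (ℓ + 1))) b)) ∧
      ((∀ P : Place L ↥(laurentBaseChange L (modularFunctionFieldFull (M * ℓ))),
        P.ord (heckeAlphaBar L M ℓ B.x) < 0 →
          (ℓ : ℤ) * P.ord (heckeAlphaBar L M ℓ B.x) ≤ P.ord (heckeBetaBar L M ℓ B.x)) →
        ∀ s ∈ T, s ⟨(B.xt h.hπ h.hMk ^ (ℓ + 1))⁻¹, self_mem_finRing⟩ ≠ 0) :=
  exists_nodes_chart_inf' h hW hsurj B.x (B.x_mem_Ow h.hMk)
    (InstGenusX.isFF1_x B h.hπ hsurj h.hMk) (B.xt h.hπ h.hMk) (B.redF_x h.hπ h.hMk)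
    (InstGenusX.isFF1_xt B h.hπ hsurj h.hMk) hrat h12 h21
    (DiscInst.hT3' B h.hπ hsurj h.hMk hbr')

end Inst

/-! ### The base function `J(q^M)` -/

section XL

variable (L : Type*) [Field L] [Algebra ℚ L] (M ℓ : ℕ) [NeZero M] [NeZero ℓ]

theorem coe_alpha_xL :
    ((heckeAlphaBar L M ℓ (xL L M) : ↥(laurentBaseChange L (modularFunctionFieldFull (M * ℓ)))) :
      LaurentSeries L) = TD.Jd L M := by
  rw [coe_heckeAlphaBar]
  rfl

theorem coe_beta_xL :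
    ((heckeBetaBar L M ℓ (xL L M) : ↥(laurentBaseChange L (modularFunctionFieldFull (M * ℓ)))) :
      LaurentSeries L) = TD.Jd L (M * ℓ) := by
  rw [coe_heckeBetaBar, coe_xL, TD.qExpand_Jd L ℓ M (NeZero.ne M), mul_comm]

/-- `J(q^M)` is integral over `L[J(q^(Mℓ))]`. -/
theorem isIntegral_alpha_xL (hℓ : ℓ.Prime) :
    IsIntegral (Algebra.adjoin L {heckeBetaBar L M ℓ (xL L M)}) (heckeAlphaBar L M ℓ (xL L M)) := by
  obtain ⟨D⟩ := ModL.modEq_all_aux ℓ hℓ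
  refine isIntegral_adjoin_of_polyAt D.monic (Subtype.ext ?_)
  have h1 := TD.map_eval_polyAt
    (algebraMap ↥(laurentBaseChange L (modularFunctionFieldFull (M * ℓ))) (LaurentSeries L))
    D.Φ (heckeAlphaBar L M ℓ (xL L M)) (heckeBetaBar L M ℓ (xL L M))
  have h2 : algebraMap ↥(laurentBaseChange L (modularFunctionFieldFull (M * ℓ)))
      (LaurentSeries L) (heckeAlphaBar L M ℓ (xL L M)) = TD.Jd L M := coe_alpha_xL L M ℓ
  have h3 : algebraMap ↥(laurentBaseChange L (modularFunctionFieldFull (M * ℓ)))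
      (LaurentSeries L) (heckeBetaBar L M ℓ (xL L M)) = TD.Jd L (M * ℓ) := coe_beta_xL L M ℓ
  rw [h2, h3, D.rel₁' hℓ.ne_zero L M (NeZero.ne M)] at h1
  exact h1

/-- `J(q^(Mℓ))` is integral over `L[J(q^M)]`. -/
theorem isIntegral_beta_xL (hℓ : ℓ.Prime) :
    IsIntegral (Algebra.adjoin L {heckeAlphaBar L M ℓ (xL L M)}) (heckeBetaBar L M ℓ (xL L M)) := by
  obtain ⟨D⟩ := ModL.modEq_all_aux ℓ hℓ
  refine isIntegral_adjoin_of_polyAt D.monic (Subtype.ext ?_)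
  have h1 := TD.map_eval_polyAt
    (algebraMap ↥(laurentBaseChange L (modularFunctionFieldFull (M * ℓ))) (LaurentSeries L))
    D.Φ (heckeBetaBar L M ℓ (xL L M)) (heckeAlphaBar L M ℓ (xL L M))
  have h2 : algebraMap ↥(laurentBaseChange L (modularFunctionFieldFull (M * ℓ)))
      (LaurentSeries L) (heckeAlphaBar L M ℓ (xL L M)) = TD.Jd L M := coe_alpha_xL L M ℓ
  have h3 : algebraMap ↥(laurentBaseChange L (modularFunctionFieldFull (M * ℓ)))
      (LaurentSeries L) (heckeBetaBar L M ℓ (xL L M)) = TD.Jd L (M * ℓ) := coe_beta_xL L M ℓ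
  rw [h2, h3, D.rel₂' hℓ.ne_zero L M (NeZero.ne M)] at h1
  exact h1

/-- The reduction `J̄(q^M)` has coefficients in the prime field. -/
theorem frobAut_smul_xk (k : Type*) [Field k] [Fact ℓ.Prime] [CharP k ℓ] [PerfectRing k ℓ] :
    frobAut k ℓ M • xk k M = xk k M := by
  apply Subtype.ext
  rw [coe_frobAut_smul, coe_xk, TD.coeffMap_Jd]

end XL

section Final

open Fermat.Agent.S24 in
/-- **(S1), chart `x ≠ ∞`, for `y = J(q^M)` over `ℚ̄`, residue characteristic `≥ 5`.**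
`x = J(q^M) · J(q^(Mℓ))`, `x̄ = J̄(q^M)^(ℓ+1)`: the reductions in `Rc × Rc` (`Rc` the functions
regular where `x̄` is) of the elements of `OPair` integral over `ℚ̄[x]` are exactly the pairs
`(a, b)` with `s a = s (Φ b)` for `s` in a finite set of `𝔽_{ℓ²}`-points of `Rc`. -/
theorem exists_nodes_fin_xL {A : ValuationSubring KQ} {k : Type} [Field k] [IsAlgClosed k]
    {π : A →+* k} {M ℓ : ℕ} [NeZero M] [NeZero ℓ]
    {W : laurentBaseChange KQ (modularFunctionFieldFull (M * ℓ)) ≃ₐ[KQ]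
      laurentBaseChange KQ (modularFunctionFieldFull (M * ℓ))}
    [Fact ℓ.Prime] [CharP k ℓ]
    (h : BadSetup A π M ℓ) (hW : IsAL M ℓ W) (hsurj : Function.Surjective π)
    (h1728 : (1728 : k) ≠ 0) :
    ∃ T : Set (↥(finRing k (xk k M ^ (ℓ + 1))) →ₐ[k] k),
      T ⊆ points (ℓ ^ 2) (fixedSet k ℓ M (finRing k (xk k M ^ (ℓ + 1)))) ∧ T.Finite ∧
      ∀ a b : ↥(finRing k (xk k M ^ (ℓ + 1))),
        (∃ (f : ↥(laurentBaseChange KQ (modularFunctionFieldFull (M * ℓ))))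
          (hf : f ∈ chartRing h W (xN KQ M ℓ (xL KQ M))),
          redPair h W ⟨f, chartRing_le h _ hf⟩ =
            ((a : modularFunctionFieldFullC k M), (b : modularFunctionFieldFullC k M))) ↔
        ∀ s ∈ T, s a = s (phiFin (pow_fixed (frobAut_smul_xk M ℓ k) (ℓ + 1)) b) := by
  have hT3 := DiscInst.hT3_ofJ M h.hπ hsurj h.hMk h1728
  rw [BaseFn.Data.ofJ_x, BaseFn.Data.ofJ_xt] at hT3
  exact exists_nodes_chart_fin' h hW hsurj (xL KQ M) (InstGenus.xL_mem_Ow h.hMk)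
    (isFF1_xL KQ M) (xk k M) (InstGenus.redF_xL h.hπ h.hMk) (isFF1_xk k M)
    (frobAut_smul_xk M ℓ k) (isIntegral_alpha_xL KQ M ℓ h.hℓ) (isIntegral_beta_xL KQ M ℓ h.hℓ) hT3

open Fermat.Agent.S24 in
/-- **(S1), chart `x ≠ 0`, for `y = J(q^M)` over `ℚ̄`, residue characteristic `≥ 5`**; under
`(C2)` no node lies on a cusp. -/
theorem exists_nodes_inf_xL {A : ValuationSubring KQ} {k : Type} [Field k] [IsAlgClosed k]
    {π : A →+* k} {M ℓ : ℕ} [NeZero M] [NeZero ℓ]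
    {W : laurentBaseChange KQ (modularFunctionFieldFull (M * ℓ)) ≃ₐ[KQ]
      laurentBaseChange KQ (modularFunctionFieldFull (M * ℓ))}
    [Fact ℓ.Prime] [CharP k ℓ]
    (h : BadSetup A π M ℓ) (hW : IsAL M ℓ W) (hsurj : Function.Surjective π)
    (h1728 : (1728 : k) ≠ 0) :
    ∃ T : Set (↥(finRing k (xk k M ^ (ℓ + 1))⁻¹) →ₐ[k] k),
      T ⊆ points (ℓ ^ 2) (fixedSet k ℓ M (finRing k (xk k M ^ (ℓ + 1))⁻¹)) ∧ T.Finite ∧
      (∀ a b : ↥(finRing k (xk k M ^ (ℓ + 1))⁻¹),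
        (∃ (f : ↥(laurentBaseChange KQ (modularFunctionFieldFull (M * ℓ))))
          (hf : f ∈ chartRing h W (xN KQ M ℓ (xL KQ M))⁻¹),
          redPair h W ⟨f, chartRing_le h _ hf⟩ =
            ((a : modularFunctionFieldFullC k M), (b : modularFunctionFieldFullC k M))) ↔
        ∀ s ∈ T, s a =
          s (phiFin (inv_fixed (pow_fixed (frobAut_smul_xk M ℓ k) (ℓ + 1))) b)) ∧
      ((∀ P : Place KQ ↥(laurentBaseChange KQ (modularFunctionFieldFull (M * ℓ))),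
        P.ord (heckeAlphaBar KQ M ℓ (xL KQ M)) < 0 →
          (ℓ : ℤ) * P.ord (heckeAlphaBar KQ M ℓ (xL KQ M)) ≤
            P.ord (heckeBetaBar KQ M ℓ (xL KQ M))) →
        ∀ s ∈ T, s ⟨(xk k M ^ (ℓ + 1))⁻¹, self_mem_finRing⟩ ≠ 0) := by
  have hT3' := DiscInst.hT3'_ofJ M h.hπ hsurj h.hMk h1728
  rw [BaseFn.Data.ofJ_x, BaseFn.Data.ofJ_xt] at hT3'
  exact exists_nodes_chart_inf' h hW hsurj (xL KQ M) (InstGenus.xL_mem_Ow h.hMk)
    (isFF1_xL KQ M) (xk k M) (InstGenus.redF_xL h.hπ h.hMk) (isFF1_xk k M)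
    (frobAut_smul_xk M ℓ k) (isIntegral_alpha_xL KQ M ℓ h.hℓ) (isIntegral_beta_xL KQ M ℓ h.hℓ)
    hT3'

end Final

end Fermat.Agent.BAD.SpecialFibre
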