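import Mathlib
import Fermat.Agent.BAD.ChartNodes
import Fermat.Agent.BAD.ChartLat
import Fermat.Agent.BAD.ChartDiv
import Fermat.Agent.BAD.SatAsm
import Fermat.Agent.BAD.SpecialFibreInst

/-!
# BAD (N1): the two charts of the bad fibre in place form

Level `M ℓ`, `O = OPair h W`, `red = redPair h W : O → κ × κ`.  Coordinate `x` of the generic fibre
(a unit of `O`) with `red x = (x̄, x̄)`, `x̄ = ȳ^(ℓ+1)`, `ȳ` a `σ`-fixed coordinate of `κ`.

From helper88's (S1) in character form (`SpecialFibre.exists_nodes_chart_fin/inf`) and the LAT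
description `(β, hgen)` of each chart (used only for `hint` = `ChartLat.red_mem_finRing`):

* `chart_fin_of_points`, `chart_fin_nodes` : nodes `e₁ i ~ e₂ i` (both families injective, at
  finite distance, `x̄` takes an `𝔽_ℓ`-rational value at them, `𝔽_{ℓ²}`-rational places) with
  `hB₁ : red (O ∩ finRing L x) = nodalFin x̄ x̄ e₁ e₂`;
* `chart_inf_of_points`, `chart_inf_nodes` : nodes of the second chart, all in the overlap
  (`hov`: cusps are not glued), with `hB₂ : red (O ∩ finRing L x⁻¹) = nodalInf x̄ x̄ e₁' e₂'`.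

These are literally the chart inputs of `NodalFibreAsm.nodalFibre_of_charts` /
`SatAsm.hS2_of_sat`.
-/

set_option autoImplicit false
set_option linter.style.haveILetI false

noncomputable section

namespace Fermat.Agent.BAD.ChartNodesInst

open Polynomial ModularCurve AlgebraicCurve WithZero
open Fermat.Agent.Lib.Red Fermat.Agent.Lib.FF
open Fermat.Agent.ESJ.Cong.FrobAut Fermat.Agent.BAD.TwoVal Fermat.Agent.BAD.KroneckerNodal
open Fermat.Agent.BAD.NodalPlaces Fermat.Agent.BAD.NodalCech Fermat.Agent.BAD.NodalRiemann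
open Fermat.Agent.BAD.SpecialFibre

variable {L : Type*} [Field L] [Algebra ℚ L] {A : ValuationSubring L} {k : Type} [Field k]
  {π : A →+* k} {M ℓ : ℕ} [NeZero M] [NeZero ℓ]
  {W : laurentBaseChange L (modularFunctionFieldFull (M * ℓ)) ≃ₐ[L]
    laurentBaseChange L (modularFunctionFieldFull (M * ℓ))}

/-- `hconst` for `redPair`. -/
theorem redPair_const (h : BadSetup A π M ℓ) (a : A) :
    redPair h W ⟨algebraMap L ↥(laurentBaseChange L (modularFunctionFieldFull (M * ℓ))) (a : L),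
        (OPair_hOA h _).2 a.2⟩ = algebraMap k (↥(modularFunctionFieldFullC k M) ×
        ↥(modularFunctionFieldFullC k M)) (π a) :=
  (redPair_algebraMap h a _).trans rfl

variable [Fact ℓ.Prime] [CharP k ℓ] [IsAlgClosed k]

/-- **Chart `x ≠ ∞` in place form**, from the character form and the LAT data of the chart. -/
theorem chart_fin_of_points (h : BadSetup A π M ℓ)
    {x : ↥(laurentBaseChange L (modularFunctionFieldFull (M * ℓ)))}
    (hFN : IsFF1 L ↥(laurentBaseChange L (modularFunctionFieldFull (M * ℓ))) x)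
    (hxO : x ∈ OPair h W)
    {yb : ↥(modularFunctionFieldFullC k M)}
    (hFt : IsFF1 k ↥(modularFunctionFieldFullC k M) yb) (hrat : frobAut k ℓ M • yb = yb)
    (hredx : redPair h W ⟨x, hxO⟩ = (yb ^ (ℓ + 1), yb ^ (ℓ + 1)))
    (T : Set (↥(finRing k (yb ^ (ℓ + 1))) →ₐ[k] k))
    (hT : T ⊆ points (ℓ ^ 2) (fixedSet k ℓ M (finRing k (yb ^ (ℓ + 1))))) (hTfin : T.Finite)
    (hTB : ∀ a b : ↥(finRing k (yb ^ (ℓ + 1))),
      (∃ (f : ↥(laurentBaseChange L (modularFunctionFieldFull (M * ℓ))))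
        (hf : f ∈ chartRing h W x),
        redPair h W ⟨f, chartRing_le h _ hf⟩ =
          ((a : modularFunctionFieldFullC k M), (b : modularFunctionFieldFullC k M))) ↔
      ∀ s ∈ T, s a = s (phiFin (pow_fixed hrat (ℓ + 1)) b))
    {r : ℕ} (β : Fin r → ↥(laurentBaseChange L (modularFunctionFieldFull (M * ℓ))))
    (hβO : ∀ i, β i ∈ OPair h W) (hβR : ∀ i, β i ∈ finRing L x)
    (hgen : ∀ v ∈ OPair h W, v ∈ finRing L x →
      ∃ e : Fin r → L[X], (∀ i j, (e i).coeff j ∈ A) ∧ v = ∑ i, aeval x (e i) * β i) :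
    ∃ (ι : Type) (_ : Fintype ι) (e₁ e₂ : ι → Place k ↥(modularFunctionFieldFullC k M)),
      Function.Injective e₁ ∧ Function.Injective e₂ ∧
      (∀ i, (e₁ i).adicValuation (yb ^ (ℓ + 1)) ≤ 1) ∧
      (∀ i, ∃ a : k, a ^ ℓ = a ∧ Cong (e₁ i) (yb ^ (ℓ + 1)) a) ∧
      (∀ i, ∀ f ∈ finRing k (yb ^ (ℓ + 1)), frobAut k ℓ M • f = f →
        ∃ c : k, c ^ (ℓ ^ 2) = c ∧ Cong (e₁ i) f c ∧ Cong (e₂ i) f (c ^ ℓ)) ∧
      ∀ t : ↥(modularFunctionFieldFullC k M) × ↥(modularFunctionFieldFullC k M),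
        (∃ f : OPair h W, (f : ↥(laurentBaseChange L (modularFunctionFieldFull (M * ℓ)))) ∈
            finRing L x ∧ redPair h W f = t) ↔
          t ∈ nodalFin (yb ^ (ℓ + 1)) (yb ^ (ℓ + 1)) e₁ e₂ := by
  have hFt' : IsFF1 k ↥(modularFunctionFieldFullC k M) (yb ^ (ℓ + 1)) :=
    hFt.of_transcendental (hFt.transcendental.pow (Nat.succ_pos ℓ))
  have hint : ∀ (f : ↥(laurentBaseChange L (modularFunctionFieldFull (M * ℓ))))
      (hf : f ∈ chartRing h W x),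
      (redPair h W ⟨f, chartRing_le h _ hf⟩).1 ∈ finRing k (yb ^ (ℓ + 1)) ∧
        (redPair h W ⟨f, chartRing_le h _ hf⟩).2 ∈ finRing k (yb ^ (ℓ + 1)) := fun f hf =>
    ChartLat.red_mem_finRing (fun a => OPair_hOA h a) (redPair h W) π
      (fun a => redPair_const h a) x hxO hredx β hβO hβR hgen ⟨f, chartRing_le h _ hf⟩
      ((mem_finRing_iff_isIntegral hFN f).mpr hf.2)
  obtain ⟨ι, hι, e₁, e₂, he₁, he₂, hf₁, -, -, hratn, hmem⟩ :=
    ChartNodes.exists_chart_nodes_of_points h hFt' (pow_fixed hrat (ℓ + 1)) (chartRing h W x)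
      (chartRing_le h x) T hT hTfin hTB hint
  refine ⟨ι, hι, e₁, e₂, he₁, he₂, hf₁, fun i => ?_, hratn, fun t => ?_⟩
  · have hyb : yb ∈ finRing k (yb ^ (ℓ + 1)) := by
      rw [ChartNodes.finRing_pow yb (Nat.succ_ne_zero ℓ)]
      exact self_mem_finRing
    obtain ⟨c, hc, hc₁, -⟩ := hratn i yb hyb hrat
    exact ⟨c ^ (ℓ + 1), ChartDiv.pow_succ_pow_eq hc, hc₁.pow (ℓ + 1)⟩
  · rw [← hmem t]
    constructor
    · rintro ⟨f, hf, rfl⟩
      exact ⟨(f : ↥(laurentBaseChange L (modularFunctionFieldFull (M * ℓ)))),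
        ⟨f.2, (mem_finRing_iff_isIntegral hFN _).mp hf⟩, rfl⟩
    · rintro ⟨f, hf, rfl⟩
      exact ⟨⟨f, chartRing_le h _ hf⟩, (mem_finRing_iff_isIntegral hFN f).mpr hf.2, rfl⟩

/-- **Chart `x ≠ 0` in place form**, from the character form (with the cusp clause) and the LAT
data of the chart. -/
theorem chart_inf_of_points (h : BadSetup A π M ℓ)
    {x : ↥(laurentBaseChange L (modularFunctionFieldFull (M * ℓ)))}
    (hFN : IsFF1 L ↥(laurentBaseChange L (modularFunctionFieldFull (M * ℓ))) x)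
    (hxO : x ∈ OPair h W) (hxO' : x⁻¹ ∈ OPair h W)
    {yb : ↥(modularFunctionFieldFullC k M)}
    (hFt : IsFF1 k ↥(modularFunctionFieldFullC k M) yb) (hrat : frobAut k ℓ M • yb = yb)
    (hredx : redPair h W ⟨x, hxO⟩ = (yb ^ (ℓ + 1), yb ^ (ℓ + 1)))
    (T : Set (↥(finRing k (yb ^ (ℓ + 1))⁻¹) →ₐ[k] k))
    (hT : T ⊆ points (ℓ ^ 2) (fixedSet k ℓ M (finRing k (yb ^ (ℓ + 1))⁻¹)))
    (hTfin : T.Finite)
    (hTB : ∀ a b : ↥(finRing k (yb ^ (ℓ + 1))⁻¹),
      (∃ (f : ↥(laurentBaseChange L (modularFunctionFieldFull (M * ℓ))))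
        (hf : f ∈ chartRing h W x⁻¹),
        redPair h W ⟨f, chartRing_le h _ hf⟩ =
          ((a : modularFunctionFieldFullC k M), (b : modularFunctionFieldFullC k M))) ↔
      ∀ s ∈ T, s a = s (phiFin (inv_fixed (pow_fixed hrat (ℓ + 1))) b))
    (hcusp : ∀ s ∈ T, s ⟨(yb ^ (ℓ + 1))⁻¹, self_mem_finRing⟩ ≠ 0)
    {r : ℕ} (β : Fin r → ↥(laurentBaseChange L (modularFunctionFieldFull (M * ℓ))))
    (hβO : ∀ i, β i ∈ OPair h W) (hβR : ∀ i, β i ∈ finRing L x⁻¹)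
    (hgen : ∀ v ∈ OPair h W, v ∈ finRing L x⁻¹ →
      ∃ e : Fin r → L[X], (∀ i j, (e i).coeff j ∈ A) ∧ v = ∑ i, aeval x⁻¹ (e i) * β i) :
    ∃ (ι' : Type) (_ : Fintype ι') (e₁' e₂' : ι' → Place k ↥(modularFunctionFieldFullC k M)),
      Function.Injective e₁' ∧ Function.Injective e₂' ∧
      (∀ i, (e₁' i).adicValuation (yb ^ (ℓ + 1)) = 1) ∧
      ∀ t : ↥(modularFunctionFieldFullC k M) × ↥(modularFunctionFieldFullC k M),
        (∃ f : OPair h W, (f : ↥(laurentBaseChange L (modularFunctionFieldFull (M * ℓ)))) ∈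
            finRing L x⁻¹ ∧ redPair h W f = t) ↔
          t ∈ nodalInf (yb ^ (ℓ + 1)) (yb ^ (ℓ + 1)) e₁' e₂' := by
  have hFt1 : IsFF1 k ↥(modularFunctionFieldFullC k M) (yb ^ (ℓ + 1)) :=
    hFt.of_transcendental (hFt.transcendental.pow (Nat.succ_pos ℓ))
  have hFt' : IsFF1 k ↥(modularFunctionFieldFullC k M) (yb ^ (ℓ + 1))⁻¹ := hFt1.inv
  have hxb0 : yb ^ (ℓ + 1) ≠ 0 := fun h0 => hFt1.transcendental (h0 ▸ isAlgebraic_zero)
  have hx0 : x ≠ 0 := fun h0 => hFN.transcendental (h0 ▸ isAlgebraic_zero)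
  have hFN' : IsFF1 L ↥(laurentBaseChange L (modularFunctionFieldFull (M * ℓ))) x⁻¹ := hFN.inv
  have hredx' : redPair h W ⟨x⁻¹, hxO'⟩ = ((yb ^ (ℓ + 1))⁻¹, (yb ^ (ℓ + 1))⁻¹) :=
    (SatAsm.red_inv (redPair h W) hx0 hxO hxO' hredx).2.2
  have hint : ∀ (f : ↥(laurentBaseChange L (modularFunctionFieldFull (M * ℓ))))
      (hf : f ∈ chartRing h W x⁻¹),
      (redPair h W ⟨f, chartRing_le h _ hf⟩).1 ∈ finRing k (yb ^ (ℓ + 1))⁻¹ ∧
        (redPair h W ⟨f, chartRing_le h _ hf⟩).2 ∈ finRing k (yb ^ (ℓ + 1))⁻¹ := fun f hf =>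
    ChartLat.red_mem_finRing (fun a => OPair_hOA h a) (redPair h W) π
      (fun a => redPair_const h a) x⁻¹ hxO' hredx' β hβO hβR hgen ⟨f, chartRing_le h _ hf⟩
      ((mem_finRing_iff_isIntegral hFN' f).mpr hf.2)
  obtain ⟨ι, hι, e₁, e₂, he₁, he₂, -, -, hch, -, hmem⟩ :=
    ChartNodes.exists_chart_nodes_of_points h hFt' (inv_fixed (pow_fixed hrat (ℓ + 1)))
      (chartRing h W x⁻¹) (chartRing_le h x⁻¹) T hT hTfin hTB hint
  refine ⟨ι, hι, e₁, e₂, he₁, he₂, fun i => ?_, fun t => ?_⟩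
  · obtain ⟨s, hs, hs₁, -⟩ := hch i
    have h1 := (hs₁ ⟨(yb ^ (ℓ + 1))⁻¹, self_mem_finRing⟩).val_eq_one (hcusp s hs)
    rw [map_inv₀, inv_eq_one] at h1
    exact h1
  · rw [← nodalFin_inv hxb0 hxb0, ← hmem t]
    constructor
    · rintro ⟨f, hf, rfl⟩
      exact ⟨(f : ↥(laurentBaseChange L (modularFunctionFieldFull (M * ℓ)))),
        ⟨f.2, (mem_finRing_iff_isIntegral hFN' _).mp hf⟩, rfl⟩
    · rintro ⟨f, hf, rfl⟩
      exact ⟨⟨f, chartRing_le h _ hf⟩, (mem_finRing_iff_isIntegral hFN' f).mpr hf.2, rfl⟩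

/-! ### From the level-`M` lifts (`x = α y · β y`) -/

/-- `(α y · β y)⁻¹ ∈ OPair` when `y` is a Gauss unit. -/
theorem inv_xN_mem_OPair (h : BadSetup A π M ℓ) (hW : IsAL M ℓ W)
    {y : ↥(laurentBaseChange L (modularFunctionFieldFull M))} (hyO' : y⁻¹ ∈ Ow A π M h.hMk) :
    (xN L M ℓ y)⁻¹ ∈ OPair h W := by
  have e : (xN L M ℓ y)⁻¹ = xN L M ℓ y⁻¹ := by
    unfold xN
    rw [mul_inv, map_inv₀, map_inv₀]
  rw [e]
  exact xN_mem_OPair h hW hyO'

/-- **Chart `x ≠ ∞` in place form** for `x = α y · β y`, from RED's `hT3` at level `M` and the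
LAT data of the chart. -/
theorem chart_fin_nodes [IsAlgClosed L] (h : BadSetup A π M ℓ) (hW : IsAL M ℓ W)
    (hsurj : Function.Surjective π)
    (y : ↥(laurentBaseChange L (modularFunctionFieldFull M))) (hyO : y ∈ Ow A π M h.hMk)
    (hF : IsFF1 L ↥(laurentBaseChange L (modularFunctionFieldFull M)) y)
    (yb : ↥(modularFunctionFieldFullC k M)) (hyb : redF A π M h.hπ h.hMk ⟨y, hyO⟩ = yb)
    (hFt : IsFF1 k ↥(modularFunctionFieldFullC k M) yb)
    (hrat : frobAut k ℓ M • yb = yb)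
    (h12 : IsIntegral (Algebra.adjoin L {heckeBetaBar L M ℓ y}) (heckeAlphaBar L M ℓ y))
    (h21 : IsIntegral (Algebra.adjoin L {heckeAlphaBar L M ℓ y}) (heckeBetaBar L M ℓ y))
    (hT3 : ∀ s : ↥(modularFunctionFieldFullC k M),
      (∀ Q : Place k ↥(modularFunctionFieldFullC k M), 0 ≤ Q.ord yb → 0 ≤ Q.ord s) →
      ∃ H : Ow A π M h.hMk, redF A π M h.hπ h.hMk H = s ∧
        ∀ P : Place L ↥(laurentBaseChange L (modularFunctionFieldFull M)),
          0 ≤ P.ord y → 0 ≤ P.ord (H : ↥(laurentBaseChange L (modularFunctionFieldFull M))))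
    {r : ℕ} (β : Fin r → ↥(laurentBaseChange L (modularFunctionFieldFull (M * ℓ))))
    (hβO : ∀ i, β i ∈ OPair h W) (hβR : ∀ i, β i ∈ finRing L (xN L M ℓ y))
    (hgen : ∀ v ∈ OPair h W, v ∈ finRing L (xN L M ℓ y) →
      ∃ e : Fin r → L[X], (∀ i j, (e i).coeff j ∈ A) ∧
        v = ∑ i, aeval (xN L M ℓ y) (e i) * β i) :
    ∃ (ι : Type) (_ : Fintype ι) (e₁ e₂ : ι → Place k ↥(modularFunctionFieldFullC k M)),
      Function.Injective e₁ ∧ Function.Injective e₂ ∧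
      (∀ i, (e₁ i).adicValuation (yb ^ (ℓ + 1)) ≤ 1) ∧
      (∀ i, ∃ a : k, a ^ ℓ = a ∧ Cong (e₁ i) (yb ^ (ℓ + 1)) a) ∧
      (∀ i, ∀ f ∈ finRing k (yb ^ (ℓ + 1)), frobAut k ℓ M • f = f →
        ∃ c : k, c ^ (ℓ ^ 2) = c ∧ Cong (e₁ i) f c ∧ Cong (e₂ i) f (c ^ ℓ)) ∧
      ∀ t : ↥(modularFunctionFieldFullC k M) × ↥(modularFunctionFieldFullC k M),
        (∃ f : OPair h W, (f : ↥(laurentBaseChange L (modularFunctionFieldFull (M * ℓ)))) ∈
            finRing L (xN L M ℓ y) ∧ redPair h W f = t) ↔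
          t ∈ nodalFin (yb ^ (ℓ + 1)) (yb ^ (ℓ + 1)) e₁ e₂ := by
  subst hyb
  obtain ⟨T, hT, hTfin, hTB⟩ :=
    exists_nodes_chart_fin' h hW hsurj y hyO hF _ rfl hFt hrat h12 h21 hT3
  exact chart_fin_of_points h (isFF1_xN h hW y hyO hFt hrat) (xN_mem_OPair h hW hyO) hFt hrat
    (redPair_xN h hW hyO hrat _) T hT hTfin hTB β hβO hβR hgen

/-- **Chart `x ≠ 0` in place form** for `x = α y · β y`, from RED's `hT3'` at level `M`, the cusp
estimate `(C2)` and the LAT data of the chart: the nodes of this chart are off the cusps. -/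
theorem chart_inf_nodes [IsAlgClosed L] (h : BadSetup A π M ℓ) (hW : IsAL M ℓ W)
    (hsurj : Function.Surjective π)
    (y : ↥(laurentBaseChange L (modularFunctionFieldFull M))) (hyO : y ∈ Ow A π M h.hMk)
    (hyO' : y⁻¹ ∈ Ow A π M h.hMk)
    (hF : IsFF1 L ↥(laurentBaseChange L (modularFunctionFieldFull M)) y)
    (yb : ↥(modularFunctionFieldFullC k M)) (hyb : redF A π M h.hπ h.hMk ⟨y, hyO⟩ = yb)
    (hFt : IsFF1 k ↥(modularFunctionFieldFullC k M) yb)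
    (hrat : frobAut k ℓ M • yb = yb)
    (h12 : IsIntegral (Algebra.adjoin L {heckeBetaBar L M ℓ y}) (heckeAlphaBar L M ℓ y))
    (h21 : IsIntegral (Algebra.adjoin L {heckeAlphaBar L M ℓ y}) (heckeBetaBar L M ℓ y))
    (hT3' : ∀ s : ↥(modularFunctionFieldFullC k M),
      (∀ Q : Place k ↥(modularFunctionFieldFullC k M), Q.ord yb ≤ 0 → 0 ≤ Q.ord s) →
      ∃ H : Ow A π M h.hMk, redF A π M h.hπ h.hMk H = s ∧
        ∀ P : Place L ↥(laurentBaseChange L (modularFunctionFieldFull M)),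
          P.ord y ≤ 0 → 0 ≤ P.ord (H : ↥(laurentBaseChange L (modularFunctionFieldFull M))))
    (hC2 : ∀ P : Place L ↥(laurentBaseChange L (modularFunctionFieldFull (M * ℓ))),
      P.ord (heckeAlphaBar L M ℓ y) < 0 →
        (ℓ : ℤ) * P.ord (heckeAlphaBar L M ℓ y) ≤ P.ord (heckeBetaBar L M ℓ y))
    {r : ℕ} (β : Fin r → ↥(laurentBaseChange L (modularFunctionFieldFull (M * ℓ))))
    (hβO : ∀ i, β i ∈ OPair h W) (hβR : ∀ i, β i ∈ finRing L (xN L M ℓ y)⁻¹)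
    (hgen : ∀ v ∈ OPair h W, v ∈ finRing L (xN L M ℓ y)⁻¹ →
      ∃ e : Fin r → L[X], (∀ i j, (e i).coeff j ∈ A) ∧
        v = ∑ i, aeval (xN L M ℓ y)⁻¹ (e i) * β i) :
    ∃ (ι' : Type) (_ : Fintype ι') (e₁' e₂' : ι' → Place k ↥(modularFunctionFieldFullC k M)),
      Function.Injective e₁' ∧ Function.Injective e₂' ∧
      (∀ i, (e₁' i).adicValuation (yb ^ (ℓ + 1)) = 1) ∧
      ∀ t : ↥(modularFunctionFieldFullC k M) × ↥(modularFunctionFieldFullC k M),
        (∃ f : OPair h W, (f : ↥(laurentBaseChange L (modularFunctionFieldFull (M * ℓ)))) ∈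
            finRing L (xN L M ℓ y)⁻¹ ∧ redPair h W f = t) ↔
          t ∈ nodalInf (yb ^ (ℓ + 1)) (yb ^ (ℓ + 1)) e₁' e₂' := by
  subst hyb
  obtain ⟨T, hT, hTfin, hTB, hcusp⟩ :=
    exists_nodes_chart_inf' h hW hsurj y hyO hF _ rfl hFt hrat h12 h21 hT3'
  exact chart_inf_of_points h (isFF1_xN h hW y hyO hFt hrat) (xN_mem_OPair h hW hyO)
    (inv_xN_mem_OPair h hW hyO') hFt hrat (redPair_xN h hW hyO hrat _) T hT hTfin hTB
    (hcusp hC2) β hβO hβR hgen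

end Fermat.Agent.BAD.ChartNodesInst
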