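import Mathlib
import Fermat.Agent.BAD.CuspOrdInst
import Fermat.Agent.BAD.SatInst

/-!
# BAD: the charts of the coordinate `x = Y1 · Y2`

In the vocabulary of `BAD/SatInst.lean` (`chartFin L x` = functions regular where `x` is regular,
`chartInf L x` = functions regular where `x` is a unit or has a pole), for two functions `Y1`,
`Y2` with the same poles and the cusp estimate (`C2`) `q · ord_P Y1 ≤ ord_P Y2` at the poles:

* `chartFin_mul_left/right` : `chartFin L (Y1 * Y2) = chartFin L Y1 = chartFin L Y2`;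
* `div_pow_mem_chartInf` : `e = Y2 / Y1^q ∈ chartInf L (Y1 * Y2)` (the cusps are not glued);
* `inv_left_mem_chartInf`, `inv_right_mem_chartInf` : `Y1⁻¹, Y2⁻¹ ∈ chartInf L (Y1 * Y2)`;

and the instances for `Y1 = α(xL) = J(q^M)`, `Y2 = β(xL) = J(q^(Mℓ))` in `L·F_{Mℓ}`.
-/

set_option autoImplicit false

noncomputable section

namespace Fermat.Agent.BAD.CuspOrd

open AlgebraicCurve ModularCurve WithZero Fermat.Agent.BAD.SatInst Fermat.Agent.S28
  Fermat.Agent.Lib.Red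

section Abstract

variable {L F : Type*} [Field L] [Field F] [Algebra L F] {Y1 Y2 : F}

theorem one_le_adicValuation_iff (P : Place L F) {f : F} (hf : f ≠ 0) :
    1 ≤ P.adicValuation f ↔ P.ord f ≤ 0 := by
  rw [P.adicValuation_eq_exp_neg_ord hf, ← exp_zero, exp_le_exp]
  omega

theorem adicValuation_le_one_iff' (P : Place L F) {f : F} (hf : f ≠ 0) :
    P.adicValuation f ≤ 1 ↔ 0 ≤ P.ord f := by
  rw [P.adicValuation_eq_exp_neg_ord hf, ← exp_zero, exp_le_exp]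
  omega

/-- `x = Y1 · Y2` is regular exactly where `Y1` is. -/
theorem adicValuation_mul_le_one_iff (hY1 : Y1 ≠ 0) (hY2 : Y2 ≠ 0)
    (hpole : ∀ P : Place L F, P.ord Y1 < 0 ↔ P.ord Y2 < 0) (P : Place L F) :
    P.adicValuation (Y1 * Y2) ≤ 1 ↔ P.adicValuation Y1 ≤ 1 := by
  rw [adicValuation_le_one_iff' P (mul_ne_zero hY1 hY2), adicValuation_le_one_iff' P hY1,
    Place.ord_mul P hY1 hY2]
  have h := hpole P
  constructor
  · intro h1
    by_contra h2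
    have h3 : P.ord Y2 < 0 := h.1 (not_le.1 h2)
    omega
  · intro h1
    have h3 : ¬ P.ord Y2 < 0 := fun h3 => absurd (h.2 h3) (not_lt.2 h1)
    omega

theorem chartFin_mul_left (hY1 : Y1 ≠ 0) (hY2 : Y2 ≠ 0)
    (hpole : ∀ P : Place L F, P.ord Y1 < 0 ↔ P.ord Y2 < 0) :
    chartFin L (Y1 * Y2) = chartFin L Y1 := by
  ext a
  rw [mem_chartFin, mem_chartFin]
  constructor
  · intro h P hP
    exact h P ((adicValuation_mul_le_one_iff hY1 hY2 hpole P).2 hP)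
  · intro h P hP
    exact h P ((adicValuation_mul_le_one_iff hY1 hY2 hpole P).1 hP)

theorem chartFin_mul_right (hY1 : Y1 ≠ 0) (hY2 : Y2 ≠ 0)
    (hpole : ∀ P : Place L F, P.ord Y1 < 0 ↔ P.ord Y2 < 0) :
    chartFin L (Y1 * Y2) = chartFin L Y2 := by
  rw [mul_comm]
  exact chartFin_mul_left hY2 hY1 (fun P => (hpole P).symm)

theorem left_mem_chartFin_mul (hY1 : Y1 ≠ 0) (hY2 : Y2 ≠ 0)
    (hpole : ∀ P : Place L F, P.ord Y1 < 0 ↔ P.ord Y2 < 0) : Y1 ∈ chartFin L (Y1 * Y2) := by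
  rw [chartFin_mul_left hY1 hY2 hpole]
  exact self_mem_chartFin Y1

theorem right_mem_chartFin_mul (hY1 : Y1 ≠ 0) (hY2 : Y2 ≠ 0)
    (hpole : ∀ P : Place L F, P.ord Y1 < 0 ↔ P.ord Y2 < 0) : Y2 ∈ chartFin L (Y1 * Y2) := by
  rw [chartFin_mul_right hY1 hY2 hpole]
  exact self_mem_chartFin Y2

/-- `Y1⁻¹` is regular where `x = Y1 · Y2` is a unit or has a pole. -/
theorem inv_left_mem_chartInf (hY1 : Y1 ≠ 0) (hY2 : Y2 ≠ 0)
    (hpole : ∀ P : Place L F, P.ord Y1 < 0 ↔ P.ord Y2 < 0) : Y1⁻¹ ∈ chartInf L (Y1 * Y2) := by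
  intro P hP
  rw [one_le_adicValuation_iff P (mul_ne_zero hY1 hY2), Place.ord_mul P hY1 hY2] at hP
  rw [adicValuation_le_one_iff' P (inv_ne_zero hY1), Place.ord_inv]
  have h := hpole P
  by_contra h1
  have h3 : ¬ P.ord Y2 < 0 := fun h3 => by
    have := h.2 h3
    omega
  omega

theorem inv_right_mem_chartInf (hY1 : Y1 ≠ 0) (hY2 : Y2 ≠ 0)
    (hpole : ∀ P : Place L F, P.ord Y1 < 0 ↔ P.ord Y2 < 0) : Y2⁻¹ ∈ chartInf L (Y1 * Y2) := by
  rw [mul_comm]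
  exact inv_left_mem_chartInf hY2 hY1 (fun P => (hpole P).symm)

/-- **The cusps are not glued**: `e = Y2 / Y1^q` is regular where `x = Y1 · Y2` is a unit or
has a pole. -/
theorem div_pow_mem_chartInf (hY1 : Y1 ≠ 0) (hY2 : Y2 ≠ 0)
    (hpole : ∀ P : Place L F, P.ord Y1 < 0 ↔ P.ord Y2 < 0) (q : ℕ)
    (hC2 : ∀ P : Place L F, P.ord Y1 < 0 → (q : ℤ) * P.ord Y1 ≤ P.ord Y2) :
    Y2 / Y1 ^ q ∈ chartInf L (Y1 * Y2) := by
  intro P hP
  rw [one_le_adicValuation_iff P (mul_ne_zero hY1 hY2), Place.ord_mul P hY1 hY2] at hP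
  have hpow : Y1 ^ q ≠ 0 := pow_ne_zero q hY1
  rw [adicValuation_le_one_iff' P (div_ne_zero hY2 hpow), div_eq_mul_inv,
    Place.ord_mul P hY2 (inv_ne_zero hpow), Place.ord_inv, ← zpow_natCast, Place.ord_zpow]
  have h := hpole P
  by_cases h1 : P.ord Y1 < 0
  · have := hC2 P h1
    omega
  · have h3 : ¬ P.ord Y2 < 0 := fun h3 => h1 (h.2 h3)
    have h4 : P.ord Y1 = 0 := by omega
    rw [h4, mul_zero]
    omega

end Abstract

section Inst

variable {L : Type} [Field L] [Algebra ℚ L] {M ℓ : ℕ} [NeZero M] [NeZero ℓ]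

theorem alpha_xL_ne_zero : heckeAlphaBar L M ℓ (xL L M) ≠ 0 := by
  intro h
  have h1 := congrArg ((laurentBaseChange L (modularFunctionFieldFull (M * ℓ))).val) h
  rw [map_zero] at h1
  have h2 : TD.Jd L M = 0 := by
    rw [← coe_alpha_xL L M ℓ]
    exact h1
  have htr := Fermat.Agent.S28.RJClosed.transcendental_Jd L M (NeZero.ne M)
  rw [h2] at htr
  exact htr isAlgebraic_zero

theorem beta_xL_ne_zero : heckeBetaBar L M ℓ (xL L M) ≠ 0 := by
  intro h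
  have h1 := congrArg ((laurentBaseChange L (modularFunctionFieldFull (M * ℓ))).val) h
  rw [map_zero] at h1
  have h2 : TD.Jd L (M * ℓ) = 0 := by
    rw [← coe_beta_xL L M ℓ]
    exact h1
  have htr := Fermat.Agent.S28.RJClosed.transcendental_Jd L (M * ℓ)
    (Nat.mul_ne_zero (NeZero.ne M) (NeZero.ne ℓ))
  rw [h2] at htr
  exact htr isAlgebraic_zero

/-- The chart `x ≠ ∞` for `x = Y1 · Y2` is the chart `Y1 ≠ ∞` (off the cusps). -/
theorem chartFin_mul_alpha (hℓ : ℓ.Prime) :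
    chartFin L (heckeAlphaBar L M ℓ (xL L M) * heckeBetaBar L M ℓ (xL L M)) =
      chartFin L (heckeAlphaBar L M ℓ (xL L M)) :=
  chartFin_mul_left alpha_xL_ne_zero beta_xL_ne_zero (fun P => ord_alpha_xL_neg_iff hℓ P)

/-- The chart `x ≠ ∞` for `x = Y1 · Y2` is the chart `Y2 ≠ ∞`. -/
theorem chartFin_mul_beta (hℓ : ℓ.Prime) :
    chartFin L (heckeAlphaBar L M ℓ (xL L M) * heckeBetaBar L M ℓ (xL L M)) =
      chartFin L (heckeBetaBar L M ℓ (xL L M)) :=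
  chartFin_mul_right alpha_xL_ne_zero beta_xL_ne_zero (fun P => ord_alpha_xL_neg_iff hℓ P)

/-- `e = Y2 / Y1^ℓ` lies in the chart `x ≠ 0`. -/
theorem beta_div_alpha_pow_mem_chartInf (hℓ : ℓ.Prime) :
    heckeBetaBar L M ℓ (xL L M) / heckeAlphaBar L M ℓ (xL L M) ^ ℓ ∈
      chartInf L (heckeAlphaBar L M ℓ (xL L M) * heckeBetaBar L M ℓ (xL L M)) :=
  div_pow_mem_chartInf alpha_xL_ne_zero beta_xL_ne_zero (fun P => ord_alpha_xL_neg_iff hℓ P) ℓ
    (fun P hP => ord_beta_xL_ge hℓ P hP)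

/-- The mirror element `Y1 / Y2^ℓ` lies in the chart `x ≠ 0`. -/
theorem alpha_div_beta_pow_mem_chartInf (hℓ : ℓ.Prime) :
    heckeAlphaBar L M ℓ (xL L M) / heckeBetaBar L M ℓ (xL L M) ^ ℓ ∈
      chartInf L (heckeAlphaBar L M ℓ (xL L M) * heckeBetaBar L M ℓ (xL L M)) := by
  have h := div_pow_mem_chartInf (L := L) beta_xL_ne_zero alpha_xL_ne_zero
    (fun P => (ord_alpha_xL_neg_iff (M := M) hℓ P).symm) ℓ
    (fun P hP => ord_alpha_xL_ge hℓ P hP)
  rwa [mul_comm (heckeBetaBar L M ℓ (xL L M)) (heckeAlphaBar L M ℓ (xL L M))] at h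

theorem inv_alpha_mem_chartInf (hℓ : ℓ.Prime) :
    (heckeAlphaBar L M ℓ (xL L M))⁻¹ ∈
      chartInf L (heckeAlphaBar L M ℓ (xL L M) * heckeBetaBar L M ℓ (xL L M)) :=
  inv_left_mem_chartInf alpha_xL_ne_zero beta_xL_ne_zero (fun P => ord_alpha_xL_neg_iff hℓ P)

theorem inv_beta_mem_chartInf (hℓ : ℓ.Prime) :
    (heckeBetaBar L M ℓ (xL L M))⁻¹ ∈
      chartInf L (heckeAlphaBar L M ℓ (xL L M) * heckeBetaBar L M ℓ (xL L M)) :=
  inv_right_mem_chartInf alpha_xL_ne_zero beta_xL_ne_zero (fun P => ord_alpha_xL_neg_iff hℓ P)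

theorem alpha_mem_chartFin (hℓ : ℓ.Prime) :
    heckeAlphaBar L M ℓ (xL L M) ∈
      chartFin L (heckeAlphaBar L M ℓ (xL L M) * heckeBetaBar L M ℓ (xL L M)) :=
  left_mem_chartFin_mul alpha_xL_ne_zero beta_xL_ne_zero (fun P => ord_alpha_xL_neg_iff hℓ P)

theorem beta_mem_chartFin (hℓ : ℓ.Prime) :
    heckeBetaBar L M ℓ (xL L M) ∈
      chartFin L (heckeAlphaBar L M ℓ (xL L M) * heckeBetaBar L M ℓ (xL L M)) :=
  right_mem_chartFin_mul alpha_xL_ne_zero beta_xL_ne_zero (fun P => ord_alpha_xL_neg_iff hℓ P)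

end Inst

end Fermat.Agent.BAD.CuspOrd
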