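/-
BAD (helper54, layer G) — the dictionary between the Prelude's `JZero N` with its Galois action
and DIVISORS WITH KUMMER GENERATORS on `modularFunctionFieldBar N`.

General part (any `K`, `F`, semilinear automorphisms `g`, `h`):

* `mk_eq_zero_iff`           : `Pic0.mk D = 0 ↔ D` principal;
* `exists_kummer`            : an `m`-torsion class is `[D]` with `m • D = div f`;
* `isDiv_smul`               : `div (g • f) = g • div f`;
* `kummer_smul_sub`          : `m • (g • D - D) = div (g • f / f)`  (Kummer generator of `(g - 1)[D]`);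
* `monodromy_of_divisors`    : if for every Kummer pair `(D, f)` (degree `0`, `m • D = div f`) the
  divisor `h • g • D - h • D - g • D + D` is principal, then `(h - 1)(g - 1) = 0` on the
  `m`-torsion of `Pic0 K F`.

Modular instance:

* `torsionMonodromy_of_divisors` : `BAD.TorsionMonodromy N p` (the statement consumed by the S34
  assembly in `BAD/Interfaces.lean`) from the divisor-level statement for the inertia groups at the
  primes `q ∥ N`, `q ≠ p`.
-/
import Mathlib
import Fermat.Agent.BAD.Interfaces

set_option autoImplicit false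

namespace Fermat.Agent.BAD.Dict

open AlgebraicCurve ModularCurve

section General

variable {K F : Type*} [Field K] [Field F] [Algebra K F]

/-- `D` is the divisor of `f`. -/
def IsDiv (D : Divisor K F) (f : F) : Prop := f ≠ 0 ∧ ∀ v : Place K F, D v = v.ord f

theorem IsDiv.principal {D : Divisor K F} {f : F} (h : IsDiv D f) :
    D ∈ Divisor.principal (K := K) (F := F) := ⟨f, h.1, h.2⟩

theorem isDiv_mul {D E : Divisor K F} {f g : F} (hD : IsDiv D f) (hE : IsDiv E g) :
    IsDiv (D + E) (f * g) :=
  ⟨mul_ne_zero hD.1 hE.1, fun v => by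
    rw [Finsupp.add_apply, hD.2 v, hE.2 v, v.ord_mul hD.1 hE.1]⟩

theorem isDiv_inv {D : Divisor K F} {f : F} (hD : IsDiv D f) : IsDiv (-D) f⁻¹ :=
  ⟨inv_ne_zero hD.1, fun v => by rw [Finsupp.neg_apply, hD.2 v, v.ord_inv]⟩

theorem isDiv_div {D E : Divisor K F} {f g : F} (hD : IsDiv D f) (hE : IsDiv E g) :
    IsDiv (D - E) (f / g) := by
  rw [sub_eq_add_neg, div_eq_mul_inv]
  exact isDiv_mul hD (isDiv_inv hE)

/-- The divisor of `g • f` is `g • div f`. -/
theorem isDiv_smul (g : SemilinearAut K F) {D : Divisor K F} {f : F} (hD : IsDiv D f) :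
    IsDiv (g • D) (g • f) := by
  refine ⟨?_, fun w => ?_⟩
  · intro h0
    apply hD.1
    have h1 : g⁻¹ • (g • f) = g⁻¹ • (0 : F) := congrArg (g⁻¹ • ·) h0
    rwa [inv_smul_smul, smul_zero] at h1
  · rw [SemilinearAut.divisor_smul_apply, hD.2 (g⁻¹ • w)]
    have h := SemilinearAut.ord_smul g (g⁻¹ • w) f
    rw [smul_inv_smul] at h
    exact h.symm

/-- Kummer generator of `(g - 1)[D]`: if `m • D = div f` then `m • (g • D - D) = div (g f / f)`. -/
theorem kummer_smul_sub (g : SemilinearAut K F) {m : ℕ} {D : Divisor K F} {f : F}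
    (hD : IsDiv (m • D) f) : IsDiv (m • (g • D - D)) (g • f / f) := by
  have h1 : IsDiv (g • (m • D)) (g • f) := isDiv_smul g hD
  have h2 := isDiv_div h1 hD
  have e : g • (m • D) - m • D = m • (g • D - D) := by
    rw [smul_sub, smul_comm]
  rwa [e] at h2

theorem mk_eq_zero_iff (D : Divisor.degZero (K := K) (F := F)) :
    Pic0.mk D = 0 ↔ (D : Divisor K F) ∈ Divisor.principal (K := K) (F := F) := by
  unfold Pic0.mk
  rw [QuotientAddGroup.eq_zero_iff, AddSubgroup.mem_addSubgroupOf]

theorem mk_nsmul (m : ℕ) (D : Divisor.degZero (K := K) (F := F)) :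
    Pic0.mk (m • D) = m • Pic0.mk D := rfl

theorem mk_sub (D E : Divisor.degZero (K := K) (F := F)) :
    Pic0.mk (D - E) = Pic0.mk D - Pic0.mk E := rfl

/-- An `m`-torsion class is the class of a degree-zero divisor `D` with `m • D = div f`. -/
theorem exists_kummer (m : ℕ) (x : Pic0 K F) (hx : m • x = 0) :
    ∃ (D : Divisor.degZero (K := K) (F := F)) (f : F),
      x = Pic0.mk D ∧ IsDiv (m • (D : Divisor K F)) f := by
  obtain ⟨D, rfl⟩ := Pic0.mk_surjective x
  rw [← mk_nsmul, mk_eq_zero_iff] at hx
  obtain ⟨f, hf, hD⟩ := hx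
  exact ⟨D, f, rfl, hf, fun v => by rw [← hD v]; rfl⟩

/-- The class of `g • D`. -/
theorem smul_mk (g : SemilinearAut K F) (D : Divisor.degZero (K := K) (F := F)) :
    g • Pic0.mk D = Pic0.mk (SemilinearAut.degZeroSMulHom g D) := rfl

/-- **Dictionary, general form.**  If for every Kummer pair `(D, f)` (`deg D = 0`,
`m • D = div f`) the divisor `h • g • D - h • D - g • D + D` is principal, then
`(h - 1)(g - 1) = 0` on the `m`-torsion of `Pic0 K F`. -/
theorem monodromy_of_divisors (g h : SemilinearAut K F) (m : ℕ)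
    (H : ∀ (D : Divisor K F) (f : F), Divisor.degree D = 0 → IsDiv (m • D) f →
      h • g • D - h • D - g • D + D ∈ Divisor.principal (K := K) (F := F))
    (x : Pic0 K F) (hx : m • x = 0) :
    h • g • x - h • x - g • x + x = 0 := by
  obtain ⟨D, f, rfl, hD⟩ := exists_kummer m x hx
  have key := H (D : Divisor K F) f D.2 hD
  rw [smul_mk, smul_mk, smul_mk, ← mk_sub, ← mk_sub, ← Pic0.mk_add, mk_eq_zero_iff]
  exact key

end General

section Modular

local notation "Qb" => AlgebraicClosure ℚ

/-- **Dictionary, modular form**: `BAD.TorsionMonodromy N p` from the divisor-level statement.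
For `q ∥ N`, `q ≠ p`, a valuation subring `A` of `ℚ̄` over `q`, `σ, τ` in its inertia group and
every Kummer pair `(D, f)` on `modularFunctionFieldBar N` (`deg D = 0`, `p ^ n • D = div f`), the
divisor `τσD - τD - σD + D` has to be principal. -/
theorem torsionMonodromy_of_divisors (N p : ℕ) [NeZero N]
    (H : ∀ q : ℕ, q.Prime → q ≠ p → q ∣ N → ¬ q ^ 2 ∣ N →
      ∀ A : ValuationSubring Qb, A.LiesOverPrime q →
      ∀ σ ∈ A.inertiaSubgroupIn ℚ, ∀ τ ∈ A.inertiaSubgroupIn ℚ,
      ∀ (n : ℕ) (D : Divisor Qb (modularFunctionFieldBar N)) (f : modularFunctionFieldBar N),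
        Divisor.degree D = 0 → IsDiv (p ^ n • D) f →
        arithmeticGalois (modularFunctionFieldFull N) τ •
            arithmeticGalois (modularFunctionFieldFull N) σ • D
          - arithmeticGalois (modularFunctionFieldFull N) τ • D
          - arithmeticGalois (modularFunctionFieldFull N) σ • D + D
          ∈ Divisor.principal (K := Qb) (F := modularFunctionFieldBar N)) :
    TorsionMonodromy N p := by
  intro q hq hqp hqN hq2 A hA σ hσ τ hτ x hx
  obtain ⟨n, hn⟩ := hx
  exact monodromy_of_divisors (arithmeticGalois (modularFunctionFieldFull N) σ)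
    (arithmeticGalois (modularFunctionFieldFull N) τ) (p ^ n)
    (fun D f hD hf => H q hq hqp hqN hq2 A hA σ hσ τ hτ n D f hD hf) x hn

end Modular

end Fermat.Agent.BAD.Dict
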