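import Mathlib
import Fermat.Agent.ESJ.Cong.ConjNormAnalytic
import Fermat.Agent.ESJ.RedK.GaussGal
import Fermat.Agent.BAD.TwoVal.Pair
import Fermat.Agent.ESJ.Cong.NormRedAnalytic
import Fermat.Agent.ESJ.Cong.FrobAut

/-!
# BAD-F′: the norm along the degeneracy map `α` at a bad level, and its reduction

`ℓ ∤ M` prime, `α, β : F_M → F_{Mℓ}` the two degeneracy maps, `W` the Atkin–Lehner involution
(`W ∘ α = β`, `W ∘ β = α`), `ζ` a primitive `ℓ`-th root of unity.

* `qExpand_norm_alpha` : for EVERY `f ∈ F_{Mℓ}`,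
  `Nm_α(f)(t^ℓ) = f(t^ℓ) · ∏_{b < ℓ} (W f)(ζ^b t)`
  (the conjugates of `F_{Mℓ}` over `α F_M` are `f ↦ f(t^ℓ)` and `f ↦ (W f)(ζ^b t)`);
* `norm_beta_eq` : `Nm_β(f) = Nm_α(W f)`;
* `norm_alpha_red` : if `f ∈ O_∞ ∩ O_0` then `Nm_α f` lies in the Gauss valuation ring of level
  `M` and `red(Nm_α f)(t^ℓ) = red_∞(f)(t^ℓ) · red_0(f)(t)^ℓ`, i.e.
  `red(Nm_α f) = red_∞ f · Frob(red_0 f)`.
-/

set_option autoImplicit false

namespace Fermat.Agent.BAD.NormRed

open HahnSeries ModularCurve Polynomial AlgebraicCurve Fermat.Agent.Lib.Red Fermat.Agent.S28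
open Fermat.Agent.ESJ.Cong.LevelGen Fermat.Agent.BAD.TwoVal Fermat.Agent.S28.Chain
open Fermat.Agent.ESJ.Cong.ConjAnalytic Fermat.Agent.ESJ.RedK

noncomputable section

variable {L : Type*} [Field L] [Algebra ℚ L] {M ℓ : ℕ} [NeZero M] [NeZero ℓ]
  {W : laurentBaseChange L (modularFunctionFieldFull (M * ℓ)) ≃ₐ[L]
    laurentBaseChange L (modularFunctionFieldFull (M * ℓ))}

/-- **The norm along `α` on `q`-expansions**, for every function of level `Mℓ`. -/
theorem qExpand_norm_alpha (hℓ : ℓ.Prime) (hW : IsAL M ℓ W)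
    (ζ : Lˣ) (hζ : IsPrimitiveRoot ζ ℓ)
    (hfin : letI := algebraAlong (heckeAlphaBar L M ℓ);
      Module.Finite (laurentBaseChange L (modularFunctionFieldFull M))
        (laurentBaseChange L (modularFunctionFieldFull (M * ℓ))))
    (hdeg : letI := algebraAlong (heckeAlphaBar L M ℓ);
      Module.finrank (laurentBaseChange L (modularFunctionFieldFull M))
        (laurentBaseChange L (modularFunctionFieldFull (M * ℓ))) = ℓ + 1)
    (f : laurentBaseChange L (modularFunctionFieldFull (M * ℓ))) :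
    letI := algebraAlong (heckeAlphaBar L M ℓ)
    qExpand L ℓ ((Algebra.norm (laurentBaseChange L (modularFunctionFieldFull M)) f :
      laurentBaseChange L (modularFunctionFieldFull M)) : LaurentSeries L) =
    qExpand L ℓ (f : LaurentSeries L) *
      ∏ b ∈ Finset.range ℓ, rot (ζ ^ b) ((W f : laurentBaseChange L
        (modularFunctionFieldFull (M * ℓ))) : LaurentSeries L) := by
  have : CharZero L := algebraRat.charZero L
  have : CharZero (laurentBaseChange L (modularFunctionFieldFull M)) :=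
    charZero_of_injective_algebraMap
      (algebraMap L (laurentBaseChange L (modularFunctionFieldFull M))).injective
  let τ : Fin ℓ → (laurentBaseChange L (modularFunctionFieldFull (M * ℓ)) →+* LaurentSeries L) :=
    fun b => (rot (ζ ^ b.1)).comp
      ((laurentBaseChange L (modularFunctionFieldFull (M * ℓ))).val.toRingHom.comp
        W.toRingEquiv.toRingHom)
  have hτ : ∀ (b : Fin ℓ) (y : laurentBaseChange L (modularFunctionFieldFull (M * ℓ))),
      τ b y = rot (ζ ^ b.1) ((W y : laurentBaseChange L (modularFunctionFieldFull (M * ℓ))) :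
        LaurentSeries L) := fun b y => rfl
  have hτα : ∀ (b : Fin ℓ) (x : laurentBaseChange L (modularFunctionFieldFull M)),
      τ b (heckeAlphaBar L M ℓ x) = qExpand L ℓ (x : LaurentSeries L) := by
    intro b x
    rw [hτ, hW.alpha, coe_heckeBetaBar]
    exact rot_qExpand_of_pow_eq_one
      (by rw [← pow_mul, mul_comm, pow_mul, hζ.pow_eq_one, one_pow]) _
  have hτβ : ∀ (b : Fin ℓ) (x : laurentBaseChange L (modularFunctionFieldFull M)),
      τ b (heckeBetaBar L M ℓ x) = rot (ζ ^ b.1) (x : LaurentSeries L) := by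
    intro b x
    rw [hτ, hW.beta, coe_heckeAlphaBar]
  let ι : laurentBaseChange L (modularFunctionFieldFull M) →+* LaurentSeries L :=
    (qExpand L ℓ).comp (laurentBaseChange L (modularFunctionFieldFull M)).val.toRingHom
  let τinf : laurentBaseChange L (modularFunctionFieldFull (M * ℓ)) →+* LaurentSeries L :=
    (qExpand L ℓ).comp (laurentBaseChange L (modularFunctionFieldFull (M * ℓ))).val.toRingHom
  let σ : Option (Fin ℓ) →
      (laurentBaseChange L (modularFunctionFieldFull (M * ℓ)) →+* LaurentSeries L) :=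
    fun o => o.elim τinf τ
  have hσ : ∀ o x, σ o (heckeAlphaBar L M ℓ x) = ι x := by
    intro o x
    cases o with
    | none =>
      show qExpand L ℓ ((heckeAlphaBar L M ℓ x : laurentBaseChange L
        (modularFunctionFieldFull (M * ℓ))) : LaurentSeries L) = qExpand L ℓ (x : LaurentSeries L)
      rw [coe_heckeAlphaBar]
    | some b => exact hτα b x
  have hℓ2 : ¬ ((ℓ : ℤ) ∣ -1) := by
    intro h
    have h1 : (ℓ : ℤ) ∣ 1 := (dvd_neg.mp h)
    have h2 : ℓ ∣ 1 := Int.natCast_dvd_natCast.mp (by exact_mod_cast h1)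
    exact hℓ.one_lt.ne' (Nat.dvd_one.mp h2)
  have hnone : (σ none (heckeBetaBar L M ℓ (jLevel L M))).coeff (-1) = 0 := by
    show (qExpand L ℓ ((heckeBetaBar L M ℓ (jLevel L M) : laurentBaseChange L
        (modularFunctionFieldFull (M * ℓ))) : LaurentSeries L)).coeff (-1) = 0
    exact qExpand_coeff_of_not_dvd (R := L) (N := ℓ) _ hℓ2
  have hsome : ∀ b : Fin ℓ, (σ (some b) (heckeBetaBar L M ℓ (jLevel L M))).coeff (-1) =
      (((ζ ^ b.1)⁻¹ : Lˣ) : L) := by
    intro b
    show (τ b (heckeBetaBar L M ℓ (jLevel L M))).coeff (-1) = _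
    rw [hτβ b, coe_jLevel, TD.Jd_one, rot_jqModC_coeff_neg_one]
  have hinj : Function.Injective σ := by
    intro o o' h
    have hc := congrArg (fun φ : laurentBaseChange L (modularFunctionFieldFull (M * ℓ)) →+*
      LaurentSeries L => (φ (heckeBetaBar L M ℓ (jLevel L M))).coeff (-1)) h
    cases o with
    | none =>
      cases o' with
      | none => rfl
      | some b' =>
        rw [hnone, hsome] at hc
        exact absurd hc.symm (Units.ne_zero _)
    | some b =>
      cases o' with
      | none =>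
        rw [hnone, hsome] at hc
        exact absurd hc (Units.ne_zero _)
      | some b' =>
        rw [hsome, hsome] at hc
        have h1 : (ζ ^ b.1)⁻¹ = (ζ ^ b'.1)⁻¹ := Units.ext hc
        have h2 : ζ ^ b.1 = ζ ^ b'.1 := inv_injective h1
        have h3 : b.1 = b'.1 := hζ.pow_inj b.2 b'.2 h2
        rw [Fin.ext h3]
  have hcard : Fintype.card (Option (Fin ℓ)) = ℓ + 1 := by
    rw [Fintype.card_option, Fintype.card_fin]
  have key := norm_eq_prod_along (heckeAlphaBar L M ℓ) ι σ hσ hinj hfin
    (hdeg.trans hcard.symm) f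
  have hι : ∀ x : laurentBaseChange L (modularFunctionFieldFull M),
      ι x = qExpand L ℓ (x : LaurentSeries L) := fun x => rfl
  rw [hι] at key
  rw [key, Fintype.prod_option]
  have h1 : σ none f = qExpand L ℓ (f : LaurentSeries L) := rfl
  have h2 : ∀ b : Fin ℓ, σ (some b) f = rot (ζ ^ b.1) ((W f : laurentBaseChange L
      (modularFunctionFieldFull (M * ℓ))) : LaurentSeries L) := fun b => hτ b f
  rw [h1]
  congr 1
  rw [Finset.prod_congr rfl (fun b _ => h2 b)]
  exact Fin.prod_univ_eq_prod_range (fun b => rot (ζ ^ b) ((W f : laurentBaseChange L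
      (modularFunctionFieldFull (M * ℓ))) : LaurentSeries L)) ℓ

/-- **The norm along `β`** is the norm along `α` after the Atkin–Lehner involution. -/
theorem norm_beta_eq (hW : IsAL M ℓ W)
    (f : laurentBaseChange L (modularFunctionFieldFull (M * ℓ))) :
    (letI := algebraAlong (heckeBetaBar L M ℓ);
      Algebra.norm (laurentBaseChange L (modularFunctionFieldFull M)) f) =
    (letI := algebraAlong (heckeAlphaBar L M ℓ);
      Algebra.norm (laurentBaseChange L (modularFunctionFieldFull M)) (W f)) := by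
  have key := @Algebra.norm_eq_of_equiv_equiv
    (laurentBaseChange L (modularFunctionFieldFull M))
    (laurentBaseChange L (modularFunctionFieldFull (M * ℓ)))
    (laurentBaseChange L (modularFunctionFieldFull M))
    (laurentBaseChange L (modularFunctionFieldFull (M * ℓ))) _ _ _ _
    (algebraAlong (heckeBetaBar L M ℓ)) (algebraAlong (heckeAlphaBar L M ℓ))
    (RingEquiv.refl _) W.toRingEquiv (by
      apply RingHom.ext
      intro x
      show heckeAlphaBar L M ℓ x = W (heckeBetaBar L M ℓ x)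
      rw [hW.beta]) f
  exact key

section Red

variable {A : ValuationSubring L} {k : Type} [Field k] {π : A →+* k}

omit [Algebra ℚ L] in
/-- A root of unity of `L` as a unit of the valuation ring. -/
theorem exists_unit_of_pow_eq_one (A : ValuationSubring L) (ζ : Lˣ) {n : ℕ} (hn : 0 < n)
    (hζ : ζ ^ n = 1) : ∃ ζA : Aˣ, Units.map (A.subtype : A →* L) ζA = ζ := by
  have h1 : (ζ : L) ∈ A := mem_valuationSubring_of_pow_eq_one A hn (by
    rw [← Units.val_pow_eq_pow_val, hζ, Units.val_one])
  have h2 : ((ζ⁻¹ : Lˣ) : L) ∈ A := mem_valuationSubring_of_pow_eq_one A hn (by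
    rw [← Units.val_pow_eq_pow_val, inv_pow, hζ, inv_one, Units.val_one])
  refine ⟨⟨⟨(ζ : L), h1⟩, ⟨((ζ⁻¹ : Lˣ) : L), h2⟩, Subtype.ext (by simp), Subtype.ext (by simp)⟩,
    Units.ext rfl⟩

/-- **Reduction of the norm along `α`**: for `f ∈ O_∞ ∩ O_0`, the norm `Nm_α f` lies in the Gauss
valuation ring of level `M`, and `red(Nm_α f)(t^ℓ) = red_∞(f)(t^ℓ) · red_0(f)(t)^ℓ`. -/
theorem norm_alpha_red (h : BadSetup A π M ℓ) (hW : IsAL M ℓ W)
    (ζ : Lˣ) (hζ : IsPrimitiveRoot ζ ℓ)
    (hfin : letI := algebraAlong (heckeAlphaBar L M ℓ);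
      Module.Finite (laurentBaseChange L (modularFunctionFieldFull M))
        (laurentBaseChange L (modularFunctionFieldFull (M * ℓ))))
    (hdeg : letI := algebraAlong (heckeAlphaBar L M ℓ);
      Module.finrank (laurentBaseChange L (modularFunctionFieldFull M))
        (laurentBaseChange L (modularFunctionFieldFull (M * ℓ))) = ℓ + 1)
    (f : laurentBaseChange L (modularFunctionFieldFull (M * ℓ)))
    (hf1 : f ∈ OInf h) (hf2 : f ∈ OZero h W) :
    letI := algebraAlong (heckeAlphaBar L M ℓ)
    ∃ hN : Algebra.norm (laurentBaseChange L (modularFunctionFieldFull M)) f ∈ Ow A π M h.hMk,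
      qExpand k ℓ ((redF A π M h.hπ h.hMk
          ⟨Algebra.norm (laurentBaseChange L (modularFunctionFieldFull M)) f, hN⟩ :
          modularFunctionFieldFullC k M) : LaurentSeries k) =
        qExpand k ℓ ((redInf h ⟨f, hf1⟩ : modularFunctionFieldFullC k M) : LaurentSeries k) *
          ((redZero h W ⟨f, hf2⟩ : modularFunctionFieldFullC k M) : LaurentSeries k) ^ ℓ := by
  letI := algebraAlong (heckeAlphaBar L M ℓ)
  have hℓ : ℓ.Prime := h.hℓ
  have : Fact ℓ.Prime := ⟨hℓ⟩
  have : CharP k ℓ := h.charP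
  obtain ⟨ζA, hζA⟩ := exists_unit_of_pow_eq_one A ζ hℓ.pos hζ.pow_eq_one
  have hres : Units.map (π : A →* k) ζA = 1 := by
    apply Units.ext
    apply eq_one_of_pow_eq_one_of_charP ℓ
    have h1 : (ζA : A) ^ ℓ = 1 := by
      apply Subtype.ext
      have h2 := congrArg (fun u : Lˣ => (u : L)) hζA
      have h3 : ((ζA : A) : L) = (ζ : L) := h2
      show ((ζA : A) : L) ^ ℓ = 1
      rw [h3, ← Units.val_pow_eq_pow_val, hζ.pow_eq_one, Units.val_one]
    show (π (ζA : A)) ^ ℓ = 1
    rw [← map_pow, h1, map_one]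
  set n : laurentBaseChange L (modularFunctionFieldFull M) :=
    Algebra.norm (laurentBaseChange L (modularFunctionFieldFull M)) f with hn
  have hnorm := qExpand_norm_alpha hℓ hW ζ hζ hfin hdeg f
  -- the reductions of the factors
  have r1 : RedTo A π (f : LaurentSeries L)
      ((redInf h ⟨f, hf1⟩ : modularFunctionFieldFullC k M) : LaurentSeries k) := ⟨hf1, rfl⟩
  have r2 : RedTo A π ((W f : laurentBaseChange L (modularFunctionFieldFull (M * ℓ))) :
      LaurentSeries L)
      ((redZero h W ⟨f, hf2⟩ : modularFunctionFieldFullC k M) : LaurentSeries k) := ⟨hf2, rfl⟩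
  have r3 : ∀ b ∈ Finset.range ℓ, RedTo A π
      (rot (ζ ^ b) ((W f : laurentBaseChange L (modularFunctionFieldFull (M * ℓ))) :
        LaurentSeries L))
      ((redZero h W ⟨f, hf2⟩ : modularFunctionFieldFullC k M) : LaurentSeries k) := by
    intro b _
    have h1 := r2.rot (ζA ^ b)
    rw [map_pow, map_pow, hζA, hres, one_pow, rot_one_apply] at h1
    exact h1
  have r4 := (r1.qExpand ℓ).mul (RedTo.prod (Finset.range ℓ) _ _ r3)
  rw [← hnorm, Finset.prod_const, Finset.card_range] at r4
  -- the norm is in the Gauss ring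
  have hβ : heckeBetaBar L M ℓ n ∈ OInf h := by
    rw [mem_OInf_iff, coe_heckeBetaBar]
    exact r4.mem
  have hN : n ∈ Ow A π M h.hMk := (heckeBetaBar_mem_OInf_iff h n).mp hβ
  refine ⟨hN, ?_⟩
  rw [← coe_redInf_heckeBetaBar h n hN hβ]
  have r5 : RedTo A π (qExpand L ℓ (n : LaurentSeries L))
      ((redInf h ⟨heckeBetaBar L M ℓ n, hβ⟩ : modularFunctionFieldFullC k M) :
        LaurentSeries k) := by
    have h1 : RedTo A π ((heckeBetaBar L M ℓ n : laurentBaseChange L
        (modularFunctionFieldFull (M * ℓ))) : LaurentSeries L)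
      ((redInf h ⟨heckeBetaBar L M ℓ n, hβ⟩ : modularFunctionFieldFullC k M) :
        LaurentSeries k) := ⟨hβ, rfl⟩
    rw [coe_heckeBetaBar] at h1
    exact h1
  exact r5.unique r4

/-- **Reduction of the norm along `α`**, Frobenius form:
`red(Nm_α f) = red_∞ f · Frob(red_0 f)` with `Frob` the coefficientwise `ℓ`-th power. -/
theorem norm_alpha_red_frob (h : BadSetup A π M ℓ) (hW : IsAL M ℓ W)
    (ζ : Lˣ) (hζ : IsPrimitiveRoot ζ ℓ)
    (hfin : letI := algebraAlong (heckeAlphaBar L M ℓ);
      Module.Finite (laurentBaseChange L (modularFunctionFieldFull M))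
        (laurentBaseChange L (modularFunctionFieldFull (M * ℓ))))
    (hdeg : letI := algebraAlong (heckeAlphaBar L M ℓ);
      Module.finrank (laurentBaseChange L (modularFunctionFieldFull M))
        (laurentBaseChange L (modularFunctionFieldFull (M * ℓ))) = ℓ + 1)
    (τ : k →+* k) (hτ : ∀ x, τ x = x ^ ℓ)
    (f : laurentBaseChange L (modularFunctionFieldFull (M * ℓ)))
    (hf1 : f ∈ OInf h) (hf2 : f ∈ OZero h W) :
    letI := algebraAlong (heckeAlphaBar L M ℓ)
    ∃ hN : Algebra.norm (laurentBaseChange L (modularFunctionFieldFull M)) f ∈ Ow A π M h.hMk,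
      ((redF A π M h.hπ h.hMk
          ⟨Algebra.norm (laurentBaseChange L (modularFunctionFieldFull M)) f, hN⟩ :
          modularFunctionFieldFullC k M) : LaurentSeries k) =
        ((redInf h ⟨f, hf1⟩ : modularFunctionFieldFullC k M) : LaurentSeries k) *
          coeffMap τ ((redZero h W ⟨f, hf2⟩ : modularFunctionFieldFullC k M) :
            LaurentSeries k) := by
  letI := algebraAlong (heckeAlphaBar L M ℓ)
  have : Fact ℓ.Prime := ⟨h.hℓ⟩
  have : CharP k ℓ := h.charP
  obtain ⟨hN, e⟩ := norm_alpha_red h hW ζ hζ hfin hdeg f hf1 hf2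
  refine ⟨hN, ?_⟩
  apply qExpand_injective (R := k) ℓ
  rw [e, map_mul, Fermat.Agent.ESJ.Cong.FrobAut.pow_char k ℓ]
  congr 2
  exact coeffMap_congr (RingHom.ext fun x => by rw [frobenius_def]; exact (hτ x).symm) _

/-- **Reduction of the norm along `β`**, Frobenius form:
`red(Nm_β f) = red_0 f · Frob(red_∞ f)`. -/
theorem norm_beta_red_frob (h : BadSetup A π M ℓ) (hW : IsAL M ℓ W)
    (ζ : Lˣ) (hζ : IsPrimitiveRoot ζ ℓ)
    (hfin : letI := algebraAlong (heckeAlphaBar L M ℓ);
      Module.Finite (laurentBaseChange L (modularFunctionFieldFull M))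
        (laurentBaseChange L (modularFunctionFieldFull (M * ℓ))))
    (hdeg : letI := algebraAlong (heckeAlphaBar L M ℓ);
      Module.finrank (laurentBaseChange L (modularFunctionFieldFull M))
        (laurentBaseChange L (modularFunctionFieldFull (M * ℓ))) = ℓ + 1)
    (τ : k →+* k) (hτ : ∀ x, τ x = x ^ ℓ)
    (f : laurentBaseChange L (modularFunctionFieldFull (M * ℓ)))
    (hf1 : f ∈ OInf h) (hf2 : f ∈ OZero h W) :
    letI := algebraAlong (heckeBetaBar L M ℓ)
    ∃ hN : Algebra.norm (laurentBaseChange L (modularFunctionFieldFull M)) f ∈ Ow A π M h.hMk,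
      ((redF A π M h.hπ h.hMk
          ⟨Algebra.norm (laurentBaseChange L (modularFunctionFieldFull M)) f, hN⟩ :
          modularFunctionFieldFullC k M) : LaurentSeries k) =
        ((redZero h W ⟨f, hf2⟩ : modularFunctionFieldFullC k M) : LaurentSeries k) *
          coeffMap τ ((redInf h ⟨f, hf1⟩ : modularFunctionFieldFullC k M) :
            LaurentSeries k) := by
  have hWW : W (W f) = f := hW.invol h.hℓ h.not_dvd f
  have hWf1 : W f ∈ OInf h := hf2
  have hWf2 : W f ∈ OZero h W := by
    rw [mem_OZero_iff, hWW]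
    exact hf1
  obtain ⟨hN, e⟩ := norm_alpha_red_frob h hW ζ hζ hfin hdeg τ hτ (W f) hWf1 hWf2
  have hnb := norm_beta_eq hW f
  have hN' : (letI := algebraAlong (heckeBetaBar L M ℓ);
      Algebra.norm (laurentBaseChange L (modularFunctionFieldFull M)) f) ∈ Ow A π M h.hMk := by
    rw [hnb]
    exact hN
  refine ⟨hN', ?_⟩
  have e1 : (⟨(letI := algebraAlong (heckeBetaBar L M ℓ);
      Algebra.norm (laurentBaseChange L (modularFunctionFieldFull M)) f), hN'⟩ :
      Ow A π M h.hMk) = ⟨(letI := algebraAlong (heckeAlphaBar L M ℓ);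
      Algebra.norm (laurentBaseChange L (modularFunctionFieldFull M)) (W f)), hN⟩ :=
    Subtype.ext hnb
  have e2 : redZero h W ⟨W f, hWf2⟩ = redInf h ⟨f, hf1⟩ := by
    rw [redZero_mk]
    exact redInf_congr h hWW _ _
  have e3 : redInf h ⟨W f, hWf1⟩ = redZero h W ⟨f, hf2⟩ := rfl
  rw [e2, e3] at e
  exact (congrArg (fun x : Ow A π M h.hMk =>
    ((redF A π M h.hπ h.hMk x : modularFunctionFieldFullC k M) : LaurentSeries k)) e1).trans e

end Red

end

end Fermat.Agent.BAD.NormRed
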