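import Mathlib
import Fermat.Agent.BAD.NormRed
import Fermat.Agent.BAD.Dict
import Fermat.Agent.BAD.TwoVal.GaloisPair
import Fermat.Agent.ESJ.Cong.LevelPush
import Fermat.Agent.ESJ.Jac.Const

/-!
# BAD-F′, the formal half

`q ∤ M` prime, `A` a valuation ring of `ℚ̄` over `q` with residue map `π : A → k`, `φ` a Frobenius
element.  For an `m`-torsion class `x ∈ J₀(Mq)` killed by the two degeneracy push-forwards
`α_*, β_* : J₀(Mq) → J₀(M)`, the class `φ²x − x` is TORIC: it has a Kummer pair `(D, G)`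
(`m • D = div G`) with `G` a unit of `O_∞ ∩ O_0` whose two reductions are `1`
(`exists_toric_kummer`).

* `norm_alpha_redTo`, `norm_beta_redTo` : the reduction of the norms along `α`, `β` of a function
  scaled separately at the two places (`RedTo` form of `NormRed.norm_alpha_red`).
-/

set_option autoImplicit false

namespace Fermat.Agent.BAD.FormalHalf

open HahnSeries ModularCurve Polynomial AlgebraicCurve Fermat.Agent.Lib.Red Fermat.Agent.S28
open Fermat.Agent.ESJ.Cong.LevelGen Fermat.Agent.BAD.TwoVal Fermat.Agent.S28.Chain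
open Fermat.Agent.ESJ.Cong.ConjAnalytic Fermat.Agent.ESJ.RedK Fermat.Agent.BAD.NormRed

noncomputable section

section Norm

variable {L : Type*} [Field L] [Algebra ℚ L] {A : ValuationSubring L} {k : Type} [Field k]
  {π : A →+* k} {M ℓ : ℕ} [NeZero M] [NeZero ℓ]
  {W : laurentBaseChange L (modularFunctionFieldFull (M * ℓ)) ≃ₐ[L]
    laurentBaseChange L (modularFunctionFieldFull (M * ℓ))}

/-- **Reduction of the norm along `α`**, for a function scaled separately at the two places: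
if `a₁ f` reduces to `u₁` at `∞` and `a₂ f` reduces to `u₂` at `0`, then `a₁ a₂^ℓ Nm_α f`
reduces to `u₁ · Frob(u₂)`. -/
theorem norm_alpha_redTo (h : BadSetup A π M ℓ) (hW : IsAL M ℓ W)
    (ζ : Lˣ) (hζ : IsPrimitiveRoot ζ ℓ)
    (hfin : letI := algebraAlong (heckeAlphaBar L M ℓ);
      Module.Finite (laurentBaseChange L (modularFunctionFieldFull M))
        (laurentBaseChange L (modularFunctionFieldFull (M * ℓ))))
    (hdeg : letI := algebraAlong (heckeAlphaBar L M ℓ);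
      Module.finrank (laurentBaseChange L (modularFunctionFieldFull M))
        (laurentBaseChange L (modularFunctionFieldFull (M * ℓ))) = ℓ + 1)
    (τ : k →+* k) (hτ : ∀ x, τ x = x ^ ℓ)
    (f : laurentBaseChange L (modularFunctionFieldFull (M * ℓ))) (a₁ a₂ : L)
    (u₁ u₂ : LaurentSeries k)
    (h1 : RedTo A π (HahnSeries.C a₁ * (f : LaurentSeries L)) u₁)
    (h2 : RedTo A π (HahnSeries.C a₂ * ((W f : laurentBaseChange L
      (modularFunctionFieldFull (M * ℓ))) : LaurentSeries L)) u₂) :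
    letI := algebraAlong (heckeAlphaBar L M ℓ)
    RedTo A π (HahnSeries.C (a₁ * a₂ ^ ℓ) *
      ((Algebra.norm (laurentBaseChange L (modularFunctionFieldFull M)) f :
        laurentBaseChange L (modularFunctionFieldFull M)) : LaurentSeries L))
      (u₁ * coeffMap τ u₂) := by
  letI := algebraAlong (heckeAlphaBar L M ℓ)
  have hℓ : ℓ.Prime := h.hℓ
  have : Fact ℓ.Prime := ⟨hℓ⟩
  have : CharP k ℓ := h.charP
  obtain ⟨ζA, hζA⟩ := exists_unit_of_pow_eq_one A ζ hℓ.pos hζ.pow_eq_one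
  have hres : Units.map (π : A →* k) ζA = 1 := by
    apply Units.ext
    apply eq_one_of_pow_eq_one_of_charP ℓ
    have h1 : (ζA : A) ^ ℓ = 1 := by
      apply Subtype.ext
      have h2 := congrArg (fun u : Lˣ => (u : L)) hζA
      have h3 : ((ζA : A) : L) = (ζ : L) := h2
      show ((ζA : A) : L) ^ ℓ = 1
      rw [h3, ← Units.val_pow_eq_pow_val, hζ.pow_eq_one, Units.val_one]
    show (π (ζA : A)) ^ ℓ = 1
    rw [← map_pow, h1, map_one]
  set n : laurentBaseChange L (modularFunctionFieldFull M) :=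
    Algebra.norm (laurentBaseChange L (modularFunctionFieldFull M)) f with hn
  have hnorm := qExpand_norm_alpha hℓ hW ζ hζ hfin hdeg f
  have key : qExpand L ℓ (HahnSeries.C (a₁ * a₂ ^ ℓ) * (n : LaurentSeries L)) =
      qExpand L ℓ (HahnSeries.C a₁ * (f : LaurentSeries L)) *
        ∏ b ∈ Finset.range ℓ, rot (ζ ^ b) (HahnSeries.C a₂ * ((W f : laurentBaseChange L
          (modularFunctionFieldFull (M * ℓ))) : LaurentSeries L)) := by
    have e1 : ∀ (c : L) (z : LaurentSeries L),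
        qExpand L ℓ (HahnSeries.C c * z) = HahnSeries.C c * qExpand L ℓ z :=
      fun c z => by rw [map_mul, qExpand_C]
    have e2 : ∀ (b : ℕ) (c : L) (z : LaurentSeries L),
        rot (ζ ^ b) (HahnSeries.C c * z) = HahnSeries.C c * rot (ζ ^ b) z :=
      fun b c z => by rw [map_mul, rot_C]
    rw [e1, e1, hnorm, Finset.prod_congr rfl (fun b _ => e2 b a₂ _), Finset.prod_mul_distrib,
      Finset.prod_const, Finset.card_range, map_mul, map_pow]
    ring
  have r3 : ∀ b ∈ Finset.range ℓ, RedTo A π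
      (rot (ζ ^ b) (HahnSeries.C a₂ * ((W f : laurentBaseChange L
        (modularFunctionFieldFull (M * ℓ))) : LaurentSeries L))) u₂ := by
    intro b _
    have h3 := h2.rot (ζA ^ b)
    rw [map_pow, map_pow, hζA, hres, one_pow, rot_one_apply] at h3
    exact h3
  have r4 := (h1.qExpand ℓ).mul (RedTo.prod (Finset.range ℓ) _ _ r3)
  rw [← key, Finset.prod_const, Finset.card_range] at r4
  -- the scaled norm as an element of `F_M`
  set y : laurentBaseChange L (modularFunctionFieldFull M) :=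
    algebraMap L _ (a₁ * a₂ ^ ℓ) * n with hy
  have hycoe : (y : LaurentSeries L) = HahnSeries.C (a₁ * a₂ ^ ℓ) * (n : LaurentSeries L) := by
    rw [hy, Fermat.Agent.Lib.Red.C_eq_algebraMap]
    rfl
  have hβ : heckeBetaBar L M ℓ y ∈ OInf h := by
    rw [mem_OInf_iff, coe_heckeBetaBar, hycoe]
    exact r4.mem
  have hN : y ∈ Ow A π M h.hMk := (heckeBetaBar_mem_OInf_iff h y).mp hβ
  obtain ⟨g₀, r5⟩ : ∃ g₀ : LaurentSeries k, RedTo A π (y : LaurentSeries L) g₀ :=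
    ⟨red A π ⟨(y : LaurentSeries L), hN⟩, hN, rfl⟩
  have r6 := r5.qExpand ℓ
  rw [hycoe] at r6
  have e := r6.unique r4
  have e2 : g₀ = u₁ * coeffMap τ u₂ := by
    apply qExpand_injective (R := k) ℓ
    rw [e, map_mul, Fermat.Agent.ESJ.Cong.FrobAut.pow_char k ℓ]
    congr 2
    exact coeffMap_congr (RingHom.ext fun x => by rw [frobenius_def]; exact (hτ x).symm) _
  rw [← hycoe, ← e2]
  exact r5

/-- **Reduction of the norm along `β`**, for a function scaled separately at the two places: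
`a₂ a₁^ℓ Nm_β f` reduces to `u₂ · Frob(u₁)`. -/
theorem norm_beta_redTo (h : BadSetup A π M ℓ) (hW : IsAL M ℓ W)
    (ζ : Lˣ) (hζ : IsPrimitiveRoot ζ ℓ)
    (hfin : letI := algebraAlong (heckeAlphaBar L M ℓ);
      Module.Finite (laurentBaseChange L (modularFunctionFieldFull M))
        (laurentBaseChange L (modularFunctionFieldFull (M * ℓ))))
    (hdeg : letI := algebraAlong (heckeAlphaBar L M ℓ);
      Module.finrank (laurentBaseChange L (modularFunctionFieldFull M))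
        (laurentBaseChange L (modularFunctionFieldFull (M * ℓ))) = ℓ + 1)
    (τ : k →+* k) (hτ : ∀ x, τ x = x ^ ℓ)
    (f : laurentBaseChange L (modularFunctionFieldFull (M * ℓ))) (a₁ a₂ : L)
    (u₁ u₂ : LaurentSeries k)
    (h1 : RedTo A π (HahnSeries.C a₁ * (f : LaurentSeries L)) u₁)
    (h2 : RedTo A π (HahnSeries.C a₂ * ((W f : laurentBaseChange L
      (modularFunctionFieldFull (M * ℓ))) : LaurentSeries L)) u₂) :
    RedTo A π (HahnSeries.C (a₂ * a₁ ^ ℓ) *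
      (((letI := algebraAlong (heckeBetaBar L M ℓ);
        Algebra.norm (laurentBaseChange L (modularFunctionFieldFull M)) f) :
        laurentBaseChange L (modularFunctionFieldFull M)) : LaurentSeries L))
      (u₂ * coeffMap τ u₁) := by
  have hWW : W (W f) = f := hW.invol h.hℓ h.not_dvd f
  rw [norm_beta_eq hW f]
  refine norm_alpha_redTo h hW ζ hζ hfin hdeg τ hτ (W f) a₂ a₁ u₂ u₁ h2 ?_
  rw [hWW]
  exact h1

end Norm

/-! ### Helpers on `RedTo` -/

section Helpers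

variable {L : Type*} [Field L] {A : ValuationSubring L} {k : Type*} [Field k] {π : A →+* k}

/-- Scaling in `RedTo` form: a nonzero element of a field satisfying `GoodV` has a constant
multiple with nonzero reduction. -/
theorem exists_scaling_redTo {F : IntermediateField L (LaurentSeries L)}
    {κ : IntermediateField k (LaurentSeries k)} (hG : GoodV A π F κ) (f : F) (hf : f ≠ 0) :
    ∃ a : L, a ≠ 0 ∧ ∃ u : LaurentSeries k, u ≠ 0 ∧
      RedTo A π (HahnSeries.C a * (f : LaurentSeries L)) u := by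
  have hf' : (f : LaurentSeries L) ≠ 0 := fun h => hf (Subtype.ext h)
  obtain ⟨a, ha, hmem, hne, -⟩ := hG.exists_scaling f.2 hf'
  exact ⟨a, ha, _, hne, hmem, rfl⟩

theorem redTo_ne_zero {y : LaurentSeries L} {u : LaurentSeries k} (h : RedTo A π y u)
    (hu : u ≠ 0) : y ≠ 0 := by
  rintro rfl
  exact hu (h.unique RedTo.zero)

/-- The key computation in a field: from `v₁^m = X₁ u₁ T(u₂)` and `v₂^m = X₂ u₂ T(u₁)`,
`T²(u₁)/u₁ = (X₁ / T X₂) (T v₂ / v₁)^m`. -/
theorem frob_sq_ratio {K : Type*} [Field K] (T : K →+* K) {u₁ u₂ v₁ v₂ X₁ X₂ : K} {m : ℕ}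
    (hu₁ : u₁ ≠ 0) (hu₂ : u₂ ≠ 0) (hX₁ : X₁ ≠ 0) (hX₂ : X₂ ≠ 0)
    (e1 : v₁ ^ m = X₁ * (u₁ * T u₂)) (e2 : v₂ ^ m = X₂ * (u₂ * T u₁)) :
    T (T u₁) * u₁⁻¹ = (X₁ / T X₂) * (T v₂ * v₁⁻¹) ^ m := by
  have hT : ∀ z : K, z ≠ 0 → T z ≠ 0 := fun z hz => (_root_.map_ne_zero T).mpr hz
  have e2' : T v₂ ^ m = T X₂ * (T u₂ * T (T u₁)) := by
    rw [← map_pow, e2, map_mul, map_mul]
  rw [mul_pow, inv_pow, e2', e1]
  have h1 := hT u₂ hu₂
  have h2 := hT X₂ hX₂
  field_simp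

/-- The reduction of `σ²(y)/y` for `y` a constant multiple of a unit of the Gauss ring and `σ`
preserving `A` and inducing `τ` on the residue field. -/
theorem redTo_twice_div [Algebra ℚ L] [Algebra.IsAlgebraic ℚ L] (σ : L ≃ₐ[ℚ] L)
    (hσA : ∀ a : L, a ∈ A ↔ σ a ∈ A) (s : A →+* A) (hs : ∀ a : A, ((s a : A) : L) = σ (a : L))
    (τ : k →+* k) (hsτ : ∀ a : A, π (s a) = τ (π a))
    {y : LaurentSeries L} {a : L} (ha : a ≠ 0) {u : LaurentSeries k} (hu : u ≠ 0)
    (r : RedTo A π (HahnSeries.C a * y) u) :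
    ∃ p : k, p ≠ 0 ∧
      RedTo A π (coeffMap (σ : L →+* L) (coeffMap (σ : L →+* L) y) * y⁻¹)
        (HahnSeries.C p * (coeffMap τ (coeffMap τ u) * u⁻¹)) := by
  have r2 := (r.coeffMap (σ : L →+* L) s τ hs hsτ).coeffMap (σ : L →+* L) s τ hs hsτ
  have e : coeffMap (σ : L →+* L) (coeffMap (σ : L →+* L) (HahnSeries.C a * y)) =
      HahnSeries.C (σ (σ a)) * coeffMap (σ : L →+* L) (coeffMap (σ : L →+* L) y) := by
    rw [map_mul, map_mul, Fermat.Agent.S28.ModEq.coeffMap_C, Fermat.Agent.S28.ModEq.coeffMap_C]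
    rfl
  have r3 := (r2.congr_left e).mul (r.inv hu)
  have hy0 : y ≠ 0 := by
    rintro rfl
    rw [mul_zero] at r
    exact hu (r.unique RedTo.zero)
  have hσa : σ (σ a) ≠ 0 := (_root_.map_ne_zero σ).mpr ((_root_.map_ne_zero σ).mpr ha)
  have hσσ : ∀ b : L, b ∈ A ↔ (σ * σ) b ∈ A := fun b => by
    rw [AlgEquiv.mul_apply]
    exact (hσA b).trans (hσA (σ b))
  have hβ : σ (σ a) / a ∈ A := by
    have := decomp_div_mem (A := A) (σ * σ) hσσ a ha
    rwa [AlgEquiv.mul_apply] at this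
  have hβ' : a / σ (σ a) ∈ A := by
    have hinv : ∀ b : L, b ∈ A ↔ (σ * σ).symm b ∈ A := fun b => by
      have := hσσ ((σ * σ).symm b)
      rw [AlgEquiv.apply_symm_apply] at this
      exact this.symm
    have := decomp_div_mem (A := A) (σ * σ).symm hinv ((σ * σ) a) (by
      rw [AlgEquiv.mul_apply]; exact hσa)
    rwa [AlgEquiv.symm_apply_apply, AlgEquiv.mul_apply] at this
  have r4 := (RedTo.const (A := A) (π := π) ⟨a / σ (σ a), hβ'⟩).mul r3
  refine ⟨π ⟨a / σ (σ a), hβ'⟩, ?_, r4.congr_left ?_⟩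
  · intro h0
    have h1 : (⟨a / σ (σ a), hβ'⟩ : A) * ⟨σ (σ a) / a, hβ⟩ = 1 := by
      apply Subtype.ext
      show a / σ (σ a) * (σ (σ a) / a) = 1
      field_simp
    have h2 := congrArg π h1
    rw [map_mul, h0, zero_mul, map_one] at h2
    exact zero_ne_one h2
  · have hCa : (HahnSeries.C a : LaurentSeries L) ≠ 0 := (_root_.map_ne_zero _).mpr ha
    have hCσ : (HahnSeries.C (σ (σ a)) : LaurentSeries L) ≠ 0 := (_root_.map_ne_zero _).mpr hσa
    show HahnSeries.C (a / σ (σ a)) *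
      (HahnSeries.C (σ (σ a)) * coeffMap (σ : L →+* L) (coeffMap (σ : L →+* L) y) *
        (HahnSeries.C a * y)⁻¹) = _
    rw [map_div₀, mul_inv]
    field_simp

/-- If a constant multiple of `n = c g^m` reduces to `ρ ≠ 0`, then a constant multiple of `g`
reduces to some `v ≠ 0` with `v^m = c₁ ρ`, `c₁` a nonzero constant. -/
theorem exists_redTo_root (hπ : ∀ a : A, ¬ IsUnit a → π a = 0)
    {F : IntermediateField L (LaurentSeries L)} {κ : IntermediateField k (LaurentSeries k)}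
    (hG : GoodV A π F κ) (n g : F) (c a : L) (hc : c ≠ 0) (ha : a ≠ 0) (hg : g ≠ 0) (m : ℕ)
    (hn : n = algebraMap L F c * g ^ m) {ρ : LaurentSeries k} (hρ : ρ ≠ 0)
    (r : RedTo A π (HahnSeries.C a * (n : LaurentSeries L)) ρ) :
    ∃ (e : L) (v : LaurentSeries k) (c₁ : k), e ≠ 0 ∧ v ≠ 0 ∧ c₁ ≠ 0 ∧
      RedTo A π (HahnSeries.C e * (g : LaurentSeries L)) v ∧ v ^ m = HahnSeries.C c₁ * ρ := by
  obtain ⟨e, he, v, hv, rv⟩ := exists_scaling_redTo hG g hg
  have rY := rv.pow m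
  have hem : e ^ m ≠ 0 := pow_ne_zero m he
  have hC₁ : a * c * (e ^ m)⁻¹ ≠ 0 := mul_ne_zero (mul_ne_zero ha hc) (inv_ne_zero hem)
  have eq : HahnSeries.C a * (n : LaurentSeries L) =
      HahnSeries.C (a * c * (e ^ m)⁻¹) * (HahnSeries.C e * (g : LaurentSeries L)) ^ m := by
    have h1 : (n : LaurentSeries L) = HahnSeries.C c * (g : LaurentSeries L) ^ m := by
      rw [hn, Fermat.Agent.Lib.Red.C_eq_algebraMap]
      rfl
    rw [h1, mul_pow, ← map_pow, ← mul_assoc, ← mul_assoc, ← map_mul, ← map_mul]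
    congr 2
    field_simp
  have r' := r.congr_left eq
  obtain ⟨b, -, rb⟩ := RedTo.of_const_mul hπ hC₁ r' r' hρ rY.mem
  have e2 : v ^ m = HahnSeries.C (π b) * ρ := rY.unique rb
  refine ⟨e, v, π b, he, hv, ?_, rv, e2⟩
  intro h0
  rw [h0, map_zero, zero_mul] at e2
  exact hv (eq_zero_of_pow_eq_zero e2)

end Helpers

/-! ### The formal half -/

section Formal

local notation "Qb" => AlgebraicClosure ℚ

open Fermat.Agent.ESJ.Cong Fermat.Agent.ESJ.HeckeInputs Fermat.Agent.S24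

variable {M q : ℕ} [NeZero M] [NeZero q] {A : ValuationSubring Qb} {k : Type} [Field k]
  {π : A →+* k}
  {W : laurentBaseChange Qb (modularFunctionFieldFull (M * q)) ≃ₐ[Qb]
    laurentBaseChange Qb (modularFunctionFieldFull (M * q))}

omit [NeZero q] in
/-- If the push-forward of a Kummer divisor along a degeneracy map `ψ` is principal, the norm of
the Kummer generator is a constant times an `m`-th power. -/
theorem norm_eq_const_mul_pow_of_push (ψ : modularFunctionFieldBar M →ₐ[Qb]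
      modularFunctionFieldBar (M * q)) (hψ : ψ.toRingHom.IsIntegral)
    (hfin : FiniteAlong Qb ψ) (hN : NormFormulaAlong Qb ψ hfin) (m : ℕ)
    (D : Divisor Qb (modularFunctionFieldBar (M * q))) (f : modularFunctionFieldBar (M * q))
    (hD : Dict.IsDiv (m • D) f)
    (hpr : Divisor.pushforwardAlong ψ hψ D ∈
      Divisor.principal (K := Qb) (F := modularFunctionFieldBar M))
    (hn0 : (letI := algebraAlong ψ; Algebra.norm (modularFunctionFieldBar M) f) ≠ 0) :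
    ∃ (c : Qb) (g : modularFunctionFieldBar M), c ≠ 0 ∧ g ≠ 0 ∧
      (letI := algebraAlong ψ; Algebra.norm (modularFunctionFieldBar M) f) =
        algebraMap Qb (modularFunctionFieldBar M) c * g ^ m := by
  obtain ⟨g, hg0, hgdiv⟩ := hpr
  have hord : ∀ v : Place Qb (modularFunctionFieldBar M),
      v.ord (letI := algebraAlong ψ; Algebra.norm (modularFunctionFieldBar M) f) =
        m * v.ord g := by
    intro v
    have h1 := ESCong.pushforwardAlong_eq_ord_norm ψ hψ hfin hN hD.1 (D := m • D) hD.2 v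
    rw [map_nsmul, Finsupp.smul_apply, nsmul_eq_mul, hgdiv v] at h1
    exact h1.symm
  have := finiteDimensional_jBar M
  obtain ⟨c, hc, hNc⟩ := Fermat.Agent.ESJ.Jac.Const.exists_eq_const_mul_pow (jBar M) hn0 hg0 hord
  exact ⟨c, g, hc, hg0, hNc⟩

set_option maxHeartbeats 1600000 in
/-- **BAD-F′, the formal half.**  Let `x` be an `m`-torsion class of `J₀(Mq)` killed by the two
degeneracy push-forwards to `J₀(M)`, and `φ` an automorphism of `ℚ̄` preserving `A` and inducing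
the `q`-power map on the residue field.  Then `φ²x − x` has a Kummer pair `(D, G)` with `G` in
`O_∞ ∩ O_0` and both reductions of `G` equal to `1`. -/
theorem exists_toric_kummer (h : BadSetup A π M q) (hsurj : Function.Surjective π)
    (hW : IsAL M q W) (ζ : Qbˣ) (hζ : IsPrimitiveRoot ζ q)
    (φ : Qb ≃ₐ[ℚ] Qb) (hφA : ∀ a : Qb, a ∈ A ↔ φ a ∈ A)
    (s : A →+* A) (hs : ∀ a : A, ((s a : A) : Qb) = φ (a : Qb))
    (τ : k →+* k) (hτ : ∀ x, τ x = x ^ q) (hsτ : ∀ a : A, π (s a) = τ (π a))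
    (m : ℕ) (hm : 0 < m) (hroot : ∀ c : k, ∃ d : k, d ^ m = c)
    (x : JZero (M * q)) (hx : m • x = 0)
    (hα : levelPushAlpha M q x = 0) (hβ : levelPushBeta M q x = 0) :
    ∃ (D : Divisor.degZero (K := Qb) (F := modularFunctionFieldBar (M * q)))
      (G : modularFunctionFieldBar (M * q)),
      φ • φ • x - x = Pic0.mk D ∧
      Dict.IsDiv (m • (D : Divisor Qb (modularFunctionFieldBar (M * q)))) G ∧
      ∃ (h1 : G ∈ OInf h) (h2 : G ∈ OZero h W),
        redInf h ⟨G, h1⟩ = 1 ∧ redZero h W ⟨G, h2⟩ = 1 := by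
  classical
  have hq : q.Prime := h.hℓ
  have hqM : ¬ q ∣ M := h.not_dvd
  obtain ⟨hfin, hdeg⟩ := finite_and_finrank_alpha M q hq hqM
  obtain ⟨D, f, rfl, hD⟩ := Dict.exists_kummer m x hx
  have hf0 : f ≠ 0 := hD.1
  have hWf0 : W f ≠ 0 := fun h0 => hf0 (W.injective (by rw [h0, map_zero]))
  set T : LaurentSeries k →+* LaurentSeries k := coeffMap τ with hT
  -- scalings at the two places
  obtain ⟨a₁, ha₁, u₁, hu₁, r1⟩ := exists_scaling_redTo h.goodV f hf0
  obtain ⟨a₂, ha₂, u₂, hu₂, r2⟩ := exists_scaling_redTo h.goodV (W f) hWf0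
  have hTu₁ : T u₁ ≠ 0 := (_root_.map_ne_zero T).mpr hu₁
  have hTu₂ : T u₂ ≠ 0 := (_root_.map_ne_zero T).mpr hu₂
  -- the two norms
  have rα := norm_alpha_redTo h hW ζ hζ hfin hdeg τ hτ f a₁ a₂ u₁ u₂ r1 r2
  have rβ := norm_beta_redTo h hW ζ hζ hfin hdeg τ hτ f a₁ a₂ u₁ u₂ r1 r2
  have hρα : u₁ * T u₂ ≠ 0 := mul_ne_zero hu₁ hTu₂
  have hρβ : u₂ * T u₁ ≠ 0 := mul_ne_zero hu₂ hTu₁
  have hcα : a₁ * a₂ ^ q ≠ 0 := mul_ne_zero ha₁ (pow_ne_zero q ha₂)
  have hcβ : a₂ * a₁ ^ q ≠ 0 := mul_ne_zero ha₂ (pow_ne_zero q ha₁)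
  have hnα0 : (letI := algebraAlong (heckeAlphaBar Qb M q);
      Algebra.norm (modularFunctionFieldBar M) f) ≠ 0 := by
    intro h0
    have h1 := redTo_ne_zero rα hρα
    apply h1
    have h2 : (((letI := algebraAlong (heckeAlphaBar Qb M q);
      Algebra.norm (modularFunctionFieldBar M) f) : modularFunctionFieldBar M) :
      LaurentSeries Qb) = 0 := by rw [h0]; rfl
    rw [h2, mul_zero]
  have hnβ0 : (letI := algebraAlong (heckeBetaBar Qb M q);
      Algebra.norm (modularFunctionFieldBar M) f) ≠ 0 := by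
    intro h0
    have h1 := redTo_ne_zero rβ hρβ
    apply h1
    have h2 : (((letI := algebraAlong (heckeBetaBar Qb M q);
      Algebra.norm (modularFunctionFieldBar M) f) : modularFunctionFieldBar M) :
      LaurentSeries Qb) = 0 := by rw [h0]; rfl
    rw [h2, mul_zero]
  -- the push-forwards are principal
  rw [levelPushAlpha_mk, Dict.mk_eq_zero_iff] at hα
  rw [levelPushBeta_mk, Dict.mk_eq_zero_iff] at hβ
  obtain ⟨cα, gα, hcα0, hgα0, hNα⟩ := norm_eq_const_mul_pow_of_push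
    (heckeAlphaBar Qb M q) (heckeAlphaBarIntegral M q) (finiteAlong_heckeAlphaBar M q)
    (LevelPush.normFormulaAlong_alpha M q) m (D : Divisor Qb (modularFunctionFieldBar (M * q)))
    f hD hα hnα0
  obtain ⟨cβ, gβ, hcβ0, hgβ0, hNβ⟩ := norm_eq_const_mul_pow_of_push
    (heckeBetaBar Qb M q) (heckeBetaBarIntegral M q) (finiteAlong_heckeBetaBar M q)
    (normFormulaAlong_heckeBetaBar M q) m (D : Divisor Qb (modularFunctionFieldBar (M * q)))
    f hD hβ hnβ0
  -- roots of the reductions of the norms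
  obtain ⟨e₁, v₁, c₁, he₁, hv₁, hc₁, rv₁, hv₁m⟩ := exists_redTo_root h.hπ
    (goodV_full' A π M h.hMk) _ gα cα _ hcα0 hcα hgα0 m hNα hρα rα
  obtain ⟨e₂, v₂, c₂, he₂, hv₂, hc₂, rv₂, hv₂m⟩ := exists_redTo_root h.hπ
    (goodV_full' A π M h.hMk) _ gβ cβ _ hcβ0 hcβ hgβ0 m hNβ hρβ rβ
  -- the reductions of `φ² f / f` at the two places
  have : Algebra.IsAlgebraic ℚ Qb := AlgebraicClosure.isAlgebraic ℚ
  obtain ⟨p₁, hp₁, rG1⟩ := redTo_twice_div φ hφA s hs τ hsτ ha₁ hu₁ r1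
  obtain ⟨p₂, hp₂, rG2⟩ := redTo_twice_div φ hφA s hs τ hsτ ha₂ hu₂ r2
  have hCc₁ : (HahnSeries.C c₁ : LaurentSeries k) ≠ 0 := (_root_.map_ne_zero _).mpr hc₁
  have hCc₂ : (HahnSeries.C c₂ : LaurentSeries k) ≠ 0 := (_root_.map_ne_zero _).mpr hc₂
  have eq1 := frob_sq_ratio T hu₁ hu₂ hCc₁ hCc₂ hv₁m hv₂m
  have eq2 := frob_sq_ratio T hu₂ hu₁ hCc₂ hCc₁ hv₂m hv₁m
  have hTC : ∀ c : k, T (HahnSeries.C c) = HahnSeries.C (τ c) :=
    fun c => Fermat.Agent.S28.ModEq.coeffMap_C τ c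
  have hτc₁ : τ c₁ ≠ 0 := (_root_.map_ne_zero τ).mpr hc₁
  have hτc₂ : τ c₂ ≠ 0 := (_root_.map_ne_zero τ).mpr hc₂
  have hδ₁0 : p₁ * (c₁ / τ c₂) ≠ 0 := mul_ne_zero hp₁ (div_ne_zero hc₁ hτc₂)
  have hδ₂0 : p₂ * (c₂ / τ c₁) ≠ 0 := mul_ne_zero hp₂ (div_ne_zero hc₂ hτc₁)
  have rG1' : RedTo A π (coeffMap (φ : Qb →+* Qb) (coeffMap (φ : Qb →+* Qb)
      (f : LaurentSeries Qb)) * (f : LaurentSeries Qb)⁻¹)
      (HahnSeries.C (p₁ * (c₁ / τ c₂)) * (T v₂ * v₁⁻¹) ^ m) := by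
    refine rG1.congr_right ?_
    rw [eq1, hTC, map_mul, map_div₀, mul_assoc]
  have rG2' : RedTo A π (coeffMap (φ : Qb →+* Qb) (coeffMap (φ : Qb →+* Qb)
      ((W f : laurentBaseChange Qb (modularFunctionFieldFull (M * q))) : LaurentSeries Qb)) *
      ((W f : laurentBaseChange Qb (modularFunctionFieldFull (M * q))) : LaurentSeries Qb)⁻¹)
      (HahnSeries.C (p₂ * (c₂ / τ c₁)) * (T v₁ * v₂⁻¹) ^ m) := by
    refine rG2.congr_right ?_
    rw [eq2, hTC, map_mul, map_div₀, mul_assoc]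
  -- `m`-th roots of the constants
  obtain ⟨ε₁, hε₁⟩ := hroot (p₁ * (c₁ / τ c₂))
  obtain ⟨ε₂, hε₂⟩ := hroot (p₂ * (c₂ / τ c₁))
  have hε₁0 : ε₁ ≠ 0 := by
    rintro rfl
    rw [zero_pow hm.ne'] at hε₁
    exact hδ₁0 hε₁.symm
  have hε₂0 : ε₂ ≠ 0 := by
    rintro rfl
    rw [zero_pow hm.ne'] at hε₂
    exact hδ₂0 hε₂.symm
  obtain ⟨εA₁, hεA₁⟩ := hsurj ε₁
  obtain ⟨εA₂, hεA₂⟩ := hsurj ε₂
  -- the correcting function `H`
  have hTv₁ : T v₁ ≠ 0 := (_root_.map_ne_zero T).mpr hv₁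
  have hTv₂ : T v₂ ≠ 0 := (_root_.map_ne_zero T).mpr hv₂
  set y₁ : modularFunctionFieldBar M := algebraMap Qb _ e₁ * gα with hy₁
  set y₂ : modularFunctionFieldBar M := algebraMap Qb _ e₂ * gβ with hy₂
  have hy₁coe : (y₁ : LaurentSeries Qb) = HahnSeries.C e₁ * (gα : LaurentSeries Qb) := by
    rw [Fermat.Agent.Lib.Red.C_eq_algebraMap]
    rfl
  have hy₂coe : (y₂ : LaurentSeries Qb) = HahnSeries.C e₂ * (gβ : LaurentSeries Qb) := by
    rw [Fermat.Agent.Lib.Red.C_eq_algebraMap]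
    rfl
  set z₁ : modularFunctionFieldBar M :=
    algebraMap Qb _ (εA₁ : Qb) * (arithmeticGalois (modularFunctionFieldFull M) φ • y₂) * y₁⁻¹
    with hz₁
  set z₂ : modularFunctionFieldBar M :=
    algebraMap Qb _ (εA₂ : Qb) * (arithmeticGalois (modularFunctionFieldFull M) φ • y₁) * y₂⁻¹
    with hz₂
  have rz₁ : RedTo A π (z₁ : LaurentSeries Qb) (HahnSeries.C ε₁ * T v₂ * v₁⁻¹) := by
    have h1 := ((RedTo.const (A := A) (π := π) εA₁).mul
      (rv₂.coeffMap (φ : Qb →+* Qb) s τ hs hsτ)).mul (rv₁.inv hv₁)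
    rw [hεA₁, ← hy₁coe, ← hy₂coe, Fermat.Agent.Lib.Red.C_eq_algebraMap] at h1
    exact h1
  have rz₂ : RedTo A π (z₂ : LaurentSeries Qb) (HahnSeries.C ε₂ * T v₁ * v₂⁻¹) := by
    have h1 := ((RedTo.const (A := A) (π := π) εA₂).mul
      (rv₁.coeffMap (φ : Qb →+* Qb) s τ hs hsτ)).mul (rv₂.inv hv₂)
    rw [hεA₂, ← hy₁coe, ← hy₂coe, Fermat.Agent.Lib.Red.C_eq_algebraMap] at h1
    exact h1
  have hz₁O : z₁ ∈ Ow A π M h.hMk := rz₁.mem
  have hz₂O : z₂ ∈ Ow A π M h.hMk := rz₂.mem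
  have haκ : ((redF A π M h.hπ h.hMk ⟨z₁, hz₁O⟩ : modularFunctionFieldFullC k M) :
      LaurentSeries k) = HahnSeries.C ε₁ * T v₂ * v₁⁻¹ :=
    RedTo.unique ⟨hz₁O, rfl⟩ rz₁
  have hbκ : ((redF A π M h.hπ h.hMk ⟨z₂, hz₂O⟩ : modularFunctionFieldFullC k M) :
      LaurentSeries k) = HahnSeries.C ε₂ * T v₁ * v₂⁻¹ :=
    RedTo.unique ⟨hz₂O, rfl⟩ rz₂
  obtain ⟨H, hH1, hH2, hrH1, hrH2⟩ := joint_surjective h hW hsurj
    (redF A π M h.hπ h.hMk ⟨z₁, hz₁O⟩) (redF A π M h.hπ h.hMk ⟨z₂, hz₂O⟩)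
  have rH1 : RedTo A π (H : LaurentSeries Qb) (HahnSeries.C ε₁ * T v₂ * v₁⁻¹) := by
    have h1 : RedTo A π (H : LaurentSeries Qb)
        ((redInf h ⟨H, hH1⟩ : modularFunctionFieldFullC k M) : LaurentSeries k) := ⟨hH1, rfl⟩
    rw [hrH1, haκ] at h1
    exact h1
  have rH2 : RedTo A π ((W H : laurentBaseChange Qb (modularFunctionFieldFull (M * q))) :
      LaurentSeries Qb) (HahnSeries.C ε₂ * T v₁ * v₂⁻¹) := by
    have h1 : RedTo A π ((W H : laurentBaseChange Qb (modularFunctionFieldFull (M * q))) :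
        LaurentSeries Qb)
        ((redZero h W ⟨H, hH2⟩ : modularFunctionFieldFullC k M) : LaurentSeries k) := ⟨hH2, rfl⟩
    rw [hrH2, hbκ] at h1
    exact h1
  have hw₁ : HahnSeries.C ε₁ * T v₂ * v₁⁻¹ ≠ 0 :=
    mul_ne_zero (mul_ne_zero ((_root_.map_ne_zero _).mpr hε₁0) hTv₂) (inv_ne_zero hv₁)
  have hw₂ : HahnSeries.C ε₂ * T v₁ * v₂⁻¹ ≠ 0 :=
    mul_ne_zero (mul_ne_zero ((_root_.map_ne_zero _).mpr hε₂0) hTv₁) (inv_ne_zero hv₂)
  have hH0 : H ≠ 0 := by
    intro h0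
    apply redTo_ne_zero rH1 hw₁
    rw [h0]
    rfl
  -- the Kummer generator of `φ²x − x`
  set gN := arithmeticGalois (modularFunctionFieldFull (M * q)) φ with hgN
  set G₀ : modularFunctionFieldBar (M * q) := (gN • gN • f) * f⁻¹ with hG₀
  have hG₀coe : (G₀ : LaurentSeries Qb) = coeffMap (φ : Qb →+* Qb)
      (coeffMap (φ : Qb →+* Qb) (f : LaurentSeries Qb)) * (f : LaurentSeries Qb)⁻¹ := rfl
  have hWG₀ : W G₀ = (gN • gN • W f) * (W f)⁻¹ := by
    rw [hG₀, map_mul, map_inv₀, hW.galois_comm hq hqM, hW.galois_comm hq hqM]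
  have hWG₀coe : ((W G₀ : laurentBaseChange Qb (modularFunctionFieldFull (M * q))) :
      LaurentSeries Qb) = coeffMap (φ : Qb →+* Qb) (coeffMap (φ : Qb →+* Qb)
      ((W f : laurentBaseChange Qb (modularFunctionFieldFull (M * q))) : LaurentSeries Qb)) *
      ((W f : laurentBaseChange Qb (modularFunctionFieldFull (M * q))) : LaurentSeries Qb)⁻¹ := by
    rw [hWG₀]
    rfl
  set G : modularFunctionFieldBar (M * q) := G₀ * (H ^ m)⁻¹ with hG
  have hone₁ : HahnSeries.C (p₁ * (c₁ / τ c₂)) * (T v₂ * v₁⁻¹) ^ m *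
      ((HahnSeries.C ε₁ * T v₂ * v₁⁻¹) ^ m)⁻¹ = 1 := by
    have e : (HahnSeries.C ε₁ * T v₂ * v₁⁻¹) ^ m =
        HahnSeries.C (p₁ * (c₁ / τ c₂)) * (T v₂ * v₁⁻¹) ^ m := by
      rw [mul_assoc, mul_pow, ← map_pow, hε₁]
    rw [e]
    exact mul_inv_cancel₀ (mul_ne_zero ((_root_.map_ne_zero _).mpr hδ₁0)
      (pow_ne_zero m (mul_ne_zero hTv₂ (inv_ne_zero hv₁))))
  have hone₂ : HahnSeries.C (p₂ * (c₂ / τ c₁)) * (T v₁ * v₂⁻¹) ^ m *
      ((HahnSeries.C ε₂ * T v₁ * v₂⁻¹) ^ m)⁻¹ = 1 := by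
    have e : (HahnSeries.C ε₂ * T v₁ * v₂⁻¹) ^ m =
        HahnSeries.C (p₂ * (c₂ / τ c₁)) * (T v₁ * v₂⁻¹) ^ m := by
      rw [mul_assoc, mul_pow, ← map_pow, hε₂]
    rw [e]
    exact mul_inv_cancel₀ (mul_ne_zero ((_root_.map_ne_zero _).mpr hδ₂0)
      (pow_ne_zero m (mul_ne_zero hTv₁ (inv_ne_zero hv₂))))
  have rGinf : RedTo A π (G : LaurentSeries Qb) 1 := by
    have h1 := (rG1'.congr_left hG₀coe.symm).mul ((rH1.pow m).inv (pow_ne_zero m hw₁))
    exact (h1.congr_left rfl).congr_right hone₁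
  have hWG : W G = W G₀ * ((W H) ^ m)⁻¹ := by
    rw [hG, map_mul, map_inv₀, map_pow]
  have rGzero : RedTo A π ((W G : laurentBaseChange Qb (modularFunctionFieldFull (M * q))) :
      LaurentSeries Qb) 1 := by
    have h1 := (rG2'.congr_left hWG₀coe.symm).mul ((rH2.pow m).inv (pow_ne_zero m hw₂))
    rw [hWG]
    exact (h1.congr_left rfl).congr_right hone₂
  have hG1 : G ∈ OInf h := rGinf.mem
  have hG2 : G ∈ OZero h W := rGzero.mem
  -- divisors
  have hdivG₀ : Dict.IsDiv (m • ((gN * gN) •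
      (D : Divisor Qb (modularFunctionFieldBar (M * q))) -
      (D : Divisor Qb (modularFunctionFieldBar (M * q))))) G₀ := by
    have h1 := Dict.kummer_smul_sub (gN * gN) hD
    have e : (gN * gN) • f = gN • gN • f := mul_smul gN gN f
    rw [div_eq_mul_inv, e] at h1
    exact h1
  obtain ⟨E, hE, hEdeg⟩ := (hasPrincipalDivisors_bar (M * q)).exists_divisor H hH0
  have hdivHm : Dict.IsDiv (m • E) (H ^ m) := ⟨pow_ne_zero m hH0, fun v => by
    rw [Finsupp.smul_apply, hE v, nsmul_eq_mul, ← zpow_natCast, v.ord_zpow]⟩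
  refine ⟨SemilinearAut.degZeroSMulHom (gN * gN) D - D - ⟨E, hEdeg⟩, G, ?_, ?_, hG1, hG2, ?_, ?_⟩
  · have hE0 : Pic0.mk (⟨E, hEdeg⟩ :
        Divisor.degZero (K := Qb) (F := modularFunctionFieldBar (M * q))) = 0 :=
      (Dict.mk_eq_zero_iff _).mpr ⟨H, hH0, hE⟩
    rw [Dict.mk_sub, Dict.mk_sub, hE0, sub_zero, ← Dict.smul_mk, mul_smul]
    rfl
  · have h1 := Dict.isDiv_div hdivG₀ hdivHm
    rw [← smul_sub] at h1
    exact h1
  · apply Subtype.ext
    exact RedTo.unique ⟨hG1, rfl⟩ rGinf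
  · rw [redZero_mk]
    apply Subtype.ext
    exact RedTo.unique ⟨hG2, rfl⟩ rGzero

end Formal

end

end Fermat.Agent.BAD.FormalHalf
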