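import Mathlib.Tactic.NoncommRing
import Mathlib.Tactic.Abel
import Mathlib.Algebra.Ring.Commute

/-!
# Bad-prime Frobenius relation: pure algebra

`P(X) = X^2 - c X + d` with `c, d` commuting with everything.  If `φ`, `φ τ` and `φ τ'`
(`τ' = τ⁻¹`) are all roots of `P`, then `d * c * (τ + τ' - 2) = 0`.

Application: `φ` a Frobenius lift at `q`, `τ` in inertia, `c = -(q+1) w_q`, `d = q`:
on a torsion-free module, `(τ - 1)^2 = 0`.
-/

set_option autoImplicit false

namespace Fermat.Agent.BAD

variable {R : Type*} [Ring R]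

/-- First consequence: from `P(φ) = 0` and `P(φ τ) = 0`. -/
theorem frob_rel_aux {φ τ τ' c d : R}
    (hττ' : τ * τ' = 1)
    (hcφ : Commute c φ)
    (hdφ : Commute d φ) (hdc : Commute d c)
    (hφ : φ * φ - c * φ + d = 0)
    (hφτ : (φ * τ) * (φ * τ) - c * (φ * τ) + d = 0) :
    d * (τ * φ - φ * τ' + c * τ' - c) = 0 := by
  -- `φ τ φ = c φ - d τ'`
  have h1 : φ * τ * φ = c * φ - d * τ' := by
    have h := congrArg (· * τ') hφτ
    simp only [zero_mul, add_mul, sub_mul] at h
    have e1 : φ * τ * (φ * τ) * τ' = φ * τ * φ := by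
      calc φ * τ * (φ * τ) * τ' = φ * τ * φ * (τ * τ') := by noncomm_ring
        _ = φ * τ * φ := by rw [hττ', mul_one]
    have e2 : c * (φ * τ) * τ' = c * φ := by
      calc c * (φ * τ) * τ' = c * φ * (τ * τ') := by noncomm_ring
        _ = c * φ := by rw [hττ', mul_one]
    rw [e1, e2] at h
    have : φ * τ * φ = c * φ - d * τ' := by
      have h' : φ * τ * φ - c * φ + d * τ' = 0 := h
      calc φ * τ * φ = (φ * τ * φ - c * φ + d * τ') + (c * φ - d * τ') := by abel
        _ = c * φ - d * τ' := by rw [h', zero_add]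
    exact this
  -- `(φ - c) φ = -d`
  have h2 : (φ - c) * φ = -d := by
    have : (φ - c) * φ = (φ * φ - c * φ + d) - d := by noncomm_ring
    rw [this, hφ, zero_sub]
  -- multiply `h1` on the left by `φ - c`
  have h3 : (φ - c) * (φ * τ * φ) = (φ - c) * (c * φ - d * τ') := by rw [h1]
  have l : (φ - c) * (φ * τ * φ) = -(d * (τ * φ)) := by
    calc (φ - c) * (φ * τ * φ) = ((φ - c) * φ) * (τ * φ) := by noncomm_ring
      _ = -(d * (τ * φ)) := by rw [h2]; noncomm_ring
  have r : (φ - c) * (c * φ - d * τ') = -(d * c) - d * (φ * τ') + d * (c * τ') := by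
    have hc : (φ - c) * c = c * (φ - c) := by
      have := hcφ.eq
      calc (φ - c) * c = φ * c - c * c := by noncomm_ring
        _ = c * φ - c * c := by rw [this]
        _ = c * (φ - c) := by noncomm_ring
    have hd : (φ - c) * d = d * (φ - c) := by
      have e1 := hdφ.eq
      have e2 := hdc.eq
      calc (φ - c) * d = φ * d - c * d := by noncomm_ring
        _ = d * φ - d * c := by rw [e1, e2]
        _ = d * (φ - c) := by noncomm_ring
    calc (φ - c) * (c * φ - d * τ') = ((φ - c) * c) * φ - ((φ - c) * d) * τ' := by noncomm_ring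
      _ = c * ((φ - c) * φ) - d * ((φ - c) * τ') := by rw [hc, hd]; noncomm_ring
      _ = c * (-d) - d * ((φ - c) * τ') := by rw [h2]
      _ = -(d * c) - d * (φ * τ') + d * (c * τ') := by
          have e2 := hdc.eq
          have : c * (-d) = -(d * c) := by rw [mul_neg, e2]
          rw [this]; noncomm_ring
  rw [l, r] at h3
  have : d * (τ * φ - φ * τ' + c * τ' - c) =
      -(-(d * (τ * φ))) + (-(d * c) - d * (φ * τ') + d * (c * τ')) := by noncomm_ring
  rw [this, h3]; noncomm_ring

/-- **Frobenius-coset relation.**  If `φ`, `φ τ`, `φ τ⁻¹` all satisfy `X² - cX + d = 0`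
(with `c, d` commuting with `φ, τ, τ⁻¹`), then `d * c * (τ + τ⁻¹ - 2) = 0`. -/
theorem frob_coset_rel {φ τ τ' c d : R}
    (hττ' : τ * τ' = 1) (hτ'τ : τ' * τ = 1)
    (hcφ : Commute c φ) (hcτ : Commute c τ)
    (hdφ : Commute d φ) (hdτ : Commute d τ) (hdc : Commute d c)
    (hφ : φ * φ - c * φ + d = 0)
    (hφτ : (φ * τ) * (φ * τ) - c * (φ * τ) + d = 0)
    (hφτ' : (φ * τ') * (φ * τ') - c * (φ * τ') + d = 0) :
    d * c * (τ + τ' - 2) = 0 := by
  have h1 := frob_rel_aux hττ' hcφ hdφ hdc hφ hφτ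
  have h2 := frob_rel_aux hτ'τ hcφ hdφ hdc hφ hφτ'
  -- conjugate `h2` by `τ`
  have h2' : d * (φ * τ' - τ * φ + c * τ - c) = 0 := by
    have h := congrArg (fun x => τ * x * τ') h2
    simp only [mul_zero, zero_mul] at h
    have e : τ * (d * (τ' * φ - φ * τ + c * τ - c)) * τ' =
        d * (φ * τ' - τ * φ + c * τ - c) := by
      have ed := hdτ.eq
      have ec := hcτ.eq
      have k1 : τ * (τ' * φ) * τ' = φ * τ' := by
        calc τ * (τ' * φ) * τ' = (τ * τ') * φ * τ' := by noncomm_ring
          _ = φ * τ' := by rw [hττ', one_mul]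
      have k2 : τ * (φ * τ) * τ' = τ * φ := by
        calc τ * (φ * τ) * τ' = τ * φ * (τ * τ') := by noncomm_ring
          _ = τ * φ := by rw [hττ', mul_one]
      have k3 : τ * (c * τ) * τ' = c * τ := by
        calc τ * (c * τ) * τ' = (τ * c) * (τ * τ') := by noncomm_ring
          _ = c * τ := by rw [hττ', mul_one, ec]
      have k4 : τ * c * τ' = c := by
        calc τ * c * τ' = c * (τ * τ') := by rw [← ec]; noncomm_ring
          _ = c := by rw [hττ', mul_one]
      calc τ * (d * (τ' * φ - φ * τ + c * τ - c)) * τ'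
          = (τ * d) * (τ' * φ - φ * τ + c * τ - c) * τ' := by noncomm_ring
        _ = d * (τ * (τ' * φ - φ * τ + c * τ - c) * τ') := by rw [← ed]; noncomm_ring
        _ = d * (τ * (τ' * φ) * τ' - τ * (φ * τ) * τ' + τ * (c * τ) * τ' - τ * c * τ') := by
            noncomm_ring
        _ = d * (φ * τ' - τ * φ + c * τ - c) := by rw [k1, k2, k3, k4]
    rw [e] at h
    exact h
  have : d * c * (τ + τ' - 2) =
      d * (τ * φ - φ * τ' + c * τ' - c) + d * (φ * τ' - τ * φ + c * τ - c) := by
    noncomm_ring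
  rw [this, h1, h2', add_zero]

end Fermat.Agent.BAD
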