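import Mathlib
import Fermat.Agent.BAD.NodalPlaces
import Fermat.Agent.ESJ.Cong.FrobFibre
import Fermat.Agent.Lib.Descent.Laurent

/-!
# BAD (D1)+(D2): the Frobenius structure of the chart rings of the good fibre

`k` a field, `κ = modularFunctionFieldFullC k M ⊆ k((q))`, `φ` a ring automorphism of `k`,
`σ = coeffSL M φ` the coefficientwise action on `κ`, `y ∈ κ` a coordinate (`IsFF1 k κ y`) fixed
by `σ` (all the generators `J(q^d)` are), `R = finRing k y` the chart ring (= the integral closure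
of `k[y]`, `NodalPlaces.mem_finRing_iff_isIntegral`).

General function fields:
* `smul_mem_L_nsmul_poleDiv`, `smul_mem_finRing` : a semilinear automorphism fixing `y` preserves
  `L(n·(y)_∞)` and the chart ring.
* `exists_mem_L_of_mem_finRing` : the chart ring is the union of the `L(n·(y)_∞)`.

The modular fibre:
* `mem_span_fixed_of_mem_L`, **`mem_span_fixed_of_mem_finRing`** : every element of `L(n·(y)_∞)`,
  resp. of the chart ring, is a `k`-linear combination of `σ`-fixed elements of the same space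
  (echelon descent `Lib.Descent.le_span_fixed`; no normality statement is used).
* `frobAlg M l φ hφ : κ →ₐ[k] κ` (`h ↦ h(q^l)`, `φ` the Frobenius of `k`), `frobAlg_of_fixed`
  (`Φ g = g ^ l` for `σ`-fixed `g`), `frobAlg_mem_finRing`.
* packaged for `KroneckerNodal.exists_nodes` with `R := ↥(finRing k y)`:
  `frobR : R →ₐ[k] R`, `fixedSet : Set R`, **`span_fixedSet : span k fixedSet = ⊤`**,
  `frobR_of_mem_fixedSet : Φ f = f ^ l`, `coord_mem_fixedSet`.
-/

set_option autoImplicit false
set_option linter.style.haveILetI false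

noncomputable section

namespace Fermat.Agent.BAD.FrobDescent

open ModularCurve AlgebraicCurve HahnSeries WithZero Fermat.Agent.Lib.FF
  Fermat.Agent.ESJ.Cong.FrobFibre Fermat.Agent.BAD.NodalCech Fermat.Agent.BAD.NodalPlaces

section General

variable {K F : Type*} [Field K] [Field F] [Algebra K F] {y : F}

theorem smul_eq_zero_iff' (g : SemilinearAut K F) (f : F) : g • f = 0 ↔ f = 0 := by
  rw [SemilinearAut.smul_def]
  exact map_eq_zero_iff _ (SemilinearAut.toRingAut g).injective

theorem inv_smul_eq_self {g : SemilinearAut K F} (hg : g • y = y) : g⁻¹ • y = y := by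
  rw [inv_smul_eq_iff, hg]

/-- A semilinear automorphism fixing `y` preserves `L(n·(y)_∞)`. -/
theorem smul_mem_L_nsmul_poleDiv (h : IsFF1 K F y) (g : SemilinearAut K F) (hg : g • y = y)
    (n : ℕ) {f : F} (hf : f ∈ riemannRochSpace (n • h.poleDiv)) :
    g • f ∈ riemannRochSpace (n • h.poleDiv) := by
  rw [mem_riemannRochSpace_iff] at hf ⊢
  intro P
  rcases hf (g⁻¹ • P) with h0 | h1
  · left
    rw [h0, smul_zero]
  · right
    rw [ord_smul']
    have hE : (n • h.poleDiv) (g⁻¹ • P) = (n • h.poleDiv) P := by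
      rw [Finsupp.smul_apply, Finsupp.smul_apply, h.poleDiv_apply, h.poleDiv_apply,
        ← ord_smul' g P y, hg]
    rw [← hE]
    exact h1

/-- A semilinear automorphism fixing `y` preserves the chart ring of `y`. -/
theorem smul_mem_finRing (h : IsFF1 K F y) (g : SemilinearAut K F) (hg : g • y = y) {f : F}
    (hf : f ∈ finRing K y) : g • f ∈ finRing K y := by
  have hy0 : y ≠ 0 := fun h0 => h.transcendental (h0 ▸ isAlgebraic_zero)
  intro P hP
  have h1 : (g⁻¹ • P).adicValuation y ≤ 1 := by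
    rw [val_le_one_iff_ord _ hy0] at hP ⊢
    rw [← ord_smul' g P y, hg]
    exact hP
  have h2 := hf _ h1
  rw [Place.adicValuation_le_one_iff] at h2 ⊢
  rcases h2 with h0 | h3
  · left
    rw [h0, smul_zero]
  · right
    rw [ord_smul']
    exact h3

/-- The chart ring of `y` is the union of the spaces `L(n·(y)_∞)`. -/
theorem exists_mem_L_of_mem_finRing (h : IsFF1 K F y) {f : F} (hf : f ∈ finRing K y) :
    ∃ n : ℕ, f ∈ riemannRochSpace (n • h.poleDiv) := by
  have hy0 : y ≠ 0 := fun h0 => h.transcendental (h0 ▸ isAlgebraic_zero)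
  haveI := h.hasPrincipalDivisors
  obtain ⟨m, hm⟩ := exists_pow_mul_val_lt_one (K := K) (inv_ne_zero hy0) f
  refine ⟨m, (mem_L_nsmul_poleDiv_iff h m f).mpr ⟨hf, fun P hP => ?_⟩⟩
  rcases eq_or_lt_of_le hP with hP1 | hP1
  · rw [map_mul, map_pow, map_inv₀, ← hP1, inv_one, one_pow, one_mul]
    exact hf P (le_of_eq hP1.symm)
  · refine (hm m le_rfl P ?_).le
    rw [map_inv₀]
    exact inv_lt_one_of_one_lt₀ hP1

theorem mem_finRing_of_mem_L (h : IsFF1 K F y) {n : ℕ} {f : F}
    (hf : f ∈ riemannRochSpace (n • h.poleDiv)) : f ∈ finRing K y :=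
  ((mem_L_nsmul_poleDiv_iff h n f).mp hf).1

end General

section Modular

variable {k : Type*} [Field k] (M : ℕ)

/-- The coefficients of the `q`-expansion, as a `k`-linear map on `κ`. -/
def coeffK : ↥(modularFunctionFieldFullC k M) →ₗ[k] (ℤ → k) where
  toFun f i := (f : LaurentSeries k).coeff i
  map_add' f g := by
    funext i
    rfl
  map_smul' c f := by
    funext i
    show ((c • f : ↥(modularFunctionFieldFullC k M)) : LaurentSeries k).coeff i
      = c * (f : LaurentSeries k).coeff i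
    rw [Algebra.smul_def]
    show (algebraMap k (LaurentSeries k) c * (f : LaurentSeries k)).coeff i = _
    rw [algebraMap_laurentSeries_eq_single]
    exact Fermat.Agent.Lib.Descent.coeff_C_mul c _ i

theorem coeffK_apply (f : ↥(modularFunctionFieldFullC k M)) (i : ℤ) :
    coeffK M f i = (f : LaurentSeries k).coeff i := rfl

theorem coeffK_injective : Function.Injective (coeffK (k := k) M) := by
  intro f g hfg
  apply Subtype.ext
  ext i
  exact congrFun hfg i

theorem coeffK_smul (φ : k ≃+* k) (f : ↥(modularFunctionFieldFullC k M)) (i : ℤ) :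
    coeffK M (coeffSL M φ • f) i = φ (coeffK M f i) := rfl

variable {M}

/-- **Echelon descent on `L(n·(y)_∞)`**: every element is a `k`-linear combination of elements of
the same space whose `q`-expansion is fixed by `φ` coefficientwise. -/
theorem mem_span_fixed_of_mem_L {y : ↥(modularFunctionFieldFullC k M)}
    (h : IsFF1 k ↥(modularFunctionFieldFullC k M) y) (φ : k ≃+* k)
    (hy : coeffSL M φ • y = y) (n : ℕ) {f : ↥(modularFunctionFieldFullC k M)}
    (hf : f ∈ riemannRochSpace (n • h.poleDiv)) :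
    f ∈ Submodule.span k {g : ↥(modularFunctionFieldFullC k M) |
      g ∈ riemannRochSpace (n • h.poleDiv) ∧ coeffSL M φ • g = g} := by
  haveI := h.finite_L (n • h.poleDiv)
  set L := riemannRochSpace (n • h.poleDiv) with hL
  set W : Submodule k (ℤ → k) := L.map (coeffK M) with hW
  haveI : FiniteDimensional k W := Module.Finite.map L (coeffK M)
  have hstab : ∀ ψ ∈ ({(φ : k →+* k)} : Set (k →+* k)), ∀ x ∈ W, (fun i => ψ (x i)) ∈ W := by
    intro ψ hψ x hx
    rw [Set.mem_singleton_iff] at hψ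
    subst hψ
    obtain ⟨f', hf', rfl⟩ := hx
    exact ⟨coeffSL M φ • f', smul_mem_L_nsmul_poleDiv h _ hy n hf', rfl⟩
  have key := Fermat.Agent.Lib.Descent.le_span_fixed W {(φ : k →+* k)} hstab
    (Submodule.mem_map_of_mem hf)
  have hsub : {x | x ∈ W ∧ ∀ ψ ∈ ({(φ : k →+* k)} : Set (k →+* k)), ∀ i, ψ (x i) = x i}
      ⊆ coeffK M '' {g : ↥(modularFunctionFieldFullC k M) | g ∈ L ∧ coeffSL M φ • g = g} := by
    rintro x ⟨⟨g, hg, rfl⟩, hfix⟩
    refine ⟨g, ⟨hg, ?_⟩, rfl⟩
    apply coeffK_injective M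
    funext i
    rw [coeffK_smul]
    exact hfix _ rfl i
  have key2 := Submodule.span_mono hsub key
  rw [Submodule.span_image] at key2
  obtain ⟨f', hf', hff'⟩ := key2
  rwa [coeffK_injective M hff'] at hf'

/-- **Echelon descent on the chart ring** (`span_k R₀ = R`): every function regular where `y` is
regular is a `k`-linear combination of such functions with `φ`-fixed `q`-expansion. -/
theorem mem_span_fixed_of_mem_finRing {y : ↥(modularFunctionFieldFullC k M)}
    (h : IsFF1 k ↥(modularFunctionFieldFullC k M) y) (φ : k ≃+* k)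
    (hy : coeffSL M φ • y = y) {f : ↥(modularFunctionFieldFullC k M)} (hf : f ∈ finRing k y) :
    f ∈ Submodule.span k {g : ↥(modularFunctionFieldFullC k M) |
      g ∈ finRing k y ∧ coeffSL M φ • g = g} := by
  obtain ⟨n, hn⟩ := exists_mem_L_of_mem_finRing h hf
  refine Submodule.span_mono ?_ (mem_span_fixed_of_mem_L h φ hy n hn)
  rintro g ⟨hg1, hg2⟩
  exact ⟨mem_finRing_of_mem_L h hg1, hg2⟩

variable (M) (l : ℕ) [NeZero l] [ExpChar k l]

/-- `h ↦ h(q ^ l)` as a `k`-algebra endomorphism of `κ` (characteristic `l`, Frobenius `φ`). -/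
def frobAlg (φ : k ≃+* k) (hφ : ∀ x, φ x = x ^ l) :
    ↥(modularFunctionFieldFullC k M) →ₐ[k] ↥(modularFunctionFieldFullC k M) where
  __ := qExpandFull M l φ hφ
  commutes' c := Subtype.ext ((qExpandAlgHomC k l).commutes c)

theorem frobAlg_apply (φ : k ≃+* k) (hφ : ∀ x, φ x = x ^ l)
    (f : ↥(modularFunctionFieldFullC k M)) : frobAlg M l φ hφ f = qExpandFull M l φ hφ f := rfl

theorem coe_frobAlg (φ : k ≃+* k) (hφ : ∀ x, φ x = x ^ l)
    (f : ↥(modularFunctionFieldFullC k M)) :
    (frobAlg M l φ hφ f : LaurentSeries k) = qExpand k l (f : LaurentSeries k) := rfl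

/-- `Φ g = g ^ l` for a `σ`-fixed `g`. -/
theorem frobAlg_of_fixed (φ : k ≃+* k) (hφ : ∀ x, φ x = x ^ l)
    {g : ↥(modularFunctionFieldFullC k M)} (hg : coeffSL M φ • g = g) :
    frobAlg M l φ hφ g = g ^ l := by
  rw [frobAlg_apply, qExpandFull_eq, inv_smul_eq_self hg]

variable {M}

/-- `Φ` preserves the chart ring of a `σ`-fixed coordinate. -/
theorem frobAlg_mem_finRing {y : ↥(modularFunctionFieldFullC k M)}
    (h : IsFF1 k ↥(modularFunctionFieldFullC k M) y) (φ : k ≃+* k) (hφ : ∀ x, φ x = x ^ l)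
    (hy : coeffSL M φ • y = y) {f : ↥(modularFunctionFieldFullC k M)} (hf : f ∈ finRing k y) :
    frobAlg M l φ hφ f ∈ finRing k y := by
  rw [frobAlg_apply, qExpandFull_eq]
  exact pow_mem (smul_mem_finRing h _ (inv_smul_eq_self hy) hf) l

/-- The Frobenius twist `Φ` on the chart ring `R = finRing k y`. -/
def frobR {y : ↥(modularFunctionFieldFullC k M)}
    (h : IsFF1 k ↥(modularFunctionFieldFullC k M) y) (φ : k ≃+* k) (hφ : ∀ x, φ x = x ^ l)
    (hy : coeffSL M φ • y = y) : ↥(finRing k y) →ₐ[k] ↥(finRing k y) :=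
  ((frobAlg M l φ hφ).comp (finRing k y).val).codRestrict (finRing k y)
    (fun f => frobAlg_mem_finRing l h φ hφ hy f.2)

theorem coe_frobR {y : ↥(modularFunctionFieldFullC k M)}
    (h : IsFF1 k ↥(modularFunctionFieldFullC k M) y) (φ : k ≃+* k) (hφ : ∀ x, φ x = x ^ l)
    (hy : coeffSL M φ • y = y) (f : ↥(finRing k y)) :
    ((frobR l h φ hφ hy f : ↥(finRing k y)) : ↥(modularFunctionFieldFullC k M))
      = frobAlg M l φ hφ (f : ↥(modularFunctionFieldFullC k M)) := rfl

omit [NeZero l] [ExpChar k l] in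
/-- The `σ`-fixed elements of the chart ring (`R₀`). -/
def fixedSet (y : ↥(modularFunctionFieldFullC k M)) (φ : k ≃+* k) : Set ↥(finRing k y) :=
  {f | coeffSL M φ • (f : ↥(modularFunctionFieldFullC k M)) = f}

omit [NeZero l] [ExpChar k l] in
theorem mem_fixedSet {y : ↥(modularFunctionFieldFullC k M)} {φ : k ≃+* k}
    {f : ↥(finRing k y)} :
    f ∈ fixedSet y φ ↔ coeffSL M φ • (f : ↥(modularFunctionFieldFullC k M)) = f := Iff.rfl

omit [NeZero l] [ExpChar k l] in
/-- **`span_k R₀ = R`.** -/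
theorem span_fixedSet {y : ↥(modularFunctionFieldFullC k M)}
    (h : IsFF1 k ↥(modularFunctionFieldFullC k M) y) (φ : k ≃+* k)
    (hy : coeffSL M φ • y = y) : Submodule.span k (fixedSet y φ) = ⊤ := by
  rw [eq_top_iff]
  rintro f -
  have h1 := mem_span_fixed_of_mem_finRing h φ hy f.2
  have himg : {g : ↥(modularFunctionFieldFullC k M) | g ∈ finRing k y ∧ coeffSL M φ • g = g}
      = (finRing k y).val.toLinearMap '' fixedSet y φ := by
    ext g
    constructor
    · rintro ⟨hg1, hg2⟩
      exact ⟨⟨g, hg1⟩, hg2, rfl⟩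
    · rintro ⟨g', hg', rfl⟩
      exact ⟨g'.2, hg'⟩
  rw [himg, Submodule.span_image] at h1
  obtain ⟨f', hf', hff'⟩ := h1
  have : f' = f := Subtype.ext hff'
  rwa [this] at hf'

/-- `Φ f = f ^ l` on `R₀`. -/
theorem frobR_of_mem_fixedSet {y : ↥(modularFunctionFieldFullC k M)}
    (h : IsFF1 k ↥(modularFunctionFieldFullC k M) y) (φ : k ≃+* k) (hφ : ∀ x, φ x = x ^ l)
    (hy : coeffSL M φ • y = y) {f : ↥(finRing k y)} (hf : f ∈ fixedSet y φ) :
    frobR l h φ hφ hy f = f ^ l := by
  apply Subtype.ext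
  rw [coe_frobR, frobAlg_of_fixed M l φ hφ hf]
  rfl

omit [NeZero l] [ExpChar k l] in
/-- The coordinate itself lies in `R₀`. -/
theorem coord_mem_fixedSet {y : ↥(modularFunctionFieldFullC k M)} {φ : k ≃+* k}
    (hy : coeffSL M φ • y = y) :
    (⟨y, self_mem_finRing⟩ : ↥(finRing k y)) ∈ fixedSet y φ := hy

end Modular

end Fermat.Agent.BAD.FrobDescent
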