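/-
BAD-U, hypothesis (GAL).

This file used to prove `BadU.galoisBad`.  The theorem now lives in `BAD/BadU.lean` itself
(as `Fermat.Agent.BAD.BadU.galoisBad` and `Fermat.Agent.BAD.BadU.galoisAt`), proved there from
`BAD/TwoVal/GaloisPair.lean`.  This file is kept as a re-exporting stub only.
-/
import Mathlib
import Fermat.Agent.BAD.BadU
import Fermat.Agent.BAD.TwoVal.GaloisPair
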