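import Mathlib
import Fermat.Prelude.Def_ModularCurve_GenusNumerics
import Fermat.Agent.S20.IndexGamma0

/-!
# BAD (S3-ARITH): the genus of `X₀(qM)` against twice the genus of `X₀(M)`

Pure arithmetic on the Prelude's `ModularCurve.genusFormula`.  For a prime `q ∤ M`, `M ≥ 1`:

* `dedekindPsi (q * M) = (q + 1) * dedekindPsi M`   (from `S20/IndexGamma0`),
* `cuspCount (q * M) = 2 * cuspCount M`,
* `nuTwo (q * M) = nuTwo q * nuTwo M ≤ 2 * nuTwo M`, and the same for `nuThree`,
* `genusFormula (q * M) + 1 - 2 * genusFormula M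
     = (q - 1) ψ(M) / 12 + (2 ν₂(M) - ν₂(qM)) / 4 + (2 ν₃(M) - ν₃(qM)) / 3 > 0`.

The last quantity is the number of glued pairs (supersingular crossing points) of the nodal
special fibre of `X₀(qM)` at `q`; its positivity is the connectedness of that fibre.
-/

set_option autoImplicit false
set_option linter.style.haveILetI false

namespace Fermat.Agent.BAD.GenusIneq

open ModularCurve

/-! ### Counting solutions under a product decomposition -/

/-- Solutions of an equation compatible with a ring isomorphism `R ≃ S × T` are counted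
multiplicatively. -/
theorem card_zeros_of_ringEquiv {R S T : Type*} [CommRing R] [CommRing S] [CommRing T]
    (e : R ≃+* S × T) (fR : R → R) (fS : S → S) (fT : T → T)
    (hf : ∀ x, e (fR x) = (fS (e x).1, fT (e x).2)) :
    Nat.card {x : R // fR x = 0} = Nat.card {y : S // fS y = 0} * Nat.card {z : T // fT z = 0} := by
  rw [← Nat.card_prod]
  refine Nat.card_congr ?_
  refine (e.toEquiv.subtypeEquiv (p := fun x => fR x = 0)
    (q := fun yz : S × T => fS yz.1 = 0 ∧ fT yz.2 = 0) ?_).trans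
    (Equiv.subtypeProdEquivProd (p := fun y : S => fS y = 0) (q := fun z : T => fT z = 0))
  intro x
  have h1 : fR x = 0 ↔ e (fR x) = 0 := (map_eq_zero_iff e e.injective).symm
  rw [h1, hf, Prod.ext_iff]
  rfl

theorem nuTwo_mul {m n : ℕ} (h : m.Coprime n) : nuTwo (m * n) = nuTwo m * nuTwo n := by
  unfold nuTwo
  refine card_zeros_of_ringEquiv (ZMod.chineseRemainder h) (fun x => x ^ 2 + 1)
    (fun x => x ^ 2 + 1) (fun x => x ^ 2 + 1) ?_
  intro x
  simp only [map_add, map_pow, map_one]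
  rfl

theorem nuThree_mul {m n : ℕ} (h : m.Coprime n) : nuThree (m * n) = nuThree m * nuThree n := by
  unfold nuThree
  refine card_zeros_of_ringEquiv (ZMod.chineseRemainder h) (fun x => x ^ 2 + x + 1)
    (fun x => x ^ 2 + x + 1) (fun x => x ^ 2 + x + 1) ?_
  intro x
  simp only [map_add, map_pow, map_one]
  rfl

/-- A polynomial of degree `≤ 2` over a field has at most two roots. -/
theorem card_roots_le_two {K : Type*} [Field K] [Fintype K] [DecidableEq K] (p : Polynomial K)
    (hp : p ≠ 0) (hdeg : p.natDegree ≤ 2) :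
    Nat.card {x : K // p.eval x = 0} ≤ 2 := by
  classical
  rw [Nat.card_eq_fintype_card, Fintype.card_subtype]
  calc (Finset.univ.filter fun x : K => p.eval x = 0).card ≤ p.roots.toFinset.card := by
        refine Finset.card_le_card ?_
        intro x hx
        rw [Multiset.mem_toFinset, Polynomial.mem_roots hp]
        exact (Finset.mem_filter.mp hx).2
    _ ≤ p.roots.card := Multiset.toFinset_card_le _
    _ ≤ p.natDegree := Polynomial.card_roots' p
    _ ≤ 2 := hdeg

theorem nuTwo_prime_le {q : ℕ} (hq : q.Prime) : nuTwo q ≤ 2 := by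
  classical
  haveI : Fact q.Prime := ⟨hq⟩
  unfold nuTwo
  have hp : (Polynomial.X ^ 2 + 1 : Polynomial (ZMod q)) ≠ 0 := by
    intro h
    have := congrArg (fun p => Polynomial.coeff p 2) h
    simp [Polynomial.coeff_one] at this
  have hdeg : (Polynomial.X ^ 2 + 1 : Polynomial (ZMod q)).natDegree ≤ 2 := by
    compute_degree
  have := card_roots_le_two (Polynomial.X ^ 2 + 1 : Polynomial (ZMod q)) hp hdeg
  simpa using this

theorem nuThree_prime_le {q : ℕ} (hq : q.Prime) : nuThree q ≤ 2 := by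
  classical
  haveI : Fact q.Prime := ⟨hq⟩
  unfold nuThree
  have hp : (Polynomial.X ^ 2 + Polynomial.X + 1 : Polynomial (ZMod q)) ≠ 0 := by
    intro h
    have := congrArg (fun p => Polynomial.coeff p 2) h
    simp [Polynomial.coeff_one, Polynomial.coeff_X] at this
  have hdeg : (Polynomial.X ^ 2 + Polynomial.X + 1 : Polynomial (ZMod q)).natDegree ≤ 2 := by
    compute_degree
  have := card_roots_le_two (Polynomial.X ^ 2 + Polynomial.X + 1 : Polynomial (ZMod q)) hp hdeg
  simpa using this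

theorem nuTwo_prime_mul_le {q M : ℕ} (hq : q.Prime) (hqM : ¬ q ∣ M) :
    nuTwo (q * M) ≤ 2 * nuTwo M := by
  rw [nuTwo_mul ((Nat.Prime.coprime_iff_not_dvd hq).mpr hqM)]
  exact Nat.mul_le_mul_right _ (nuTwo_prime_le hq)

theorem nuThree_prime_mul_le {q M : ℕ} (hq : q.Prime) (hqM : ¬ q ∣ M) :
    nuThree (q * M) ≤ 2 * nuThree M := by
  rw [nuThree_mul ((Nat.Prime.coprime_iff_not_dvd hq).mpr hqM)]
  exact Nat.mul_le_mul_right _ (nuThree_prime_le hq)

/-! ### Cusps -/

theorem cuspCount_prime_mul {q M : ℕ} (hq : q.Prime) (hM : M ≠ 0) (hqM : ¬ q ∣ M) :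
    cuspCount (q * M) = 2 * cuspCount M := by
  classical
  unfold cuspCount
  have hcop : Nat.Coprime q M := (Nat.Prime.coprime_iff_not_dvd hq).mpr hqM
  have hsplit : (q * M).divisors = M.divisors ∪ M.divisors.image (fun e => q * e) := by
    ext d
    simp only [Finset.mem_union, Finset.mem_image, Nat.mem_divisors]
    constructor
    · rintro ⟨hd, -⟩
      by_cases hqd : q ∣ d
      · obtain ⟨e, rfl⟩ := hqd
        exact Or.inr ⟨e, ⟨Nat.dvd_of_mul_dvd_mul_left hq.pos hd, hM⟩, rfl⟩
      · have hc : Nat.Coprime d q := ((Nat.Prime.coprime_iff_not_dvd hq).mpr hqd).symm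
        exact Or.inl ⟨hc.dvd_of_dvd_mul_left hd, hM⟩
    · rintro (⟨hd, -⟩ | ⟨e, ⟨he, -⟩, rfl⟩)
      · exact ⟨hd.mul_left q, mul_ne_zero hq.ne_zero hM⟩
      · exact ⟨Nat.mul_dvd_mul_left q he, mul_ne_zero hq.ne_zero hM⟩
  have hdisj : Disjoint M.divisors (M.divisors.image (fun e => q * e)) := by
    rw [Finset.disjoint_left]
    rintro d hd hd'
    obtain ⟨e, -, rfl⟩ := Finset.mem_image.mp hd'
    exact hqM ((dvd_mul_right q e).trans (Nat.mem_divisors.mp hd).1)
  have hinj : Set.InjOn (fun e => q * e) (M.divisors : Set ℕ) :=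
    fun a _ b _ hab => Nat.eq_of_mul_eq_mul_left hq.pos hab
  rw [hsplit, Finset.sum_union hdisj, Finset.sum_image hinj, two_mul]
  congr 1
  · refine Finset.sum_congr rfl fun d hd => ?_
    have hdM : d ∣ M := (Nat.mem_divisors.mp hd).1
    have hqd : Nat.Coprime d q := (Nat.Coprime.coprime_dvd_left hdM hcop.symm)
    rw [Nat.mul_div_assoc q hdM]
    congr 1
    exact Nat.Coprime.gcd_mul_left_cancel_right _ hqd.symm
  · refine Finset.sum_congr rfl fun d hd => ?_
    have hdM : d ∣ M := (Nat.mem_divisors.mp hd).1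
    have hd0 : 0 < d := Nat.pos_of_mem_divisors hd
    have hMd : Nat.Coprime (M / d) q :=
      Nat.Coprime.coprime_dvd_left (Nat.div_dvd_of_dvd hdM) hcop.symm
    rw [Nat.mul_div_mul_left M d hq.pos]
    congr 1
    exact Nat.Coprime.gcd_mul_left_cancel _ hMd.symm

/-! ### The genus formula -/

theorem dedekindPsi_pos {M : ℕ} (hM : M ≠ 0) : 0 < dedekindPsi M := by
  unfold dedekindPsi
  refine Finset.sum_pos' (fun _ _ => Nat.zero_le _) ⟨1, ?_, ?_⟩
  · simp [hM]
  · simpa using Nat.pos_of_ne_zero hM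

/-- **The defect `g(qM) + 1 - 2 g(M)`** for a prime `q ∤ M`. -/
theorem genusFormula_prime_mul {q M : ℕ} (hq : q.Prime) (hM : M ≠ 0) (hqM : ¬ q ∣ M) :
    genusFormula (q * M) + 1 - 2 * genusFormula M
      = ((q : ℚ) - 1) * (dedekindPsi M : ℚ) / 12
        + (2 * (nuTwo M : ℚ) - (nuTwo (q * M) : ℚ)) / 4
        + (2 * (nuThree M : ℚ) - (nuThree (q * M) : ℚ)) / 3 := by
  unfold genusFormula
  rw [Fermat.Agent.S20.Count.Index.dedekindPsi_mul_of_not_dvd hq hM hqM,
    cuspCount_prime_mul hq hM hqM]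
  push_cast
  ring

/-- **Connectedness inequality**: `g(qM) + 1 - 2 g(M) > 0` for a prime `q ∤ M`. -/
theorem genusFormula_prime_mul_pos {q M : ℕ} (hq : q.Prime) (hM : M ≠ 0) (hqM : ¬ q ∣ M) :
    0 < genusFormula (q * M) + 1 - 2 * genusFormula M := by
  rw [genusFormula_prime_mul hq hM hqM]
  have h1 : (0 : ℚ) < ((q : ℚ) - 1) * (dedekindPsi M : ℚ) / 12 := by
    have hq1 : (1 : ℚ) < q := by exact_mod_cast hq.one_lt
    have hpsi : (0 : ℚ) < dedekindPsi M := by exact_mod_cast dedekindPsi_pos hM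
    have : (0 : ℚ) < (q : ℚ) - 1 := by linarith
    positivity
  have h2 : (0 : ℚ) ≤ (2 * (nuTwo M : ℚ) - (nuTwo (q * M) : ℚ)) / 4 := by
    have : (nuTwo (q * M) : ℚ) ≤ 2 * (nuTwo M : ℚ) := by
      exact_mod_cast nuTwo_prime_mul_le hq hqM
    linarith
  have h3 : (0 : ℚ) ≤ (2 * (nuThree M : ℚ) - (nuThree (q * M) : ℚ)) / 3 := by
    have : (nuThree (q * M) : ℚ) ≤ 2 * (nuThree M : ℚ) := by
      exact_mod_cast nuThree_prime_mul_le hq hqM
    linarith
  linarith

/-- In terms of natural-number genera: if `g_N`, `g_M` are given by the genus formula at levels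
`qM` and `M`, then `2 g_M ≤ g_N`, i.e. the number `g_N + 1 - 2 g_M` of glued pairs is `≥ 1`. -/
theorem two_mul_genus_le {q M : ℕ} (hq : q.Prime) (hM : M ≠ 0) (hqM : ¬ q ∣ M) {gN gM : ℕ}
    (hN : (gN : ℚ) = genusFormula (q * M)) (hgM : (gM : ℚ) = genusFormula M) :
    2 * gM ≤ gN := by
  have h := genusFormula_prime_mul_pos hq hM hqM
  rw [← hN, ← hgM] at h
  have h' : (2 * gM : ℚ) < (gN : ℚ) + 1 := by linarith
  have h'' : 2 * gM < gN + 1 := by exact_mod_cast h'
  omega

end Fermat.Agent.BAD.GenusIneq
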