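import Mathlib

/-!
# BAD / S33 (RC-2): Hensel's lemma for characters, by uniqueness

Abstract core (Mathlib only).  `K` is an algebraically closed field, `A` a valuation subring of
`K` with a residue map `π : A →+* k` (onto, killing the maximal ideal), `R` a `K`-algebra and
`RA ⊆ R` a subring containing `A` ("integral functions"), `ε : RA →+* k` a ring homomorphism
extending `π` ("the value of the reduction at a point of the special fibre"), `u e : RA`.

With `J := u·RA + 𝔪_A·RA` and the hypotheses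

* (SPAN) every element of `R` has a `K^×`-multiple in `RA`;
* (FG)   `RA ⊆ ∑ A·b_i + u·RA` for finitely many `b_i ∈ RA`;
* (SAT)  `u·g ∈ RA → g ∈ RA`;
* `ε e = 1`, (LOC) `ε y = 0 → e·y ∈ J`, (NZ) `e ∉ J`,

there is exactly one character `χ : R →ₐ[K] K` with `χ u = 0`, `χ(RA) ⊆ A` and `π ∘ χ = ε` on
`RA` (`existsUnique_character`).  By uniqueness it commutes with every semilinear automorphism
preserving the data (`character_comm`).
-/

set_option autoImplicit false
set_option linter.style.haveILetI false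

noncomputable section

namespace Fermat.Agent.BAD.HenselChar

open Polynomial

variable {K : Type*} [Field K] {A : ValuationSubring K} {k : Type*} [Field k]
variable {R : Type*} [CommRing R] [Algebra K R]

/-- An element of `K` integral over the valuation subring `A` lies in `A`. -/
theorem mem_of_isIntegral (A : ValuationSubring K) {x : K} (hx : IsIntegral A x) : x ∈ A := by
  have hv : A.valuation.Integers A :=
    ⟨Subtype.val_injective, fun a => A.valuation_le_one a,
      fun {x} h => ⟨⟨x, (A.valuation_le_one_iff x).mp h⟩, rfl⟩⟩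
  exact (A.valuation_le_one_iff x).mp (hv.mem_of_integral hx)

/-- The constants of `A` inside `RA`. -/
def cA (RA : Subring R) (hA : ∀ a : A, algebraMap K R a ∈ RA) : A →+* RA :=
  ((algebraMap K R).comp A.subtype).codRestrict RA hA

@[simp]
theorem coe_cA (RA : Subring R) (hA : ∀ a : A, algebraMap K R a ∈ RA) (a : A) :
    ((cA RA hA a : RA) : R) = algebraMap K R a := rfl

/-- The ideal `u·RA + 𝔪_A·RA` of `RA`. -/
def J (RA : Subring R) (hA : ∀ a : A, algebraMap K R a ∈ RA) (u : RA) : Ideal RA :=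
  Ideal.span {u} ⊔ Ideal.map (cA RA hA) (IsLocalRing.maximalIdeal A)

/-- Characters of a finite-dimensional commutative algebra over an algebraically closed field:
every non-unit is killed by one of them. -/
theorem exists_algHom_eq_zero_of_not_isUnit [IsAlgClosed K] {S : Type*} [CommRing S] [Algebra K S]
    [Module.Finite K S] (s : S) (hs : ¬ IsUnit s) : ∃ χ : S →ₐ[K] K, χ s = 0 := by
  obtain ⟨𝔫, h𝔫, hs𝔫⟩ := exists_max_ideal_of_mem_nonunits hs
  haveI := h𝔫
  letI : Field (S ⧸ 𝔫) := Ideal.Quotient.field 𝔫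
  haveI : Module.Finite K (S ⧸ 𝔫) := Module.Finite.of_surjective (Ideal.Quotient.mkₐ K 𝔫).toLinearMap
    (Ideal.Quotient.mkₐ_surjective K 𝔫)
  haveI : Algebra.IsIntegral K (S ⧸ 𝔫) := Algebra.IsIntegral.of_finite K (S ⧸ 𝔫)
  have hbij : Function.Bijective (algebraMap K (S ⧸ 𝔫)) :=
    IsAlgClosed.algebraMap_bijective_of_isIntegral
  let E : K ≃ₐ[K] (S ⧸ 𝔫) := AlgEquiv.ofBijective (Algebra.ofId K (S ⧸ 𝔫)) hbij
  refine ⟨(E.symm : (S ⧸ 𝔫) →ₐ[K] K).comp (Ideal.Quotient.mkₐ K 𝔫), ?_⟩
  have h0 : Ideal.Quotient.mkₐ K 𝔫 s = 0 := by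
    rw [Ideal.Quotient.mkₐ_eq_mk]
    exact Ideal.Quotient.eq_zero_iff_mem.mpr hs𝔫
  rw [AlgHom.comp_apply, h0, map_zero]

/-- The hypotheses of the abstract Hensel lemma. -/
structure Hyp (π : A →+* k) (RA : Subring R) (hA : ∀ a : A, algebraMap K R a ∈ RA)
    (ε : RA →+* k) (u e : RA) : Prop where
  surj : Function.Surjective π
  zero : ∀ a ∈ IsLocalRing.maximalIdeal A, π a = 0
  eps : ∀ a : A, ε (cA RA hA a) = π a
  span : ∀ y : R, ∃ c : K, c ≠ 0 ∧ algebraMap K R c * y ∈ RA
  fg : ∃ (d : ℕ) (b : Fin d → RA), ∀ y : RA, ∃ (c : Fin d → A) (z : RA),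
      y = ∑ i, cA RA hA (c i) * b i + u * z
  sat : ∀ g : R, (u : R) * g ∈ RA → g ∈ RA
  one : ε e = 1
  loc : ∀ y : RA, ε y = 0 → e * y ∈ J RA hA u
  nz : e ∉ J RA hA u

/-- `χ` kills `u`, is integral on `RA` and reduces to `ε`. -/
def IsLift (π : A →+* k) (RA : Subring R) (ε : RA →+* k) (u : RA) (χ : R →ₐ[K] K) : Prop :=
  χ u = 0 ∧ ∀ y : RA, ∃ a : A, χ y = a ∧ π a = ε y

section Main

variable {π : A →+* k} {RA : Subring R} {hA : ∀ a : A, algebraMap K R a ∈ RA}
  {ε : RA →+* k} {u e : RA}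

theorem apply_cA (χ : R →ₐ[K] K) (a : A) : χ (cA RA hA a : RA) = a := by
  rw [coe_cA, AlgHom.commutes]
  rfl

/-- The value of a `K`-algebra homomorphism killing `u` in terms of the generators. -/
theorem algHom_apply_eq_sum {T : Type*} [CommRing T] [Algebra K T] (φ : R →ₐ[K] T)
    (hφ : φ u = 0) {d : ℕ} (b : Fin d → RA) (c : Fin d → A)
    (z y : RA) (hy : y = ∑ i, cA RA hA (c i) * b i + u * z) :
    φ y = ∑ i, (c i : K) • φ (b i) := by
  rw [hy]
  push_cast
  rw [map_add, map_mul, hφ, zero_mul, add_zero, map_sum]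
  refine Finset.sum_congr rfl fun i _ => ?_
  rw [map_mul, coe_cA, AlgHom.commutes, Algebra.smul_def]

/-- The value of a character killing `u` in terms of the generators. -/
theorem apply_eq_sum (χ : R →ₐ[K] K) (hχ : χ u = 0) {d : ℕ} (b : Fin d → RA) (c : Fin d → A)
    (z y : RA) (hy : y = ∑ i, cA RA hA (c i) * b i + u * z) :
    χ y = ∑ i, (c i : K) * χ (b i) :=
  algHom_apply_eq_sum χ hχ b c z y hy

/-- **Integrality**: a character killing `u` maps `RA` into `A`. -/
theorem apply_mem (H : Hyp π RA hA ε u e) (χ : R →ₐ[K] K) (hχ : χ u = 0) (y : RA) :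
    χ y ∈ A := by
  obtain ⟨d, b, hb⟩ := H.fg
  apply mem_of_isIntegral
  let N : Submodule A K := Submodule.span A (Set.range fun i => χ (b i))
  have hgen : ∀ w : RA, χ w ∈ N := by
    intro w
    obtain ⟨c, z, hw⟩ := hb w
    rw [apply_eq_sum χ hχ b c z w hw]
    refine Submodule.sum_mem _ fun i _ => ?_
    have h1 : (c i : K) * χ (b i) = c i • χ (b i) := rfl
    rw [h1]
    exact Submodule.smul_mem _ _ (Submodule.subset_span ⟨i, rfl⟩)
  have hN : N ≠ ⊥ := by
    intro h0
    have h1 : χ ((1 : RA) : R) ∈ N := hgen 1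
    rw [h0, Submodule.mem_bot] at h1
    simp at h1
  refine isIntegral_of_smul_mem_submodule N hN (Submodule.fg_span (Set.finite_range _)) (χ y) ?_
  intro n hn
  induction hn using Submodule.span_induction with
  | mem x hx =>
    obtain ⟨i, rfl⟩ := hx
    have h1 : χ (y : R) • χ ((b i : RA) : R) = χ ((y * b i : RA) : R) := by
      push_cast
      rw [map_mul, smul_eq_mul]
    rw [h1]
    exact hgen _
  | zero => rw [smul_zero]; exact N.zero_mem
  | add x y _ _ hx hy => rw [smul_add]; exact N.add_mem hx hy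
  | smul a x _ hx =>
    rw [smul_comm]
    exact N.smul_mem a hx

theorem val_apply_le_one (H : Hyp π RA hA ε u e) (χ : R →ₐ[K] K) (hχ : χ u = 0) (y : RA) :
    A.valuation (χ y) ≤ 1 :=
  (A.valuation_le_one_iff _).mpr (apply_mem H χ hχ y)

/-- A character killing `u` maps `𝔪_A·RA` into the maximal ideal. -/
theorem val_apply_lt_one_of_mem_map (H : Hyp π RA hA ε u e) (χ : R →ₐ[K] K) (hχ : χ u = 0)
    {w : RA} (hw : w ∈ Ideal.map (cA RA hA) (IsLocalRing.maximalIdeal A)) :
    A.valuation (χ w) < 1 := by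
  unfold Ideal.map at hw
  induction hw using Submodule.span_induction with
  | mem x hx =>
    obtain ⟨a, ha, rfl⟩ := hx
    rw [apply_cA]
    exact (A.valuation_lt_one_iff a).mp ha
  | zero => simp
  | add x y _ _ hx hy =>
    push_cast
    rw [map_add]
    exact lt_of_le_of_lt (Valuation.map_add _ _ _) (max_lt hx hy)
  | smul r x _ hx =>
    rw [smul_eq_mul]
    push_cast
    rw [map_mul, map_mul]
    exact lt_of_le_of_lt (mul_le_of_le_one_left' (val_apply_le_one H χ hχ r)) hx

/-- A character killing `u` maps `J` into the maximal ideal. -/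
theorem val_apply_lt_one_of_mem_J (H : Hyp π RA hA ε u e) (χ : R →ₐ[K] K) (hχ : χ u = 0)
    {w : RA} (hw : w ∈ J RA hA u) : A.valuation (χ w) < 1 := by
  obtain ⟨w1, hw1, w2, hw2, rfl⟩ := Submodule.mem_sup.mp hw
  obtain ⟨r, rfl⟩ := Ideal.mem_span_singleton'.mp hw1
  push_cast
  rw [map_add, map_mul, hχ, mul_zero, zero_add]
  exact val_apply_lt_one_of_mem_map H χ hχ hw2

/-- `e ^ (n + 1) ≡ e` modulo `J`. -/
theorem pow_succ_sub_mem_J (H : Hyp π RA hA ε u e) (n : ℕ) : e ^ (n + 1) - e ∈ J RA hA u := by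
  have h2 : e * (e - 1) ∈ J RA hA u :=
    H.loc (e - 1) (by rw [map_sub, H.one, map_one, sub_self])
  induction n with
  | zero => simp
  | succ n ih =>
    have h3 : e ^ (n + 1 + 1) - e = e * (e ^ (n + 1) - e) + e * (e - 1) := by ring
    rw [h3]
    exact (J RA hA u).add_mem ((J RA hA u).mul_mem_left _ ih) h2

theorem pow_notMem_J (H : Hyp π RA hA ε u e) (n : ℕ) : e ^ n ∉ J RA hA u := by
  intro hn
  apply H.nz
  cases n with
  | zero =>
    rw [pow_zero] at hn
    have h1 := (J RA hA u).mul_mem_left e hn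
    rwa [mul_one] at h1
  | succ n =>
    have h1 := (J RA hA u).sub_mem hn (pow_succ_sub_mem_J H n)
    rwa [sub_sub_cancel] at h1

/-- A product of factors `e - μ` with `μ ∈ 𝔪_A` is `≡ e ^ n` modulo `𝔪_A·RA`. -/
theorem exists_prod_sub (e : RA) (s : Multiset K) (hs : ∀ μ ∈ s, A.valuation μ < 1) :
    ∃ g : RA, (g : R) = (s.map fun μ => (e : R) - algebraMap K R μ).prod ∧
      g - e ^ Multiset.card s ∈ Ideal.map (cA RA hA) (IsLocalRing.maximalIdeal A) := by
  induction s using Multiset.induction_on with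
  | empty => exact ⟨1, by simp, by simp⟩
  | cons μ s ih =>
    obtain ⟨g, hg, hg'⟩ := ih (fun ν hν => hs ν (Multiset.mem_cons_of_mem hν))
    have hμ := hs μ (Multiset.mem_cons_self μ s)
    have hμA : μ ∈ A := (A.valuation_le_one_iff μ).mp hμ.le
    have hμm : (⟨μ, hμA⟩ : A) ∈ IsLocalRing.maximalIdeal A :=
      (A.valuation_lt_one_iff _).mpr hμ
    refine ⟨(e - cA RA hA ⟨μ, hμA⟩) * g, ?_, ?_⟩
    · rw [Multiset.map_cons, Multiset.prod_cons, ← hg]
      push_cast
      rfl
    · rw [Multiset.card_cons]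
      have h3 : (e - cA RA hA ⟨μ, hμA⟩) * g - e ^ (Multiset.card s + 1)
          = e * (g - e ^ Multiset.card s) - cA RA hA ⟨μ, hμA⟩ * g := by ring
      rw [h3]
      exact Ideal.sub_mem _ (Ideal.mul_mem_left _ _ hg')
        (Ideal.mul_mem_right _ _ (Ideal.mem_map_of_mem _ hμm))

/-- **Existence**: some character killing `u` takes a unit value at `e`. -/
theorem exists_character [IsAlgClosed K] (H : Hyp π RA hA ε u e) :
    ∃ χ : R →ₐ[K] K, χ u = 0 ∧ A.valuation (χ e) = 1 := by
  by_contra hcon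
  push Not at hcon
  have hlt : ∀ χ : R →ₐ[K] K, χ u = 0 → A.valuation (χ e) < 1 := fun χ hχ =>
    lt_of_le_of_ne (val_apply_le_one H χ hχ e) (hcon χ hχ)
  set I : Ideal R := Ideal.span {(u : R)} with hI
  set mk : R →ₐ[K] (R ⧸ I) := Ideal.Quotient.mkₐ K I with hmk
  have hmku : mk u = 0 := by
    rw [hmk, Ideal.Quotient.mkₐ_eq_mk]
    exact Ideal.Quotient.eq_zero_iff_mem.mpr (Ideal.mem_span_singleton_self _)
  obtain ⟨d, b, hb⟩ := H.fg
  -- `R ⧸ u R` is finite-dimensional
  haveI : Module.Finite K (R ⧸ I) := by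
    rw [Module.finite_def]
    have htop : (⊤ : Submodule K (R ⧸ I)) = Submodule.span K (Set.range fun i => mk (b i)) := by
      symm
      rw [eq_top_iff]
      rintro s -
      obtain ⟨y, rfl⟩ := Ideal.Quotient.mkₐ_surjective K I s
      obtain ⟨c, hc, hcy⟩ := H.span y
      obtain ⟨cc, z, hz⟩ := hb ⟨_, hcy⟩
      have h1 := algHom_apply_eq_sum mk hmku b cc z ⟨_, hcy⟩ hz
      have h2 : mk y = c⁻¹ • mk (algebraMap K R c * y) := by
        rw [map_mul, AlgHom.commutes, ← Algebra.smul_def, smul_smul, inv_mul_cancel₀ hc, one_smul]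
      show mk y ∈ _
      rw [h2]
      refine Submodule.smul_mem _ _ ?_
      have h3 : mk (algebraMap K R c * y) = ∑ i, (cc i : K) • mk (b i) := h1
      rw [h3]
      exact Submodule.sum_mem _ fun i _ =>
        Submodule.smul_mem _ _ (Submodule.subset_span ⟨i, rfl⟩)
    rw [htop]
    exact Submodule.fg_span (Set.finite_range _)
  set f : Module.End K (R ⧸ I) := Algebra.lmul K (R ⧸ I) (mk e) with hf
  -- the roots of the minimal polynomial are values of characters
  have hroot : ∀ μ : K, (minpoly K f).IsRoot μ → A.valuation μ < 1 := by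
    intro μ hμ
    have hev : f.HasEigenvalue μ := Module.End.hasEigenvalue_iff_isRoot.mpr hμ
    obtain ⟨v, hv⟩ := hev.exists_hasEigenvector
    have hfv : mk e * v = μ • v := hv.apply_eq_smul
    have hnu : ¬ IsUnit (mk e - algebraMap K (R ⧸ I) μ) := by
      intro hu
      have h1 : (mk e - algebraMap K (R ⧸ I) μ) * v = 0 := by
        rw [sub_mul, ← Algebra.smul_def, hfv, sub_self]
      exact hv.2 (hu.mul_right_eq_zero.mp h1)
    obtain ⟨χS, hχS⟩ := exists_algHom_eq_zero_of_not_isUnit (K := K) _ hnu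
    have hχu : (χS.comp mk) u = 0 := by
      rw [AlgHom.comp_apply, hmku, map_zero]
    have hχe : (χS.comp mk) e = μ := by
      rw [map_sub, AlgHom.commutes, sub_eq_zero] at hχS
      rw [AlgHom.comp_apply, hχS]
      rfl
    rw [← hχe]
    exact hlt _ hχu
  have hmonic : (minpoly K f).Monic := minpoly.monic (LinearMap.isIntegral f)
  have hprod : minpoly K f = ((minpoly K f).roots.map (X - C ·)).prod :=
    (IsAlgClosed.splits (minpoly K f)).eq_prod_roots_of_monic hmonic
  have h0 : Polynomial.aeval (mk e) (minpoly K f) = 0 := by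
    have h1 : Polynomial.aeval f (minpoly K f) = 0 := minpoly.aeval K f
    have h2 : Polynomial.aeval f (minpoly K f)
        = Algebra.lmul K (R ⧸ I) (Polynomial.aeval (mk e) (minpoly K f)) :=
      Polynomial.aeval_algHom_apply (Algebra.lmul K (R ⧸ I)) (mk e) _
    rw [h2] at h1
    exact Algebra.lmul_injective (by rw [h1, map_zero])
  obtain ⟨g, hg, hg'⟩ := exists_prod_sub (hA := hA) e (minpoly K f).roots
    (fun μ hμ => hroot μ ((Polynomial.mem_roots hmonic.ne_zero).mp hμ))
  have hmkg : mk (g : R) = 0 := by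
    rw [hg, map_multiset_prod, Multiset.map_map]
    have h1 : Polynomial.aeval (mk e) (((minpoly K f).roots.map (X - C ·)).prod) = 0 := by
      rw [← hprod]
      exact h0
    rw [map_multiset_prod, Multiset.map_map] at h1
    rw [← h1]
    congr 1
    refine Multiset.map_congr rfl fun μ _ => ?_
    simp
  have hgI : (g : R) ∈ I := by
    rw [hmk, Ideal.Quotient.mkₐ_eq_mk] at hmkg
    exact Ideal.Quotient.eq_zero_iff_mem.mp hmkg
  obtain ⟨a, ha⟩ := Ideal.mem_span_singleton'.mp hgI
  have haR : a ∈ RA := H.sat a (by rw [mul_comm, ha]; exact g.2)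
  have hgJ : g ∈ J RA hA u := by
    refine Ideal.mem_sup_left ?_
    rw [Ideal.mem_span_singleton']
    exact ⟨⟨a, haR⟩, Subtype.ext ha⟩
  have hpow : e ^ Multiset.card (minpoly K f).roots ∈ J RA hA u := by
    have h1 := (J RA hA u).sub_mem hgJ (Ideal.mem_sup_right hg')
    rwa [sub_sub_cancel] at h1
  exact pow_notMem_J H _ hpow

/-- **Compatibility**: a character killing `u` with a unit value at `e` reduces to `ε`. -/
theorem isLift_of_val_eq_one (H : Hyp π RA hA ε u e) (χ : R →ₐ[K] K) (hχ : χ u = 0)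
    (hχe : A.valuation (χ e) = 1) : IsLift π RA ε u χ := by
  refine ⟨hχ, fun y => ?_⟩
  obtain ⟨c, hc⟩ := H.surj (ε y)
  have hy' : ε (y - cA RA hA c) = 0 := by rw [map_sub, H.eps, hc, sub_self]
  have h1 := val_apply_lt_one_of_mem_J H χ hχ (H.loc _ hy')
  push_cast at h1
  rw [map_mul, map_mul, hχe, one_mul, map_sub, apply_cA] at h1
  refine ⟨⟨χ y, apply_mem H χ hχ y⟩, rfl, ?_⟩
  have h2 : (⟨χ y, apply_mem H χ hχ y⟩ - c : A) ∈ IsLocalRing.maximalIdeal A :=
    (A.valuation_lt_one_iff _).mpr h1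
  have h3 := H.zero _ h2
  rw [map_sub, sub_eq_zero] at h3
  rw [h3, hc]

/-- **Uniqueness** of the lift. -/
theorem isLift_unique (H : Hyp π RA hA ε u e) {χ χ' : R →ₐ[K] K} (h : IsLift π RA ε u χ)
    (h' : IsLift π RA ε u χ') : χ = χ' := by
  obtain ⟨d, b, hb⟩ := H.fg
  have hχ := h.1
  have hχ' := h'.1
  have hχ'e : A.valuation (χ' e) = 1 := by
    obtain ⟨a, ha, hπa⟩ := h'.2 e
    rw [ha]
    rcases A.valuation_lt_one_or_eq_one a with hlt | heq
    · have h1 := H.zero a ((A.valuation_lt_one_iff a).mpr hlt)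
      rw [hπa, H.one] at h1
      exact absurd h1 one_ne_zero
    · exact heq
  suffices hbi : ∀ i, χ' (b i) = χ (b i) by
    refine AlgHom.ext fun y => ?_
    obtain ⟨c, hc, hcy⟩ := H.span y
    obtain ⟨cc, z, hz⟩ := hb ⟨_, hcy⟩
    have h1 : χ (algebraMap K R c * y) = ∑ i, (cc i : K) * χ (b i) :=
      apply_eq_sum χ hχ b cc z ⟨_, hcy⟩ hz
    have h2 : χ' (algebraMap K R c * y) = ∑ i, (cc i : K) * χ' (b i) :=
      apply_eq_sum χ' hχ' b cc z ⟨_, hcy⟩ hz
    have h3 : χ (algebraMap K R c * y) = χ' (algebraMap K R c * y) := by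
      rw [h1, h2]
      exact Finset.sum_congr rfl fun i _ => by rw [hbi i]
    rw [map_mul, map_mul, AlgHom.commutes, AlgHom.commutes] at h3
    exact mul_left_cancel₀ (by simpa using hc) h3
  by_contra hne
  push Not at hne
  obtain ⟨i1, hi1⟩ := hne
  obtain ⟨i0, -, hi0⟩ := Finset.exists_max_image Finset.univ
    (fun i => A.valuation (χ' (b i) - χ (b i))) ⟨i1, Finset.mem_univ _⟩
  have hm0 : χ' (b i0) - χ (b i0) ≠ 0 := by
    intro h0
    have h1 := hi0 i1 (Finset.mem_univ _)
    rw [h0, map_zero] at h1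
    exact hi1 (sub_eq_zero.mp ((Valuation.zero_iff _).mp (le_antisymm h1 zero_le)))
  have hvm : 0 < A.valuation (χ' (b i0) - χ (b i0)) :=
    lt_of_le_of_ne zero_le (fun h0 => hm0 ((Valuation.zero_iff _).mp h0.symm))
  have hD : ∀ y : RA, A.valuation (χ' y - χ y) ≤ A.valuation (χ' (b i0) - χ (b i0)) := by
    intro y
    obtain ⟨cc, z, hz⟩ := hb y
    rw [apply_eq_sum χ hχ b cc z y hz, apply_eq_sum χ' hχ' b cc z y hz, ← Finset.sum_sub_distrib]
    refine Valuation.map_sum_le _ fun i _ => ?_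
    rw [← mul_sub, map_mul]
    exact (mul_le_of_le_one_left' (A.valuation_le_one (cc i))).trans (hi0 i (Finset.mem_univ _))
  have hD' : ∀ w : RA, w ∈ Ideal.map (cA RA hA) (IsLocalRing.maximalIdeal A) →
      A.valuation (χ' w - χ w) < A.valuation (χ' (b i0) - χ (b i0)) ∧
        A.valuation (χ w) < 1 := by
    intro w hw
    unfold Ideal.map at hw
    induction hw using Submodule.span_induction with
    | mem x hx =>
      obtain ⟨a, ha, rfl⟩ := hx
      rw [apply_cA, apply_cA, sub_self, map_zero]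
      exact ⟨hvm, (A.valuation_lt_one_iff a).mp ha⟩
    | zero =>
      refine ⟨?_, ?_⟩
      · simpa using hvm
      · simp
    | add x y _ _ hx hy =>
      push_cast
      rw [map_add, map_add]
      refine ⟨?_, lt_of_le_of_lt (Valuation.map_add _ _ _) (max_lt hx.2 hy.2)⟩
      have h1 : χ' (x : R) + χ' (y : R) - (χ (x : R) + χ (y : R))
          = (χ' (x : R) - χ (x : R)) + (χ' (y : R) - χ (y : R)) := by ring
      rw [h1]
      exact lt_of_le_of_lt (Valuation.map_add _ _ _) (max_lt hx.1 hy.1)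
    | smul r x _ hx =>
      rw [smul_eq_mul]
      push_cast
      rw [map_mul, map_mul]
      refine ⟨?_, ?_⟩
      · have h1 : χ' (r : R) * χ' (x : R) - χ (r : R) * χ (x : R)
            = χ' (r : R) * (χ' (x : R) - χ (x : R)) + (χ' (r : R) - χ (r : R)) * χ (x : R) := by
          ring
        rw [h1]
        refine lt_of_le_of_lt (Valuation.map_add _ _ _) (max_lt ?_ ?_)
        · rw [map_mul]
          exact lt_of_le_of_lt (mul_le_of_le_one_left' (val_apply_le_one H χ' hχ' r)) hx.1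
        · rw [map_mul]
          calc A.valuation (χ' (r : R) - χ (r : R)) * A.valuation (χ (x : R))
              ≤ A.valuation (χ' (b i0) - χ (b i0)) * A.valuation (χ (x : R)) :=
                mul_le_mul_left (hD r) _
            _ < A.valuation (χ' (b i0) - χ (b i0)) * 1 := mul_lt_mul_of_pos_left hx.2 hvm
            _ = A.valuation (χ' (b i0) - χ (b i0)) := mul_one _
      · rw [map_mul]
        exact lt_of_le_of_lt (mul_le_of_le_one_left' (val_apply_le_one H χ hχ r)) hx.2
  have hbA := apply_mem H χ hχ (b i0)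
  have hχy0 : χ ((b i0 - cA RA hA ⟨χ (b i0), hbA⟩ : RA) : R) = 0 := by
    push_cast
    rw [map_sub, apply_cA]
    exact sub_self _
  have hεy0 : ε (b i0 - cA RA hA ⟨χ (b i0), hbA⟩) = 0 := by
    obtain ⟨a, ha, hπa⟩ := h.2 (b i0 - cA RA hA ⟨χ (b i0), hbA⟩)
    rw [hχy0] at ha
    have ha0 : a = 0 := Subtype.ext ha.symm
    rw [← hπa, ha0, map_zero]
  obtain ⟨w1, hw1, w2, hw2, hsum⟩ := Submodule.mem_sup.mp (H.loc _ hεy0)
  obtain ⟨r, rfl⟩ := Ideal.mem_span_singleton'.mp hw1
  have hχ'y0 : χ' ((b i0 - cA RA hA ⟨χ (b i0), hbA⟩ : RA) : R) = χ' (b i0) - χ (b i0) := by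
    push_cast
    rw [map_sub, apply_cA]
  have h5 : χ' ((e * (b i0 - cA RA hA ⟨χ (b i0), hbA⟩) : RA) : R)
      - χ ((e * (b i0 - cA RA hA ⟨χ (b i0), hbA⟩) : RA) : R) = χ' (w2 : R) - χ (w2 : R) := by
    rw [← hsum]
    push_cast
    rw [map_add, map_add, map_mul, map_mul, hχ, hχ']
    ring
  have h6 : χ' ((e * (b i0 - cA RA hA ⟨χ (b i0), hbA⟩) : RA) : R)
      - χ ((e * (b i0 - cA RA hA ⟨χ (b i0), hbA⟩) : RA) : R)
      = χ' (e : R) * (χ' (b i0) - χ (b i0)) := by
    rw [Subring.coe_mul, map_mul, map_mul, hχy0, hχ'y0]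
    ring
  have h7 := (hD' w2 hw2).1
  rw [← h5, h6, map_mul, hχ'e, one_mul] at h7
  exact lt_irrefl _ h7

/-- **Hensel's lemma for characters.**  There is exactly one character of `R` killing `u`,
integral on `RA`, which reduces to `ε`. -/
theorem existsUnique_character [IsAlgClosed K] (H : Hyp π RA hA ε u e) :
    ∃! χ : R →ₐ[K] K, IsLift π RA ε u χ := by
  obtain ⟨χ, hχ, hχe⟩ := exists_character H
  exact ⟨χ, isLift_of_val_eq_one H χ hχ hχe,
    fun χ' h' => isLift_unique H h' (isLift_of_val_eq_one H χ hχ hχe)⟩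

/-- **Equivariance by uniqueness**: the lift commutes with every semilinear automorphism which
preserves `A`, `π`, `RA`, `ε` and `u`. -/
theorem isLift_comm (H : Hyp π RA hA ε u e) {χ : R →ₐ[K] K} (h : IsLift π RA ε u χ)
    (σR : R ≃+* R) (σK : K ≃+* K)
    (hsemi : ∀ c : K, σR (algebraMap K R c) = algebraMap K R (σK c))
    (hσA : ∀ a : K, σK a ∈ A ↔ a ∈ A)
    (hσπ : ∀ (a : A) (ha : σK a ∈ A), π ⟨σK a, ha⟩ = π a)
    (hσRA : ∀ y : R, y ∈ RA → σR y ∈ RA)
    (hσε : ∀ y : RA, ε ⟨σR y, hσRA y y.2⟩ = ε y)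
    (hσu : σR u = u) (y : R) : χ (σR y) = σK (χ y) := by
  let χ' : R →ₐ[K] K :=
    { toRingHom := (σK.symm : K →+* K).comp ((χ : R →+* K).comp (σR : R →+* R))
      commutes' := fun c => by
        show σK.symm (χ (σR (algebraMap K R c))) = algebraMap K K c
        rw [hsemi, AlgHom.commutes]
        exact σK.symm_apply_apply c }
  have hχ'apply : ∀ z : R, χ' z = σK.symm (χ (σR z)) := fun z => rfl
  have hlift : IsLift π RA ε u χ' := by
    refine ⟨?_, fun z => ?_⟩
    · rw [hχ'apply, hσu, h.1, map_zero]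
    · obtain ⟨a, ha, hπa⟩ := h.2 ⟨σR z, hσRA z z.2⟩
      have ha' : χ (σR (z : R)) = a := ha
      have hmem : σK.symm (a : K) ∈ A := (hσA _).mp (by rw [σK.apply_symm_apply]; exact a.2)
      refine ⟨⟨σK.symm (a : K), hmem⟩, ?_, ?_⟩
      · rw [hχ'apply, ha']
      · have h1 := hσπ ⟨σK.symm (a : K), hmem⟩ (by
          show σK (σK.symm (a : K)) ∈ A
          rw [σK.apply_symm_apply]; exact a.2)
        have h2 : (⟨σK ((⟨σK.symm (a : K), hmem⟩ : A) : K), by
            show σK (σK.symm (a : K)) ∈ A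
            rw [σK.apply_symm_apply]; exact a.2⟩ : A) = a :=
          Subtype.ext (σK.apply_symm_apply _)
        rw [h2] at h1
        rw [← h1, hπa, hσε]
  have heq : χ' = χ := isLift_unique H hlift h
  have h1 : χ' y = χ y := by rw [heq]
  rw [hχ'apply] at h1
  rw [← h1, σK.apply_symm_apply]

end Main

end Fermat.Agent.BAD.HenselChar
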