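import Mathlib
import Fermat.Agent.BAD.HenselChar
import Fermat.Agent.Lib.Red.CoordOrtho

/-!
# BAD / S33 (RC-2): Hensel lifting of a smooth point of the special fibre — filtered form

Abstract setting of the nodal deformation argument (`L ⊆ F`, `A ⊆ L` a valuation subring, `O ⊆ F`
a subring with `O ∩ L = A`, `red : O →+* Ft`), with

* an increasing multiplicative filtration `Vs N` of an affine coordinate ring `R = ⋃ Vs N ⊆ F`
  (in the application `Vs N = L(N·E)`), each `Vs N` with an orthonormal basis;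
* its reduction `Gs N = red(Vs N ∩ O)` for `N` large (in the application a glued space);
* a "value at a point" relation `Val` on `Ft` and the point data `(m, ut, w)` of `PointData`
  (`ut ∈ Gs m` with a simple zero at the point and exact pole orders, `w` with a simple pole).

`Setup.existsUnique_character` : for a lift `u ∈ Vs m ∩ O` of `ut` there is exactly one character
`χ` of `R` with `χ u = 0` which is integral on `R ∩ O` and compatible with `Val ∘ red`.
`Setup.character_comm` : it commutes with every semilinear automorphism preserving the data.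
-/

set_option autoImplicit false
set_option linter.style.haveILetI false

noncomputable section

namespace Fermat.Agent.BAD.HenselFilt

open Fermat.Agent.Lib.Red.Deform Fermat.Agent.Lib.Red.CoordLat Fermat.Agent.BAD.HenselChar

variable {L F : Type*} [Field L] [Field F] [Algebra L F]
variable {A : ValuationSubring L} {O : Subring F}
variable {k Ft : Type*} [Field k] [CommRing Ft] [Algebra k Ft]

/-- An increasing multiplicative filtration by `L`-subspaces. -/
structure Filt (Vs : ℕ → Submodule L F) : Prop where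
  mono : Monotone Vs
  one : (1 : F) ∈ Vs 0
  mul : ∀ {N N' : ℕ} {f g : F}, f ∈ Vs N → g ∈ Vs N' → f * g ∈ Vs (N + N')

/-- The union of a filtration, as a subalgebra. -/
def unionAlg (Vs : ℕ → Submodule L F) (hV : Filt Vs) : Subalgebra L F where
  carrier := {f | ∃ N, f ∈ Vs N}
  mul_mem' := by
    rintro f g ⟨N, hf⟩ ⟨N', hg⟩
    exact ⟨N + N', hV.mul hf hg⟩
  add_mem' := by
    rintro f g ⟨N, hf⟩ ⟨N', hg⟩
    exact ⟨max N N', (Vs _).add_mem (hV.mono (le_max_left _ _) hf)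
      (hV.mono (le_max_right _ _) hg)⟩
  algebraMap_mem' := fun c => ⟨0, by
    rw [Algebra.algebraMap_eq_smul_one]
    exact (Vs 0).smul_mem c hV.one⟩

theorem mem_unionAlg {Vs : ℕ → Submodule L F} {hV : Filt Vs} {f : F} :
    f ∈ unionAlg Vs hV ↔ ∃ N, f ∈ Vs N := Iff.rfl

/-- A "value at a point" relation on `Ft`. -/
structure IsVal (Val : Ft → k → Prop) : Prop where
  uniq : ∀ {t : Ft} {c c' : k}, Val t c → Val t c' → c = c'
  add : ∀ {t t' : Ft} {c c' : k}, Val t c → Val t' c' → Val (t + t') (c + c')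
  mul : ∀ {t t' : Ft} {c c' : k}, Val t c → Val t' c' → Val (t * t') (c * c')
  const : ∀ c : k, Val (algebraMap k Ft c) c

/-- The point data on the special fibre. -/
structure PointData (Gs : ℕ → Submodule k Ft) (Val : Ft → k → Prop) (m : ℕ) (ut w : Ft) :
    Prop where
  val : IsVal Val
  ex : ∀ N, ∀ t ∈ Gs N, ∃ c, Val t c
  pos : 0 < m
  ut_mem : ut ∈ Gs m
  nzd : ∀ t : Ft, ut * t = 0 → t = 0
  ut_val : Val ut 0
  utw_val : Val (ut * w) 1
  loc : ∀ N, ∀ t ∈ Gs N, Val t 0 → w * t ∈ Gs (N + m)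
  nz : ∀ N, w ∉ Gs N
  fg : ∃ N₁, ∀ N, N₁ ≤ N → ∀ t ∈ Gs (N + m),
    ∃ s ∈ Gs N, ∃ r ∈ Gs (N + m - 1), t = ut * s + r

/-- All the hypotheses. -/
structure Setup (A : ValuationSubring L) (O : Subring F) (red : O →+* Ft) (π : A →+* k)
    (Vs : ℕ → Submodule L F) (Gs : ℕ → Submodule k Ft) (Val : Ft → k → Prop)
    (m : ℕ) (ut w : Ft) (u : O) : Prop where
  hOA : ∀ x : L, algebraMap L F x ∈ O ↔ x ∈ A
  hval : ∀ y : F, y ≠ 0 → ∃ c : L, c ≠ 0 ∧ algebraMap L F c * y ∈ O ∧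
    ¬ Small A O (algebraMap L F c * y)
  hπ : Function.Surjective π
  hπker : ∀ a : A, π a = 0 ↔ A.valuation (a : L) < 1
  hconst : ∀ a : A, red ⟨algebraMap L F (a : L), (hOA _).2 a.2⟩ = algebraMap k Ft (π a)
  hker : ∀ y : O, red y = 0 ↔ Small A O (y : F)
  filt : Filt Vs
  hlat : ∀ N, HasOrtho A O (Vs N)
  hGmono : Monotone Gs
  hS2 : ∃ N₀, ∀ N, N₀ ≤ N → ∀ t, t ∈ Gs N ↔ ∃ y : O, (y : F) ∈ Vs N ∧ red y = t
  pt : PointData Gs Val m ut w
  huV : (u : F) ∈ Vs m
  hu : red u = ut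

namespace Setup

variable {red : O →+* Ft} {π : A →+* k} {Vs : ℕ → Submodule L F} {Gs : ℕ → Submodule k Ft}
  {Val : Ft → k → Prop} {m : ℕ} {ut w : Ft} {u : O}
variable (S : Setup A O red π Vs Gs Val m ut w u)

include S

/-- The ring `R = ⋃ Vs N`. -/
abbrev R : Subalgebra L F := unionAlg Vs S.filt

/-- The integral part `R ∩ O`. -/
def RA : Subring S.R := O.comap (S.R.val : S.R →+* F)

theorem mem_RA {y : S.R} : y ∈ S.RA ↔ (y : F) ∈ O := Iff.rfl

/-- `R ∩ O → O`. -/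
def toO : S.RA →+* O :=
  ((S.R.val : S.R →+* F).comp S.RA.subtype).codRestrict O (fun y => y.2)

@[simp]
theorem coe_toO (y : S.RA) : ((S.toO y : O) : F) = ((y : S.R) : F) := rfl

/-- An element of `Vs N ∩ O`, as an element of `R ∩ O`. -/
def ofO (y : O) (hy : ∃ N, (y : F) ∈ Vs N) : S.RA := ⟨⟨y, hy⟩, y.2⟩

@[simp]
theorem toO_ofO (y : O) (hy : ∃ N, (y : F) ∈ Vs N) : S.toO (S.ofO y hy) = y := rfl

theorem hA (a : A) : algebraMap L S.R a ∈ S.RA := (S.hOA _).2 a.2

theorem red_mem (y : O) {N : ℕ} (hy : (y : F) ∈ Vs N) : ∃ N', N ≤ N' ∧ red y ∈ Gs N' := by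
  obtain ⟨N₀, hN₀⟩ := S.hS2
  exact ⟨max N N₀, le_max_left _ _, (hN₀ _ (le_max_right _ _) _).2
    ⟨y, S.filt.mono (le_max_left _ _) hy, rfl⟩⟩

theorem exists_lift {N : ℕ} {t : Ft} (ht : t ∈ Gs N) :
    ∃ (N' : ℕ) (y : O), N ≤ N' ∧ (y : F) ∈ Vs N' ∧ red y = t := by
  obtain ⟨N₀, hN₀⟩ := S.hS2
  obtain ⟨y, hy, hyt⟩ := (hN₀ _ (le_max_right N N₀) t).1 (S.hGmono (le_max_left _ _) ht)
  exact ⟨max N N₀, y, le_max_left _ _, hy, hyt⟩

theorem exists_val (y : S.RA) : ∃ c, Val (red (S.toO y)) c := by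
  obtain ⟨N, hN⟩ := y.1.2
  obtain ⟨N', -, h⟩ := S.red_mem (S.toO y) hN
  exact S.pt.ex N' _ h

/-- The value of the reduction at the point. -/
def eps : S.RA →+* k where
  toFun y := (S.exists_val y).choose
  map_one' := S.pt.val.uniq (S.exists_val 1).choose_spec (by
    have h := S.pt.val.const 1
    rw [map_one] at h
    rw [map_one, map_one]
    exact h)
  map_mul' x y := S.pt.val.uniq (S.exists_val (x * y)).choose_spec (by
    rw [map_mul, map_mul]
    exact S.pt.val.mul (S.exists_val x).choose_spec (S.exists_val y).choose_spec)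
  map_zero' := S.pt.val.uniq (S.exists_val 0).choose_spec (by
    have h := S.pt.val.const 0
    rw [map_zero] at h
    rw [map_zero, map_zero]
    exact h)
  map_add' x y := S.pt.val.uniq (S.exists_val (x + y)).choose_spec (by
    rw [map_add, map_add]
    exact S.pt.val.add (S.exists_val x).choose_spec (S.exists_val y).choose_spec)

theorem val_eps (y : S.RA) : Val (red (S.toO y)) (S.eps y) := (S.exists_val y).choose_spec

theorem eps_eq {y : S.RA} {c : k} (h : Val (red (S.toO y)) c) : S.eps y = c :=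
  S.pt.val.uniq (S.val_eps y) h

/-- The inclusion `R ∩ O → F`. -/
def incl : S.RA →+* F := (S.R.val : S.R →+* F).comp S.RA.subtype

theorem incl_apply (y : S.RA) : S.incl y = ((y : S.R) : F) := rfl

theorem incl_injective : Function.Injective S.incl := fun _ _ h =>
  Subtype.ext (Subtype.ext h)

theorem incl_cA (a : A) : S.incl (cA S.RA S.hA a) = algebraMap L F (a : L) := rfl

theorem incl_ofO (y : O) (hy : ∃ N, (y : F) ∈ Vs N) : S.incl (S.ofO y hy) = y := rfl

/-- `u` as an element of `R ∩ O`. -/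
def uR : S.RA := S.ofO u ⟨m, S.huV⟩

theorem incl_uR : S.incl S.uR = u := rfl

theorem span (y : S.R) : ∃ c : L, c ≠ 0 ∧ algebraMap L S.R c * y ∈ S.RA := by
  by_cases hy : y = 0
  · exact ⟨1, one_ne_zero, by rw [hy, mul_zero]; exact S.RA.zero_mem⟩
  · have hy' : (y : F) ≠ 0 := fun h => hy (Subtype.ext h)
    obtain ⟨c, hc, hmem, -⟩ := S.hval (y : F) hy'
    exact ⟨c, hc, hmem⟩

theorem sat (g : S.R) (hg : (S.uR : S.R) * g ∈ S.RA) : g ∈ S.RA := by
  have hg' : (u : F) * (g : F) ∈ O := hg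
  show (g : F) ∈ O
  by_cases hg0 : (g : F) = 0
  · rw [hg0]
    exact O.zero_mem
  obtain ⟨c, hc, hmem, hns⟩ := S.hval (g : F) hg0
  rcases lt_or_ge (A.valuation c) 1 with hlt | hge
  · exfalso
    apply hns
    have h1 : Small A O (algebraMap L F c * ((u : F) * (g : F))) := ⟨c, hlt, _, hg', rfl⟩
    have h2 : algebraMap L F c * ((u : F) * (g : F))
        = (u : F) * (algebraMap L F c * (g : F)) := by ring
    have h3 : red (u * ⟨_, hmem⟩) = 0 := (S.hker _).2 (by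
      show Small A O ((u : F) * (algebraMap L F c * (g : F)))
      rw [← h2]
      exact h1)
    rw [map_mul, S.hu] at h3
    exact (S.hker ⟨_, hmem⟩).1 (S.pt.nzd _ h3)
  · have hcinv : c⁻¹ ∈ A := by
      rw [← A.valuation_le_one_iff, map_inv₀]
      exact inv_le_one_of_one_le₀ hge
    have h1 : (g : F) = algebraMap L F c⁻¹ * (algebraMap L F c * (g : F)) := by
      rw [← mul_assoc, ← map_mul, inv_mul_cancel₀ hc, map_one, one_mul]
    rw [h1]
    exact O.mul_mem ((S.hOA _).2 hcinv) hmem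

/-- The lattice `V ∩ O` as an `A`-submodule of `F`. -/
def latA (V : Submodule L F) : Submodule A F where
  carrier := {y | y ∈ V ∧ y ∈ O}
  add_mem' := fun ha hb => ⟨V.add_mem ha.1 hb.1, O.add_mem ha.2 hb.2⟩
  zero_mem' := ⟨V.zero_mem, O.zero_mem⟩
  smul_mem' := fun a y hy => ⟨V.smul_mem (a : L) hy.1, by
    show (a : L) • y ∈ O
    rw [Algebra.smul_def]
    exact O.mul_mem ((S.hOA _).2 a.2) hy.2⟩

theorem mem_latA {V : Submodule L F} {y : F} : y ∈ S.latA V ↔ y ∈ V ∧ y ∈ O := Iff.rfl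

theorem latA_fg {V : Submodule L F} (h : HasOrtho A O V) : (S.latA V).FG := by
  obtain ⟨n, b, -, hspan, hbO, hint⟩ := h
  have heq : S.latA V = Submodule.span A (Set.range b) := by
    refine le_antisymm (fun y hy => ?_) (Submodule.span_le.2 ?_)
    · have hyV : y ∈ Submodule.span L (Set.range b) := hspan ▸ hy.1
      obtain ⟨c, hc⟩ := (Submodule.mem_span_range_iff_exists_fun L).1 hyV
      have hcA : ∀ i, c i ∈ A := hint c (hc ▸ hy.2)
      rw [← hc]
      refine Submodule.sum_mem _ fun i _ => ?_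
      exact Submodule.smul_mem _ (⟨c i, hcA i⟩ : A) (Submodule.subset_span ⟨i, rfl⟩)
    · rintro _ ⟨i, rfl⟩
      exact ⟨hspan ▸ Submodule.subset_span ⟨i, rfl⟩, hbO i⟩
  rw [heq]
  exact Submodule.fg_span (Set.finite_range b)

/-- **Nakayama step**: `Vs (N + m) ∩ O = u·(Vs N ∩ O) + Vs (N + m - 1) ∩ O` for `N` large. -/
theorem step : ∃ N₂, ∀ N, N₂ ≤ N → ∀ y : O, (y : F) ∈ Vs (N + m) →
    ∃ z r : O, (z : F) ∈ Vs N ∧ (r : F) ∈ Vs (N + m - 1) ∧ (y : F) = u * z + r := by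
  obtain ⟨N₀, hN₀⟩ := S.hS2
  obtain ⟨N₁, hN₁⟩ := S.pt.fg
  refine ⟨max N₀ N₁, fun N hN y hy => ?_⟩
  have hN0 : N₀ ≤ N := (le_max_left _ _).trans hN
  have hN1 : N₁ ≤ N := (le_max_right _ _).trans hN
  have hm := S.pt.pos
  let mulU : F →ₗ[A] F := (LinearMap.mulLeft L (u : F)).restrictScalars A
  have hle : S.latA (Vs (N + m)) ≤ (S.latA (Vs N)).map mulU ⊔ S.latA (Vs (N + m - 1)) := by
    refine Submodule.le_of_le_smul_of_le_jacobson_bot (I := IsLocalRing.maximalIdeal A)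
      (S.latA_fg (S.hlat _)) ?_ ?_
    · rw [IsLocalRing.jacobson_eq_maximalIdeal ⊥ bot_ne_top]
    · rintro y' ⟨hy'V, hy'O⟩
      have ht : red ⟨y', hy'O⟩ ∈ Gs (N + m) :=
        (hN₀ _ (by omega) _).2 ⟨⟨y', hy'O⟩, hy'V, rfl⟩
      obtain ⟨s, hs, r, hr, hsr⟩ := hN₁ N hN1 _ ht
      obtain ⟨z, hzV, hzs⟩ := (hN₀ N hN0 s).1 hs
      obtain ⟨r', hr'V, hr'r⟩ := (hN₀ (N + m - 1) (by omega) r).1 hr
      have hd : red (⟨y', hy'O⟩ - u * z - r') = 0 := by
        rw [map_sub, map_sub, map_mul, S.hu, hzs, hr'r, hsr]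
        ring
      obtain ⟨a, ha, o, ho, hdo⟩ := (S.hker _).1 hd
      have hdo' : y' - (u : F) * (z : F) - (r' : F) = algebraMap L F a * o := hdo
      have huz : (u : F) * (z : F) ∈ Vs (N + m) := by
        rw [add_comm]
        exact S.filt.mul S.huV hzV
      have hr'V' : (r' : F) ∈ Vs (N + m) := S.filt.mono (by omega) hr'V
      have hy'eq : y' = ((u : F) * (z : F) + (r' : F)) + algebraMap L F a * o := by
        rw [← hdo']
        ring
      rw [hy'eq]
      refine Submodule.add_mem _ (Submodule.mem_sup_left ?_) (Submodule.mem_sup_right ?_)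
      · refine Submodule.add_mem _ (Submodule.mem_sup_left ?_)
          (Submodule.mem_sup_right ⟨hr'V, r'.2⟩)
        exact Submodule.mem_map_of_mem (f := mulU) (show (z : F) ∈ S.latA (Vs N) from ⟨hzV, z.2⟩)
      · by_cases ha0 : a = 0
        · rw [ha0, map_zero, zero_mul]
          exact Submodule.zero_mem _
        · have hoV : o ∈ Vs (N + m) := by
            have h1 : o = a⁻¹ • (y' - (u : F) * (z : F) - (r' : F)) := by
              rw [hdo', Algebra.smul_def, ← mul_assoc, ← map_mul, inv_mul_cancel₀ ha0, map_one,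
                one_mul]
            rw [h1]
            exact (Vs _).smul_mem _ ((Vs _).sub_mem ((Vs _).sub_mem hy'V huz) hr'V')
          have haA : a ∈ A := (A.valuation_le_one_iff a).1 ha.le
          have h2 : algebraMap L F a * o = (⟨a, haA⟩ : A) • o := by
            rw [← Algebra.smul_def]
            rfl
          rw [h2]
          exact Submodule.smul_mem_smul ((A.valuation_lt_one_iff (⟨a, haA⟩ : A)).2 ha)
            (show o ∈ S.latA (Vs (N + m)) from ⟨hoV, ho⟩)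
  obtain ⟨x1, hx1, x2, hx2, hsum⟩ := Submodule.mem_sup.1 (hle ⟨hy, y.2⟩)
  obtain ⟨z, hz, rfl⟩ := hx1
  exact ⟨⟨z, hz.2⟩, ⟨x2, hx2.2⟩, hz.1, hx2.1, hsum.symm⟩

/-- (FG): `R ∩ O = ∑ A·b_i + u·(R ∩ O)`. -/
theorem fg : ∃ (d : ℕ) (b : Fin d → S.RA), ∀ y : S.RA, ∃ (c : Fin d → A) (z : S.RA),
    y = ∑ i, cA S.RA S.hA (c i) * b i + S.uR * z := by
  obtain ⟨N₂, hN₂⟩ := S.step
  have hm := S.pt.pos
  have claim : ∀ j : ℕ, ∀ y : O, (y : F) ∈ Vs (N₂ + m + j) →
      ∃ (y₀ : O) (z : O), (y₀ : F) ∈ Vs (N₂ + m) ∧ (∃ N, (z : F) ∈ Vs N) ∧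
        (y : F) = y₀ + u * z := by
    intro j
    induction j with
    | zero =>
      intro y hy
      exact ⟨y, 0, hy, ⟨0, (Vs 0).zero_mem⟩, by simp⟩
    | succ j ih =>
      intro y hy
      have e1 : N₂ + m + (j + 1) = N₂ + j + 1 + m := by omega
      rw [e1] at hy
      obtain ⟨z, r, hz, hr, hyz⟩ := hN₂ (N₂ + j + 1) (by omega) y hy
      have e2 : N₂ + j + 1 + m - 1 = N₂ + m + j := by omega
      rw [e2] at hr
      obtain ⟨y₀, z', hy₀, ⟨N', hz'⟩, hrz⟩ := ih r hr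
      refine ⟨y₀, z + z', hy₀, ⟨max (N₂ + j + 1) N', ?_⟩, ?_⟩
      · exact (Vs _).add_mem (S.filt.mono (le_max_left _ _) hz)
          (S.filt.mono (le_max_right _ _) hz')
      · rw [hyz, hrz]
        push_cast
        ring
  obtain ⟨d, b, -, hspan, hbO, hint⟩ := S.hlat (N₂ + m)
  have hbV : ∀ i, b i ∈ Vs (N₂ + m) := fun i => hspan ▸ Submodule.subset_span ⟨i, rfl⟩
  refine ⟨d, fun i => S.ofO ⟨b i, hbO i⟩ ⟨_, hbV i⟩, fun y => ?_⟩
  obtain ⟨N, hN⟩ := y.1.2
  have hyN : ((S.toO y : O) : F) ∈ Vs (N₂ + m + N) := S.filt.mono (by omega) hN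
  obtain ⟨y₀, z, hy₀, hz, hyz⟩ := claim N (S.toO y) hyN
  have hy₀' : (y₀ : F) ∈ Submodule.span L (Set.range b) := hspan ▸ hy₀
  obtain ⟨c, hc⟩ := (Submodule.mem_span_range_iff_exists_fun L).1 hy₀'
  have hcA : ∀ i, c i ∈ A := hint c (hc ▸ y₀.2)
  refine ⟨fun i => ⟨c i, hcA i⟩, S.ofO z hz, ?_⟩
  apply S.incl_injective
  rw [map_add, map_sum, map_mul, incl_uR, incl_ofO]
  have h1 : S.incl y = (y₀ : F) + u * z := hyz
  rw [h1, ← hc]
  congr 1
  refine Finset.sum_congr rfl fun i _ => ?_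
  rw [map_mul, incl_cA, incl_ofO, Algebra.smul_def]

theorem exists_e : ∃ e : S.RA, red (S.toO e) = ut * w := by
  have h1 : w * ut ∈ Gs (m + m) := S.pt.loc m ut S.pt.ut_mem S.pt.ut_val
  rw [mul_comm] at h1
  obtain ⟨N', y, -, hy, hyt⟩ := S.exists_lift h1
  exact ⟨S.ofO y ⟨N', hy⟩, hyt⟩

theorem loc {e : S.RA} (he : red (S.toO e) = ut * w) (y : S.RA) (hy : S.eps y = 0) :
    e * y ∈ J S.RA S.hA S.uR := by
  have hv : Val (red (S.toO y)) 0 := hy ▸ S.val_eps y
  obtain ⟨N, hN⟩ := y.1.2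
  obtain ⟨N', -, hN'⟩ := S.red_mem (S.toO y) hN
  have h1 := S.pt.loc N' _ hN' hv
  obtain ⟨N'', z, -, hz, hzt⟩ := S.exists_lift h1
  have hd : red (S.toO e * S.toO y - u * z) = 0 := by
    rw [map_sub, map_mul, map_mul, he, S.hu, hzt]
    ring
  obtain ⟨a, ha, o, ho, hdo⟩ := (S.hker _).1 hd
  have hdo' : S.incl e * S.incl y - (u : F) * (z : F) = algebraMap L F a * o := hdo
  by_cases ha0 : a = 0
  · refine Ideal.mem_sup_left (Ideal.mem_span_singleton'.2 ⟨S.ofO z ⟨N'', hz⟩, ?_⟩)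
    apply S.incl_injective
    rw [map_mul, map_mul, incl_uR, incl_ofO]
    rw [ha0, map_zero, zero_mul, sub_eq_zero] at hdo'
    rw [hdo', mul_comm]
  · have hoR : ∃ N, o ∈ Vs N := by
      have h2 : o = a⁻¹ • (S.incl e * S.incl y - (u : F) * (z : F)) := by
        rw [hdo', Algebra.smul_def, ← mul_assoc, ← map_mul, inv_mul_cancel₀ ha0, map_one,
          one_mul]
      have hmem : a⁻¹ • (S.incl e * S.incl y - (u : F) * (z : F)) ∈ S.R :=
        S.R.smul_mem (S.R.sub_mem (S.R.mul_mem e.1.2 y.1.2)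
          (S.R.mul_mem ⟨m, S.huV⟩ ⟨N'', hz⟩)) _
      rw [h2]
      exact hmem
    have haA : a ∈ A := (A.valuation_le_one_iff a).1 ha.le
    have h3 : e * y = S.uR * S.ofO z ⟨N'', hz⟩
        + cA S.RA S.hA ⟨a, haA⟩ * S.ofO ⟨o, ho⟩ hoR := by
      apply S.incl_injective
      rw [map_add, map_mul, map_mul, map_mul, incl_uR, incl_ofO, incl_ofO, incl_cA]
      rw [← hdo']
      ring
    rw [h3]
    exact Ideal.add_mem _ (Ideal.mem_sup_left (Ideal.mem_span_singleton'.2 ⟨_, mul_comm _ _⟩))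
      (Ideal.mem_sup_right (Ideal.mul_mem_right _ _
        (Ideal.mem_map_of_mem _ ((A.valuation_lt_one_iff (⟨a, haA⟩ : A)).2 ha))))

theorem nz {e : S.RA} (he : red (S.toO e) = ut * w) : e ∉ J S.RA S.hA S.uR := by
  intro h
  obtain ⟨w1, hw1, w2, hw2, hsum⟩ := Submodule.mem_sup.1 h
  obtain ⟨r, rfl⟩ := Ideal.mem_span_singleton'.1 hw1
  have hker : Ideal.map (cA S.RA S.hA) (IsLocalRing.maximalIdeal A)
      ≤ RingHom.ker (red.comp S.toO) := by
    rw [Ideal.map_le_iff_le_comap]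
    intro a ha
    rw [Ideal.mem_comap, RingHom.mem_ker, RingHom.comp_apply]
    have h1 : S.toO (cA S.RA S.hA a) = ⟨algebraMap L F (a : L), (S.hOA _).2 a.2⟩ := rfl
    rw [h1, S.hconst, (S.hπker a).2 ((A.valuation_lt_one_iff a).1 ha), map_zero]
  have hw2' : red (S.toO w2) = 0 := hker hw2
  have h1 : red (S.toO e) = red (S.toO r) * ut := by
    rw [← hsum, map_add, map_add, map_mul, map_mul, hw2', add_zero]
    congr 1
    exact S.hu
  rw [he] at h1
  have h2 : ut * (w - red (S.toO r)) = 0 := by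
    rw [mul_sub, h1]
    ring
  have h3 : w = red (S.toO r) := sub_eq_zero.1 (S.pt.nzd _ h2)
  obtain ⟨N, hN⟩ := r.1.2
  obtain ⟨N', -, hN'⟩ := S.red_mem (S.toO r) hN
  exact S.pt.nz N' (h3 ▸ hN')

/-- The hypotheses of the abstract Hensel lemma hold. -/
theorem hyp {e : S.RA} (he : red (S.toO e) = ut * w) : Hyp π S.RA S.hA S.eps S.uR e where
  surj := S.hπ
  zero := fun a ha => (S.hπker a).2 ((A.valuation_lt_one_iff a).1 ha)
  eps := fun a => S.eps_eq (by
    have h1 : S.toO (cA S.RA S.hA a) = ⟨algebraMap L F (a : L), (S.hOA _).2 a.2⟩ := rfl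
    rw [h1, S.hconst]
    exact S.pt.val.const _)
  span := S.span
  fg := S.fg
  sat := S.sat
  one := S.eps_eq (by rw [he]; exact S.pt.utw_val)
  loc := S.loc he
  nz := S.nz he

/-- `χ` kills `u`, is integral on `R ∩ O` and is compatible with the value at the point. -/
def IsPointLift (χ : S.R →ₐ[L] L) : Prop :=
  χ ⟨u, m, S.huV⟩ = 0 ∧
    ∀ (y : O) (hy : ∃ N, (y : F) ∈ Vs N), ∃ a : A, χ ⟨y, hy⟩ = a ∧ Val (red y) (π a)

theorem isPointLift_iff (χ : S.R →ₐ[L] L) :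
    S.IsPointLift χ ↔ IsLift π S.RA S.eps S.uR χ := by
  constructor
  · rintro ⟨h1, h2⟩
    refine ⟨h1, fun y => ?_⟩
    obtain ⟨a, ha, hv⟩ := h2 (S.toO y) y.1.2
    exact ⟨a, ha, (S.eps_eq hv).symm⟩
  · rintro ⟨h1, h2⟩
    refine ⟨h1, fun y hy => ?_⟩
    obtain ⟨a, ha, hv⟩ := h2 (S.ofO y hy)
    refine ⟨a, ha, ?_⟩
    rw [hv]
    exact S.val_eps (S.ofO y hy)

/-- **Hensel lifting of the point**: there is exactly one character of `R = ⋃ Vs N` which
kills `u`, is integral on `R ∩ O` and is compatible with the value at the point. -/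
theorem existsUnique_character [IsAlgClosed L] : ∃! χ : S.R →ₐ[L] L, S.IsPointLift χ := by
  obtain ⟨e, he⟩ := S.exists_e
  obtain ⟨χ, hχ, huniq⟩ := HenselChar.existsUnique_character (S.hyp he)
  exact ⟨χ, (S.isPointLift_iff χ).2 hχ, fun χ' h' => huniq χ' ((S.isPointLift_iff χ').1 h')⟩

/-- **Equivariance**: the lift commutes with every semilinear automorphism preserving the
data. -/
theorem character_comm {χ : S.R →ₐ[L] L} (hχ : S.IsPointLift χ)
    (g : F ≃+* F) (σ : L ≃+* L)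
    (hsemi : ∀ c : L, g (algebraMap L F c) = algebraMap L F (σ c))
    (hσA : ∀ a : L, σ a ∈ A ↔ a ∈ A)
    (hσπ : ∀ (a : A) (ha : σ a ∈ A), π ⟨σ a, ha⟩ = π a)
    (hgV : ∀ N f, f ∈ Vs N → g f ∈ Vs N) (hgV' : ∀ N f, f ∈ Vs N → g.symm f ∈ Vs N)
    (hgO : ∀ y ∈ O, g y ∈ O)
    (hgred : ∀ y : O, red ⟨g y, hgO y y.2⟩ = red y)
    (hgu : g u = u) (y : F) (hy : ∃ N, y ∈ Vs N) :
    ∃ hy' : ∃ N, g y ∈ Vs N, χ ⟨g y, hy'⟩ = σ (χ ⟨y, hy⟩) := by
  obtain ⟨e, he⟩ := S.exists_e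
  have hgR : ∀ z : S.R, ∃ N, g (z : F) ∈ Vs N := fun z => by
    obtain ⟨N, hN⟩ := z.2
    exact ⟨N, hgV N _ hN⟩
  have hgR' : ∀ z : S.R, ∃ N, g.symm (z : F) ∈ Vs N := fun z => by
    obtain ⟨N, hN⟩ := z.2
    exact ⟨N, hgV' N _ hN⟩
  let σR : S.R ≃+* S.R :=
    { toFun := fun z => ⟨g z, hgR z⟩
      invFun := fun z => ⟨g.symm z, hgR' z⟩
      left_inv := fun z => Subtype.ext (g.symm_apply_apply _)
      right_inv := fun z => Subtype.ext (g.apply_symm_apply _)
      map_mul' := fun z z' => Subtype.ext (map_mul g _ _)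
      map_add' := fun z z' => Subtype.ext (map_add g _ _) }
  have hmain := isLift_comm (S.hyp he) ((S.isPointLift_iff χ).1 hχ) σR σ
    (fun c => Subtype.ext (hsemi c)) hσA hσπ (fun z hz => hgO _ hz)
    (fun z => S.eps_eq (by
      have h1 : S.toO ⟨σR z, hgO _ z.2⟩ = ⟨g (S.toO z : O), hgO _ (S.toO z).2⟩ := rfl
      rw [h1, hgred]
      exact S.val_eps z))
    (Subtype.ext hgu) ⟨y, hy⟩
  exact ⟨hgR ⟨y, hy⟩, hmain⟩

end Setup

end Fermat.Agent.BAD.HenselFilt
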