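import Mathlib
import Fermat.Agent.BAD.HenselFilt
import Fermat.Agent.BAD.NodalPlaces
import Fermat.Agent.Lib.FF.BasePoint
import Fermat.Agent.Lib.FF.SettingP
import Fermat.Agent.Padic.S33.RC.NodalPoint
import Fermat.Agent.Padic.LatticeRat

/-!
# BAD / S33 (RC-2): Hensel lifting of a smooth point of the nodal fibre — places

Abstract nodal setting (`L ⊆ F` a function field of one variable over the algebraically closed
field `L`, `A ⊆ L` a valuation subring, `O ⊆ F` with `O ∩ L = A`, `red : O →+* F₁ × F₂`, charts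
`L(N·E)` with orthonormal bases whose reductions are the glued spaces `G(N·D₁, N·D₂)` for `N`
large).

* `exists_place` : from the filtered Hensel lemma `HenselFilt.Setup.existsUnique_character` for
  the filtration `N ↦ L(N·E)`: a place `Q` of `F` off `E` at which every function of
  `L(N·E) ∩ O` takes a value in `A` whose residue is the value of its reduction at the point;
  `Q` is fixed by every "inertial" semilinear automorphism fixing `E` and the lift `u`;
* `exists_place_fst` / `exists_place_snd` : for every smooth point `Qt` of the first / second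
  component off `D₁` / `D₂`, there is such a place `Q`, fixed by a set `I` of inertial
  automorphisms having `I`-fixed lifts.
-/

set_option autoImplicit false
set_option linter.style.haveILetI false

noncomputable section

namespace Fermat.Agent.BAD.HenselPlace

open AlgebraicCurve WithZero Fermat.Agent.Lib.FF Fermat.Agent.Lib.Red.Deform
  Fermat.Agent.Lib.Red.CoordLat Fermat.Agent.BAD.NodalRiemann Fermat.Agent.BAD.HenselFilt
  Fermat.Agent.Lib.FF.BasePoint Fermat.Agent.Padic.S33.RC.NodalMul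
  Fermat.Agent.Padic.S33.RC.NodalPoint

variable {L F : Type*} [Field L] [Field F] [Algebra L F]
variable {A : ValuationSubring L} {O : Subring F}
variable {k Ft : Type*} [Field k] [CommRing Ft] [Algebra k Ft]

/-! ### Generalities -/

theorem apply_nonneg {E : Divisor L F} (hE : 0 ≤ E) (v : Place L F) : 0 ≤ E v := by
  have h := Finsupp.le_def.mp hE v
  simpa using h

/-- Semilinear automorphisms transport values. -/
theorem cong_smul (g : SemilinearAut L F) {P : Place L F} {f : F} {c : L} (h : Cong P f c) :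
    Cong (g • P) (g • f) (SemilinearAut.baseAut g c) := by
  unfold Cong at h ⊢
  have h1 : g • f - algebraMap L F (SemilinearAut.baseAut g c)
      = g • (f - algebraMap L F c) := by
    rw [smul_sub, SemilinearAut.smul_algebraMap]
  rw [h1, Fermat.Agent.Padic.adicValuation_semilinear_smul]
  exact h

/-- A semilinear automorphism fixing `E` preserves `L(N·E)`. -/
theorem smul_mem_L_nsmul (g : SemilinearAut L F) {E : Divisor L F} (hgE : g • E = E) (N : ℕ)
    {f : F} (hf : f ∈ riemannRochSpace (N • E)) : g • f ∈ riemannRochSpace (N • E) := by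
  refine Fermat.Agent.Padic.semilinear_smul_mem_rr g (fun v => ?_) hf
  rw [Finsupp.smul_apply, Finsupp.smul_apply, ← SemilinearAut.divisor_smul_apply, hgE]

theorem inv_smul_eq_self (g : SemilinearAut L F) {E : Divisor L F} (hgE : g • E = E) :
    g⁻¹ • E = E := by
  rw [inv_smul_eq_iff, hgE]

/-- "Inertial" semilinear automorphisms: they preserve `A` and `O` and act trivially on the
residue field and on the reduction. -/
structure Inert (A : ValuationSubring L) (O : Subring F) (red : O →+* Ft) (π : A →+* k)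
    (g : SemilinearAut L F) : Prop where
  memA : ∀ a : L, SemilinearAut.baseAut g a ∈ A ↔ a ∈ A
  pi : ∀ (a : A) (ha : SemilinearAut.baseAut g (a : L) ∈ A),
    π ⟨SemilinearAut.baseAut g (a : L), ha⟩ = π a
  memO : ∀ y ∈ O, g • y ∈ O
  red : ∀ (y : O) (hy : g • (y : F) ∈ O), red ⟨g • (y : F), hy⟩ = red y

/-- The filtration `N ↦ L(N·E)`. -/
def VsE (E : Divisor L F) (N : ℕ) : Submodule L F := riemannRochSpace (N • E)

theorem filt_VsE {E : Divisor L F} (hE : 0 ≤ E) : Filt (VsE E) where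
  mono := fun _ _ h => RR.L_mono (nsmul_le_nsmul_left hE h)
  one := by
    intro v
    rw [zero_smul, map_one, Finsupp.zero_apply, exp_zero]
  mul := fun {N N' f g} hf hg => by
    have h := mul_mem_L_add hf hg
    rw [← add_nsmul] at h
    exact h

/-! ### Places regular on the chart ring -/

section Places

variable {x : F}

/-- A place at which all the functions of the charts `L(N·E)` are regular lies off `E`. -/
theorem apply_eq_zero_of_regular (hF : IsFF1 L F x) {E : Divisor L F} (hE : 0 ≤ E)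
    (hdeg : 0 < Divisor.degree E) (Q : Place L F)
    (hQ : ∀ N : ℕ, ∀ f ∈ riemannRochSpace (N • E), Q.adicValuation f ≤ 1) : E Q = 0 := by
  by_contra hne
  have hpos : 0 < E Q := lt_of_le_of_ne (apply_nonneg hE Q) (Ne.symm hne)
  obtain ⟨c, hc⟩ := exists_NS hF
  set N : ℕ := (c + 1).toNat + 1 with hN
  have hNc : c + 1 ≤ (N : ℤ) := by
    have := Int.self_le_toNat (c + 1)
    rw [hN]
    push_cast
    linarith
  have hN0 : (0 : ℤ) < (N : ℤ) := by
    rw [hN]
    push_cast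
    linarith [Int.natCast_nonneg (c + 1).toNat]
  have hdegN : c + 1 ≤ Divisor.degree (N • E) := by
    rw [map_nsmul, nsmul_eq_mul]
    exact hNc.trans (le_mul_of_one_le_right hN0.le hdeg)
  obtain ⟨f, hf, hfQ⟩ := bpf_of_degree hF hc hdegN Q
  have h1 := hQ N f hf
  rw [hfQ, ← exp_zero, exp_le_exp, Finsupp.smul_apply, nsmul_eq_mul] at h1
  have h2 : 0 < (N : ℤ) * E Q := mul_pos hN0 hpos
  exact absurd h1 (not_le.mpr h2)

/-- Two places off `E` with the same vanishing functions in the charts `L(N·E)` are equal. -/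
theorem place_unique (hF : IsFF1 L F x) {E : Divisor L F}
    (hdeg : 0 < Divisor.degree E) {Q Q' : Place L F} (hQ0 : E Q = 0) (hQ'0 : E Q' = 0)
    (h : ∀ N : ℕ, ∀ f ∈ riemannRochSpace (N • E), Cong Q f 0 → Cong Q' f 0) : Q' = Q := by
  classical
  by_contra hne
  obtain ⟨c, hc⟩ := exists_NS hF
  set N : ℕ := (c + 2).toNat + 1 with hN
  have hNc : c + 2 ≤ (N : ℤ) := by
    have := Int.self_le_toNat (c + 2)
    rw [hN]
    push_cast
    linarith
  have hN0 : (0 : ℤ) < (N : ℤ) := by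
    rw [hN]
    push_cast
    linarith [Int.natCast_nonneg (c + 2).toNat]
  have hdegN : c + 2 ≤ Divisor.degree (N • E) := by
    rw [map_nsmul, nsmul_eq_mul]
    exact hNc.trans (le_mul_of_one_le_right hN0.le hdeg)
  have hBQ : (N • E) Q = 0 := by rw [Finsupp.smul_apply, hQ0, smul_zero]
  have hBQ' : (N • E) Q' = 0 := by rw [Finsupp.smul_apply, hQ'0, smul_zero]
  have hdegD : c + 1 ≤ Divisor.degree (N • E - Finsupp.single Q (1 : ℤ)) := by
    rw [degree_sub_single hF]
    linarith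
  obtain ⟨f, hf, hfQ'⟩ := bpf_of_degree hF hc hdegD Q'
  obtain ⟨hfN, hfQ⟩ := (mem_L_sub_single_iff hBQ).1 hf
  have h1 := h N f hfN hfQ
  rw [cong_zero_iff, hfQ', Finsupp.sub_apply, hBQ', Finsupp.single_apply,
    if_neg (fun h => hne h.symm), sub_zero, exp_zero] at h1
  exact lt_irrefl _ h1

end Places

/-! ### The place attached to the Hensel character -/

section Main

variable {red : O →+* Ft} {π : A →+* k} {Gs : ℕ → Submodule k Ft} {Val : Ft → k → Prop}
  {m : ℕ} {ut w : Ft} {u : O}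

/-- The lift `u` of the local parameter is transcendental. -/
theorem transcendental_u [IsAlgClosed L] {Vs : ℕ → Submodule L F}
    (S : Setup A O red π Vs Gs Val m ut w u) : Transcendental L (u : F) := by
  intro halg
  obtain ⟨c, hc⟩ := exists_eq_algebraMap_of_isAlgebraic halg
  have hcA : c ∈ A := (S.hOA c).1 (hc ▸ u.2)
  have h1 : red u = algebraMap k Ft (π ⟨c, hcA⟩) := by
    rw [← S.hconst ⟨c, hcA⟩]
    congr 1
    exact Subtype.ext hc
  have h2 : Val ut (π ⟨c, hcA⟩) := by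
    rw [← S.hu, h1]
    exact S.pt.val.const _
  have h3 : π ⟨c, hcA⟩ = 0 := S.pt.val.uniq h2 S.pt.ut_val
  have h4 : ut = 0 := by rw [← S.hu, h1, h3, map_zero]
  have h5 : Val (0 : Ft) 1 := by
    have := S.pt.utw_val
    rwa [h4, zero_mul] at this
  have h6 : Val (0 : Ft) 0 := by
    have := S.pt.val.const 0
    rwa [map_zero] at this
  exact one_ne_zero (S.pt.val.uniq h5 h6)

/-- **The Hensel place.**  In the setting of the filtered Hensel lemma for the charts
`L(N·E)`, there is a place `Q` off `E` at which every function `y ∈ L(N·E) ∩ O` takes a value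
`a ∈ A` with `Val (red y) (π a)`; it is fixed by every inertial semilinear automorphism fixing
`E` and `u`. -/
theorem exists_place [IsAlgClosed L] {x : F} (hF : IsFF1 L F x) {E : Divisor L F}
    (hE : 0 ≤ E) (hdeg : 0 < Divisor.degree E)
    (S : Setup A O red π (VsE E) Gs Val m ut w u) :
    ∃ Q : Place L F, E Q = 0 ∧
      (∀ (N : ℕ) (y : O), (y : F) ∈ riemannRochSpace (N • E) →
        ∃ a : A, Cong Q (y : F) (a : L) ∧ Val (red y) (π a)) ∧
      ∀ g : SemilinearAut L F, Inert A O red π g → g • E = E → g • (u : F) = u →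
        g • Q = Q := by
  have hFu : IsFF1 L F (u : F) := hF.of_transcendental (transcendental_u S)
  obtain ⟨χ, hχ, -⟩ := S.existsUnique_character
  obtain ⟨Q, -, hQ⟩ := Fermat.Agent.BAD.NodalPlaces.exists_place_of_character hFu
    (S.R.val) Subtype.val_injective ⟨⟨u, m, S.huV⟩, rfl⟩ χ
  have hQ' : ∀ (N : ℕ) (f : F) (hf : f ∈ riemannRochSpace (N • E)),
      Cong Q f (χ ⟨f, N, hf⟩) := fun N f hf => hQ ⟨f, N, hf⟩
  have hQ0 : E Q = 0 := apply_eq_zero_of_regular hF hE hdeg Q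
    (fun N f hf => (hQ' N f hf).le_one)
  refine ⟨Q, hQ0, fun N y hy => ?_, fun g hg hgE hgu => ?_⟩
  · obtain ⟨a, ha, hv⟩ := hχ.2 y ⟨N, hy⟩
    refine ⟨a, ?_, hv⟩
    rw [← ha]
    exact hQ' N y hy
  · have hgE' : g⁻¹ • E = E := inv_smul_eq_self g hgE
    have hgQ0 : E (g • Q) = 0 := by
      rw [← hQ0]
      conv_lhs => rw [← hgE]
      exact SemilinearAut.divisor_smul_apply_smul g E Q
    refine place_unique hF hdeg hQ0 hgQ0 (fun N f hf hf0 => ?_)
    have hf' : g⁻¹ • f ∈ riemannRochSpace (N • E) := smul_mem_L_nsmul g⁻¹ hgE' N hf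
    obtain ⟨hy', hcomm⟩ := S.character_comm hχ (SemilinearAut.toRingAut g)
      (SemilinearAut.baseAut g) (fun c => SemilinearAut.commutes g c) hg.memA hg.pi
      (fun N f hf => smul_mem_L_nsmul g hgE N hf)
      (fun N f hf => smul_mem_L_nsmul g⁻¹ hgE' N hf)
      hg.memO (fun y => hg.red y _) hgu (g⁻¹ • f) ⟨N, hf'⟩
    have hgf : (SemilinearAut.toRingAut g) (g⁻¹ • f) = f := smul_inv_smul g f
    have h1 : Cong (g • Q) (g • (g⁻¹ • f))
        (SemilinearAut.baseAut g (χ ⟨g⁻¹ • f, N, hf'⟩)) := cong_smul g (hQ' N _ hf')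
    rw [smul_inv_smul] at h1
    have h2 : χ ⟨f, N, hf⟩ = SemilinearAut.baseAut g (χ ⟨g⁻¹ • f, N, hf'⟩) := by
      rw [← hcomm]
      congr 1
      exact Subtype.ext hgf.symm
    have h3 : χ ⟨f, N, hf⟩ = 0 := (hQ' N f hf).unique hf0
    rw [← h2, h3] at h1
    exact h1

/-- The Hensel place from point data on the special fibre, with inertia-fixed lifts. -/
theorem exists_place_of_pointData [IsAlgClosed L] {x : F} (hF : IsFF1 L F x)
    (hOA : ∀ x : L, algebraMap L F x ∈ O ↔ x ∈ A)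
    (hval : ∀ y : F, y ≠ 0 → ∃ c : L, c ≠ 0 ∧ algebraMap L F c * y ∈ O ∧
      ¬ Small A O (algebraMap L F c * y))
    (red : O →+* Ft) (π : A →+* k) (hπ : Function.Surjective π)
    (hπker : ∀ a : A, π a = 0 ↔ A.valuation (a : L) < 1)
    (hconst : ∀ a : A, red ⟨algebraMap L F (a : L), (hOA _).2 a.2⟩ = algebraMap k Ft (π a))
    (hker : ∀ y : O, red y = 0 ↔ Small A O (y : F))
    {E : Divisor L F} (hE : 0 ≤ E) (hdeg : 0 < Divisor.degree E)
    (hlat : ∀ B : Divisor L F, HasOrtho A O (riemannRochSpace B))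
    (hGmono : Monotone Gs)
    (hS2 : ∀ N : ℕ, 1 ≤ N → ∀ t : Ft,
      (∃ y : O, (y : F) ∈ riemannRochSpace (N • E) ∧ red y = t) ↔ t ∈ Gs N)
    (pt : PointData Gs Val m ut w)
    (I : Set (SemilinearAut L F)) (hI : ∀ g ∈ I, Inert A O red π g ∧ g • E = E)
    (hlift : ∀ B : Divisor L F, (∀ g ∈ I, g • B = B) → ∀ y : O,
      (y : F) ∈ riemannRochSpace B →
      ∃ y' : O, (y' : F) ∈ riemannRochSpace B ∧ red y' = red y ∧ ∀ g ∈ I, g • (y' : F) = y') :
    ∃ Q : Place L F, E Q = 0 ∧ (∀ g ∈ I, g • Q = Q) ∧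
      ∀ (N : ℕ) (y : O), (y : F) ∈ riemannRochSpace (N • E) →
        ∃ a : A, Cong Q (y : F) (a : L) ∧ Val (red y) (π a) := by
  obtain ⟨y₀, hy₀, hy₀t⟩ := (hS2 m pt.pos ut).2 pt.ut_mem
  obtain ⟨u, hu, hut, hufix⟩ := hlift (m • E) (fun g hg => by
    rw [smul_comm, (hI g hg).2]) y₀ hy₀
  have S : Setup A O red π (VsE E) Gs Val m ut w u :=
    { hOA := hOA
      hval := hval
      hπ := hπ
      hπker := hπker
      hconst := hconst
      hker := hker
      filt := filt_VsE hE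
      hlat := fun N => hlat _
      hGmono := hGmono
      hS2 := ⟨1, fun N hN t => (hS2 N hN t).symm⟩
      pt := pt
      huV := hu
      hu := hut.trans hy₀t }
  obtain ⟨Q, hQ0, hev, hfix⟩ := exists_place hF hE hdeg S
  exact ⟨Q, hQ0, fun g hg => hfix g (hI g hg).1 (hI g hg).2 (hufix g hg), hev⟩

end Main

/-! ### The nodal fibre -/

section Nodal

variable {F₁ F₂ : Type*} [Field F₁] [Field F₂] [Algebra k F₁] [Algebra k F₂]
variable {x : F} {x₁ : F₁} {x₂ : F₂} {ι : Type*} [Fintype ι]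
variable {e₁ : ι → Place k F₁} {e₂ : ι → Place k F₂}

theorem isVal_fst (Qt : Place k F₁) :
    IsVal (k := k) (Ft := F₁ × F₂) (fun t c => Cong Qt t.1 c) where
  uniq := fun h h' => h.unique h'
  add := fun h h' => h.add h'
  mul := fun h h' => h.mul h'
  const := fun c => cong_algebraMap Qt c

theorem isVal_snd (Qt : Place k F₂) :
    IsVal (k := k) (Ft := F₁ × F₂) (fun t c => Cong Qt t.2 c) where
  uniq := fun h h' => h.unique h'
  add := fun h h' => h.add h'
  mul := fun h h' => h.mul h'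
  const := fun c => cong_algebraMap Qt c

theorem nsmul_apply_zero {K' F' : Type*} [Field K'] [Field F'] [Algebra K' F']
    {D : Divisor K' F'} {v : Place K' F'} (h : D v = 0) (N : ℕ) : (N • D) v = 0 := by
  rw [Finsupp.smul_apply, h, smul_zero]

/-- **Hensel lifting of a smooth point of the first component.** -/
theorem exists_place_fst [IsAlgClosed L] [Infinite k] (hF : IsFF1 L F x)
    (h₁ : IsFF1 k F₁ x₁) (h₂ : IsFF1 k F₂ x₂)
    (hOA : ∀ x : L, algebraMap L F x ∈ O ↔ x ∈ A)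
    (hval : ∀ y : F, y ≠ 0 → ∃ c : L, c ≠ 0 ∧ algebraMap L F c * y ∈ O ∧
      ¬ Small A O (algebraMap L F c * y))
    (red : O →+* F₁ × F₂) (π : A →+* k) (hπ : Function.Surjective π)
    (hπker : ∀ a : A, π a = 0 ↔ A.valuation (a : L) < 1)
    (hconst : ∀ a : A, red ⟨algebraMap L F (a : L), (hOA _).2 a.2⟩
      = algebraMap k (F₁ × F₂) (π a))
    (hker : ∀ y : O, red y = 0 ↔ Small A O (y : F))
    (he₂ : Function.Injective e₂)
    {E : Divisor L F} (hE : 0 ≤ E) (hdeg : 0 < Divisor.degree E)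
    (D₁ : Divisor k F₁) (D₂ : Divisor k F₂) (hD₁ : ∀ i, D₁ (e₁ i) = 0)
    (hD₂ : ∀ i, D₂ (e₂ i) = 0) (hD₁0 : 0 ≤ D₁) (hD₂0 : 0 ≤ D₂)
    (hd₁ : 0 < Divisor.degree D₁) (hd₂ : 0 < Divisor.degree D₂)
    (hlat : ∀ B : Divisor L F, HasOrtho A O (riemannRochSpace B))
    (hS2 : ∃ N₀ : ℕ, ∀ N : ℕ, N₀ ≤ N → ∀ t : F₁ × F₂,
      (∃ y : O, (y : F) ∈ riemannRochSpace (N • E) ∧ red y = t) ↔
        t ∈ gluedSpace e₁ e₂ (fun _ => (1 : k)) (N • D₁) (N • D₂))
    (I : Set (SemilinearAut L F)) (hI : ∀ g ∈ I, Inert A O red π g ∧ g • E = E)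
    (hlift : ∀ B : Divisor L F, (∀ g ∈ I, g • B = B) → ∀ y : O,
      (y : F) ∈ riemannRochSpace B →
      ∃ y' : O, (y' : F) ∈ riemannRochSpace B ∧ red y' = red y ∧ ∀ g ∈ I, g • (y' : F) = y')
    (Qt : Place k F₁) (hQe : ∀ i, e₁ i ≠ Qt) (hQD : D₁ Qt = 0) :
    ∃ Q : Place L F, E Q = 0 ∧ (∀ g ∈ I, g • Q = Q) ∧
      ∀ (N : ℕ) (y : O), (y : F) ∈ riemannRochSpace (N • E) →
        ∃ a : A, Cong Q (y : F) (a : L) ∧ Cong Qt (red y).1 (π a) := by
  obtain ⟨N₀, hN₀⟩ := hS2
  set c : ℕ := N₀ + 1 with hc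
  have hc1 : 1 ≤ c := by omega
  have hcZ : (0 : ℤ) < (c : ℤ) := by exact_mod_cast hc1
  -- the scaled data
  have hE' : 0 ≤ c • E := nsmul_nonneg hE c
  have hdeg' : 0 < Divisor.degree (c • E) := by
    rw [map_nsmul, nsmul_eq_mul]
    exact mul_pos hcZ hdeg
  have hD₁' : ∀ i, (c • D₁) (e₁ i) = 0 := fun i => nsmul_apply_zero (hD₁ i) c
  have hD₂' : ∀ i, (c • D₂) (e₂ i) = 0 := fun i => nsmul_apply_zero (hD₂ i) c
  have hd₁' : 0 < Divisor.degree (c • D₁) := by
    rw [map_nsmul, nsmul_eq_mul]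
    exact mul_pos hcZ hd₁
  have hd₂' : 0 < Divisor.degree (c • D₂) := by
    rw [map_nsmul, nsmul_eq_mul]
    exact mul_pos hcZ hd₂
  have hQD' : (c • D₁) Qt = 0 := nsmul_apply_zero hQD c
  obtain ⟨m, ut, w, hm, hut, -, -, hut1, hut2, hutQ, hw, hwQ, hutw, hloc, hfg⟩ :=
    exists_point_data_fst h₁ h₂ he₂ (c • D₁) (c • D₂) hD₁' hD₂' (nsmul_nonneg hD₁0 c)
      (nsmul_nonneg hD₂0 c) hd₁' hd₂' Qt hQe hQD'
  have hGQ : ∀ N : ℕ, ∀ t ∈ gluedSpace e₁ e₂ (fun _ => (1 : k)) (N • c • D₁) (N • c • D₂),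
      Qt.adicValuation t.1 ≤ 1 := by
    intro N t ht
    have h1 := ht.1 Qt
    rwa [nsmul_apply_zero hQD' N, exp_zero] at h1
  have pt : PointData (k := k) (Ft := F₁ × F₂)
      (fun N => gluedSpace e₁ e₂ (fun _ => (1 : k)) (N • c • D₁) (N • c • D₂))
      (fun t a => Cong Qt t.1 a) m ut w :=
    { val := isVal_fst Qt
      ex := fun N t ht => exists_cong (h₁.resK Qt) (hGQ N t ht)
      pos := hm
      ut_mem := hut
      nzd := fun t ht => by
        have h1 : ut.1 * t.1 = 0 := congrArg Prod.fst ht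
        have h2 : ut.2 * t.2 = 0 := congrArg Prod.snd ht
        exact Prod.ext ((mul_eq_zero.1 h1).resolve_left hut1)
          ((mul_eq_zero.1 h2).resolve_left hut2)
      ut_val := by
        show Cong Qt ut.1 0
        rw [cong_zero_iff, hutQ, ← exp_zero, exp_lt_exp]
        norm_num
      utw_val := hutw
      loc := hloc
      nz := fun N hwN => by
        have h1 := hGQ N w hwN
        rw [hwQ, ← exp_zero, exp_le_exp] at h1
        norm_num at h1
      fg := hfg }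
  have hGmono : Monotone (fun N : ℕ =>
      gluedSpace e₁ e₂ (fun _ => (1 : k)) (N • c • D₁) (N • c • D₂)) := fun N N' h =>
    gluedSpace_mono (nsmul_le_nsmul_left (nsmul_nonneg hD₁0 c) h)
      (nsmul_le_nsmul_left (nsmul_nonneg hD₂0 c) h)
  have hS2' : ∀ N : ℕ, 1 ≤ N → ∀ t : F₁ × F₂,
      (∃ y : O, (y : F) ∈ riemannRochSpace (N • c • E) ∧ red y = t) ↔
        t ∈ gluedSpace e₁ e₂ (fun _ => (1 : k)) (N • c • D₁) (N • c • D₂) := by
    intro N hN t
    rw [← mul_nsmul', ← mul_nsmul', ← mul_nsmul']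
    refine hN₀ (N * c) ?_ t
    calc N₀ ≤ c := by omega
      _ ≤ N * c := Nat.le_mul_of_pos_left c hN
  obtain ⟨Q, hQ0, hfix, hev⟩ := exists_place_of_pointData hF hOA hval red π hπ hπker hconst hker
    hE' hdeg' hlat hGmono hS2' pt I (fun g hg => ⟨(hI g hg).1, by
      rw [smul_comm, (hI g hg).2]⟩) hlift
  refine ⟨Q, ?_, hfix, fun N y hy => ?_⟩
  · rw [Finsupp.smul_apply, nsmul_eq_mul] at hQ0
    exact (mul_eq_zero.1 hQ0).resolve_left hcZ.ne'
  · refine hev N y (RR.L_mono ?_ hy)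
    exact nsmul_le_nsmul_right
      (le_of_eq_of_le (one_nsmul E).symm (nsmul_le_nsmul_left hE hc1)) N

/-- **Hensel lifting of a smooth point of the second component.** -/
theorem exists_place_snd [IsAlgClosed L] [Infinite k] (hF : IsFF1 L F x)
    (h₁ : IsFF1 k F₁ x₁) (h₂ : IsFF1 k F₂ x₂)
    (hOA : ∀ x : L, algebraMap L F x ∈ O ↔ x ∈ A)
    (hval : ∀ y : F, y ≠ 0 → ∃ c : L, c ≠ 0 ∧ algebraMap L F c * y ∈ O ∧
      ¬ Small A O (algebraMap L F c * y))
    (red : O →+* F₁ × F₂) (π : A →+* k) (hπ : Function.Surjective π)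
    (hπker : ∀ a : A, π a = 0 ↔ A.valuation (a : L) < 1)
    (hconst : ∀ a : A, red ⟨algebraMap L F (a : L), (hOA _).2 a.2⟩
      = algebraMap k (F₁ × F₂) (π a))
    (hker : ∀ y : O, red y = 0 ↔ Small A O (y : F))
    (he₂ : Function.Injective e₂)
    {E : Divisor L F} (hE : 0 ≤ E) (hdeg : 0 < Divisor.degree E)
    (D₁ : Divisor k F₁) (D₂ : Divisor k F₂) (hD₁ : ∀ i, D₁ (e₁ i) = 0)
    (hD₂ : ∀ i, D₂ (e₂ i) = 0) (hD₁0 : 0 ≤ D₁) (hD₂0 : 0 ≤ D₂)
    (hd₁ : 0 < Divisor.degree D₁) (hd₂ : 0 < Divisor.degree D₂)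
    (hlat : ∀ B : Divisor L F, HasOrtho A O (riemannRochSpace B))
    (hS2 : ∃ N₀ : ℕ, ∀ N : ℕ, N₀ ≤ N → ∀ t : F₁ × F₂,
      (∃ y : O, (y : F) ∈ riemannRochSpace (N • E) ∧ red y = t) ↔
        t ∈ gluedSpace e₁ e₂ (fun _ => (1 : k)) (N • D₁) (N • D₂))
    (I : Set (SemilinearAut L F)) (hI : ∀ g ∈ I, Inert A O red π g ∧ g • E = E)
    (hlift : ∀ B : Divisor L F, (∀ g ∈ I, g • B = B) → ∀ y : O,
      (y : F) ∈ riemannRochSpace B →
      ∃ y' : O, (y' : F) ∈ riemannRochSpace B ∧ red y' = red y ∧ ∀ g ∈ I, g • (y' : F) = y')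
    (Qt : Place k F₂) (hQe : ∀ i, e₂ i ≠ Qt) (hQD : D₂ Qt = 0) :
    ∃ Q : Place L F, E Q = 0 ∧ (∀ g ∈ I, g • Q = Q) ∧
      ∀ (N : ℕ) (y : O), (y : F) ∈ riemannRochSpace (N • E) →
        ∃ a : A, Cong Q (y : F) (a : L) ∧ Cong Qt (red y).2 (π a) := by
  obtain ⟨N₀, hN₀⟩ := hS2
  set c : ℕ := N₀ + 1 with hc
  have hc1 : 1 ≤ c := by omega
  have hcZ : (0 : ℤ) < (c : ℤ) := by exact_mod_cast hc1
  -- the scaled data
  have hE' : 0 ≤ c • E := nsmul_nonneg hE c
  have hdeg' : 0 < Divisor.degree (c • E) := by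
    rw [map_nsmul, nsmul_eq_mul]
    exact mul_pos hcZ hdeg
  have hD₁' : ∀ i, (c • D₁) (e₁ i) = 0 := fun i => nsmul_apply_zero (hD₁ i) c
  have hD₂' : ∀ i, (c • D₂) (e₂ i) = 0 := fun i => nsmul_apply_zero (hD₂ i) c
  have hd₁' : 0 < Divisor.degree (c • D₁) := by
    rw [map_nsmul, nsmul_eq_mul]
    exact mul_pos hcZ hd₁
  have hd₂' : 0 < Divisor.degree (c • D₂) := by
    rw [map_nsmul, nsmul_eq_mul]
    exact mul_pos hcZ hd₂
  have hQD' : (c • D₂) Qt = 0 := nsmul_apply_zero hQD c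
  obtain ⟨m, ut, w, hm, hut, -, -, hut1, hut2, hutQ, hw, hwQ, hutw, hloc, hfg⟩ :=
    exists_point_data_snd h₁ h₂ he₂ (c • D₁) (c • D₂) hD₁' hD₂' (nsmul_nonneg hD₁0 c)
      (nsmul_nonneg hD₂0 c) hd₁' hd₂' Qt hQe hQD'
  have hGQ : ∀ N : ℕ, ∀ t ∈ gluedSpace e₁ e₂ (fun _ => (1 : k)) (N • c • D₁) (N • c • D₂),
      Qt.adicValuation t.2 ≤ 1 := by
    intro N t ht
    have h1 := ht.2.1 Qt
    rwa [nsmul_apply_zero hQD' N, exp_zero] at h1
  have pt : PointData (k := k) (Ft := F₁ × F₂)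
      (fun N => gluedSpace e₁ e₂ (fun _ => (1 : k)) (N • c • D₁) (N • c • D₂))
      (fun t a => Cong Qt t.2 a) m ut w :=
    { val := isVal_snd Qt
      ex := fun N t ht => exists_cong (h₂.resK Qt) (hGQ N t ht)
      pos := hm
      ut_mem := hut
      nzd := fun t ht => by
        have h1 : ut.1 * t.1 = 0 := congrArg Prod.fst ht
        have h2 : ut.2 * t.2 = 0 := congrArg Prod.snd ht
        exact Prod.ext ((mul_eq_zero.1 h1).resolve_left hut1)
          ((mul_eq_zero.1 h2).resolve_left hut2)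
      ut_val := by
        show Cong Qt ut.2 0
        rw [cong_zero_iff, hutQ, ← exp_zero, exp_lt_exp]
        norm_num
      utw_val := hutw
      loc := hloc
      nz := fun N hwN => by
        have h1 := hGQ N w hwN
        rw [hwQ, ← exp_zero, exp_le_exp] at h1
        norm_num at h1
      fg := hfg }
  have hGmono : Monotone (fun N : ℕ =>
      gluedSpace e₁ e₂ (fun _ => (1 : k)) (N • c • D₁) (N • c • D₂)) := fun N N' h =>
    gluedSpace_mono (nsmul_le_nsmul_left (nsmul_nonneg hD₁0 c) h)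
      (nsmul_le_nsmul_left (nsmul_nonneg hD₂0 c) h)
  have hS2' : ∀ N : ℕ, 1 ≤ N → ∀ t : F₁ × F₂,
      (∃ y : O, (y : F) ∈ riemannRochSpace (N • c • E) ∧ red y = t) ↔
        t ∈ gluedSpace e₁ e₂ (fun _ => (1 : k)) (N • c • D₁) (N • c • D₂) := by
    intro N hN t
    rw [← mul_nsmul', ← mul_nsmul', ← mul_nsmul']
    refine hN₀ (N * c) ?_ t
    calc N₀ ≤ c := by omega
      _ ≤ N * c := Nat.le_mul_of_pos_left c hN
  obtain ⟨Q, hQ0, hfix, hev⟩ := exists_place_of_pointData hF hOA hval red π hπ hπker hconst hker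
    hE' hdeg' hlat hGmono hS2' pt I (fun g hg => ⟨(hI g hg).1, by
      rw [smul_comm, (hI g hg).2]⟩) hlift
  refine ⟨Q, ?_, hfix, fun N y hy => ?_⟩
  · rw [Finsupp.smul_apply, nsmul_eq_mul] at hQ0
    exact (mul_eq_zero.1 hQ0).resolve_left hcZ.ne'
  · refine hev N y (RR.L_mono ?_ hy)
    exact nsmul_le_nsmul_right
      (le_of_eq_of_le (one_nsmul E).symm (nsmul_le_nsmul_left hE hc1)) N

end Nodal

end Fermat.Agent.BAD.HenselPlace
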