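import Mathlib
import Fermat.Agent.Lib.Red.CoordOrtho

/-!
# BAD: orthonormal bases inside a rational structure (abstract)

`L ⊆ F` fields, `A` a valuation subring of `L`, `O` a subring of `F` with `O ∩ L = A`.
`L₀ ⊆ L` a subfield and `F₀ ⊆ F` an additive subgroup stable under `L₀` (the "rational"
functions: e.g. the fixed points of a group of semilinear automorphisms, or the functions with
`q`-expansion coefficients in `L₀`).  Assume

* `π₀ ∈ L₀` is a nonzero non-unit of `A` and `L₀ ∩ A → A / 𝔪_A` is onto (`hres`);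
* the valuation is unramified on `F₀`: a small element of `F₀` is divisible by `π₀` in `O`
  (`hunr`);
* the valuation is archimedean with respect to `π₀` (`harch`).

Then every finite-dimensional `L`-subspace `V` of `F` which has an orthonormal basis and is
spanned by `V ∩ F₀` has an orthonormal basis **consisting of elements of `F₀`**
(`exists_ortho_basis_mem`).  Consequently (`OrthoFam.sum_mem_iff`, `OrthoFam.dvd_sum_iff`,
`map_sum_of_fixed`, `sum_fixed_iff`) integrality, divisibility and the action of a semilinear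
automorphism fixing the basis are all read off coefficientwise: the lattice of points rational
over any intermediate field is obtained by base change.  This is the "ramified base change" of
the lattice `V ∩ O`.
-/

set_option autoImplicit false

namespace Fermat.Agent.BAD.LatFixed

open Fermat.Agent.Lib.Red.Deform Fermat.Agent.Lib.Red.CoordLat

variable {L F : Type*} [Field L] [Field F] [Algebra L F]
variable {A : ValuationSubring L} {O : Subring F}

/-- An orthonormal family: elements of `O` such that `∑ cᵢ bᵢ ∈ O` forces `cᵢ ∈ A`. -/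
def OrthoFam (A : ValuationSubring L) (O : Subring F) {r : ℕ} (b : Fin r → F) : Prop :=
  (∀ i, b i ∈ O) ∧ ∀ c : Fin r → L, ∑ i, c i • b i ∈ O → ∀ i, c i ∈ A

/-- An orthonormal family is linearly independent (`A ≠ L`). -/
theorem OrthoFam.linearIndependent {r : ℕ} {b : Fin r → F} (hb : OrthoFam A O b)
    (hA : ∃ a : L, a ∉ A) : LinearIndependent L b := by
  rw [Fintype.linearIndependent_iff]
  intro c hc j
  by_contra hj
  obtain ⟨a, ha⟩ := hA
  have h1 : ∑ i, ((a / c j) * c i) • b i = 0 := by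
    have : ∑ i, ((a / c j) * c i) • b i = (a / c j) • ∑ i, c i • b i := by
      rw [Finset.smul_sum]
      exact Finset.sum_congr rfl (fun i _ => by rw [mul_smul])
    rw [this, hc, smul_zero]
  have h2 := hb.2 (fun i => (a / c j) * c i) (by rw [h1]; exact O.zero_mem) j
  rw [div_mul_cancel₀ a hj] at h2
  exact ha h2

/-- **Orthonormal bases inside a rational structure.** -/
theorem exists_ortho_basis_mem
    (hOA : ∀ x : L, algebraMap L F x ∈ O ↔ x ∈ A)
    (L₀ : Subfield L) (F₀ : AddSubgroup F)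
    (hsmul : ∀ a ∈ L₀, ∀ f ∈ F₀, a • f ∈ F₀)
    (π₀ : L) (hπ₀ : π₀ ∈ L₀) (hπ₀v : A.valuation π₀ < 1) (hπ₀0 : π₀ ≠ 0)
    (hres : ∀ a ∈ A, ∃ a₀ ∈ L₀, A.valuation (a - a₀) < 1)
    (hunr : ∀ f ∈ F₀, Small A O f → Dvd O π₀ f)
    (harch : ∀ c : L, ∃ n : ℕ, π₀ ^ n * c ∈ A)
    (V : Submodule L F) (hV : HasOrtho A O V)
    (hspan : V ≤ Submodule.span L {v | v ∈ V ∧ v ∈ F₀}) :
    ∃ (n : ℕ) (b : Fin n → F), (∀ i, b i ∈ F₀) ∧ LinearIndependent L b ∧
      Submodule.span L (Set.range b) = V ∧ (∀ i, b i ∈ O) ∧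
      ∀ c : Fin n → L, ∑ i, c i • b i ∈ O → ∀ i, c i ∈ A := by
  classical
  obtain ⟨n', e, heli, hespan, heO, heortho⟩ := hV
  have hpos : 0 < A.valuation π₀ := zero_lt_iff.2 ((Valuation.ne_zero_iff _).2 hπ₀0)
  have hπ₀A : π₀ ∈ A := (A.valuation_le_one_iff _).1 hπ₀v.le
  have hA : ∃ a : L, a ∉ A := ⟨π₀⁻¹, fun h => by
    have h1 := (A.valuation_le_one_iff _).2 h
    rw [map_inv₀] at h1
    exact absurd h1 (not_le.2 ((one_lt_inv₀ hpos).2 hπ₀v))⟩
  have hfd : FiniteDimensional L V :=
    hespan ▸ FiniteDimensional.span_of_finite L (Set.finite_range e)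
  have hfr : Module.finrank L V = n' := by
    rw [← hespan, finrank_span_eq_card heli, Fintype.card_fin]
  have hcoord : ∀ y ∈ V, ∃ a : Fin n' → L, y = ∑ j, a j • e j := by
    intro y hy
    rw [← hespan] at hy
    obtain ⟨a, ha⟩ := (Submodule.mem_span_range_iff_exists_fun L).1 hy
    exact ⟨a, ha.symm⟩
  let P : ℕ → Prop := fun r =>
    ∃ b : Fin r → F, (∀ i, b i ∈ F₀) ∧ (∀ i, b i ∈ V) ∧ OrthoFam A O b
  have hP0 : P 0 := ⟨fun i => i.elim0, fun i => i.elim0, fun i => i.elim0,
    fun i => i.elim0, fun c _ i => i.elim0⟩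
  have hPle : ∀ r, P r → r ≤ n' := by
    rintro r ⟨b, -, hbV, hb⟩
    have hli := hb.linearIndependent hA
    have h1 : Submodule.span L (Set.range b) ≤ V :=
      Submodule.span_le.2 (by rintro _ ⟨i, rfl⟩; exact hbV i)
    have h2 := Submodule.finrank_mono h1
    rw [finrank_span_eq_card hli, Fintype.card_fin, hfr] at h2
    exact h2
  have hPr : P (Nat.findGreatest P n') := Nat.findGreatest_spec (Nat.zero_le n') hP0
  have hmaxr : ∀ r', P r' → r' ≤ Nat.findGreatest P n' := fun r' h =>
    Nat.le_findGreatest (hPle r' h) h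
  generalize Nat.findGreatest P n' = r at hPr hmaxr
  obtain ⟨b, hbF, hbV, hb⟩ := hPr
  have hbspan : Submodule.span L (Set.range b) = V := by
    refine le_antisymm (Submodule.span_le.2 (by rintro _ ⟨i, rfl⟩; exact hbV i)) ?_
    refine hspan.trans (Submodule.span_le.2 ?_)
    rintro v ⟨hvV, hvF⟩
    by_contra hvU
    -- scale `v` into `O`
    obtain ⟨a, hva⟩ := hcoord v hvV
    have hN : ∃ N : ℕ, ∀ j, π₀ ^ N * a j ∈ A := by
      choose Nj hNj using fun j => harch (a j)
      refine ⟨∑ j, Nj j, fun j => ?_⟩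
      have h1 : π₀ ^ (∑ j, Nj j) * a j =
          π₀ ^ (∑ i ∈ Finset.univ.erase j, Nj i) * (π₀ ^ Nj j * a j) := by
        rw [← mul_assoc, ← pow_add, Finset.sum_erase_add _ _ (Finset.mem_univ j)]
      rw [h1]
      exact A.mul_mem _ _ (A.pow_mem hπ₀A _) (hNj j)
    obtain ⟨N, hN⟩ := hN
    have hπN0 : π₀ ^ N ≠ 0 := pow_ne_zero _ hπ₀0
    set v₁ : F := (π₀ ^ N) • v with hv₁
    have hv₁O : v₁ ∈ O := by
      rw [hv₁, hva, Finset.smul_sum]
      refine O.sum_mem (fun j _ => ?_)
      rw [smul_smul, Algebra.smul_def]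
      exact O.mul_mem ((hOA _).2 (hN j)) (heO j)
    have hv₁F : v₁ ∈ F₀ := hsmul _ (L₀.pow_mem hπ₀ N) v hvF
    have hv₁V : v₁ ∈ V := V.smul_mem _ hvV
    have hv₁U : v₁ ∉ Submodule.span L (Set.range b) := by
      intro h
      apply hvU
      have : v = (π₀ ^ N)⁻¹ • v₁ := by rw [hv₁, smul_smul, inv_mul_cancel₀ hπN0, one_smul]
      rw [this]
      exact Submodule.smul_mem _ _ h
    -- a functional separating `v₁` from the span of `b`
    obtain ⟨φ, hφv, hφU⟩ := Submodule.exists_dual_map_eq_bot_of_notMem hv₁U inferInstance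
    have hφb : ∀ i, φ (b i) = 0 := by
      intro i
      have : φ (b i) ∈ (Submodule.span L (Set.range b)).map φ :=
        ⟨b i, Submodule.subset_span ⟨i, rfl⟩, rfl⟩
      rw [hφU] at this
      exact (Submodule.mem_bot L).1 this
    obtain ⟨c₀, hc₀, hc₀le⟩ : ∃ c₀ : L, c₀ ≠ 0 ∧
        ∀ j, A.valuation (φ (e j)) ≤ A.valuation c₀ := by
      by_cases hall : ∀ j, φ (e j) = 0
      · exact ⟨1, one_ne_zero, fun j => by rw [hall j, map_zero]; exact zero_le⟩
      · push Not at hall
        obtain ⟨j1, hj1⟩ := hall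
        obtain ⟨j0, -, hmax⟩ := Finset.exists_max_image Finset.univ
          (fun j => A.valuation (φ (e j))) ⟨j1, Finset.mem_univ _⟩
        refine ⟨φ (e j0), ?_, fun j => hmax j (Finset.mem_univ _)⟩
        intro h0
        have := hmax j1 (Finset.mem_univ _)
        rw [h0, map_zero] at this
        exact hj1 ((Valuation.zero_iff _).1 (le_antisymm this zero_le))
    have hφbd : ∀ y ∈ V, y ∈ O → A.valuation (φ y) ≤ A.valuation c₀ := by
      intro y hyV hyO
      obtain ⟨a', hya'⟩ := hcoord y hyV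
      have ha'A := heortho a' (by rw [← hya']; exact hyO)
      rw [hya', map_sum]
      refine Valuation.map_sum_le _ (fun j _ => ?_)
      rw [map_smul, smul_eq_mul, map_mul]
      calc A.valuation (a' j) * A.valuation (φ (e j)) ≤ 1 * A.valuation c₀ :=
            mul_le_mul' ((A.valuation_le_one_iff _).2 (ha'A j)) (hc₀le j)
        _ = A.valuation c₀ := one_mul _
    -- best approximation of `v₁` by `L₀`-combinations of `b`
    let S : ℕ → Prop := fun m =>
      ∃ c : Fin r → L, (∀ i, c i ∈ L₀) ∧ Dvd O (π₀ ^ m) (v₁ - ∑ i, c i • b i)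
    have hS0 : S 0 := ⟨fun _ => 0, fun _ => L₀.zero_mem, by
      simp only [zero_smul, Finset.sum_const_zero, sub_zero, pow_zero]
      exact dvd_one_iff.2 hv₁O⟩
    obtain ⟨n₀, hn₀⟩ := harch (c₀ / φ v₁)
    have hφv' : 0 < A.valuation (φ v₁) := zero_lt_iff.2 ((Valuation.ne_zero_iff _).2 hφv)
    have hc₀v : 0 < A.valuation c₀ := zero_lt_iff.2 ((Valuation.ne_zero_iff _).2 hc₀)
    have hSle : ∀ m, S m → m ≤ n₀ := by
      rintro m ⟨c, -, o, hoO, ho⟩
      by_contra hlt
      rw [not_le] at hlt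
      have hπm0 : π₀ ^ m ≠ 0 := pow_ne_zero _ hπ₀0
      have hoV : o ∈ V := by
        have : o = (π₀ ^ m)⁻¹ • (v₁ - ∑ i, c i • b i) := by
          rw [ho, Algebra.smul_def, ← mul_assoc, ← map_mul, inv_mul_cancel₀ hπm0, map_one,
            one_mul]
        rw [this]
        exact V.smul_mem _ (V.sub_mem hv₁V (V.sum_mem fun i _ => V.smul_mem _ (hbV i)))
      have h1 : φ v₁ = π₀ ^ m * φ o := by
        have h : φ (v₁ - ∑ i, c i • b i) = φ (π₀ ^ m • o) := by
          rw [ho, Algebra.smul_def]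
        rw [map_sub, map_sum,
          Finset.sum_eq_zero (fun i _ => by rw [map_smul, hφb, smul_zero]), sub_zero] at h
        rw [h, map_smul, smul_eq_mul]
      have h2 := hφbd o hoV hoO
      have h3 : A.valuation (π₀ ^ n₀ * (c₀ / φ v₁)) ≤ 1 := (A.valuation_le_one_iff _).2 hn₀
      rw [map_mul, map_div₀, map_pow, ← mul_div_assoc, div_le_one₀ hφv'] at h3
      have h5 : A.valuation (φ v₁) ≤ A.valuation π₀ ^ m * A.valuation c₀ := by
        rw [h1, map_mul, map_pow]
        exact mul_le_mul' le_rfl h2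
      have h6 : A.valuation π₀ ^ n₀ ≤ A.valuation π₀ ^ m :=
        le_of_mul_le_mul_right (h3.trans h5) hc₀v
      have h7 : A.valuation π₀ ^ m < A.valuation π₀ ^ n₀ :=
        pow_lt_pow_right_of_lt_one₀ hpos hπ₀v hlt
      exact absurd h6 (not_le.2 h7)
    have hSm : S (Nat.findGreatest S n₀) := Nat.findGreatest_spec (Nat.zero_le n₀) hS0
    have hSm1 : ¬ S (Nat.findGreatest S n₀ + 1) := fun h => by
      have h1 := Nat.le_findGreatest (hSle _ h) h
      omega
    generalize Nat.findGreatest S n₀ = m at hSm hSm1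
    obtain ⟨c, hcL, v', hv'O, hv'⟩ := hSm
    have hπm0 : π₀ ^ m ≠ 0 := pow_ne_zero _ hπ₀0
    have hv'eq : v' = (π₀ ^ m)⁻¹ • (v₁ - ∑ i, c i • b i) := by
      rw [hv', Algebra.smul_def, ← mul_assoc, ← map_mul, inv_mul_cancel₀ hπm0, map_one, one_mul]
    have hsumF : ∀ t : Fin r → L, (∀ i, t i ∈ L₀) → ∑ i, t i • b i ∈ F₀ := fun t ht =>
      F₀.sum_mem (fun i _ => hsmul _ (ht i) _ (hbF i))
    have hv'F : v' ∈ F₀ := by
      rw [hv'eq]
      exact hsmul _ (L₀.inv_mem (L₀.pow_mem hπ₀ m)) _ (F₀.sub_mem hv₁F (hsumF c hcL))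
    have hv'V : v' ∈ V := by
      rw [hv'eq]
      exact V.smul_mem _ (V.sub_mem hv₁V (V.sum_mem fun i _ => V.smul_mem _ (hbV i)))
    have hnew : OrthoFam A O (Fin.cons v' b : Fin (r + 1) → F) := by
      refine ⟨fun i => ?_, fun d hd => ?_⟩
      · refine Fin.cases ?_ (fun i => ?_) i
        · simpa using hv'O
        · simpa using hb.1 i
      · rw [Fin.sum_univ_succ] at hd
        simp only [Fin.cons_zero, Fin.cons_succ] at hd
        have hd0 : d 0 ∈ A := by
          by_contra hnot
          have hd00 : d 0 ≠ 0 := fun h0 => hnot (h0 ▸ A.zero_mem)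
          have hdv : A.valuation (d 0)⁻¹ < 1 := by
            rw [map_inv₀]
            have h1 : 1 < A.valuation (d 0) :=
              not_le.1 (fun h => hnot ((A.valuation_le_one_iff _).1 h))
            exact inv_lt_one_of_one_lt₀ h1
          have hsm : Small A O (v' - ∑ i, (-((d 0)⁻¹ * d i.succ)) • b i) := by
            refine ⟨(d 0)⁻¹, hdv, d 0 • v' + ∑ i, d i.succ • b i, hd, ?_⟩
            rw [← Algebra.smul_def, smul_add, smul_smul, inv_mul_cancel₀ hd00, one_smul,
              Finset.smul_sum, sub_eq_add_neg, ← Finset.sum_neg_distrib]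
            congr 1
            refine Finset.sum_congr rfl (fun i _ => ?_)
            rw [neg_smul, neg_neg, smul_smul]
          have htA : ∀ i : Fin r, -((d 0)⁻¹ * d i.succ) ∈ A := by
            apply hb.2
            have : ∑ i, (-((d 0)⁻¹ * d i.succ)) • b i =
                v' - (v' - ∑ i, (-((d 0)⁻¹ * d i.succ)) • b i) := by abel
            rw [this]
            exact O.sub_mem hv'O (hsm.mem hOA)
          choose t₀ ht₀L ht₀v using fun i => hres _ (htA i)
          have hsm2 : Small A O (v' - ∑ i, t₀ i • b i) := by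
            have : v' - ∑ i, t₀ i • b i = (v' - ∑ i, (-((d 0)⁻¹ * d i.succ)) • b i) +
                ∑ i, (-((d 0)⁻¹ * d i.succ) - t₀ i) • b i := by
              have h1 : ∑ i, (-((d 0)⁻¹ * d i.succ) - t₀ i) • b i =
                  ∑ i, (-((d 0)⁻¹ * d i.succ)) • b i - ∑ i, t₀ i • b i := by
                rw [← Finset.sum_sub_distrib]
                exact Finset.sum_congr rfl (fun i _ => sub_smul _ _ _)
              rw [h1]
              abel
            rw [this]
            refine hsm.add hOA ?_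
            refine Finset.sum_induction _ (Small A O) (fun _ _ h h' => h.add hOA h') small_zero
              (fun i _ => ?_)
            exact ⟨_, ht₀v i, b i, hb.1 i, by rw [Algebra.smul_def]⟩
          obtain ⟨g, hgO, hg⟩ := hunr _ (F₀.sub_mem hv'F (hsumF t₀ ht₀L)) hsm2
          apply hSm1
          refine ⟨fun i => c i + π₀ ^ m * t₀ i, fun i =>
            L₀.add_mem (hcL i) (L₀.mul_mem (L₀.pow_mem hπ₀ m) (ht₀L i)), g, hgO, ?_⟩
          have h1 : v₁ - ∑ i, (c i + π₀ ^ m * t₀ i) • b i =
              algebraMap L F (π₀ ^ m) * (v' - ∑ i, t₀ i • b i) := by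
            have h2 : ∑ i, (c i + π₀ ^ m * t₀ i) • b i =
                ∑ i, c i • b i + algebraMap L F (π₀ ^ m) * ∑ i, t₀ i • b i := by
              rw [Finset.mul_sum, ← Finset.sum_add_distrib]
              refine Finset.sum_congr rfl (fun i _ => ?_)
              rw [add_smul, mul_smul, Algebra.smul_def (π₀ ^ m)]
            rw [h2, mul_sub, ← hv']
            abel
          rw [h1, hg, ← mul_assoc, ← map_mul, ← pow_succ]
        have hrest : ∑ i, d i.succ • b i ∈ O := by
          have : ∑ i, d i.succ • b i = (d 0 • v' + ∑ i, d i.succ • b i) - d 0 • v' := by abel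
          rw [this]
          refine O.sub_mem hd ?_
          rw [Algebra.smul_def]
          exact O.mul_mem ((hOA _).2 hd0) hv'O
        have hrestA := hb.2 (fun i => d i.succ) hrest
        intro i
        exact Fin.cases (motive := fun i => d i ∈ A) hd0 (fun j => hrestA j) i
    have hP1 : P (r + 1) := ⟨Fin.cons v' b,
      fun i => Fin.cases (by simpa using hv'F) (fun i => by simpa using hbF i) i,
      fun i => Fin.cases (by simpa using hv'V) (fun i => by simpa using hbV i) i, hnew⟩
    have h2 := hmaxr _ hP1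
    omega
  exact ⟨r, b, hbF, hb.linearIndependent hA, hbspan, hb.1, hb.2⟩

/-- Integrality is read off coefficientwise in an orthonormal family. -/
theorem OrthoFam.sum_mem_iff {r : ℕ} {b : Fin r → F} (hb : OrthoFam A O b)
    (hOA : ∀ x : L, algebraMap L F x ∈ O ↔ x ∈ A) (c : Fin r → L) :
    ∑ i, c i • b i ∈ O ↔ ∀ i, c i ∈ A := by
  refine ⟨hb.2 c, fun h => O.sum_mem (fun i _ => ?_)⟩
  rw [Algebra.smul_def]
  exact O.mul_mem ((hOA _).2 (h i)) (hb.1 i)

/-- Divisibility by a nonzero constant is read off coefficientwise in an orthonormal family. -/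
theorem OrthoFam.dvd_sum_iff {r : ℕ} {b : Fin r → F} (hb : OrthoFam A O b)
    (hOA : ∀ x : L, algebraMap L F x ∈ O ↔ x ∈ A) {a : L} (ha : a ≠ 0) (c : Fin r → L) :
    Dvd O a (∑ i, c i • b i) ↔ ∀ i, a⁻¹ * c i ∈ A := by
  have key : ∀ g : F, (∑ i, c i • b i = algebraMap L F a * g) ↔
      g = ∑ i, (a⁻¹ * c i) • b i := by
    intro g
    have h1 : ∑ i, (a⁻¹ * c i) • b i = a⁻¹ • ∑ i, c i • b i := by
      rw [Finset.smul_sum]
      exact Finset.sum_congr rfl (fun i _ => by rw [mul_smul])
    rw [h1, ← Algebra.smul_def]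
    constructor
    · intro h
      rw [h, smul_smul, inv_mul_cancel₀ ha, one_smul]
    · intro h
      rw [h, smul_smul, mul_inv_cancel₀ ha, one_smul]
  constructor
  · rintro ⟨g, hgO, hg⟩
    rw [key] at hg
    exact hb.2 _ (hg ▸ hgO)
  · intro h
    exact ⟨∑ i, (a⁻¹ * c i) • b i, (hb.sum_mem_iff hOA _).2 h, (key _).2 rfl⟩

/-- A semilinear map fixing the members of a family acts on combinations through the
coefficients. -/
theorem map_sum_of_fixed {r : ℕ} {b : Fin r → F} (σ : F →+* F) (σL : L →+* L)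
    (hσ : ∀ (a : L) (f : F), σ (a • f) = σL a • σ f) (hb : ∀ i, σ (b i) = b i)
    (c : Fin r → L) : σ (∑ i, c i • b i) = ∑ i, σL (c i) • b i := by
  rw [map_sum]
  exact Finset.sum_congr rfl (fun i _ => by rw [hσ, hb])

/-- A combination of a linearly independent fixed family is fixed iff its coefficients are. -/
theorem sum_fixed_iff {r : ℕ} {b : Fin r → F} (hli : LinearIndependent L b) (σ : F →+* F)
    (σL : L →+* L) (hσ : ∀ (a : L) (f : F), σ (a • f) = σL a • σ f)
    (hb : ∀ i, σ (b i) = b i) (c : Fin r → L) :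
    σ (∑ i, c i • b i) = ∑ i, c i • b i ↔ ∀ i, σL (c i) = c i := by
  rw [map_sum_of_fixed σ σL hσ hb]
  constructor
  · intro h i
    have h1 : ∑ i, (σL (c i) - c i) • b i = 0 := by
      have : ∑ i, (σL (c i) - c i) • b i = ∑ i, σL (c i) • b i - ∑ i, c i • b i := by
        rw [← Finset.sum_sub_distrib]
        exact Finset.sum_congr rfl (fun i _ => sub_smul _ _ _)
      rw [this, h, sub_self]
    exact sub_eq_zero.1 (Fintype.linearIndependent_iff.1 hli _ h1 i)
  · intro h
    exact Finset.sum_congr rfl (fun i _ => by rw [h i])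

end Fermat.Agent.BAD.LatFixed
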