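import Mathlib
import Fermat.Agent.BAD.LatFixed
import Fermat.Agent.BAD.LatInst
import Fermat.Agent.BAD.TwoVal.GaloisPair
import Fermat.Agent.CAR.K0.Setup
import Fermat.Agent.ESJ.Dict.Bc
import Fermat.Agent.Padic.LatticeRat

/-!
# BAD: inertia-fixed orthonormal bases at the bad level ("ramified base change for free")

`A` a valuation subring of `ℚ̄` over the prime `q`, `I` its inertia group, `K0 = ℚ̄^I`,
`F = ℚ̄·F_{Mq}` the bad-level function field (`q ∤ M`) with its two Gauss valuation rings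
`O_∞`, `O_0` and `O = O_∞ ∩ O_0` (`OPair h W`).  No hypothesis relates `q` to any other prime.

* `dvd_inf_of_coeff_mem` : the Gauss valuation is **unramified on `K0`-rational functions**: a
  function with `q`-expansion coefficients in `K0` which lies in `𝔪_A·O_∞` lies in `q·O_∞`
  (the value group of `O_∞` on `K0·F_{Mq}` is `v(q)^ℤ`);
* `dvd_of_fixed_small` : the same for `O`, for `I`-fixed functions;
* `le_span_fixedFun` : an `I`-stable finite-dimensional subspace is spanned by its `I`-fixed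
  elements (semilinear descent);
* `exists_fixed_ortho_basis` : **every `I`-stable finite-dimensional `V ⊆ F` has an
  `O`-orthonormal basis consisting of `I`-fixed functions**;
* `galois_sum`, `sum_fixed_iff_coeff`, `sum_mem_OPair_iff`, `dvd_sum_iff_coeff` : in such a basis
  the inertia action, integrality and divisibility by constants are read off on the coefficients.
  Hence for every intermediate field `K0 ⊆ K'' ⊆ ℚ̄` (ramified or not) the `K''`-rational points
  of the lattice `V ∩ O` are `⊕ (A ∩ K'')·bᵢ`.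
-/

set_option autoImplicit false
set_option linter.unusedSectionVars false

namespace Fermat.Agent.BAD.LatFixedInst

open HahnSeries ModularCurve AlgebraicCurve Fermat.Agent.Lib.Red Fermat.Agent.BAD.TwoVal
open Fermat.Agent.ESJ.Dict.Bc Fermat.Agent.Lib.Red.Deform Fermat.Agent.Lib.Red.CoordLat
open Fermat.Agent.BAD.LatFixed

local notation "Qb" => AlgebraicClosure ℚ
local notation "GQ" => (AlgebraicClosure ℚ ≃ₐ[ℚ] AlgebraicClosure ℚ)
local notation "K₀" => Fermat.Agent.CAR.K0.inertiaField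
local notation "W₀" => Fermat.Agent.CAR.K0.W0
local notation "inclW₀" => Fermat.Agent.CAR.K0.inclW0

noncomputable section

variable {q : ℕ} {A : ValuationSubring Qb} {k : Type} [Field k] {π : A →+* k} {M : ℕ}
  [NeZero M] [NeZero q]
  {W : laurentBaseChange Qb (modularFunctionFieldFull (M * q)) ≃ₐ[Qb]
    laurentBaseChange Qb (modularFunctionFieldFull (M * q))}

/-! ### The base `(K0, W0)` -/

/-- `BadSetup` descends from `(ℚ̄, A, π)` to `(K0, W0, π ∘ incl)`. -/
theorem badSetup_K0 (hq : q.Prime) (hA : A.LiesOverPrime q) (h : BadSetup A π M q) :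
    BadSetup (W₀ A) (π.comp (inclW₀ A)) M q := by
  refine ⟨fun a ha => ?_, Fermat.Agent.CAR.K0.hrank_W0 hq hA, hq, h.hℓk, h.hMk⟩
  rw [RingHom.comp_apply]
  refine h.hπ _ (fun hu => ha ?_)
  rw [Fermat.Agent.CAR.K0.isUnit_W0_iff]
  exact (A.valuation_eq_one_iff (inclW₀ A a)).1 hu

/-- The Gauss ring over `K0` maps to the Gauss ring over `ℚ̄`. -/
theorem bcK_mem_OInf (h : BadSetup A π M q) (h₀ : BadSetup (W₀ A) (π.comp (inclW₀ A)) M q)
    {f₀ : laurentBaseChange (K₀ A) (modularFunctionFieldFull (M * q))} (hf₀ : f₀ ∈ OInf h₀) :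
    bcK (algebraMap (K₀ A) Qb) (modularFunctionFieldFull (M * q)) f₀ ∈ OInf h :=
  Fermat.Agent.Padic.coeffMap_mem_gaussRing_bc (algebraMap (K₀ A) Qb) (W₀ A) A
    (π.comp (inclW₀ A)) π (RingHom.id k) (inclW₀ A) (fun _ => rfl) (fun _ => rfl) hf₀

/-- **The Gauss valuation is unramified on `K0`-rational functions.** -/
theorem dvd_inf_of_coeff_mem (hq : q.Prime) (hA : A.LiesOverPrime q) (h : BadSetup A π M q)
    {f : laurentBaseChange Qb (modularFunctionFieldFull (M * q))}
    (hf : ∀ n : ℤ, (f : LaurentSeries Qb).coeff n ∈ K₀ A)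
    {a : Qb} (ha : A.valuation a < 1)
    {g : laurentBaseChange Qb (modularFunctionFieldFull (M * q))} (hg : g ∈ OInf h)
    (hfg : f = algebraMap Qb _ a * g) :
    ∃ g' ∈ OInf h, f = algebraMap Qb _ (q : Qb) * g' := by
  by_cases hf0 : f = 0
  · exact ⟨0, (OInf h).zero_mem, by rw [hf0, mul_zero]⟩
  have h₀ := badSetup_K0 hq hA h
  obtain ⟨f₀, hf₀⟩ := mem_range_bcK (algebraMap (K₀ A) Qb) (modularFunctionFieldFull (M * q)) f
    (fun n => ⟨⟨_, hf n⟩, rfl⟩)
  have hf₀0 : f₀ ≠ 0 := fun h0 => hf0 (by rw [← hf₀, h0, map_zero])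
  obtain ⟨a₀, ha₀, hm, hne⟩ := exists_scaling_OInf h₀ f₀ hf₀0
  have hinv := inv_mem_OInf h₀ _ hm hne
  have hu : algebraMap Qb (laurentBaseChange Qb (modularFunctionFieldFull (M * q))) (a₀ : Qb) * f
      ∈ OInf h := by
    have := bcK_mem_OInf h h₀ hm
    rwa [map_mul, bcK_algebraMap, hf₀] at this
  have hui : (algebraMap Qb (laurentBaseChange Qb (modularFunctionFieldFull (M * q))) (a₀ : Qb)
      * f)⁻¹ ∈ OInf h := by
    have := bcK_mem_OInf h h₀ hinv
    rwa [map_inv₀, map_mul, bcK_algebraMap, hf₀] at this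
  have ha0 : a ≠ 0 := by
    rintro rfl
    exact hf0 (by rw [hfg, map_zero, zero_mul])
  have ha₀' : (a₀ : Qb) ≠ 0 := fun h0 => ha₀ (Subtype.ext h0)
  have hg0 : g ≠ 0 := by
    rintro rfl
    exact hf0 (by rw [hfg, mul_zero])
  have hAa : algebraMap Qb (laurentBaseChange Qb (modularFunctionFieldFull (M * q))) a ≠ 0 :=
    (map_ne_zero _).2 ha0
  have hAa₀ : algebraMap Qb (laurentBaseChange Qb (modularFunctionFieldFull (M * q)))
      (a₀ : Qb) ≠ 0 := (map_ne_zero _).2 ha₀'
  have h1 : algebraMap Qb (laurentBaseChange Qb (modularFunctionFieldFull (M * q)))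
      ((a₀ : Qb) * a)⁻¹ ∈ OInf h := by
    have e : algebraMap Qb (laurentBaseChange Qb (modularFunctionFieldFull (M * q)))
        ((a₀ : Qb) * a)⁻¹ = (algebraMap Qb _ (a₀ : Qb) * f)⁻¹ * g := by
      rw [hfg, map_inv₀, map_mul, ← mul_assoc, mul_inv _ g, mul_assoc, inv_mul_cancel₀ hg0,
        mul_one]
    rw [e]
    exact (OInf h).mul_mem _ _ hui hg
  have h2 : ((a₀ : Qb) * a)⁻¹ ∈ A := (algebraMap_mem_OInf_iff h _).1 h1
  have hva : 0 < A.valuation a := zero_lt_iff.2 ((Valuation.ne_zero_iff _).2 ha0)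
  have h3 : A.valuation (a₀ : Qb)⁻¹ ≤ A.valuation a := by
    have h4 := (A.valuation_le_one_iff _).2 h2
    rw [mul_inv, map_mul, map_inv₀ _ a, ← div_eq_mul_inv, div_le_one₀ hva] at h4
    exact h4
  have h5 : A.valuation (a₀ : Qb)⁻¹ ≤ A.valuation (q : Qb) :=
    Fermat.Agent.CAR.K0.valuation_le_of_mem_inertiaField hq A hA (inv_mem a₀.2)
      (lt_of_le_of_lt h3 ha)
  have hq0 : (q : Qb) ≠ 0 := Nat.cast_ne_zero.2 hq.ne_zero
  have hvq : 0 < A.valuation (q : Qb) := zero_lt_iff.2 ((Valuation.ne_zero_iff _).2 hq0)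
  have h6 : (a₀ : Qb)⁻¹ / (q : Qb) ∈ A := by
    rw [← A.valuation_le_one_iff, map_div₀, div_le_one₀ hvq]
    exact h5
  refine ⟨algebraMap Qb _ ((a₀ : Qb)⁻¹ / (q : Qb)) * (algebraMap Qb _ (a₀ : Qb) * f),
    (OInf h).mul_mem _ _ ((algebraMap_mem_OInf_iff h _).2 h6) hu, ?_⟩
  rw [← mul_assoc, ← mul_assoc, ← map_mul, ← map_mul]
  have e : (q : Qb) * ((a₀ : Qb)⁻¹ / (q : Qb)) * (a₀ : Qb) = 1 := by
    field_simp
  rw [e, map_one, one_mul]

/-! ### Inertia-fixed functions -/

/-- The functions of level `N` fixed by the inertia group of `A`. -/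
def fixedFun (A : ValuationSubring Qb) (N : ℕ) :
    AddSubgroup (laurentBaseChange Qb (modularFunctionFieldFull N)) where
  carrier := {f | ∀ σ ∈ A.inertiaSubgroupIn ℚ,
    arithmeticGalois (modularFunctionFieldFull N) σ • f = f}
  add_mem' := fun hf hg σ hσ => by rw [smul_add, hf σ hσ, hg σ hσ]
  zero_mem' := fun σ _ => smul_zero _
  neg_mem' := fun hf σ hσ => by rw [smul_neg, hf σ hσ]

theorem mem_fixedFun {N : ℕ} {f : laurentBaseChange Qb (modularFunctionFieldFull N)} :
    f ∈ fixedFun A N ↔ ∀ σ ∈ A.inertiaSubgroupIn ℚ,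
      arithmeticGalois (modularFunctionFieldFull N) σ • f = f := Iff.rfl

/-- The `q`-expansion coefficients of an inertia-fixed function lie in `K0`. -/
theorem coeff_mem_of_mem_fixedFun {N : ℕ}
    {f : laurentBaseChange Qb (modularFunctionFieldFull N)} (hf : f ∈ fixedFun A N) (n : ℤ) :
    (f : LaurentSeries Qb).coeff n ∈ K₀ A := by
  refine (Fermat.Agent.CAR.K0.mem_inertiaField_iff A _).2 (fun σ hσ => ?_)
  have h1 := congrArg
    (fun y : laurentBaseChange Qb (modularFunctionFieldFull N) => (y : LaurentSeries Qb).coeff n)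
    (hf σ hσ)
  simp only [coe_arithmeticGalois_smul, coeffMap_coeff] at h1
  exact h1

/-- A function with `q`-expansion coefficients in `K0` is inertia-fixed. -/
theorem mem_fixedFun_of_coeff_mem {N : ℕ}
    {f : laurentBaseChange Qb (modularFunctionFieldFull N)}
    (hf : ∀ n : ℤ, (f : LaurentSeries Qb).coeff n ∈ K₀ A) : f ∈ fixedFun A N := by
  intro σ hσ
  apply Subtype.ext
  rw [coe_arithmeticGalois_smul]
  ext n
  rw [coeffMap_coeff]
  exact (Fermat.Agent.CAR.K0.mem_inertiaField_iff A _).1 (hf n) σ hσ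

theorem smul_mem_fixedFun {N : ℕ} {a : Qb} (ha : a ∈ K₀ A)
    {f : laurentBaseChange Qb (modularFunctionFieldFull N)} (hf : f ∈ fixedFun A N) :
    a • f ∈ fixedFun A N := by
  intro σ hσ
  rw [Fermat.Agent.Padic.arithmeticGalois_smul_const_smul, hf σ hσ,
    (Fermat.Agent.CAR.K0.mem_inertiaField_iff A a).1 ha σ hσ]

/-- The Atkin–Lehner involution preserves inertia-fixed functions. -/
theorem al_mem_fixedFun (h : BadSetup A π M q) (hW : IsAL M q W)
    {f : laurentBaseChange Qb (modularFunctionFieldFull (M * q))}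
    (hf : f ∈ fixedFun A (M * q)) : W f ∈ fixedFun A (M * q) := by
  intro σ hσ
  rw [← hW.galois_comm h.hℓ h.not_dvd σ f, hf σ hσ]

/-- **`O = O_∞ ∩ O_0` is unramified on inertia-fixed functions**: a small inertia-fixed function
is divisible by `q` in `O`. -/
theorem dvd_of_fixed_small (hq : q.Prime) (hA : A.LiesOverPrime q) (h : BadSetup A π M q)
    (hW : IsAL M q W) {f : laurentBaseChange Qb (modularFunctionFieldFull (M * q))}
    (hf : f ∈ fixedFun A (M * q)) (hsm : Small A (OPair h W) f) :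
    Dvd (OPair h W) (q : Qb) f := by
  obtain ⟨a, ha, g, hg, hfg⟩ := hsm
  rw [mem_OPair_iff] at hg
  obtain ⟨g₁, hg₁, e₁⟩ :=
    dvd_inf_of_coeff_mem hq hA h (coeff_mem_of_mem_fixedFun hf) ha hg.1 hfg
  have hWf : W f = algebraMap Qb _ a * W g := by rw [hfg, map_mul, W.commutes]
  obtain ⟨g₂, hg₂, e₂⟩ := dvd_inf_of_coeff_mem hq hA h
    (coeff_mem_of_mem_fixedFun (al_mem_fixedFun h hW hf)) ha ((mem_OZero_iff h g).1 hg.2) hWf
  have hq0 : algebraMap Qb (laurentBaseChange Qb (modularFunctionFieldFull (M * q)))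
      (q : Qb) ≠ 0 := (map_ne_zero _).2 (Nat.cast_ne_zero.2 hq.ne_zero)
  have hWg : W g₁ = g₂ := by
    have h1 : W f = algebraMap Qb _ (q : Qb) * W g₁ := by
      conv_lhs => rw [e₁]
      rw [map_mul, W.commutes]
    exact mul_left_cancel₀ hq0 (h1.symm.trans e₂)
  refine ⟨g₁, (mem_OPair_iff h _).2 ⟨hg₁, (mem_OZero_iff h g₁).2 ?_⟩, e₁⟩
  rw [hWg]
  exact hg₂

/-! ### Semilinear descent for the inertia group -/

/-- An inertia-stable finite-dimensional subspace is spanned by its inertia-fixed elements. -/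
theorem le_span_fixedFun (N : ℕ)
    (V : Submodule Qb (laurentBaseChange Qb (modularFunctionFieldFull N)))
    [FiniteDimensional Qb V]
    (hV : ∀ σ ∈ A.inertiaSubgroupIn ℚ, ∀ f ∈ V,
      arithmeticGalois (modularFunctionFieldFull N) σ • f ∈ V) :
    V ≤ Submodule.span Qb {f | f ∈ V ∧ f ∈ fixedFun A N} := by
  classical
  let c : ↥(laurentBaseChange Qb (modularFunctionFieldFull N)) →ₗ[Qb] (ℤ → Qb) :=
    { toFun := fun f => fun i => (f : LaurentSeries Qb).coeff i
      map_add' := fun f g => by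
        funext i
        show ((f + g : ↥(laurentBaseChange Qb (modularFunctionFieldFull N))) :
          LaurentSeries Qb).coeff i = _
        rw [AddMemClass.coe_add, HahnSeries.coeff_add]
        rfl
      map_smul' := fun a f => by
        funext i
        show ((a • f : ↥(laurentBaseChange Qb (modularFunctionFieldFull N))) :
          LaurentSeries Qb).coeff i = a * (f : LaurentSeries Qb).coeff i
        have h1 : ((a • f : ↥(laurentBaseChange Qb (modularFunctionFieldFull N))) :
            LaurentSeries Qb) = HahnSeries.C a * (f : LaurentSeries Qb) := by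
          rw [Algebra.smul_def, Fermat.Agent.Lib.Red.C_eq_algebraMap]
          rfl
        rw [h1, Fermat.Agent.Lib.Descent.coeff_C_mul] }
  have hc : ∀ f i, c f i = (f : LaurentSeries Qb).coeff i := fun f i => rfl
  have hcinj : Function.Injective c := by
    intro f g hfg
    apply Subtype.ext
    ext i
    exact congrFun hfg i
  set W' : Submodule Qb (ℤ → Qb) := V.map c with hW'
  have : FiniteDimensional Qb W' := by
    rw [hW']
    infer_instance
  let Φ : Set (Qb →+* Qb) := (fun σ : GQ => (σ : Qb →+* Qb)) '' (A.inertiaSubgroupIn ℚ : Set GQ)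
  have hΦ : ∀ φ ∈ Φ, ∀ x ∈ W', (fun i => φ (x i)) ∈ W' := by
    rintro _ ⟨σ, hσ, rfl⟩ x ⟨f, hf, rfl⟩
    refine ⟨arithmeticGalois (modularFunctionFieldFull N) σ • f, hV σ hσ f hf, ?_⟩
    funext i
    rw [hc, coe_arithmeticGalois_smul, coeffMap_coeff]
    rfl
  have h1 := Fermat.Agent.Lib.Descent.le_span_fixed W' Φ hΦ
  intro f hf
  have h2 : c f ∈ Submodule.span Qb {x | x ∈ W' ∧ ∀ φ ∈ Φ, ∀ i, φ (x i) = x i} :=
    h1 ⟨f, hf, rfl⟩
  have h3 : Submodule.span Qb {x | x ∈ W' ∧ ∀ φ ∈ Φ, ∀ i, φ (x i) = x i} ≤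
      (Submodule.span Qb {f | f ∈ V ∧ f ∈ fixedFun A N}).map c := by
    rw [Submodule.span_le]
    rintro x ⟨⟨g, hg, rfl⟩, hfix⟩
    refine ⟨g, Submodule.subset_span ⟨hg, fun σ hσ => ?_⟩, rfl⟩
    apply Subtype.ext
    rw [coe_arithmeticGalois_smul]
    ext i
    rw [coeffMap_coeff]
    exact hfix _ ⟨σ, hσ, rfl⟩ i
  obtain ⟨g, hg, hgf⟩ := h3 h2
  rw [← hcinj hgf]
  exact hg

/-! ### The main theorem -/

/-- **Inertia-fixed orthonormal bases.**  Every finite-dimensional subspace `V` of the bad-level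
function field which is stable under the inertia group `I` of `A` has an `O`-orthonormal basis
consisting of `I`-fixed functions. -/
theorem exists_fixed_ortho_basis (hq : q.Prime) (hA : A.LiesOverPrime q)
    (h : BadSetup A π M q) (hsurj : Function.Surjective π) (hW : IsAL M q W)
    (V : Submodule Qb (laurentBaseChange Qb (modularFunctionFieldFull (M * q))))
    [FiniteDimensional Qb V]
    (hV : ∀ σ ∈ A.inertiaSubgroupIn ℚ, ∀ f ∈ V,
      arithmeticGalois (modularFunctionFieldFull (M * q)) σ • f ∈ V) :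
    ∃ (n : ℕ) (b : Fin n → laurentBaseChange Qb (modularFunctionFieldFull (M * q))),
      (∀ i, ∀ σ ∈ A.inertiaSubgroupIn ℚ,
        arithmeticGalois (modularFunctionFieldFull (M * q)) σ • b i = b i) ∧
      LinearIndependent Qb b ∧ Submodule.span Qb (Set.range b) = V ∧
      (∀ i, b i ∈ OPair h W) ∧
      ∀ c : Fin n → Qb, ∑ i, c i • b i ∈ OPair h W → ∀ i, c i ∈ A := by
  have hvq : A.valuation (q : Qb) < 1 := A.mem_nonunits_iff.mp hA
  have hq0 : (q : Qb) ≠ 0 := Nat.cast_ne_zero.2 hq.ne_zero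
  have harch : ∀ c : Qb, ∃ n : ℕ, (q : Qb) ^ n * c ∈ A := by
    intro c
    by_cases hc : c = 0
    · exact ⟨0, by rw [hc, mul_zero]; exact A.zero_mem⟩
    obtain ⟨n, hn⟩ := Fermat.Agent.PT.Kummer.exists_pow_valuation_lt hq hA (inv_ne_zero hc)
    refine ⟨n, ?_⟩
    have hvc : 0 < A.valuation c := zero_lt_iff.2 ((Valuation.ne_zero_iff _).2 hc)
    rw [← A.valuation_le_one_iff, map_mul]
    rw [map_inv₀, ← one_div, lt_div_iff₀ hvc] at hn
    exact hn.le
  exact exists_ortho_basis_mem (OPair_hOA h) (K₀ A).toSubfield (fixedFun A (M * q))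
    (fun a ha f hf => smul_mem_fixedFun ha hf) (q : Qb) (natCast_mem (K₀ A) q) hvq hq0
    (fun a ha => by
      obtain ⟨w, hw, -, hlt⟩ :=
        Fermat.Agent.CAR.K0.exists_mem_inertiaField_valuation_sub_lt_one hq A hA ha
      exact ⟨w, hw, hlt⟩)
    (fun f hf hsm => dvd_of_fixed_small hq hA h hW hf hsm) harch V
    (Fermat.Agent.BAD.LatInst.hasOrtho_bad h hW hsurj V) (le_span_fixedFun (M * q) V hV)

/-- **Inertia-fixed orthonormal bases of Riemann–Roch spaces** of inertia-invariant divisors. -/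
theorem exists_fixed_ortho_basis_rr (hq : q.Prime) (hA : A.LiesOverPrime q)
    (h : BadSetup A π M q) (hsurj : Function.Surjective π) (hW : IsAL M q W)
    (B : Divisor Qb (laurentBaseChange Qb (modularFunctionFieldFull (M * q))))
    (hB : ∀ σ ∈ A.inertiaSubgroupIn ℚ,
      arithmeticGalois (modularFunctionFieldFull (M * q)) σ • B = B) :
    ∃ (n : ℕ) (b : Fin n → laurentBaseChange Qb (modularFunctionFieldFull (M * q))),
      (∀ i, ∀ σ ∈ A.inertiaSubgroupIn ℚ,
        arithmeticGalois (modularFunctionFieldFull (M * q)) σ • b i = b i) ∧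
      LinearIndependent Qb b ∧ Submodule.span Qb (Set.range b) = riemannRochSpace B ∧
      (∀ i, b i ∈ OPair h W) ∧
      ∀ c : Fin n → Qb, ∑ i, c i • b i ∈ OPair h W → ∀ i, c i ∈ A := by
  have hfin : FiniteDimensional Qb (riemannRochSpace B) :=
    (Fermat.Agent.Lib.FF.isFF1_xL Qb (M * q)).finite_L B
  refine exists_fixed_ortho_basis hq hA h hsurj hW (riemannRochSpace B) (fun σ hσ f hf => ?_)
  refine Fermat.Agent.Padic.semilinear_smul_mem_rr _ (fun v => ?_) hf
  rw [← SemilinearAut.divisor_smul_apply, hB σ hσ]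

/-! ### Reading off the inertia action on coefficients -/

/-- The inertia group acts on combinations of inertia-fixed functions through the
coefficients. -/
theorem galois_sum {N n : ℕ} {b : Fin n → laurentBaseChange Qb (modularFunctionFieldFull N)}
    (hb : ∀ i, ∀ σ ∈ A.inertiaSubgroupIn ℚ,
      arithmeticGalois (modularFunctionFieldFull N) σ • b i = b i)
    {σ : GQ} (hσ : σ ∈ A.inertiaSubgroupIn ℚ) (c : Fin n → Qb) :
    arithmeticGalois (modularFunctionFieldFull N) σ • ∑ i, c i • b i = ∑ i, σ (c i) • b i := by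
  rw [Finset.smul_sum]
  refine Finset.sum_congr rfl (fun i _ => ?_)
  rw [Fermat.Agent.Padic.arithmeticGalois_smul_const_smul, hb i σ hσ]

/-- A combination of linearly independent inertia-fixed functions is fixed by `σ ∈ I` iff its
coefficients are: the points of the lattice rational over any intermediate field `K''` are the
combinations with coefficients in `K''`. -/
theorem sum_fixed_iff_coeff {N n : ℕ}
    {b : Fin n → laurentBaseChange Qb (modularFunctionFieldFull N)}
    (hli : LinearIndependent Qb b)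
    (hb : ∀ i, ∀ σ ∈ A.inertiaSubgroupIn ℚ,
      arithmeticGalois (modularFunctionFieldFull N) σ • b i = b i)
    {σ : GQ} (hσ : σ ∈ A.inertiaSubgroupIn ℚ) (c : Fin n → Qb) :
    arithmeticGalois (modularFunctionFieldFull N) σ • ∑ i, c i • b i = ∑ i, c i • b i ↔
      ∀ i, σ (c i) = c i := by
  rw [galois_sum hb hσ]
  constructor
  · intro h i
    have h1 : ∑ i, (σ (c i) - c i) • b i = 0 := by
      have : ∑ i, (σ (c i) - c i) • b i = ∑ i, σ (c i) • b i - ∑ i, c i • b i := by
        rw [← Finset.sum_sub_distrib]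
        exact Finset.sum_congr rfl (fun i _ => sub_smul _ _ _)
      rw [this, h, sub_self]
    exact sub_eq_zero.1 (Fintype.linearIndependent_iff.1 hli _ h1 i)
  · intro h
    exact Finset.sum_congr rfl (fun i _ => by rw [h i])

/-- Integrality in `O` is read off on the coefficients of an orthonormal family. -/
theorem sum_mem_OPair_iff (h : BadSetup A π M q) {n : ℕ}
    {b : Fin n → laurentBaseChange Qb (modularFunctionFieldFull (M * q))}
    (hbO : ∀ i, b i ∈ OPair h W)
    (hb : ∀ c : Fin n → Qb, ∑ i, c i • b i ∈ OPair h W → ∀ i, c i ∈ A) (c : Fin n → Qb) :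
    ∑ i, c i • b i ∈ OPair h W ↔ ∀ i, c i ∈ A :=
  OrthoFam.sum_mem_iff ⟨hbO, hb⟩ (OPair_hOA h) c

/-- Divisibility by a nonzero constant in `O` (the depth) is read off on the coefficients of an
orthonormal family. -/
theorem dvd_sum_iff_coeff (h : BadSetup A π M q) {n : ℕ}
    {b : Fin n → laurentBaseChange Qb (modularFunctionFieldFull (M * q))}
    (hbO : ∀ i, b i ∈ OPair h W)
    (hb : ∀ c : Fin n → Qb, ∑ i, c i • b i ∈ OPair h W → ∀ i, c i ∈ A) {a : Qb} (ha : a ≠ 0)
    (c : Fin n → Qb) :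
    Dvd (OPair h W) a (∑ i, c i • b i) ↔ ∀ i, a⁻¹ * c i ∈ A :=
  OrthoFam.dvd_sum_iff ⟨hbO, hb⟩ (OPair_hOA h) ha c

end

end Fermat.Agent.BAD.LatFixedInst
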