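import Mathlib
import Fermat.Agent.BAD.LatFixedInst
import Fermat.Agent.BAD.TwoVal.Semilocal

/-!
# BAD: consequences of the inertia-fixed orthonormal bases

Setting of `BAD/LatFixedInst.lean` (`A` over `q`, `I` its inertia group, `O = O_∞ ∩ O_0`).

* `exists_fixed_lift` : every element of `V ∩ O` (`V` an `I`-stable finite-dimensional subspace)
  is congruent modulo `𝔪_A·O` to an `I`-FIXED element of `V ∩ O`: every element of the reduced
  lattice `red(V ∩ O)` has an inertia-fixed lift (`exists_fixed_lift_redPair`, and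
  `exists_fixed_lift_rr` for Riemann–Roch spaces of `I`-invariant divisors);
* `exists_coeff_of_fixed` : the points of the lattice `V ∩ O` fixed by a subset `H ⊆ I` are the
  combinations of the `I`-fixed orthonormal basis with `H`-fixed coefficients in `A`;
* `linearIndependent_redPair` : the reductions of an orthonormal family are linearly independent
  over the residue field; `redPair_sum` : reduction of a combination.
-/

set_option autoImplicit false
set_option linter.unusedSectionVars false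

namespace Fermat.Agent.BAD.LatFixedInst

open HahnSeries ModularCurve AlgebraicCurve Fermat.Agent.Lib.Red Fermat.Agent.BAD.TwoVal
open Fermat.Agent.Lib.Red.Deform Fermat.Agent.Lib.Red.CoordLat Fermat.Agent.BAD.LatFixed

local notation "Qb" => AlgebraicClosure ℚ
local notation "GQ" => (AlgebraicClosure ℚ ≃ₐ[ℚ] AlgebraicClosure ℚ)

attribute [local instance 100000] SubalgebraClass.toAlgebra

noncomputable section

variable {q : ℕ} {A : ValuationSubring Qb} {k : Type} [Field k] {π : A →+* k} {M : ℕ}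
  [NeZero M] [NeZero q]
  {W : laurentBaseChange Qb (modularFunctionFieldFull (M * q)) ≃ₐ[Qb]
    laurentBaseChange Qb (modularFunctionFieldFull (M * q))}

/-- **Inertia-fixed lifts.**  Every element of `V ∩ O` is congruent modulo `𝔪_A·O` to an
inertia-fixed element of `V ∩ O`. -/
theorem exists_fixed_lift (hq : q.Prime) (hA : A.LiesOverPrime q)
    (h : BadSetup A π M q) (hsurj : Function.Surjective π) (hW : IsAL M q W)
    (V : Submodule Qb (laurentBaseChange Qb (modularFunctionFieldFull (M * q))))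
    [FiniteDimensional Qb V]
    (hV : ∀ σ ∈ A.inertiaSubgroupIn ℚ, ∀ f ∈ V,
      arithmeticGalois (L := Qb) (modularFunctionFieldFull (M * q)) σ • f ∈ V)
    {f : laurentBaseChange Qb (modularFunctionFieldFull (M * q))} (hfV : f ∈ V)
    (hfO : f ∈ OPair h W) :
    ∃ f' ∈ V, f' ∈ OPair h W ∧
      (∀ σ ∈ A.inertiaSubgroupIn ℚ,
        arithmeticGalois (L := Qb) (modularFunctionFieldFull (M * q)) σ • f' = f') ∧
      Small A (OPair h W) (f - f') := by
  classical
  obtain ⟨n, b, hbfix, -, hspan, hbO, hortho⟩ := exists_fixed_ortho_basis hq hA h hsurj hW V hV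
  rw [← hspan] at hfV
  obtain ⟨c, rfl⟩ := (Submodule.mem_span_range_iff_exists_fun Qb).1 hfV
  have hcA := hortho c hfO
  choose w hw hwA hlt using fun i =>
    Fermat.Agent.CAR.K0.exists_mem_inertiaField_valuation_sub_lt_one hq A hA (hcA i)
  refine ⟨∑ i, w i • b i, ?_, (sum_mem_OPair_iff h hbO hortho w).2 hwA, ?_, ?_⟩
  · rw [← hspan]
    exact Submodule.sum_mem _ (fun i _ => Submodule.smul_mem _ _ (Submodule.subset_span ⟨i, rfl⟩))
  · exact (fixedFun A (M * q)).sum_mem (fun i _ => smul_mem_fixedFun (hw i) (hbfix i))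
  · have e : ∑ i, c i • b i - ∑ i, w i • b i = ∑ i, (c i - w i) • b i := by
      rw [← Finset.sum_sub_distrib]
      exact Finset.sum_congr rfl (fun i _ => (sub_smul _ _ _).symm)
    rw [e]
    refine Finset.sum_induction _ (Small A (OPair h W))
      (fun _ _ h1 h2 => h1.add (OPair_hOA h) h2) small_zero (fun i _ => ?_)
    exact ⟨_, hlt i, b i, hbO i, by rw [Algebra.smul_def]⟩

/-- Inertia-fixed lifts, in terms of the residue map of the pair. -/
theorem exists_fixed_lift_redPair (hq : q.Prime) (hA : A.LiesOverPrime q)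
    (h : BadSetup A π M q) (hsurj : Function.Surjective π) (hW : IsAL M q W)
    (V : Submodule Qb (laurentBaseChange Qb (modularFunctionFieldFull (M * q))))
    [FiniteDimensional Qb V]
    (hV : ∀ σ ∈ A.inertiaSubgroupIn ℚ, ∀ f ∈ V,
      arithmeticGalois (L := Qb) (modularFunctionFieldFull (M * q)) σ • f ∈ V)
    {f : laurentBaseChange Qb (modularFunctionFieldFull (M * q))} (hfV : f ∈ V)
    (hfO : f ∈ OPair h W) :
    ∃ (f' : laurentBaseChange Qb (modularFunctionFieldFull (M * q))) (hf'O : f' ∈ OPair h W),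
      f' ∈ V ∧
      (∀ σ ∈ A.inertiaSubgroupIn ℚ,
        arithmeticGalois (L := Qb) (modularFunctionFieldFull (M * q)) σ • f' = f') ∧
      redPair h W ⟨f', hf'O⟩ = redPair h W ⟨f, hfO⟩ := by
  obtain ⟨f', hf'V, hf'O, hfix, hsm⟩ := exists_fixed_lift hq hA h hsurj hW V hV hfV hfO
  refine ⟨f', hf'O, hf'V, hfix, ?_⟩
  have h1 : redPair h W (⟨f, hfO⟩ - ⟨f', hf'O⟩) = 0 := (redPair_eq_zero_iff h _).2 hsm
  rw [map_sub, sub_eq_zero] at h1
  exact h1.symm

/-- Inertia-fixed lifts in Riemann–Roch spaces of inertia-invariant divisors. -/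
theorem exists_fixed_lift_rr (hq : q.Prime) (hA : A.LiesOverPrime q)
    (h : BadSetup A π M q) (hsurj : Function.Surjective π) (hW : IsAL M q W)
    (B : Divisor Qb (laurentBaseChange Qb (modularFunctionFieldFull (M * q))))
    (hB : ∀ σ ∈ A.inertiaSubgroupIn ℚ,
      arithmeticGalois (L := Qb) (modularFunctionFieldFull (M * q)) σ • B = B)
    {f : laurentBaseChange Qb (modularFunctionFieldFull (M * q))}
    (hfV : f ∈ riemannRochSpace B) (hfO : f ∈ OPair h W) :
    ∃ (f' : laurentBaseChange Qb (modularFunctionFieldFull (M * q))) (hf'O : f' ∈ OPair h W),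
      f' ∈ riemannRochSpace B ∧
      (∀ σ ∈ A.inertiaSubgroupIn ℚ,
        arithmeticGalois (L := Qb) (modularFunctionFieldFull (M * q)) σ • f' = f') ∧
      redPair h W ⟨f', hf'O⟩ = redPair h W ⟨f, hfO⟩ := by
  have hfin : FiniteDimensional Qb (riemannRochSpace B) :=
    (Fermat.Agent.Lib.FF.isFF1_xL Qb (M * q)).finite_L B
  refine exists_fixed_lift_redPair hq hA h hsurj hW (riemannRochSpace B)
    (fun σ hσ f hf => ?_) hfV hfO
  refine Fermat.Agent.Padic.semilinear_smul_mem_rr _ (fun v => ?_) hf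
  rw [← SemilinearAut.divisor_smul_apply, hB σ hσ]

/-- **Rational points of the lattice.**  In an inertia-fixed orthonormal basis `b` of `V`, the
elements of `V ∩ O` fixed by a subset `H` of the inertia group are exactly the combinations
`∑ cᵢ bᵢ` with `cᵢ ∈ A` fixed by `H`. -/
theorem exists_coeff_of_fixed (h : BadSetup A π M q) {n : ℕ}
    {b : Fin n → laurentBaseChange Qb (modularFunctionFieldFull (M * q))}
    (hbfix : ∀ i, ∀ σ ∈ A.inertiaSubgroupIn ℚ,
      arithmeticGalois (L := Qb) (modularFunctionFieldFull (M * q)) σ • b i = b i)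
    (hli : LinearIndependent Qb b)
    (hb : ∀ c : Fin n → Qb, ∑ i, c i • b i ∈ OPair h W → ∀ i, c i ∈ A)
    (H : Set GQ) (hH : ∀ σ ∈ H, σ ∈ A.inertiaSubgroupIn ℚ)
    {f : laurentBaseChange Qb (modularFunctionFieldFull (M * q))}
    (hfV : f ∈ Submodule.span Qb (Set.range b)) (hfO : f ∈ OPair h W)
    (hfH : ∀ σ ∈ H, arithmeticGalois (L := Qb) (modularFunctionFieldFull (M * q)) σ • f = f) :
    ∃ c : Fin n → Qb, (∀ i, c i ∈ A) ∧ (∀ i, ∀ σ ∈ H, σ (c i) = c i) ∧ f = ∑ i, c i • b i := by
  obtain ⟨c, rfl⟩ := (Submodule.mem_span_range_iff_exists_fun Qb).1 hfV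
  exact ⟨c, hb c hfO, fun i σ hσ => (sum_fixed_iff_coeff hli hbfix (hH σ hσ) c).1 (hfH σ hσ) i,
    rfl⟩

/-- The reduction of a combination with integral coefficients. -/
theorem redPair_sum (h : BadSetup A π M q) {n : ℕ}
    {b : Fin n → laurentBaseChange Qb (modularFunctionFieldFull (M * q))}
    (hbO : ∀ i, b i ∈ OPair h W) (c : Fin n → A)
    (hsum : ∑ i, (c i : Qb) • b i ∈ OPair h W) :
    redPair h W ⟨∑ i, (c i : Qb) • b i, hsum⟩ = ∑ i, π (c i) • redPair h W ⟨b i, hbO i⟩ := by
  have hc : ∀ i, algebraMap Qb (laurentBaseChange Qb (modularFunctionFieldFull (M * q)))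
      (c i : Qb) ∈ OPair h W := fun i => (OPair_hOA h _).2 (c i).2
  have e : (⟨∑ i, (c i : Qb) • b i, hsum⟩ : OPair h W) =
      ∑ i, (⟨_, hc i⟩ : OPair h W) * ⟨b i, hbO i⟩ := by
    apply (OPair h W).subtype_injective
    rw [map_sum]
    show ∑ i, (c i : Qb) • b i =
      ∑ i, (OPair h W).subtype ((⟨_, hc i⟩ : OPair h W) * ⟨b i, hbO i⟩)
    refine Finset.sum_congr rfl (fun i _ => ?_)
    show (c i : Qb) • b i = algebraMap Qb _ (c i : Qb) * b i
    exact Algebra.smul_def _ _
  rw [e, map_sum]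
  refine Finset.sum_congr rfl (fun i _ => ?_)
  rw [map_mul, redPair_algebraMap h (c i) (hc i)]
  ext
  · simp [Algebra.smul_def]
  · simp [Algebra.smul_def]

/-- **The reductions of an orthonormal family are linearly independent** over the residue
field. -/
theorem linearIndependent_redPair (h : BadSetup A π M q) (hsurj : Function.Surjective π)
    {n : ℕ} {b : Fin n → laurentBaseChange Qb (modularFunctionFieldFull (M * q))}
    (hbO : ∀ i, b i ∈ OPair h W)
    (hb : ∀ c : Fin n → Qb, ∑ i, c i • b i ∈ OPair h W → ∀ i, c i ∈ A) :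
    LinearIndependent k (fun i => redPair h W ⟨b i, hbO i⟩) := by
  rw [Fintype.linearIndependent_iff]
  intro g hg i
  choose c hc using fun i => hsurj (g i)
  have hsum : ∑ i, (c i : Qb) • b i ∈ OPair h W :=
    (sum_mem_OPair_iff h hbO hb _).2 (fun i => (c i).2)
  have h1 : redPair h W ⟨_, hsum⟩ = 0 := by
    rw [redPair_sum h hbO c hsum, ← hg]
    exact Finset.sum_congr rfl (fun i _ => by rw [hc i])
  obtain ⟨a, ha, hdvd⟩ := (redPair_eq_zero_iff h _).1 h1
  rw [← hc i]
  have hlt : A.valuation ((c i : A) : Qb) < 1 := by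
    by_cases ha0 : a = 0
    · obtain ⟨o, -, ho⟩ := hdvd
      rw [ha0, map_zero, zero_mul] at ho
      have hA' : ∃ x : Qb, x ∉ A := by
        by_contra hall
        push Not at hall
        have hq0 : ((q : ℕ) : Qb) ≠ 0 := Nat.cast_ne_zero.2 h.hℓ.ne_zero
        have h2 : ((q : ℕ) : Qb)⁻¹ ∈ A := hall _
        have h3 : π (⟨(q : Qb), hall _⟩ * ⟨((q : ℕ) : Qb)⁻¹, h2⟩) = 1 := by
          have : (⟨(q : Qb), hall _⟩ * ⟨((q : ℕ) : Qb)⁻¹, h2⟩ : A) = 1 :=
            Subtype.ext (mul_inv_cancel₀ hq0)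
          rw [this, map_one]
        have h4 : π (⟨(q : Qb), hall _⟩ : A) = 0 := by
          have : (⟨(q : Qb), hall _⟩ : A) = ((q : ℕ) : A) := Subtype.ext (by simp)
          rw [this, map_natCast, h.hℓk]
        rw [map_mul, h4, zero_mul] at h3
        exact zero_ne_one h3
      have hli : LinearIndependent Qb b :=
        OrthoFam.linearIndependent (A := A) (O := OPair h W) ⟨hbO, hb⟩ hA'
      rw [Fintype.linearIndependent_iff.1 hli _ ho i, map_zero]
      exact zero_lt_one
    · have h2 := (dvd_sum_iff_coeff h hbO hb ha0 _).1 hdvd i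
      have h3 : ((c i : A) : Qb) = a * (a⁻¹ * (c i : Qb)) := by
        rw [← mul_assoc, mul_inv_cancel₀ ha0, one_mul]
      rw [h3, map_mul]
      calc A.valuation a * A.valuation (a⁻¹ * (c i : Qb)) ≤ A.valuation a * 1 :=
            mul_le_mul' le_rfl ((A.valuation_le_one_iff _).2 h2)
        _ = A.valuation a := mul_one _
        _ < 1 := ha
  exact (h.pi_eq_zero_iff (c i)).2 hlt

end

end Fermat.Agent.BAD.LatFixedInst
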