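import Mathlib
import Fermat.Agent.BAD.HenselPlace
import Fermat.Agent.BAD.BasePtsInst
import Fermat.Agent.BAD.LatFixedLift

/-!
# BAD / S33 (RC-2): Hensel lifting of the smooth points of the nodal fibre of `X₀(Mq)`

Setting of `BadU` / `KerRed` / `BasePtsInst`: `A` a valuation subring of `ℚ̄` over `q`,
`π : A → k`, `h : BadSetup A π M q`, `O = OPair h W ⊆ F = F_{Mq}`, `redPair h W : O → κ × κ`,
a nodal datum `(ι, e₁, e₂, P₁, Z₁, P₂, Z₂, E1, E2)` as in `KerRed.NodalFibreFor`.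

* `exists_lift_fst` / `exists_lift_snd` : every point `Qt` of the first / second component of
  the special fibre, off the nodes and off `P_j`, `Z_j`, is the reduction (`BasePts.RedTo₁` /
  `RedTo₂`) of an inertia-fixed place `Q` of the generic fibre off `E1`, `E2`;
* `exists_lift_val_fst` / `exists_lift_val_snd` : the same with the full evaluation statement:
  every `y ∈ L(n₁ E1 + n₂ E2) ∩ O` has a value `a ∈ A` at `Q`, and `π a` is the value of the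
  reduction of `y` at `Qt`.
-/

set_option autoImplicit false

noncomputable section

namespace Fermat.Agent.BAD.HenselPlaceInst

open AlgebraicCurve ModularCurve WithZero Fermat.Agent.Lib.FF Fermat.Agent.Lib.Red.Deform
  Fermat.Agent.Lib.Red.CoordLat Fermat.Agent.BAD.NodalDiv Fermat.Agent.BAD.NodalRiemann
  Fermat.Agent.BAD.TwoVal Fermat.Agent.BAD.NodalAsm Fermat.Agent.BAD.BadU
  Fermat.Agent.BAD.BasePts Fermat.Agent.BAD.HenselPlace Fermat.Agent.Padic.S33.RC.NodalMul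

local notation "Qb" => AlgebraicClosure ℚ

variable {A : ValuationSubring Qb} {k : Type} [Field k] {π : A →+* k} {M q : ℕ} [NeZero M]
  [NeZero q]

/-- The inertia group of `A`, acting on the function field of level `N`. -/
def inertiaSet (A : ValuationSubring Qb) (N : ℕ) :
    Set (SemilinearAut Qb (laurentBaseChange Qb (modularFunctionFieldFull N))) :=
  {g | ∃ σ ∈ A.inertiaSubgroupIn ℚ, arithmeticGalois (modularFunctionFieldFull N) σ = g}

/-- The elements of the inertia group are inertial for the pair `(O_∞ ∩ O_0, redPair)`. -/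
theorem inert_of_mem_inertia (h : BadSetup A π M q)
    {W : laurentBaseChange Qb (modularFunctionFieldFull (M * q)) ≃ₐ[Qb]
      laurentBaseChange Qb (modularFunctionFieldFull (M * q))} (hW : IsAL M q W)
    {σ : Qb ≃ₐ[ℚ] Qb} (hσ : σ ∈ A.inertiaSubgroupIn ℚ) :
    Inert A (OPair h W) (redPair h W) π
      (arithmeticGalois (modularFunctionFieldFull (M * q)) σ) := by
  have halg : Algebra.IsAlgebraic ℚ Qb := AlgebraicClosure.isAlgebraic ℚ
  obtain ⟨h1, h2, h3, h4, -⟩ := fixes_of_mem_inertia h hW hσ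
  obtain ⟨s, hs, hsπ⟩ := inertial_of_mem_inertia (π := π) h.hπ hσ
  refine ⟨fun a => (mem_iff_of_mem_inertia hσ a).symm, fun a ha => ?_, fun y hy => ?_,
    fun y hy => ?_⟩
  · rw [← hsπ a]
    congr 1
    exact Subtype.ext (hs a).symm
  · obtain ⟨hy1, hy2⟩ := (mem_OPair_iff h y).1 hy
    exact (mem_OPair_iff h _).2 ⟨h1 y hy1, h2 y hy2⟩
  · obtain ⟨y, hy0⟩ := y
    obtain ⟨hy1, hy2⟩ := (mem_OPair_iff h y).1 hy0
    have e1 := h3 y hy1 (h1 y hy1)
    have e2 := h4 y hy2 (h2 y hy2)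
    exact (redPair_mk h _ hy).trans ((congrArg₂ Prod.mk e1 e2).trans (redPair_mk h y hy0).symm)

section

variable [IsAlgClosed k] (hA : A.LiesOverPrime q) (hπ : Function.Surjective π)
  (h : BadSetup A π M q)
  (W : laurentBaseChange Qb (modularFunctionFieldFull (M * q)) ≃ₐ[Qb]
    laurentBaseChange Qb (modularFunctionFieldFull (M * q))) (hW : IsAL M q W)
  (E1 E2 : Divisor Qb (laurentBaseChange Qb (modularFunctionFieldFull (M * q))))
  {ι : Type} [Fintype ι]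
  (e₁ e₂ : ι → Place k (modularFunctionFieldFullC k M))
  (P₁ Z₁ P₂ Z₂ : Divisor k (modularFunctionFieldFullC k M))
  (hinj₂ : Function.Injective e₂)
  (hP₁ : ∀ i, P₁ (e₁ i) = 0) (hZ₁ : ∀ i, Z₁ (e₁ i) = 0)
  (hP₂ : ∀ i, P₂ (e₂ i) = 0) (hZ₂ : ∀ i, Z₂ (e₂ i) = 0)
  (hdegP₁ : 0 < Divisor.degree P₁) (hdegP₂ : 0 < Divisor.degree P₂)
  (hE1 : ∀ v, 0 ≤ E1 v) (hE2 : ∀ v, 0 ≤ E2 v)
  (hdegE1 : 0 < Divisor.degree E1) (hdegE2 : 0 < Divisor.degree E2)
  (hgalE : ∀ σ ∈ A.inertiaSubgroupIn ℚ,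
    arithmeticGalois (modularFunctionFieldFull (M * q)) σ • E1 = E1 ∧
    arithmeticGalois (modularFunctionFieldFull (M * q)) σ • E2 = E2)
  (hS2 : ∃ N₀ : ℕ, ∀ n₁ n₂ : ℕ, N₀ ≤ n₁ + n₂ →
    ∀ t : ↥(modularFunctionFieldFullC k M) × ↥(modularFunctionFieldFullC k M),
      (∃ y : OPair h W,
          (y : laurentBaseChange Qb (modularFunctionFieldFull (M * q))) ∈
            riemannRochSpace (n₁ • E1 + n₂ • E2) ∧ redPair h W y = t) ↔
        t ∈ gluedSpace e₁ e₂ (fun _ => (1 : k))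
          (n₁ • P₁ + n₂ • Z₁) (n₁ • P₂ + n₂ • Z₂))

include hE1 hE2 hS2 in
omit [IsAlgClosed k] [Fintype ι] in
/-- The divisors of the nodal datum on the special fibre are effective. -/
theorem nonneg_of_datum : 0 ≤ P₁ ∧ 0 ≤ Z₁ ∧ 0 ≤ P₂ ∧ 0 ≤ Z₂ := by
  obtain ⟨N₀, hN₀⟩ := hS2
  have key : ∀ n₁ n₂ : ℕ, N₀ ≤ n₁ + n₂ →
      (1 : ↥(modularFunctionFieldFullC k M) × ↥(modularFunctionFieldFullC k M)) ∈
        gluedSpace e₁ e₂ (fun _ => (1 : k)) (n₁ • P₁ + n₂ • Z₁) (n₁ • P₂ + n₂ • Z₂) := by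
    intro n₁ n₂ hn
    refine (hN₀ n₁ n₂ hn 1).1 ⟨1, ?_, map_one _⟩
    intro v
    rw [OneMemClass.coe_one, map_one, ← exp_zero, exp_le_exp, Finsupp.add_apply,
      Finsupp.smul_apply, Finsupp.smul_apply]
    exact add_nonneg (nsmul_nonneg (hE1 v) n₁) (nsmul_nonneg (hE2 v) n₂)
  have hpos : (0 : ℤ) < ((N₀ + 1 : ℕ) : ℤ) := by positivity
  have hP := key (N₀ + 1) 0 (by omega)
  have hZ := key 0 (N₀ + 1) (by omega)
  refine ⟨Finsupp.le_def.mpr fun v => ?_, Finsupp.le_def.mpr fun v => ?_,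
    Finsupp.le_def.mpr fun v => ?_, Finsupp.le_def.mpr fun v => ?_⟩
  · have h1 := hP.1 v
    rw [Prod.fst_one, map_one, ← exp_zero, exp_le_exp, Finsupp.add_apply, Finsupp.smul_apply,
      Finsupp.smul_apply, zero_smul, add_zero, nsmul_eq_mul] at h1
    rw [Finsupp.zero_apply]
    exact (mul_nonneg_iff_of_pos_left hpos).1 h1
  · have h1 := hZ.1 v
    rw [Prod.fst_one, map_one, ← exp_zero, exp_le_exp, Finsupp.add_apply, Finsupp.smul_apply,
      Finsupp.smul_apply, zero_smul, zero_add, nsmul_eq_mul] at h1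
    rw [Finsupp.zero_apply]
    exact (mul_nonneg_iff_of_pos_left hpos).1 h1
  · have h1 := hP.2.1 v
    rw [Prod.snd_one, map_one, ← exp_zero, exp_le_exp, Finsupp.add_apply, Finsupp.smul_apply,
      Finsupp.smul_apply, zero_smul, add_zero, nsmul_eq_mul] at h1
    rw [Finsupp.zero_apply]
    exact (mul_nonneg_iff_of_pos_left hpos).1 h1
  · have h1 := hZ.2.1 v
    rw [Prod.snd_one, map_one, ← exp_zero, exp_le_exp, Finsupp.add_apply, Finsupp.smul_apply,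
      Finsupp.smul_apply, zero_smul, zero_add, nsmul_eq_mul] at h1
    rw [Finsupp.zero_apply]
    exact (mul_nonneg_iff_of_pos_left hpos).1 h1

omit [NeZero M] [NeZero q] [IsAlgClosed k] in
theorem degree_nonneg_k {D : Divisor k (modularFunctionFieldFullC k M)} (hD : 0 ≤ D)
    {x : ↥(modularFunctionFieldFullC k M)} (hx : IsFF1 k (modularFunctionFieldFullC k M) x) :
    0 ≤ Divisor.degree D := by
  rw [hx.degree_eq_sum]
  exact Finset.sum_nonneg fun v _ => HenselPlace.apply_nonneg hD v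

include hA hπ hW hinj₂ hP₁ hZ₁ hP₂ hZ₂ hdegP₁ hdegP₂ hE1 hE2 hdegE1 hdegE2 hgalE hS2

/-- **Hensel lifting of a smooth point of the first component, with values.** -/
theorem exists_lift_val_fst (Qt : Place k (modularFunctionFieldFullC k M))
    (hQe : ∀ i, e₁ i ≠ Qt) (hQP : P₁ Qt = 0) (hQZ : Z₁ Qt = 0) :
    ∃ Q : Place Qb (laurentBaseChange Qb (modularFunctionFieldFull (M * q))),
      (∀ σ ∈ A.inertiaSubgroupIn ℚ,
        arithmeticGalois (modularFunctionFieldFull (M * q)) σ • Q = Q) ∧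
      E1 Q = 0 ∧ E2 Q = 0 ∧
      ∀ (n₁ n₂ : ℕ) (y : OPair h W),
        (y : laurentBaseChange Qb (modularFunctionFieldFull (M * q))) ∈
          riemannRochSpace (n₁ • E1 + n₂ • E2) →
        ∃ a : A, Cong Q (y : laurentBaseChange Qb (modularFunctionFieldFull (M * q))) (a : Qb) ∧
          Cong Qt (redPair h W y).1 (π a) := by
  obtain ⟨hP₁0, hZ₁0, hP₂0, hZ₂0⟩ := nonneg_of_datum h W E1 E2 e₁ e₂ P₁ Z₁ P₂ Z₂ hE1 hE2 hS2
  have hLat : LatAt h W := latAt hπ h W hW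
  have hconst : ∀ a : A, redPair h W ⟨algebraMap Qb
        ↥(laurentBaseChange Qb (modularFunctionFieldFull (M * q))) (a : Qb),
        (OPair_hOA h _).2 a.2⟩ = algebraMap k (↥(modularFunctionFieldFullC k M) ×
        ↥(modularFunctionFieldFullC k M)) (π a) := fun a => (redPair_algebraMap h a _).trans rfl
  have hE1' : (0 : Divisor Qb (laurentBaseChange Qb (modularFunctionFieldFull (M * q)))) ≤ E1 :=
    Finsupp.le_def.mpr fun v => by rw [Finsupp.zero_apply]; exact hE1 v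
  have hE2' : (0 : Divisor Qb (laurentBaseChange Qb (modularFunctionFieldFull (M * q)))) ≤ E2 :=
    Finsupp.le_def.mpr fun v => by rw [Finsupp.zero_apply]; exact hE2 v
  have hE : 0 ≤ E1 + E2 := add_nonneg hE1' hE2'
  have hdeg : 0 < Divisor.degree (E1 + E2) := by
    rw [map_add]
    exact add_pos hdegE1 hdegE2
  have hd₁ : 0 < Divisor.degree (P₁ + Z₁) := by
    rw [map_add]
    exact add_pos_of_pos_of_nonneg hdegP₁ (degree_nonneg_k hZ₁0 (isFF1_xk k M))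
  have hd₂ : 0 < Divisor.degree (P₂ + Z₂) := by
    rw [map_add]
    exact add_pos_of_pos_of_nonneg hdegP₂ (degree_nonneg_k hZ₂0 (isFF1_xk k M))
  obtain ⟨N₀, hN₀⟩ := hS2
  obtain ⟨Q, hQ0, hfix, hev⟩ := exists_place_fst (A := A) (O := OPair h W)
    (isFF1_xL Qb (M * q)) (isFF1_xk k M) (isFF1_xk k M)
    (fun x => OPair_hOA h x) (OPair_hval h) (redPair h W) π hπ h.pi_eq_zero_iff hconst
    (redPair_eq_zero_iff h) hinj₂ hE hdeg (P₁ + Z₁) (P₂ + Z₂)
    (fun i => by rw [Finsupp.add_apply, hP₁ i, hZ₁ i, add_zero])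
    (fun i => by rw [Finsupp.add_apply, hP₂ i, hZ₂ i, add_zero])
    (add_nonneg hP₁0 hZ₁0) (add_nonneg hP₂0 hZ₂0) hd₁ hd₂ hLat
    ⟨N₀, fun N hN t => by
      rw [nsmul_add, nsmul_add, nsmul_add]
      exact hN₀ N N (by omega) t⟩
    (inertiaSet A (M * q))
    (fun g hg => by
      obtain ⟨σ, hσ, rfl⟩ := hg
      refine ⟨inert_of_mem_inertia h hW hσ, ?_⟩
      rw [smul_add, (hgalE σ hσ).1, (hgalE σ hσ).2])
    (fun B hB y hy => by
      obtain ⟨f', hf'O, hf'B, hf'fix, hf'red⟩ :=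
        Fermat.Agent.BAD.LatFixedInst.exists_fixed_lift_rr h.hℓ hA h hπ hW B
          (fun σ hσ => hB _ ⟨σ, hσ, rfl⟩) hy y.2
      refine ⟨⟨f', hf'O⟩, hf'B, hf'red, fun g hg => ?_⟩
      obtain ⟨σ, hσ, rfl⟩ := hg
      exact hf'fix σ hσ)
    Qt hQe (by rw [Finsupp.add_apply, hQP, hQZ, add_zero])
  have hQ0' : E1 Q + E2 Q = 0 := by rwa [Finsupp.add_apply] at hQ0
  have hQ1 : E1 Q = 0 := by linarith [hE1 Q, hE2 Q]
  have hQ2 : E2 Q = 0 := by linarith [hE1 Q, hE2 Q]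
  refine ⟨Q, fun σ hσ => hfix _ ⟨σ, hσ, rfl⟩, hQ1, hQ2, fun n₁ n₂ y hy => ?_⟩
  refine hev (n₁ + n₂) y (RR.L_mono ?_ hy)
  rw [nsmul_add]
  exact add_le_add (nsmul_le_nsmul_left hE1' (Nat.le_add_right n₁ n₂))
    (nsmul_le_nsmul_left hE2' (Nat.le_add_left n₂ n₁))

/-- **Hensel lifting of a smooth point of the second component, with values.** -/
theorem exists_lift_val_snd (Qt : Place k (modularFunctionFieldFullC k M))
    (hQe : ∀ i, e₂ i ≠ Qt) (hQP : P₂ Qt = 0) (hQZ : Z₂ Qt = 0) :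
    ∃ Q : Place Qb (laurentBaseChange Qb (modularFunctionFieldFull (M * q))),
      (∀ σ ∈ A.inertiaSubgroupIn ℚ,
        arithmeticGalois (modularFunctionFieldFull (M * q)) σ • Q = Q) ∧
      E1 Q = 0 ∧ E2 Q = 0 ∧
      ∀ (n₁ n₂ : ℕ) (y : OPair h W),
        (y : laurentBaseChange Qb (modularFunctionFieldFull (M * q))) ∈
          riemannRochSpace (n₁ • E1 + n₂ • E2) →
        ∃ a : A, Cong Q (y : laurentBaseChange Qb (modularFunctionFieldFull (M * q))) (a : Qb) ∧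
          Cong Qt (redPair h W y).2 (π a) := by
  obtain ⟨hP₁0, hZ₁0, hP₂0, hZ₂0⟩ := nonneg_of_datum h W E1 E2 e₁ e₂ P₁ Z₁ P₂ Z₂ hE1 hE2 hS2
  have hLat : LatAt h W := latAt hπ h W hW
  have hconst : ∀ a : A, redPair h W ⟨algebraMap Qb
        ↥(laurentBaseChange Qb (modularFunctionFieldFull (M * q))) (a : Qb),
        (OPair_hOA h _).2 a.2⟩ = algebraMap k (↥(modularFunctionFieldFullC k M) ×
        ↥(modularFunctionFieldFullC k M)) (π a) := fun a => (redPair_algebraMap h a _).trans rfl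
  have hE1' : (0 : Divisor Qb (laurentBaseChange Qb (modularFunctionFieldFull (M * q)))) ≤ E1 :=
    Finsupp.le_def.mpr fun v => by rw [Finsupp.zero_apply]; exact hE1 v
  have hE2' : (0 : Divisor Qb (laurentBaseChange Qb (modularFunctionFieldFull (M * q)))) ≤ E2 :=
    Finsupp.le_def.mpr fun v => by rw [Finsupp.zero_apply]; exact hE2 v
  have hE : 0 ≤ E1 + E2 := add_nonneg hE1' hE2'
  have hdeg : 0 < Divisor.degree (E1 + E2) := by
    rw [map_add]
    exact add_pos hdegE1 hdegE2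
  have hd₁ : 0 < Divisor.degree (P₁ + Z₁) := by
    rw [map_add]
    exact add_pos_of_pos_of_nonneg hdegP₁ (degree_nonneg_k hZ₁0 (isFF1_xk k M))
  have hd₂ : 0 < Divisor.degree (P₂ + Z₂) := by
    rw [map_add]
    exact add_pos_of_pos_of_nonneg hdegP₂ (degree_nonneg_k hZ₂0 (isFF1_xk k M))
  obtain ⟨N₀, hN₀⟩ := hS2
  obtain ⟨Q, hQ0, hfix, hev⟩ := exists_place_snd (A := A) (O := OPair h W)
    (isFF1_xL Qb (M * q)) (isFF1_xk k M) (isFF1_xk k M)
    (fun x => OPair_hOA h x) (OPair_hval h) (redPair h W) π hπ h.pi_eq_zero_iff hconst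
    (redPair_eq_zero_iff h) hinj₂ hE hdeg (P₁ + Z₁) (P₂ + Z₂)
    (fun i => by rw [Finsupp.add_apply, hP₁ i, hZ₁ i, add_zero])
    (fun i => by rw [Finsupp.add_apply, hP₂ i, hZ₂ i, add_zero])
    (add_nonneg hP₁0 hZ₁0) (add_nonneg hP₂0 hZ₂0) hd₁ hd₂ hLat
    ⟨N₀, fun N hN t => by
      rw [nsmul_add, nsmul_add, nsmul_add]
      exact hN₀ N N (by omega) t⟩
    (inertiaSet A (M * q))
    (fun g hg => by
      obtain ⟨σ, hσ, rfl⟩ := hg
      refine ⟨inert_of_mem_inertia h hW hσ, ?_⟩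
      rw [smul_add, (hgalE σ hσ).1, (hgalE σ hσ).2])
    (fun B hB y hy => by
      obtain ⟨f', hf'O, hf'B, hf'fix, hf'red⟩ :=
        Fermat.Agent.BAD.LatFixedInst.exists_fixed_lift_rr h.hℓ hA h hπ hW B
          (fun σ hσ => hB _ ⟨σ, hσ, rfl⟩) hy y.2
      refine ⟨⟨f', hf'O⟩, hf'B, hf'red, fun g hg => ?_⟩
      obtain ⟨σ, hσ, rfl⟩ := hg
      exact hf'fix σ hσ)
    Qt hQe (by rw [Finsupp.add_apply, hQP, hQZ, add_zero])
  have hQ0' : E1 Q + E2 Q = 0 := by rwa [Finsupp.add_apply] at hQ0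
  have hQ1 : E1 Q = 0 := by linarith [hE1 Q, hE2 Q]
  have hQ2 : E2 Q = 0 := by linarith [hE1 Q, hE2 Q]
  refine ⟨Q, fun σ hσ => hfix _ ⟨σ, hσ, rfl⟩, hQ1, hQ2, fun n₁ n₂ y hy => ?_⟩
  refine hev (n₁ + n₂) y (RR.L_mono ?_ hy)
  rw [nsmul_add]
  exact add_le_add (nsmul_le_nsmul_left hE1' (Nat.le_add_right n₁ n₂))
    (nsmul_le_nsmul_left hE2' (Nat.le_add_left n₂ n₁))

/-- **S33 (RC-2), Hensel half, first component**: every point of the first component off the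
nodes and off `P₁`, `Z₁` is the reduction of an inertia-fixed place off `E1`, `E2`. -/
theorem exists_lift_fst (Qt : Place k (modularFunctionFieldFullC k M))
    (hQe : ∀ i, e₁ i ≠ Qt) (hQP : P₁ Qt = 0) (hQZ : Z₁ Qt = 0) :
    ∃ Q : Place Qb (laurentBaseChange Qb (modularFunctionFieldFull (M * q))),
      (∀ σ ∈ A.inertiaSubgroupIn ℚ,
        arithmeticGalois (modularFunctionFieldFull (M * q)) σ • Q = Q) ∧
      E1 Q = 0 ∧ E2 Q = 0 ∧ RedTo₁ h W E1 E2 Q Qt := by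
  obtain ⟨Q, hfix, hQ1, hQ2, hev⟩ := exists_lift_val_fst hA hπ h W hW E1 E2 e₁ e₂ P₁ Z₁ P₂ Z₂
    hinj₂ hP₁ hZ₁ hP₂ hZ₂ hdegP₁ hdegP₂ hE1 hE2 hdegE1 hdegE2 hgalE hS2 Qt hQe hQP hQZ
  refine ⟨Q, hfix, hQ1, hQ2, fun n₁ n₂ y hy hyQ => ?_⟩
  obtain ⟨a, ha, hav⟩ := hev n₁ n₂ y hy
  have ha0 : (a : Qb) = 0 := ha.unique (cong_zero_iff.2 hyQ)
  have ha0' : a = 0 := Subtype.ext ha0
  rw [ha0', map_zero] at hav
  exact cong_zero_iff.1 hav

/-- **S33 (RC-2), Hensel half, second component**. -/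
theorem exists_lift_snd (Qt : Place k (modularFunctionFieldFullC k M))
    (hQe : ∀ i, e₂ i ≠ Qt) (hQP : P₂ Qt = 0) (hQZ : Z₂ Qt = 0) :
    ∃ Q : Place Qb (laurentBaseChange Qb (modularFunctionFieldFull (M * q))),
      (∀ σ ∈ A.inertiaSubgroupIn ℚ,
        arithmeticGalois (modularFunctionFieldFull (M * q)) σ • Q = Q) ∧
      E1 Q = 0 ∧ E2 Q = 0 ∧ RedTo₂ h W E1 E2 Q Qt := by
  obtain ⟨Q, hfix, hQ1, hQ2, hev⟩ := exists_lift_val_snd hA hπ h W hW E1 E2 e₁ e₂ P₁ Z₁ P₂ Z₂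
    hinj₂ hP₁ hZ₁ hP₂ hZ₂ hdegP₁ hdegP₂ hE1 hE2 hdegE1 hdegE2 hgalE hS2 Qt hQe hQP hQZ
  refine ⟨Q, hfix, hQ1, hQ2, fun n₁ n₂ y hy hyQ => ?_⟩
  obtain ⟨a, ha, hav⟩ := hev n₁ n₂ y hy
  have ha0 : (a : Qb) = 0 := ha.unique (cong_zero_iff.2 hyQ)
  have ha0' : a = 0 := Subtype.ext ha0
  rw [ha0', map_zero] at hav
  exact cong_zero_iff.1 hav

end

end Fermat.Agent.BAD.HenselPlaceInst
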