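import Mathlib
import Fermat.Agent.BAD.KerRed

/-!
# Consumer lemmas for `kerRed`: triviality of the reduced line bundle, normalised representatives

Setting of `BAD/KerRed.lean`.

* `twisted_eq_of_le`, `twisted_of_sections` : abstract engines (dimension count; multiplication by
  the sections of `-D` on the charts `(a, 0)` and `(0, a)` and intersection);
* `triv_of_sections` : **(T)** if `-D` (`deg D = 0`) has sections with reduction the pair of
  constants `(c₁, c₂)` on all charts, then `(c₁, c₂) · red (L(D + B) ∩ O) = red (L(B) ∩ O)` for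
  all large `B = n₁ E1 + n₂ E2`;
* `TrivOn`, `trivOn_of_hasSec_neg`, `TrivOn.hasSec` : the same with the constants hidden;
* `exists_normalized` : **(N)** every class of `kerRed h W` has, for a given nodal datum, a
  representative `D'` such that `D'` and `-D'` have sections of reduction exactly `1` on all
  charts;
* `exists_normalized_red` : for this representative,
  `red (L(D' + B) ∩ O) = red (L(B) ∩ O) = red (L(-D' + B) ∩ O)` for all large `B`.
-/

set_option autoImplicit false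

namespace Fermat.Agent.BAD.KerRed

open AlgebraicCurve ModularCurve Fermat.Agent.Lib.FF Fermat.Agent.Lib.Red.Deform
  Fermat.Agent.Lib.Red.CoordLat Fermat.Agent.BAD.NodalDiv Fermat.Agent.BAD.NodalRiemann
  Fermat.Agent.BAD.TwoVal Fermat.Agent.BAD.NodalAsm Fermat.Agent.BAD.BadU
  Fermat.Agent.BAD.NodalP1Asm Fermat.Agent.BAD.NodalBridge

local notation "Qb" => AlgebraicClosure ℚ

/-! ### Abstract engines -/

section abstract

variable {L F : Type*} [Field L] [Field F] [Algebra L F]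
variable {A : ValuationSubring L} {O : Subring F}

/-- `L((n₁ + a) P + n₂ Z) ∩ L(n₁ P + (n₂ + a) Z) ⊆ L(n₁ P + n₂ Z)` for `P`, `Z` with disjoint
supports. -/
theorem mem_L_of_mem_of_mem {P Z : Divisor L F} (hd : ∀ v, P v = 0 ∨ Z v = 0) {n₁ n₂ a : ℕ}
    {f : F} (h1 : f ∈ riemannRochSpace ((n₁ + a) • P + n₂ • Z))
    (h2 : f ∈ riemannRochSpace (n₁ • P + (n₂ + a) • Z)) :
    f ∈ riemannRochSpace (n₁ • P + n₂ • Z) := by
  rw [mem_riemannRochSpace_iff] at h1 h2 ⊢
  intro v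
  rcases h1 v with h | h
  · exact Or.inl h
  rcases h2 v with h' | h'
  · exact Or.inl h'
  right
  simp only [Finsupp.add_apply, Finsupp.smul_apply, nsmul_eq_mul] at h h' ⊢
  rcases hd v with h0 | h0
  · rw [h0] at h ⊢
    simpa using h
  · rw [h0] at h' ⊢
    simpa using h'

theorem gluedSpace_inf_le {k F₁ F₂ : Type*} [Field k] [Field F₁] [Field F₂] [Algebra k F₁]
    [Algebra k F₂] {ι : Type*} (e₁ : ι → Place k F₁) (e₂ : ι → Place k F₂) (μ : ι → k)
    (P₁ Z₁ : Divisor k F₁) (P₂ Z₂ : Divisor k F₂)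
    (hd₁ : ∀ v, P₁ v = 0 ∨ Z₁ v = 0) (hd₂ : ∀ v, P₂ v = 0 ∨ Z₂ v = 0) (n₁ n₂ a : ℕ) :
    gluedSpace e₁ e₂ μ ((n₁ + a) • P₁ + n₂ • Z₁) ((n₁ + a) • P₂ + n₂ • Z₂) ⊓
      gluedSpace e₁ e₂ μ (n₁ • P₁ + (n₂ + a) • Z₁) (n₁ • P₂ + (n₂ + a) • Z₂) ≤
      gluedSpace e₁ e₂ μ (n₁ • P₁ + n₂ • Z₁) (n₁ • P₂ + n₂ • Z₂) := by
  rintro p ⟨⟨h1, h2, h3⟩, ⟨h1', h2', -⟩⟩
  exact ⟨mem_L_of_mem_of_mem hd₁ h1 h1', mem_L_of_mem_of_mem hd₂ h2 h2', h3⟩

variable {k Ft : Type*} [Field k] [CommRing Ft] [Algebra k Ft]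

/-- Dimension count: if `u · red (V2 ∩ O) ⊆ red (V0 ∩ O)` for a unit `u` and lattices of the same
rank, then equality holds. -/
theorem twisted_eq_of_le
    (hOA : ∀ x : L, algebraMap L F x ∈ O ↔ x ∈ A)
    (red : O →+* Ft) (π : A →+* k) (hπ : Function.Surjective π)
    (hπker : ∀ a : A, π a = 0 ↔ A.valuation (a : L) < 1)
    (hconst : ∀ a : A, red ⟨algebraMap L F (a : L), (hOA _).2 a.2⟩ = algebraMap k Ft (π a))
    (hker : ∀ y : O, red y = 0 ↔ Small A O (y : F))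
    (u u' : Ft) (huu' : u * u' = 1) (V0 V2 : Submodule L F)
    (hlat0 : HasOrtho A O V0) (hlat2 : HasOrtho A O V2)
    (hfin : FiniteDimensional k (redSub hOA red π hπ hconst V0))
    (hRR : Module.finrank L V2 = Module.finrank L V0)
    (hle : ∀ s : O, (s : F) ∈ V2 → u * red s ∈ redSub hOA red π hπ hconst V0) (t : Ft) :
    (∃ s : O, (s : F) ∈ V2 ∧ u * red s = t) ↔ t ∈ redSub hOA red π hπ hconst V0 := by
  classical
  let mulU : Ft ≃ₗ[k] Ft := LinearEquiv.ofLinearMap (LinearMap.mulLeft k u) (LinearMap.mulLeft k u')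
    (by ext t; simp [← mul_assoc, huu'])
    (by ext t; simp [← mul_assoc, mul_comm u' u, huu'])
  set U : Submodule k Ft :=
    (redSub hOA red π hπ hconst V2).map (mulU : Ft →ₗ[k] Ft) with hU
  have hUmem : ∀ t, t ∈ U ↔ ∃ s : O, (s : F) ∈ V2 ∧ u * red s = t := by
    intro t
    constructor
    · rintro ⟨t', ⟨s, hs, rfl⟩, rfl⟩; exact ⟨s, hs, rfl⟩
    · rintro ⟨s, hs, rfl⟩; exact ⟨red s, ⟨s, hs, rfl⟩, rfl⟩
  have hUle : U ≤ redSub hOA red π hπ hconst V0 := by
    intro t ht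
    obtain ⟨s, hs, rfl⟩ := (hUmem _).1 ht
    exact hle s hs
  have heq : U = redSub hOA red π hπ hconst V0 := by
    apply Submodule.eq_of_le_of_finrank_eq hUle
    have e1 : Module.finrank k U = Module.finrank k (redSub hOA red π hπ hconst V2) :=
      LinearEquiv.finrank_map_eq mulU _
    have e2 : Module.finrank k (redSub hOA red π hπ hconst V2) = Module.finrank L V2 :=
      hlat2.finrank_redSub hOA red π hπ hπker hconst hker
    have e4 : Module.finrank k (redSub hOA red π hπ hconst V0) = Module.finrank L V0 :=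
      hlat0.finrank_redSub hOA red π hπ hπker hconst hker
    rw [e1, e2, hRR, e4]
  rw [← heq]
  exact (hUmem t).symm

variable {F₁ F₂ : Type*} [Field F₁] [Field F₂] [Algebra k F₁] [Algebra k F₂]

/-- If `-D` (`deg D = 0`) has sections with reduction the unit `w` on the charts `(a, 0)` and
`(0, a)`, then `w · red (L(D + B) ∩ O) = red (L(B) ∩ O)` for all large `B = n₁ E1 + n₂ E2`. -/
theorem twisted_of_sections
    (hOA : ∀ x : L, algebraMap L F x ∈ O ↔ x ∈ A)
    (red : O →+* F₁ × F₂) (π : A →+* k) (hπ : Function.Surjective π)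
    (hπker : ∀ a : A, π a = 0 ↔ A.valuation (a : L) < 1)
    (hconst : ∀ a : A, red ⟨algebraMap L F (a : L), (hOA _).2 a.2⟩
      = algebraMap k (F₁ × F₂) (π a))
    (hker : ∀ y : O, red y = 0 ↔ Small A O (y : F))
    {x : F} (hF : IsFF1 L F x) {x₁ : F₁} (h₁ : IsFF1 k F₁ x₁) {x₂ : F₂} (h₂ : IsFF1 k F₂ x₂)
    {ι : Type*} (e₁ : ι → Place k F₁) (e₂ : ι → Place k F₂)
    (P₁ Z₁ : Divisor k F₁) (P₂ Z₂ : Divisor k F₂)
    (hd₁ : ∀ v, P₁ v = 0 ∨ Z₁ v = 0) (hd₂ : ∀ v, P₂ v = 0 ∨ Z₂ v = 0)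
    (E1 E2 : Divisor L F)
    (hdegE1 : 0 < Divisor.degree E1) (hdegE2 : 0 < Divisor.degree E2)
    (hlat : ∀ B : Divisor L F, HasOrtho A O (riemannRochSpace B))
    (hS2 : ∃ N₀ : ℕ, ∀ n₁ n₂, N₀ ≤ n₁ + n₂ →
      redSub hOA red π hπ hconst (VB 0 E1 E2 n₁ n₂)
        = gluedSpace e₁ e₂ (fun _ => (1 : k)) (n₁ • P₁ + n₂ • Z₁) (n₁ • P₂ + n₂ • Z₂))
    (D : Divisor L F) (hD : Divisor.degree D = 0) (w w' : F₁ × F₂) (hww' : w * w' = 1)
    (N₁ : ℕ) (hsec : ∀ n₁ n₂, N₁ ≤ n₁ + n₂ →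
      ∃ s : O, (s : F) ∈ VB (-D) E1 E2 n₁ n₂ ∧ red s = w) :
    ∃ N : ℕ, ∀ n₁ n₂, N ≤ n₁ + n₂ → ∀ t : F₁ × F₂,
      (∃ s : O, (s : F) ∈ VB D E1 E2 n₁ n₂ ∧ w * red s = t) ↔
        t ∈ redSub hOA red π hπ hconst (VB 0 E1 E2 n₁ n₂) := by
  classical
  obtain ⟨N₀, hN₀⟩ := hS2
  obtain ⟨N₂, hN₂⟩ := exists_finrank_VB_eq hF E1 E2 hdegE1 hdegE2
  refine ⟨max N₀ N₂, fun n₁ n₂ hl t => ?_⟩
  have hlN : N₀ ≤ n₁ + n₂ := (le_max_left _ _).trans hl
  have hlN₂ : N₂ ≤ n₁ + n₂ := (le_max_right _ _).trans hl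
  have hfin : FiniteDimensional k (redSub hOA red π hπ hconst (VB 0 E1 E2 n₁ n₂)) := by
    rw [hN₀ n₁ n₂ hlN]
    have := finite_Tn h₁ h₂ P₁ Z₁ P₂ Z₂ n₁ n₂
    refine Submodule.finiteDimensional_of_le
      (?_ : gluedSpace e₁ e₂ (fun _ => (1 : k)) (n₁ • P₁ + n₂ • Z₁) (n₁ • P₂ + n₂ • Z₂) ≤
        Tn P₁ Z₁ P₂ Z₂ n₁ n₂)
    rintro p ⟨h1, h2, -⟩
    exact ⟨h1, h2⟩
  refine twisted_eq_of_le hOA red π hπ hπker hconst hker w w' hww' (VB 0 E1 E2 n₁ n₂)
    (VB D E1 E2 n₁ n₂) (hlat _) (hlat _) hfin (hN₂ n₁ n₂ hlN₂ D hD) (fun s hs => ?_) t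
  obtain ⟨s₁, hs₁, hr₁⟩ := hsec (max N₁ N₀) 0 (by rw [add_zero]; exact le_max_left _ _)
  obtain ⟨s₂, hs₂, hr₂⟩ := hsec 0 (max N₁ N₀) (by rw [zero_add]; exact le_max_left _ _)
  have m1 : (s : F) * (s₁ : F) ∈ VB 0 E1 E2 (n₁ + max N₁ N₀) n₂ := by
    have := mul_mem_VB hs hs₁
    rwa [add_neg_cancel, add_zero] at this
  have m2 : (s : F) * (s₂ : F) ∈ VB 0 E1 E2 n₁ (n₂ + max N₁ N₀) := by
    have := mul_mem_VB hs hs₂
    rwa [add_neg_cancel, add_zero] at this
  have r1 : w * red s ∈ gluedSpace e₁ e₂ (fun _ => (1 : k))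
      ((n₁ + max N₁ N₀) • P₁ + n₂ • Z₁) ((n₁ + max N₁ N₀) • P₂ + n₂ • Z₂) := by
    rw [← hN₀ (n₁ + max N₁ N₀) n₂ (by omega)]
    exact ⟨s * s₁, m1, by rw [map_mul, hr₁, mul_comm]⟩
  have r2 : w * red s ∈ gluedSpace e₁ e₂ (fun _ => (1 : k))
      (n₁ • P₁ + (n₂ + max N₁ N₀) • Z₁) (n₁ • P₂ + (n₂ + max N₁ N₀) • Z₂) := by
    rw [← hN₀ n₁ (n₂ + max N₁ N₀) (by omega)]
    exact ⟨s * s₂, m2, by rw [map_mul, hr₂, mul_comm]⟩
  rw [hN₀ n₁ n₂ hlN]
  exact gluedSpace_inf_le e₁ e₂ _ P₁ Z₁ P₂ Z₂ hd₁ hd₂ n₁ n₂ (max N₁ N₀) ⟨r1, r2⟩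

end abstract

/-! ### The modular instance -/

section modular

variable {A : ValuationSubring Qb} {k : Type} [Field k] {π : A →+* k} {M q : ℕ} [NeZero M]
  [NeZero q]

theorem eq_inv_pair {κ : Type*} [Field κ] [Algebra k κ] {c₁ c₂ : k} {z : κ × κ}
    (hz : (algebraMap k κ c₁, algebraMap k κ c₂) * z = 1) :
    z = (algebraMap k κ c₁⁻¹, algebraMap k κ c₂⁻¹) := by
  have h1 : algebraMap k κ c₁ * z.1 = 1 := congrArg Prod.fst hz
  have h2 : algebraMap k κ c₂ * z.2 = 1 := congrArg Prod.snd hz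
  refine Prod.ext ?_ ?_
  · show z.1 = algebraMap k κ c₁⁻¹
    rw [map_inv₀]; exact eq_inv_of_mul_eq_one_right h1
  · show z.2 = algebraMap k κ c₂⁻¹
    rw [map_inv₀]; exact eq_inv_of_mul_eq_one_right h2

set_option maxHeartbeats 1000000 in
/-- **(T)**: if `-D` (`deg D = 0`) has sections in `O` with reduction the pair of constants
`(c₁, c₂)` on all charts of a nodal datum, then
`(c₁, c₂) · red (L(D + B) ∩ O) = red (L(B) ∩ O)` for all large `B = n₁ E1 + n₂ E2`. -/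
theorem triv_of_sections [IsAlgClosed k] (hπ : Function.Surjective π) (h : BadSetup A π M q)
    (W : laurentBaseChange Qb (modularFunctionFieldFull (M * q)) ≃ₐ[Qb]
      laurentBaseChange Qb (modularFunctionFieldFull (M * q))) (hW : IsAL M q W)
    {E1 E2 : Divisor Qb (laurentBaseChange Qb (modularFunctionFieldFull (M * q)))}
    (hNF : NodalFibreFor h W E1 E2)
    (D : Divisor Qb (laurentBaseChange Qb (modularFunctionFieldFull (M * q))))
    (hD : Divisor.degree D = 0) (c₁ c₂ : k) (hc₁ : c₁ ≠ 0) (hc₂ : c₂ ≠ 0) (N₁ : ℕ)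
    (hsec : ∀ n₁ n₂ : ℕ, N₁ ≤ n₁ + n₂ → ∃ y : OPair h W,
      (y : laurentBaseChange Qb (modularFunctionFieldFull (M * q))) ∈
        riemannRochSpace (-D + n₁ • E1 + n₂ • E2) ∧
      redPair h W y = (algebraMap k ↥(modularFunctionFieldFullC k M) c₁,
        algebraMap k ↥(modularFunctionFieldFullC k M) c₂)) :
    ∃ N : ℕ, ∀ n₁ n₂ : ℕ, N ≤ n₁ + n₂ →
      ∀ t : ↥(modularFunctionFieldFullC k M) × ↥(modularFunctionFieldFullC k M),
        (∃ y : OPair h W,
            (y : laurentBaseChange Qb (modularFunctionFieldFull (M * q))) ∈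
              riemannRochSpace (D + n₁ • E1 + n₂ • E2) ∧
            (algebraMap k ↥(modularFunctionFieldFullC k M) c₁,
              algebraMap k ↥(modularFunctionFieldFullC k M) c₂) * redPair h W y = t) ↔
          (∃ y : OPair h W,
            (y : laurentBaseChange Qb (modularFunctionFieldFull (M * q))) ∈
              riemannRochSpace (n₁ • E1 + n₂ • E2) ∧ redPair h W y = t) := by
  obtain ⟨ι, _, _, e₁, e₂, P₁, Z₁, P₂, Z₂, hinj₁, hinj₂, hP₁, hZ₁, hP₂, hZ₂, hd₁, hd₂,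
    hdegP₁, hdegP₂, hE1, hE2, hdisj, hdegE1, hdegE2, hgalE, N₀, hS2⟩ := hNF
  have hLat : LatAt h W := latAt hπ h W hW
  have hconst : ∀ a : A, redPair h W ⟨algebraMap Qb
        ↥(laurentBaseChange Qb (modularFunctionFieldFull (M * q))) (a : Qb),
        (OPair_hOA h _).2 a.2⟩ = algebraMap k (↥(modularFunctionFieldFullC k M) ×
        ↥(modularFunctionFieldFullC k M)) (π a) := fun a => (redPair_algebraMap h a _).trans rfl
  have hww' : ((algebraMap k ↥(modularFunctionFieldFullC k M) c₁,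
        algebraMap k ↥(modularFunctionFieldFullC k M) c₂) :
        ↥(modularFunctionFieldFullC k M) × ↥(modularFunctionFieldFullC k M)) *
      (algebraMap k ↥(modularFunctionFieldFullC k M) c₁⁻¹,
        algebraMap k ↥(modularFunctionFieldFullC k M) c₂⁻¹) = 1 := by
    refine Prod.ext ?_ ?_
    · show algebraMap k ↥(modularFunctionFieldFullC k M) c₁ *
        algebraMap k ↥(modularFunctionFieldFullC k M) c₁⁻¹ = 1
      rw [← map_mul, mul_inv_cancel₀ hc₁, map_one]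
    · show algebraMap k ↥(modularFunctionFieldFullC k M) c₂ *
        algebraMap k ↥(modularFunctionFieldFullC k M) c₂⁻¹ = 1
      rw [← map_mul, mul_inv_cancel₀ hc₂, map_one]
  obtain ⟨N, hN⟩ := twisted_of_sections (A := A) (O := OPair h W) (fun x => OPair_hOA h x)
    (redPair h W) π hπ h.pi_eq_zero_iff hconst (redPair_eq_zero_iff h)
    (isFF1_xL Qb (M * q)) (isFF1_xk k M) (isFF1_xk k M) e₁ e₂ P₁ Z₁ P₂ Z₂ hd₁ hd₂
    E1 E2 hdegE1 hdegE2 hLat
    ⟨N₀, fun n₁ n₂ hl => Submodule.ext fun t => by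
      have e : VB 0 E1 E2 n₁ n₂ = riemannRochSpace (n₁ • E1 + n₂ • E2) := by
        unfold VB
        rw [zero_add]
      rw [e]
      exact hS2 n₁ n₂ hl t⟩
    D hD _ _ hww' N₁ hsec
  refine ⟨N, fun n₁ n₂ hl t => ?_⟩
  have e : VB 0 E1 E2 n₁ n₂ = riemannRochSpace (n₁ • E1 + n₂ • E2) := by
    unfold VB
    rw [zero_add]
  have := hN n₁ n₂ hl t
  rw [e] at this
  exact this

/-- The reduced line bundle of `D` is trivial: a pair of nonzero constants `(c₁, c₂)` with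
`(c₁, c₂) · red (L(D + B) ∩ O) = red (L(B) ∩ O)` for all large `B = n₁ E1 + n₂ E2`. -/
def TrivOn (h : BadSetup A π M q)
    (W : laurentBaseChange Qb (modularFunctionFieldFull (M * q)) ≃ₐ[Qb]
      laurentBaseChange Qb (modularFunctionFieldFull (M * q)))
    (E1 E2 D : Divisor Qb (laurentBaseChange Qb (modularFunctionFieldFull (M * q)))) : Prop :=
  ∃ c₁ c₂ : k, c₁ ≠ 0 ∧ c₂ ≠ 0 ∧ ∃ N₀ : ℕ, ∀ n₁ n₂ : ℕ, N₀ ≤ n₁ + n₂ →
    ∀ t : ↥(modularFunctionFieldFullC k M) × ↥(modularFunctionFieldFullC k M),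
      (∃ y : OPair h W,
          (y : laurentBaseChange Qb (modularFunctionFieldFull (M * q))) ∈
            riemannRochSpace (D + n₁ • E1 + n₂ • E2) ∧
          (algebraMap k ↥(modularFunctionFieldFullC k M) c₁,
            algebraMap k ↥(modularFunctionFieldFullC k M) c₂) * redPair h W y = t) ↔
        (∃ y : OPair h W,
          (y : laurentBaseChange Qb (modularFunctionFieldFull (M * q))) ∈
            riemannRochSpace (n₁ • E1 + n₂ • E2) ∧ redPair h W y = t)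

theorem trivOn_of_hasSec_neg [IsAlgClosed k] (hπ : Function.Surjective π) (h : BadSetup A π M q)
    (W : laurentBaseChange Qb (modularFunctionFieldFull (M * q)) ≃ₐ[Qb]
      laurentBaseChange Qb (modularFunctionFieldFull (M * q))) (hW : IsAL M q W)
    {E1 E2 : Divisor Qb (laurentBaseChange Qb (modularFunctionFieldFull (M * q)))}
    (hNF : NodalFibreFor h W E1 E2)
    (D : Divisor Qb (laurentBaseChange Qb (modularFunctionFieldFull (M * q))))
    (hD : Divisor.degree D = 0) (hS : HasSec h W E1 E2 (-D)) : TrivOn h W E1 E2 D := by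
  obtain ⟨c₁, c₂, hc₁, hc₂, N₁, hsec⟩ := hS
  obtain ⟨N, hN⟩ := triv_of_sections hπ h W hW hNF D hD c₁ c₂ hc₁ hc₂ N₁ hsec
  exact ⟨c₁, c₂, hc₁, hc₂, N, hN⟩

theorem one_mem_L {E1 E2 : Divisor Qb (laurentBaseChange Qb (modularFunctionFieldFull (M * q)))}
    (hE1 : ∀ v, 0 ≤ E1 v) (hE2 : ∀ v, 0 ≤ E2 v) (n₁ n₂ : ℕ) :
    (1 : laurentBaseChange Qb (modularFunctionFieldFull (M * q))) ∈
      riemannRochSpace (n₁ • E1 + n₂ • E2) := by
  have h1 := VB_mono hE1 hE2 (Nat.zero_le n₁) (Nat.zero_le n₂) (one_mem_VB (L := Qb) E1 E2)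
  unfold VB at h1
  rwa [zero_add] at h1

theorem TrivOn.hasSec {h : BadSetup A π M q}
    {W : laurentBaseChange Qb (modularFunctionFieldFull (M * q)) ≃ₐ[Qb]
      laurentBaseChange Qb (modularFunctionFieldFull (M * q))}
    {E1 E2 D : Divisor Qb (laurentBaseChange Qb (modularFunctionFieldFull (M * q)))}
    (hE1 : ∀ v, 0 ≤ E1 v) (hE2 : ∀ v, 0 ≤ E2 v) (hT : TrivOn h W E1 E2 D) :
    HasSec h W E1 E2 D := by
  obtain ⟨c₁, c₂, hc₁, hc₂, N, hN⟩ := hT
  refine ⟨c₁⁻¹, c₂⁻¹, inv_ne_zero hc₁, inv_ne_zero hc₂, N, fun n₁ n₂ hl => ?_⟩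
  obtain ⟨y, hy, hy1⟩ := (hN n₁ n₂ hl 1).2 ⟨1, one_mem_L hE1 hE2 n₁ n₂, map_one _⟩
  exact ⟨y, hy, eq_inv_pair hy1⟩

theorem inv_mem_VB_of_div {L F : Type*} [Field L] [Field F] [Algebra L F]
    {Ds : Divisor L F} (E1 E2 : Divisor L F) {s : F}
    (hDs : ∀ v : Place L F, Ds v = v.ord s) : s⁻¹ ∈ VB Ds E1 E2 0 0 := by
  rw [mem_VB]
  intro v
  right
  rw [v.ord_inv, hDs v]
  simp

theorem mem_VB_neg_of_div {L F : Type*} [Field L] [Field F] [Algebra L F]
    {Ds : Divisor L F} (E1 E2 : Divisor L F) {s : F}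
    (hDs : ∀ v : Place L F, Ds v = v.ord s) : s ∈ VB (-Ds) E1 E2 0 0 := by
  rw [mem_VB]
  intro v
  right
  rw [Finsupp.neg_apply, hDs v]
  simp

set_option maxHeartbeats 1000000 in
/-- **(N)**: for a given nodal datum, every class of `kerRed h W` has a representative `D'` such
that `D'` and `-D'` have sections in `O` of reduction exactly `1` on all charts. -/
theorem exists_normalized (hπ : Function.Surjective π) (h : BadSetup A π M q)
    (W : laurentBaseChange Qb (modularFunctionFieldFull (M * q)) ≃ₐ[Qb]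
      laurentBaseChange Qb (modularFunctionFieldFull (M * q)))
    {E1 E2 : Divisor Qb (laurentBaseChange Qb (modularFunctionFieldFull (M * q)))}
    (hNF : NodalFibreFor h W E1 E2) {x : JZero (M * q)} (hx : x ∈ kerRed h W) :
    ∃ D' : Divisor.degZero (K := Qb)
        (F := laurentBaseChange Qb (modularFunctionFieldFull (M * q))),
      Pic0.mk D' = x ∧ ∃ N : ℕ, ∀ n₁ n₂ : ℕ, N ≤ n₁ + n₂ →
        (∃ y : OPair h W,
          (y : laurentBaseChange Qb (modularFunctionFieldFull (M * q))) ∈ riemannRochSpace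
            ((D' : Divisor Qb (laurentBaseChange Qb (modularFunctionFieldFull (M * q)))) +
              n₁ • E1 + n₂ • E2) ∧ redPair h W y = 1) ∧
        (∃ y : OPair h W,
          (y : laurentBaseChange Qb (modularFunctionFieldFull (M * q))) ∈ riemannRochSpace
            (-(D' : Divisor Qb (laurentBaseChange Qb (modularFunctionFieldFull (M * q)))) +
              n₁ • E1 + n₂ • E2) ∧ redPair h W y = 1) := by
  obtain ⟨D, rfl, hD⟩ := hx
  obtain ⟨⟨c₁, c₂, hc₁, hc₂, N, hN⟩, ⟨c₁', c₂', hc₁', hc₂', N', hN'⟩⟩ := hD E1 E2 hNF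
  obtain ⟨ι, _, hne, e₁, e₂, P₁, Z₁, P₂, Z₂, hinj₁, hinj₂, hP₁, hZ₁, hP₂, hZ₂, hd₁, hd₂,
    hdegP₁, hdegP₂, hE1, hE2, hdisj, hdegE1, hdegE2, hgalE, N₀, hS2⟩ := hNF
  -- the section `s₀`
  obtain ⟨⟨s₀, hs₀O⟩, hs₀, hr₀⟩ := hN N 0 (by omega)
  have hs₀' : s₀ ∈ VB (D : Divisor Qb (laurentBaseChange Qb (modularFunctionFieldFull (M * q))))
      E1 E2 N 0 := hs₀
  have hO1 : s₀ ∈ OInf h := ((mem_OPair_iff h _).1 hs₀O).1
  have hO2 : s₀ ∈ OZero h W := ((mem_OPair_iff h _).1 hs₀O).2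
  have hr₁ : redInf h ⟨s₀, hO1⟩ = algebraMap k ↥(modularFunctionFieldFullC k M) c₁ := by
    have := hr₀
    rw [redPair_mk] at this
    exact congrArg Prod.fst this
  have hr₂ : redZero h W ⟨s₀, hO2⟩ = algebraMap k ↥(modularFunctionFieldFullC k M) c₂ := by
    have := hr₀
    rw [redPair_mk] at this
    exact congrArg Prod.snd this
  have hs₀ne : s₀ ≠ 0 := by
    rintro rfl
    have h0 : redInf h ⟨0, hO1⟩ = 0 := map_zero (redInf h)
    rw [hr₁] at h0
    exact hc₁ ((map_eq_zero _).1 h0)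
  have hinv1 : s₀⁻¹ ∈ OInf h :=
    inv_mem_OInf h _ hO1 (by rw [hr₁]; exact (map_ne_zero _).2 hc₁)
  have hinv2 : s₀⁻¹ ∈ OZero h W :=
    inv_mem_OZero h _ hO2 (by rw [hr₂]; exact (map_ne_zero _).2 hc₂)
  have hinvO : s₀⁻¹ ∈ OPair h W := (mem_OPair_iff h _).2 ⟨hinv1, hinv2⟩
  have hrinv : redPair h W ⟨s₀⁻¹, hinvO⟩ =
      (algebraMap k ↥(modularFunctionFieldFullC k M) c₁⁻¹,
        algebraMap k ↥(modularFunctionFieldFullC k M) c₂⁻¹) := by
    apply eq_inv_pair
    rw [← hr₀, ← map_mul]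
    have : (⟨s₀, hs₀O⟩ : OPair h W) * ⟨s₀⁻¹, hinvO⟩ = 1 := Subtype.ext (mul_inv_cancel₀ hs₀ne)
    rw [this, map_one]
  -- the divisor of `s₀`
  have hPD := (isFF1_xL Qb (M * q)).hasPrincipalDivisors
  obtain ⟨Ds, hDs, hDsdeg⟩ := HasPrincipalDivisors.exists_divisor (K := Qb) s₀ hs₀ne
  have hDsmem : Ds ∈ Divisor.degZero (K := Qb)
      (F := laurentBaseChange Qb (modularFunctionFieldFull (M * q))) :=
    Divisor.mem_degZero.2 hDsdeg
  -- the constants agree at a node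
  have hlam : c₁' * c₁ = c₂' * c₂ := by
    obtain ⟨y', hy', hry'⟩ := hN' (N' + N₀) 0 (by omega)
    have hy'' : (y' : laurentBaseChange Qb (modularFunctionFieldFull (M * q))) ∈
        VB (-(D : Divisor Qb (laurentBaseChange Qb (modularFunctionFieldFull (M * q)))))
          E1 E2 (N' + N₀) 0 := hy'
    have hm := mul_mem_VB hy'' hs₀'
    rw [neg_add_cancel, add_zero] at hm
    unfold VB at hm
    rw [zero_add] at hm
    have hm2 : ((y' * ⟨s₀, hs₀O⟩ : OPair h W) :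
        laurentBaseChange Qb (modularFunctionFieldFull (M * q))) ∈
        riemannRochSpace ((N' + N₀ + N) • E1 + 0 • E2) := hm
    have hle : N₀ ≤ N' + N₀ + N + 0 := by omega
    have hiff := hS2 (N' + N₀ + N) 0 hle (redPair h W (y' * ⟨s₀, hs₀O⟩))
    have hex : ∃ y : OPair h W, (y : laurentBaseChange Qb (modularFunctionFieldFull (M * q))) ∈
        riemannRochSpace ((N' + N₀ + N) • E1 + 0 • E2) ∧
        redPair h W y = redPair h W (y' * ⟨s₀, hs₀O⟩) := ⟨_, hm2, rfl⟩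
    have hmem := hiff.1 hex
    rw [map_mul, hry', hr₀, Prod.mk_mul_mk, ← map_mul, ← map_mul] at hmem
    obtain ⟨i⟩ := hne
    obtain ⟨c, hc1, hc2⟩ := hmem.2.2 i
    have e1 := (cong_algebraMap_iff _).1 hc1
    have e2 := (cong_algebraMap_iff _).1 hc2
    rw [one_mul] at e2
    rw [e1, e2]
  have hlam0 : c₁' * c₁ ≠ 0 := mul_ne_zero hc₁' hc₁
  obtain ⟨a, ha⟩ := hπ (c₁' * c₁)⁻¹
  have hcoe : ((D + ⟨Ds, hDsmem⟩ : Divisor.degZero (K := Qb)
        (F := laurentBaseChange Qb (modularFunctionFieldFull (M * q)))) :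
      Divisor Qb (laurentBaseChange Qb (modularFunctionFieldFull (M * q)))) =
      (D : Divisor Qb (laurentBaseChange Qb (modularFunctionFieldFull (M * q)))) + Ds := rfl
  have hmk : Pic0.mk (D + ⟨Ds, hDsmem⟩) = Pic0.mk D := by
    rw [Pic0.mk_add]
    have : Pic0.mk (⟨Ds, hDsmem⟩ : Divisor.degZero (K := Qb)
        (F := laurentBaseChange Qb (modularFunctionFieldFull (M * q)))) = 0 :=
      (QuotientAddGroup.eq_zero_iff _).2 ⟨s₀, hs₀ne, hDs⟩
    rw [this, add_zero]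
  refine ⟨D + ⟨Ds, hDsmem⟩, hmk, N + N', fun n₁ n₂ hl => ?_⟩
  rw [hcoe]
  constructor
  · obtain ⟨y, hy, hry⟩ := hN n₁ n₂ (by omega)
    have hy'' : (y : laurentBaseChange Qb (modularFunctionFieldFull (M * q))) ∈
        VB (D : Divisor Qb (laurentBaseChange Qb (modularFunctionFieldFull (M * q))))
          E1 E2 n₁ n₂ := hy
    have hm := mul_mem_VB hy'' (inv_mem_VB_of_div E1 E2 hDs)
    rw [add_zero, add_zero] at hm
    unfold VB at hm
    have hm2 : ((y * ⟨s₀⁻¹, hinvO⟩ : OPair h W) :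
        laurentBaseChange Qb (modularFunctionFieldFull (M * q))) ∈
        riemannRochSpace ((D : Divisor Qb (laurentBaseChange Qb
          (modularFunctionFieldFull (M * q)))) + Ds + n₁ • E1 + n₂ • E2) := hm
    have hred : redPair h W (y * ⟨s₀⁻¹, hinvO⟩) = 1 := by
      rw [map_mul, hry, hrinv, Prod.mk_mul_mk, ← map_mul, ← map_mul, mul_inv_cancel₀ hc₁,
        mul_inv_cancel₀ hc₂, map_one]
      rfl
    exact ⟨_, hm2, hred⟩
  · obtain ⟨y', hy', hry'⟩ := hN' n₁ n₂ (by omega)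
    have hy'' : (y' : laurentBaseChange Qb (modularFunctionFieldFull (M * q))) ∈
        VB (-(D : Divisor Qb (laurentBaseChange Qb (modularFunctionFieldFull (M * q)))))
          E1 E2 n₁ n₂ := hy'
    have hm := mul_mem_VB hy'' (mem_VB_neg_of_div E1 E2 hDs)
    rw [add_zero, add_zero, ← neg_add] at hm
    unfold VB at hm
    have haO : algebraMap Qb ↥(laurentBaseChange Qb (modularFunctionFieldFull (M * q))) (a : Qb)
        ∈ OPair h W := (OPair_hOA h _).2 a.2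
    have hm2 : (((⟨_, haO⟩ : OPair h W) * (y' * ⟨s₀, hs₀O⟩) : OPair h W) :
        laurentBaseChange Qb (modularFunctionFieldFull (M * q))) ∈
        riemannRochSpace (-((D : Divisor Qb (laurentBaseChange Qb
          (modularFunctionFieldFull (M * q)))) + Ds) + n₁ • E1 + n₂ • E2) := by
      show algebraMap Qb ↥(laurentBaseChange Qb (modularFunctionFieldFull (M * q))) (a : Qb) *
        ((y' : laurentBaseChange Qb (modularFunctionFieldFull (M * q))) * s₀) ∈ _
      rw [← Algebra.smul_def]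
      exact Submodule.smul_mem _ _ hm
    have hred : redPair h W ((⟨_, haO⟩ : OPair h W) * (y' * ⟨s₀, hs₀O⟩)) = 1 := by
      rw [map_mul, redPair_algebraMap h a haO, map_mul, hry', hr₀, Prod.mk_mul_mk,
        Prod.mk_mul_mk, ha, ← map_mul, ← map_mul, ← map_mul, ← map_mul, ← hlam,
        inv_mul_cancel₀ hlam0, map_one]
      rfl
    exact ⟨_, hm2, hred⟩

set_option maxHeartbeats 1000000 in
/-- For the normalised representative `D'` of a class of `kerRed h W`: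
`red (L(D' + B) ∩ O) = red (L(B) ∩ O) = red (L(-D' + B) ∩ O)` for all large
`B = n₁ E1 + n₂ E2`. -/
theorem exists_normalized_red [IsAlgClosed k] (hπ : Function.Surjective π)
    (h : BadSetup A π M q)
    (W : laurentBaseChange Qb (modularFunctionFieldFull (M * q)) ≃ₐ[Qb]
      laurentBaseChange Qb (modularFunctionFieldFull (M * q))) (hW : IsAL M q W)
    {E1 E2 : Divisor Qb (laurentBaseChange Qb (modularFunctionFieldFull (M * q)))}
    (hNF : NodalFibreFor h W E1 E2) {x : JZero (M * q)} (hx : x ∈ kerRed h W) :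
    ∃ D' : Divisor.degZero (K := Qb)
        (F := laurentBaseChange Qb (modularFunctionFieldFull (M * q))),
      Pic0.mk D' = x ∧ ∃ N : ℕ, ∀ n₁ n₂ : ℕ, N ≤ n₁ + n₂ →
        ∀ t : ↥(modularFunctionFieldFullC k M) × ↥(modularFunctionFieldFullC k M),
          ((∃ y : OPair h W,
              (y : laurentBaseChange Qb (modularFunctionFieldFull (M * q))) ∈ riemannRochSpace
                ((D' : Divisor Qb (laurentBaseChange Qb (modularFunctionFieldFull (M * q)))) +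
                  n₁ • E1 + n₂ • E2) ∧ redPair h W y = t) ↔
            (∃ y : OPair h W,
              (y : laurentBaseChange Qb (modularFunctionFieldFull (M * q))) ∈
                riemannRochSpace (n₁ • E1 + n₂ • E2) ∧ redPair h W y = t)) ∧
          ((∃ y : OPair h W,
              (y : laurentBaseChange Qb (modularFunctionFieldFull (M * q))) ∈ riemannRochSpace
                (-(D' : Divisor Qb (laurentBaseChange Qb (modularFunctionFieldFull (M * q)))) +
                  n₁ • E1 + n₂ • E2) ∧ redPair h W y = t) ↔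
            (∃ y : OPair h W,
              (y : laurentBaseChange Qb (modularFunctionFieldFull (M * q))) ∈
                riemannRochSpace (n₁ • E1 + n₂ • E2) ∧ redPair h W y = t)) := by
  obtain ⟨D', hD', N, hN⟩ := exists_normalized hπ h W hNF hx
  have hone : (1 : ↥(modularFunctionFieldFullC k M) × ↥(modularFunctionFieldFullC k M)) =
      (algebraMap k ↥(modularFunctionFieldFullC k M) 1,
        algebraMap k ↥(modularFunctionFieldFullC k M) 1) := by
    rw [map_one]; rfl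
  have hdeg : Divisor.degree
      (D' : Divisor Qb (laurentBaseChange Qb (modularFunctionFieldFull (M * q)))) = 0 :=
    Divisor.mem_degZero.1 D'.2
  have hdeg' : Divisor.degree
      (-(D' : Divisor Qb (laurentBaseChange Qb (modularFunctionFieldFull (M * q))))) = 0 := by
    rw [map_neg, hdeg, neg_zero]
  obtain ⟨N₁, hN₁⟩ := triv_of_sections hπ h W hW hNF
    (D' : Divisor Qb (laurentBaseChange Qb (modularFunctionFieldFull (M * q)))) hdeg 1 1
    one_ne_zero one_ne_zero N (fun n₁ n₂ hl => by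
      obtain ⟨y, hy, hr⟩ := (hN n₁ n₂ hl).2
      exact ⟨y, hy, hr.trans hone⟩)
  obtain ⟨N₂, hN₂⟩ := triv_of_sections hπ h W hW hNF
    (-(D' : Divisor Qb (laurentBaseChange Qb (modularFunctionFieldFull (M * q))))) hdeg' 1 1
    one_ne_zero one_ne_zero N (fun n₁ n₂ hl => by
      obtain ⟨y, hy, hr⟩ := (hN n₁ n₂ hl).1
      rw [neg_neg]
      exact ⟨y, hy, hr.trans hone⟩)
  refine ⟨D', hD', max N₁ N₂, fun n₁ n₂ hl t => ⟨?_, ?_⟩⟩
  · have := hN₁ n₁ n₂ ((le_max_left _ _).trans hl) t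
    rw [← hone] at this
    simpa only [one_mul] using this
  · have := hN₂ n₁ n₂ ((le_max_right _ _).trans hl) t
    rw [← hone] at this
    simpa only [one_mul] using this

end modular

end Fermat.Agent.BAD.KerRed
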