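import Mathlib
import Fermat.Agent.BAD.KerRedTriv

/-!
# Two-chart constancy

Setting of `BAD/KerRed.lean`, for a nodal datum `NodalFibreFor h W E1 E2`.

* `redPair_eq_const_of_two_charts` : if the same pair `t` is the reduction of a section of
  `a • E1` in `O` and of a section of `b • E2` in `O` (two DISJOINT charts), then `t` is a pair of
  equal constants `(c, c)`;
* `exists_const_sub_small` : hence such a section is congruent to a constant of `A` modulo the
  kernel of `redPair`.
-/

set_option autoImplicit false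

namespace Fermat.Agent.BAD.KerRed

open AlgebraicCurve ModularCurve Fermat.Agent.Lib.FF Fermat.Agent.Lib.Red.Deform
  Fermat.Agent.Lib.Red.CoordLat Fermat.Agent.BAD.NodalDiv Fermat.Agent.BAD.NodalRiemann
  Fermat.Agent.BAD.TwoVal Fermat.Agent.BAD.NodalAsm Fermat.Agent.BAD.BadU
  Fermat.Agent.BAD.NodalP1Asm Fermat.Agent.BAD.NodalBridge

local notation "Qb" => AlgebraicClosure ℚ

section const

variable {A : ValuationSubring Qb} {k : Type} [Field k] {π : A →+* k} {M q : ℕ} [NeZero M]
  [NeZero q]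

/-- **Two-chart constancy**: a pair which is the reduction of a section of `a • E1` and also of
a section of `b • E2` is a pair of equal constants. -/
theorem redPair_eq_const_of_two_charts [IsAlgClosed k] (h : BadSetup A π M q)
    (W : laurentBaseChange Qb (modularFunctionFieldFull (M * q)) ≃ₐ[Qb]
      laurentBaseChange Qb (modularFunctionFieldFull (M * q)))
    {E1 E2 : Divisor Qb (laurentBaseChange Qb (modularFunctionFieldFull (M * q)))}
    (hNF : NodalFibreFor h W E1 E2) (y₁ y₂ : OPair h W) (a b : ℕ)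
    (h₁ : (y₁ : laurentBaseChange Qb (modularFunctionFieldFull (M * q))) ∈
      riemannRochSpace (a • E1))
    (h₂ : (y₂ : laurentBaseChange Qb (modularFunctionFieldFull (M * q))) ∈
      riemannRochSpace (b • E2))
    (heq : redPair h W y₁ = redPair h W y₂) :
    ∃ c : k, redPair h W y₁ = (algebraMap k ↥(modularFunctionFieldFullC k M) c,
      algebraMap k ↥(modularFunctionFieldFullC k M) c) := by
  obtain ⟨ι, _, hne, e₁, e₂, P₁, Z₁, P₂, Z₂, hinj₁, hinj₂, hP₁, hZ₁, hP₂, hZ₂, hd₁, hd₂,
    hdegP₁, hdegP₂, hE1, hE2, hdisj, hdegE1, hdegE2, hgalE, N₀, hS2⟩ := hNF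
  have h₁' : (y₁ : laurentBaseChange Qb (modularFunctionFieldFull (M * q))) ∈
      riemannRochSpace ((a + b + N₀) • E1 + 0 • E2) := by
    have h0 : (y₁ : laurentBaseChange Qb (modularFunctionFieldFull (M * q))) ∈
        VB (0 : Divisor Qb (laurentBaseChange Qb (modularFunctionFieldFull (M * q))))
          E1 E2 a 0 := by
      unfold VB
      rw [zero_add, zero_smul, add_zero]
      exact h₁
    have h1 := VB_mono hE1 hE2 (show a ≤ a + b + N₀ by omega) (le_refl 0) h0
    unfold VB at h1
    rwa [zero_add] at h1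
  have h₂' : (y₂ : laurentBaseChange Qb (modularFunctionFieldFull (M * q))) ∈
      riemannRochSpace (0 • E1 + (a + b + N₀) • E2) := by
    have h0 : (y₂ : laurentBaseChange Qb (modularFunctionFieldFull (M * q))) ∈
        VB (0 : Divisor Qb (laurentBaseChange Qb (modularFunctionFieldFull (M * q))))
          E1 E2 0 b := by
      unfold VB
      rw [zero_add, zero_smul, zero_add]
      exact h₂
    have h1 := VB_mono hE1 hE2 (le_refl 0) (show b ≤ a + b + N₀ by omega) h0
    unfold VB at h1
    rwa [zero_add] at h1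
  have hm1 := (hS2 (a + b + N₀) 0 (by omega) (redPair h W y₁)).1 ⟨y₁, h₁', rfl⟩
  have hm2 := (hS2 0 (a + b + N₀) (by omega) (redPair h W y₁)).1 ⟨y₂, h₂', heq.symm⟩
  have hinf := gluedSpace_inf_le e₁ e₂ (fun _ => (1 : k)) P₁ Z₁ P₂ Z₂ hd₁ hd₂ 0 0 (a + b + N₀)
  rw [zero_add] at hinf
  obtain ⟨ht1, ht2, hglue⟩ := hinf ⟨hm1, hm2⟩
  have hc1 : ∃ c : k, (redPair h W y₁).1 = algebraMap k ↥(modularFunctionFieldFullC k M) c := by
    apply (isFF1_xk k M).const_of_ord_nonneg
    intro v
    rw [mem_riemannRochSpace_iff] at ht1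
    rcases ht1 v with h0 | h0
    · rw [h0]; simp
    · simpa using h0
  have hc2 : ∃ c : k, (redPair h W y₁).2 = algebraMap k ↥(modularFunctionFieldFullC k M) c := by
    apply (isFF1_xk k M).const_of_ord_nonneg
    intro v
    rw [mem_riemannRochSpace_iff] at ht2
    rcases ht2 v with h0 | h0
    · rw [h0]; simp
    · simpa using h0
  obtain ⟨c₁, hc₁⟩ := hc1
  obtain ⟨c₂, hc₂⟩ := hc2
  obtain ⟨i⟩ := hne
  obtain ⟨c, hg1, hg2⟩ := hglue i
  rw [hc₁] at hg1
  rw [hc₂, one_mul] at hg2
  have e1 := (cong_algebraMap_iff _).1 hg1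
  have e2 := (cong_algebraMap_iff _).1 hg2
  refine ⟨c₁, Prod.ext hc₁ ?_⟩
  rw [hc₂, e2, ← e1]

/-- Two-chart constancy, lifted: a section of `a • E1` in `O` whose reduction is also the
reduction of a section of `b • E2` in `O` is congruent to a constant of `A` modulo the kernel of
`redPair`. -/
theorem exists_const_sub_small [IsAlgClosed k] (hπ : Function.Surjective π)
    (h : BadSetup A π M q)
    (W : laurentBaseChange Qb (modularFunctionFieldFull (M * q)) ≃ₐ[Qb]
      laurentBaseChange Qb (modularFunctionFieldFull (M * q)))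
    {E1 E2 : Divisor Qb (laurentBaseChange Qb (modularFunctionFieldFull (M * q)))}
    (hNF : NodalFibreFor h W E1 E2) (y₁ y₂ : OPair h W) (a b : ℕ)
    (h₁ : (y₁ : laurentBaseChange Qb (modularFunctionFieldFull (M * q))) ∈
      riemannRochSpace (a • E1))
    (h₂ : (y₂ : laurentBaseChange Qb (modularFunctionFieldFull (M * q))) ∈
      riemannRochSpace (b • E2))
    (heq : redPair h W y₁ = redPair h W y₂) :
    ∃ (c : A) (hc : algebraMap Qb ↥(laurentBaseChange Qb (modularFunctionFieldFull (M * q)))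
        (c : Qb) ∈ OPair h W),
      redPair h W (y₁ - ⟨_, hc⟩) = 0 ∧ redPair h W (y₂ - ⟨_, hc⟩) = 0 := by
  obtain ⟨c, hc⟩ := redPair_eq_const_of_two_charts h W hNF y₁ y₂ a b h₁ h₂ heq
  obtain ⟨a₀, ha₀⟩ := hπ c
  have haO : algebraMap Qb ↥(laurentBaseChange Qb (modularFunctionFieldFull (M * q))) (a₀ : Qb)
      ∈ OPair h W := (OPair_hOA h _).2 a₀.2
  refine ⟨a₀, haO, ?_, ?_⟩
  · rw [map_sub, redPair_algebraMap h a₀ haO, ha₀, hc, sub_self]
  · rw [map_sub, redPair_algebraMap h a₀ haO, ha₀, ← heq, hc, sub_self]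

end const

end Fermat.Agent.BAD.KerRed
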