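import Mathlib
import Fermat.Agent.BAD.KerRedTriv

/-!
# A Kummer criterion for `kerRed`

Setting of `BAD/KerRed.lean` (`q` = the residue characteristic is allowed).

* `inv_mem_OPair_of_red` : an element of `O = O_∞ ∩ O_0` whose reduction is a unit of `κ × κ` is a
  unit of `O`;
* `twisted_kummer` : `NodalP1Asm.twisted_of_kummer` for one nodal datum, in the vocabulary of
  `KerRed`: if `m D = div f`, `f ∈ O`, `red f = u ^ m` with `u` a unit of `κ × κ` (a pair of
  nonzero functions) and `x ↦ x ^ m` is injective on `k`, then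
  `u · red (L(D + B) ∩ O) = red (L(B) ∩ O)` for all large `B = n₁ E1 + n₂ E2`;
* `mem_kerRed_of_kummer` : **(TOR)** under the same hypotheses the class of `D` lies in
  `kerRed h W`.  For `m = q ^ j` the injectivity is `eq_one_of_pow_char_pow`: a `q`-power torsion
  class whose Kummer function is a unit for both Gauss valuations, with reduction a `q ^ j`-th
  power on both components, is in the kernel of reduction.
-/

set_option autoImplicit false

namespace Fermat.Agent.BAD.KerRed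

open AlgebraicCurve ModularCurve Fermat.Agent.Lib.FF Fermat.Agent.Lib.Red.Deform
  Fermat.Agent.Lib.Red.CoordLat Fermat.Agent.BAD.NodalDiv Fermat.Agent.BAD.NodalRiemann
  Fermat.Agent.BAD.TwoVal Fermat.Agent.BAD.NodalAsm Fermat.Agent.BAD.BadU
  Fermat.Agent.BAD.NodalP1Asm Fermat.Agent.BAD.NodalBridge

local notation "Qb" => AlgebraicClosure ℚ

section kummer

variable {A : ValuationSubring Qb} {k : Type} [Field k] {π : A →+* k} {M q : ℕ} [NeZero M]
  [NeZero q]

/-- An element of `O = O_∞ ∩ O_0` whose reduction is a unit of `κ × κ` is a unit of `O`, and the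
reduction of its inverse is the inverse. -/
theorem inv_mem_OPair_of_red (h : BadSetup A π M q)
    (W : laurentBaseChange Qb (modularFunctionFieldFull (M * q)) ≃ₐ[Qb]
      laurentBaseChange Qb (modularFunctionFieldFull (M * q)))
    {s : laurentBaseChange Qb (modularFunctionFieldFull (M * q))} (hsO : s ∈ OPair h W)
    {u u' : ↥(modularFunctionFieldFullC k M) × ↥(modularFunctionFieldFullC k M)}
    (huu' : u * u' = 1) (hr : redPair h W ⟨s, hsO⟩ = u) :
    s ≠ 0 ∧ ∃ hinv : s⁻¹ ∈ OPair h W, redPair h W ⟨s⁻¹, hinv⟩ = u' := by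
  have hO1 : s ∈ OInf h := ((mem_OPair_iff h _).1 hsO).1
  have hO2 : s ∈ OZero h W := ((mem_OPair_iff h _).1 hsO).2
  have hu1 : u.1 * u'.1 = 1 := congrArg Prod.fst huu'
  have hu2 : u.2 * u'.2 = 1 := congrArg Prod.snd huu'
  have hr₁ : redInf h ⟨s, hO1⟩ = u.1 := by
    have := hr
    rw [redPair_mk] at this
    exact congrArg Prod.fst this
  have hr₂ : redZero h W ⟨s, hO2⟩ = u.2 := by
    have := hr
    rw [redPair_mk] at this
    exact congrArg Prod.snd this
  have hu1ne : u.1 ≠ 0 := left_ne_zero_of_mul_eq_one hu1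
  have hu2ne : u.2 ≠ 0 := left_ne_zero_of_mul_eq_one hu2
  have hsne : s ≠ 0 := by
    rintro rfl
    have h0 : redInf h ⟨0, hO1⟩ = 0 := map_zero (redInf h)
    rw [hr₁] at h0
    exact hu1ne h0
  have hinv1 : s⁻¹ ∈ OInf h := inv_mem_OInf h _ hO1 (by rw [hr₁]; exact hu1ne)
  have hinv2 : s⁻¹ ∈ OZero h W := inv_mem_OZero h _ hO2 (by rw [hr₂]; exact hu2ne)
  have hinvO : s⁻¹ ∈ OPair h W := (mem_OPair_iff h _).2 ⟨hinv1, hinv2⟩
  refine ⟨hsne, hinvO, ?_⟩
  have h1 : redPair h W ⟨s, hsO⟩ * redPair h W ⟨s⁻¹, hinvO⟩ = 1 := by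
    rw [← map_mul]
    have : (⟨s, hsO⟩ : OPair h W) * ⟨s⁻¹, hinvO⟩ = 1 := Subtype.ext (mul_inv_cancel₀ hsne)
    rw [this, map_one]
  rw [hr] at h1
  calc redPair h W ⟨s⁻¹, hinvO⟩ = (u' * u) * redPair h W ⟨s⁻¹, hinvO⟩ := by
        rw [mul_comm u' u, huu', one_mul]
    _ = u' * (u * redPair h W ⟨s⁻¹, hinvO⟩) := by rw [mul_assoc]
    _ = u' := by rw [h1, mul_one]

set_option maxHeartbeats 1000000 in
/-- **Twisted reduction of a Kummer class**, for one nodal datum: if `m D = div f`, `f ∈ O`,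
`red f = u ^ m` with `u` a unit of `κ × κ`, and `x ↦ x ^ m` is injective on `k`, then
`u · red (L(D + B) ∩ O) = red (L(B) ∩ O)` for all large `B = n₁ E1 + n₂ E2`. -/
theorem twisted_kummer [IsAlgClosed k] (hπ : Function.Surjective π) (h : BadSetup A π M q)
    (W : laurentBaseChange Qb (modularFunctionFieldFull (M * q)) ≃ₐ[Qb]
      laurentBaseChange Qb (modularFunctionFieldFull (M * q))) (hW : IsAL M q W)
    {E1 E2 : Divisor Qb (laurentBaseChange Qb (modularFunctionFieldFull (M * q)))}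
    (hNF : NodalFibreFor h W E1 E2)
    (m : ℕ) (hm0 : m ≠ 0) (hinj : ∀ c : k, c ^ m = 1 → c = 1)
    (D : Divisor Qb (laurentBaseChange Qb (modularFunctionFieldFull (M * q))))
    (hD : Divisor.degree D = 0)
    (f : laurentBaseChange Qb (modularFunctionFieldFull (M * q))) (hf : f ≠ 0)
    (hdiv : ∀ P : Place Qb (laurentBaseChange Qb (modularFunctionFieldFull (M * q))),
      (m : ℤ) * D P = P.ord f)
    (hfO : f ∈ OPair h W)
    (u u' : ↥(modularFunctionFieldFullC k M) × ↥(modularFunctionFieldFullC k M))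
    (huu' : u * u' = 1) (hum : u ^ m = redPair h W ⟨f, hfO⟩) :
    ∃ N : ℕ, ∀ n₁ n₂ : ℕ, N ≤ n₁ + n₂ →
      ∀ t : ↥(modularFunctionFieldFullC k M) × ↥(modularFunctionFieldFullC k M),
        (∃ s : OPair h W,
            (s : laurentBaseChange Qb (modularFunctionFieldFull (M * q))) ∈
              riemannRochSpace (D + n₁ • E1 + n₂ • E2) ∧ u * redPair h W s = t) ↔
          (∃ y : OPair h W,
            (y : laurentBaseChange Qb (modularFunctionFieldFull (M * q))) ∈
              riemannRochSpace (n₁ • E1 + n₂ • E2) ∧ redPair h W y = t) := by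
  obtain ⟨ι, _, _, e₁, e₂, P₁, Z₁, P₂, Z₂, hinj₁, hinj₂, hP₁, hZ₁, hP₂, hZ₂, hd₁, hd₂,
    hdegP₁, hdegP₂, hE1, hE2, hdisj, hdegE1, hdegE2, hgalE, N₀, hS2⟩ := hNF
  have hLat : LatAt h W := latAt hπ h W hW
  have hconst : ∀ a : A, redPair h W ⟨algebraMap Qb
        ↥(laurentBaseChange Qb (modularFunctionFieldFull (M * q))) (a : Qb),
        (OPair_hOA h _).2 a.2⟩ = algebraMap k (↥(modularFunctionFieldFullC k M) ×
        ↥(modularFunctionFieldFullC k M)) (π a) := fun a => (redPair_algebraMap h a _).trans rfl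
  obtain ⟨N, hN⟩ := twisted_of_kummer (A := A) (O := OPair h W) (fun x => OPair_hOA h x)
    (redPair h W) π hπ h.pi_eq_zero_iff hconst (redPair_eq_zero_iff h) m hm0 hinj
    (isFF1_xL Qb (M * q)) (isFF1_xk k M) (isFF1_xk k M) e₁ e₂ P₁ Z₁ P₂ Z₂
    hP₁ hZ₁ hP₂ hZ₂ E1 E2 hdegE1 hdegE2 hLat
    ⟨N₀, fun n₁ n₂ hl => Submodule.ext fun t => by
      have e : VB 0 E1 E2 n₁ n₂ = riemannRochSpace (n₁ • E1 + n₂ • E2) := by
        unfold VB
        rw [zero_add]
      rw [e]
      exact hS2 n₁ n₂ hl t⟩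
    D hD f hf hdiv hfO u u' huu' hum
  refine ⟨N, fun n₁ n₂ hl t => ?_⟩
  have e : VB 0 E1 E2 n₁ n₂ = riemannRochSpace (n₁ • E1 + n₂ • E2) := by
    unfold VB
    rw [zero_add]
  have := hN n₁ n₂ hl t
  rw [e] at this
  exact this

set_option maxHeartbeats 1000000 in
/-- **(TOR)**: a class `[D]` with `m D = div f`, where `f` is a unit for both Gauss valuations
whose reduction is the `m`-th power of a unit pair `u` of functions on the two components, and
`x ↦ x ^ m` is injective on `k` (e.g. `m = q ^ j`), lies in the kernel of reduction. -/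
theorem mem_kerRed_of_kummer [IsAlgClosed k] (hπ : Function.Surjective π) (h : BadSetup A π M q)
    (W : laurentBaseChange Qb (modularFunctionFieldFull (M * q)) ≃ₐ[Qb]
      laurentBaseChange Qb (modularFunctionFieldFull (M * q))) (hW : IsAL M q W)
    (m : ℕ) (hm0 : m ≠ 0) (hinj : ∀ c : k, c ^ m = 1 → c = 1)
    (D : Divisor.degZero (K := Qb)
      (F := laurentBaseChange Qb (modularFunctionFieldFull (M * q))))
    (f : laurentBaseChange Qb (modularFunctionFieldFull (M * q))) (hf : f ≠ 0)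
    (hdiv : ∀ P : Place Qb (laurentBaseChange Qb (modularFunctionFieldFull (M * q))),
      (m : ℤ) * (D : Divisor Qb (laurentBaseChange Qb (modularFunctionFieldFull (M * q)))) P
        = P.ord f)
    (hfO : f ∈ OPair h W)
    (u u' : ↥(modularFunctionFieldFullC k M) × ↥(modularFunctionFieldFullC k M))
    (huu' : u * u' = 1) (hum : u ^ m = redPair h W ⟨f, hfO⟩) :
    Pic0.mk D ∈ kerRed h W := by
  classical
  by_cases hex : ∃ E1 E2, NodalFibreFor h W E1 E2
  swap
  · exact ⟨D, rfl, fun E1 E2 hNF => absurd ⟨E1, E2, hNF⟩ hex⟩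
  obtain ⟨Ea, Eb, hNFa⟩ := hex
  have hu'u : u' * u = 1 := by rw [mul_comm]; exact huu'
  have hDdeg : Divisor.degree
      (D : Divisor Qb (laurentBaseChange Qb (modularFunctionFieldFull (M * q)))) = 0 :=
    Divisor.mem_degZero.1 D.2
  have hDdeg' : Divisor.degree
      (-(D : Divisor Qb (laurentBaseChange Qb (modularFunctionFieldFull (M * q))))) = 0 := by
    rw [map_neg, hDdeg, neg_zero]
  -- the inverse Kummer function
  have hpow : u ^ m * u' ^ m = 1 := by rw [← mul_pow, huu', one_pow]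
  obtain ⟨-, hfinvO, hrinv⟩ := inv_mem_OPair_of_red h W hfO hpow hum.symm
  have hdiv' : ∀ P : Place Qb (laurentBaseChange Qb (modularFunctionFieldFull (M * q))),
      (m : ℤ) * (-(D : Divisor Qb (laurentBaseChange Qb (modularFunctionFieldFull (M * q))))) P
        = P.ord f⁻¹ := by
    intro P
    rw [Finsupp.neg_apply, P.ord_inv, ← hdiv]
    ring
  -- the section `s₀` on the fixed datum
  obtain ⟨Na, hNa⟩ := twisted_kummer hπ h W hW hNFa m hm0 hinj _ hDdeg f hf hdiv hfO u u' huu' hum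
  obtain ⟨hEa, hEb⟩ := hNFa.nonneg
  obtain ⟨⟨s₀, hs₀O⟩, hs₀, hr₀⟩ := (hNa Na 0 (by omega) 1).2
    ⟨1, one_mem_L hEa hEb Na 0, map_one _⟩
  have hr₀' : redPair h W ⟨s₀, hs₀O⟩ = u' := by
    calc redPair h W ⟨s₀, hs₀O⟩ = (u' * u) * redPair h W ⟨s₀, hs₀O⟩ := by rw [hu'u, one_mul]
      _ = u' * (u * redPair h W ⟨s₀, hs₀O⟩) := by rw [mul_assoc]
      _ = u' := by rw [hr₀, mul_one]
  obtain ⟨hs₀ne, hinvO, hrinv₀⟩ := inv_mem_OPair_of_red h W hs₀O hu'u hr₀'
  -- the divisor of `s₀`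
  have hPD := (isFF1_xL Qb (M * q)).hasPrincipalDivisors
  obtain ⟨Ds, hDs, hDsdeg⟩ := HasPrincipalDivisors.exists_divisor (K := Qb) s₀ hs₀ne
  have hDsmem : Ds ∈ Divisor.degZero (K := Qb)
      (F := laurentBaseChange Qb (modularFunctionFieldFull (M * q))) :=
    Divisor.mem_degZero.2 hDsdeg
  have hcoe : ((D + ⟨Ds, hDsmem⟩ : Divisor.degZero (K := Qb)
        (F := laurentBaseChange Qb (modularFunctionFieldFull (M * q)))) :
      Divisor Qb (laurentBaseChange Qb (modularFunctionFieldFull (M * q)))) =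
      (D : Divisor Qb (laurentBaseChange Qb (modularFunctionFieldFull (M * q)))) + Ds := rfl
  have hmk : Pic0.mk (D + ⟨Ds, hDsmem⟩) = Pic0.mk D := by
    rw [Pic0.mk_add]
    have : Pic0.mk (⟨Ds, hDsmem⟩ : Divisor.degZero (K := Qb)
        (F := laurentBaseChange Qb (modularFunctionFieldFull (M * q)))) = 0 :=
      (QuotientAddGroup.eq_zero_iff _).2 ⟨s₀, hs₀ne, hDs⟩
    rw [this, add_zero]
  refine ⟨D + ⟨Ds, hDsmem⟩, hmk, fun E1 E2 hNF => ?_⟩
  rw [hcoe]
  obtain ⟨hE1, hE2⟩ := hNF.nonneg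
  obtain ⟨N, hN⟩ := twisted_kummer hπ h W hW hNF m hm0 hinj _ hDdeg f hf hdiv hfO u u' huu' hum
  obtain ⟨N', hN'⟩ := twisted_kummer hπ h W hW hNF m hm0 hinj _ hDdeg' f⁻¹ (inv_ne_zero hf)
    hdiv' hfinvO u' u hu'u hrinv.symm
  have hone : ((algebraMap k ↥(modularFunctionFieldFullC k M) 1,
      algebraMap k ↥(modularFunctionFieldFullC k M) 1) :
      ↥(modularFunctionFieldFullC k M) × ↥(modularFunctionFieldFullC k M)) = 1 := by
    rw [map_one]; rfl
  constructor
  · refine ⟨1, 1, one_ne_zero, one_ne_zero, N, fun n₁ n₂ hl => ?_⟩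
    obtain ⟨y, hy, hry⟩ := (hN n₁ n₂ hl 1).2 ⟨1, one_mem_L hE1 hE2 n₁ n₂, map_one _⟩
    have hy'' : (y : laurentBaseChange Qb (modularFunctionFieldFull (M * q))) ∈
        VB (D : Divisor Qb (laurentBaseChange Qb (modularFunctionFieldFull (M * q))))
          E1 E2 n₁ n₂ := hy
    have hm := mul_mem_VB hy'' (inv_mem_VB_of_div E1 E2 hDs)
    rw [add_zero, add_zero] at hm
    unfold VB at hm
    have hm2 : ((y * ⟨s₀⁻¹, hinvO⟩ : OPair h W) :
        laurentBaseChange Qb (modularFunctionFieldFull (M * q))) ∈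
        riemannRochSpace ((D : Divisor Qb (laurentBaseChange Qb
          (modularFunctionFieldFull (M * q)))) + Ds + n₁ • E1 + n₂ • E2) := hm
    have hred : redPair h W (y * ⟨s₀⁻¹, hinvO⟩) = 1 := by
      rw [map_mul, hrinv₀, mul_comm]
      exact hry
    refine ⟨_, hm2, ?_⟩
    rw [hred, hone]
  · refine ⟨1, 1, one_ne_zero, one_ne_zero, N', fun n₁ n₂ hl => ?_⟩
    obtain ⟨y', hy', hry'⟩ := (hN' n₁ n₂ hl 1).2 ⟨1, one_mem_L hE1 hE2 n₁ n₂, map_one _⟩
    have hy'' : (y' : laurentBaseChange Qb (modularFunctionFieldFull (M * q))) ∈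
        VB (-(D : Divisor Qb (laurentBaseChange Qb (modularFunctionFieldFull (M * q)))))
          E1 E2 n₁ n₂ := hy'
    have hm := mul_mem_VB hy'' (mem_VB_neg_of_div E1 E2 hDs)
    rw [add_zero, add_zero, ← neg_add] at hm
    unfold VB at hm
    have hm2 : ((y' * ⟨s₀, hs₀O⟩ : OPair h W) :
        laurentBaseChange Qb (modularFunctionFieldFull (M * q))) ∈
        riemannRochSpace (-((D : Divisor Qb (laurentBaseChange Qb
          (modularFunctionFieldFull (M * q)))) + Ds) + n₁ • E1 + n₂ • E2) := hm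
    have hred : redPair h W (y' * ⟨s₀, hs₀O⟩) = 1 := by
      rw [map_mul, hr₀', mul_comm]
      exact hry'
    refine ⟨_, hm2, ?_⟩
    rw [hred, hone]

/-- **(TOR) for `q`-power torsion** (`q` the residue characteristic). -/
theorem mem_kerRed_of_kummer_char [IsAlgClosed k] (hπ : Function.Surjective π)
    (h : BadSetup A π M q)
    (W : laurentBaseChange Qb (modularFunctionFieldFull (M * q)) ≃ₐ[Qb]
      laurentBaseChange Qb (modularFunctionFieldFull (M * q))) (hW : IsAL M q W) (j : ℕ)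
    (D : Divisor.degZero (K := Qb)
      (F := laurentBaseChange Qb (modularFunctionFieldFull (M * q))))
    (f : laurentBaseChange Qb (modularFunctionFieldFull (M * q))) (hf : f ≠ 0)
    (hdiv : ∀ P : Place Qb (laurentBaseChange Qb (modularFunctionFieldFull (M * q))),
      ((q ^ j : ℕ) : ℤ) *
        (D : Divisor Qb (laurentBaseChange Qb (modularFunctionFieldFull (M * q)))) P = P.ord f)
    (hfO : f ∈ OPair h W)
    (u u' : ↥(modularFunctionFieldFullC k M) × ↥(modularFunctionFieldFullC k M))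
    (huu' : u * u' = 1) (hum : u ^ (q ^ j) = redPair h W ⟨f, hfO⟩) :
    Pic0.mk D ∈ kerRed h W := by
  have hq : q.Prime := h.hℓ
  have := h.charP
  exact mem_kerRed_of_kummer hπ h W hW (q ^ j) (pow_ne_zero j hq.ne_zero)
    (fun c hc => eq_one_of_pow_char_pow q hq j c hc) D f hf hdiv hfO u u' huu' hum

end kummer

end Fermat.Agent.BAD.KerRed
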