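import Mathlib
import Fermat.Agent.BAD.KerRedKummer

/-!
# The Kummer criterion for `kerRed` with two independent normalisations

Setting of `BAD/KerRed.lean` (`q` = the residue characteristic is allowed).

* `exists_scaling_pair` : for every constant `b ≠ 0` there is a function `g` which is a unit of
  `O_∞` with constant reduction and such that `g / b` is a unit of `O_0` with constant reduction
  (the two Gauss valuations of a function can differ by an arbitrary element of the value group);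
* `mem_kerRed_of_kummer_two` : **(TOR), two-constant form.**  If `m D = div f`, and for constants
  `a`, `b` the function `f / a` is in `O_∞` with reduction `u₁ ^ m` (`u₁ ≠ 0`) and `f / b` is in
  `O_0` with reduction `u₂ ^ m` (`u₂ ≠ 0`), and `x ↦ x ^ m` is injective on `k` (e.g.
  `m = q ^ j`), then the class of `D` lies in `kerRed h W`.  No relation between the valuations
  of `a` and `b` is needed.
-/

set_option autoImplicit false

namespace Fermat.Agent.BAD.KerRed

open AlgebraicCurve ModularCurve Fermat.Agent.Lib.FF Fermat.Agent.Lib.Red.Deform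
  Fermat.Agent.Lib.Red.CoordLat Fermat.Agent.BAD.NodalDiv Fermat.Agent.BAD.NodalRiemann
  Fermat.Agent.BAD.TwoVal Fermat.Agent.BAD.NodalAsm Fermat.Agent.BAD.BadU
  Fermat.Agent.BAD.NodalP1Asm Fermat.Agent.BAD.NodalBridge

local notation "Qb" => AlgebraicClosure ℚ

section two

variable {A : ValuationSubring Qb} {k : Type} [Field k] {π : A →+* k} {M q : ℕ} [NeZero M]
  [NeZero q]

/-- The case `|b| < 1` of `exists_scaling_pair`, with both reductions equal to `1`. -/
theorem exists_scaling_pair_lt (h : BadSetup A π M q)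
    (W : laurentBaseChange Qb (modularFunctionFieldFull (M * q)) ≃ₐ[Qb]
      laurentBaseChange Qb (modularFunctionFieldFull (M * q))) (hW : IsAL M q W)
    (b : Qb) (hb : b ≠ 0) (hlt : A.valuation b < 1) :
    ∃ g : laurentBaseChange Qb (modularFunctionFieldFull (M * q)),
      ∃ (h1 : g ∈ OInf h)
        (h2 : g * (algebraMap Qb ↥(laurentBaseChange Qb (modularFunctionFieldFull (M * q)))
          b)⁻¹ ∈ OZero h W),
        redInf h ⟨g, h1⟩ = 1 ∧ redZero h W ⟨_, h2⟩ = 1 := by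
  obtain ⟨e, he1, he2, hr1, hr2⟩ := exists_sep h hW
  have hbA : b ∈ A := (A.valuation_le_one_iff b).1 hlt.le
  have hπb : π ⟨b, hbA⟩ = 0 := (h.pi_eq_zero_iff ⟨b, hbA⟩).2 hlt
  -- `e' = 1 - e` has residues `(1, 0)`
  have he'1 : 1 - e ∈ OInf h := sub_mem (one_mem _) he1
  have he'2 : 1 - e ∈ OZero h W := sub_mem (one_mem _) he2
  have hre'1 : redInf h ⟨1 - e, he'1⟩ = 1 := by
    have : (⟨1 - e, he'1⟩ : OInf h) = 1 - ⟨e, he1⟩ := rfl
    rw [this, map_sub, map_one, hr1, sub_zero]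
  have hre'2 : redZero h W ⟨1 - e, he'2⟩ = 0 := by
    have : (⟨1 - e, he'2⟩ : OZero h W) = 1 - ⟨e, he2⟩ := rfl
    rw [this, map_sub, map_one, hr2, sub_self]
  have he'0 : 1 - e ≠ 0 := by
    intro h0
    have h1 : redInf h ⟨1 - e, he'1⟩ = 0 := by
      have : (⟨1 - e, he'1⟩ : OInf h) = 0 := Subtype.ext h0
      rw [this, map_zero]
    rw [hre'1] at h1
    exact one_ne_zero h1
  -- scale `e'` to a unit of `O_0`
  obtain ⟨c, hc0, hm, hne⟩ := exists_scaling_OZero (W := W) h (1 - e) he'0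
  have hcA : c ∉ A := by
    intro hcA
    apply hne
    have hcO : algebraMap Qb ↥(laurentBaseChange Qb (modularFunctionFieldFull (M * q))) c ∈
        OZero h W := (algebraMap_mem_OZero_iff h c).2 hcA
    have : (⟨_, hm⟩ : OZero h W) = ⟨_, hcO⟩ * ⟨1 - e, he'2⟩ := rfl
    rw [this, map_mul, hre'2, mul_zero]
  have hcinv : c⁻¹ ∈ A := (A.mem_or_inv_mem c).resolve_left hcA
  have hcnu : ¬ IsUnit (⟨c⁻¹, hcinv⟩ : A) := by
    intro hu
    obtain ⟨v, hv⟩ := hu
    apply hcA
    have h1 : ((v⁻¹ : Aˣ) : A) * (⟨c⁻¹, hcinv⟩ : A) = 1 := by rw [← hv]; exact v.inv_mul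
    have h2 : (((v⁻¹ : Aˣ) : A) : Qb) * c⁻¹ = 1 := congrArg Subtype.val h1
    have h3 : (((v⁻¹ : Aˣ) : A) : Qb) = c := by
      field_simp at h2
      exact h2
    rw [← h3]
    exact SetLike.coe_mem _
  have hb0 : (⟨b, hbA⟩ : A) ≠ 0 := fun h0 => hb (congrArg Subtype.val h0)
  obtain ⟨r, t, ht⟩ := h.hrank ⟨c⁻¹, hcinv⟩ ⟨b, hbA⟩ hcnu hb0
  have ht' : (c⁻¹) ^ r = b * (t : Qb) := by
    have := congrArg Subtype.val ht
    simpa using this
  -- the small constant `d = c⁻¹ ^ (r + 1) / b = c⁻¹ t`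
  set d : A := ⟨c⁻¹, hcinv⟩ * t with hd
  have hπd : π d = 0 := by
    rw [hd, map_mul, h.hπ _ hcnu, zero_mul]
  have hdO : algebraMap Qb ↥(laurentBaseChange Qb (modularFunctionFieldFull (M * q)))
      (d : Qb) ∈ OZero h W := (algebraMap_mem_OZero_iff h _).2 d.2
  have hbF : algebraMap Qb ↥(laurentBaseChange Qb (modularFunctionFieldFull (M * q))) b ≠ 0 :=
    (map_ne_zero _).2 hb
  have hcF : algebraMap Qb ↥(laurentBaseChange Qb (modularFunctionFieldFull (M * q))) c ≠ 0 :=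
    (map_ne_zero _).2 hc0
  have hid : (1 - e) ^ (r + 1) *
      (algebraMap Qb ↥(laurentBaseChange Qb (modularFunctionFieldFull (M * q))) b)⁻¹ =
      (algebraMap Qb ↥(laurentBaseChange Qb (modularFunctionFieldFull (M * q))) c * (1 - e))
        ^ (r + 1) *
      algebraMap Qb ↥(laurentBaseChange Qb (modularFunctionFieldFull (M * q))) (d : Qb) := by
    have hdval : (d : Qb) = c⁻¹ ^ (r + 1) * b⁻¹ := by
      rw [hd]
      show c⁻¹ * (t : Qb) = c⁻¹ ^ (r + 1) * b⁻¹
      rw [pow_succ, ht']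
      field_simp
    rw [hdval, map_mul, map_pow, map_inv₀, map_inv₀, mul_pow]
    have hcc : (algebraMap Qb ↥(laurentBaseChange Qb (modularFunctionFieldFull (M * q))) c)
        ^ (r + 1) *
        ((algebraMap Qb ↥(laurentBaseChange Qb (modularFunctionFieldFull (M * q))) c)⁻¹)
          ^ (r + 1) = 1 := by
      rw [← mul_pow, mul_inv_cancel₀ hcF, one_pow]
    linear_combination (-((1 - e) ^ (r + 1) *
      (algebraMap Qb ↥(laurentBaseChange Qb (modularFunctionFieldFull (M * q))) b)⁻¹)) * hcc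
  have hprod : (algebraMap Qb ↥(laurentBaseChange Qb (modularFunctionFieldFull (M * q))) c *
      (1 - e)) ^ (r + 1) *
      algebraMap Qb ↥(laurentBaseChange Qb (modularFunctionFieldFull (M * q))) (d : Qb) ∈
      OZero h W := mul_mem (pow_mem hm _) hdO
  have hsmall : (1 - e) ^ (r + 1) *
      (algebraMap Qb ↥(laurentBaseChange Qb (modularFunctionFieldFull (M * q))) b)⁻¹ ∈
      OZero h W := by rw [hid]; exact hprod
  have hsmallred : redZero h W ⟨_, hsmall⟩ = 0 := by
    have e1 : (⟨_, hsmall⟩ : OZero h W) = (⟨_, hm⟩ : OZero h W) ^ (r + 1) * ⟨_, hdO⟩ :=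
      Subtype.ext hid
    rw [e1, map_mul, redZero_algebraMap h d hdO, hπd, map_zero, mul_zero]
  -- the function `g`
  have hbO1 : algebraMap Qb ↥(laurentBaseChange Qb (modularFunctionFieldFull (M * q))) b ∈
      OInf h := (algebraMap_mem_OInf_iff h b).2 hbA
  have hg1 : (1 - e) ^ (r + 1) +
      algebraMap Qb ↥(laurentBaseChange Qb (modularFunctionFieldFull (M * q))) b ∈ OInf h :=
    add_mem (pow_mem he'1 _) hbO1
  have hgid : ((1 - e) ^ (r + 1) +
      algebraMap Qb ↥(laurentBaseChange Qb (modularFunctionFieldFull (M * q))) b) *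
      (algebraMap Qb ↥(laurentBaseChange Qb (modularFunctionFieldFull (M * q))) b)⁻¹ =
      (1 - e) ^ (r + 1) *
        (algebraMap Qb ↥(laurentBaseChange Qb (modularFunctionFieldFull (M * q))) b)⁻¹ + 1 := by
    rw [add_mul, mul_inv_cancel₀ hbF]
  have hg2 : ((1 - e) ^ (r + 1) +
      algebraMap Qb ↥(laurentBaseChange Qb (modularFunctionFieldFull (M * q))) b) *
      (algebraMap Qb ↥(laurentBaseChange Qb (modularFunctionFieldFull (M * q))) b)⁻¹ ∈
      OZero h W := by
    rw [hgid]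
    exact add_mem hsmall (one_mem _)
  refine ⟨_, hg1, hg2, ?_, ?_⟩
  · have e1 : (⟨_, hg1⟩ : OInf h) = (⟨1 - e, he'1⟩ : OInf h) ^ (r + 1) + ⟨_, hbO1⟩ := rfl
    rw [e1, map_add, map_pow, hre'1, one_pow, redInf_algebraMap h ⟨b, hbA⟩ hbO1, hπb, map_zero,
      add_zero]
  · have e1 : (⟨_, hg2⟩ : OZero h W) = (⟨_, hsmall⟩ : OZero h W) + 1 := Subtype.ext hgid
    rw [e1, map_add, hsmallred, map_one, zero_add]

/-- **Two-valuation scaling**: for every constant `b ≠ 0` there is a function `g ∈ O_∞` with a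
nonzero constant reduction such that `g / b ∈ O_0` has a nonzero constant reduction. -/
theorem exists_scaling_pair (h : BadSetup A π M q)
    (W : laurentBaseChange Qb (modularFunctionFieldFull (M * q)) ≃ₐ[Qb]
      laurentBaseChange Qb (modularFunctionFieldFull (M * q))) (hW : IsAL M q W)
    (b : Qb) (hb : b ≠ 0) :
    ∃ g : laurentBaseChange Qb (modularFunctionFieldFull (M * q)),
      ∃ (h1 : g ∈ OInf h)
        (h2 : g * (algebraMap Qb ↥(laurentBaseChange Qb (modularFunctionFieldFull (M * q)))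
          b)⁻¹ ∈ OZero h W),
        ∃ c₁ c₂ : k, c₁ ≠ 0 ∧ c₂ ≠ 0 ∧
          redInf h ⟨g, h1⟩ = algebraMap k ↥(modularFunctionFieldFullC k M) c₁ ∧
          redZero h W ⟨_, h2⟩ = algebraMap k ↥(modularFunctionFieldFullC k M) c₂ := by
  have hbF : algebraMap Qb ↥(laurentBaseChange Qb (modularFunctionFieldFull (M * q))) b ≠ 0 :=
    (map_ne_zero _).2 hb
  rcases lt_trichotomy (A.valuation b) 1 with hlt | heq | hgt
  · obtain ⟨g, h1, h2, hr1, hr2⟩ := exists_scaling_pair_lt h W hW b hb hlt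
    exact ⟨g, h1, h2, 1, 1, one_ne_zero, one_ne_zero, by rw [hr1, map_one], by rw [hr2, map_one]⟩
  · -- `b` is a unit of `A`: `g = 1`
    have hbinvA : b⁻¹ ∈ A := by
      rw [← A.valuation_le_one_iff, map_inv₀, heq, inv_one]
    have hbA : b ∈ A := (A.valuation_le_one_iff b).1 heq.le
    have h2 : (1 : ↥(laurentBaseChange Qb (modularFunctionFieldFull (M * q)))) *
        (algebraMap Qb ↥(laurentBaseChange Qb (modularFunctionFieldFull (M * q))) b)⁻¹ ∈
        OZero h W := by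
      rw [one_mul, ← map_inv₀]
      exact (algebraMap_mem_OZero_iff h _).2 hbinvA
    have hπ0 : π ⟨b⁻¹, hbinvA⟩ ≠ 0 := by
      intro h0
      have h1 : π (⟨b⁻¹, hbinvA⟩ * ⟨b, hbA⟩) = 1 := by
        have : (⟨b⁻¹, hbinvA⟩ * ⟨b, hbA⟩ : A) = 1 := Subtype.ext (inv_mul_cancel₀ hb)
        rw [this, map_one]
      rw [map_mul, h0, zero_mul] at h1
      exact zero_ne_one h1
    refine ⟨1, one_mem _, h2, 1, π ⟨b⁻¹, hbinvA⟩, one_ne_zero, hπ0, ?_, ?_⟩
    · have : (⟨1, one_mem _⟩ : OInf h) = 1 := rfl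
      rw [this, map_one, map_one]
    · have hO : algebraMap Qb ↥(laurentBaseChange Qb (modularFunctionFieldFull (M * q)))
          ((⟨b⁻¹, hbinvA⟩ : A) : Qb) ∈ OZero h W := (algebraMap_mem_OZero_iff h _).2 hbinvA
      have e1 : (⟨_, h2⟩ : OZero h W) = ⟨_, hO⟩ := by
        apply Subtype.ext
        show (1 : ↥(laurentBaseChange Qb (modularFunctionFieldFull (M * q)))) *
          (algebraMap Qb ↥(laurentBaseChange Qb (modularFunctionFieldFull (M * q))) b)⁻¹ =
          algebraMap Qb ↥(laurentBaseChange Qb (modularFunctionFieldFull (M * q))) b⁻¹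
        rw [one_mul, map_inv₀]
      rw [e1, redZero_algebraMap h ⟨b⁻¹, hbinvA⟩ hO]
  · -- `|b| > 1`: apply the first case to `b⁻¹` and transport by `W`
    have hlt : A.valuation b⁻¹ < 1 := by
      rw [map_inv₀]
      exact (inv_lt_one₀ (zero_lt_one.trans hgt)).2 hgt
    obtain ⟨g₀, h1, h2, hr1, hr2⟩ := exists_scaling_pair_lt h W hW b⁻¹ (inv_ne_zero hb) hlt
    -- `g₀ ∈ O_∞`, `g₀ * b ∈ O_0`
    have h2' : g₀ * algebraMap Qb ↥(laurentBaseChange Qb (modularFunctionFieldFull (M * q))) b ∈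
        OZero h W := by
      have := h2
      rwa [map_inv₀, inv_inv] at this
    have hr2' : redZero h W ⟨_, h2'⟩ = 1 := by
      have e1 : (⟨_, h2'⟩ : OZero h W) = ⟨_, h2⟩ := by
        apply Subtype.ext
        show g₀ * algebraMap Qb ↥(laurentBaseChange Qb (modularFunctionFieldFull (M * q))) b =
          g₀ * (algebraMap Qb ↥(laurentBaseChange Qb (modularFunctionFieldFull (M * q))) b⁻¹)⁻¹
        rw [map_inv₀, inv_inv]
      rw [e1, hr2]
    have hinv : ∀ z, W (W z) = z := fun z => hW.invol h.hℓ h.not_dvd z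
    -- `g = W (g₀ * b)`
    have hg1 : W (g₀ *
        algebraMap Qb ↥(laurentBaseChange Qb (modularFunctionFieldFull (M * q))) b) ∈ OInf h :=
      (mem_OZero_iff h _).1 h2'
    have hgid : W (g₀ *
        algebraMap Qb ↥(laurentBaseChange Qb (modularFunctionFieldFull (M * q))) b) *
        (algebraMap Qb ↥(laurentBaseChange Qb (modularFunctionFieldFull (M * q))) b)⁻¹ = W g₀ := by
      rw [map_mul, W.commutes, mul_assoc, mul_inv_cancel₀ hbF, mul_one]
    have hWg₀ : W g₀ ∈ OZero h W := by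
      rw [mem_OZero_iff, hinv]
      exact h1
    have hg2 : W (g₀ *
        algebraMap Qb ↥(laurentBaseChange Qb (modularFunctionFieldFull (M * q))) b) *
        (algebraMap Qb ↥(laurentBaseChange Qb (modularFunctionFieldFull (M * q))) b)⁻¹ ∈
        OZero h W := by rw [hgid]; exact hWg₀
    refine ⟨_, hg1, hg2, 1, 1, one_ne_zero, one_ne_zero, ?_, ?_⟩
    · rw [map_one, ← hr2']
      rfl
    · have e1 : (⟨_, hg2⟩ : OZero h W) = ⟨W g₀, hWg₀⟩ := Subtype.ext hgid
      rw [e1, redZero_mk, map_one]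
      exact (redInf_congr h (hinv g₀) hWg₀ h1).trans hr1

set_option maxHeartbeats 1000000 in
/-- **(TOR), two-constant form**: a class `[D]` with `m D = div f` such that `f / a` (in `O_∞`)
and `f / b` (in `O_0`) have reductions which are `m`-th powers of nonzero functions, for some
constants `a`, `b`, lies in the kernel of reduction, provided `x ↦ x ^ m` is injective on `k`. -/
theorem mem_kerRed_of_kummer_two [IsAlgClosed k] (hπ : Function.Surjective π)
    (h : BadSetup A π M q)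
    (W : laurentBaseChange Qb (modularFunctionFieldFull (M * q)) ≃ₐ[Qb]
      laurentBaseChange Qb (modularFunctionFieldFull (M * q))) (hW : IsAL M q W)
    (m : ℕ) (hm0 : m ≠ 0) (hinj : ∀ c : k, c ^ m = 1 → c = 1)
    (D : Divisor.degZero (K := Qb)
      (F := laurentBaseChange Qb (modularFunctionFieldFull (M * q))))
    (f : laurentBaseChange Qb (modularFunctionFieldFull (M * q))) (hf : f ≠ 0)
    (hdiv : ∀ P : Place Qb (laurentBaseChange Qb (modularFunctionFieldFull (M * q))),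
      (m : ℤ) * (D : Divisor Qb (laurentBaseChange Qb (modularFunctionFieldFull (M * q)))) P
        = P.ord f)
    (a b : Qb) (ha : a ≠ 0) (hb : b ≠ 0)
    (hfa : f * (algebraMap Qb ↥(laurentBaseChange Qb (modularFunctionFieldFull (M * q))) a)⁻¹ ∈
      OInf h)
    (hfb : f * (algebraMap Qb ↥(laurentBaseChange Qb (modularFunctionFieldFull (M * q))) b)⁻¹ ∈
      OZero h W)
    (u₁ u₂ : ↥(modularFunctionFieldFullC k M)) (hu₁ : u₁ ≠ 0) (hu₂ : u₂ ≠ 0)
    (h₁ : redInf h ⟨_, hfa⟩ = u₁ ^ m) (h₂ : redZero h W ⟨_, hfb⟩ = u₂ ^ m) :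
    Pic0.mk D ∈ kerRed h W := by
  classical
  have hmpos : 0 < m := Nat.pos_of_ne_zero hm0
  have haF : algebraMap Qb ↥(laurentBaseChange Qb (modularFunctionFieldFull (M * q))) a ≠ 0 :=
    (map_ne_zero _).2 ha
  have hbF : algebraMap Qb ↥(laurentBaseChange Qb (modularFunctionFieldFull (M * q))) b ≠ 0 :=
    (map_ne_zero _).2 hb
  -- a constant `c` with `c ^ m = b / a`
  obtain ⟨c, hc⟩ := IsAlgClosed.exists_pow_nat_eq (b / a) hmpos
  have hc0 : c ≠ 0 := by
    rintro rfl
    rw [zero_pow hm0] at hc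
    exact div_ne_zero hb ha hc.symm
  have hcF : algebraMap Qb ↥(laurentBaseChange Qb (modularFunctionFieldFull (M * q))) c ≠ 0 :=
    (map_ne_zero _).2 hc0
  obtain ⟨g, hg1, hg2, c₁, c₂, hc₁, hc₂, hrg1, hrg2⟩ := exists_scaling_pair h W hW c hc0
  have hg0 : g ≠ 0 := by
    rintro rfl
    have h0 : redInf h ⟨0, hg1⟩ = 0 := map_zero (redInf h)
    rw [hrg1] at h0
    exact hc₁ ((map_eq_zero _).1 h0)
  -- inverses
  have hginv1 : g⁻¹ ∈ OInf h := inv_mem_OInf h g hg1 (by rw [hrg1]; exact (map_ne_zero _).2 hc₁)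
  have hrginv1 : redInf h ⟨g⁻¹, hginv1⟩ = algebraMap k ↥(modularFunctionFieldFullC k M) c₁⁻¹ := by
    have h1 : redInf h ⟨g, hg1⟩ * redInf h ⟨g⁻¹, hginv1⟩ = 1 := by
      rw [← map_mul]
      have : (⟨g, hg1⟩ : OInf h) * ⟨g⁻¹, hginv1⟩ = 1 := Subtype.ext (mul_inv_cancel₀ hg0)
      rw [this, map_one]
    rw [hrg1] at h1
    rw [map_inv₀]
    exact eq_inv_of_mul_eq_one_right h1
  have hginv2 : (g * (algebraMap Qb ↥(laurentBaseChange Qb (modularFunctionFieldFull (M * q)))
      c)⁻¹)⁻¹ ∈ OZero h W :=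
    inv_mem_OZero h _ hg2 (by rw [hrg2]; exact (map_ne_zero _).2 hc₂)
  have hgc0 : g * (algebraMap Qb ↥(laurentBaseChange Qb (modularFunctionFieldFull (M * q)))
      c)⁻¹ ≠ 0 := mul_ne_zero hg0 (inv_ne_zero hcF)
  have hrginv2 : redZero h W ⟨_, hginv2⟩ =
      algebraMap k ↥(modularFunctionFieldFullC k M) c₂⁻¹ := by
    have h1 : redZero h W ⟨_, hg2⟩ * redZero h W ⟨_, hginv2⟩ = 1 := by
      rw [← map_mul]
      have : (⟨_, hg2⟩ : OZero h W) * ⟨_, hginv2⟩ = 1 := Subtype.ext (mul_inv_cancel₀ hgc0)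
      rw [this, map_one]
    rw [hrg2] at h1
    rw [map_inv₀]
    exact eq_inv_of_mul_eq_one_right h1
  -- the new Kummer function
  set f' : laurentBaseChange Qb (modularFunctionFieldFull (M * q)) :=
    f * (algebraMap Qb ↥(laurentBaseChange Qb (modularFunctionFieldFull (M * q))) a)⁻¹ *
      g⁻¹ ^ m with hf'
  have hf'0 : f' ≠ 0 :=
    mul_ne_zero (mul_ne_zero hf (inv_ne_zero haF)) (pow_ne_zero m (inv_ne_zero hg0))
  have hf'1 : f' ∈ OInf h := mul_mem hfa (pow_mem hginv1 m)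
  have hcm : (algebraMap Qb ↥(laurentBaseChange Qb (modularFunctionFieldFull (M * q))) c) ^ m =
      algebraMap Qb ↥(laurentBaseChange Qb (modularFunctionFieldFull (M * q))) b *
        (algebraMap Qb ↥(laurentBaseChange Qb (modularFunctionFieldFull (M * q))) a)⁻¹ := by
    rw [← map_pow, hc, map_div₀, div_eq_mul_inv]
  have hf'id : f' =
      f * (algebraMap Qb ↥(laurentBaseChange Qb (modularFunctionFieldFull (M * q))) b)⁻¹ *
        ((g * (algebraMap Qb ↥(laurentBaseChange Qb (modularFunctionFieldFull (M * q)))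
          c)⁻¹)⁻¹) ^ m := by
    rw [hf', mul_inv, inv_inv, mul_pow, hcm]
    field_simp
  have hf'2 : f' ∈ OZero h W := by
    rw [hf'id]
    exact mul_mem hfb (pow_mem hginv2 m)
  have hf'O : f' ∈ OPair h W := (mem_OPair_iff h _).2 ⟨hf'1, hf'2⟩
  have hred1 : redInf h ⟨f', hf'1⟩ =
      (u₁ * algebraMap k ↥(modularFunctionFieldFullC k M) c₁⁻¹) ^ m := by
    have e1 : (⟨f', hf'1⟩ : OInf h) = ⟨_, hfa⟩ * (⟨g⁻¹, hginv1⟩ : OInf h) ^ m := rfl
    rw [e1, map_mul, map_pow, h₁, hrginv1, mul_pow]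
  have hred2 : redZero h W ⟨f', hf'2⟩ =
      (u₂ * algebraMap k ↥(modularFunctionFieldFullC k M) c₂⁻¹) ^ m := by
    have e1 : (⟨f', hf'2⟩ : OZero h W) = ⟨_, hfb⟩ * (⟨_, hginv2⟩ : OZero h W) ^ m :=
      Subtype.ext hf'id
    rw [e1, map_mul, map_pow, h₂, hrginv2, mul_pow]
  have hU₁ : u₁ * algebraMap k ↥(modularFunctionFieldFullC k M) c₁⁻¹ ≠ 0 :=
    mul_ne_zero hu₁ ((map_ne_zero _).2 (inv_ne_zero hc₁))
  have hU₂ : u₂ * algebraMap k ↥(modularFunctionFieldFullC k M) c₂⁻¹ ≠ 0 :=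
    mul_ne_zero hu₂ ((map_ne_zero _).2 (inv_ne_zero hc₂))
  -- the divisor of `g`
  have hPD := (isFF1_xL Qb (M * q)).hasPrincipalDivisors
  obtain ⟨Dg, hDg, hDgdeg⟩ := HasPrincipalDivisors.exists_divisor (K := Qb) g hg0
  have hDgmem : Dg ∈ Divisor.degZero (K := Qb)
      (F := laurentBaseChange Qb (modularFunctionFieldFull (M * q))) :=
    Divisor.mem_degZero.2 hDgdeg
  have hcoe : ((D - ⟨Dg, hDgmem⟩ : Divisor.degZero (K := Qb)
        (F := laurentBaseChange Qb (modularFunctionFieldFull (M * q)))) :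
      Divisor Qb (laurentBaseChange Qb (modularFunctionFieldFull (M * q)))) =
      (D : Divisor Qb (laurentBaseChange Qb (modularFunctionFieldFull (M * q)))) - Dg := rfl
  have hmk : Pic0.mk (D - ⟨Dg, hDgmem⟩) = Pic0.mk D := by
    have h0 : Pic0.mk (⟨Dg, hDgmem⟩ : Divisor.degZero (K := Qb)
        (F := laurentBaseChange Qb (modularFunctionFieldFull (M * q)))) = 0 :=
      (QuotientAddGroup.eq_zero_iff _).2 ⟨g, hg0, hDg⟩
    have h1 : Pic0.mk (D - ⟨Dg, hDgmem⟩) = Pic0.mk D - Pic0.mk ⟨Dg, hDgmem⟩ := rfl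
    rw [h1, h0, sub_zero]
  have hdiv' : ∀ P : Place Qb (laurentBaseChange Qb (modularFunctionFieldFull (M * q))),
      (m : ℤ) * ((D - ⟨Dg, hDgmem⟩ : Divisor.degZero (K := Qb)
        (F := laurentBaseChange Qb (modularFunctionFieldFull (M * q)))) :
        Divisor Qb (laurentBaseChange Qb (modularFunctionFieldFull (M * q)))) P = P.ord f' := by
    intro P
    have e1 : P.ord (g⁻¹ ^ m) = -((m : ℤ) * P.ord g) := by
      rw [← zpow_natCast, P.ord_zpow, P.ord_inv]
      ring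
    rw [hcoe, Finsupp.sub_apply, hDg P, hf',
      P.ord_mul (mul_ne_zero hf (inv_ne_zero haF)) (pow_ne_zero m (inv_ne_zero hg0)),
      P.ord_mul hf (inv_ne_zero haF), P.ord_inv, Fermat.Agent.S24.ord_algebraMap, e1, ← hdiv P]
    ring
  have key := mem_kerRed_of_kummer hπ h W hW m hm0 hinj (D - ⟨Dg, hDgmem⟩) f' hf'0 hdiv' hf'O
    (u₁ * algebraMap k ↥(modularFunctionFieldFullC k M) c₁⁻¹,
      u₂ * algebraMap k ↥(modularFunctionFieldFullC k M) c₂⁻¹)
    ((u₁ * algebraMap k ↥(modularFunctionFieldFullC k M) c₁⁻¹)⁻¹,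
      (u₂ * algebraMap k ↥(modularFunctionFieldFullC k M) c₂⁻¹)⁻¹)
    (Prod.ext (mul_inv_cancel₀ hU₁) (mul_inv_cancel₀ hU₂))
    (by
      rw [redPair_mk]
      exact Prod.ext hred1.symm hred2.symm)
  rw [hmk] at key
  exact key

end two

end Fermat.Agent.BAD.KerRed
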