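import Mathlib
import Fermat.Agent.BAD.KerRedKummerTwo
import Fermat.Agent.ESJ.Jac.KummerPair

/-!
# Unit normalisation of Kummer functions and the Kummer criterion for `kerRed` in pair form

Setting of `BAD/KerRed.lean` (`q` = the residue characteristic is allowed).

* `exists_unit_normalisation` : **(UNIT)** for every function `f ≠ 0` and every `m ≠ 0` there are
  a function `g ≠ 0` and a constant `b ≠ 0` such that `b * f * g ^ m` lies in `O_∞` and in `O_0`
  with nonzero reductions; `exists_unit_OPair` : hence it is a unit of `O = O_∞ ∩ O_0`;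
* `exists_isKummerPair_unit` : every class with a Kummer function has a Kummer function which is
  a unit of `O`;
* `mem_kerRed_of_kummerPair_two` : **(ADP)** if a class `x` has a Kummer function `f₁ ∈ O_∞` whose
  reduction is an `m`-th power of a nonzero function, and a (possibly different) Kummer function
  `f₂ ∈ O_0` whose reduction is an `m`-th power of a nonzero function, and `c ↦ c ^ m` is
  injective on `k`, then `x ∈ kerRed h W`;  `..._const` : the same with reductions of the form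
  `constant * u ^ m`;  `..._char` : the case `m = q`.
-/

set_option autoImplicit false

namespace Fermat.Agent.BAD.KerRed

open AlgebraicCurve ModularCurve Fermat.Agent.Lib.FF Fermat.Agent.Lib.Red.Deform
  Fermat.Agent.Lib.Red.CoordLat Fermat.Agent.BAD.NodalDiv Fermat.Agent.BAD.NodalRiemann
  Fermat.Agent.BAD.TwoVal Fermat.Agent.BAD.NodalAsm Fermat.Agent.BAD.BadU
  Fermat.Agent.BAD.NodalP1Asm Fermat.Agent.BAD.NodalBridge Fermat.Agent.ESJ.Jac

local notation "Qb" => AlgebraicClosure ℚ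

section adp

variable {A : ValuationSubring Qb} {k : Type} [Field k] {π : A →+* k} {M q : ℕ} [NeZero M]
  [NeZero q]

/-- **(UNIT)**: every nonzero function becomes, after multiplication by a constant and an
`m`-th power, an element of `O_∞ ∩ O_0` with nonzero reductions on both components. -/
theorem exists_unit_normalisation (h : BadSetup A π M q)
    (W : laurentBaseChange Qb (modularFunctionFieldFull (M * q)) ≃ₐ[Qb]
      laurentBaseChange Qb (modularFunctionFieldFull (M * q))) (hW : IsAL M q W)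
    (m : ℕ) (hm0 : m ≠ 0)
    (f : laurentBaseChange Qb (modularFunctionFieldFull (M * q))) (hf : f ≠ 0) :
    ∃ (g : laurentBaseChange Qb (modularFunctionFieldFull (M * q))) (b : Qb), g ≠ 0 ∧ b ≠ 0 ∧
      ∃ (h1 : algebraMap Qb ↥(laurentBaseChange Qb (modularFunctionFieldFull (M * q))) b * f *
          g ^ m ∈ OInf h)
        (h2 : algebraMap Qb ↥(laurentBaseChange Qb (modularFunctionFieldFull (M * q))) b * f *
          g ^ m ∈ OZero h W),
        redInf h ⟨_, h1⟩ ≠ 0 ∧ redZero h W ⟨_, h2⟩ ≠ 0 := by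
  obtain ⟨a₁, ha₁, hm₁, hne₁⟩ := exists_scaling_OInf h f hf
  obtain ⟨a₂, ha₂, hm₂, hne₂⟩ := exists_scaling_OZero (W := W) h f hf
  obtain ⟨b, hb⟩ := IsAlgClosed.exists_pow_nat_eq (a₂ / a₁) (Nat.pos_of_ne_zero hm0)
  have hb0 : b ≠ 0 := by
    rintro rfl
    rw [zero_pow hm0] at hb
    exact div_ne_zero ha₂ ha₁ hb.symm
  obtain ⟨g, hg1, hg2, c₁, c₂, hc₁, hc₂, hrg1, hrg2⟩ := exists_scaling_pair h W hW b hb0
  have hg0 : g ≠ 0 := by
    rintro rfl
    have h0 : redInf h ⟨0, hg1⟩ = 0 := map_zero (redInf h)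
    rw [hrg1] at h0
    exact hc₁ ((map_eq_zero _).1 h0)
  have ha₁F : algebraMap Qb ↥(laurentBaseChange Qb (modularFunctionFieldFull (M * q))) a₁ ≠ 0 :=
    (map_ne_zero _).2 ha₁
  have ha₂F : algebraMap Qb ↥(laurentBaseChange Qb (modularFunctionFieldFull (M * q))) a₂ ≠ 0 :=
    (map_ne_zero _).2 ha₂
  refine ⟨g, a₁, hg0, ha₁, ?_⟩
  have h1 : algebraMap Qb ↥(laurentBaseChange Qb (modularFunctionFieldFull (M * q))) a₁ * f *
      g ^ m ∈ OInf h := mul_mem hm₁ (pow_mem hg1 m)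
  have hid : algebraMap Qb ↥(laurentBaseChange Qb (modularFunctionFieldFull (M * q))) a₁ * f *
      g ^ m =
      algebraMap Qb ↥(laurentBaseChange Qb (modularFunctionFieldFull (M * q))) a₂ * f *
        (g * (algebraMap Qb ↥(laurentBaseChange Qb (modularFunctionFieldFull (M * q))) b)⁻¹)
          ^ m := by
    rw [mul_pow, inv_pow, ← map_pow, hb, map_div₀]
    field_simp
  have h2 : algebraMap Qb ↥(laurentBaseChange Qb (modularFunctionFieldFull (M * q))) a₁ * f *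
      g ^ m ∈ OZero h W := by
    rw [hid]
    exact mul_mem hm₂ (pow_mem hg2 m)
  refine ⟨h1, h2, ?_, ?_⟩
  · have e1 : (⟨_, h1⟩ : OInf h) = ⟨_, hm₁⟩ * (⟨g, hg1⟩ : OInf h) ^ m := rfl
    rw [e1, map_mul, map_pow, hrg1]
    exact mul_ne_zero hne₁ (pow_ne_zero m ((map_ne_zero _).2 hc₁))
  · have e1 : (⟨_, h2⟩ : OZero h W) = ⟨_, hm₂⟩ * (⟨_, hg2⟩ : OZero h W) ^ m :=
      Subtype.ext hid
    rw [e1, map_mul, map_pow, hrg2]
    exact mul_ne_zero hne₂ (pow_ne_zero m ((map_ne_zero _).2 hc₂))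

/-- **(UNIT)**, unit form: every nonzero function becomes a unit of `O = O_∞ ∩ O_0` after
multiplication by a constant and an `m`-th power. -/
theorem exists_unit_OPair (h : BadSetup A π M q)
    (W : laurentBaseChange Qb (modularFunctionFieldFull (M * q)) ≃ₐ[Qb]
      laurentBaseChange Qb (modularFunctionFieldFull (M * q))) (hW : IsAL M q W)
    (m : ℕ) (hm0 : m ≠ 0)
    (f : laurentBaseChange Qb (modularFunctionFieldFull (M * q))) (hf : f ≠ 0) :
    ∃ (g : laurentBaseChange Qb (modularFunctionFieldFull (M * q))) (b : Qb), g ≠ 0 ∧ b ≠ 0 ∧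
      algebraMap Qb ↥(laurentBaseChange Qb (modularFunctionFieldFull (M * q))) b * f * g ^ m ∈
        OPair h W ∧
      (algebraMap Qb ↥(laurentBaseChange Qb (modularFunctionFieldFull (M * q))) b * f * g ^ m)⁻¹ ∈
        OPair h W := by
  obtain ⟨g, b, hg, hb, h1, h2, hr1, hr2⟩ := exists_unit_normalisation h W hW m hm0 f hf
  exact ⟨g, b, hg, hb, (mem_OPair_iff h _).2 ⟨h1, h2⟩,
    (mem_OPair_iff h _).2 ⟨inv_mem_OInf h _ h1 hr1, inv_mem_OZero h _ h2 hr2⟩⟩

/-- Every class with a Kummer function has a Kummer function which is a unit of `O_∞ ∩ O_0`. -/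
theorem exists_isKummerPair_unit (h : BadSetup A π M q)
    (W : laurentBaseChange Qb (modularFunctionFieldFull (M * q)) ≃ₐ[Qb]
      laurentBaseChange Qb (modularFunctionFieldFull (M * q))) (hW : IsAL M q W)
    (m : ℕ) (hm0 : m ≠ 0) (x : JZero (M * q))
    (f : laurentBaseChange Qb (modularFunctionFieldFull (M * q)))
    (hk : IsKummerPair m x f) :
    ∃ f' : laurentBaseChange Qb (modularFunctionFieldFull (M * q)),
      IsKummerPair m x f' ∧
      ∃ (h1 : f' ∈ OInf h) (h2 : f' ∈ OZero h W),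
        redInf h ⟨f', h1⟩ ≠ 0 ∧ redZero h W ⟨f', h2⟩ ≠ 0 ∧ f' ∈ OPair h W ∧ f'⁻¹ ∈ OPair h W := by
  have hPD := (isFF1_xL Qb (M * q)).hasPrincipalDivisors
  obtain ⟨g, b, hg, hb, h1, h2, hr1, hr2⟩ := exists_unit_normalisation h W hW m hm0 f hk.ne_zero
  have hbF : algebraMap Qb ↥(laurentBaseChange Qb (modularFunctionFieldFull (M * q))) b ≠ 0 :=
    (map_ne_zero _).2 hb
  refine ⟨_, hk.mul_pow hbF (fun v => Fermat.Agent.S24.ord_algebraMap v b) hg, h1, h2, hr1, hr2,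
    (mem_OPair_iff h _).2 ⟨h1, h2⟩,
    (mem_OPair_iff h _).2 ⟨inv_mem_OInf h _ h1 hr1, inv_mem_OZero h _ h2 hr2⟩⟩

/-- **(ADP)**: a class with a Kummer function in `O_∞` whose reduction is an `m`-th power, and a
Kummer function in `O_0` whose reduction is an `m`-th power, lies in the kernel of reduction
(`c ↦ c ^ m` injective on `k`). -/
theorem mem_kerRed_of_kummerPair_two [IsAlgClosed k] (hπ : Function.Surjective π)
    (h : BadSetup A π M q)
    (W : laurentBaseChange Qb (modularFunctionFieldFull (M * q)) ≃ₐ[Qb]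
      laurentBaseChange Qb (modularFunctionFieldFull (M * q))) (hW : IsAL M q W)
    (m : ℕ) (hm0 : m ≠ 0) (hinj : ∀ c : k, c ^ m = 1 → c = 1)
    (x : JZero (M * q))
    (f₁ f₂ : laurentBaseChange Qb (modularFunctionFieldFull (M * q)))
    (hk₁ : IsKummerPair m x f₁) (hk₂ : IsKummerPair m x f₂)
    (hf₁ : f₁ ∈ OInf h) (hf₂ : f₂ ∈ OZero h W)
    (u₁ u₂ : ↥(modularFunctionFieldFullC k M)) (hu₁ : u₁ ≠ 0) (hu₂ : u₂ ≠ 0)
    (h₁ : redInf h ⟨f₁, hf₁⟩ = u₁ ^ m) (h₂ : redZero h W ⟨f₂, hf₂⟩ = u₂ ^ m) :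
    x ∈ kerRed h W := by
  classical
  have hFF := isFF1_xL Qb (M * q)
  obtain ⟨c, g, hc0, hg0, hc, hfeq⟩ := hk₁.exists_eq_mul_pow hk₂
  obtain ⟨c₀, hc₀⟩ := hFF.const_of_ord_nonneg c (fun v => (hc v).ge)
  have hc₀0 : c₀ ≠ 0 := by
    rintro rfl
    rw [map_zero] at hc₀
    exact hc0 hc₀
  obtain ⟨a, ha, hma, hnea⟩ := exists_scaling_OInf h g hg0
  obtain ⟨hf₂0, D₂, hD₂x, hD₂⟩ := hk₂
  have haF : algebraMap Qb ↥(laurentBaseChange Qb (modularFunctionFieldFull (M * q))) a ≠ 0 :=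
    (map_ne_zero _).2 ha
  have hcF : algebraMap Qb ↥(laurentBaseChange Qb (modularFunctionFieldFull (M * q))) c₀ ≠ 0 :=
    (map_ne_zero _).2 hc₀0
  have hconst : c₀ / a ^ m ≠ 0 := div_ne_zero hc₀0 (pow_ne_zero m ha)
  have hid : f₂ * (algebraMap Qb ↥(laurentBaseChange Qb (modularFunctionFieldFull (M * q)))
      (c₀ / a ^ m))⁻¹ =
      f₁ * (algebraMap Qb ↥(laurentBaseChange Qb (modularFunctionFieldFull (M * q))) a * g)
        ^ m := by
    rw [hfeq, hc₀, map_div₀, map_pow, mul_pow]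
    field_simp
  have hfa : f₂ * (algebraMap Qb ↥(laurentBaseChange Qb (modularFunctionFieldFull (M * q)))
      (c₀ / a ^ m))⁻¹ ∈ OInf h := by
    rw [hid]
    exact mul_mem hf₁ (pow_mem hma m)
  have hone : f₂ * (algebraMap Qb ↥(laurentBaseChange Qb (modularFunctionFieldFull (M * q)))
      (1 : Qb))⁻¹ = f₂ := by
    rw [map_one, inv_one, mul_one]
  have hfb : f₂ * (algebraMap Qb ↥(laurentBaseChange Qb (modularFunctionFieldFull (M * q)))
      (1 : Qb))⁻¹ ∈ OZero h W := by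
    rw [hone]
    exact hf₂
  have hr1 : redInf h ⟨_, hfa⟩ = (u₁ * redInf h ⟨_, hma⟩) ^ m := by
    have e1 : (⟨_, hfa⟩ : OInf h) = ⟨f₁, hf₁⟩ * (⟨_, hma⟩ : OInf h) ^ m := Subtype.ext hid
    rw [e1, map_mul, map_pow, h₁, mul_pow]
  have hr2 : redZero h W ⟨_, hfb⟩ = u₂ ^ m := by
    have e1 : (⟨_, hfb⟩ : OZero h W) = ⟨f₂, hf₂⟩ := Subtype.ext hone
    rw [e1, h₂]
  have key := mem_kerRed_of_kummer_two hπ h W hW m hm0 hinj D₂ f₂ hf₂0 hD₂ (c₀ / a ^ m) 1
    hconst one_ne_zero hfa hfb (u₁ * redInf h ⟨_, hma⟩) u₂ (mul_ne_zero hu₁ hnea) hu₂ hr1 hr2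
  rw [hD₂x] at key
  exact key

/-- **(ADP)** with reductions of the form `constant * u ^ m` (nonzero). -/
theorem mem_kerRed_of_kummerPair_two_const [IsAlgClosed k] (hπ : Function.Surjective π)
    (h : BadSetup A π M q)
    (W : laurentBaseChange Qb (modularFunctionFieldFull (M * q)) ≃ₐ[Qb]
      laurentBaseChange Qb (modularFunctionFieldFull (M * q))) (hW : IsAL M q W)
    (m : ℕ) (hm0 : m ≠ 0) (hinj : ∀ c : k, c ^ m = 1 → c = 1)
    (x : JZero (M * q))
    (f₁ f₂ : laurentBaseChange Qb (modularFunctionFieldFull (M * q)))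
    (hk₁ : IsKummerPair m x f₁) (hk₂ : IsKummerPair m x f₂)
    (hf₁ : f₁ ∈ OInf h) (hf₂ : f₂ ∈ OZero h W)
    (c₁ c₂ : k) (u₁ u₂ : ↥(modularFunctionFieldFullC k M))
    (h₁ : redInf h ⟨f₁, hf₁⟩ = algebraMap k ↥(modularFunctionFieldFullC k M) c₁ * u₁ ^ m)
    (hne₁ : algebraMap k ↥(modularFunctionFieldFullC k M) c₁ * u₁ ^ m ≠ 0)
    (h₂ : redZero h W ⟨f₂, hf₂⟩ = algebraMap k ↥(modularFunctionFieldFullC k M) c₂ * u₂ ^ m)
    (hne₂ : algebraMap k ↥(modularFunctionFieldFullC k M) c₂ * u₂ ^ m ≠ 0) :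
    x ∈ kerRed h W := by
  obtain ⟨d₁, hd₁⟩ := IsAlgClosed.exists_pow_nat_eq c₁ (Nat.pos_of_ne_zero hm0)
  obtain ⟨d₂, hd₂⟩ := IsAlgClosed.exists_pow_nat_eq c₂ (Nat.pos_of_ne_zero hm0)
  have e₁ : algebraMap k ↥(modularFunctionFieldFullC k M) c₁ * u₁ ^ m =
      (algebraMap k ↥(modularFunctionFieldFullC k M) d₁ * u₁) ^ m := by
    rw [mul_pow, ← map_pow, hd₁]
  have e₂ : algebraMap k ↥(modularFunctionFieldFullC k M) c₂ * u₂ ^ m =
      (algebraMap k ↥(modularFunctionFieldFullC k M) d₂ * u₂) ^ m := by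
    rw [mul_pow, ← map_pow, hd₂]
  have hU₁ : algebraMap k ↥(modularFunctionFieldFullC k M) d₁ * u₁ ≠ 0 := by
    intro h0
    rw [e₁, h0, zero_pow hm0] at hne₁
    exact hne₁ rfl
  have hU₂ : algebraMap k ↥(modularFunctionFieldFullC k M) d₂ * u₂ ≠ 0 := by
    intro h0
    rw [e₂, h0, zero_pow hm0] at hne₂
    exact hne₂ rfl
  exact mem_kerRed_of_kummerPair_two hπ h W hW m hm0 hinj x f₁ f₂ hk₁ hk₂ hf₁ hf₂ _ _ hU₁ hU₂
    (h₁.trans e₁) (h₂.trans e₂)

/-- **(ADP)** for `q`-torsion, `q` the residue characteristic. -/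
theorem mem_kerRed_of_kummerPair_two_char [IsAlgClosed k] (hπ : Function.Surjective π)
    (h : BadSetup A π M q)
    (W : laurentBaseChange Qb (modularFunctionFieldFull (M * q)) ≃ₐ[Qb]
      laurentBaseChange Qb (modularFunctionFieldFull (M * q))) (hW : IsAL M q W)
    (x : JZero (M * q))
    (f₁ f₂ : laurentBaseChange Qb (modularFunctionFieldFull (M * q)))
    (hk₁ : IsKummerPair q x f₁) (hk₂ : IsKummerPair q x f₂)
    (hf₁ : f₁ ∈ OInf h) (hf₂ : f₂ ∈ OZero h W)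
    (c₁ c₂ : k) (u₁ u₂ : ↥(modularFunctionFieldFullC k M))
    (h₁ : redInf h ⟨f₁, hf₁⟩ = algebraMap k ↥(modularFunctionFieldFullC k M) c₁ * u₁ ^ q)
    (hne₁ : algebraMap k ↥(modularFunctionFieldFullC k M) c₁ * u₁ ^ q ≠ 0)
    (h₂ : redZero h W ⟨f₂, hf₂⟩ = algebraMap k ↥(modularFunctionFieldFullC k M) c₂ * u₂ ^ q)
    (hne₂ : algebraMap k ↥(modularFunctionFieldFullC k M) c₂ * u₂ ^ q ≠ 0) :
    x ∈ kerRed h W := by
  have hq : q.Prime := h.hℓ
  have := h.charP
  exact mem_kerRed_of_kummerPair_two_const hπ h W hW q hq.ne_zero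
    (fun c hc => eq_one_of_pow_char_pow q hq 1 c (by rwa [pow_one])) x f₁ f₂ hk₁ hk₂ hf₁ hf₂
    c₁ c₂ u₁ u₂ h₁ hne₁ h₂ hne₂

end adp

end Fermat.Agent.BAD.KerRed
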