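import Mathlib
import Fermat.Agent.BAD.KerRedTriv

/-!
# Normalisation of a divisor with constant-reduction sections by a GIVEN section

Setting of `BAD/KerRed.lean`.  `exists_normalized` (in `KerRedTriv.lean`) normalises a class of
`kerRed h W` by a section it chooses itself.  Here the normalising section is a parameter, so
that a consumer can take it fixed by a group of automorphisms:

* `normalized_of_section` : if `D` and `-D` have sections with constant nonzero reductions on all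
  charts (`HasSec`), and `s₀ ∈ L(D + m₁ E1 + m₂ E2) ∩ O` is ANY section whose reduction is a pair
  of nonzero constants, then `D + div s₀` and `-(D + div s₀)` have sections of reduction exactly
  `1` on all large charts;
* `exists_normalized_of_section` : the same with the degree-zero divisor `D' = D + div s₀`
  packaged (`[D'] = [D]`, `D' v = D v + ord_v s₀`);
* `smul_eq_of_normalized` : `D' = D + div s₀` is fixed by a semilinear automorphism fixing `D`
  and `s₀`.
-/

set_option autoImplicit false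

namespace Fermat.Agent.BAD.KerRed

open AlgebraicCurve ModularCurve Fermat.Agent.Lib.FF Fermat.Agent.Lib.Red.Deform
  Fermat.Agent.Lib.Red.CoordLat Fermat.Agent.BAD.NodalDiv Fermat.Agent.BAD.NodalRiemann
  Fermat.Agent.BAD.TwoVal Fermat.Agent.BAD.NodalAsm Fermat.Agent.BAD.BadU
  Fermat.Agent.BAD.NodalP1Asm Fermat.Agent.BAD.NodalBridge

local notation "Qb" => AlgebraicClosure ℚ

section norm

variable {A : ValuationSubring Qb} {k : Type} [Field k] {π : A →+* k} {M q : ℕ} [NeZero M]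
  [NeZero q]

set_option maxHeartbeats 1000000 in
/-- Normalisation by a given section: if `D` and `-D` have sections with constant nonzero
reductions on all charts and `s₀` is a section of `D` on some chart whose reduction is a pair of
nonzero constants, then `D + div s₀` and `-(D + div s₀)` have sections of reduction exactly `1`
on all large charts. -/
theorem normalized_of_section (hπ : Function.Surjective π) (h : BadSetup A π M q)
    (W : laurentBaseChange Qb (modularFunctionFieldFull (M * q)) ≃ₐ[Qb]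
      laurentBaseChange Qb (modularFunctionFieldFull (M * q)))
    {E1 E2 : Divisor Qb (laurentBaseChange Qb (modularFunctionFieldFull (M * q)))}
    (hNF : NodalFibreFor h W E1 E2)
    (D : Divisor Qb (laurentBaseChange Qb (modularFunctionFieldFull (M * q))))
    (hD : HasSec h W E1 E2 D) (hD' : HasSec h W E1 E2 (-D))
    (s₀ : laurentBaseChange Qb (modularFunctionFieldFull (M * q))) (hs₀O : s₀ ∈ OPair h W)
    (m₁ m₂ : ℕ) (hs₀ : s₀ ∈ riemannRochSpace (D + m₁ • E1 + m₂ • E2))
    (c₁ c₂ : k) (hc₁ : c₁ ≠ 0) (hc₂ : c₂ ≠ 0)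
    (hr₀ : redPair h W ⟨s₀, hs₀O⟩ = (algebraMap k ↥(modularFunctionFieldFullC k M) c₁,
      algebraMap k ↥(modularFunctionFieldFullC k M) c₂))
    (Ds : Divisor Qb (laurentBaseChange Qb (modularFunctionFieldFull (M * q))))
    (hDs : ∀ v : Place Qb (laurentBaseChange Qb (modularFunctionFieldFull (M * q))),
      Ds v = v.ord s₀) :
    ∃ N : ℕ, ∀ n₁ n₂ : ℕ, N ≤ n₁ + n₂ →
      (∃ y : OPair h W,
        (y : laurentBaseChange Qb (modularFunctionFieldFull (M * q))) ∈ riemannRochSpace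
          (D + Ds + n₁ • E1 + n₂ • E2) ∧ redPair h W y = 1) ∧
      (∃ y : OPair h W,
        (y : laurentBaseChange Qb (modularFunctionFieldFull (M * q))) ∈ riemannRochSpace
          (-(D + Ds) + n₁ • E1 + n₂ • E2) ∧ redPair h W y = 1) := by
  obtain ⟨d₁, d₂, hd₁, hd₂, N, hN⟩ := hD
  obtain ⟨c₁', c₂', hc₁', hc₂', N', hN'⟩ := hD'
  obtain ⟨ι, _, hne, e₁, e₂, P₁, Z₁, P₂, Z₂, hinj₁, hinj₂, hP₁, hZ₁, hP₂, hZ₂, hdd₁, hdd₂,
    hdegP₁, hdegP₂, hE1, hE2, hdisj, hdegE1, hdegE2, hgalE, N₀, hS2⟩ := hNF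
  have hs₀' : s₀ ∈ VB D E1 E2 m₁ m₂ := hs₀
  have hO1 : s₀ ∈ OInf h := ((mem_OPair_iff h _).1 hs₀O).1
  have hO2 : s₀ ∈ OZero h W := ((mem_OPair_iff h _).1 hs₀O).2
  have hr₁ : redInf h ⟨s₀, hO1⟩ = algebraMap k ↥(modularFunctionFieldFullC k M) c₁ := by
    have := hr₀
    rw [redPair_mk] at this
    exact congrArg Prod.fst this
  have hr₂ : redZero h W ⟨s₀, hO2⟩ = algebraMap k ↥(modularFunctionFieldFullC k M) c₂ := by
    have := hr₀
    rw [redPair_mk] at this
    exact congrArg Prod.snd this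
  have hs₀ne : s₀ ≠ 0 := by
    rintro rfl
    have h0 : redInf h ⟨0, hO1⟩ = 0 := map_zero (redInf h)
    rw [hr₁] at h0
    exact hc₁ ((map_eq_zero _).1 h0)
  have hinv1 : s₀⁻¹ ∈ OInf h :=
    inv_mem_OInf h _ hO1 (by rw [hr₁]; exact (map_ne_zero _).2 hc₁)
  have hinv2 : s₀⁻¹ ∈ OZero h W :=
    inv_mem_OZero h _ hO2 (by rw [hr₂]; exact (map_ne_zero _).2 hc₂)
  have hinvO : s₀⁻¹ ∈ OPair h W := (mem_OPair_iff h _).2 ⟨hinv1, hinv2⟩
  have hrinv : redPair h W ⟨s₀⁻¹, hinvO⟩ =
      (algebraMap k ↥(modularFunctionFieldFullC k M) c₁⁻¹,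
        algebraMap k ↥(modularFunctionFieldFullC k M) c₂⁻¹) := by
    apply eq_inv_pair
    rw [← hr₀, ← map_mul]
    have : (⟨s₀, hs₀O⟩ : OPair h W) * ⟨s₀⁻¹, hinvO⟩ = 1 := Subtype.ext (mul_inv_cancel₀ hs₀ne)
    rw [this, map_one]
  -- the node argument: a section of `D` with constant reductions `(z₁, z₂)` has
  -- `c₁' z₁ = c₂' z₂`
  have hnode : ∀ (z : OPair h W) (a b : ℕ),
      (z : laurentBaseChange Qb (modularFunctionFieldFull (M * q))) ∈ VB D E1 E2 a b →
      ∀ z₁ z₂ : k, redPair h W z = (algebraMap k ↥(modularFunctionFieldFullC k M) z₁,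
        algebraMap k ↥(modularFunctionFieldFullC k M) z₂) → c₁' * z₁ = c₂' * z₂ := by
    intro z a b hz z₁ z₂ hrz
    obtain ⟨y', hy', hry'⟩ := hN' (N' + N₀) 0 (by omega)
    have hy'' : (y' : laurentBaseChange Qb (modularFunctionFieldFull (M * q))) ∈
        VB (-D) E1 E2 (N' + N₀) 0 := hy'
    have hm := mul_mem_VB hy'' hz
    unfold VB at hm
    simp only [neg_add_cancel, zero_add] at hm
    have hm2 : ((y' * z : OPair h W) :
        laurentBaseChange Qb (modularFunctionFieldFull (M * q))) ∈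
        riemannRochSpace ((N' + N₀ + a) • E1 + b • E2) := hm
    have hle : N₀ ≤ N' + N₀ + a + b := by omega
    have hiff := hS2 (N' + N₀ + a) b hle (redPair h W (y' * z))
    have hex : ∃ y : OPair h W, (y : laurentBaseChange Qb (modularFunctionFieldFull (M * q))) ∈
        riemannRochSpace ((N' + N₀ + a) • E1 + b • E2) ∧
        redPair h W y = redPair h W (y' * z) := ⟨_, hm2, rfl⟩
    have hmem := hiff.1 hex
    rw [map_mul, hry', hrz, Prod.mk_mul_mk, ← map_mul, ← map_mul] at hmem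
    obtain ⟨i⟩ := hne
    obtain ⟨c, hc1, hc2⟩ := hmem.2.2 i
    have e1 := (cong_algebraMap_iff _).1 hc1
    have e2 := (cong_algebraMap_iff _).1 hc2
    rw [one_mul] at e2
    rw [e1, e2]
  have hlam : c₁' * c₁ = c₂' * c₂ := hnode ⟨s₀, hs₀O⟩ m₁ m₂ hs₀' c₁ c₂ hr₀
  have hlam2 : c₁' * d₁ = c₂' * d₂ := by
    obtain ⟨y, hy, hry⟩ := hN N 0 (by omega)
    exact hnode y N 0 hy d₁ d₂ hry
  have hlam0 : c₁' * c₁ ≠ 0 := mul_ne_zero hc₁' hc₁
  have hμ : d₁ * c₁⁻¹ = d₂ * c₂⁻¹ := by
    have h1 : c₁' * (d₁ * c₂ - d₂ * c₁) = 0 := by linear_combination c₂ * hlam2 - d₂ * hlam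
    have h2 : d₁ * c₂ - d₂ * c₁ = 0 := (mul_eq_zero.1 h1).resolve_left hc₁'
    field_simp
    linear_combination h2
  have hμ0 : d₁ * c₁⁻¹ ≠ 0 := mul_ne_zero hd₁ (inv_ne_zero hc₁)
  obtain ⟨a, ha⟩ := hπ (c₁' * c₁)⁻¹
  obtain ⟨a', ha'⟩ := hπ (d₁ * c₁⁻¹)⁻¹
  refine ⟨N + N', fun n₁ n₂ hl => ⟨?_, ?_⟩⟩
  · obtain ⟨y, hy, hry⟩ := hN n₁ n₂ (by omega)
    have hy'' : (y : laurentBaseChange Qb (modularFunctionFieldFull (M * q))) ∈
        VB D E1 E2 n₁ n₂ := hy
    have hm := mul_mem_VB hy'' (inv_mem_VB_of_div E1 E2 hDs)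
    rw [add_zero, add_zero] at hm
    unfold VB at hm
    have haO : algebraMap Qb ↥(laurentBaseChange Qb (modularFunctionFieldFull (M * q))) (a' : Qb)
        ∈ OPair h W := (OPair_hOA h _).2 a'.2
    have hm2 : (((⟨_, haO⟩ : OPair h W) * (y * ⟨s₀⁻¹, hinvO⟩) : OPair h W) :
        laurentBaseChange Qb (modularFunctionFieldFull (M * q))) ∈
        riemannRochSpace (D + Ds + n₁ • E1 + n₂ • E2) := by
      show algebraMap Qb ↥(laurentBaseChange Qb (modularFunctionFieldFull (M * q))) (a' : Qb) *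
        ((y : laurentBaseChange Qb (modularFunctionFieldFull (M * q))) * s₀⁻¹) ∈ _
      rw [← Algebra.smul_def]
      exact Submodule.smul_mem _ _ hm
    have hred : redPair h W ((⟨_, haO⟩ : OPair h W) * (y * ⟨s₀⁻¹, hinvO⟩)) = 1 := by
      rw [map_mul, redPair_algebraMap h a' haO, map_mul, hry, hrinv, Prod.mk_mul_mk,
        Prod.mk_mul_mk, ha', ← map_mul, ← map_mul, ← map_mul, ← map_mul, ← hμ,
        inv_mul_cancel₀ hμ0, map_one]
      rfl
    exact ⟨_, hm2, hred⟩
  · obtain ⟨y', hy', hry'⟩ := hN' n₁ n₂ (by omega)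
    have hy'' : (y' : laurentBaseChange Qb (modularFunctionFieldFull (M * q))) ∈
        VB (-D) E1 E2 n₁ n₂ := hy'
    have hm := mul_mem_VB hy'' (mem_VB_neg_of_div E1 E2 hDs)
    rw [add_zero, add_zero, ← neg_add] at hm
    unfold VB at hm
    have haO : algebraMap Qb ↥(laurentBaseChange Qb (modularFunctionFieldFull (M * q))) (a : Qb)
        ∈ OPair h W := (OPair_hOA h _).2 a.2
    have hm2 : (((⟨_, haO⟩ : OPair h W) * (y' * ⟨s₀, hs₀O⟩) : OPair h W) :
        laurentBaseChange Qb (modularFunctionFieldFull (M * q))) ∈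
        riemannRochSpace (-(D + Ds) + n₁ • E1 + n₂ • E2) := by
      show algebraMap Qb ↥(laurentBaseChange Qb (modularFunctionFieldFull (M * q))) (a : Qb) *
        ((y' : laurentBaseChange Qb (modularFunctionFieldFull (M * q))) * s₀) ∈ _
      rw [← Algebra.smul_def]
      exact Submodule.smul_mem _ _ hm
    have hred : redPair h W ((⟨_, haO⟩ : OPair h W) * (y' * ⟨s₀, hs₀O⟩)) = 1 := by
      rw [map_mul, redPair_algebraMap h a haO, map_mul, hry', hr₀, Prod.mk_mul_mk,
        Prod.mk_mul_mk, ha, ← map_mul, ← map_mul, ← map_mul, ← map_mul, ← hlam,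
        inv_mul_cancel₀ hlam0, map_one]
      rfl
    exact ⟨_, hm2, hred⟩

/-- Normalisation by a given section, with the degree-zero divisor `D' = D + div s₀` packaged. -/
theorem exists_normalized_of_section (hπ : Function.Surjective π) (h : BadSetup A π M q)
    (W : laurentBaseChange Qb (modularFunctionFieldFull (M * q)) ≃ₐ[Qb]
      laurentBaseChange Qb (modularFunctionFieldFull (M * q)))
    {E1 E2 : Divisor Qb (laurentBaseChange Qb (modularFunctionFieldFull (M * q)))}
    (hNF : NodalFibreFor h W E1 E2)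
    (D : Divisor.degZero (K := Qb)
      (F := laurentBaseChange Qb (modularFunctionFieldFull (M * q))))
    (hD : HasSec h W E1 E2
      (D : Divisor Qb (laurentBaseChange Qb (modularFunctionFieldFull (M * q)))))
    (hD' : HasSec h W E1 E2
      (-(D : Divisor Qb (laurentBaseChange Qb (modularFunctionFieldFull (M * q))))))
    (s₀ : laurentBaseChange Qb (modularFunctionFieldFull (M * q))) (hs₀O : s₀ ∈ OPair h W)
    (m₁ m₂ : ℕ)
    (hs₀ : s₀ ∈ riemannRochSpace
      ((D : Divisor Qb (laurentBaseChange Qb (modularFunctionFieldFull (M * q)))) +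
        m₁ • E1 + m₂ • E2))
    (c₁ c₂ : k) (hc₁ : c₁ ≠ 0) (hc₂ : c₂ ≠ 0)
    (hr₀ : redPair h W ⟨s₀, hs₀O⟩ = (algebraMap k ↥(modularFunctionFieldFullC k M) c₁,
      algebraMap k ↥(modularFunctionFieldFullC k M) c₂)) :
    ∃ D' : Divisor.degZero (K := Qb)
        (F := laurentBaseChange Qb (modularFunctionFieldFull (M * q))),
      Pic0.mk D' = Pic0.mk D ∧
      (∀ v : Place Qb (laurentBaseChange Qb (modularFunctionFieldFull (M * q))),
        (D' : Divisor Qb (laurentBaseChange Qb (modularFunctionFieldFull (M * q)))) v =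
          (D : Divisor Qb (laurentBaseChange Qb (modularFunctionFieldFull (M * q)))) v +
            v.ord s₀) ∧
      ∃ N : ℕ, ∀ n₁ n₂ : ℕ, N ≤ n₁ + n₂ →
        (∃ y : OPair h W,
          (y : laurentBaseChange Qb (modularFunctionFieldFull (M * q))) ∈ riemannRochSpace
            ((D' : Divisor Qb (laurentBaseChange Qb (modularFunctionFieldFull (M * q)))) +
              n₁ • E1 + n₂ • E2) ∧ redPair h W y = 1) ∧
        (∃ y : OPair h W,
          (y : laurentBaseChange Qb (modularFunctionFieldFull (M * q))) ∈ riemannRochSpace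
            (-(D' : Divisor Qb (laurentBaseChange Qb (modularFunctionFieldFull (M * q)))) +
              n₁ • E1 + n₂ • E2) ∧ redPair h W y = 1) := by
  have hs₀ne : s₀ ≠ 0 := by
    rintro rfl
    have h0 : redPair h W ⟨0, hs₀O⟩ = 0 := map_zero (redPair h W)
    rw [hr₀] at h0
    exact hc₁ ((map_eq_zero _).1 (congrArg Prod.fst h0))
  have hPD := (isFF1_xL Qb (M * q)).hasPrincipalDivisors
  obtain ⟨Ds, hDs, hDsdeg⟩ := HasPrincipalDivisors.exists_divisor (K := Qb) s₀ hs₀ne
  have hDsmem : Ds ∈ Divisor.degZero (K := Qb)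
      (F := laurentBaseChange Qb (modularFunctionFieldFull (M * q))) :=
    Divisor.mem_degZero.2 hDsdeg
  have hcoe : ((D + ⟨Ds, hDsmem⟩ : Divisor.degZero (K := Qb)
        (F := laurentBaseChange Qb (modularFunctionFieldFull (M * q)))) :
      Divisor Qb (laurentBaseChange Qb (modularFunctionFieldFull (M * q)))) =
      (D : Divisor Qb (laurentBaseChange Qb (modularFunctionFieldFull (M * q)))) + Ds := rfl
  have hmk : Pic0.mk (D + ⟨Ds, hDsmem⟩) = Pic0.mk D := by
    rw [Pic0.mk_add]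
    have : Pic0.mk (⟨Ds, hDsmem⟩ : Divisor.degZero (K := Qb)
        (F := laurentBaseChange Qb (modularFunctionFieldFull (M * q)))) = 0 :=
      (QuotientAddGroup.eq_zero_iff _).2 ⟨s₀, hs₀ne, hDs⟩
    rw [this, add_zero]
  obtain ⟨N, hN⟩ := normalized_of_section hπ h W hNF _ hD hD' s₀ hs₀O m₁ m₂ hs₀ c₁ c₂ hc₁ hc₂
    hr₀ Ds hDs
  refine ⟨D + ⟨Ds, hDsmem⟩, hmk, fun v => ?_, N, fun n₁ n₂ hl => ?_⟩
  · rw [hcoe, Finsupp.add_apply, hDs v]
  · rw [hcoe]
    exact hN n₁ n₂ hl

/-- `D' = D + div s₀` is fixed by a semilinear automorphism fixing `D` and `s₀`. -/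
theorem smul_eq_of_normalized {L F : Type*} [Field L] [Field F] [Algebra L F]
    (g : SemilinearAut L F) (D D' : Divisor L F) (s₀ : F)
    (hD' : ∀ v : Place L F, D' v = D v + v.ord s₀) (hgD : g • D = D) (hgs : g • s₀ = s₀) :
    g • D' = D' := by
  ext v
  rw [SemilinearAut.divisor_smul_apply, hD' (g⁻¹ • v), hD' v]
  have h1 : D (g⁻¹ • v) = D v := by
    conv_rhs => rw [← hgD]
    rw [SemilinearAut.divisor_smul_apply]
  have h2 : (g⁻¹ • v).ord s₀ = v.ord s₀ := by
    have h3 := SemilinearAut.ord_smul g (g⁻¹ • v) s₀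
    rw [smul_inv_smul, hgs] at h3
    exact h3.symm
  rw [h1, h2]

end norm

end Fermat.Agent.BAD.KerRed
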