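import Mathlib
import Fermat.Agent.Lib.Red.Orth
import Fermat.Agent.S24.Transfer
import Fermat.Agent.BAD.PolyRed

/-!
# BAD: generators of the chart rings over `A[x]` (abstract)

`F/L` a field extension, `A` a valuation subring of `L`, `O` a subring of `F` with `O ∩ L = A`,
`x ∈ O` transcendental over `L` such that all `x - c`, `1 - t x` (`c, t ∈ A`) are units of `O`,
and `β` an `L[x]`-orthonormal family (`PolyBasis.PolyOrtho`) of elements of `O` spanning `F` over
`L(x)`.  (`L` algebraically closed of characteristic zero.)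

* `finiteDimensional_of_polySpan`, `finrank_le_of_polySpan` : `[F : L(x)] ≤ #β`;
* `polySpan_of_finrank_le` : an `L[x]`-independent family with at least `[F : L(x)]` elements
  spans;
* `finrank_mul_le` : `[F : L(f g)] ≤ [F : L(f)] + [F : L(g)]`;
* `setting_of_polyOrtho` : the Gauss setting of `Lib/Red/Orth` (primitive polynomials in `x` are
  units of `O`);
* `exists_gen_of_polyOrtho` : **the chart ring `O ∩ (integral closure of L[x])` is generated
  over `A[x]` by finitely many of its elements** (`hgen` of `SatInst.sat_places`), via the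
  abstract T4 of RED (`Orth.exists_orth_basis`);
* `polyOrtho_inv`, `polySpan_inv`, `exists_gen_inv_of_polyOrtho` : the same for the chart `x⁻¹`,
  from the same data.
-/

set_option autoImplicit false

set_option linter.style.haveILetI false

open Polynomial IntermediateField

open scoped IntermediateField.algebraAdjoinAdjoin

namespace Fermat.Agent.BAD.LatGen

open Fermat.Agent.BAD.PolyBasis Fermat.Agent.BAD.PolyRed AlgebraicCurve

variable {L F : Type*} [Field L] [Field F] [Algebra L F]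

/-! ### Spanning and degrees -/

theorem aeval_mem_adjoin_simple (x : F) (p : L[X]) : aeval x p ∈ L⟮x⟯ :=
  IntermediateField.algebra_adjoin_le_adjoin L _ (Polynomial.aeval_mem_adjoin_singleton L x)

theorem span_eq_top_of_polySpan (x : F) (hx : ∀ e : L[X], e ≠ 0 → aeval x e ≠ 0)
    {ι : Type*} [Fintype ι] (β : ι → F)
    (hspan : ∀ v : F, ∃ D : L[X], D ≠ 0 ∧ ∃ e : ι → L[X],
      aeval x D * v = ∑ i, aeval x (e i) * β i) :
    Submodule.span L⟮x⟯ (Set.range β) = ⊤ := by
  have hsmul : ∀ (a : L⟮x⟯) (w : F), a • w = (a : F) * w := fun a w => rfl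
  rw [eq_top_iff]
  intro w _
  obtain ⟨D, hD, e, he⟩ := hspan w
  have hD0 := hx D hD
  have hw : w = ∑ i, (⟨aeval x (e i) / aeval x D,
      div_mem (aeval_mem_adjoin_simple x _) (aeval_mem_adjoin_simple x _)⟩ : L⟮x⟯) • β i := by
    have h1 : ∀ i, (⟨aeval x (e i) / aeval x D,
        div_mem (aeval_mem_adjoin_simple x _) (aeval_mem_adjoin_simple x _)⟩ : L⟮x⟯) • β i =
        (aeval x D)⁻¹ * (aeval x (e i) * β i) := by
      intro i
      rw [hsmul]
      show aeval x (e i) / aeval x D * β i = _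
      rw [div_eq_mul_inv]
      ring
    rw [Finset.sum_congr rfl (fun i _ => h1 i), ← Finset.mul_sum, ← he,
      inv_mul_cancel_left₀ hD0]
  rw [hw]
  exact Submodule.sum_mem _ (fun i _ => Submodule.smul_mem _ _ (Submodule.subset_span ⟨i, rfl⟩))

/-- A finite `L(x)`-spanning family (with polynomial denominators) makes `F` finite over
`L(x)`. -/
theorem finiteDimensional_of_polySpan (x : F) (hx : ∀ e : L[X], e ≠ 0 → aeval x e ≠ 0)
    {ι : Type*} [Fintype ι] (β : ι → F)
    (hspan : ∀ v : F, ∃ D : L[X], D ≠ 0 ∧ ∃ e : ι → L[X],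
      aeval x D * v = ∑ i, aeval x (e i) * β i) :
    FiniteDimensional L⟮x⟯ F :=
  Module.finite_def.2 (span_eq_top_of_polySpan x hx β hspan ▸
    Submodule.fg_span (Set.finite_range β))

/-- `[F : L(x)]` is at most the size of a spanning family. -/
theorem finrank_le_of_polySpan (x : F) (hx : ∀ e : L[X], e ≠ 0 → aeval x e ≠ 0)
    {ι : Type*} [Fintype ι] (β : ι → F)
    (hspan : ∀ v : F, ∃ D : L[X], D ≠ 0 ∧ ∃ e : ι → L[X],
      aeval x D * v = ∑ i, aeval x (e i) * β i) :
    Module.finrank L⟮x⟯ F ≤ Fintype.card ι := by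
  have h1 := finrank_range_le_card (R := L⟮x⟯) β
  rw [Set.finrank, span_eq_top_of_polySpan x hx β hspan, finrank_top] at h1
  exact h1

/-- An `L[x]`-independent family with at least `[F : L(x)]` elements spans `F` over `L(x)`. -/
theorem polySpan_of_finrank_le (x : F) (hx : ∀ e : L[X], e ≠ 0 → aeval x e ≠ 0)
    [FiniteDimensional L⟮x⟯ F] {ι : Type*} [Fintype ι] (β : ι → F)
    (hβ : ∀ e : ι → L[X], ∑ i, aeval x (e i) * β i = 0 → ∀ i, e i = 0)
    (hcard : Module.finrank L⟮x⟯ F ≤ Fintype.card ι) (v : F) :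
    ∃ D : L[X], D ≠ 0 ∧ ∃ e : ι → L[X], aeval x D * v = ∑ i, aeval x (e i) * β i := by
  classical
  have hsmul : ∀ (a : L⟮x⟯) (w : F), a • w = (a : F) * w := fun a w => rfl
  let γ := Module.finBasis L⟮x⟯ F
  refine exists_polySpan_of_card_le x hx (fun k => γ k) (fun w => ?_) β hβ
    (by rw [Fintype.card_fin]; exact hcard) v
  obtain ⟨D, hD, e, he⟩ := exists_common_denom x hx (fun k => ((γ.repr w k : L⟮x⟯) : F))
    (fun k => (γ.repr w k).2)
  refine ⟨D, hD, e, ?_⟩
  have hw : w = ∑ k, γ.repr w k • γ k := (γ.sum_repr w).symm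
  conv_lhs => rw [hw]
  rw [Finset.mul_sum]
  refine Finset.sum_congr rfl (fun k _ => ?_)
  rw [← he k, hsmul, mul_assoc]

/-- **Sub-additivity of the degree**: `[F : L(f g)] ≤ [F : L(f)] + [F : L(g)]`. -/
theorem finrank_mul_le [IsAlgClosed L] [CharZero L] (f g : F) (hf : Transcendental L f)
    (hg : Transcendental L g) (hfg : Transcendental L (f * g)) [FiniteDimensional L⟮f⟯ F] :
    Module.finrank L⟮f * g⟯ F ≤ Module.finrank L⟮f⟯ F + Module.finrank L⟮g⟯ F := by
  classical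
  haveI : FiniteDimensional L⟮g⟯ F :=
    Fermat.Agent.S24.Transfer.finiteDimensional_adjoin_of_transcendental f hg
  haveI : FiniteDimensional L⟮f * g⟯ F :=
    Fermat.Agent.S24.Transfer.finiteDimensional_adjoin_of_transcendental f hfg
  obtain ⟨h1, s1⟩ := Fermat.Agent.S24.Transfer.polesOf_finite_sum f hf
  obtain ⟨h2, s2⟩ := Fermat.Agent.S24.Transfer.polesOf_finite_sum g hg
  obtain ⟨h3, s3⟩ := Fermat.Agent.S24.Transfer.polesOf_finite_sum (f * g) hfg
  have hf0 : f ≠ 0 := fun h0 => hf (h0 ▸ isAlgebraic_zero)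
  have hg0 : g ≠ 0 := fun h0 => hg (h0 ▸ isAlgebraic_zero)
  have hsub : h3.toFinset ⊆ h1.toFinset ∪ h2.toFinset := by
    intro v hv
    rw [Set.Finite.mem_toFinset, Set.mem_ofPred_eq, v.ord_mul hf0 hg0] at hv
    rw [Finset.mem_union, Set.Finite.mem_toFinset, Set.Finite.mem_toFinset, Set.mem_ofPred_eq,
      Set.mem_ofPred_eq]
    omega
  have e1 : ∑ v ∈ h1.toFinset ∪ h2.toFinset, max (-v.ord f) 0 = ∑ v ∈ h1.toFinset, (-v.ord f) := by
    rw [← Finset.sum_subset (Finset.subset_union_left (s₁ := h1.toFinset) (s₂ := h2.toFinset))]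
    · refine Finset.sum_congr rfl (fun v hv => ?_)
      have : v.ord f < 0 := h1.mem_toFinset.mp hv
      omega
    · intro v _ hv
      have : ¬ v.ord f < 0 := fun h => hv (h1.mem_toFinset.mpr h)
      omega
  have e2 : ∑ v ∈ h1.toFinset ∪ h2.toFinset, max (-v.ord g) 0 = ∑ v ∈ h2.toFinset, (-v.ord g) := by
    rw [← Finset.sum_subset (Finset.subset_union_right (s₁ := h1.toFinset) (s₂ := h2.toFinset))]
    · refine Finset.sum_congr rfl (fun v hv => ?_)
      have : v.ord g < 0 := h2.mem_toFinset.mp hv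
      omega
    · intro v _ hv
      have : ¬ v.ord g < 0 := fun h => hv (h2.mem_toFinset.mpr h)
      omega
  have key : ∑ v ∈ h3.toFinset, (-v.ord (f * g)) ≤
      ∑ v ∈ h1.toFinset ∪ h2.toFinset, (max (-v.ord f) 0 + max (-v.ord g) 0) := by
    refine (Finset.sum_le_sum (fun v _ => ?_)).trans
      (Finset.sum_le_sum_of_subset_of_nonneg hsub (fun v _ _ => by positivity))
    rw [v.ord_mul hf0 hg0]
    omega
  rw [Finset.sum_add_distrib, e1, e2, s1, s2, s3] at key
  exact_mod_cast key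

/-! ### The Gauss setting and the generators of the chart ring -/

section Gen

open Fermat.Agent.Lib.Red

variable {A : ValuationSubring L} {O : Subring F} {x : F}

/-- Polynomials in `x` with coefficients in `A` lie in `O`. -/
theorem aeval_mem_of_coeff_mem (hOA : ∀ y : L, algebraMap L F y ∈ O ↔ y ∈ A) (hxO : x ∈ O)
    (p : L[X]) (hp : ∀ j, p.coeff j ∈ A) : aeval x p ∈ O := by
  rw [aeval_eq_sum_range]
  refine O.sum_mem (fun j _ => ?_)
  rw [Algebra.smul_def]
  exact O.mul_mem ((hOA _).2 (hp j)) (O.pow_mem hxO j)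

/-- In the presence of an orthonormal family, a polynomial in `x` with a coefficient that is a
unit of `A` is a unit of `O`. -/
theorem inv_aeval_mem_of_unit_coeff [IsAlgClosed L]
    (hOA : ∀ y : L, algebraMap L F y ∈ O ↔ y ∈ A)
    (hx : ∀ e : L[X], e ≠ 0 → aeval x e ≠ 0) (hxO : x ∈ O)
    (hu1 : ∀ c ∈ A, (x - algebraMap L F c)⁻¹ ∈ O)
    (hu2 : ∀ t ∈ A, (1 - algebraMap L F t * x)⁻¹ ∈ O)
    {ι : Type*} [Fintype ι] (β : ι → F) (hβ : PolyOrtho A O x β) (i₀ : ι) (hβ₀ : β i₀ ∈ O)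
    (p : L[X]) (n : ℕ) (hn0 : p.coeff n ≠ 0) (hn' : (p.coeff n)⁻¹ ∈ A) :
    (aeval x p)⁻¹ ∈ O := by
  classical
  have hp : p ≠ 0 := fun h0 => hn0 (by rw [h0, coeff_zero])
  obtain ⟨a, G, ha, hG, hGO, hGinv, hpG⟩ := exists_unit_factor hOA hx hxO hu1 hu2 p hp
  have ha' : algebraMap L F a ≠ 0 := fun h0 => ha ((map_eq_zero (algebraMap L F)).1 h0)
  have h1 : ∑ i, aeval x (if i = i₀ then C a⁻¹ * p else 0) * β i = G * β i₀ := by
    rw [Finset.sum_eq_single i₀]
    · rw [if_pos rfl, map_mul, aeval_C, hpG, map_inv₀, inv_mul_cancel_left₀ ha']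
    · intro i _ hi
      rw [if_neg hi, map_zero, zero_mul]
    · intro h
      exact absurd (Finset.mem_univ i₀) h
  have h2 := hβ (fun i => if i = i₀ then C a⁻¹ * p else 0)
    (by rw [h1]; exact O.mul_mem hGO hβ₀) i₀ n
  rw [if_pos rfl, coeff_C_mul] at h2
  have h3 : a⁻¹ ∈ A := by
    have : a⁻¹ = a⁻¹ * p.coeff n * (p.coeff n)⁻¹ := by
      rw [mul_assoc, mul_inv_cancel₀ hn0, mul_one]
    rw [this]
    exact A.mul_mem _ _ h2 hn'
  have h4 : (aeval x p)⁻¹ = algebraMap L F a⁻¹ * G⁻¹ := by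
    rw [hpG, mul_inv, map_inv₀]
  rw [h4]
  exact O.mul_mem ((hOA _).2 h3) hGinv

/-- **The Gauss setting** of `Lib/Red/Orth` from an orthonormal family. -/
theorem setting_of_polyOrtho [IsAlgClosed L]
    (hOA : ∀ y : L, algebraMap L F y ∈ O ↔ y ∈ A)
    (hx : ∀ e : L[X], e ≠ 0 → aeval x e ≠ 0) (hxO : x ∈ O)
    (hu1 : ∀ c ∈ A, (x - algebraMap L F c)⁻¹ ∈ O)
    (hu2 : ∀ t ∈ A, (1 - algebraMap L F t * x)⁻¹ ∈ O)
    {ι : Type*} [Fintype ι] (β : ι → F) (hβ : PolyOrtho A O x β) (i₀ : ι) (hβ₀ : β i₀ ∈ O) :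
    Orth.Setting x A O where
  hA := hOA
  hx := hxO
  prim := by
    rintro q ⟨n, hn⟩
    have hcoe : (q.map A.subtype).coeff n = ((q.coeff n : A) : L) := by
      rw [coeff_map]; rfl
    obtain ⟨b, hb⟩ := isUnit_iff_exists_inv.1 hn
    have hb' : ((q.coeff n : A) : L) * (b : L) = 1 := by
      have := congrArg (fun t : A => (t : L)) hb
      simpa using this
    have hne : ((q.coeff n : A) : L) ≠ 0 := left_ne_zero_of_mul_eq_one hb'
    have hinv : ((q.coeff n : A) : L)⁻¹ ∈ A := by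
      rw [← eq_inv_of_mul_eq_one_right hb']
      exact b.2
    have hp : q.map A.subtype ≠ 0 := fun h0 => hne (by rw [← hcoe, h0, coeff_zero])
    exact ⟨hx _ hp, inv_aeval_mem_of_unit_coeff hOA hx hxO hu1 hu2 β hβ i₀ hβ₀ _ n
      (by rw [hcoe]; exact hne) (by rw [hcoe]; exact hinv)⟩

/-- **Generators of the chart ring.**  The ring `O ∩ (integral closure of L[x])` is generated as
an `A[x]`-module by finitely many of its elements. -/
theorem exists_gen_of_polyOrtho [IsAlgClosed L] [CharZero L]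
    (hOA : ∀ y : L, algebraMap L F y ∈ O ↔ y ∈ A)
    (hx : ∀ e : L[X], e ≠ 0 → aeval x e ≠ 0) (hxO : x ∈ O)
    (hu1 : ∀ c ∈ A, (x - algebraMap L F c)⁻¹ ∈ O)
    (hu2 : ∀ t ∈ A, (1 - algebraMap L F t * x)⁻¹ ∈ O)
    {ι : Type*} [Fintype ι] (β : ι → F) (hβO : ∀ i, β i ∈ O) (hβ : PolyOrtho A O x β)
    (hspan : ∀ v : F, ∃ D : L[X], D ≠ 0 ∧ ∃ e : ι → L[X],
      aeval x D * v = ∑ i, aeval x (e i) * β i) :
    ∃ b : ι → F, (∀ i, b i ∈ O) ∧ (∀ i, IsIntegral (Algebra.adjoin L {x}) (b i)) ∧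
      ∀ v ∈ O, IsIntegral (Algebra.adjoin L {x}) v →
        ∃ e : ι → L[X], (∀ i j, (e i).coeff j ∈ A) ∧ v = ∑ i, aeval x (e i) * b i := by
  classical
  haveI := finiteDimensional_of_polySpan x hx β hspan
  have hne : Nonempty ι := by
    by_contra hemp
    rw [not_nonempty_iff] at hemp
    obtain ⟨D, hD, e, he⟩ := hspan 1
    rw [Finset.univ_eq_empty, Finset.sum_empty, mul_one] at he
    exact hx D hD he
  obtain ⟨i₀⟩ := hne
  have hS : Orth.Setting x A O := setting_of_polyOrtho hOA hx hxO hu1 hu2 β hβ i₀ (hβO i₀)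
  -- integral multiples
  have hint : ∀ i, ∃ D : L[X], D ≠ 0 ∧
      IsIntegral (Algebra.adjoin L {x}) (aeval x D * β i) := by
    intro i
    have halg : IsAlgebraic L⟮x⟯ (β i) := Algebra.IsAlgebraic.isAlgebraic (β i)
    have halg' : IsAlgebraic (Algebra.adjoin L {x}) (β i) :=
      (IsFractionRing.isAlgebraic_iff (Algebra.adjoin L {x}) L⟮x⟯ F).2 halg
    obtain ⟨y, hy0, hy⟩ := halg'.exists_integral_multiple
    have hy' : (y : F) ∈ (aeval x : L[X] →ₐ[L] F).range := by
      rw [← Algebra.adjoin_singleton_eq_range_aeval]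
      exact y.2
    obtain ⟨D, hD⟩ := hy'
    have hD' : aeval x D = (y : F) := hD
    refine ⟨D, ?_, ?_⟩
    · rintro rfl
      apply hy0
      apply Subtype.ext
      rw [← hD', map_zero]
      rfl
    · have : aeval x D * β i = y • β i := by rw [hD']; rfl
      rw [this]
      exact hy
  choose Di hDi hDint using hint
  set D : L[X] := ∏ i, Di i with hDdef
  have hD : D ≠ 0 := Finset.prod_ne_zero_iff.2 (fun i _ => hDi i)
  have hDβ : ∀ i, IsIntegral (Algebra.adjoin L {x}) (aeval x D * β i) := by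
    intro i
    have : aeval x D * β i =
        aeval x (∏ j ∈ Finset.univ.erase i, Di j) * (aeval x (Di i) * β i) := by
      rw [← mul_assoc, ← map_mul, Finset.prod_erase_mul _ _ (Finset.mem_univ i)]
    rw [this]
    exact (Orth.isIntegral_of_mem_adjoin (Orth.aeval_mem_adjoin _)).mul (hDint i)
  obtain ⟨a, G, ha, hG, hGO, hGinv, hDG⟩ := exists_unit_factor hOA hx hxO hu1 hu2 D hD
  have ha' : algebraMap L F a ≠ 0 := fun h0 => ha ((map_eq_zero (algebraMap L F)).1 h0)
  set b₀ : ι → F := fun i => G * β i with hb₀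
  have hb₀int : ∀ i, IsIntegral (Algebra.adjoin L {x}) (b₀ i) := by
    intro i
    have : b₀ i = algebraMap L F a⁻¹ * (aeval x D * β i) := by
      show G * β i = _
      rw [hDG, map_inv₀, ← mul_assoc, inv_mul_cancel_left₀ ha']
    rw [this]
    exact (Orth.isIntegral_of_mem_adjoin (Subalgebra.algebraMap_mem _ _)).mul (hDβ i)
  have hb₀ortho : PolyOrtho A O x b₀ := hβ.mul_unit G (fun v hv => by
    have : v = G⁻¹ * (G * v) := by rw [inv_mul_cancel_left₀ hG]
    rw [this]
    exact O.mul_mem hGinv hv)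
  have hGK : G ∈ L⟮x⟯ := by
    have : G = algebraMap L F a⁻¹ * aeval x D := by
      rw [hDG, map_inv₀, inv_mul_cancel_left₀ ha']
    rw [this]
    exact mul_mem (IntermediateField.algebraMap_mem _ _) (aeval_mem_adjoin_simple x D)
  have h₀ : Orth.Good L x O b₀ :=
    { mem := fun i => O.mul_mem hGO (hβO i)
      int := hb₀int
      span := by
        intro y
        obtain ⟨D', hD', e, he⟩ := hspan y
        have hD'0 := hx D' hD'
        refine ⟨fun i => aeval x (e i) / (aeval x D' * G), fun i =>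
          div_mem (aeval_mem_adjoin_simple x _) (mul_mem (aeval_mem_adjoin_simple x _) hGK), ?_⟩
        have h1 : ∀ i, aeval x (e i) / (aeval x D' * G) * b₀ i =
            (aeval x D')⁻¹ * (aeval x (e i) * β i) := by
          intro i
          show aeval x (e i) / (aeval x D' * G) * (G * β i) = _
          field_simp
        rw [Finset.sum_congr rfl (fun i _ => h1 i), ← Finset.mul_sum, ← he,
          inv_mul_cancel_left₀ hD'0]
      orth := by
        intro c hc hsum i
        obtain ⟨D', hD', e, he⟩ := exists_common_denom x hx c hc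
        obtain ⟨a', G', ha'', hG', hG'O, hG'inv, hD'G'⟩ :=
          exists_unit_factor hOA hx hxO hu1 hu2 D' hD'
        have ha'0 : algebraMap L F a' ≠ 0 := fun h0 =>
          ha'' ((map_eq_zero (algebraMap L F)).1 h0)
        have h1 : ∑ i, aeval x (C a'⁻¹ * e i) * b₀ i = G' * ∑ i, c i * b₀ i := by
          rw [Finset.mul_sum]
          refine Finset.sum_congr rfl (fun i _ => ?_)
          rw [map_mul, aeval_C, ← he i, hD'G', map_inv₀]
          field_simp
        have h2 := hb₀ortho (fun i => C a'⁻¹ * e i)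
          (by rw [h1]; exact O.mul_mem hG'O hsum) i
        have h3 : c i = G'⁻¹ * aeval x (C a'⁻¹ * e i) := by
          rw [map_mul, aeval_C, ← he i, hD'G', map_inv₀]
          field_simp
        rw [h3]
        exact O.mul_mem hG'inv (aeval_mem_of_coeff_mem hOA hxO _ h2) }
  obtain ⟨b, hbO, hbint, hgen⟩ := Orth.exists_orth_basis hS b₀ h₀
  refine ⟨b, hbO, hbint, fun v hv hvint => ?_⟩
  obtain ⟨p, hp⟩ := hgen v hv hvint
  exact ⟨fun i => (p i).map A.subtype, fun i j => by
    rw [coeff_map]; exact ((p i).coeff j).2, hp⟩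

/-! ### The chart at infinity -/

theorem aeval_reflect (x : F) (hx0 : x ≠ 0) (N : ℕ) (p : L[X]) (hp : p.natDegree ≤ N) :
    aeval x (p.reflect N) = x ^ N * aeval x⁻¹ p := by
  letI : Invertible x⁻¹ := invertibleOfNonzero (inv_ne_zero hx0)
  have h := eval₂_reflect_mul_pow (algebraMap L F) x⁻¹ N p hp
  rw [invOf_eq_inv, inv_inv] at h
  rw [aeval_def, aeval_def, ← h, mul_comm, mul_assoc, ← mul_pow, inv_mul_cancel₀ hx0, one_pow,
    mul_one]

theorem aeval_inv_reflect (x : F) (hx0 : x ≠ 0) (N : ℕ) (p : L[X]) (hp : p.natDegree ≤ N) :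
    aeval x⁻¹ (p.reflect N) = x⁻¹ ^ N * aeval x p := by
  have h := aeval_reflect x⁻¹ (inv_ne_zero hx0) N p hp
  rwa [inv_inv] at h

/-- `x⁻¹` is transcendental. -/
theorem aeval_inv_ne_zero (hx : ∀ e : L[X], e ≠ 0 → aeval x e ≠ 0) (hx0 : x ≠ 0)
    (e : L[X]) (he : e ≠ 0) : aeval x⁻¹ e ≠ 0 := by
  intro h0
  have h1 := aeval_reflect x hx0 e.natDegree e le_rfl
  rw [h0, mul_zero] at h1
  exact hx _ (by rw [Ne, reflect_eq_zero_iff]; exact he) h1

/-- An `L[x]`-orthonormal family is `L[x⁻¹]`-orthonormal (`x ∈ O`). -/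
theorem polyOrtho_inv (hxO : x ∈ O) (hx0 : x ≠ 0) {ι : Type*} [Fintype ι] {β : ι → F}
    (hβ : PolyOrtho A O x β) : PolyOrtho A O x⁻¹ β := by
  intro e he i j
  set N := Finset.univ.sup (fun i => (e i).natDegree) with hN
  have hle : ∀ i, (e i).natDegree ≤ N := fun i =>
    Finset.le_sup (f := fun i => (e i).natDegree) (Finset.mem_univ i)
  have h1 : ∑ i, aeval x ((e i).reflect N) * β i = x ^ N * ∑ i, aeval x⁻¹ (e i) * β i := by
    rw [Finset.mul_sum]
    refine Finset.sum_congr rfl (fun i _ => ?_)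
    rw [aeval_reflect x hx0 N (e i) (hle i), mul_assoc]
  have h2 := hβ (fun i => (e i).reflect N)
    (by rw [h1]; exact O.mul_mem (O.pow_mem hxO N) he) i
  by_cases hj : j ≤ N
  · have := h2 (N - j)
    rwa [coeff_reflect, revAt_le (Nat.sub_le N j), Nat.sub_sub_self hj] at this
  · rw [coeff_eq_zero_of_natDegree_lt (lt_of_le_of_lt (hle i) (not_le.mp hj))]
    exact A.zero_mem

/-- An `L(x)`-spanning family with polynomial denominators in `x` is one with polynomial
denominators in `x⁻¹`. -/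
theorem polySpan_inv (hx0 : x ≠ 0) {ι : Type*} [Fintype ι] (β : ι → F)
    (hspan : ∀ v : F, ∃ D : L[X], D ≠ 0 ∧ ∃ e : ι → L[X],
      aeval x D * v = ∑ i, aeval x (e i) * β i) (v : F) :
    ∃ D : L[X], D ≠ 0 ∧ ∃ e : ι → L[X], aeval x⁻¹ D * v = ∑ i, aeval x⁻¹ (e i) * β i := by
  obtain ⟨D, hD, e, he⟩ := hspan v
  set N := max D.natDegree (Finset.univ.sup (fun i => (e i).natDegree)) with hN
  have hle : ∀ i, (e i).natDegree ≤ N := fun i =>
    (Finset.le_sup (f := fun i => (e i).natDegree) (Finset.mem_univ i)).trans (le_max_right _ _)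
  refine ⟨D.reflect N, by rw [Ne, reflect_eq_zero_iff]; exact hD, fun i => (e i).reflect N, ?_⟩
  rw [aeval_inv_reflect x hx0 N D (le_max_left _ _), mul_assoc, he, Finset.mul_sum]
  refine Finset.sum_congr rfl (fun i _ => ?_)
  rw [aeval_inv_reflect x hx0 N (e i) (hle i), mul_assoc]

/-- **Generators of the chart ring at infinity**: the same for the coordinate `x⁻¹`, from the
same data. -/
theorem exists_gen_inv_of_polyOrtho [IsAlgClosed L] [CharZero L]
    (hOA : ∀ y : L, algebraMap L F y ∈ O ↔ y ∈ A)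
    (hx : ∀ e : L[X], e ≠ 0 → aeval x e ≠ 0) (hxO : x ∈ O)
    (hu1 : ∀ c ∈ A, (x - algebraMap L F c)⁻¹ ∈ O)
    (hu2 : ∀ t ∈ A, (1 - algebraMap L F t * x)⁻¹ ∈ O)
    {ι : Type*} [Fintype ι] (β : ι → F) (hβO : ∀ i, β i ∈ O) (hβ : PolyOrtho A O x β)
    (hspan : ∀ v : F, ∃ D : L[X], D ≠ 0 ∧ ∃ e : ι → L[X],
      aeval x D * v = ∑ i, aeval x (e i) * β i) :
    ∃ b : ι → F, (∀ i, b i ∈ O) ∧ (∀ i, IsIntegral (Algebra.adjoin L {x⁻¹}) (b i)) ∧
      ∀ v ∈ O, IsIntegral (Algebra.adjoin L {x⁻¹}) v →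
        ∃ e : ι → L[X], (∀ i j, (e i).coeff j ∈ A) ∧ v = ∑ i, aeval x⁻¹ (e i) * b i := by
  have hx0 : x ≠ 0 := by
    have := hx X X_ne_zero
    rwa [aeval_X] at this
  have hxinv : x⁻¹ ∈ O := by
    have := hu1 0 A.zero_mem
    rwa [map_zero, sub_zero] at this
  refine exists_gen_of_polyOrtho hOA (aeval_inv_ne_zero hx hx0) hxinv ?_ ?_ β hβO
    (polyOrtho_inv hxO hx0 hβ) (polySpan_inv hx0 β hspan)
  · intro c hc
    have h1 : (x⁻¹ - algebraMap L F c)⁻¹ = x * (1 - algebraMap L F c * x)⁻¹ := by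
      have : x⁻¹ - algebraMap L F c = x⁻¹ * (1 - algebraMap L F c * x) := by
        field_simp
      rw [this, mul_inv, inv_inv]
    rw [h1]
    exact O.mul_mem hxO (hu2 c hc)
  · intro t ht
    have h1 : (1 - algebraMap L F t * x⁻¹)⁻¹ = x * (x - algebraMap L F t)⁻¹ := by
      have : 1 - algebraMap L F t * x⁻¹ = x⁻¹ * (x - algebraMap L F t) := by
        field_simp
      rw [this, mul_inv, inv_inv]
    rw [h1]
    exact O.mul_mem hxO (hu1 t ht)

/-- Reindexing a finite generating family by `Fin r`. -/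
theorem exists_fin_of_fintype {ι : Type*} [Fintype ι] (y : F) (P : F → Prop) (b : ι → F)
    (hbO : ∀ i, b i ∈ O) (hbP : ∀ i, P (b i))
    (hgen : ∀ v ∈ O, P v →
      ∃ e : ι → L[X], (∀ i j, (e i).coeff j ∈ A) ∧ v = ∑ i, aeval y (e i) * b i) :
    ∃ (r : ℕ) (b' : Fin r → F), (∀ i, b' i ∈ O) ∧ (∀ i, P (b' i)) ∧
      ∀ v ∈ O, P v →
        ∃ e : Fin r → L[X], (∀ i j, (e i).coeff j ∈ A) ∧ v = ∑ i, aeval y (e i) * b' i := by
  classical
  set eq := Fintype.equivFin ι with heq
  refine ⟨Fintype.card ι, fun k => b (eq.symm k), fun k => hbO _, fun k => hbP _,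
    fun v hv hP => ?_⟩
  obtain ⟨e, he, hsum⟩ := hgen v hv hP
  refine ⟨fun k => e (eq.symm k), fun k j => he _ j, ?_⟩
  rw [hsum]
  exact (Equiv.sum_comp eq.symm (fun i => aeval y (e i) * b i)).symm

end Gen

end Fermat.Agent.BAD.LatGen
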