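import Mathlib
import Fermat.Agent.BAD.ChartBase
import Fermat.Agent.BAD.TwoVal.ChartElts
import Fermat.Agent.BAD.LatInst
import Fermat.Agent.BAD.LatGen
import Fermat.Agent.BAD.NodalPlaces

/-!
# BAD: the chart lattices at the bad level, for a generic chart base `X`

`h : BadSetup A π M ℓ`, `W` the Atkin–Lehner involution, `X` a level-`M` function with
`hX : IsChartBase h X`, `Y1 = α X`, `Y2 = β X`, and the chart coordinate `x = Y1 · Y2` of level
`M ℓ`; `O = OPair h W = O_∞ ∩ O_0`.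

* `hasRed_coord` : `red x = (X̄^(ℓ+1), X̄^(ℓ+1))`; `inv_coord_sub_mem`, `inv_one_sub_mul_coord_mem`
  (`x - c`, `1 - t x` are units of `O`), `aeval_coord_ne_zero` (`x` is transcendental);
* `famChart`, `polyOrtho_famChart` : the `L[x]`-orthonormal family
  `(1 - e) α(b_i) Y1^s`, `e β(b_i) Y2^s` (`s ≤ ℓ`), `b` the good basis of `hX.basis`;
* `finrank_coord_le` : `[F_{Mℓ} : L(x)] ≤ 2 n (ℓ + 1)` (no modular equation for `X` needed);
* `polySpan_famChart` : the family spans `F_{Mℓ}` over `L(x)`;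
* `exists_chart_gen`, `exists_chart_gen_inv` : **generators of the two chart rings over `A[x]`,
  `A[x⁻¹]`** (L1, L2), in the shape of `SatInst.sat_places` / `ChartLat`;
* `exists_chart_gen_finRing`, `exists_chart_gen_inv_finRing` : the same with `NodalPlaces.finRing`.
-/

set_option autoImplicit false
set_option linter.style.haveILetI false

namespace Fermat.Agent.BAD.LatChart

open HahnSeries ModularCurve Polynomial AlgebraicCurve Fermat.Agent.Lib.Red Fermat.Agent.S28
open Fermat.Agent.ESJ.Cong.LevelGen Fermat.Agent.BAD.TwoVal Fermat.Agent.BAD.PolyBasis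
open Fermat.Agent.BAD.PolyRed Fermat.Agent.BAD.LatGen Fermat.Agent.BAD.LatInst

noncomputable section

variable {L : Type*} [Field L] [Algebra ℚ L] {A : ValuationSubring L} {k : Type} [Field k]
  {π : A →+* k} {M ℓ : ℕ} [NeZero M] [NeZero ℓ]
  {W : laurentBaseChange L (modularFunctionFieldFull (M * ℓ)) ≃ₐ[L]
    laurentBaseChange L (modularFunctionFieldFull (M * ℓ))}

/-! ### Reductions -/

/-- `α f` has first reduction `f̄`. -/
theorem hasRed_alpha_exists (h : BadSetup A π M ℓ) (hW : IsAL M ℓ W)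
    (f : ↥(laurentBaseChange L (modularFunctionFieldFull M))) (hf : f ∈ Ow A π M h.hMk) :
    ∃ c, HasRed h W (heckeAlphaBar L M ℓ f) (redF A π M h.hπ h.hMk ⟨f, hf⟩) c := by
  have h1 : heckeAlphaBar L M ℓ f ∈ OInf h := (heckeAlphaBar_mem_OInf_iff h f).mpr hf
  have h2 : heckeAlphaBar L M ℓ f ∈ OZero h W := (heckeAlphaBar_mem_OZero_iff h hW f).mpr hf
  exact ⟨_, (hasRed_iff h _ _ _).mpr ⟨h1, h2, redInf_heckeAlphaBar h f hf h1, rfl⟩⟩

/-- `β f` has second reduction `f̄`. -/
theorem hasRed_beta_exists (h : BadSetup A π M ℓ) (hW : IsAL M ℓ W)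
    (f : ↥(laurentBaseChange L (modularFunctionFieldFull M))) (hf : f ∈ Ow A π M h.hMk) :
    ∃ c, HasRed h W (heckeBetaBar L M ℓ f) c (redF A π M h.hπ h.hMk ⟨f, hf⟩) := by
  have h1 : heckeBetaBar L M ℓ f ∈ OInf h := (heckeBetaBar_mem_OInf_iff h f).mpr hf
  have h2 : heckeBetaBar L M ℓ f ∈ OZero h W := (heckeBetaBar_mem_OZero_iff h hW f).mpr hf
  exact ⟨_, (hasRed_iff h _ _ _).mpr ⟨h1, h2, rfl, redZero_heckeBetaBar h hW f hf h2⟩⟩

/-- The reductions of the chart coordinate `x = α X · β X` are `(X̄^(ℓ+1), X̄^(ℓ+1))`. -/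
theorem hasRed_coord (h : BadSetup A π M ℓ) (hW : IsAL M ℓ W)
    (X : ↥(laurentBaseChange L (modularFunctionFieldFull M))) (hX : IsChartBase h X) :
    HasRed h W (heckeAlphaBar L M ℓ X * heckeBetaBar L M ℓ X)
      (redF A π M h.hπ h.hMk ⟨X, hX.mem⟩ ^ (ℓ + 1))
      (redF A π M h.hπ h.hMk ⟨X, hX.mem⟩ ^ (ℓ + 1)) :=
  ((hasRed_alpha h hW X hX.mem hX.rat).mul (hasRed_beta h hW X hX.mem hX.rat)).congr
    (by rw [pow_succ']) (by rw [pow_succ])

/-! ### Units and transcendence -/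

omit [NeZero M] in
theorem sub_const_ne_zero {E : Type*} [Field E] [Algebra k E] {t : E} (ht : Transcendental k t)
    (c : k) : t - algebraMap k E c ≠ 0 := by
  intro h0
  rw [transcendental_iff] at ht
  have h1 : aeval t (X - Polynomial.C c : k[X]) = 0 := by
    rw [map_sub, aeval_X, aeval_C]
    exact h0
  exact X_sub_C_ne_zero c (ht _ h1)

omit [NeZero M] in
theorem one_sub_mul_ne_zero {E : Type*} [Field E] [Algebra k E] {t : E}
    (ht : Transcendental k t) (c : k) : 1 - algebraMap k E c * t ≠ 0 := by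
  intro h0
  rw [transcendental_iff] at ht
  have h1 : aeval t (1 - Polynomial.C c * X : k[X]) = 0 := by
    rw [map_sub, map_one, map_mul, aeval_X, aeval_C]
    exact h0
  have h2 := congrArg (fun p : k[X] => p.coeff 0) (ht _ h1)
  simp at h2

/-- The reduced coordinate `X̄^(ℓ+1)` is transcendental. -/
theorem transcendental_redCoord (h : BadSetup A π M ℓ)
    (X : ↥(laurentBaseChange L (modularFunctionFieldFull M))) (hX : IsChartBase h X) :
    Transcendental k (redF A π M h.hπ h.hMk ⟨X, hX.mem⟩ ^ (ℓ + 1)) :=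
  hX.ffRed.transcendental.pow (Nat.succ_pos ℓ)

/-- `hu1`: `x - c` is a unit of `O` for `c ∈ A`. -/
theorem inv_coord_sub_mem (h : BadSetup A π M ℓ) (hW : IsAL M ℓ W)
    (X : ↥(laurentBaseChange L (modularFunctionFieldFull M))) (hX : IsChartBase h X)
    (c : L) (hc : c ∈ A) :
    (heckeAlphaBar L M ℓ X * heckeBetaBar L M ℓ X -
      algebraMap L ↥(laurentBaseChange L (modularFunctionFieldFull (M * ℓ))) c)⁻¹ ∈ OPair h W :=
  (((hasRed_coord h hW X hX).sub (hasRed_algebraMap h ⟨c, hc⟩)).inv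
    (sub_const_ne_zero (transcendental_redCoord h X hX) _)
    (sub_const_ne_zero (transcendental_redCoord h X hX) _)).mem

/-- `hu2`: `1 - t x` is a unit of `O` for `t ∈ A`. -/
theorem inv_one_sub_mul_coord_mem (h : BadSetup A π M ℓ) (hW : IsAL M ℓ W)
    (X : ↥(laurentBaseChange L (modularFunctionFieldFull M))) (hX : IsChartBase h X)
    (t : L) (ht : t ∈ A) :
    (1 - algebraMap L ↥(laurentBaseChange L (modularFunctionFieldFull (M * ℓ))) t *
      (heckeAlphaBar L M ℓ X * heckeBetaBar L M ℓ X))⁻¹ ∈ OPair h W :=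
  (((hasRed_one h).sub ((hasRed_algebraMap h ⟨t, ht⟩).mul (hasRed_coord h hW X hX))).inv
    (one_sub_mul_ne_zero (transcendental_redCoord h X hX) _)
    (one_sub_mul_ne_zero (transcendental_redCoord h X hX) _)).mem

set_option synthInstance.maxHeartbeats 400000 in
/-- The chart coordinate is transcendental over `L`. -/
theorem aeval_coord_ne_zero (h : BadSetup A π M ℓ) (hW : IsAL M ℓ W)
    (X : ↥(laurentBaseChange L (modularFunctionFieldFull M))) (hX : IsChartBase h X)
    (e : L[X]) (he : e ≠ 0) :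
    aeval (heckeAlphaBar L M ℓ X * heckeBetaBar L M ℓ X) e ≠ 0 := by
  intro h0
  obtain ⟨c, hc, P₀, hP₀, hne⟩ := exists_primitive_scaling π e he
  have hr := (hasRed_coord h hW X hX).aeval_map P₀
  have hz : aeval (heckeAlphaBar L M ℓ X * heckeBetaBar L M ℓ X) (P₀.map A.subtype) = 0 := by
    rw [hP₀, map_mul, h0, mul_zero]
  rw [hz] at hr
  have e1 := hr.redInf_eq (zero_mem _)
  have e2 : redInf h ⟨0, zero_mem _⟩ = 0 := map_zero (redInf h)
  rw [e2] at e1
  have ht := transcendental_redCoord h X hX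
  rw [transcendental_iff] at ht
  exact hne (ht _ e1.symm)

/-- `α X` is transcendental over `L`. -/
theorem aeval_alpha_ne_zero (h : BadSetup A π M ℓ)
    (X : ↥(laurentBaseChange L (modularFunctionFieldFull M))) (hX : IsChartBase h X)
    (e : L[X]) (he : e ≠ 0) : aeval (heckeAlphaBar L M ℓ X) e ≠ 0 := by
  rw [Polynomial.aeval_algHom_apply]
  intro h0
  have ht := hX.ff.transcendental
  rw [transcendental_iff] at ht
  exact he (ht e ((heckeAlphaBar L M ℓ).toRingHom.injective (by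
    rw [AlgHom.toRingHom_eq_coe, RingHom.coe_coe, h0, map_zero])))

/-- `β X` is transcendental over `L`. -/
theorem aeval_beta_ne_zero (h : BadSetup A π M ℓ)
    (X : ↥(laurentBaseChange L (modularFunctionFieldFull M))) (hX : IsChartBase h X)
    (e : L[X]) (he : e ≠ 0) : aeval (heckeBetaBar L M ℓ X) e ≠ 0 := by
  rw [Polynomial.aeval_algHom_apply]
  intro h0
  have ht := hX.ff.transcendental
  rw [transcendental_iff] at ht
  exact he (ht e ((heckeBetaBar L M ℓ).toRingHom.injective (by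
    rw [AlgHom.toRingHom_eq_coe, RingHom.coe_coe, h0, map_zero])))

/-! ### The orthonormal family -/

/-- The family `(1 - e) α(b_i) Y1^s`, `e β(b_i) Y2^s` (`s ≤ ℓ`). -/
def famChart (e : ↥(laurentBaseChange L (modularFunctionFieldFull (M * ℓ))))
    (X : ↥(laurentBaseChange L (modularFunctionFieldFull M))) {ι : Type}
    (b : ι → ↥(laurentBaseChange L (modularFunctionFieldFull M))) :
    (ι × Fin (ℓ + 1)) ⊕ (ι × Fin (ℓ + 1)) →
      ↥(laurentBaseChange L (modularFunctionFieldFull (M * ℓ)))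
  | Sum.inl p => (1 - e) * (heckeAlphaBar L M ℓ (b p.1) * heckeAlphaBar L M ℓ X ^ (p.2 : ℕ))
  | Sum.inr p => e * (heckeBetaBar L M ℓ (b p.1) * heckeBetaBar L M ℓ X ^ (p.2 : ℕ))

theorem hasRed_famChart_inl (h : BadSetup A π M ℓ) (hW : IsAL M ℓ W)
    (X : ↥(laurentBaseChange L (modularFunctionFieldFull M))) (hX : IsChartBase h X)
    {e : ↥(laurentBaseChange L (modularFunctionFieldFull (M * ℓ)))} (he : HasRed h W e 0 1)
    {ι : Type} (b : ι → Ow A π M h.hMk) (p : ι × Fin (ℓ + 1)) :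
    HasRed h W (famChart e X (fun i => ((b i : Ow A π M h.hMk) :
        ↥(laurentBaseChange L (modularFunctionFieldFull M)))) (Sum.inl p))
      (redF A π M h.hπ h.hMk (b p.1) * redF A π M h.hπ h.hMk ⟨X, hX.mem⟩ ^ (p.2 : ℕ)) 0 := by
  obtain ⟨c, hc⟩ := hasRed_alpha_exists h hW
    ((b p.1 : Ow A π M h.hMk) : ↥(laurentBaseChange L (modularFunctionFieldFull M))) (b p.1).2
  have h1 := ((hasRed_one h).sub he).mul
    (hc.mul ((hasRed_alpha h hW X hX.mem hX.rat).pow (p.2 : ℕ)))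
  exact h1.congr (by rw [sub_zero, one_mul]) (by rw [sub_self, zero_mul])

theorem hasRed_famChart_inr (h : BadSetup A π M ℓ) (hW : IsAL M ℓ W)
    (X : ↥(laurentBaseChange L (modularFunctionFieldFull M))) (hX : IsChartBase h X)
    {e : ↥(laurentBaseChange L (modularFunctionFieldFull (M * ℓ)))} (he : HasRed h W e 0 1)
    {ι : Type} (b : ι → Ow A π M h.hMk) (p : ι × Fin (ℓ + 1)) :
    HasRed h W (famChart e X (fun i => ((b i : Ow A π M h.hMk) :
        ↥(laurentBaseChange L (modularFunctionFieldFull M)))) (Sum.inr p))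
      0 (redF A π M h.hπ h.hMk (b p.1) * redF A π M h.hπ h.hMk ⟨X, hX.mem⟩ ^ (p.2 : ℕ)) := by
  obtain ⟨c, hc⟩ := hasRed_beta_exists h hW
    ((b p.1 : Ow A π M h.hMk) : ↥(laurentBaseChange L (modularFunctionFieldFull M))) (b p.1).2
  have h1 := he.mul (hc.mul ((hasRed_beta h hW X hX.mem hX.rat).pow (p.2 : ℕ)))
  exact h1.congr (by rw [zero_mul]) (by rw [one_mul])

/-- **Orthonormality of the family** over `L[x]`, `x = α X · β X`. -/
theorem polyOrtho_famChart (h : BadSetup A π M ℓ) (hW : IsAL M ℓ W)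
    (X : ↥(laurentBaseChange L (modularFunctionFieldFull M))) (hX : IsChartBase h X)
    {e : ↥(laurentBaseChange L (modularFunctionFieldFull (M * ℓ)))} (he : HasRed h W e 0 1)
    {ι : Type} [Fintype ι] (b : ι → Ow A π M h.hMk)
    (hind : ∀ g : ι → k[X],
      ∑ i, aeval (redF A π M h.hπ h.hMk ⟨X, hX.mem⟩) (g i) * redF A π M h.hπ h.hMk (b i) = 0 →
        ∀ i, g i = 0) :
    (∀ j, famChart e X (fun i => ((b i : Ow A π M h.hMk) :
        ↥(laurentBaseChange L (modularFunctionFieldFull M)))) j ∈ OPair h W) ∧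
    PolyOrtho A (OPair h W) (heckeAlphaBar L M ℓ X * heckeBetaBar L M ℓ X)
      (famChart e X (fun i => ((b i : Ow A π M h.hMk) :
        ↥(laurentBaseChange L (modularFunctionFieldFull M))))) := by
  classical
  have hl := hasRed_famChart_inl h hW X hX he b
  have hr := hasRed_famChart_inr h hW X hX he b
  have hmem : ∀ j, famChart e X (fun i => ((b i : Ow A π M h.hMk) :
      ↥(laurentBaseChange L (modularFunctionFieldFull M)))) j ∈ OPair h W := by
    rintro (p | p)
    · exact (hl p).mem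
    · exact (hr p).mem
  have hfam1 : ∀ j, famChart e X (fun i => ((b i : Ow A π M h.hMk) :
      ↥(laurentBaseChange L (modularFunctionFieldFull M)))) j ∈ OInf h :=
    fun j => ((mem_OPair_iff h _).mp (hmem j)).1
  have hfam2 : ∀ j, famChart e X (fun i => ((b i : Ow A π M h.hMk) :
      ↥(laurentBaseChange L (modularFunctionFieldFull M)))) j ∈ OZero h W :=
    fun j => ((mem_OPair_iff h _).mp (hmem j)).2
  have hx := hasRed_coord h hW X hX
  refine ⟨hmem, ?_⟩
  refine polyOrtho_of_reductions (OInf h) (OZero h W) A π ?_ (redInf h) (redZero h W)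
    (fun a => ⟨(algebraMap_mem_OInf_iff h _).2 a.2, redInf_algebraMap h a _⟩)
    (fun a => ⟨(algebraMap_mem_OZero_iff h _).2 a.2, redZero_algebraMap h a _⟩)
    (OPair h W) (fun y hy => (mem_OPair_iff h y).mp hy) _ hx.mem_OInf hx.mem_OZero
    _ hfam1 hfam2 ?_
  · intro a ha
    apply h.hπ
    intro hu
    have h1 := (ValuationSubring.valuation_eq_one_iff A a).mp hu
    rw [h1] at ha
    exact lt_irrefl _ ha
  · intro g hg1 hg2
    rw [Fintype.sum_sum_type] at hg1 hg2
    rw [hx.redInf_eq hx.mem_OInf] at hg1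
    rw [hx.redZero_eq hx.mem_OZero] at hg2
    have hg1' : ∑ p : ι × Fin (ℓ + 1),
        aeval (redF A π M h.hπ h.hMk ⟨X, hX.mem⟩ ^ (ℓ + 1)) (g (Sum.inl p)) *
          (redF A π M h.hπ h.hMk (b p.1) *
            redF A π M h.hπ h.hMk ⟨X, hX.mem⟩ ^ (p.2 : ℕ)) = 0 := by
      rw [← hg1]
      have hz : ∑ p : ι × Fin (ℓ + 1),
          aeval (redF A π M h.hπ h.hMk ⟨X, hX.mem⟩ ^ (ℓ + 1)) (g (Sum.inr p)) *
            redInf h ⟨famChart e X (fun i => ((b i : Ow A π M h.hMk) :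
              ↥(laurentBaseChange L (modularFunctionFieldFull M)))) (Sum.inr p), hfam1 _⟩ = 0 :=
        Finset.sum_eq_zero (fun p _ => by rw [(hr p).redInf_eq, mul_zero])
      rw [hz, add_zero]
      exact Finset.sum_congr rfl (fun p _ => by rw [(hl p).redInf_eq])
    have hg2' : ∑ p : ι × Fin (ℓ + 1),
        aeval (redF A π M h.hπ h.hMk ⟨X, hX.mem⟩ ^ (ℓ + 1)) (g (Sum.inr p)) *
          (redF A π M h.hπ h.hMk (b p.1) *
            redF A π M h.hπ h.hMk ⟨X, hX.mem⟩ ^ (p.2 : ℕ)) = 0 := by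
      rw [← hg2]
      have hz : ∑ p : ι × Fin (ℓ + 1),
          aeval (redF A π M h.hπ h.hMk ⟨X, hX.mem⟩ ^ (ℓ + 1)) (g (Sum.inl p)) *
            redZero h W ⟨famChart e X (fun i => ((b i : Ow A π M h.hMk) :
              ↥(laurentBaseChange L (modularFunctionFieldFull M)))) (Sum.inl p), hfam2 _⟩ = 0 :=
        Finset.sum_eq_zero (fun p _ => by rw [(hl p).redZero_eq, mul_zero])
      rw [hz, zero_add]
      exact Finset.sum_congr rfl (fun p _ => by rw [(hr p).redZero_eq])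
    have hA1 := polyIndep_frobenius (redF A π M h.hπ h.hMk ⟨X, hX.mem⟩)
      (fun i => redF A π M h.hπ h.hMk (b i)) hind (ℓ + 1) (Nat.succ_pos ℓ)
      (fun p => g (Sum.inl p)) hg1'
    have hA2 := polyIndep_frobenius (redF A π M h.hπ h.hMk ⟨X, hX.mem⟩)
      (fun i => redF A π M h.hπ h.hMk (b i)) hind (ℓ + 1) (Nat.succ_pos ℓ)
      (fun p => g (Sum.inr p)) hg2'
    rintro (p | p)
    · exact hA1 p
    · exact hA2 p

/-! ### Spanning: the degree count -/

/-- The family `α(b_i) β(j)^t` (`t ≤ ℓ`) spans `F_{Mℓ}` over `L(α X)`. -/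
theorem span_alpha (h : BadSetup A π M ℓ)
    (X : ↥(laurentBaseChange L (modularFunctionFieldFull M))) {n : ℕ}
    (b : Fin n → ↥(laurentBaseChange L (modularFunctionFieldFull M)))
    (hb : ∀ v : ↥(laurentBaseChange L (modularFunctionFieldFull M)),
      ∃ (D : L[X]) (e : Fin n → L[X]), D ≠ 0 ∧ aeval X D * v = ∑ i, aeval X (e i) * b i)
    (v : ↥(laurentBaseChange L (modularFunctionFieldFull (M * ℓ)))) :
    ∃ D : L[X], D ≠ 0 ∧ ∃ e : Fin n × Fin (ℓ + 1) → L[X],
      aeval (heckeAlphaBar L M ℓ X) D * v = ∑ p, aeval (heckeAlphaBar L M ℓ X) (e p) *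
        (fun p : Fin n × Fin (ℓ + 1) =>
          heckeAlphaBar L M ℓ (b p.1) * heckeBetaBar L M ℓ (jLevel L M) ^ (p.2 : ℕ)) p := by
  classical
  obtain ⟨c, hc⟩ := exists_repr_bad h.hℓ h.not_dvd v
  choose Dt et hDt het using fun t => hb (c t)
  set D : L[X] := ∏ t, Dt t with hDdef
  refine ⟨D, Finset.prod_ne_zero_iff.2 (fun t _ => hDt t),
    fun p => (∏ s ∈ Finset.univ.erase p.2, Dt s) * et p.2 p.1, ?_⟩
  have hα : ∀ p : L[X], aeval (heckeAlphaBar L M ℓ X) p = heckeAlphaBar L M ℓ (aeval X p) :=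
    fun p => Polynomial.aeval_algHom_apply _ _ _
  rw [hc, Finset.mul_sum, Fintype.sum_prod_type, Finset.sum_comm]
  refine Finset.sum_congr rfl (fun t _ => ?_)
  have h1 : aeval X D * c t =
      ∑ i, aeval X ((∏ s ∈ Finset.univ.erase t, Dt s) * et t i) * b i := by
    rw [hDdef, ← Finset.mul_prod_erase Finset.univ Dt (Finset.mem_univ t), map_mul,
      mul_comm (aeval X (Dt t)), mul_assoc, het t, Finset.mul_sum]
    refine Finset.sum_congr rfl (fun i _ => ?_)
    rw [map_mul, mul_assoc]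
  have h2 := congrArg (heckeAlphaBar L M ℓ) h1
  rw [map_mul, map_sum] at h2
  rw [hα, ← mul_assoc, h2, Finset.sum_mul]
  refine Finset.sum_congr rfl (fun i _ => ?_)
  rw [map_mul, hα, mul_assoc]

/-- The family `β(b_i) α(j)^t` (`t ≤ ℓ`) spans `F_{Mℓ}` over `L(β X)`. -/
theorem span_beta (h : BadSetup A π M ℓ) (hW : IsAL M ℓ W)
    (X : ↥(laurentBaseChange L (modularFunctionFieldFull M))) {n : ℕ}
    (b : Fin n → ↥(laurentBaseChange L (modularFunctionFieldFull M)))
    (hb : ∀ v : ↥(laurentBaseChange L (modularFunctionFieldFull M)),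
      ∃ (D : L[X]) (e : Fin n → L[X]), D ≠ 0 ∧ aeval X D * v = ∑ i, aeval X (e i) * b i)
    (v : ↥(laurentBaseChange L (modularFunctionFieldFull (M * ℓ)))) :
    ∃ D : L[X], D ≠ 0 ∧ ∃ e : Fin n × Fin (ℓ + 1) → L[X],
      aeval (heckeBetaBar L M ℓ X) D * v = ∑ p, aeval (heckeBetaBar L M ℓ X) (e p) *
        (fun p : Fin n × Fin (ℓ + 1) =>
          heckeBetaBar L M ℓ (b p.1) * heckeAlphaBar L M ℓ (jLevel L M) ^ (p.2 : ℕ)) p := by
  obtain ⟨D, hD, e, he⟩ := span_alpha h X b hb (W v)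
  refine ⟨D, hD, e, ?_⟩
  have hW' : ∀ p : L[X], W (aeval (heckeAlphaBar L M ℓ X) p) =
      aeval (heckeBetaBar L M ℓ X) p := fun p => by
    rw [← Polynomial.aeval_algHom_apply, hW.alpha]
  have h1 := congrArg W he
  rw [map_mul, hW.invol h.hℓ h.not_dvd, map_sum, hW'] at h1
  rw [h1]
  refine Finset.sum_congr rfl (fun p _ => ?_)
  rw [map_mul, hW', map_mul, hW.alpha, map_pow, hW.beta]

omit [NeZero M] [NeZero ℓ] [Algebra ℚ L] in
/-- The valuation ring of a bad setup is not the whole field. -/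
theorem exists_notMem (h : BadSetup A π M ℓ) [CharZero L] : ∃ a : L, a ∉ A := by
  refine ⟨((ℓ : ℕ) : L)⁻¹, fun hmem => ?_⟩
  have hℓ0 : ((ℓ : ℕ) : L) ≠ 0 := Nat.cast_ne_zero.2 h.hℓ.ne_zero
  have h1 : ((ℓ : ℕ) : A) * ⟨((ℓ : ℕ) : L)⁻¹, hmem⟩ = 1 := by
    apply Subtype.ext
    show (((ℓ : ℕ) : A) : L) * ((ℓ : ℕ) : L)⁻¹ = 1
    have h4 : (((ℓ : ℕ) : A) : L) = (ℓ : L) := by push_cast; rfl
    rw [h4]
    exact mul_inv_cancel₀ hℓ0
  have h2 := congrArg π h1
  rw [map_mul, map_natCast, h.hℓk, zero_mul, map_one] at h2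
  exact zero_ne_one h2

/-- **The degree count**: `[F_{Mℓ} : L(x)] ≤ 2 n (ℓ + 1)` for `x = α X · β X`, `n` the size of a
spanning family of `F_M` over `L(X)`. -/
theorem finrank_coord_le [IsAlgClosed L] (h : BadSetup A π M ℓ) (hW : IsAL M ℓ W)
    (X : ↥(laurentBaseChange L (modularFunctionFieldFull M))) (hX : IsChartBase h X) {n : ℕ}
    (b : Fin n → ↥(laurentBaseChange L (modularFunctionFieldFull M)))
    (hb : ∀ v : ↥(laurentBaseChange L (modularFunctionFieldFull M)),
      ∃ (D : L[X]) (e : Fin n → L[X]), D ≠ 0 ∧ aeval X D * v = ∑ i, aeval X (e i) * b i) :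
    ∃ _ : FiniteDimensional
        (IntermediateField.adjoin L {heckeAlphaBar L M ℓ X * heckeBetaBar L M ℓ X})
        ↥(laurentBaseChange L (modularFunctionFieldFull (M * ℓ))),
      Module.finrank (IntermediateField.adjoin L {heckeAlphaBar L M ℓ X * heckeBetaBar L M ℓ X})
        ↥(laurentBaseChange L (modularFunctionFieldFull (M * ℓ))) ≤
        n * (ℓ + 1) + n * (ℓ + 1) := by
  haveI : CharZero L := algebraRat.charZero L
  have hY1 : Transcendental L (heckeAlphaBar L M ℓ X) :=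
    transcendental_iff.2 (fun p hp => by_contra fun hne => aeval_alpha_ne_zero h X hX p hne hp)
  have hY2 : Transcendental L (heckeBetaBar L M ℓ X) :=
    transcendental_iff.2 (fun p hp => by_contra fun hne => aeval_beta_ne_zero h X hX p hne hp)
  have hx : Transcendental L (heckeAlphaBar L M ℓ X * heckeBetaBar L M ℓ X) :=
    transcendental_iff.2 (fun p hp => by_contra fun hne => aeval_coord_ne_zero h hW X hX p hne hp)
  have s1 := span_alpha (ℓ := ℓ) h X b hb
  have s2 := span_beta h hW X b hb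
  haveI := finiteDimensional_of_polySpan (heckeAlphaBar L M ℓ X) (aeval_alpha_ne_zero h X hX) _ s1
  have f1 := finrank_le_of_polySpan (heckeAlphaBar L M ℓ X) (aeval_alpha_ne_zero h X hX) _ s1
  have f2 := finrank_le_of_polySpan (heckeBetaBar L M ℓ X) (aeval_beta_ne_zero h X hX) _ s2
  have f3 := finrank_mul_le (heckeAlphaBar L M ℓ X) (heckeBetaBar L M ℓ X) hY1 hY2 hx
  rw [Fintype.card_prod, Fintype.card_fin, Fintype.card_fin] at f1 f2
  exact ⟨Fermat.Agent.S24.Transfer.finiteDimensional_adjoin_of_transcendental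
    (heckeAlphaBar L M ℓ X) hx, by omega⟩

/-- **The orthonormal family spans** `F_{Mℓ}` over `L(x)`. -/
theorem polySpan_famChart [IsAlgClosed L] (h : BadSetup A π M ℓ) (hW : IsAL M ℓ W)
    (X : ↥(laurentBaseChange L (modularFunctionFieldFull M))) (hX : IsChartBase h X)
    {e : ↥(laurentBaseChange L (modularFunctionFieldFull (M * ℓ)))} (he : HasRed h W e 0 1)
    {n : ℕ} (b : Fin n → Ow A π M h.hMk)
    (hb : ∀ v : ↥(laurentBaseChange L (modularFunctionFieldFull M)),
      ∃ (D : L[X]) (e : Fin n → L[X]), D ≠ 0 ∧ aeval X D * v = ∑ i, aeval X (e i) *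
        ((b i : Ow A π M h.hMk) : ↥(laurentBaseChange L (modularFunctionFieldFull M))))
    (hind : ∀ g : Fin n → k[X],
      ∑ i, aeval (redF A π M h.hπ h.hMk ⟨X, hX.mem⟩) (g i) * redF A π M h.hπ h.hMk (b i) = 0 →
        ∀ i, g i = 0)
    (v : ↥(laurentBaseChange L (modularFunctionFieldFull (M * ℓ)))) :
    ∃ D : L[X], D ≠ 0 ∧ ∃ c : (Fin n × Fin (ℓ + 1)) ⊕ (Fin n × Fin (ℓ + 1)) → L[X],
      aeval (heckeAlphaBar L M ℓ X * heckeBetaBar L M ℓ X) D * v =
        ∑ j, aeval (heckeAlphaBar L M ℓ X * heckeBetaBar L M ℓ X) (c j) *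
          famChart e X (fun i => ((b i : Ow A π M h.hMk) :
            ↥(laurentBaseChange L (modularFunctionFieldFull M)))) j := by
  haveI : CharZero L := algebraRat.charZero L
  obtain ⟨hfd, hfr⟩ := finrank_coord_le h hW X hX _ hb
  haveI := hfd
  exact polySpan_of_finrank_le _ (aeval_coord_ne_zero h hW X hX) _
    (polyOrtho_indep (exists_notMem h) (polyOrtho_famChart h hW X hX he b hind).2)
    (by rw [Fintype.card_sum, Fintype.card_prod, Fintype.card_fin, Fintype.card_fin]; exact hfr) v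

/-! ### The main theorems -/

/-- **The orthonormal spanning family of the bad level** for the coordinate `x = α X · β X`:
a finite family of elements of `O`, `L[x]`-orthonormal and spanning `F_{Mℓ}` over `L(x)`. -/
theorem exists_polyOrtho_span [IsAlgClosed L] (h : BadSetup A π M ℓ) (hW : IsAL M ℓ W)
    (X : ↥(laurentBaseChange L (modularFunctionFieldFull M))) (hX : IsChartBase h X) :
    ∃ (ι : Type) (_ : Fintype ι)
      (β : ι → ↥(laurentBaseChange L (modularFunctionFieldFull (M * ℓ)))),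
      (∀ i, β i ∈ OPair h W) ∧
      PolyOrtho A (OPair h W) (heckeAlphaBar L M ℓ X * heckeBetaBar L M ℓ X) β ∧
      ∀ v : ↥(laurentBaseChange L (modularFunctionFieldFull (M * ℓ))),
        ∃ D : L[X], D ≠ 0 ∧ ∃ c : ι → L[X],
          aeval (heckeAlphaBar L M ℓ X * heckeBetaBar L M ℓ X) D * v =
            ∑ j, aeval (heckeAlphaBar L M ℓ X * heckeBetaBar L M ℓ X) (c j) * β j := by
  obtain ⟨n, b, -, hb, hind⟩ := hX.basis
  obtain ⟨e, he1, he2, hr1, hr2⟩ := exists_sep h hW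
  have he : HasRed h W e 0 1 := (hasRed_iff h e 0 1).mpr ⟨he1, he2, hr1, hr2⟩
  obtain ⟨hmem, hortho⟩ := polyOrtho_famChart h hW X hX he b hind
  exact ⟨_, inferInstance, _, hmem, hortho, polySpan_famChart h hW X hX he b hb hind⟩

/-- `IsFF1` for the chart coordinate `x = α X · β X`. -/
theorem isFF1_coord [IsAlgClosed L] (h : BadSetup A π M ℓ) (hW : IsAL M ℓ W)
    (X : ↥(laurentBaseChange L (modularFunctionFieldFull M))) (hX : IsChartBase h X) :
    Fermat.Agent.Lib.FF.IsFF1 L ↥(laurentBaseChange L (modularFunctionFieldFull (M * ℓ)))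
      (heckeAlphaBar L M ℓ X * heckeBetaBar L M ℓ X) := by
  haveI : CharZero L := algebraRat.charZero L
  obtain ⟨n, b, -, hb, -⟩ := hX.basis
  obtain ⟨hfd, -⟩ := finrank_coord_le h hW X hX _ hb
  haveI := hfd
  exact Fermat.Agent.Lib.FF.isFF1_of_charZero _
    (transcendental_iff.2 (fun p hp => by_contra fun hne =>
      aeval_coord_ne_zero h hW X hX p hne hp))

/-- **(L1) Generators of the chart ring** `O ∩ (integral closure of L[x])` over `A[x]`,
`x = α X · β X`. -/
theorem exists_chart_gen [IsAlgClosed L] (h : BadSetup A π M ℓ) (hW : IsAL M ℓ W)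
    (X : ↥(laurentBaseChange L (modularFunctionFieldFull M))) (hX : IsChartBase h X) :
    ∃ (r : ℕ) (β : Fin r → ↥(laurentBaseChange L (modularFunctionFieldFull (M * ℓ)))),
      (∀ i, β i ∈ OPair h W) ∧
      (∀ i, IsIntegral (Algebra.adjoin L {heckeAlphaBar L M ℓ X * heckeBetaBar L M ℓ X})
        (β i)) ∧
      ∀ v ∈ OPair h W,
        IsIntegral (Algebra.adjoin L {heckeAlphaBar L M ℓ X * heckeBetaBar L M ℓ X}) v →
        ∃ e : Fin r → L[X], (∀ i j, (e i).coeff j ∈ A) ∧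
          v = ∑ i, aeval (heckeAlphaBar L M ℓ X * heckeBetaBar L M ℓ X) (e i) * β i := by
  haveI : CharZero L := algebraRat.charZero L
  obtain ⟨ι, _, β, hmem, hortho, hspan⟩ := exists_polyOrtho_span h hW X hX
  obtain ⟨b', h1, h2, h3⟩ := exists_gen_of_polyOrtho (OPair_hOA h)
    (aeval_coord_ne_zero h hW X hX) (hasRed_coord h hW X hX).mem (inv_coord_sub_mem h hW X hX)
    (inv_one_sub_mul_coord_mem h hW X hX) β hmem hortho hspan
  exact exists_fin_of_fintype _ (fun v => IsIntegral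
    (Algebra.adjoin L {heckeAlphaBar L M ℓ X * heckeBetaBar L M ℓ X}) v) b' h1 h2 h3

/-- **(L2) Generators of the chart ring at infinity** `O ∩ (integral closure of L[x⁻¹])` over
`A[x⁻¹]`. -/
theorem exists_chart_gen_inv [IsAlgClosed L] (h : BadSetup A π M ℓ) (hW : IsAL M ℓ W)
    (X : ↥(laurentBaseChange L (modularFunctionFieldFull M))) (hX : IsChartBase h X) :
    ∃ (r : ℕ) (β : Fin r → ↥(laurentBaseChange L (modularFunctionFieldFull (M * ℓ)))),
      (∀ i, β i ∈ OPair h W) ∧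
      (∀ i, IsIntegral (Algebra.adjoin L {(heckeAlphaBar L M ℓ X * heckeBetaBar L M ℓ X)⁻¹})
        (β i)) ∧
      ∀ v ∈ OPair h W,
        IsIntegral (Algebra.adjoin L {(heckeAlphaBar L M ℓ X * heckeBetaBar L M ℓ X)⁻¹}) v →
        ∃ e : Fin r → L[X], (∀ i j, (e i).coeff j ∈ A) ∧
          v = ∑ i, aeval (heckeAlphaBar L M ℓ X * heckeBetaBar L M ℓ X)⁻¹ (e i) * β i := by
  haveI : CharZero L := algebraRat.charZero L
  obtain ⟨ι, _, β, hmem, hortho, hspan⟩ := exists_polyOrtho_span h hW X hX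
  obtain ⟨b', h1, h2, h3⟩ := exists_gen_inv_of_polyOrtho (OPair_hOA h)
    (aeval_coord_ne_zero h hW X hX) (hasRed_coord h hW X hX).mem (inv_coord_sub_mem h hW X hX)
    (inv_one_sub_mul_coord_mem h hW X hX) β hmem hortho hspan
  exact exists_fin_of_fintype _ (fun v => IsIntegral
    (Algebra.adjoin L {(heckeAlphaBar L M ℓ X * heckeBetaBar L M ℓ X)⁻¹}) v) b' h1 h2 h3

open Fermat.Agent.BAD.NodalPlaces in
/-- **(L1)** in the shape of `ChartLat.hsat_finRing` / `ChartLat.red_mem_finRing`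
(`NodalPlaces.finRing`). -/
theorem exists_chart_gen_finRing [IsAlgClosed L] (h : BadSetup A π M ℓ) (hW : IsAL M ℓ W)
    (X : ↥(laurentBaseChange L (modularFunctionFieldFull M))) (hX : IsChartBase h X) :
    ∃ (r : ℕ) (β : Fin r → ↥(laurentBaseChange L (modularFunctionFieldFull (M * ℓ)))),
      (∀ i, β i ∈ OPair h W) ∧
      (∀ i, β i ∈ finRing L (heckeAlphaBar L M ℓ X * heckeBetaBar L M ℓ X)) ∧
      ∀ v ∈ OPair h W, v ∈ finRing L (heckeAlphaBar L M ℓ X * heckeBetaBar L M ℓ X) →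
        ∃ e : Fin r → L[X], (∀ i j, (e i).coeff j ∈ A) ∧
          v = ∑ i, aeval (heckeAlphaBar L M ℓ X * heckeBetaBar L M ℓ X) (e i) * β i := by
  have hFF := isFF1_coord h hW X hX
  obtain ⟨r, β, h1, h2, h3⟩ := exists_chart_gen h hW X hX
  exact ⟨r, β, h1, fun i => (mem_finRing_iff_isIntegral hFF _).mpr (h2 i),
    fun v hv hvR => h3 v hv ((mem_finRing_iff_isIntegral hFF _).mp hvR)⟩

open Fermat.Agent.BAD.NodalPlaces in
/-- **(L2)** in the shape of `ChartLat` (`NodalPlaces.finRing` of `x⁻¹`). -/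
theorem exists_chart_gen_inv_finRing [IsAlgClosed L] (h : BadSetup A π M ℓ) (hW : IsAL M ℓ W)
    (X : ↥(laurentBaseChange L (modularFunctionFieldFull M))) (hX : IsChartBase h X) :
    ∃ (r : ℕ) (β : Fin r → ↥(laurentBaseChange L (modularFunctionFieldFull (M * ℓ)))),
      (∀ i, β i ∈ OPair h W) ∧
      (∀ i, β i ∈ finRing L (heckeAlphaBar L M ℓ X * heckeBetaBar L M ℓ X)⁻¹) ∧
      ∀ v ∈ OPair h W, v ∈ finRing L (heckeAlphaBar L M ℓ X * heckeBetaBar L M ℓ X)⁻¹ →
        ∃ e : Fin r → L[X], (∀ i j, (e i).coeff j ∈ A) ∧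
          v = ∑ i, aeval (heckeAlphaBar L M ℓ X * heckeBetaBar L M ℓ X)⁻¹ (e i) * β i := by
  have hFF := (isFF1_coord h hW X hX).inv
  obtain ⟨r, β, h1, h2, h3⟩ := exists_chart_gen_inv h hW X hX
  exact ⟨r, β, h1, fun i => (mem_finRing_iff_isIntegral hFF _).mpr (h2 i),
    fun v hv hvR => h3 v hv ((mem_finRing_iff_isIntegral hFF _).mp hvR)⟩

end

end Fermat.Agent.BAD.LatChart
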