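import Mathlib
import Fermat.Agent.BAD.LatFixedInst

/-!
# BAD: the ring of inertia-fixed functions

`LatFixedInst.fixedFun A N` (the functions of level `N` fixed by the inertia group of `A`) as a
`Subring` of the function field, closed under inverses, containing the constants of
`K0 = ℚ̄^I` (in particular the natural numbers) and stable under the Atkin–Lehner involution.
-/

set_option autoImplicit false
set_option linter.style.haveILetI false

namespace Fermat.Agent.BAD.LatFixedRing

open HahnSeries ModularCurve AlgebraicCurve Fermat.Agent.BAD.TwoVal Fermat.Agent.BAD.LatFixedInst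

local notation "Qb" => AlgebraicClosure ℚ
local notation "K₀" => Fermat.Agent.CAR.K0.inertiaField

noncomputable section

variable {A : ValuationSubring Qb} {N : ℕ}

/-- The ring of functions of level `N` fixed by the inertia group of `A`. -/
def fixedSubring (A : ValuationSubring Qb) (N : ℕ) :
    Subring (laurentBaseChange Qb (modularFunctionFieldFull N)) where
  carrier := {f | f ∈ fixedFun A N}
  mul_mem' := fun {f g} hf hg σ hσ => by
    rw [smul_mul', hf σ hσ, hg σ hσ]
  one_mem' := fun σ _ => smul_one _
  add_mem' := fun hf hg => (fixedFun A N).add_mem hf hg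
  zero_mem' := (fixedFun A N).zero_mem
  neg_mem' := fun hf => (fixedFun A N).neg_mem hf

theorem mem_fixedSubring {f : laurentBaseChange Qb (modularFunctionFieldFull N)} :
    f ∈ fixedSubring A N ↔ f ∈ fixedFun A N := Iff.rfl

theorem mem_fixedSubring_iff {f : laurentBaseChange Qb (modularFunctionFieldFull N)} :
    f ∈ fixedSubring A N ↔ ∀ σ ∈ A.inertiaSubgroupIn ℚ,
      arithmeticGalois (modularFunctionFieldFull N) σ • f = f := Iff.rfl

theorem coe_fixedSubring :
    ((fixedSubring A N : Subring (laurentBaseChange Qb (modularFunctionFieldFull N))) :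
      Set (laurentBaseChange Qb (modularFunctionFieldFull N))) = (fixedFun A N : Set _) := rfl

/-- The fixed ring is closed under inverses (it is a subfield). -/
theorem inv_mem {f : laurentBaseChange Qb (modularFunctionFieldFull N)}
    (hf : f ∈ fixedSubring A N) : f⁻¹ ∈ fixedSubring A N := fun σ hσ => by
  rw [smul_inv'', hf σ hσ]

theorem div_mem {f g : laurentBaseChange Qb (modularFunctionFieldFull N)}
    (hf : f ∈ fixedSubring A N) (hg : g ∈ fixedSubring A N) : f / g ∈ fixedSubring A N := by
  rw [div_eq_mul_inv]
  exact (fixedSubring A N).mul_mem hf (inv_mem hg)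

theorem zpow_mem {f : laurentBaseChange Qb (modularFunctionFieldFull N)}
    (hf : f ∈ fixedSubring A N) (n : ℤ) : f ^ n ∈ fixedSubring A N := by
  obtain ⟨m, rfl | rfl⟩ := Int.eq_nat_or_neg n
  · rw [zpow_natCast]
    exact pow_mem hf m
  · rw [zpow_neg, zpow_natCast]
    exact inv_mem (pow_mem hf m)

/-- Constants of `K0 = ℚ̄^I` are inertia-fixed. -/
theorem algebraMap_mem {a : Qb} (ha : a ∈ K₀ A) :
    algebraMap Qb (laurentBaseChange Qb (modularFunctionFieldFull N)) a ∈ fixedSubring A N := by
  have h1 : (1 : laurentBaseChange Qb (modularFunctionFieldFull N)) ∈ fixedFun A N :=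
    (fixedSubring A N).one_mem
  have h2 := smul_mem_fixedFun ha h1
  rwa [Algebra.smul_def, mul_one] at h2

theorem algebraMap_natCast_mem (n : ℕ) :
    algebraMap Qb (laurentBaseChange Qb (modularFunctionFieldFull N)) (n : Qb) ∈
      fixedSubring A N := by
  rw [map_natCast]
  exact natCast_mem _ n

theorem algebraMap_intCast_mem (n : ℤ) :
    algebraMap Qb (laurentBaseChange Qb (modularFunctionFieldFull N)) (n : Qb) ∈
      fixedSubring A N := by
  rw [map_intCast]
  exact intCast_mem _ n

/-- The `q`-expansion coefficients of an element of the fixed ring lie in `K0`. -/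
theorem coeff_mem {f : laurentBaseChange Qb (modularFunctionFieldFull N)}
    (hf : f ∈ fixedSubring A N) (n : ℤ) : (f : LaurentSeries Qb).coeff n ∈ K₀ A :=
  coeff_mem_of_mem_fixedFun hf n

theorem mem_of_coeff_mem {f : laurentBaseChange Qb (modularFunctionFieldFull N)}
    (hf : ∀ n : ℤ, (f : LaurentSeries Qb).coeff n ∈ K₀ A) : f ∈ fixedSubring A N :=
  mem_fixedFun_of_coeff_mem hf

theorem mem_iff_coeff_mem {f : laurentBaseChange Qb (modularFunctionFieldFull N)} :
    f ∈ fixedSubring A N ↔ ∀ n : ℤ, (f : LaurentSeries Qb).coeff n ∈ K₀ A :=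
  ⟨fun hf n => coeff_mem hf n, mem_of_coeff_mem⟩

/-- The Atkin–Lehner involution preserves the fixed ring. -/
theorem al_mem {q M : ℕ} [NeZero M] [NeZero q] {k : Type} [Field k] {π : A →+* k}
    {W : laurentBaseChange Qb (modularFunctionFieldFull (M * q)) ≃ₐ[Qb]
      laurentBaseChange Qb (modularFunctionFieldFull (M * q))}
    (h : BadSetup A π M q) (hW : IsAL M q W)
    {f : laurentBaseChange Qb (modularFunctionFieldFull (M * q))}
    (hf : f ∈ fixedSubring A (M * q)) : W f ∈ fixedSubring A (M * q) :=
  al_mem_fixedFun h hW hf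

end

end Fermat.Agent.BAD.LatFixedRing
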