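import Mathlib
import Fermat.Agent.BAD.LatFixedLift
import Fermat.Agent.BAD.TwoVal.Arch

/-!
# BAD: orthonormal bases rational over an intermediate field ("ramified base change")

Setting of `BAD/LatFixedInst.lean` (`A` over `q`, `I` its inertia group, `O = O_∞ ∩ O_0`).
Let `H ⊆ I` be a set of inertia elements (think: `H = Gal(ℚ̄/K'')` for a finite, possibly
ramified, extension `K''` of `K0 = ℚ̄^I`) and let `ϖ` be a uniformiser of `K'' = ℚ̄^H`:
`ϖ` is `H`-fixed, and every `H`-fixed `a` with `v(a) < 1` has `v(a) ≤ v(ϖ)`.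

* `exists_fixed_ortho_basis_sub` : every `H`-stable finite-dimensional subspace `V` contained in
  an `I`-stable finite-dimensional subspace `V'` has an `O`-orthonormal basis consisting of
  `H`-FIXED (`K''`-rational) functions;
* `dvd_of_fixed_small_sub` : an `H`-fixed small element of such a `V'` is divisible by `ϖ` in `O`
  (the depth of a `K''`-rational function is a multiple of `v(ϖ)`);
* `exists_fixed_lift_sub` : every element of `V ∩ O` is congruent modulo `𝔪_A·O` to an `H`-fixed
  element of `V ∩ O` (a `K''`-rational class has `K''`-rational cocycles);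
* `exists_stable_superspace` : if `H` is a subgroup with finitely many cosets in `I`, every
  `H`-stable finite-dimensional `V` lies in an `I`-stable finite-dimensional `V'`.
-/

set_option autoImplicit false
set_option linter.unusedSectionVars false

namespace Fermat.Agent.BAD.LatFixedInst

open HahnSeries ModularCurve AlgebraicCurve Fermat.Agent.Lib.Red Fermat.Agent.BAD.TwoVal
open Fermat.Agent.Lib.Red.Deform Fermat.Agent.Lib.Red.CoordLat Fermat.Agent.BAD.LatFixed

local notation "Qb" => AlgebraicClosure ℚ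
local notation "GQ" => (AlgebraicClosure ℚ ≃ₐ[ℚ] AlgebraicClosure ℚ)

attribute [local instance 100000] SubalgebraClass.toAlgebra

noncomputable section

variable {q : ℕ} {A : ValuationSubring Qb} {k : Type} [Field k] {π : A →+* k} {M : ℕ}
  [NeZero M] [NeZero q]
  {W : laurentBaseChange Qb (modularFunctionFieldFull (M * q)) ≃ₐ[Qb]
    laurentBaseChange Qb (modularFunctionFieldFull (M * q))}

/-- The subfield of `ℚ̄` fixed by a set of automorphisms. -/
def fixedSubfieldOf (H : Set GQ) : Subfield Qb where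
  carrier := {a | ∀ σ ∈ H, σ a = a}
  mul_mem' := fun ha hb σ hσ => by rw [map_mul, ha σ hσ, hb σ hσ]
  one_mem' := fun σ _ => map_one σ
  add_mem' := fun ha hb σ hσ => by rw [map_add, ha σ hσ, hb σ hσ]
  zero_mem' := fun σ _ => map_zero σ
  neg_mem' := fun ha σ hσ => by rw [map_neg, ha σ hσ]
  inv_mem' := fun a ha σ hσ => by rw [map_inv₀, ha σ hσ]

theorem mem_fixedSubfieldOf {H : Set GQ} {a : Qb} :
    a ∈ fixedSubfieldOf H ↔ ∀ σ ∈ H, σ a = a := Iff.rfl

/-- The functions of level `N` fixed by a set of automorphisms. -/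
def fixedFunOf (H : Set GQ) (N : ℕ) :
    AddSubgroup (laurentBaseChange Qb (modularFunctionFieldFull N)) where
  carrier := {f | ∀ σ ∈ H,
    arithmeticGalois (L := Qb) (modularFunctionFieldFull N) σ • f = f}
  add_mem' := fun hf hg σ hσ => by rw [smul_add, hf σ hσ, hg σ hσ]
  zero_mem' := fun σ _ => smul_zero _
  neg_mem' := fun hf σ hσ => by rw [smul_neg, hf σ hσ]

theorem mem_fixedFunOf {H : Set GQ} {N : ℕ}
    {f : laurentBaseChange Qb (modularFunctionFieldFull N)} :
    f ∈ fixedFunOf H N ↔ ∀ σ ∈ H,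
      arithmeticGalois (L := Qb) (modularFunctionFieldFull N) σ • f = f := Iff.rfl

theorem smul_mem_fixedFunOf {H : Set GQ} {N : ℕ} {a : Qb} (ha : a ∈ fixedSubfieldOf H)
    {f : laurentBaseChange Qb (modularFunctionFieldFull N)} (hf : f ∈ fixedFunOf H N) :
    a • f ∈ fixedFunOf H N := by
  intro σ hσ
  rw [Fermat.Agent.Padic.arithmeticGalois_smul_const_smul, hf σ hσ, ha σ hσ]

/-- Semilinear descent for an arbitrary set of automorphisms: a stable finite-dimensional
subspace is spanned by its fixed elements. -/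
theorem le_span_fixedFunOf (H : Set GQ) (N : ℕ)
    (V : Submodule Qb (laurentBaseChange Qb (modularFunctionFieldFull N)))
    [FiniteDimensional Qb V]
    (hV : ∀ σ ∈ H, ∀ f ∈ V,
      arithmeticGalois (L := Qb) (modularFunctionFieldFull N) σ • f ∈ V) :
    V ≤ Submodule.span Qb {f | f ∈ V ∧ f ∈ fixedFunOf H N} := by
  classical
  let c : ↥(laurentBaseChange Qb (modularFunctionFieldFull N)) →ₗ[Qb] (ℤ → Qb) :=
    { toFun := fun f => fun i => (f : LaurentSeries Qb).coeff i
      map_add' := fun f g => by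
        funext i
        show ((f + g : ↥(laurentBaseChange Qb (modularFunctionFieldFull N))) :
          LaurentSeries Qb).coeff i = _
        rw [AddMemClass.coe_add, HahnSeries.coeff_add]
        rfl
      map_smul' := fun a f => by
        funext i
        show ((a • f : ↥(laurentBaseChange Qb (modularFunctionFieldFull N))) :
          LaurentSeries Qb).coeff i = a * (f : LaurentSeries Qb).coeff i
        have h1 : ((a • f : ↥(laurentBaseChange Qb (modularFunctionFieldFull N))) :
            LaurentSeries Qb) = HahnSeries.C a * (f : LaurentSeries Qb) := by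
          rw [Algebra.smul_def, Fermat.Agent.Lib.Red.C_eq_algebraMap]
          rfl
        rw [h1, Fermat.Agent.Lib.Descent.coeff_C_mul] }
  have hc : ∀ f i, c f i = (f : LaurentSeries Qb).coeff i := fun f i => rfl
  have hcinj : Function.Injective c := by
    intro f g hfg
    apply Subtype.ext
    ext i
    exact congrFun hfg i
  set W' : Submodule Qb (ℤ → Qb) := V.map c with hW'
  have : FiniteDimensional Qb W' := by
    rw [hW']
    infer_instance
  let Φ : Set (Qb →+* Qb) := (fun σ : GQ => (σ : Qb →+* Qb)) '' H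
  have hΦ : ∀ φ ∈ Φ, ∀ x ∈ W', (fun i => φ (x i)) ∈ W' := by
    rintro _ ⟨σ, hσ, rfl⟩ x ⟨f, hf, rfl⟩
    refine ⟨arithmeticGalois (L := Qb) (modularFunctionFieldFull N) σ • f, hV σ hσ f hf, ?_⟩
    funext i
    rw [hc, coe_arithmeticGalois_smul, coeffMap_coeff]
    rfl
  have h1 := Fermat.Agent.Lib.Descent.le_span_fixed W' Φ hΦ
  intro f hf
  have h2 : c f ∈ Submodule.span Qb {x | x ∈ W' ∧ ∀ φ ∈ Φ, ∀ i, φ (x i) = x i} :=
    h1 ⟨f, hf, rfl⟩
  have h3 : Submodule.span Qb {x | x ∈ W' ∧ ∀ φ ∈ Φ, ∀ i, φ (x i) = x i} ≤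
      (Submodule.span Qb {f | f ∈ V ∧ f ∈ fixedFunOf H N}).map c := by
    rw [Submodule.span_le]
    rintro x ⟨⟨g, hg, rfl⟩, hfix⟩
    refine ⟨g, Submodule.subset_span ⟨hg, fun σ hσ => ?_⟩, rfl⟩
    apply Subtype.ext
    rw [coe_arithmeticGalois_smul]
    ext i
    rw [coeffMap_coeff]
    exact hfix _ ⟨σ, hσ, rfl⟩ i
  obtain ⟨g, hg, hgf⟩ := h3 h2
  rw [← hcinj hgf]
  exact hg

/-- **Depth of `K''`-rational functions.**  An `H`-fixed small element of an `I`-stable
finite-dimensional space is divisible in `O` by the uniformiser `ϖ` of `ℚ̄^H`. -/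
theorem dvd_of_fixed_small_sub (hq : q.Prime) (hA : A.LiesOverPrime q)
    (h : BadSetup A π M q) (hsurj : Function.Surjective π) (hW : IsAL M q W)
    (H : Set GQ) (hH : ∀ σ ∈ H, σ ∈ A.inertiaSubgroupIn ℚ)
    (ϖ : Qb) (hϖ0 : ϖ ≠ 0)
    (hunif : ∀ a : Qb, (∀ σ ∈ H, σ a = a) → A.valuation a < 1 → A.valuation a ≤ A.valuation ϖ)
    (V' : Submodule Qb (laurentBaseChange Qb (modularFunctionFieldFull (M * q))))
    [FiniteDimensional Qb V']
    (hV' : ∀ σ ∈ A.inertiaSubgroupIn ℚ, ∀ f ∈ V',
      arithmeticGalois (L := Qb) (modularFunctionFieldFull (M * q)) σ • f ∈ V')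
    {f : laurentBaseChange Qb (modularFunctionFieldFull (M * q))} (hfV : f ∈ V')
    (hfH : f ∈ fixedFunOf H (M * q)) (hsm : Small A (OPair h W) f) :
    Dvd (OPair h W) ϖ f := by
  classical
  obtain ⟨n, b, hbfix, hli, hspan, hbO, hortho⟩ :=
    exists_fixed_ortho_basis hq hA h hsurj hW V' hV'
  rw [← hspan] at hfV
  obtain ⟨c, rfl⟩ := (Submodule.mem_span_range_iff_exists_fun Qb).1 hfV
  have hcH : ∀ i, ∀ σ ∈ H, σ (c i) = c i := fun i σ hσ =>
    (sum_fixed_iff_coeff hli hbfix (hH σ hσ) c).1 (hfH σ hσ) i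
  obtain ⟨a, ha, hdvd⟩ := hsm
  rw [dvd_sum_iff_coeff h hbO hortho hϖ0]
  have hvϖ : 0 < A.valuation ϖ := zero_lt_iff.2 ((Valuation.ne_zero_iff _).2 hϖ0)
  have hclt : ∀ i, A.valuation (c i) < 1 := by
    intro i
    by_cases ha0 : a = 0
    · obtain ⟨o, -, ho⟩ := hdvd
      rw [ha0, map_zero, zero_mul] at ho
      rw [Fintype.linearIndependent_iff.1 hli _ ho i, map_zero]
      exact zero_lt_one
    · have h2 := (dvd_sum_iff_coeff h hbO hortho ha0 _).1 hdvd i
      have h3 : c i = a * (a⁻¹ * c i) := by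
        rw [← mul_assoc, mul_inv_cancel₀ ha0, one_mul]
      rw [h3, map_mul]
      calc A.valuation a * A.valuation (a⁻¹ * c i) ≤ A.valuation a * 1 :=
            mul_le_mul' le_rfl ((A.valuation_le_one_iff _).2 h2)
        _ = A.valuation a := mul_one _
        _ < 1 := ha
  intro i
  rw [← A.valuation_le_one_iff, map_mul, map_inv₀, inv_mul_le_iff₀ hvϖ, mul_one]
  exact hunif _ (hcH i) (hclt i)

/-- **Orthonormal bases rational over an intermediate field.**  Let `H ⊆ I` and let `ϖ` be a
uniformiser of `ℚ̄^H`.  Every `H`-stable finite-dimensional subspace `V` contained in an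
`I`-stable finite-dimensional subspace `V'` has an `O`-orthonormal basis consisting of
`H`-fixed functions. -/
theorem exists_fixed_ortho_basis_sub (hq : q.Prime) (hA : A.LiesOverPrime q)
    (h : BadSetup A π M q) (hsurj : Function.Surjective π) (hW : IsAL M q W)
    (H : Set GQ) (hH : ∀ σ ∈ H, σ ∈ A.inertiaSubgroupIn ℚ)
    (ϖ : Qb) (hϖH : ∀ σ ∈ H, σ ϖ = ϖ) (hϖ0 : ϖ ≠ 0) (hϖ1 : A.valuation ϖ < 1)
    (hunif : ∀ a : Qb, (∀ σ ∈ H, σ a = a) → A.valuation a < 1 → A.valuation a ≤ A.valuation ϖ)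
    (V V' : Submodule Qb (laurentBaseChange Qb (modularFunctionFieldFull (M * q))))
    [FiniteDimensional Qb V'] (hVV' : V ≤ V')
    (hV : ∀ σ ∈ H, ∀ f ∈ V,
      arithmeticGalois (L := Qb) (modularFunctionFieldFull (M * q)) σ • f ∈ V)
    (hV' : ∀ σ ∈ A.inertiaSubgroupIn ℚ, ∀ f ∈ V',
      arithmeticGalois (L := Qb) (modularFunctionFieldFull (M * q)) σ • f ∈ V') :
    ∃ (n : ℕ) (b : Fin n → laurentBaseChange Qb (modularFunctionFieldFull (M * q))),
      (∀ i, ∀ σ ∈ H,
        arithmeticGalois (L := Qb) (modularFunctionFieldFull (M * q)) σ • b i = b i) ∧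
      LinearIndependent Qb b ∧ Submodule.span Qb (Set.range b) = V ∧
      (∀ i, b i ∈ OPair h W) ∧
      ∀ c : Fin n → Qb, ∑ i, c i • b i ∈ OPair h W → ∀ i, c i ∈ A := by
  have hVfin : FiniteDimensional Qb V := Submodule.finiteDimensional_of_le hVV'
  have harch : ∀ c : Qb, ∃ n : ℕ, ϖ ^ n * c ∈ A := by
    intro c
    by_cases hc : c = 0
    · exact ⟨0, by rw [hc, mul_zero]; exact A.zero_mem⟩
    obtain ⟨n, hn⟩ := h.harch ϖ c⁻¹ hϖ1 (inv_ne_zero hc)
    refine ⟨n, ?_⟩
    have hvc : 0 < A.valuation c := zero_lt_iff.2 ((Valuation.ne_zero_iff _).2 hc)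
    rw [← A.valuation_le_one_iff, map_mul]
    rw [map_inv₀, ← one_div, lt_div_iff₀ hvc] at hn
    exact hn.le
  obtain ⟨n, b, hbF, hli, hspan, hbO, hortho⟩ :=
    exists_ortho_basis_mem (OPair_hOA h) (fixedSubfieldOf H)
      (fixedFunOf H (M * q) ⊓ V.toAddSubgroup)
      (fun a ha f hf => ⟨smul_mem_fixedFunOf ha hf.1, V.smul_mem a hf.2⟩) ϖ hϖH hϖ1 hϖ0
      (fun a ha => by
        obtain ⟨w, hw, -, hlt⟩ :=
          Fermat.Agent.CAR.K0.exists_mem_inertiaField_valuation_sub_lt_one hq A hA ha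
        exact ⟨w, fun σ hσ =>
          (Fermat.Agent.CAR.K0.mem_inertiaField_iff A w).1 hw σ (hH σ hσ), hlt⟩)
      (fun f hf hsm => dvd_of_fixed_small_sub hq hA h hsurj hW H hH ϖ hϖ0 hunif V' hV'
        (hVV' hf.2) hf.1 hsm)
      harch V (Fermat.Agent.BAD.LatInst.hasOrtho_bad h hW hsurj V)
      ((le_span_fixedFunOf H (M * q) V hV).trans (Submodule.span_mono
        (fun f hf => ⟨hf.1, hf.2, hf.1⟩)))
  exact ⟨n, b, fun i => (hbF i).1, hli, hspan, hbO, hortho⟩

/-- **`K''`-rational lifts.**  In the situation of `exists_fixed_ortho_basis_sub`, every element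
of `V ∩ O` has the same reduction as an `H`-fixed element of `V ∩ O`. -/
theorem exists_fixed_lift_sub (hq : q.Prime) (hA : A.LiesOverPrime q)
    (h : BadSetup A π M q) (hsurj : Function.Surjective π) (hW : IsAL M q W)
    (H : Set GQ) (hH : ∀ σ ∈ H, σ ∈ A.inertiaSubgroupIn ℚ)
    (ϖ : Qb) (hϖH : ∀ σ ∈ H, σ ϖ = ϖ) (hϖ0 : ϖ ≠ 0) (hϖ1 : A.valuation ϖ < 1)
    (hunif : ∀ a : Qb, (∀ σ ∈ H, σ a = a) → A.valuation a < 1 → A.valuation a ≤ A.valuation ϖ)
    (V V' : Submodule Qb (laurentBaseChange Qb (modularFunctionFieldFull (M * q))))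
    [FiniteDimensional Qb V'] (hVV' : V ≤ V')
    (hV : ∀ σ ∈ H, ∀ f ∈ V,
      arithmeticGalois (L := Qb) (modularFunctionFieldFull (M * q)) σ • f ∈ V)
    (hV' : ∀ σ ∈ A.inertiaSubgroupIn ℚ, ∀ f ∈ V',
      arithmeticGalois (L := Qb) (modularFunctionFieldFull (M * q)) σ • f ∈ V')
    {f : laurentBaseChange Qb (modularFunctionFieldFull (M * q))} (hfV : f ∈ V)
    (hfO : f ∈ OPair h W) :
    ∃ (f' : laurentBaseChange Qb (modularFunctionFieldFull (M * q))) (hf'O : f' ∈ OPair h W),
      f' ∈ V ∧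
      (∀ σ ∈ H,
        arithmeticGalois (L := Qb) (modularFunctionFieldFull (M * q)) σ • f' = f') ∧
      redPair h W ⟨f', hf'O⟩ = redPair h W ⟨f, hfO⟩ := by
  classical
  obtain ⟨n, b, hbfix, -, hspan, hbO, hortho⟩ :=
    exists_fixed_ortho_basis_sub hq hA h hsurj hW H hH ϖ hϖH hϖ0 hϖ1 hunif V V' hVV' hV hV'
  rw [← hspan] at hfV
  obtain ⟨c, rfl⟩ := (Submodule.mem_span_range_iff_exists_fun Qb).1 hfV
  have hcA := hortho c hfO
  choose w hw hwA hlt using fun i =>
    Fermat.Agent.CAR.K0.exists_mem_inertiaField_valuation_sub_lt_one hq A hA (hcA i)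
  have hwH : ∀ i, w i ∈ fixedSubfieldOf H := fun i σ hσ =>
    (Fermat.Agent.CAR.K0.mem_inertiaField_iff A (w i)).1 (hw i) σ (hH σ hσ)
  have hf'O : ∑ i, w i • b i ∈ OPair h W := (sum_mem_OPair_iff h hbO hortho w).2 hwA
  refine ⟨∑ i, w i • b i, hf'O, ?_, ?_, ?_⟩
  · rw [← hspan]
    exact Submodule.sum_mem _ (fun i _ => Submodule.smul_mem _ _ (Submodule.subset_span ⟨i, rfl⟩))
  · exact (fixedFunOf H (M * q)).sum_mem (fun i _ => smul_mem_fixedFunOf (hwH i) (hbfix i))
  · have hsm : Small A (OPair h W) (∑ i, c i • b i - ∑ i, w i • b i) := by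
      have e : ∑ i, c i • b i - ∑ i, w i • b i = ∑ i, (c i - w i) • b i := by
        rw [← Finset.sum_sub_distrib]
        exact Finset.sum_congr rfl (fun i _ => (sub_smul _ _ _).symm)
      rw [e]
      refine Finset.sum_induction _ (Small A (OPair h W))
        (fun _ _ h1 h2 => h1.add (OPair_hOA h) h2) small_zero (fun i _ => ?_)
      exact ⟨_, hlt i, b i, hbO i, by rw [Algebra.smul_def]⟩
    have h1 : redPair h W (⟨_, hfO⟩ - ⟨_, hf'O⟩) = 0 := (redPair_eq_zero_iff h _).2 hsm
    rw [map_sub, sub_eq_zero] at h1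
    exact h1.symm

/-- If the subgroup `H` has finitely many cosets in the inertia group `I` (representatives
`ρ j ∈ I`), every `H`-stable finite-dimensional subspace lies in an `I`-stable
finite-dimensional subspace. -/
theorem exists_stable_superspace {N : ℕ} (H : Subgroup GQ)
    {m : ℕ} (ρ : Fin m → GQ) (hρI : ∀ j, ρ j ∈ A.inertiaSubgroupIn ℚ)
    (hρ : ∀ σ ∈ A.inertiaSubgroupIn ℚ, ∃ j, ∃ τ ∈ H, σ = ρ j * τ)
    (V : Submodule Qb (laurentBaseChange Qb (modularFunctionFieldFull N)))
    [FiniteDimensional Qb V]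
    (hV : ∀ σ ∈ H, ∀ f ∈ V,
      arithmeticGalois (L := Qb) (modularFunctionFieldFull N) σ • f ∈ V) :
    ∃ V' : Submodule Qb (laurentBaseChange Qb (modularFunctionFieldFull N)),
      FiniteDimensional Qb V' ∧ V ≤ V' ∧
      ∀ σ ∈ A.inertiaSubgroupIn ℚ, ∀ f ∈ V',
        arithmeticGalois (L := Qb) (modularFunctionFieldFull N) σ • f ∈ V' := by
  classical
  -- a finite spanning set of `V`
  obtain ⟨S, hS⟩ := (Submodule.fg_iff_finiteDimensional V).2 inferInstance
  let T : Set (laurentBaseChange Qb (modularFunctionFieldFull N)) :=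
    ⋃ j : Fin m, (fun f => arithmeticGalois (L := Qb) (modularFunctionFieldFull N) (ρ j) • f) ''
      (S : Set _)
  have hTfin : T.Finite := Set.finite_iUnion (fun j => (S.finite_toSet).image _)
  refine ⟨Submodule.span Qb T, FiniteDimensional.span_of_finite Qb hTfin, ?_, ?_⟩
  · -- `V ≤ V'`: write `1 = ρ j * τ`
    obtain ⟨j, τ, hτ, h1⟩ := hρ 1 (Subgroup.one_mem _)
    intro f hf
    have hf' : arithmeticGalois (L := Qb) (modularFunctionFieldFull N) τ • f ∈ V := hV τ hτ f hf
    rw [← hS] at hf'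
    have key : ∀ g ∈ Submodule.span Qb (S : Set (laurentBaseChange Qb
        (modularFunctionFieldFull N))),
        arithmeticGalois (L := Qb) (modularFunctionFieldFull N) (ρ j) • g ∈
          Submodule.span Qb T := by
      intro g hg
      induction hg using Submodule.span_induction with
      | mem x hx => exact Submodule.subset_span (Set.mem_iUnion.2 ⟨j, x, hx, rfl⟩)
      | zero => rw [smul_zero]; exact Submodule.zero_mem _
      | add x y _ _ hx hy => rw [smul_add]; exact Submodule.add_mem _ hx hy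
      | smul a x _ hx =>
        rw [Fermat.Agent.Padic.arithmeticGalois_smul_const_smul]
        exact Submodule.smul_mem _ _ hx
    have h2 := key _ hf'
    rw [← mul_smul, ← map_mul, ← h1, map_one, one_smul] at h2
    exact h2
  · intro σ hσ f hf
    induction hf using Submodule.span_induction with
    | mem x hx =>
      obtain ⟨j, s, hs, rfl⟩ := Set.mem_iUnion.1 hx
      -- `σ * ρ j = ρ j' * τ`
      obtain ⟨j', τ, hτ, h1⟩ := hρ (σ * ρ j) (Subgroup.mul_mem _ hσ (hρI j))
      rw [← mul_smul, ← map_mul, h1, map_mul, mul_smul]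
      have hs' : arithmeticGalois (L := Qb) (modularFunctionFieldFull N) τ • s ∈ V :=
        hV τ hτ s (hS ▸ Submodule.subset_span hs)
      rw [← hS] at hs'
      have key : ∀ g ∈ Submodule.span Qb (S : Set (laurentBaseChange Qb
          (modularFunctionFieldFull N))),
          arithmeticGalois (L := Qb) (modularFunctionFieldFull N) (ρ j') • g ∈
            Submodule.span Qb T := by
        intro g hg
        induction hg using Submodule.span_induction with
        | mem x hx => exact Submodule.subset_span (Set.mem_iUnion.2 ⟨j', x, hx, rfl⟩)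
        | zero => rw [smul_zero]; exact Submodule.zero_mem _
        | add x y _ _ hx hy => rw [smul_add]; exact Submodule.add_mem _ hx hy
        | smul a x _ hx =>
          rw [Fermat.Agent.Padic.arithmeticGalois_smul_const_smul]
          exact Submodule.smul_mem _ _ hx
      exact key _ hs'
    | zero => rw [smul_zero]; exact Submodule.zero_mem _
    | add x y _ _ hx hy => rw [smul_add]; exact Submodule.add_mem _ hx hy
    | smul a x _ hx =>
      rw [Fermat.Agent.Padic.arithmeticGalois_smul_const_smul]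
      exact Submodule.smul_mem _ _ hx

end

end Fermat.Agent.BAD.LatFixedInst
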