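import Mathlib
import Fermat.Agent.BAD.NodalTwist
import Fermat.Agent.BAD.NodalAsm

/-!
# The toric eigenvalue statement from a nodal special fibre (twisted BAD-U, divisor level)

Twisted versions of `NodalDiv.principal_smul_sub` and `NodalAsm.monodromy_of_nodal_fibre`, on top
of `NodalTwist.exists_common_of_nodal_twist`:

a semilinear automorphism `g'` of `F/L` which preserves `O`, fixes `E1`, `E2` and acts on
reductions through a ring endomorphism `Φ` of the special fibre (`red (g' y) = Φ (red y)`) with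
`ev (Φ t) = (ev t) ^ r` at the nodes, satisfies `g' • D - r • D ∈ principal` for every degree-zero
divisor `D` with a Kummer generator `f2` (`m D = div f2`) which is a unit of `O` whose reduction
is `u ^ m` for a unit `u` with `Φ u = u ^ r`.

* `principal_smul_sub_twist` : abstract special fibre (`Rn`, `ev1`, `ev2`, `T`);
* `toric_eigen_of_nodal_fibre` : special fibre = two `IsFF1` function fields glued along places;
* `toric_eigen_of_nodal_fibre_prod` : the same with `Φ = φ₁ × φ₂` and place-wise hypotheses.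

`(g', Φ, r) = (inertia, id, 1)` is BAD-U; `(φ², Frobenius², q²)` is the toric half of S35.
-/

set_option autoImplicit false

namespace Fermat.Agent.BAD.NodalAsmTwist

open AlgebraicCurve WithZero Fermat.Agent.Lib.FF Fermat.Agent.Lib.Red.Deform
  Fermat.Agent.Lib.Red.CoordLat Fermat.Agent.BAD.Nodal Fermat.Agent.BAD.NodalBridge
  Fermat.Agent.BAD.NodalDiv Fermat.Agent.BAD.NodalRiemann Fermat.Agent.Lib.Red.OneStep
  Fermat.Agent.BAD.NodalTwist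

section div

variable {L F : Type*} [Field L] [Field F] [Algebra L F]

theorem pow_mem_VB {D E1 E2 : Divisor L F} {n₁ n₂ : ℕ} {s : F} (r : ℕ) (hr : 0 < r)
    (hs : s ∈ VB D E1 E2 n₁ n₂) : s ^ r ∈ VB (r • D) E1 E2 (r * n₁) (r * n₂) := by
  rw [mem_VB] at hs ⊢
  intro v
  by_cases hs0 : s = 0
  · left; rw [hs0, zero_pow hr.ne']
  right
  have h1 := (hs v).resolve_left hs0
  have h2 : (r : ℤ) * -(D v + (n₁ : ℤ) * E1 v + (n₂ : ℤ) * E2 v) ≤ (r : ℤ) * v.ord s :=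
    mul_le_mul_of_nonneg_left h1 (Nat.cast_nonneg r)
  rw [ord_npow, Finsupp.smul_apply, nsmul_eq_mul]
  push_cast
  linarith

variable {A : ValuationSubring L} {O : Subring F}
variable {k Ft : Type*} [Field k] [CommRing Ft] [Algebra k Ft]
variable {x : F}

/-- **Twisted BAD-U, divisor level** (abstract special fibre). -/
theorem principal_smul_sub_twist
    (hOA : ∀ x : L, algebraMap L F x ∈ O ↔ x ∈ A)
    (hval : ∀ y : F, y ≠ 0 → ∃ c : L, c ≠ 0 ∧ algebraMap L F c * y ∈ O ∧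
      ¬ Small A O (algebraMap L F c * y))
    (harch : ∀ a Δ : L, A.valuation a < 1 → Δ ≠ 0 →
      ∃ n : ℕ, A.valuation (a ^ n) < A.valuation Δ)
    (red : O →+* Ft) (π : A →+* k) (hπ : Function.Surjective π)
    (hπker : ∀ a : A, π a = 0 ↔ A.valuation (a : L) < 1)
    (hconst : ∀ a : A, red ⟨algebraMap L F (a : L), (hOA _).2 a.2⟩ = algebraMap k Ft (π a))
    (hker : ∀ y : O, red y = 0 ↔ Small A O (y : F))
    (m : ℕ) (hm : A.valuation (m : L) = 1)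
    {σ : Type*} [Fintype σ] (Rn : Subalgebra k Ft) (ev1 ev2 : σ → Rn →ₐ[k] k)
    (T : ℕ → ℕ → Submodule k Ft) (hTfin : ∀ n₁ n₂, FiniteDimensional k (T n₁ n₂))
    (hTR : ∀ n₁ n₂, T n₁ n₂ ≤ Subalgebra.toSubmodule Rn)
    (hTroot : ∀ n₁ n₂ (t : Ft), t ^ m ∈ T (m * n₁) (m * n₂) → t ∈ T n₁ n₂)
    (n₀ : ℕ)
    (hTsurj : ∀ a b : σ → k, ∃ t, ∃ h : t ∈ T n₀ 0,
      ∀ e, ev1 e ⟨t, hTR n₀ 0 h⟩ = a e ∧ ev2 e ⟨t, hTR n₀ 0 h⟩ = b e)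
    (hH2 : ∀ K, n₀ ≤ K → Glued Rn ev1 ev2 1 (T K 0) ⊓ Glued Rn ev1 ev2 1 (T n₀ K) ≤
      Glued Rn ev1 ev2 1 (T n₀ 0))
    (hH2' : ∀ K, n₀ ≤ K → Glued Rn ev1 ev2 1 (T 0 K) ⊓ Glued Rn ev1 ev2 1 (T K n₀) ≤
      Glued Rn ev1 ev2 1 (T 0 n₀))
    (hH3 : ∀ n, Glued Rn ev1 ev2 1 (T n 0) ⊓ Glued Rn ev1 ev2 1 (T 0 n) ≤
      Submodule.span k {(1 : Ft)})
    -- the generic fibre
    (hF : IsFF1 L F x) (E1 E2 : Divisor L F) (hE1 : ∀ v, 0 ≤ E1 v) (hE2 : ∀ v, 0 ≤ E2 v)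
    (hdisj : ∀ v, E1 v = 0 ∨ E2 v = 0)
    (hlat : ∀ B : Divisor L F, HasOrtho A O (riemannRochSpace B))
    (hS2 : ∀ n₁ n₂, n₀ ≤ n₁ + n₂ →
      redSub hOA red π hπ hconst (VB 0 E1 E2 n₁ n₂) = Glued Rn ev1 ev2 1 (T n₁ n₂))
    (hRR : ∀ n₁ n₂, n₀ ≤ n₁ + n₂ → ∀ D : Divisor L F, Divisor.degree D = 0 →
      Module.finrank L (VB D E1 E2 n₁ n₂) = Module.finrank L (VB 0 E1 E2 n₁ n₂))
    -- the twist
    (r : ℕ) (hr : 0 < r) (Φ : Ft →+* Ft) (hΦRn : ∀ t, t ∈ Rn → Φ t ∈ Rn)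
    (hΦev1 : ∀ e (t : Ft) (h : t ∈ Rn), ev1 e ⟨Φ t, hΦRn t h⟩ = ev1 e ⟨t, h⟩ ^ r)
    (hΦev2 : ∀ e (t : Ft) (h : t ∈ Rn), ev2 e ⟨Φ t, hΦRn t h⟩ = ev2 e ⟨t, h⟩ ^ r)
    -- the automorphism
    (g' : SemilinearAut L F) (hgO : ∀ y ∈ O, g' • y ∈ O) (hgO' : ∀ y ∈ O, g'⁻¹ • y ∈ O)
    (hgred : ∀ (y : O) (h : g' • (y : F) ∈ O), red ⟨g' • (y : F), h⟩ = Φ (red y))
    (hgE1 : g' • E1 = E1) (hgE2 : g' • E2 = E2)
    -- the divisor and its Kummer generator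
    (D : Divisor L F) (hD : Divisor.degree D = 0) (f2 : F) (hf2 : f2 ≠ 0)
    (hdiv : ∀ P : Place L F, (m : ℤ) * D P = P.ord f2)
    (hf2O : f2 ∈ O) (hf2O' : f2⁻¹ ∈ O) (u u' : Ft) (huu' : u * u' = 1)
    (hum : u ^ m = red ⟨f2, hf2O⟩) (hΦu : Φ u = u ^ r) :
    ∃ φ : F, φ ≠ 0 ∧ ∀ P : Place L F, (g' • D - r • D) P = P.ord φ := by
  classical
  have hm0 : m ≠ 0 := by
    rintro rfl
    simp at hm
  -- the divisor `D' = g' D - r D` and its Kummer generator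
  set D' : Divisor L F := g' • D - r • D with hD'
  have hD'deg : Divisor.degree D' = 0 := by
    rw [hD', map_sub, SemilinearAut.degree_smul, map_nsmul, hD, smul_zero, sub_zero]
  set f1 : F := g' • f2 * (f2⁻¹) ^ r with hf1
  have hgf2 : g' • f2 ≠ 0 := by
    intro h0
    apply hf2
    have := congrArg (fun z => g'⁻¹ • z) h0
    simpa using this
  have hf1ne : f1 ≠ 0 := mul_ne_zero hgf2 (pow_ne_zero r (inv_ne_zero hf2))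
  have hdiv1 : ∀ P : Place L F, (m : ℤ) * D' P = P.ord f1 := by
    intro P
    have e1 : P.ord (g' • f2) = (g'⁻¹ • P).ord f2 := by
      have := SemilinearAut.ord_smul g' (g'⁻¹ • P) f2
      rwa [smul_inv_smul] at this
    rw [hf1, P.ord_mul hgf2 (pow_ne_zero r (inv_ne_zero hf2)), ord_npow, P.ord_inv, e1, ← hdiv,
      ← hdiv, hD', Finsupp.sub_apply, SemilinearAut.divisor_smul_apply, Finsupp.smul_apply,
      nsmul_eq_mul]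
    ring
  have hgf2O : g' • f2 ∈ O := hgO f2 hf2O
  have hf1O : f1 ∈ O := O.mul_mem hgf2O (O.pow_mem hf2O' r)
  have hredf1 : red ⟨f1, hf1O⟩ = 1 := by
    have e : (⟨f1, hf1O⟩ : O) = ⟨g' • f2, hgf2O⟩ * (⟨f2⁻¹, hf2O'⟩ : O) ^ r := rfl
    have e2 : (⟨f2, hf2O⟩ : O) * ⟨f2⁻¹, hf2O'⟩ = 1 := Subtype.ext (mul_inv_cancel₀ hf2)
    have e3 : red ⟨f2, hf2O⟩ * red ⟨f2⁻¹, hf2O'⟩ = 1 := by rw [← map_mul, e2, map_one]
    rw [e, map_mul, map_pow, hgred ⟨f2, hf2O⟩ hgf2O, ← hum, map_pow, hΦu, ← pow_mul,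
      mul_comm r m, pow_mul, hum, ← mul_pow, e3, one_pow]
  have hsmall : Small A O (f1 - 1) := by
    have : red (⟨f1, hf1O⟩ - 1) = 0 := by rw [map_sub, hredf1, map_one, sub_self]
    exact (hker _).1 this
  obtain ⟨s, hs1, hs2, hs0⟩ := exists_common_of_nodal_twist hOA hval harch red π hπ hπker hconst
    hker m hm Rn ev1 ev2 T hTfin hTR hTroot n₀ hTsurj hH2 hH2' hH3
    (VB 0 E1 E2) (VB D' E1 E2) (VB D E1 E2)
    (fun _ _ _ _ h1 h2 => VB_mono hE1 hE2 h1 h2)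
    (fun _ _ _ _ h1 h2 => VB_mono hE1 hE2 h1 h2)
    (fun _ _ _ _ h1 h2 => VB_mono hE1 hE2 h1 h2)
    (one_mem_VB E1 E2) (fun _ _ => hlat _) (fun _ _ => hlat _) (fun _ _ => hlat _)
    hS2 (fun n₁ n₂ h => hRR n₁ n₂ h D' hD'deg) (fun n₁ n₂ h => hRR n₁ n₂ h D hD)
    (fun n₁ n₂ n₁' n₂' s hs η hη => by
      have := mul_mem_VB hs hη
      rwa [add_zero] at this)
    f1 hsmall (fun n₁ n₂ s hs => pow_mul_mem_VB hm0 hf1ne hdiv1 hs)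
    ⟨f2, hf2O⟩ u u' huu' hum (fun n₁ n₂ s hs => pow_mul_mem_VB hm0 hf2 hdiv hs)
    r hr Φ hΦu hΦRn hΦev1 hΦev2
    (fun n₁ n₂ n₁' n₂' s hs s0 hs0 => by
      have h1 : (s : F) * (s0 : F) ^ r ∈ VB (g' • D) E1 E2 (n₁ + r * n₁') (n₂ + r * n₂') := by
        have := mul_mem_VB hs (pow_mem_VB r hr hs0)
        rwa [hD', sub_add_cancel] at this
      have h2 := smul_inv_mem_VB g' hgE1 hgE2 h1
      have h3 : g'⁻¹ • ((s : F) * (s0 : F) ^ r) ∈ O :=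
        hgO' _ (O.mul_mem s.2 (O.pow_mem s0.2 r))
      refine ⟨⟨_, h3⟩, h2, ?_⟩
      have h4 : g' • ((⟨g'⁻¹ • ((s : F) * (s0 : F) ^ r), h3⟩ : O) : F) ∈ O := by
        show g' • g'⁻¹ • ((s : F) * (s0 : F) ^ r) ∈ O
        rw [smul_inv_smul]; exact O.mul_mem s.2 (O.pow_mem s0.2 r)
      rw [← hgred ⟨g'⁻¹ • ((s : F) * (s0 : F) ^ r), h3⟩ h4, ← map_pow, ← map_mul]
      congr 1
      exact Subtype.ext (by
        show g' • g'⁻¹ • ((s : F) * (s0 : F) ^ r) = (s : F) * (s0 : F) ^ r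
        rw [smul_inv_smul]))
  exact principal_of_common hF hdisj hD'deg hs0 hs1 hs2

end div

section asm

variable {L F : Type*} [Field L] [Field F] [Algebra L F]
variable {A : ValuationSubring L} {O : Subring F}
variable {k F₁ F₂ : Type*} [Field k] [Field F₁] [Field F₂] [Algebra k F₁] [Algebra k F₂]

/-- **The toric eigenvalue statement from a nodal special fibre** (two components). -/
theorem toric_eigen_of_nodal_fibre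
    (hOA : ∀ x : L, algebraMap L F x ∈ O ↔ x ∈ A)
    (hval : ∀ y : F, y ≠ 0 → ∃ c : L, c ≠ 0 ∧ algebraMap L F c * y ∈ O ∧
      ¬ Small A O (algebraMap L F c * y))
    (harch : ∀ a Δ : L, A.valuation a < 1 → Δ ≠ 0 →
      ∃ n : ℕ, A.valuation (a ^ n) < A.valuation Δ)
    (red : O →+* F₁ × F₂) (π : A →+* k) (hπ : Function.Surjective π)
    (hπker : ∀ a : A, π a = 0 ↔ A.valuation (a : L) < 1)
    (hconst : ∀ a : A, red ⟨algebraMap L F (a : L), (hOA _).2 a.2⟩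
      = algebraMap k (F₁ × F₂) (π a))
    (hker : ∀ y : O, red y = 0 ↔ Small A O (y : F))
    (m : ℕ) (hm : A.valuation (m : L) = 1)
    -- the three function fields
    {x : F} (hF : IsFF1 L F x) {x₁ : F₁} (h₁ : IsFF1 k F₁ x₁) {x₂ : F₂} (h₂ : IsFF1 k F₂ x₂)
    -- the nodes
    {ι : Type*} [Fintype ι] [Nonempty ι] (e₁ : ι → Place k F₁) (e₂ : ι → Place k F₂)
    (hinj₁ : Function.Injective e₁) (hinj₂ : Function.Injective e₂)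
    -- the divisors on the special fibre
    (P₁ Z₁ : Divisor k F₁) (P₂ Z₂ : Divisor k F₂)
    (hP₁ : ∀ i, P₁ (e₁ i) = 0) (hZ₁ : ∀ i, Z₁ (e₁ i) = 0)
    (hP₂ : ∀ i, P₂ (e₂ i) = 0) (hZ₂ : ∀ i, Z₂ (e₂ i) = 0)
    (hd₁ : ∀ v, P₁ v = 0 ∨ Z₁ v = 0) (hd₂ : ∀ v, P₂ v = 0 ∨ Z₂ v = 0)
    (hdegP₁ : 0 < Divisor.degree P₁) (hdegP₂ : 0 < Divisor.degree P₂)
    -- the divisors on the generic fibre
    (E1 E2 : Divisor L F) (hE1 : ∀ v, 0 ≤ E1 v) (hE2 : ∀ v, 0 ≤ E2 v)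
    (hdisj : ∀ v, E1 v = 0 ∨ E2 v = 0)
    (hdegE1 : 0 < Divisor.degree E1) (hdegE2 : 0 < Divisor.degree E2)
    -- lattices and saturation
    (hlat : ∀ B : Divisor L F, HasOrtho A O (riemannRochSpace B))
    (hS2 : ∃ N₀ : ℕ, ∀ n₁ n₂, N₀ ≤ n₁ + n₂ →
      redSub hOA red π hπ hconst (VB 0 E1 E2 n₁ n₂)
        = gluedSpace e₁ e₂ (fun _ => (1 : k)) (n₁ • P₁ + n₂ • Z₁) (n₁ • P₂ + n₂ • Z₂))
    -- the twist
    (r : ℕ) (hr : 0 < r) (Φ : F₁ × F₂ →+* F₁ × F₂)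
    (hΦRn : ∀ t, t ∈ regSub e₁ e₂ → Φ t ∈ regSub e₁ e₂)
    (hΦev1 : ∀ i (t : F₁ × F₂) (c : k), t ∈ regSub e₁ e₂ → Cong (e₁ i) t.1 c →
      Cong (e₁ i) (Φ t).1 (c ^ r))
    (hΦev2 : ∀ i (t : F₁ × F₂) (c : k), t ∈ regSub e₁ e₂ → Cong (e₂ i) t.2 c →
      Cong (e₂ i) (Φ t).2 (c ^ r))
    -- the automorphism
    (g' : SemilinearAut L F) (hgO : ∀ y ∈ O, g' • y ∈ O) (hgO' : ∀ y ∈ O, g'⁻¹ • y ∈ O)
    (hgred : ∀ (y : O) (h : g' • (y : F) ∈ O), red ⟨g' • (y : F), h⟩ = Φ (red y))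
    (hgE1 : g' • E1 = E1) (hgE2 : g' • E2 = E2)
    -- the divisor and its Kummer generator
    (D : Divisor L F) (hD : Divisor.degree D = 0) (f2 : F) (hf2 : f2 ≠ 0)
    (hdiv : ∀ P : Place L F, (m : ℤ) * D P = P.ord f2)
    (hf2O : f2 ∈ O) (hf2O' : f2⁻¹ ∈ O) (u u' : F₁ × F₂) (huu' : u * u' = 1)
    (hum : u ^ m = red ⟨f2, hf2O⟩) (hΦu : Φ u = u ^ r) :
    ∃ φ : F, φ ≠ 0 ∧ ∀ P : Place L F, (g' • D - r • D) P = P.ord φ := by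
  classical
  have hm0 : m ≠ 0 := by
    rintro rfl
    simp at hm
  obtain ⟨N₀, hN₀⟩ := hS2
  obtain ⟨c, hc⟩ := exists_finrank_eq hF
  obtain ⟨c₁, hc₁⟩ := h₁.exists_degree_bound
  obtain ⟨c₂, hc₂⟩ := h₂.exists_degree_bound
  set n₀ : ℕ := max N₀ (max c.toNat (max (c₁ + Fintype.card ι).toNat
    (c₂ + Fintype.card ι).toNat)) with hn₀
  have hn₀N : N₀ ≤ n₀ := le_max_left _ _
  have hn₀c : c ≤ (n₀ : ℤ) := by
    have h1 : c.toNat ≤ n₀ := (le_max_left _ _).trans (le_max_right _ _)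
    have h2 : c ≤ (c.toNat : ℤ) := Int.self_le_toNat c
    exact h2.trans (by exact_mod_cast h1)
  have hn₀c₁ : c₁ + Fintype.card ι ≤ (n₀ : ℤ) := by
    have h1 : (c₁ + Fintype.card ι).toNat ≤ n₀ :=
      ((le_max_left _ _).trans (le_max_right _ _)).trans (le_max_right _ _)
    have h2 := Int.self_le_toNat (c₁ + Fintype.card ι)
    exact h2.trans (by exact_mod_cast h1)
  have hn₀c₂ : c₂ + Fintype.card ι ≤ (n₀ : ℤ) := by
    have h1 : (c₂ + Fintype.card ι).toNat ≤ n₀ :=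
      ((le_max_right _ _).trans (le_max_right _ _)).trans (le_max_right _ _)
    have h2 := Int.self_le_toNat (c₂ + Fintype.card ι)
    exact h2.trans (by exact_mod_cast h1)
  -- degrees
  have hsumdeg₁ : Divisor.degree (∑ i, Finsupp.single (e₁ i) (1 : ℤ) : Divisor k F₁)
      = Fintype.card ι := by
    rw [map_sum, Finset.sum_congr rfl (fun i _ => by
      rw [Divisor.degree_single, h₁.deg_eq_one, Nat.cast_one, mul_one])]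
    simp
  have hsumdeg₂ : Divisor.degree (∑ i, Finsupp.single (e₂ i) (1 : ℤ) : Divisor k F₂)
      = Fintype.card ι := by
    rw [map_sum, Finset.sum_congr rfl (fun i _ => by
      rw [Divisor.degree_single, h₂.deg_eq_one, Nat.cast_one, mul_one])]
    simp
  have hMD₁ : RR.MD (n₀ • P₁ - ∑ i, Finsupp.single (e₁ i) (1 : ℤ)) = ⊤ := by
    refine (hc₁ _ ?_).1
    rw [map_sub, hsumdeg₁, map_nsmul, nsmul_eq_mul]
    nlinarith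
  have hMD₂ : RR.MD (n₀ • P₂ - ∑ i, Finsupp.single (e₂ i) (1 : ℤ)) = ⊤ := by
    refine (hc₂ _ ?_).1
    rw [map_sub, hsumdeg₂, map_nsmul, nsmul_eq_mul]
    nlinarith
  have hRR : ∀ n₁ n₂, n₀ ≤ n₁ + n₂ → ∀ D : Divisor L F, Divisor.degree D = 0 →
      Module.finrank L (VB D E1 E2 n₁ n₂) = Module.finrank L (VB 0 E1 E2 n₁ n₂) := by
    intro n₁ n₂ hl D hD
    have hdeg : c ≤ Divisor.degree (n₁ • E1 + n₂ • E2) := by
      rw [map_add, map_nsmul, map_nsmul, nsmul_eq_mul, nsmul_eq_mul]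
      have h1 : (n₀ : ℤ) ≤ (n₁ : ℤ) + n₂ := by exact_mod_cast hl
      nlinarith [Int.natCast_nonneg n₁, Int.natCast_nonneg n₂]
    have := hc D (n₁ • E1 + n₂ • E2) hD hdeg
    unfold VB
    rw [add_assoc, this, zero_add]
  -- the special fibre
  have hle := Tn_le_regSub e₁ e₂ P₁ Z₁ P₂ Z₂ hP₁ hZ₁ hP₂ hZ₂
  refine principal_smul_sub_twist hOA hval harch red π hπ hπker hconst hker m hm
    (regSub e₁ e₂) (ev₁ e₁ e₂ (fun _ => h₁.resK _)) (ev₂ e₁ e₂ (fun _ => h₂.resK _))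
    (Tn P₁ Z₁ P₂ Z₂) (finite_Tn h₁ h₂ P₁ Z₁ P₂ Z₂) hle
    (fun n₁ n₂ t ht => Tn_root P₁ Z₁ P₂ Z₂ hm0 n₁ n₂ t ht) n₀ ?_ ?_ ?_ ?_
    hF E1 E2 hE1 hE2 hdisj hlat ?_ hRR r hr Φ hΦRn ?_ ?_ g' hgO hgO' hgred hgE1 hgE2
    D hD f2 hf2 hdiv hf2O hf2O' u u' huu' hum hΦu
  · intro a b
    obtain ⟨t, ht, h⟩ := Tn_surj (Z₁ := Z₁) (Z₂ := Z₂) (fun _ => h₁.resK _) (fun _ => h₂.resK _)
      hinj₁ hinj₂ hP₁ hP₂ n₀ hMD₁ hMD₂ a b
    exact ⟨t, ht, fun e => h _ e⟩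
  · intro K _
    exact glued_inf_le _ _ _ _ (Tn_inf_le P₁ Z₁ P₂ Z₂ hd₁ hd₂ n₀ K)
  · intro K _
    exact glued_inf_le _ _ _ _ (Tn_inf_le' P₁ Z₁ P₂ Z₂ hd₁ hd₂ n₀ K)
  · intro n
    exact glued_zero_le_span h₁ h₂ hd₁ hd₂ n
  · intro n₁ n₂ hl
    rw [hN₀ n₁ n₂ (hn₀N.trans hl)]
    exact (glued_eq_gluedSpace e₁ e₂ (fun _ => h₁.resK _) (fun _ => h₂.resK _) 1
      (n₁ • P₁ + n₂ • Z₁) (n₁ • P₂ + n₂ • Z₂)
      (fun i => by simp [Finsupp.add_apply, Finsupp.smul_apply, hP₁ i, hZ₁ i])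
      (fun i => by simp [Finsupp.add_apply, Finsupp.smul_apply, hP₂ i, hZ₂ i])).symm
  · intro i t h
    rw [ev₁_eq_iff]
    exact hΦev1 i t _ h (ev₁_spec e₁ e₂ (fun _ => h₁.resK _) i ⟨t, h⟩)
  · intro i t h
    rw [ev₂_eq_iff]
    exact hΦev2 i t _ h (ev₂_spec e₁ e₂ (fun _ => h₂.resK _) i ⟨t, h⟩)

/-- `toric_eigen_of_nodal_fibre` for a twist `Φ = φ₁ × φ₂` acting component-wise, with the
hypotheses on `Φ` stated place by place: `f ≡ c` at a node implies `φ_j f ≡ c ^ r` there. -/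
theorem toric_eigen_of_nodal_fibre_prod
    (hOA : ∀ x : L, algebraMap L F x ∈ O ↔ x ∈ A)
    (hval : ∀ y : F, y ≠ 0 → ∃ c : L, c ≠ 0 ∧ algebraMap L F c * y ∈ O ∧
      ¬ Small A O (algebraMap L F c * y))
    (harch : ∀ a Δ : L, A.valuation a < 1 → Δ ≠ 0 →
      ∃ n : ℕ, A.valuation (a ^ n) < A.valuation Δ)
    (red : O →+* F₁ × F₂) (π : A →+* k) (hπ : Function.Surjective π)
    (hπker : ∀ a : A, π a = 0 ↔ A.valuation (a : L) < 1)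
    (hconst : ∀ a : A, red ⟨algebraMap L F (a : L), (hOA _).2 a.2⟩
      = algebraMap k (F₁ × F₂) (π a))
    (hker : ∀ y : O, red y = 0 ↔ Small A O (y : F))
    (m : ℕ) (hm : A.valuation (m : L) = 1)
    {x : F} (hF : IsFF1 L F x) {x₁ : F₁} (h₁ : IsFF1 k F₁ x₁) {x₂ : F₂} (h₂ : IsFF1 k F₂ x₂)
    {ι : Type*} [Fintype ι] [Nonempty ι] (e₁ : ι → Place k F₁) (e₂ : ι → Place k F₂)
    (hinj₁ : Function.Injective e₁) (hinj₂ : Function.Injective e₂)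
    (P₁ Z₁ : Divisor k F₁) (P₂ Z₂ : Divisor k F₂)
    (hP₁ : ∀ i, P₁ (e₁ i) = 0) (hZ₁ : ∀ i, Z₁ (e₁ i) = 0)
    (hP₂ : ∀ i, P₂ (e₂ i) = 0) (hZ₂ : ∀ i, Z₂ (e₂ i) = 0)
    (hd₁ : ∀ v, P₁ v = 0 ∨ Z₁ v = 0) (hd₂ : ∀ v, P₂ v = 0 ∨ Z₂ v = 0)
    (hdegP₁ : 0 < Divisor.degree P₁) (hdegP₂ : 0 < Divisor.degree P₂)
    (E1 E2 : Divisor L F) (hE1 : ∀ v, 0 ≤ E1 v) (hE2 : ∀ v, 0 ≤ E2 v)
    (hdisj : ∀ v, E1 v = 0 ∨ E2 v = 0)
    (hdegE1 : 0 < Divisor.degree E1) (hdegE2 : 0 < Divisor.degree E2)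
    (hlat : ∀ B : Divisor L F, HasOrtho A O (riemannRochSpace B))
    (hS2 : ∃ N₀ : ℕ, ∀ n₁ n₂, N₀ ≤ n₁ + n₂ →
      redSub hOA red π hπ hconst (VB 0 E1 E2 n₁ n₂)
        = gluedSpace e₁ e₂ (fun _ => (1 : k)) (n₁ • P₁ + n₂ • Z₁) (n₁ • P₂ + n₂ • Z₂))
    -- the twist, component-wise
    (r : ℕ) (hr : 0 < r) (φ₁ : F₁ →+* F₁) (φ₂ : F₂ →+* F₂)
    (hφ₁ : ∀ i (f : F₁) (c : k), Cong (e₁ i) f c → Cong (e₁ i) (φ₁ f) (c ^ r))
    (hφ₂ : ∀ i (f : F₂) (c : k), Cong (e₂ i) f c → Cong (e₂ i) (φ₂ f) (c ^ r))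
    -- the automorphism
    (g' : SemilinearAut L F) (hgO : ∀ y ∈ O, g' • y ∈ O) (hgO' : ∀ y ∈ O, g'⁻¹ • y ∈ O)
    (hgred : ∀ (y : O) (h : g' • (y : F) ∈ O),
      red ⟨g' • (y : F), h⟩ = (φ₁ (red y).1, φ₂ (red y).2))
    (hgE1 : g' • E1 = E1) (hgE2 : g' • E2 = E2)
    -- the divisor and its Kummer generator
    (D : Divisor L F) (hD : Divisor.degree D = 0) (f2 : F) (hf2 : f2 ≠ 0)
    (hdiv : ∀ P : Place L F, (m : ℤ) * D P = P.ord f2)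
    (hf2O : f2 ∈ O) (hf2O' : f2⁻¹ ∈ O) (u u' : F₁ × F₂) (huu' : u * u' = 1)
    (hum : u ^ m = red ⟨f2, hf2O⟩) (hΦu : (φ₁ u.1, φ₂ u.2) = u ^ r) :
    ∃ φ : F, φ ≠ 0 ∧ ∀ P : Place L F, (g' • D - r • D) P = P.ord φ := by
  have hΦRn : ∀ t, t ∈ regSub e₁ e₂ → (RingHom.prodMap φ₁ φ₂) t ∈ regSub e₁ e₂ := by
    intro t ht i
    obtain ⟨c₁, hc₁⟩ := exists_cong (h₁.resK (e₁ i)) (ht i).1
    obtain ⟨c₂, hc₂⟩ := exists_cong (h₂.resK (e₂ i)) (ht i).2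
    exact ⟨(hφ₁ i _ _ hc₁).le_one, (hφ₂ i _ _ hc₂).le_one⟩
  exact toric_eigen_of_nodal_fibre hOA hval harch red π hπ hπker hconst hker m hm hF h₁ h₂
    e₁ e₂ hinj₁ hinj₂ P₁ Z₁ P₂ Z₂ hP₁ hZ₁ hP₂ hZ₂ hd₁ hd₂ hdegP₁ hdegP₂ E1 E2 hE1 hE2 hdisj
    hdegE1 hdegE2 hlat hS2 r hr (RingHom.prodMap φ₁ φ₂) hΦRn
    (fun i t c _ hc => hφ₁ i _ _ hc) (fun i t c _ hc => hφ₂ i _ _ hc)
    g' hgO hgO' hgred hgE1 hgE2 D hD f2 hf2 hdiv hf2O hf2O' u u' huu' hum hΦu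

end asm

end Fermat.Agent.BAD.NodalAsmTwist
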