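/-
BAD (helper54) — ABSTRACT ASSEMBLY of the nodal-fibre datum (`BadU.NodalFibreBad`, S1 + S2 + S3).

Generic fibre `F/L` with coordinate `x` (`IsFF1 L F x`, `x, x⁻¹ ∈ O`), special fibre
`F₁ × F₂` over `k` with coordinates `red x = (x₁, x₂)`, bi-unit `z = x^q - x - 1` of `O`.

Inputs:
* (S1, chart 1) `hB₁` : the reductions of the elements of `O` regular off the poles of `x` are the
  glued chart ring `nodalFin x₁ x₂ e₁ e₂`; the nodes are at finite distance (`hfin`) and `x₁` takes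
  an `𝔽_q`-rational value at each of them (`hval`);
* (S1, chart 2) `hB₂` : the same at infinity with a second family of nodes, all in the overlap;
* (L1) LAT data of chart 1 (`β`, `hgen`) — gives saturation through `ChartLat.hsat_finRing`;
* (LAT) `hlat` for the spaces `L(n·(x)_∞)`, and the genus inequality `g₁ + g₂ ≤ g` (S3).

Output `nodalFibre_of_charts` : literally the body of `BadU.NodalFibreBad` with
`E1 = (x)_∞`, `E2 = (z)_0`, `P_j = (x_j)_∞`, `Z_j = (x_j^q - x_j - 1)_0`: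
`Nonempty ι`, the divisors avoid the nodes, disjointness, positivity of degrees, invariance of
`E1`, `E2` under every semilinear automorphism fixing `x`, and the description of the reductions
of `L(n₁ E1 + n₂ E2) ∩ O` as glued spaces.
-/
import Mathlib
import Fermat.Agent.BAD.SatAsm
import Fermat.Agent.BAD.NodeCount
import Fermat.Agent.BAD.ChartDiv
import Fermat.Agent.BAD.ChartLat

set_option autoImplicit false
set_option linter.style.haveILetI false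

noncomputable section

namespace Fermat.Agent.BAD.NodalFibreAsm

open AlgebraicCurve Polynomial Fermat.Agent.Lib.FF Fermat.Agent.Lib.Red.Deform
  Fermat.Agent.Lib.Red.CoordLat Fermat.Agent.BAD.NodalRiemann Fermat.Agent.BAD.NodalCech
  Fermat.Agent.BAD.NodalPlaces Fermat.Agent.BAD.ChartDiv

variable {L F : Type*} [Field L] [Field F] [Algebra L F]
variable {A : ValuationSubring L} {O : Subring F}
variable {k F₁ F₂ : Type*} [Field k] [Field F₁] [Field F₂] [Algebra k F₁] [Algebra k F₂]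

/-- The reduction of `x^q - x - 1`. -/
theorem red_zfun (red : O →+* F₁ × F₂) {x : F} (hxO : x ∈ O) {x₁ : F₁} {x₂ : F₂}
    (hredx : red ⟨x, hxO⟩ = (x₁, x₂)) (q : ℕ) (hzO : x ^ q - x - 1 ∈ O) :
    red ⟨x ^ q - x - 1, hzO⟩ = (x₁ ^ q - x₁ - 1, x₂ ^ q - x₂ - 1) := by
  have e : (⟨x ^ q - x - 1, hzO⟩ : O) = ⟨x, hxO⟩ ^ q - ⟨x, hxO⟩ - 1 := Subtype.ext rfl
  rw [e, map_sub, map_sub, map_pow, map_one, hredx]
  rfl

/-- **The nodal-fibre datum from the two charts** (abstract form of `BadU.NodalFibreBad`). -/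
theorem nodalFibre_of_charts
    (hOA : ∀ a : L, algebraMap L F a ∈ O ↔ a ∈ A)
    (red : O →+* F₁ × F₂) (π : A →+* k) (hπ : Function.Surjective π)
    (hπker : ∀ a : A, π a = 0 ↔ A.valuation (a : L) < 1)
    (hconst : ∀ a : A, red ⟨algebraMap L F (a : L), (hOA _).2 a.2⟩
      = algebraMap k (F₁ × F₂) (π a))
    (hker : ∀ y : O, red y = 0 ↔ Small A O (y : F))
    -- the coordinate
    {x : F} (hF : IsFF1 L F x) (hxO : x ∈ O) (hxO' : x⁻¹ ∈ O)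
    {x₁ : F₁} {x₂ : F₂} (h₁ : IsFF1 k F₁ x₁) (h₂ : IsFF1 k F₂ x₂)
    (hredx : red ⟨x, hxO⟩ = (x₁, x₂))
    -- the bi-unit
    (q : ℕ) (hq : 2 ≤ q) (hzO : x ^ q - x - 1 ∈ O) (hzO' : (x ^ q - x - 1)⁻¹ ∈ O)
    -- the nodes of chart 1
    {ι : Type*} [Fintype ι] (e₁ : ι → Place k F₁) (e₂ : ι → Place k F₂)
    (hinj₂ : Function.Injective e₂)
    (hfin : ∀ i, (e₁ i).adicValuation x₁ ≤ 1)
    (hval : ∀ i, ∃ a : k, a ^ q = a ∧ Cong (e₁ i) x₁ a)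
    (hB₁ : ∀ t : F₁ × F₂, (∃ f : O, (f : F) ∈ finRing L x ∧ red f = t) ↔
      t ∈ nodalFin x₁ x₂ e₁ e₂)
    -- the nodes of chart 2
    {ι' : Type*} (e₁' : ι' → Place k F₁) (e₂' : ι' → Place k F₂)
    (hov : ∀ i, (e₁' i).adicValuation x₁ = 1)
    (hB₂ : ∀ t : F₁ × F₂, (∃ f : O, (f : F) ∈ finRing L x⁻¹ ∧ red f = t) ↔
      t ∈ nodalInf x₁ x₂ e₁' e₂')
    -- LAT data of chart 1
    {r : ℕ} (β : Fin r → F) (hβO : ∀ i, β i ∈ O) (hβR : ∀ i, β i ∈ finRing L x)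
    (hgen : ∀ v ∈ O, v ∈ finRing L x →
      ∃ e : Fin r → L[X], (∀ i j, (e i).coeff j ∈ A) ∧ v = ∑ i, aeval x (e i) * β i)
    -- lattices and genus
    (hlat : ∀ n : ℕ, HasOrtho A O (riemannRochSpace (n • hF.poleDiv)))
    (hg : genusFF k F₁ + genusFF k F₂ ≤ genusFF L F) :
    Nonempty ι ∧
    (∀ i, h₁.poleDiv (e₁ i) = 0) ∧ (∀ i, zeroDiv h₁ (x₁ ^ q - x₁ - 1) (e₁ i) = 0) ∧
    (∀ i, h₂.poleDiv (e₂ i) = 0) ∧ (∀ i, zeroDiv h₂ (x₂ ^ q - x₂ - 1) (e₂ i) = 0) ∧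
    (∀ v, h₁.poleDiv v = 0 ∨ zeroDiv h₁ (x₁ ^ q - x₁ - 1) v = 0) ∧
    (∀ v, h₂.poleDiv v = 0 ∨ zeroDiv h₂ (x₂ ^ q - x₂ - 1) v = 0) ∧
    0 < Divisor.degree h₁.poleDiv ∧ 0 < Divisor.degree h₂.poleDiv ∧
    (∀ v, 0 ≤ hF.poleDiv v) ∧ (∀ v, 0 ≤ zeroDiv hF (x ^ q - x - 1) v) ∧
    (∀ v, hF.poleDiv v = 0 ∨ zeroDiv hF (x ^ q - x - 1) v = 0) ∧
    0 < Divisor.degree hF.poleDiv ∧ 0 < Divisor.degree (zeroDiv hF (x ^ q - x - 1)) ∧
    (∀ g : SemilinearAut L F, g • x = x →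
      g • hF.poleDiv = hF.poleDiv ∧
        g • zeroDiv hF (x ^ q - x - 1) = zeroDiv hF (x ^ q - x - 1)) ∧
    ∃ N₀ : ℕ, ∀ n₁ n₂ : ℕ, N₀ ≤ n₁ + n₂ → ∀ t : F₁ × F₂,
      (∃ y : O, (y : F) ∈ riemannRochSpace (n₁ • hF.poleDiv + n₂ • zeroDiv hF (x ^ q - x - 1)) ∧
          red y = t) ↔
        t ∈ gluedSpace e₁ e₂ (fun _ => (1 : k))
          (n₁ • h₁.poleDiv + n₂ • zeroDiv h₁ (x₁ ^ q - x₁ - 1))
          (n₁ • h₂.poleDiv + n₂ • zeroDiv h₂ (x₂ ^ q - x₂ - 1)) := by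
  classical
  have hx0 : x ≠ 0 := fun h0 => hF.transcendental (h0 ▸ isAlgebraic_zero)
  haveI := hF.hasPrincipalDivisors
  have hq1 : 1 ≤ q := by omega
  have hq0 : 0 < q := by omega
  -- the polynomial `X^q - X - 1`
  have hmonL := zPoly_monic (K := L) q hq
  have hmonk := zPoly_monic (K := k) q hq
  have hdegL := zPoly_natDegree (K := L) q hq
  have hdegk := zPoly_natDegree (K := k) q hq
  have hzL : aeval x (zPoly L q) = x ^ q - x - 1 := aeval_zPoly q x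
  have hz₁ : aeval x₁ (zPoly k q) = x₁ ^ q - x₁ - 1 := aeval_zPoly q x₁
  have hz₂ : aeval x₂ (zPoly k q) = x₂ ^ q - x₂ - 1 := aeval_zPoly q x₂
  have hz0 : x ^ q - x - 1 ≠ 0 := hzL ▸ aeval_ne_zero hF hmonL.ne_zero
  have hredz := red_zfun red hxO hredx q hzO
  -- divisors of `z` and of its reductions
  have hdivz : ∀ v : Place L F,
      v.ord (x ^ q - x - 1) = zeroDiv hF (x ^ q - x - 1) v - q * hF.poleDiv v := by
    intro v
    have := ord_aeval_eq hF hmonL v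
    rwa [hzL, hdegL] at this
  have hdivc₁ : ∀ v : Place k F₁,
      v.ord (x₁ ^ q - x₁ - 1) = zeroDiv h₁ (x₁ ^ q - x₁ - 1) v - q * h₁.poleDiv v := by
    intro v
    have := ord_aeval_eq h₁ hmonk v
    rwa [hz₁, hdegk] at this
  have hdivc₂ : ∀ v : Place k F₂,
      v.ord (x₂ ^ q - x₂ - 1) = zeroDiv h₂ (x₂ ^ q - x₂ - 1) v - q * h₂.poleDiv v := by
    intro v
    have := ord_aeval_eq h₂ hmonk v
    rwa [hz₂, hdegk] at this
  -- the values at the nodes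
  have hone : (-1 : k) ≠ 0 := neg_ne_zero.mpr one_ne_zero
  have hZ₁ : ∀ i, zeroDiv h₁ (x₁ ^ q - x₁ - 1) (e₁ i) = 0 := by
    intro i
    obtain ⟨a, ha, hxa⟩ := hval i
    exact zeroDiv_eq_zero_of_cong h₁ (cong_zfun hxa q ha) hone
  have hxfin : (x₁, x₂) ∈ nodalFin x₁ x₂ e₁ e₂ :=
    (hB₁ _).mp ⟨⟨x, hxO⟩, self_mem_finRing, hredx⟩
  have hzfin : x ^ q - x - 1 ∈ finRing L x :=
    (finRing L x).sub_mem ((finRing L x).sub_mem ((finRing L x).pow_mem self_mem_finRing q)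
      self_mem_finRing) (finRing L x).one_mem
  have hcfin : (x₁ ^ q - x₁ - 1, x₂ ^ q - x₂ - 1) ∈ nodalFin x₁ x₂ e₁ e₂ :=
    (hB₁ _).mp ⟨⟨x ^ q - x - 1, hzO⟩, hzfin, hredz⟩
  have hfin₂ : ∀ i, (e₂ i).adicValuation x₂ ≤ 1 := by
    intro i
    obtain ⟨c, -, hc2⟩ := (mem_nodalFin.mp hxfin).2.2 i (hfin i)
    exact hc2.le_one
  have hZ₂ : ∀ i, zeroDiv h₂ (x₂ ^ q - x₂ - 1) (e₂ i) = 0 := by
    intro i
    obtain ⟨a, ha, hxa⟩ := hval i
    obtain ⟨c, hc1, hc2⟩ := (mem_nodalFin.mp hcfin).2.2 i (hfin i)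
    have hc : c = -1 := hc1.unique (cong_zfun hxa q ha)
    rw [hc] at hc2
    exact zeroDiv_eq_zero_of_cong h₂ hc2 hone
  -- saturation
  obtain ⟨d, hsat⟩ := ChartLat.hsat_finRing hOA red hker x hx0 hxO hxO' β hβO hβR hgen
  -- the reduction of `L(n₁ E1 + n₂ E2) ∩ O`
  have hS2 : ∀ n₁ n₂ : ℕ, d ≤ n₁ + n₂ → ∀ t : F₁ × F₂,
      (∃ y : O, (y : F) ∈ riemannRochSpace (n₁ • hF.poleDiv + n₂ • zeroDiv hF (x ^ q - x - 1)) ∧
          red y = t) ↔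
        t ∈ gluedSpace e₁ e₂ (fun _ => (1 : k))
          (n₁ • h₁.poleDiv + n₂ • zeroDiv h₁ (x₁ ^ q - x₁ - 1))
          (n₁ • h₂.poleDiv + n₂ • zeroDiv h₂ (x₂ ^ q - x₂ - 1)) := by
    intro n₁ n₂ hn t
    have hn' : d ≤ n₁ + q * n₂ := hn.trans (Nat.add_le_add_left (Nat.le_mul_of_pos_left n₂ hq0) n₁)
    exact SatAsm.reduction_eq_glued red hF hxO hxO' h₁ h₂ hredx hfin hov hB₁ hB₂ d hsat hz0 hzO
      hzO' q (zeroDiv hF (x ^ q - x - 1)) (zeroDiv_nonneg hF _) hdivz hredz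
      (zeroDiv h₁ (x₁ ^ q - x₁ - 1)) (zeroDiv h₂ (x₂ ^ q - x₂ - 1)) hdivc₁ hdivc₂ hZ₁ n₁ n₂ hn' t
  -- the number of nodes
  have hS2' : ∃ N₀ : ℕ, ∀ n : ℕ, N₀ ≤ n →
      redSub hOA red π hπ hconst (riemannRochSpace (n • hF.poleDiv))
        = gluedSpace e₁ e₂ (fun _ => (1 : k)) (n • h₁.poleDiv) (n • h₂.poleDiv) := by
    refine ⟨d, fun n hn => Submodule.ext fun t => ?_⟩
    rw [mem_redSub]
    have := hS2 n 0 (by omega) t
    simpa only [zero_smul, add_zero] using this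
  have hcard := (NodeCount.card_nodes hOA red π hπ hπker hconst hker hF h₁ h₂ e₁ e₂ hinj₂ hfin
    hfin₂ hlat hS2').2
  refine ⟨NodeCount.nonempty_nodes hcard hg,
    fun i => poleDiv_eq_zero_of_val_le_one h₁ (hfin i), hZ₁,
    fun i => poleDiv_eq_zero_of_val_le_one h₂ (hfin₂ i), hZ₂, ?_, ?_,
    h₁.degree_poleDiv_pos, h₂.degree_poleDiv_pos, hF.poleDiv_nonneg, zeroDiv_nonneg hF _, ?_,
    hF.degree_poleDiv_pos, ?_, ?_, d, hS2⟩
  · intro v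
    have := poleDiv_disjoint_zeroDiv h₁ hmonk v
    rwa [hz₁] at this
  · intro v
    have := poleDiv_disjoint_zeroDiv h₂ hmonk v
    rwa [hz₂] at this
  · intro v
    have := poleDiv_disjoint_zeroDiv hF hmonL v
    rwa [hzL] at this
  · have := degree_zeroDiv_aeval_pos hF hmonL (by rw [hdegL]; exact hq0)
    rwa [hzL] at this
  · intro g hgx
    refine ⟨smul_poleDiv hF g hgx, smul_zeroDiv hF g ?_⟩
    rw [smul_sub, smul_sub, smul_pow', hgx, smul_one]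

end Fermat.Agent.BAD.NodalFibreAsm
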