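/-
BAD (S3), modular corollary: **the special fibre of `X₀(Mq)` at a good pair `(M, q)` has at
least one node.**

`BAD/NodeCount.card_nodes` (abstract) gives `#ι = g(F) + 1 - g(F₁) - g(F₂)` for the number of
glued pairs.  Here `F = ℚ̄ · F_{Mq}`, `F₁ = F₂ = κ_M := modularFunctionFieldFullC k M`, and

* `reductionInputsAlong_good` : R2 (place reduction) at every good pair, for a GENERAL residue
  map `π : A →+* k` (the proof of `ESJ/Red/R2Good` with `π` in place of `IsLocalRing.residue A`);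
* `genusFF_le_good` : `g(κ_M) ≤ g(ℚ̄ · F_M)` (the genus does not grow under reduction);
* `genusFF_add_le_good` : `g(κ_M) + g(κ_M) ≤ g(ℚ̄ · F_{Mq})` (genus formula, `BAD/GenusIneq`);
* `nonempty_nodes_modular` : `Nonempty ι` from the count of `NodeCount.card_nodes`.

Good pair: `q ∤ M` and (`5 ≤ q`, or `q = 3 ∧ 2 ∣ M`, or `q = 2 ∧ 3 ∣ M`).
-/
import Mathlib
import Fermat.Agent.ESJ.Red.R2Good
import Fermat.Agent.Padic.GenusGe
import Fermat.Agent.Lib.FF.CanonicalFF1
import Fermat.Agent.BAD.GenusIneq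
import Fermat.Agent.BAD.NodeCount

set_option autoImplicit false

namespace Fermat.Agent.BAD.NodeCountInst

open ModularCurve AlgebraicCurve Fermat.Agent.Lib.Red Fermat.Agent.Lib.FF

noncomputable section

local notation "Qb" => AlgebraicClosure ℚ

variable {k : Type} [Field k]

/-- An integer prime to the characteristic is nonzero in `k`. -/
theorem intCast_ne_zero_of_not_dvd {ℓ : ℕ} (hℓ : ℓ.Prime) (hℓk : (ℓ : k) = 0) (z : ℤ)
    (hz : ¬ (ℓ : ℤ) ∣ z) : (z : k) ≠ 0 := by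
  have : CharP k ℓ := (CharP.charP_iff_prime_eq_zero hℓ).mpr hℓk
  intro h0
  exact hz ((CharP.intCast_eq_zero_iff k ℓ z).mp h0)

/-- A natural number prime to the characteristic is nonzero in `k`. -/
theorem natCast_ne_zero_of_not_dvd {ℓ : ℕ} (hℓ : ℓ.Prime) (hℓk : (ℓ : k) = 0) (m : ℕ)
    (hm : ¬ ℓ ∣ m) : (m : k) ≠ 0 := by
  have : CharP k ℓ := (CharP.charP_iff_prime_eq_zero hℓ).mpr hℓk
  intro h0
  exact hm ((CharP.cast_eq_zero_iff k ℓ m).mp h0)

set_option synthInstance.maxHeartbeats 400000 in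
set_option maxHeartbeats 1000000 in
/-- **The base function of a good pair**, for a general residue map `π`. -/
theorem exists_data_of_good (M : ℕ) [NeZero M] (ℓ : ℕ) (hℓ : ℓ.Prime)
    (hgood : 5 ≤ ℓ ∨ (ℓ = 3 ∧ 2 ∣ M) ∨ (ℓ = 2 ∧ 3 ∣ M))
    (A : ValuationSubring Qb) (π : A →+* k) (hℓk : (ℓ : k) = 0) :
    ∃ (B : BaseFn.Data A π M) (z : ℤ), ¬ (ℓ : ℤ) ∣ z ∧
      ∀ (P : Place Qb ↥(laurentBaseChange Qb (modularFunctionFieldFull M)))
        (c : Qb), c ≠ 0 → c ≠ (z : Qb) →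
      0 < P.ord (B.x - algebraMap Qb ↥(laurentBaseChange Qb (modularFunctionFieldFull M)) c) →
      P.ord (B.x - algebraMap Qb ↥(laurentBaseChange Qb (modularFunctionFieldFull M)) c) = 1 := by
  rcases hgood with h5 | ⟨rfl, h2M⟩ | ⟨rfl, h3M⟩
  · have hz : ¬ (ℓ : ℤ) ∣ (1728 : ℤ) := by
      intro h
      have h1 : ℓ ∣ 1728 := by exact_mod_cast h
      have h2 : (1728 : ℕ) = 2 ^ 6 * 3 ^ 3 := by norm_num
      rw [h2] at h1
      rcases (Nat.Prime.dvd_mul hℓ).mp h1 with h3 | h3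
      · have := (Nat.prime_dvd_prime_iff_eq hℓ Nat.prime_two).mp (hℓ.dvd_of_dvd_pow h3)
        omega
      · have := (Nat.prime_dvd_prime_iff_eq hℓ Nat.prime_three).mp (hℓ.dvd_of_dvd_pow h3)
        omega
    refine ⟨BaseFn.Data.ofJ A π M, 1728, hz, ?_⟩
    intro P c hc0 hc1 hP
    rw [BaseFn.Data.ofJ_x] at hP ⊢
    refine BranchInst.ord_xL_sub_generic M c hc0 ?_ P hP
    intro h
    apply hc1
    rw [h]
    norm_num
  · obtain ⟨m, hm⟩ := h2M
    have hm0 : m ≠ 0 := by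
      rintro rfl
      exact NeZero.ne M (by rw [hm, mul_zero])
    have : NeZero m := ⟨hm0⟩
    have hM : M = m * 2 := by rw [hm, mul_comm]
    have h2 : (2 : k) ≠ 0 := by
      have := natCast_ne_zero_of_not_dvd Nat.prime_three hℓk 2 (by decide)
      exact_mod_cast this
    refine ⟨BaseFn.ofHaupt2 A π M m hM h2, -64, by decide, ?_⟩
    intro P c hc0 hc1 hP
    refine BaseFn.ord_ofHaupt2_sub_eq_one A π M m hM h2 c hc0 ?_ P hP
    intro h
    apply hc1
    rw [h]
    norm_num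
  · obtain ⟨m, hm⟩ := h3M
    have hm0 : m ≠ 0 := by
      rintro rfl
      exact NeZero.ne M (by rw [hm, mul_zero])
    have : NeZero m := ⟨hm0⟩
    have hM : M = m * 3 := by rw [hm, mul_comm]
    have h3 : (3 : k) ≠ 0 := by
      have := natCast_ne_zero_of_not_dvd Nat.prime_two hℓk 3 (by decide)
      exact_mod_cast this
    refine ⟨BaseFn.ofHaupt3 A π M m hM h3, -27, by decide, ?_⟩
    intro P c hc0 hc1 hP
    refine BaseFn.ord_ofHaupt3_sub_eq_one A π M m hM h3 c hc0 ?_ P hP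
    intro h
    apply hc1
    rw [h]
    norm_num

set_option synthInstance.maxHeartbeats 400000 in
set_option maxHeartbeats 1000000 in
/-- **R2 at every good pair, for a general residue map** `π : A →+* k` (`k` algebraically
closed, `π` surjective and zero on the non-units, `ℓ = 0` in `k`). -/
theorem reductionInputsAlong_good [IsAlgClosed k] (M : ℕ) [NeZero M] (ℓ : ℕ) (hℓ : ℓ.Prime)
    (hℓM : ¬ ℓ ∣ M) (hgood : 5 ≤ ℓ ∨ (ℓ = 3 ∧ 2 ∣ M) ∨ (ℓ = 2 ∧ 3 ∣ M))
    (A : ValuationSubring Qb) (π : A →+* k) (hπ : ∀ a : A, ¬ IsUnit a → π a = 0)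
    (hsurj : Function.Surjective π) (hℓk : (ℓ : k) = 0) :
    ReductionInputsAlong A π M := by
  classical
  obtain ⟨B, z, hz, hB⟩ := exists_data_of_good M ℓ hℓ hgood A π hℓk
  have hNk : (M : k) ≠ 0 := natCast_ne_zero_of_not_dvd hℓ hℓk M hℓM
  have hzk : (z : k) ≠ 0 := intCast_ne_zero_of_not_dvd hℓ hℓk z hz
  have hzA : ((z : ℤ) : Qb) ∈ A := by
    have : ((z : ℤ) : Qb) = (((z : ℤ) : A) : Qb) := by push_cast; rfl
    rw [this]
    exact SetLike.coe_mem _
  have hres0 : ∀ b : A, (b : Qb) = 0 → π b = 0 := by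
    intro b hb
    have : b = 0 := Subtype.ext hb
    rw [this, map_zero]
  have hresz : ∀ b : A, (b : Qb) = (z : Qb) → π b = (z : k) := by
    intro b hb
    have : b = ((z : ℤ) : A) := Subtype.ext (by rw [hb]; push_cast; rfl)
    rw [this, map_intCast]
  have hBvA : ∀ b ∈ ({0, (z : Qb)} : Finset Qb), b ∈ A := by
    intro b hb
    rw [Finset.mem_insert, Finset.mem_singleton] at hb
    rcases hb with rfl | rfl
    · exact A.zero_mem
    · exact hzA
  have hBvinj : ∀ b b' : A, (b : Qb) ∈ ({0, (z : Qb)} : Finset Qb) →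
      (b' : Qb) ∈ ({0, (z : Qb)} : Finset Qb) → π b = π b' → b = b' := by
    intro b b' hb hb' hbb
    rw [Finset.mem_insert, Finset.mem_singleton] at hb hb'
    rcases hb with hb | hb <;> rcases hb' with hb' | hb'
    · exact Subtype.ext (hb.trans hb'.symm)
    · exfalso
      rw [hres0 b hb, hresz b' hb'] at hbb
      exact hzk hbb.symm
    · exfalso
      rw [hres0 b' hb', hresz b hb] at hbb
      exact hzk hbb
    · exact Subtype.ext (hb.trans hb'.symm)
  have hB' : ∀ (P : Place Qb ↥(laurentBaseChange Qb (modularFunctionFieldFull M)))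
      (c : Qb), c ∉ ({0, (z : Qb)} : Finset Qb) →
      0 < P.ord (B.x - algebraMap Qb ↥(laurentBaseChange Qb (modularFunctionFieldFull M)) c) →
      P.ord (B.x - algebraMap Qb ↥(laurentBaseChange Qb (modularFunctionFieldFull M)) c) = 1 := by
    intro P c hc hP
    rw [Finset.mem_insert, Finset.mem_singleton, not_or] at hc
    exact hB P c hc.1 hc.2 hP
  have hsep := Disc.isSeparable_xt B hπ hNk
  exact InstPlace.reductionInputsAlong B hπ hsurj hNk
    (Disc.lift_x B hπ hsurj hNk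
      (DiscPlace.branch_of_finset A π hsurj B.x {0, (z : Qb)} hBvinj hB'))
    (Disc.lift_inv B hπ hsurj hNk
      (DiscPlace.branch_inv_of_finset A π hsurj B.x (B.x_ne_zero hπ hNk)
        {0, (z : Qb)} hBvA hBvinj hB'))

set_option synthInstance.maxHeartbeats 400000 in
set_option maxHeartbeats 1000000 in
/-- **The genus does not grow under reduction at a good pair** (general residue map). -/
theorem genusFF_le_good [IsAlgClosed k] (M : ℕ) [NeZero M] (ℓ : ℕ) (hℓ : ℓ.Prime)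
    (hℓM : ¬ ℓ ∣ M) (hgood : 5 ≤ ℓ ∨ (ℓ = 3 ∧ 2 ∣ M) ∨ (ℓ = 2 ∧ 3 ∣ M))
    (A : ValuationSubring Qb) (π : A →+* k) (hπ : ∀ a : A, ¬ IsUnit a → π a = 0)
    (hsurj : Function.Surjective π) (hℓk : (ℓ : k) = 0) :
    genusFF k ↥(modularFunctionFieldFullC k M) ≤ genusFF Qb ↥(modularFunctionFieldBar M) := by
  obtain ⟨r, hr, -⟩ := reductionInputsAlong_good M ℓ hℓ hℓM hgood A π hπ hsurj hℓk
  exact Fermat.Agent.Padic.genusFF_le_of_placeReduction hπ hsurj
    (natCast_ne_zero_of_not_dvd hℓ hℓk M hℓM) r hr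

set_option synthInstance.maxHeartbeats 400000 in
set_option maxHeartbeats 1000000 in
/-- **Twice the genus of the special components is at most the genus of `X₀(Mℓ)`**: the
hypothesis `hg` of `NodeCount.nonempty_nodes` at a good pair. -/
theorem genusFF_add_le_good [IsAlgClosed k] (M : ℕ) [NeZero M] (ℓ : ℕ) (hℓ : ℓ.Prime)
    (hℓM : ¬ ℓ ∣ M) (hgood : 5 ≤ ℓ ∨ (ℓ = 3 ∧ 2 ∣ M) ∨ (ℓ = 2 ∧ 3 ∣ M))
    (A : ValuationSubring Qb) (π : A →+* k) (hπ : ∀ a : A, ¬ IsUnit a → π a = 0)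
    (hsurj : Function.Surjective π) (hℓk : (ℓ : k) = 0) :
    genusFF k ↥(modularFunctionFieldFullC k M) + genusFF k ↥(modularFunctionFieldFullC k M)
      ≤ genusFF Qb ↥(laurentBaseChange Qb (modularFunctionFieldFull (M * ℓ))) := by
  have : NeZero (M * ℓ) := ⟨mul_ne_zero (NeZero.ne M) hℓ.ne_zero⟩
  have h1 := genusFF_le_good M ℓ hℓ hℓM hgood A π hπ hsurj hℓk
  have hN : ((genusFF Qb ↥(modularFunctionFieldBar (M * ℓ)) : ℕ) : ℚ) = genusFormula (ℓ * M) := by
    rw [Res.genusFF_modular (M * ℓ), Nat.mul_comm]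
  have hM : ((genusFF Qb ↥(modularFunctionFieldBar M) : ℕ) : ℚ) = genusFormula M :=
    Res.genusFF_modular M
  have h2 := GenusIneq.two_mul_genus_le hℓ (NeZero.ne M) hℓM hN hM
  have h3 : genusFF Qb ↥(laurentBaseChange Qb (modularFunctionFieldFull (M * ℓ)))
      = genusFF Qb ↥(modularFunctionFieldBar (M * ℓ)) := rfl
  rw [h3]
  omega

set_option synthInstance.maxHeartbeats 400000 in
set_option maxHeartbeats 1000000 in
/-- **(S3), modular form: the special fibre has a node.**  `hcard` is the literal output of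
`NodeCount.card_nodes` for `F = ℚ̄ · F_{Mℓ}` and `F₁ = F₂ = κ_M`. -/
theorem nonempty_nodes_modular [IsAlgClosed k] (M : ℕ) [NeZero M] (ℓ : ℕ) (hℓ : ℓ.Prime)
    (hℓM : ¬ ℓ ∣ M) (hgood : 5 ≤ ℓ ∨ (ℓ = 3 ∧ 2 ∣ M) ∨ (ℓ = 2 ∧ 3 ∣ M))
    (A : ValuationSubring Qb) (π : A →+* k) (hπ : ∀ a : A, ¬ IsUnit a → π a = 0)
    (hsurj : Function.Surjective π) (hℓk : (ℓ : k) = 0) {ι : Type*} [Fintype ι]
    (hcard : (Fintype.card ι : ℤ)
      = genusFF Qb ↥(laurentBaseChange Qb (modularFunctionFieldFull (M * ℓ))) + 1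
        - genusFF k ↥(modularFunctionFieldFullC k M)
        - genusFF k ↥(modularFunctionFieldFullC k M)) :
    Nonempty ι :=
  NodeCount.nonempty_nodes hcard (genusFF_add_le_good M ℓ hℓ hℓM hgood A π hπ hsurj hℓk)

end

end Fermat.Agent.BAD.NodeCountInst
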