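import Mathlib
import Fermat.Agent.BAD.SpecialFibreInst
import Fermat.Agent.BAD.ChartBase

/-!
# BAD (S1): the chart theorems for an abstract level-`M` chart datum

`SpecialFibreCharts` / `SpecialFibreInst` prove (S1) on the two charts of the coordinate
`x = α y · β y` of level `M ℓ` from hypotheses on the level-`M` function `y`:
`𝔽_ℓ`-rationality of the reduction, mutual integrality of `Y1 = α y`, `Y2 = β y`, and the good
reduction of the two charts of `y` (`T3`, `T3'`).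

Here all of these are read off the abstract datum `hX : IsChartBase h X` (`BAD/ChartBase`), so
that the residue characteristics `2`, `3` (where `X` is a function of a Hauptmodul and no modular
equation is available) are covered by the same statement:

* `frobAut_smul_redX` : `hX.rat` in the form `σ • X̄ = X̄`;
* `transcendental_alphaX`, `transcendental_betaX`, `isFF1_alphaX`, `isFF1_betaX`;
* `isIntegral_alphaX`, `isIntegral_betaX` : mutual integrality of `Y1`, `Y2` from `hX.pole_iff`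
  (RED-HOLO);
* `inv_xN_mem_OPair`, `redPair_xN_X`, `redPair_inv_xN_X`, `isFF1_xN_X`, `isFF1_redX_pow` :
  the coordinate `x = α X · β X` is a unit of `OPair` with reduction `(X̄^(ℓ+1), X̄^(ℓ+1))`, and
  both `x`, `X̄^(ℓ+1)` are `IsFF1` coordinates;
* `exists_nodes_fin_X`, `exists_nodes_inf_X` : (S1) on the two charts; on the chart `x ≠ 0` the
  clause "no node lies on a cusp" is unconditional (`hX.ord_beta_ge`).
-/

set_option autoImplicit false

noncomputable section

namespace Fermat.Agent.BAD.SpecialFibre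

open HahnSeries ModularCurve AlgebraicCurve WithZero
open Fermat.Agent.Lib.Red Fermat.Agent.Lib.FF Fermat.Agent.S28
open Fermat.Agent.ESJ.Cong.FrobAut Fermat.Agent.BAD.TwoVal Fermat.Agent.BAD.KroneckerNodal
open Fermat.Agent.BAD.NodalPlaces

section X

variable {L : Type*} [Field L] [Algebra ℚ L] {A : ValuationSubring L} {k : Type} [Field k]
  {π : A →+* k} {M ℓ : ℕ} [NeZero M] [NeZero ℓ]
  {W : laurentBaseChange L (modularFunctionFieldFull (M * ℓ)) ≃ₐ[L]
    laurentBaseChange L (modularFunctionFieldFull (M * ℓ))}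
  [Fact ℓ.Prime] [CharP k ℓ] [IsAlgClosed k]

/-- `hX.rat` in `frobAut` form: the reduction of `X` is fixed by the coefficientwise Frobenius. -/
theorem frobAut_smul_redX {h : BadSetup A π M ℓ}
    {X : ↥(laurentBaseChange L (modularFunctionFieldFull M))} (hX : IsChartBase h X) :
    frobAut k ℓ M • redF A π M h.hπ h.hMk ⟨X, hX.mem⟩ = redF A π M h.hπ h.hMk ⟨X, hX.mem⟩ :=
  (frobAut_smul_eq_iff _).mpr (Subtype.ext hX.rat)

omit [Fact ℓ.Prime] [CharP k ℓ] [IsAlgClosed k] in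
/-- `Y1 = α X` is transcendental over `L`. -/
theorem transcendental_alphaX {h : BadSetup A π M ℓ}
    {X : ↥(laurentBaseChange L (modularFunctionFieldFull M))} (hX : IsChartBase h X) :
    Transcendental L (heckeAlphaBar L M ℓ X) := fun halg =>
  hX.ff.transcendental
    ((isAlgebraic_algHom_iff (heckeAlphaBar L M ℓ) (heckeAlphaBar L M ℓ).injective).mp halg)

omit [Fact ℓ.Prime] [CharP k ℓ] [IsAlgClosed k] in
/-- `Y2 = β X` is transcendental over `L`. -/
theorem transcendental_betaX {h : BadSetup A π M ℓ}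
    {X : ↥(laurentBaseChange L (modularFunctionFieldFull M))} (hX : IsChartBase h X) :
    Transcendental L (heckeBetaBar L M ℓ X) := fun halg =>
  hX.ff.transcendental
    ((isAlgebraic_algHom_iff (heckeBetaBar L M ℓ) (heckeBetaBar L M ℓ).injective).mp halg)

omit [Fact ℓ.Prime] [CharP k ℓ] [IsAlgClosed k] in
/-- `IsFF1` for the level-`M ℓ` function field with the coordinate `Y1 = α X`. -/
theorem isFF1_alphaX [IsAlgClosed L] {h : BadSetup A π M ℓ}
    {X : ↥(laurentBaseChange L (modularFunctionFieldFull M))} (hX : IsChartBase h X) :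
    IsFF1 L ↥(laurentBaseChange L (modularFunctionFieldFull (M * ℓ))) (heckeAlphaBar L M ℓ X) :=
  (isFF1_xL L (M * ℓ)).of_transcendental (transcendental_alphaX hX)

omit [Fact ℓ.Prime] [CharP k ℓ] [IsAlgClosed k] in
/-- `IsFF1` for the level-`M ℓ` function field with the coordinate `Y2 = β X`. -/
theorem isFF1_betaX [IsAlgClosed L] {h : BadSetup A π M ℓ}
    {X : ↥(laurentBaseChange L (modularFunctionFieldFull M))} (hX : IsChartBase h X) :
    IsFF1 L ↥(laurentBaseChange L (modularFunctionFieldFull (M * ℓ))) (heckeBetaBar L M ℓ X) :=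
  (isFF1_xL L (M * ℓ)).of_transcendental (transcendental_betaX hX)

omit [Fact ℓ.Prime] [CharP k ℓ] [IsAlgClosed k] in
/-- `Y1 = α X` is integral over `L[Y2]` (same poles). -/
theorem isIntegral_alphaX [IsAlgClosed L] {h : BadSetup A π M ℓ}
    {X : ↥(laurentBaseChange L (modularFunctionFieldFull M))} (hX : IsChartBase h X) :
    IsIntegral (Algebra.adjoin L {heckeBetaBar L M ℓ X}) (heckeAlphaBar L M ℓ X) := by
  refine ((isFF1_betaX hX).isIntegral_adjoin_iff _).mpr fun P hP => ?_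
  by_contra hlt
  have h1 := (hX.pole_iff P).mp (not_le.mp hlt)
  omega

omit [Fact ℓ.Prime] [CharP k ℓ] [IsAlgClosed k] in
/-- `Y2 = β X` is integral over `L[Y1]` (same poles). -/
theorem isIntegral_betaX [IsAlgClosed L] {h : BadSetup A π M ℓ}
    {X : ↥(laurentBaseChange L (modularFunctionFieldFull M))} (hX : IsChartBase h X) :
    IsIntegral (Algebra.adjoin L {heckeAlphaBar L M ℓ X}) (heckeBetaBar L M ℓ X) := by
  refine ((isFF1_alphaX hX).isIntegral_adjoin_iff _).mpr fun P hP => ?_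
  by_contra hlt
  have h1 := (hX.pole_iff P).mpr (not_le.mp hlt)
  omega

omit [Fact ℓ.Prime] [CharP k ℓ] [IsAlgClosed k] in
/-- The reduction of `X` is nonzero. -/
theorem redX_ne_zero {h : BadSetup A π M ℓ}
    {X : ↥(laurentBaseChange L (modularFunctionFieldFull M))} (hX : IsChartBase h X) :
    redF A π M h.hπ h.hMk ⟨X, hX.mem⟩ ≠ 0 := fun h0 =>
  hX.ffRed.transcendental (h0 ▸ isAlgebraic_zero)

omit [Fact ℓ.Prime] in
/-- `xN X⁻¹ = (xN X)⁻¹`. -/
theorem xN_inv (X : ↥(laurentBaseChange L (modularFunctionFieldFull M))) :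
    xN L M ℓ X⁻¹ = (xN L M ℓ X)⁻¹ := by
  unfold xN
  rw [map_inv₀, map_inv₀, mul_inv]

/-- `x = α X · β X` lies in `OPair`. -/
theorem xN_mem_OPair_X (h : BadSetup A π M ℓ) (hW : IsAL M ℓ W)
    {X : ↥(laurentBaseChange L (modularFunctionFieldFull M))} (hX : IsChartBase h X) :
    xN L M ℓ X ∈ OPair h W :=
  xN_mem_OPair h hW hX.mem

/-- `x⁻¹` lies in `OPair`: `x` is a unit of the semilocal ring. -/
theorem inv_xN_mem_OPair (h : BadSetup A π M ℓ) (hW : IsAL M ℓ W)
    {X : ↥(laurentBaseChange L (modularFunctionFieldFull M))} (hX : IsChartBase h X) :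
    (xN L M ℓ X)⁻¹ ∈ OPair h W := by
  rw [← xN_inv]
  exact xN_mem_OPair h hW hX.inv_mem

/-- `redPair x = (X̄^(ℓ+1), X̄^(ℓ+1))`. -/
theorem redPair_xN_X (h : BadSetup A π M ℓ) (hW : IsAL M ℓ W)
    {X : ↥(laurentBaseChange L (modularFunctionFieldFull M))} (hX : IsChartBase h X)
    (hm : xN L M ℓ X ∈ OPair h W) :
    redPair h W ⟨xN L M ℓ X, hm⟩ =
      (redF A π M h.hπ h.hMk ⟨X, hX.mem⟩ ^ (ℓ + 1),
        redF A π M h.hπ h.hMk ⟨X, hX.mem⟩ ^ (ℓ + 1)) :=
  redPair_xN h hW hX.mem (frobAut_smul_redX hX) hm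

/-- `redPair x⁻¹ = ((X̄^(ℓ+1))⁻¹, (X̄^(ℓ+1))⁻¹)`. -/
theorem redPair_inv_xN_X (h : BadSetup A π M ℓ) (hW : IsAL M ℓ W)
    {X : ↥(laurentBaseChange L (modularFunctionFieldFull M))} (hX : IsChartBase h X)
    (hm : (xN L M ℓ X)⁻¹ ∈ OPair h W) :
    redPair h W ⟨(xN L M ℓ X)⁻¹, hm⟩ =
      ((redF A π M h.hπ h.hMk ⟨X, hX.mem⟩ ^ (ℓ + 1))⁻¹,
        (redF A π M h.hπ h.hMk ⟨X, hX.mem⟩ ^ (ℓ + 1))⁻¹) := by
  have hx : xN L M ℓ X ∈ OPair h W := xN_mem_OPair h hW hX.mem
  have hx0 : xN L M ℓ X ≠ 0 := by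
    unfold xN
    exact mul_ne_zero (fun h0 => transcendental_alphaX hX (h0 ▸ isAlgebraic_zero))
      (fun h0 => transcendental_betaX hX (h0 ▸ isAlgebraic_zero))
  have e : (⟨(xN L M ℓ X)⁻¹, hm⟩ : OPair h W) * ⟨xN L M ℓ X, hx⟩ = 1 :=
    Subtype.ext (inv_mul_cancel₀ hx0)
  have r := congrArg (redPair h W) e
  rw [map_mul, map_one, redPair_xN_X h hW hX hx] at r
  have hb : redF A π M h.hπ h.hMk ⟨X, hX.mem⟩ ^ (ℓ + 1) ≠ 0 := pow_ne_zero _ (redX_ne_zero hX)
  have r1 := congrArg Prod.fst r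
  have r2 := congrArg Prod.snd r
  simp only [Prod.fst_mul, Prod.snd_mul, Prod.fst_one, Prod.snd_one] at r1 r2
  exact Prod.ext (eq_inv_of_mul_eq_one_left r1) (eq_inv_of_mul_eq_one_left r2)

/-- `IsFF1` for the bad level with the coordinate `x = α X · β X`. -/
theorem isFF1_xN_X [IsAlgClosed L] (h : BadSetup A π M ℓ) (hW : IsAL M ℓ W)
    {X : ↥(laurentBaseChange L (modularFunctionFieldFull M))} (hX : IsChartBase h X) :
    IsFF1 L ↥(laurentBaseChange L (modularFunctionFieldFull (M * ℓ))) (xN L M ℓ X) :=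
  isFF1_xN h hW X hX.mem hX.ffRed (frobAut_smul_redX hX)

omit [Fact ℓ.Prime] [CharP k ℓ] in
/-- `IsFF1` on the special fibre with the coordinate `X̄^(ℓ+1)` (the reduction of `x` on both
components). -/
theorem isFF1_redX_pow {h : BadSetup A π M ℓ}
    {X : ↥(laurentBaseChange L (modularFunctionFieldFull M))} (hX : IsChartBase h X) :
    IsFF1 k ↥(modularFunctionFieldFullC k M) (redF A π M h.hπ h.hMk ⟨X, hX.mem⟩ ^ (ℓ + 1)) :=
  hX.ffRed.of_transcendental (hX.ffRed.transcendental.pow (Nat.succ_pos ℓ))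

/-- **(S1), chart `x ≠ ∞`, for an abstract chart datum `X`.**  `x = α X · β X`,
`x̄ = X̄^(ℓ+1)`: the reductions in `Rc × Rc` (`Rc` the functions regular where `x̄` is) of the
elements of `OPair` integral over `L[x]` are exactly the pairs `(a, b)` with `s a = s (Φ b)` for
`s` in a finite set of `𝔽_{ℓ²}`-points of `Rc`. -/
theorem exists_nodes_fin_X [IsAlgClosed L] (h : BadSetup A π M ℓ) (hW : IsAL M ℓ W)
    (hsurj : Function.Surjective π)
    {X : ↥(laurentBaseChange L (modularFunctionFieldFull M))} (hX : IsChartBase h X) :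
    ∃ T : Set (↥(finRing k (redF A π M h.hπ h.hMk ⟨X, hX.mem⟩ ^ (ℓ + 1))) →ₐ[k] k),
      T ⊆ points (ℓ ^ 2)
        (fixedSet k ℓ M (finRing k (redF A π M h.hπ h.hMk ⟨X, hX.mem⟩ ^ (ℓ + 1)))) ∧
      T.Finite ∧
      ∀ a b : ↥(finRing k (redF A π M h.hπ h.hMk ⟨X, hX.mem⟩ ^ (ℓ + 1))),
        (∃ (f : ↥(laurentBaseChange L (modularFunctionFieldFull (M * ℓ))))
          (hf : f ∈ chartRing h W (xN L M ℓ X)),
          redPair h W ⟨f, chartRing_le h _ hf⟩ =
            ((a : modularFunctionFieldFullC k M), (b : modularFunctionFieldFullC k M))) ↔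
        ∀ s ∈ T, s a = s (phiFin (pow_fixed (frobAut_smul_redX hX) (ℓ + 1)) b) :=
  exists_nodes_chart_fin' h hW hsurj X hX.mem hX.ff _ rfl hX.ffRed (frobAut_smul_redX hX)
    (isIntegral_alphaX hX) (isIntegral_betaX hX) hX.lift

/-- **(S1), chart `x ≠ 0`, for an abstract chart datum `X`**; no node lies on a cusp. -/
theorem exists_nodes_inf_X [IsAlgClosed L] (h : BadSetup A π M ℓ) (hW : IsAL M ℓ W)
    (hsurj : Function.Surjective π)
    {X : ↥(laurentBaseChange L (modularFunctionFieldFull M))} (hX : IsChartBase h X) :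
    ∃ T : Set (↥(finRing k (redF A π M h.hπ h.hMk ⟨X, hX.mem⟩ ^ (ℓ + 1))⁻¹) →ₐ[k] k),
      T ⊆ points (ℓ ^ 2)
        (fixedSet k ℓ M (finRing k (redF A π M h.hπ h.hMk ⟨X, hX.mem⟩ ^ (ℓ + 1))⁻¹)) ∧
      T.Finite ∧
      (∀ a b : ↥(finRing k (redF A π M h.hπ h.hMk ⟨X, hX.mem⟩ ^ (ℓ + 1))⁻¹),
        (∃ (f : ↥(laurentBaseChange L (modularFunctionFieldFull (M * ℓ))))
          (hf : f ∈ chartRing h W (xN L M ℓ X)⁻¹),
          redPair h W ⟨f, chartRing_le h _ hf⟩ =
            ((a : modularFunctionFieldFullC k M), (b : modularFunctionFieldFullC k M))) ↔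
        ∀ s ∈ T, s a = s (phiFin (inv_fixed (pow_fixed (frobAut_smul_redX hX) (ℓ + 1))) b)) ∧
      ∀ s ∈ T, s ⟨(redF A π M h.hπ h.hMk ⟨X, hX.mem⟩ ^ (ℓ + 1))⁻¹, self_mem_finRing⟩ ≠ 0 := by
  obtain ⟨T, hT, hTfin, hTB, hcusp⟩ :=
    exists_nodes_chart_inf' h hW hsurj X hX.mem hX.ff _ rfl hX.ffRed (frobAut_smul_redX hX)
      (isIntegral_alphaX hX) (isIntegral_betaX hX) hX.lift'
  exact ⟨T, hT, hTfin, hTB, hcusp hX.ord_beta_ge⟩

end X

end Fermat.Agent.BAD.SpecialFibre
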