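/-
BAD (helper54) — MODULAR WIRING of the nodal-fibre datum (`BadU.NodalFibreBad`) for an abstract
level-`M` chart base `X` (`hX : IsChartBase h X`, directive #4).

`x := α X · β X` (`SpecialFibre.xN`), `X̄ := redF X`, `x̄ := X̄^(ℓ+1)`, `z := x^ℓ - x - 1`.

* **`nodalFibre_of_chartBase_frob`** : the body of `BadU.NodalFibreBad` for `(A, k, π, M, ℓ, h, W)`
  (with `E1`, `E2` invariant under ALL of `Gal`), together with the `𝔽_{ℓ²}`-rationality of the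
  nodes (for S35), from `IsChartBase h X` and the genus inequality `hg : 2 g(κ) ≤ g(F_{Mℓ})` (S3).
* **`nodalFibre_of_chartBase`** : the same without the rationality clause (literally the body of
  `BadU.NodalFibreBad`, Galois clause for every `σ`).
* **`nodalFibre_good_frob`**, **`nodalFibre_good`** : over `ℚ̄`, at a good pair
  (`5 ≤ ℓ ∨ (ℓ = 3 ∧ 2 ∣ M) ∨ (ℓ = 2 ∧ 3 ∣ M)`), no hypothesis besides `IsChartBase h X`.
  (`BAD/NodalFibreAtInst.nodalFibreAt_good` restates the latter as `BadU.NodalFibreAt h W`.)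

Everything else — S1 on both charts (`SpecialFibreX`), characters → places (`ChartNodes`), the
chart lattices (`LatChart`), LAT (`LatInst`), integrality of reductions
(`ChartLat.red_mem_finRing`), saturation (`ChartLat.hsat_finRing`), divisor bookkeeping
(`ChartDiv`), S2 (`SatAsm`), the node count (`NodeCount`, `NodeCountInst`) and the Galois
invariance of `E1`, `E2` — is discharged here / in `NodalFibreAsm`.
-/
import Mathlib
import Fermat.Agent.BAD.NodalFibreAsm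
import Fermat.Agent.BAD.ChartNodes
import Fermat.Agent.BAD.SpecialFibreX
import Fermat.Agent.BAD.TwoVal.GaloisPair
import Fermat.Agent.BAD.TwoVal.ChartElts
import Fermat.Agent.BAD.LatChart
import Fermat.Agent.BAD.LatInst
import Fermat.Agent.BAD.NodeCountInst

set_option autoImplicit false
set_option linter.style.haveILetI false
set_option linter.unusedSectionVars false

noncomputable section

namespace Fermat.Agent.BAD.NodalFibreInst

open HahnSeries ModularCurve AlgebraicCurve Polynomial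
open Fermat.Agent.Lib.Red Fermat.Agent.Lib.FF Fermat.Agent.Lib.Red.CoordLat
open Fermat.Agent.ESJ.Cong.FrobAut Fermat.Agent.BAD.TwoVal Fermat.Agent.BAD.KroneckerNodal
open Fermat.Agent.BAD.NodalPlaces Fermat.Agent.BAD.NodalRiemann Fermat.Agent.BAD.NodalCech
open Fermat.Agent.BAD.SpecialFibre Fermat.Agent.BAD.ChartDiv

variable {L : Type*} [Field L] [Algebra ℚ L] {A : ValuationSubring L} {k : Type} [Field k]
  {π : A →+* k} {M ℓ : ℕ} [NeZero M] [NeZero ℓ]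
  {W : laurentBaseChange L (modularFunctionFieldFull (M * ℓ)) ≃ₐ[L]
    laurentBaseChange L (modularFunctionFieldFull (M * ℓ))}

section Main

variable [IsAlgClosed L] [IsAlgClosed k]

set_option maxHeartbeats 1000000 in
/-- **The nodal-fibre datum for a chart base, with the rationality of the nodes**: the body of
`BadU.NodalFibreBad` from `IsChartBase h X` and the genus inequality; in addition the nodes are finite for `x̄ = X̄^(ℓ+1)` and `𝔽_{ℓ²}`-rational, the two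
branches being exchanged by the `ℓ`-Frobenius. -/
theorem nodalFibre_of_chartBase_frob [Fact ℓ.Prime] [CharP k ℓ]
    (h : BadSetup A π M ℓ) (hW : IsAL M ℓ W)
    (hsurj : Function.Surjective π)
    (X : ↥(laurentBaseChange L (modularFunctionFieldFull M))) (hX : IsChartBase h X)
    (hg : genusFF k ↥(modularFunctionFieldFullC k M) + genusFF k ↥(modularFunctionFieldFullC k M)
      ≤ genusFF L ↥(laurentBaseChange L (modularFunctionFieldFull (M * ℓ)))) :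
    ∃ (ι : Type) (_ : Fintype ι) (_ : Nonempty ι)
      (e₁ e₂ : ι → Place k (modularFunctionFieldFullC k M))
      (P₁ Z₁ P₂ Z₂ : Divisor k (modularFunctionFieldFullC k M))
      (E1 E2 : Divisor L (laurentBaseChange L (modularFunctionFieldFull (M * ℓ)))),
      (Function.Injective e₁ ∧ Function.Injective e₂ ∧
      (∀ i, P₁ (e₁ i) = 0) ∧ (∀ i, Z₁ (e₁ i) = 0) ∧ (∀ i, P₂ (e₂ i) = 0) ∧ (∀ i, Z₂ (e₂ i) = 0) ∧
      (∀ v, P₁ v = 0 ∨ Z₁ v = 0) ∧ (∀ v, P₂ v = 0 ∨ Z₂ v = 0) ∧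
      0 < Divisor.degree P₁ ∧ 0 < Divisor.degree P₂ ∧
      (∀ v, 0 ≤ E1 v) ∧ (∀ v, 0 ≤ E2 v) ∧ (∀ v, E1 v = 0 ∨ E2 v = 0) ∧
      0 < Divisor.degree E1 ∧ 0 < Divisor.degree E2 ∧
      (∀ σ : L ≃ₐ[ℚ] L,
        arithmeticGalois (modularFunctionFieldFull (M * ℓ)) σ • E1 = E1 ∧
        arithmeticGalois (modularFunctionFieldFull (M * ℓ)) σ • E2 = E2) ∧
      ∃ N₀ : ℕ, ∀ n₁ n₂ : ℕ, N₀ ≤ n₁ + n₂ →
        ∀ t : ↥(modularFunctionFieldFullC k M) × ↥(modularFunctionFieldFullC k M),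
          (∃ y : OPair h W,
              (y : laurentBaseChange L (modularFunctionFieldFull (M * ℓ))) ∈
                riemannRochSpace (n₁ • E1 + n₂ • E2) ∧ redPair h W y = t) ↔
            t ∈ gluedSpace e₁ e₂ (fun _ => (1 : k))
              (n₁ • P₁ + n₂ • Z₁) (n₁ • P₂ + n₂ • Z₂)) ∧
      (∀ i, (e₁ i).adicValuation (redF A π M h.hπ h.hMk ⟨X, hX.mem⟩ ^ (ℓ + 1)) ≤ 1) ∧
      (∀ i, (e₂ i).adicValuation (redF A π M h.hπ h.hMk ⟨X, hX.mem⟩ ^ (ℓ + 1)) ≤ 1) ∧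
      ∀ i, ∀ f ∈ finRing k (redF A π M h.hπ h.hMk ⟨X, hX.mem⟩ ^ (ℓ + 1)),
        frobAut k ℓ M • f = f →
        ∃ c : k, c ^ (ℓ ^ 2) = c ∧ Cong (e₁ i) f c ∧ Cong (e₂ i) f (c ^ ℓ) := by
  classical
  have hℓ2 : 2 ≤ ℓ := h.hℓ.two_le
  -- the special fibre
  have hrat := frobAut_smul_redX hX
  have hκ := isFF1_redX_pow (ℓ := ℓ) hX
  have hxb0 : redF A π M h.hπ h.hMk ⟨X, hX.mem⟩ ^ (ℓ + 1) ≠ 0 :=
    pow_ne_zero _ (redX_ne_zero hX)
  have hratx := pow_fixed hrat (ℓ + 1)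
  -- the generic fibre
  have hFN := isFF1_xN_X h hW hX
  have hxO : xN L M ℓ X ∈ OPair h W := xN_mem_OPair_X h hW hX
  have hredx := redPair_xN_X h hW hX hxO
  have hxO' : (xN L M ℓ X)⁻¹ ∈ OPair h W := inv_xN_mem_OPair h hW hX
  have hredxi := redPair_inv_xN_X h hW hX hxO'
  have hzO : xN L M ℓ X ^ ℓ - xN L M ℓ X - 1 ∈ OPair h W :=
    (OPair h W).sub_mem ((OPair h W).sub_mem ((OPair h W).pow_mem hxO ℓ) hxO) (OPair h W).one_mem
  have hc0 : (redF A π M h.hπ h.hMk ⟨X, hX.mem⟩ ^ (ℓ + 1)) ^ ℓ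
      - redF A π M h.hπ h.hMk ⟨X, hX.mem⟩ ^ (ℓ + 1) - 1 ≠ 0 := by
    rw [← aeval_zPoly (K := k) ℓ]
    exact ChartDiv.aeval_ne_zero hκ (zPoly_monic ℓ hℓ2).ne_zero
  have hzO' : (xN L M ℓ X ^ ℓ - xN L M ℓ X - 1)⁻¹ ∈ OPair h W := by
    have hz : HasRed h W (xN L M ℓ X ^ ℓ - xN L M ℓ X - 1) _ _ :=
      ⟨hzO, NodalFibreAsm.red_zfun (redPair h W) hxO hredx ℓ hzO⟩
    exact (hz.inv hc0 hc0).mem
  -- the two-valuation layer
  have hOA : ∀ a : L, algebraMap L ↥(laurentBaseChange L (modularFunctionFieldFull (M * ℓ))) a ∈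
      OPair h W ↔ a ∈ A := fun a => OPair_hOA h a
  have hconst : ∀ a : A, redPair h W ⟨algebraMap L
        ↥(laurentBaseChange L (modularFunctionFieldFull (M * ℓ))) (a : L), (hOA _).2 a.2⟩ =
      algebraMap k (↥(modularFunctionFieldFullC k M) × ↥(modularFunctionFieldFullC k M)) (π a) :=
    fun a => (redPair_algebraMap h a _).trans rfl
  obtain ⟨r, β, hβO, hβR, hgen⟩ : ∃ (r : ℕ)
      (β : Fin r → ↥(laurentBaseChange L (modularFunctionFieldFull (M * ℓ)))),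
      (∀ i, β i ∈ OPair h W) ∧ (∀ i, β i ∈ finRing L (xN L M ℓ X)) ∧
      ∀ v ∈ OPair h W, v ∈ finRing L (xN L M ℓ X) →
        ∃ e : Fin r → L[X], (∀ i j, (e i).coeff j ∈ A) ∧
          v = ∑ i, aeval (xN L M ℓ X) (e i) * β i :=
    LatChart.exists_chart_gen_finRing h hW X hX
  obtain ⟨r', β', hβO', hβR', hgen'⟩ : ∃ (r : ℕ)
      (β : Fin r → ↥(laurentBaseChange L (modularFunctionFieldFull (M * ℓ)))),
      (∀ i, β i ∈ OPair h W) ∧ (∀ i, β i ∈ finRing L (xN L M ℓ X)⁻¹) ∧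
      ∀ v ∈ OPair h W, v ∈ finRing L (xN L M ℓ X)⁻¹ →
        ∃ e : Fin r → L[X], (∀ i j, (e i).coeff j ∈ A) ∧
          v = ∑ i, aeval (xN L M ℓ X)⁻¹ (e i) * β i :=
    LatChart.exists_chart_gen_inv_finRing h hW X hX
  have hlat : ∀ B : Divisor L ↥(laurentBaseChange L (modularFunctionFieldFull (M * ℓ))),
      HasOrtho A (OPair h W) (riemannRochSpace B) := by
    intro B
    haveI : FiniteDimensional L (riemannRochSpace B) := hFN.finite_L B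
    exact LatInst.lat_bad h hW hsurj B
  -- S1, chart 1
  obtain ⟨T, hT, hTfin, hTB⟩ := exists_nodes_fin_X h hW hsurj hX
  have hint : ∀ (f : ↥(laurentBaseChange L (modularFunctionFieldFull (M * ℓ))))
      (hf : f ∈ chartRing h W (xN L M ℓ X)),
      (redPair h W ⟨f, chartRing_le h _ hf⟩).1 ∈
          finRing k (redF A π M h.hπ h.hMk ⟨X, hX.mem⟩ ^ (ℓ + 1)) ∧
        (redPair h W ⟨f, chartRing_le h _ hf⟩).2 ∈
          finRing k (redF A π M h.hπ h.hMk ⟨X, hX.mem⟩ ^ (ℓ + 1)) := by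
    intro f hf
    exact ChartLat.red_mem_finRing hOA (redPair h W) π hconst (xN L M ℓ X) hxO hredx β hβO hβR
      hgen ⟨f, hf.1⟩ ((mem_finRing_iff_isIntegral hFN f).mpr hf.2)
  obtain ⟨ι, hι, e₁, e₂, he₁, he₂, hfin₁, hfin₂, -, hratn, hmem⟩ :=
    ChartNodes.exists_chart_nodes_of_points h hκ hratx (chartRing h W (xN L M ℓ X))
      (chartRing_le h _) T hT hTfin hTB hint
  haveI := hι
  have hB₁ : ∀ t : ↥(modularFunctionFieldFullC k M) × ↥(modularFunctionFieldFullC k M),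
      (∃ f : OPair h W, (f : ↥(laurentBaseChange L (modularFunctionFieldFull (M * ℓ)))) ∈
          finRing L (xN L M ℓ X) ∧ redPair h W f = t) ↔
        t ∈ nodalFin (redF A π M h.hπ h.hMk ⟨X, hX.mem⟩ ^ (ℓ + 1))
          (redF A π M h.hπ h.hMk ⟨X, hX.mem⟩ ^ (ℓ + 1)) e₁ e₂ := by
    intro t
    rw [← hmem t]
    constructor
    · rintro ⟨f, hf, rfl⟩
      exact ⟨f, ⟨f.2, (mem_finRing_iff_isIntegral hFN _).mp hf⟩, rfl⟩
    · rintro ⟨f, hf, rfl⟩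
      exact ⟨⟨f, hf.1⟩, (mem_finRing_iff_isIntegral hFN _).mpr hf.2, rfl⟩
  have hXfin : redF A π M h.hπ h.hMk ⟨X, hX.mem⟩ ∈
      finRing k (redF A π M h.hπ h.hMk ⟨X, hX.mem⟩ ^ (ℓ + 1)) := by
    rw [SpecialFibre.finRing_pow _ (Nat.succ_ne_zero ℓ)]
    exact self_mem_finRing
  have hval : ∀ i, ∃ a : k, a ^ ℓ = a ∧
      Cong (e₁ i) (redF A π M h.hπ h.hMk ⟨X, hX.mem⟩ ^ (ℓ + 1)) a := by
    intro i
    obtain ⟨c, hc, hc1, -⟩ := hratn i _ hXfin hrat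
    exact ⟨c ^ (ℓ + 1), pow_succ_pow_eq hc, hc1.pow (ℓ + 1)⟩
  -- S1, chart 2
  obtain ⟨T', hT', hTfin', hTB', hcusp⟩ := exists_nodes_inf_X h hW hsurj hX
  have hκ' := hκ.inv
  have hFN' := hFN.inv
  have hint' : ∀ (f : ↥(laurentBaseChange L (modularFunctionFieldFull (M * ℓ))))
      (hf : f ∈ chartRing h W (xN L M ℓ X)⁻¹),
      (redPair h W ⟨f, chartRing_le h _ hf⟩).1 ∈
          finRing k (redF A π M h.hπ h.hMk ⟨X, hX.mem⟩ ^ (ℓ + 1))⁻¹ ∧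
        (redPair h W ⟨f, chartRing_le h _ hf⟩).2 ∈
          finRing k (redF A π M h.hπ h.hMk ⟨X, hX.mem⟩ ^ (ℓ + 1))⁻¹ := by
    intro f hf
    exact ChartLat.red_mem_finRing hOA (redPair h W) π hconst (xN L M ℓ X)⁻¹ hxO' hredxi β' hβO'
      hβR' hgen' ⟨f, hf.1⟩ ((mem_finRing_iff_isIntegral hFN' f).mpr hf.2)
  obtain ⟨ι', hι', e₁', e₂', -, -, -, -, hch', -, hmem'⟩ :=
    ChartNodes.exists_chart_nodes_of_points h hκ' (inv_fixed hratx)
      (chartRing h W (xN L M ℓ X)⁻¹) (chartRing_le h _) T' hT' hTfin' hTB' hint'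
  have hov : ∀ i, (e₁' i).adicValuation (redF A π M h.hπ h.hMk ⟨X, hX.mem⟩ ^ (ℓ + 1)) = 1 := by
    intro i
    obtain ⟨s, hs, hs1, -⟩ := hch' i
    have h1 := (hs1 ⟨(redF A π M h.hπ h.hMk ⟨X, hX.mem⟩ ^ (ℓ + 1))⁻¹, self_mem_finRing⟩).val_eq_one
      (hcusp s hs)
    rw [map_inv₀, inv_eq_one] at h1
    exact h1
  have hB₂ : ∀ t : ↥(modularFunctionFieldFullC k M) × ↥(modularFunctionFieldFullC k M),
      (∃ f : OPair h W, (f : ↥(laurentBaseChange L (modularFunctionFieldFull (M * ℓ)))) ∈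
          finRing L (xN L M ℓ X)⁻¹ ∧ redPair h W f = t) ↔
        t ∈ nodalInf (redF A π M h.hπ h.hMk ⟨X, hX.mem⟩ ^ (ℓ + 1))
          (redF A π M h.hπ h.hMk ⟨X, hX.mem⟩ ^ (ℓ + 1)) e₁' e₂' := by
    intro t
    rw [← nodalFin_inv hxb0 hxb0, ← hmem' t]
    constructor
    · rintro ⟨f, hf, rfl⟩
      exact ⟨f, ⟨f.2, (mem_finRing_iff_isIntegral hFN' _).mp hf⟩, rfl⟩
    · rintro ⟨f, hf, rfl⟩
      exact ⟨⟨f, hf.1⟩, (mem_finRing_iff_isIntegral hFN' _).mpr hf.2, rfl⟩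
  -- the abstract assembly
  obtain ⟨hne, hP₁, hZ₁, hP₂, hZ₂, hd₁, hd₂, hdegP₁, hdegP₂, hE1, hE2, hdisj, hdegE1, hdegE2,
    hgalE, N₀, hS2⟩ :=
    NodalFibreAsm.nodalFibre_of_charts hOA (redPair h W) π hsurj h.pi_eq_zero_iff hconst
      (redPair_eq_zero_iff h) hFN hxO hxO' hκ hκ hredx ℓ hℓ2 hzO hzO' e₁ e₂ he₂ hfin₁ hval hB₁
      e₁' e₂' hov hB₂ β hβO hβR hgen (fun n => hlat _) hg
  refine ⟨ι, hι, hne, e₁, e₂, hκ.poleDiv, zeroDiv hκ _, hκ.poleDiv, zeroDiv hκ _, hFN.poleDiv,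
    zeroDiv hFN _, ⟨he₁, he₂, hP₁, hZ₁, hP₂, hZ₂, hd₁, hd₂, hdegP₁, hdegP₂, hE1, hE2, hdisj,
    hdegE1, hdegE2, ?_, N₀, hS2⟩, hfin₁, hfin₂, hratn⟩
  intro σ
  refine hgalE _ ?_
  rw [xN, smul_mul', galois_heckeAlphaBar, galois_heckeBetaBar, hX.gal σ]

/-- **The nodal-fibre datum for a chart base**: literally the body of `BadU.NodalFibreBad` (with
`E1`, `E2` invariant under every `σ`), from `IsChartBase h X` and the genus inequality. -/
theorem nodalFibre_of_chartBase (h : BadSetup A π M ℓ) (hW : IsAL M ℓ W)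
    (hsurj : Function.Surjective π)
    (X : ↥(laurentBaseChange L (modularFunctionFieldFull M))) (hX : IsChartBase h X)
    (hg : genusFF k ↥(modularFunctionFieldFullC k M) + genusFF k ↥(modularFunctionFieldFullC k M)
      ≤ genusFF L ↥(laurentBaseChange L (modularFunctionFieldFull (M * ℓ)))) :
    ∃ (ι : Type) (_ : Fintype ι) (_ : Nonempty ι)
      (e₁ e₂ : ι → Place k (modularFunctionFieldFullC k M))
      (P₁ Z₁ P₂ Z₂ : Divisor k (modularFunctionFieldFullC k M))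
      (E1 E2 : Divisor L (laurentBaseChange L (modularFunctionFieldFull (M * ℓ)))),
      Function.Injective e₁ ∧ Function.Injective e₂ ∧
      (∀ i, P₁ (e₁ i) = 0) ∧ (∀ i, Z₁ (e₁ i) = 0) ∧ (∀ i, P₂ (e₂ i) = 0) ∧ (∀ i, Z₂ (e₂ i) = 0) ∧
      (∀ v, P₁ v = 0 ∨ Z₁ v = 0) ∧ (∀ v, P₂ v = 0 ∨ Z₂ v = 0) ∧
      0 < Divisor.degree P₁ ∧ 0 < Divisor.degree P₂ ∧
      (∀ v, 0 ≤ E1 v) ∧ (∀ v, 0 ≤ E2 v) ∧ (∀ v, E1 v = 0 ∨ E2 v = 0) ∧
      0 < Divisor.degree E1 ∧ 0 < Divisor.degree E2 ∧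
      (∀ σ : L ≃ₐ[ℚ] L,
        arithmeticGalois (modularFunctionFieldFull (M * ℓ)) σ • E1 = E1 ∧
        arithmeticGalois (modularFunctionFieldFull (M * ℓ)) σ • E2 = E2) ∧
      ∃ N₀ : ℕ, ∀ n₁ n₂ : ℕ, N₀ ≤ n₁ + n₂ →
        ∀ t : ↥(modularFunctionFieldFullC k M) × ↥(modularFunctionFieldFullC k M),
          (∃ y : OPair h W,
              (y : laurentBaseChange L (modularFunctionFieldFull (M * ℓ))) ∈
                riemannRochSpace (n₁ • E1 + n₂ • E2) ∧ redPair h W y = t) ↔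
            t ∈ gluedSpace e₁ e₂ (fun _ => (1 : k))
              (n₁ • P₁ + n₂ • Z₁) (n₁ • P₂ + n₂ • Z₂) := by
  haveI : Fact ℓ.Prime := ⟨h.hℓ⟩
  haveI : CharP k ℓ := h.charP
  obtain ⟨ι, hι, hne, e₁, e₂, P₁, Z₁, P₂, Z₂, E1, E2, hbody, -⟩ :=
    nodalFibre_of_chartBase_frob h hW hsurj X hX hg
  exact ⟨ι, hι, hne, e₁, e₂, P₁, Z₁, P₂, Z₂, E1, E2, hbody⟩

end Main

section Good

local notation "Qb" => AlgebraicClosure ℚ

variable {k : Type} [Field k] [IsAlgClosed k] {A : ValuationSubring Qb} {π : A →+* k}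
  {M ℓ : ℕ} [NeZero M] [NeZero ℓ]
  {W : laurentBaseChange Qb (modularFunctionFieldFull (M * ℓ)) ≃ₐ[Qb]
    laurentBaseChange Qb (modularFunctionFieldFull (M * ℓ))}

/-- **The nodal-fibre datum at a good pair, with the rationality of the nodes** (`L = ℚ̄`): the
only hypothesis left is the chart base `X`. -/
theorem nodalFibre_good_frob [Fact ℓ.Prime] [CharP k ℓ]
    (h : BadSetup A π M ℓ) (hW : IsAL M ℓ W)
    (hsurj : Function.Surjective π)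
    (hgood : 5 ≤ ℓ ∨ (ℓ = 3 ∧ 2 ∣ M) ∨ (ℓ = 2 ∧ 3 ∣ M))
    (X : ↥(laurentBaseChange Qb (modularFunctionFieldFull M))) (hX : IsChartBase h X) :
    ∃ (ι : Type) (_ : Fintype ι) (_ : Nonempty ι)
      (e₁ e₂ : ι → Place k (modularFunctionFieldFullC k M))
      (P₁ Z₁ P₂ Z₂ : Divisor k (modularFunctionFieldFullC k M))
      (E1 E2 : Divisor Qb (laurentBaseChange Qb (modularFunctionFieldFull (M * ℓ)))),
      (Function.Injective e₁ ∧ Function.Injective e₂ ∧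
      (∀ i, P₁ (e₁ i) = 0) ∧ (∀ i, Z₁ (e₁ i) = 0) ∧ (∀ i, P₂ (e₂ i) = 0) ∧ (∀ i, Z₂ (e₂ i) = 0) ∧
      (∀ v, P₁ v = 0 ∨ Z₁ v = 0) ∧ (∀ v, P₂ v = 0 ∨ Z₂ v = 0) ∧
      0 < Divisor.degree P₁ ∧ 0 < Divisor.degree P₂ ∧
      (∀ v, 0 ≤ E1 v) ∧ (∀ v, 0 ≤ E2 v) ∧ (∀ v, E1 v = 0 ∨ E2 v = 0) ∧
      0 < Divisor.degree E1 ∧ 0 < Divisor.degree E2 ∧
      (∀ σ : Qb ≃ₐ[ℚ] Qb,
        arithmeticGalois (modularFunctionFieldFull (M * ℓ)) σ • E1 = E1 ∧
        arithmeticGalois (modularFunctionFieldFull (M * ℓ)) σ • E2 = E2) ∧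
      ∃ N₀ : ℕ, ∀ n₁ n₂ : ℕ, N₀ ≤ n₁ + n₂ →
        ∀ t : ↥(modularFunctionFieldFullC k M) × ↥(modularFunctionFieldFullC k M),
          (∃ y : OPair h W,
              (y : laurentBaseChange Qb (modularFunctionFieldFull (M * ℓ))) ∈
                riemannRochSpace (n₁ • E1 + n₂ • E2) ∧ redPair h W y = t) ↔
            t ∈ gluedSpace e₁ e₂ (fun _ => (1 : k))
              (n₁ • P₁ + n₂ • Z₁) (n₁ • P₂ + n₂ • Z₂)) ∧
      (∀ i, (e₁ i).adicValuation (redF A π M h.hπ h.hMk ⟨X, hX.mem⟩ ^ (ℓ + 1)) ≤ 1) ∧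
      (∀ i, (e₂ i).adicValuation (redF A π M h.hπ h.hMk ⟨X, hX.mem⟩ ^ (ℓ + 1)) ≤ 1) ∧
      ∀ i, ∀ f ∈ finRing k (redF A π M h.hπ h.hMk ⟨X, hX.mem⟩ ^ (ℓ + 1)),
        frobAut k ℓ M • f = f →
        ∃ c : k, c ^ (ℓ ^ 2) = c ∧ Cong (e₁ i) f c ∧ Cong (e₂ i) f (c ^ ℓ) :=
  nodalFibre_of_chartBase_frob h hW hsurj X hX
    (NodeCountInst.genusFF_add_le_good M ℓ h.hℓ h.not_dvd hgood A π h.hπ hsurj h.hℓk)

/-- **The nodal-fibre datum at a good pair** (`L = ℚ̄`): literally the body of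
`BadU.NodalFibreBad` with `E1`, `E2` invariant under every `σ`; the only hypothesis left is the
chart base `X`. -/
theorem nodalFibre_good (h : BadSetup A π M ℓ) (hW : IsAL M ℓ W)
    (hsurj : Function.Surjective π)
    (hgood : 5 ≤ ℓ ∨ (ℓ = 3 ∧ 2 ∣ M) ∨ (ℓ = 2 ∧ 3 ∣ M))
    (X : ↥(laurentBaseChange Qb (modularFunctionFieldFull M))) (hX : IsChartBase h X) :
    ∃ (ι : Type) (_ : Fintype ι) (_ : Nonempty ι)
      (e₁ e₂ : ι → Place k (modularFunctionFieldFullC k M))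
      (P₁ Z₁ P₂ Z₂ : Divisor k (modularFunctionFieldFullC k M))
      (E1 E2 : Divisor Qb (laurentBaseChange Qb (modularFunctionFieldFull (M * ℓ)))),
      Function.Injective e₁ ∧ Function.Injective e₂ ∧
      (∀ i, P₁ (e₁ i) = 0) ∧ (∀ i, Z₁ (e₁ i) = 0) ∧ (∀ i, P₂ (e₂ i) = 0) ∧ (∀ i, Z₂ (e₂ i) = 0) ∧
      (∀ v, P₁ v = 0 ∨ Z₁ v = 0) ∧ (∀ v, P₂ v = 0 ∨ Z₂ v = 0) ∧
      0 < Divisor.degree P₁ ∧ 0 < Divisor.degree P₂ ∧
      (∀ v, 0 ≤ E1 v) ∧ (∀ v, 0 ≤ E2 v) ∧ (∀ v, E1 v = 0 ∨ E2 v = 0) ∧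
      0 < Divisor.degree E1 ∧ 0 < Divisor.degree E2 ∧
      (∀ σ : Qb ≃ₐ[ℚ] Qb,
        arithmeticGalois (modularFunctionFieldFull (M * ℓ)) σ • E1 = E1 ∧
        arithmeticGalois (modularFunctionFieldFull (M * ℓ)) σ • E2 = E2) ∧
      ∃ N₀ : ℕ, ∀ n₁ n₂ : ℕ, N₀ ≤ n₁ + n₂ →
        ∀ t : ↥(modularFunctionFieldFullC k M) × ↥(modularFunctionFieldFullC k M),
          (∃ y : OPair h W,
              (y : laurentBaseChange Qb (modularFunctionFieldFull (M * ℓ))) ∈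
                riemannRochSpace (n₁ • E1 + n₂ • E2) ∧ redPair h W y = t) ↔
            t ∈ gluedSpace e₁ e₂ (fun _ => (1 : k))
              (n₁ • P₁ + n₂ • Z₁) (n₁ • P₂ + n₂ • Z₂) :=
  nodalFibre_of_chartBase h hW hsurj X hX
    (NodeCountInst.genusFF_add_le_good M ℓ h.hℓ h.not_dvd hgood A π h.hπ hsurj h.hℓk)

end Good

end Fermat.Agent.BAD.NodalFibreInst
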