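/-
BAD (helper54): **`BadU.NodalFibreAt h W` at a good pair from a chart base** — the (NODAL) input
of `BadU.torsionMonodromy_of_nodal`, from `NodalFibreInst.nodalFibre_good`.
-/
import Mathlib
import Fermat.Agent.BAD.NodalFibreInst
import Fermat.Agent.BAD.BadU

set_option autoImplicit false

namespace Fermat.Agent.BAD.NodalFibreAtInst

open AlgebraicCurve ModularCurve Fermat.Agent.Lib.FF Fermat.Agent.Lib.Red
  Fermat.Agent.BAD.TwoVal

local notation "Qb" => AlgebraicClosure ℚ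

variable {k : Type} [Field k] [IsAlgClosed k] {A : ValuationSubring Qb} {π : A →+* k}
  {M ℓ : ℕ} [NeZero M] [NeZero ℓ]
  {W : laurentBaseChange Qb (modularFunctionFieldFull (M * ℓ)) ≃ₐ[Qb]
    laurentBaseChange Qb (modularFunctionFieldFull (M * ℓ))}

/-- **(NODAL) at a good pair**: `BadU.NodalFibreAt h W` from a chart base `X`. -/
theorem nodalFibreAt_good (h : BadSetup A π M ℓ) (hW : IsAL M ℓ W)
    (hsurj : Function.Surjective π)
    (hgood : 5 ≤ ℓ ∨ (ℓ = 3 ∧ 2 ∣ M) ∨ (ℓ = 2 ∧ 3 ∣ M))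
    (X : ↥(laurentBaseChange Qb (modularFunctionFieldFull M))) (hX : IsChartBase h X) :
    BadU.NodalFibreAt h W := by
  obtain ⟨ι, i1, i2, e₁, e₂, P₁, Z₁, P₂, Z₂, E1, E2, hinj₁, hinj₂, hP₁, hZ₁, hP₂, hZ₂, hd₁, hd₂,
    hdegP₁, hdegP₂, hE1, hE2, hdisj, hdegE1, hdegE2, hgalE, hS2⟩ :=
    NodalFibreInst.nodalFibre_good h hW hsurj hgood X hX
  exact ⟨ι, i1, i2, e₁, e₂, P₁, Z₁, P₂, Z₂, E1, E2, hinj₁, hinj₂, hP₁, hZ₁, hP₂, hZ₂, hd₁, hd₂,
    hdegP₁, hdegP₂, hE1, hE2, hdisj, hdegE1, hdegE2, fun σ _ => hgalE σ, hS2⟩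

end Fermat.Agent.BAD.NodalFibreAtInst
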