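import Mathlib
import Fermat.Agent.BAD.BadU
import Fermat.Agent.BAD.ChartBaseGood
import Fermat.Agent.BAD.LatChart
import Fermat.Agent.BAD.SpecialFibreX
import Fermat.Agent.BAD.ChartNodesInst
import Fermat.Agent.BAD.NodalFibreAsm
import Fermat.Agent.BAD.NodeCountInst
import Fermat.Agent.BAD.TwoVal.ChartX

/-!
# BAD-U: the nodal fibre at every good pair, and `TorsionMonodromy` for all levels

* `nodalFibreAt_of_chartBase` : `IsChartBase h X → BadU.NodalFibreAt h W` (assembly of the two
  charts: `SpecialFibreX` (S1), `LatChart` (L1), `ChartNodesInst` (N1), `ChartX` (bi-unit),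
  `NodalFibreAsm.nodalFibre_of_charts`, `BadU.latAt`), given the genus inequality;
* `nodalFibreAt_of_good` : `NodalFibreAt h W` at every good pair (residue-field form);
* `torsionMonodromy_all : ∀ N p, p.Prime → TorsionMonodromy N p`   (BAD-U).
-/

set_option autoImplicit false

noncomputable section

namespace Fermat.Agent.BAD.NodalGood

open Polynomial AlgebraicCurve ModularCurve Fermat.Agent.Lib.Red Fermat.Agent.Lib.FF
  Fermat.Agent.BAD.TwoVal Fermat.Agent.BAD.NodalPlaces

local notation "Qb" => AlgebraicClosure ℚ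

variable {A : ValuationSubring Qb} {k : Type} [Field k] {π : A →+* k}
  {M q : ℕ} [NeZero M] [NeZero q]
  {W : laurentBaseChange Qb (modularFunctionFieldFull (M * q)) ≃ₐ[Qb]
    laurentBaseChange Qb (modularFunctionFieldFull (M * q))}

set_option maxHeartbeats 1000000 in
/-- **The nodal fibre from a chart datum.** -/
theorem nodalFibreAt_of_chartBase [IsAlgClosed k] (h : BadSetup A π M q) (hW : IsAL M q W)
    (hsurj : Function.Surjective π)
    {X : ↥(laurentBaseChange Qb (modularFunctionFieldFull M))} (hX : IsChartBase h X)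
    (hg : genusFF k ↥(modularFunctionFieldFullC k M) + genusFF k ↥(modularFunctionFieldFullC k M)
      ≤ genusFF Qb ↥(laurentBaseChange Qb (modularFunctionFieldFull (M * q)))) :
    BadU.NodalFibreAt h W := by
  have : Fact q.Prime := ⟨h.hℓ⟩
  have : CharP k q := h.charP
  -- the coordinate `x = α X · β X`
  have hFN := SpecialFibre.isFF1_xN_X h hW hX
  have hxO := SpecialFibre.xN_mem_OPair_X h hW hX
  have hxO' := SpecialFibre.inv_xN_mem_OPair h hW hX
  have hredx := SpecialFibre.redPair_xN_X h hW hX hxO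
  have hrat := SpecialFibre.frobAut_smul_redX hX
  have hF1 := SpecialFibre.isFF1_redX_pow hX
  -- chart 1
  obtain ⟨T, hT, hTfin, hTB⟩ := SpecialFibre.exists_nodes_fin_X h hW hsurj hX
  obtain ⟨r, β, hβO, hβR, hgen⟩ := LatChart.exists_chart_gen_finRing h hW X hX
  obtain ⟨ι, hι, e₁, e₂, hinj₁, hinj₂, hfin, hval, -, hB₁⟩ :=
    ChartNodesInst.chart_fin_of_points h hFN hxO hX.ffRed hrat hredx T hT hTfin hTB
      β hβO hβR hgen
  -- chart 2
  obtain ⟨T', hT', hTfin', hTB', hcusp⟩ := SpecialFibre.exists_nodes_inf_X h hW hsurj hX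
  obtain ⟨r', β', hβO', hβR', hgen'⟩ := LatChart.exists_chart_gen_inv_finRing h hW X hX
  obtain ⟨ι', hι', e₁', e₂', -, -, hov, hB₂⟩ :=
    ChartNodesInst.chart_inf_of_points h hFN hxO hxO' hX.ffRed hrat hredx T' hT' hTfin' hTB'
      hcusp β' hβO' hβR' hgen'
  -- the bi-unit `z = x^q - x - 1`
  have hz := ChartX.hasRed_chartZ h hW hX.mem hX.rat
  have hz' := ChartX.hasRed_inv_chartZ h hW hX.mem hX.rat hX.ffRed.transcendental
  -- the assembly
  obtain ⟨hne, hP₁, hZ₁, hP₂, hZ₂, hd₁, hd₂, hdegP₁, hdegP₂, hE1, hE2, hdisj, hdegE1, hdegE2,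
    hgal, N₀, hS2⟩ :=
    NodalFibreAsm.nodalFibre_of_charts (A := A) (O := OPair h W) (fun a => OPair_hOA h a)
      (redPair h W) π hsurj h.pi_eq_zero_iff (fun a => ChartNodesInst.redPair_const h a)
      (redPair_eq_zero_iff h) hFN hxO hxO' hF1 hF1 hredx q h.hℓ.two_le hz.mem hz'.mem
      e₁ e₂ hinj₂ hfin hval hB₁ e₁' e₂' hov hB₂ β hβO hβR hgen
      (fun n => BadU.latAt hsurj h W hW _) hg
  refine ⟨ι, hι, hne, e₁, e₂, _, _, _, _, _, _, hinj₁, hinj₂, hP₁, hZ₁, hP₂, hZ₂, hd₁, hd₂,
    hdegP₁, hdegP₂, hE1, hE2, hdisj, hdegE1, hdegE2, fun σ _ => ?_, N₀, hS2⟩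
  exact hgal (arithmeticGalois (modularFunctionFieldFull (M * q)) σ)
    (ChartX.galois_smul_chartX σ (hX.gal σ))

/-- **The nodal fibre at every good pair** (residue-field form, the hypothesis of
`BadU.torsionMonodromy_of_nodal`). -/
theorem nodalFibreAt_of_good (A : ValuationSubring Qb) (M q : ℕ) [NeZero M] [NeZero q]
    (h : BadSetup A (IsLocalRing.residue A) M q) (_hA : A.LiesOverPrime q)
    (hgood : 5 ≤ q ∨ (q = 3 ∧ 2 ∣ M) ∨ (q = 2 ∧ 3 ∣ M))
    (W : laurentBaseChange Qb (modularFunctionFieldFull (M * q)) ≃ₐ[Qb]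
      laurentBaseChange Qb (modularFunctionFieldFull (M * q))) (hW : IsAL M q W) :
    BadU.NodalFibreAt h W := by
  have : IsAlgClosed (IsLocalRing.ResidueField A) := CharP.isAlgClosed_residueField A
  obtain ⟨X, hX⟩ := exists_isChartBase_of_good h IsLocalRing.residue_surjective hgood
  exact nodalFibreAt_of_chartBase h hW IsLocalRing.residue_surjective hX
    (NodeCountInst.genusFF_add_le_good M q h.hℓ h.not_dvd hgood A (IsLocalRing.residue A) h.hπ
      IsLocalRing.residue_surjective h.hℓk)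

/-- **(BAD-U)**: `TorsionMonodromy N p` for all levels `N` and all primes `p`. -/
theorem torsionMonodromy_all (N p : ℕ) [NeZero N] (hp : p.Prime) : TorsionMonodromy N p :=
  BadU.torsionMonodromy_of_nodal nodalFibreAt_of_good N p hp

end Fermat.Agent.BAD.NodalGood
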