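/-
S33 / Route C, row 406 (RC-2), half (H): places of the generic fibre with prescribed smooth
reduction on a nodal special fibre (ABSTRACT form; no Hensel, no chart ring).

Setting = the hypothesis list of `NodalAsm.monodromy_of_nodal_fibre` (bundled in `Setup`):
`L ⊆ F` fields, `A` a valuation subring of `L`, `O` a subring of `F` with `O ∩ L = A` and a
reduction map `red : O → F₁ × F₂` onto the two components, lattices `L(B) ∩ O` with orthonormal
bases, and the description of the reductions of the charts `L(n₁ E1 + n₂ E2) ∩ O` as glued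
spaces `gluedSpace e₁ e₂ 1 (n₁ P₁ + n₂ Z₁) (n₁ P₂ + n₂ Z₂)`.

For a place `Q` of the first component which is not a node and not in the support of `P₁`, `Z₁`,
a place `P` of `F` *reduces to* `Q` (`RedTo`) if every element of `L(n₁ E1 + n₂ E2 - P) ∩ O`
reduces to a pair whose first component vanishes at `Q`.

* `exists_redTo` : every `u ∈ L(chart) ∩ O` whose reduction vanishes at `Q` and is nonzero on both
  components has a zero reducing to `Q` (product trick).
* `RedTo.iff` : for such a `P`, `red (L(chart - P) ∩ O) = gluedSpace (chart₁ - Q) chart₂`.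
* `redTo_unique` : if the zero of `red u` at `Q` is simple, the zero of `u` reducing to `Q` is
  unique (multiplication on the nodal curve + Riemann–Roch).
* `RedTo.smul` : semilinear automorphisms preserving the data preserve `RedTo`.
* `exists_place_fst`, `exists_place_snd` : the packaged statements for the two components.
* `exists_simple_zero` : sections of the glued space with a simple zero at `Q`.
-/
import Mathlib
import Fermat.Agent.BAD.NodalAsm
import Fermat.Agent.Padic.S33.RC.NodalMul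
import Fermat.Agent.Padic.LatticeRat

set_option autoImplicit false
set_option linter.style.haveILetI false
set_option linter.unusedSectionVars false

noncomputable section

namespace Fermat.Agent.BAD.SmoothLift

open AlgebraicCurve WithZero Fermat.Agent.Lib.FF Fermat.Agent.Lib.Red.Deform
  Fermat.Agent.Lib.Red.CoordLat Fermat.Agent.BAD.NodalRiemann
  Fermat.Agent.Padic.S33.RC.NodalMul Fermat.Agent.Lib.FF.BasePoint

/-! ### Values in `ℤᵐ⁰` -/

theorem eq_exp_of_le_of_not_le {x : ℤᵐ⁰} {n : ℤ} (h1 : x ≤ exp n) (h2 : ¬ x ≤ exp (n - 1)) :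
    x = exp n := by
  have hx0 : x ≠ 0 := by
    rintro rfl
    exact h2 zero_le
  have hx : x = exp (log x) := (exp_log hx0).symm
  rw [hx] at h1 h2 ⊢
  rw [exp_le_exp] at h1 h2
  congr 1
  omega

/-! ### One function field -/

section OneField

variable {K F : Type*} [Field K] [Field F] [Algebra K F]

/-- `L(D - m·Q)` consists of the functions of `L(D)` vanishing to order `m` at `Q`
(`D Q = 0`). -/
theorem mem_L_sub_nsmul_single_iff {D : Divisor K F} {Q : Place K F} (hD : D Q = 0) (m : ℕ)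
    {f : F} :
    f ∈ riemannRochSpace (D - m • Finsupp.single Q (1 : ℤ)) ↔
      f ∈ riemannRochSpace D ∧ Q.adicValuation f ≤ exp (-(m : ℤ)) := by
  classical
  constructor
  · intro hf
    refine ⟨fun v => (hf v).trans ?_, ?_⟩
    · rw [exp_le_exp, Finsupp.sub_apply, Finsupp.smul_apply, Finsupp.single_apply]
      split_ifs
      · simp
      · simp
    · have := hf Q
      rwa [Finsupp.sub_apply, Finsupp.smul_apply, Finsupp.single_eq_same, hD, zero_sub,
        nsmul_eq_mul, mul_one] at this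
  · rintro ⟨hf, hQ⟩ v
    by_cases hv : Q = v
    · subst hv
      rw [Finsupp.sub_apply, Finsupp.smul_apply, Finsupp.single_eq_same, hD, zero_sub,
        nsmul_eq_mul, mul_one]
      exact hQ
    · rw [Finsupp.sub_apply, Finsupp.smul_apply, Finsupp.single_apply, if_neg hv, smul_zero,
        sub_zero]
      exact hf v

theorem mem_L_sub_single_iff {D : Divisor K F} {Q : Place K F} (hD : D Q = 0) {f : F} :
    f ∈ riemannRochSpace (D - Finsupp.single Q (1 : ℤ)) ↔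
      f ∈ riemannRochSpace D ∧ Q.adicValuation f ≤ exp (-1 : ℤ) := by
  have h := mem_L_sub_nsmul_single_iff (f := f) hD 1
  rwa [one_smul, Nat.cast_one] at h

theorem one_mem_L {D : Divisor K F} (hD : ∀ v, 0 ≤ D v) : (1 : F) ∈ riemannRochSpace D := by
  intro v
  rw [map_one, ← exp_zero, exp_le_exp]
  exact hD v

theorem prod_mem_L_sum {α : Type*} (s : Finset α) (f : α → F) (D : α → Divisor K F)
    (h : ∀ a ∈ s, f a ∈ riemannRochSpace (D a)) :
    ∏ a ∈ s, f a ∈ riemannRochSpace (∑ a ∈ s, D a) := by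
  classical
  induction s using Finset.induction_on with
  | empty =>
    rw [Finset.prod_empty, Finset.sum_empty]
    exact one_mem_L (fun v => le_rfl)
  | insert a s ha ih =>
    rw [Finset.prod_insert ha, Finset.sum_insert ha]
    exact mul_mem_L_add (h a (Finset.mem_insert_self a s))
      (ih (fun b hb => h b (Finset.mem_insert_of_mem hb)))

theorem pow_mem_L_nsmul {D : Divisor K F} {f : F} (h : f ∈ riemannRochSpace D) (M : ℕ) :
    f ^ M ∈ riemannRochSpace (M • D) := by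
  induction M with
  | zero =>
    rw [pow_zero, zero_smul]
    exact one_mem_L (fun v => le_rfl)
  | succ M ih =>
    rw [pow_succ, succ_nsmul]
    exact mul_mem_L_add ih h

/-- The chart divisor `n₁ • E1 + n₂ • E2`. -/
def cd (E1 E2 : Divisor K F) (n : ℕ × ℕ) : Divisor K F := n.1 • E1 + n.2 • E2

theorem cd_apply (E1 E2 : Divisor K F) (n : ℕ × ℕ) (v : Place K F) :
    cd E1 E2 n v = n.1 * E1 v + n.2 * E2 v := by
  simp [cd]

theorem cd_add (E1 E2 : Divisor K F) (n m : ℕ × ℕ) :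
    cd E1 E2 (n + m) = cd E1 E2 n + cd E1 E2 m := by
  simp only [cd, Prod.fst_add, Prod.snd_add, add_smul]
  abel

theorem cd_zero (E1 E2 : Divisor K F) : cd E1 E2 0 = 0 := by
  simp [cd]

theorem cd_sum {α : Type*} (E1 E2 : Divisor K F) (s : Finset α) (n : α → ℕ × ℕ) :
    cd E1 E2 (∑ a ∈ s, n a) = ∑ a ∈ s, cd E1 E2 (n a) := by
  classical
  induction s using Finset.induction_on with
  | empty => rw [Finset.sum_empty, Finset.sum_empty, cd_zero]
  | insert a s ha ih => rw [Finset.sum_insert ha, Finset.sum_insert ha, cd_add, ih]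

theorem cd_nsmul (E1 E2 : Divisor K F) (M : ℕ) (n : ℕ × ℕ) :
    cd E1 E2 (M • n) = M • cd E1 E2 n := by
  simp only [cd, Prod.smul_fst, Prod.smul_snd, smul_add, smul_smul, smul_eq_mul]

theorem cd_nonneg {E1 E2 : Divisor K F} (hE1 : ∀ v, 0 ≤ E1 v) (hE2 : ∀ v, 0 ≤ E2 v)
    (n : ℕ × ℕ) (v : Place K F) : 0 ≤ cd E1 E2 n v := by
  rw [cd_apply]
  have := hE1 v
  have := hE2 v
  positivity

theorem cd_le_add {E1 E2 : Divisor K F} (hE1 : ∀ v, 0 ≤ E1 v) (hE2 : ∀ v, 0 ≤ E2 v)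
    (n m : ℕ × ℕ) (v : Place K F) : cd E1 E2 n v ≤ cd E1 E2 (n + m) v := by
  rw [cd_add, Finsupp.add_apply]
  have := cd_nonneg hE1 hE2 m v
  omega

theorem cd_apply_eq_zero {E1 E2 : Divisor K F} {v : Place K F} (h1 : E1 v = 0) (h2 : E2 v = 0)
    (n : ℕ × ℕ) : cd E1 E2 n v = 0 := by
  rw [cd_apply, h1, h2]
  simp

theorem degree_cd (E1 E2 : Divisor K F) (n : ℕ × ℕ) :
    Divisor.degree (cd E1 E2 n) = n.1 * Divisor.degree E1 + n.2 * Divisor.degree E2 := by
  simp [cd]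

theorem cd_fst (E1 E2 : Divisor K F) (a : ℕ) : cd E1 E2 (a, 0) = a • E1 := by
  simp [cd]

end OneField

/-! ### The setting -/

section Two

variable {L F : Type*} [Field L] [Field F] [Algebra L F]
variable {A : ValuationSubring L} {O : Subring F}
variable {k F₁ F₂ : Type*} [Field k] [Field F₁] [Field F₂] [Algebra k F₁] [Algebra k F₂]
variable {ι : Type*} [Fintype ι]

theorem mem_glued_sub_nsmul_iff {e₁ : ι → Place k F₁} {e₂ : ι → Place k F₂}
    {D₁ : Divisor k F₁} {D₂ : Divisor k F₂} {Q : Place k F₁} (hD : D₁ Q = 0) (m : ℕ)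
    {t : F₁ × F₂} :
    t ∈ gluedSpace e₁ e₂ (fun _ => (1 : k)) (D₁ - m • Finsupp.single Q (1 : ℤ)) D₂ ↔
      t ∈ gluedSpace e₁ e₂ (fun _ => (1 : k)) D₁ D₂ ∧
        Q.adicValuation t.1 ≤ exp (-(m : ℤ)) := by
  rw [mem_gluedSpace, mem_gluedSpace, mem_L_sub_nsmul_single_iff hD m]
  tauto

theorem mem_glued_sub_single_iff {e₁ : ι → Place k F₁} {e₂ : ι → Place k F₂}
    {D₁ : Divisor k F₁} {D₂ : Divisor k F₂} {Q : Place k F₁} (hD : D₁ Q = 0) {t : F₁ × F₂} :
    t ∈ gluedSpace e₁ e₂ (fun _ => (1 : k)) (D₁ - Finsupp.single Q (1 : ℤ)) D₂ ↔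
      t ∈ gluedSpace e₁ e₂ (fun _ => (1 : k)) D₁ D₂ ∧ Q.adicValuation t.1 ≤ exp (-1 : ℤ) := by
  rw [mem_gluedSpace, mem_gluedSpace, mem_L_sub_single_iff hD]
  tauto

/-- The abstract nodal-fibre setting (the hypotheses of `NodalAsm.monodromy_of_nodal_fibre`
which are used here). -/
structure Setup (A : ValuationSubring L) (O : Subring F) (red : O →+* F₁ × F₂) (π : A →+* k)
    (e₁ : ι → Place k F₁) (e₂ : ι → Place k F₂) (P₁ Z₁ : Divisor k F₁) (P₂ Z₂ : Divisor k F₂)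
    (E1 E2 : Divisor L F) (N₀ : ℕ) : Prop where
  hOA : ∀ x : L, algebraMap L F x ∈ O ↔ x ∈ A
  hval : ∀ y : F, y ≠ 0 → ∃ c : L, c ≠ 0 ∧ algebraMap L F c * y ∈ O ∧
    ¬ Small A O (algebraMap L F c * y)
  hπ : Function.Surjective π
  hπker : ∀ a : A, π a = 0 ↔ A.valuation (a : L) < 1
  hconst : ∀ a : A, red ⟨algebraMap L F (a : L), (hOA _).2 a.2⟩ = algebraMap k (F₁ × F₂) (π a)
  hker : ∀ y : O, red y = 0 ↔ Small A O (y : F)
  hlat : ∀ B : Divisor L F, HasOrtho A O (riemannRochSpace B)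
  hinj₁ : Function.Injective e₁
  hinj₂ : Function.Injective e₂
  hP₁ : ∀ i, P₁ (e₁ i) = 0
  hZ₁ : ∀ i, Z₁ (e₁ i) = 0
  hP₂ : ∀ i, P₂ (e₂ i) = 0
  hZ₂ : ∀ i, Z₂ (e₂ i) = 0
  hdegP₁ : 0 < Divisor.degree P₁
  hdegP₂ : 0 < Divisor.degree P₂
  hE1 : ∀ v, 0 ≤ E1 v
  hE2 : ∀ v, 0 ≤ E2 v
  hdegE1 : 0 < Divisor.degree E1
  hS2 : ∀ n : ℕ × ℕ, N₀ ≤ n.1 + n.2 → ∀ t : F₁ × F₂,
    (∃ y : O, (y : F) ∈ riemannRochSpace (cd E1 E2 n) ∧ red y = t) ↔
      t ∈ gluedSpace e₁ e₂ (fun _ => (1 : k)) (cd P₁ Z₁ n) (cd P₂ Z₂ n)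

/-- The place `P` of the generic fibre reduces to the place `Q` of the first component: the
first components of the reductions of the elements of `L(chart - P) ∩ O` vanish at `Q`. -/
def RedTo (red : O →+* F₁ × F₂) (E1 E2 : Divisor L F) (N₀ : ℕ) (Q : Place k F₁)
    (P : Place L F) : Prop :=
  ∀ n : ℕ × ℕ, N₀ ≤ n.1 + n.2 → ∀ y : O,
    (y : F) ∈ riemannRochSpace (cd E1 E2 n - Finsupp.single P (1 : ℤ)) →
      Q.adicValuation (red y).1 ≤ exp (-1 : ℤ)

variable {red : O →+* F₁ × F₂} {π : A →+* k} {e₁ : ι → Place k F₁} {e₂ : ι → Place k F₂}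
  {P₁ Z₁ : Divisor k F₁} {P₂ Z₂ : Divisor k F₂} {E1 E2 : Divisor L F} {N₀ : ℕ}

theorem L_sub_single_le (D : Divisor L F) (P : Place L F) :
    riemannRochSpace (D - Finsupp.single P (1 : ℤ)) ≤ riemannRochSpace D := by
  classical
  intro f hf v
  refine (hf v).trans ?_
  rw [exp_le_exp, Finsupp.sub_apply, Finsupp.single_apply]
  split_ifs <;> omega

namespace Setup

variable (S : Setup A O red π e₁ e₂ P₁ Z₁ P₂ Z₂ E1 E2 N₀)
include S

theorem red_mem {n : ℕ × ℕ} (hn : N₀ ≤ n.1 + n.2) {y : O}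
    (hy : (y : F) ∈ riemannRochSpace (cd E1 E2 n)) :
    red y ∈ gluedSpace e₁ e₂ (fun _ => (1 : k)) (cd P₁ Z₁ n) (cd P₂ Z₂ n) :=
  (S.hS2 n hn _).1 ⟨y, hy, rfl⟩

theorem redSub_eq {n : ℕ × ℕ} (hn : N₀ ≤ n.1 + n.2) :
    redSub S.hOA red π S.hπ S.hconst (riemannRochSpace (cd E1 E2 n))
      = gluedSpace e₁ e₂ (fun _ => (1 : k)) (cd P₁ Z₁ n) (cd P₂ Z₂ n) :=
  Submodule.ext fun t => by
    rw [mem_redSub]
    exact S.hS2 n hn t

theorem one_mem_glued {n : ℕ × ℕ} (hn : N₀ ≤ n.1 + n.2) :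
    (1 : F₁ × F₂) ∈ gluedSpace e₁ e₂ (fun _ => (1 : k)) (cd P₁ Z₁ n) (cd P₂ Z₂ n) := by
  have h := S.red_mem hn (y := 1) (one_mem_L (cd_nonneg S.hE1 S.hE2 n))
  rwa [map_one] at h

/-- If `u ∈ O` reduces to a non-zero-divisor and `u w ∈ O`, then `w ∈ O`. -/
theorem mem_of_mul_mem {u : O} {w : F} (huw : (u : F) * w ∈ O) (h1 : (red u).1 ≠ 0)
    (h2 : (red u).2 ≠ 0) : w ∈ O := by
  by_cases hw : w = 0
  · rw [hw]
    exact O.zero_mem
  obtain ⟨c, hc0, hcO, hns⟩ := S.hval w hw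
  have hwc : w = algebraMap L F c⁻¹ * (algebraMap L F c * w) := by
    rw [← mul_assoc, ← map_mul, inv_mul_cancel₀ hc0, map_one, one_mul]
  by_cases hcu : c⁻¹ ∈ A
  · rw [hwc]
    exact O.mul_mem ((S.hOA _).2 hcu) hcO
  · exfalso
    have hcA : c ∈ A := (A.mem_or_inv_mem c).resolve_right hcu
    have hv : A.valuation c < 1 := by
      rcases lt_or_eq_of_le ((A.valuation_le_one_iff c).2 hcA) with h | h
      · exact h
      · exfalso
        apply hcu
        rw [← A.valuation_le_one_iff, map_inv₀, h, inv_one]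
    have hπc : π ⟨c, hcA⟩ = 0 := (S.hπker _).2 hv
    have e : (⟨algebraMap L F c, (S.hOA _).2 hcA⟩ : O) * ⟨(u : F) * w, huw⟩
        = u * ⟨algebraMap L F c * w, hcO⟩ :=
      Subtype.ext (by
        show algebraMap L F c * ((u : F) * w) = (u : F) * (algebraMap L F c * w)
        ring)
    have e2 := congrArg red e
    have hc' : red ⟨algebraMap L F c, (S.hOA _).2 hcA⟩ = 0 := by
      have := S.hconst ⟨c, hcA⟩
      rw [hπc, map_zero] at this
      exact this
    rw [map_mul, map_mul, hc', zero_mul] at e2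
    have hne : red ⟨algebraMap L F c * w, hcO⟩ ≠ 0 := fun h0 => hns ((S.hker _).1 h0)
    apply hne
    refine Prod.ext ?_ ?_
    · have h3 := congrArg Prod.fst e2
      simp only [Prod.fst_mul, Prod.fst_zero] at h3
      exact (mul_eq_zero.1 h3.symm).resolve_left h1
    · have h3 := congrArg Prod.snd e2
      simp only [Prod.snd_mul, Prod.snd_zero] at h3
      exact (mul_eq_zero.1 h3.symm).resolve_left h2

/-- The reduced lattices are finite-dimensional. -/
theorem finite_redSub (V : Submodule L F) (hV : HasOrtho A O V) :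
    Module.Finite k (redSub S.hOA red π S.hπ S.hconst V) := by
  have hfr := hV.finrank_redSub S.hOA red π S.hπ S.hπker S.hconst S.hker
  have := hV.finiteDimensional
  by_cases h0 : Module.finrank L V = 0
  · have hVbot : V = ⊥ := Submodule.finrank_eq_zero.1 h0
    have hbot : redSub S.hOA red π S.hπ S.hconst V = ⊥ := by
      rw [eq_bot_iff]
      rintro t ⟨y, hy, rfl⟩
      rw [hVbot, Submodule.mem_bot] at hy
      have hy0 : y = 0 := Subtype.ext hy
      rw [hy0, map_zero]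
      exact Submodule.zero_mem _
    rw [hbot]
    infer_instance
  · exact Module.finite_of_finrank_pos (by rw [hfr]; omega)

end Setup

/-- A place reducing to `Q` is not in the support of `E1`, `E2`. -/
theorem RedTo.apply_eq_zero (S : Setup A O red π e₁ e₂ P₁ Z₁ P₂ Z₂ E1 E2 N₀) {Q : Place k F₁}
    {P : Place L F} (hP : RedTo red E1 E2 N₀ Q P) : E1 P = 0 ∧ E2 P = 0 := by
  classical
  have key : ∀ n : ℕ × ℕ, N₀ ≤ n.1 + n.2 → cd E1 E2 n P ≤ 0 := by
    intro n hn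
    by_contra hpos
    push Not at hpos
    have h1 : (1 : F) ∈ riemannRochSpace (cd E1 E2 n - Finsupp.single P (1 : ℤ)) := by
      refine one_mem_L (fun v => ?_)
      rw [Finsupp.sub_apply, Finsupp.single_apply]
      split_ifs with hv
      · subst hv
        omega
      · have := cd_nonneg S.hE1 S.hE2 n v
        omega
    have h2 := hP n hn 1 h1
    rw [map_one, Prod.fst_one, map_one, ← exp_zero, exp_le_exp] at h2
    omega
  constructor
  · have h := key (N₀ + 1, 0) (by simp)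
    rw [cd_apply] at h
    have h' := S.hE1 P
    simp only [Nat.cast_add, Nat.cast_one, Nat.cast_zero, zero_mul, add_zero] at h
    nlinarith
  · have h := key (0, N₀ + 1) (by simp)
    rw [cd_apply] at h
    have h' := S.hE2 P
    simp only [Nat.cast_add, Nat.cast_one, Nat.cast_zero, zero_mul, zero_add] at h
    nlinarith

/-! ### The reduction of `L(chart - P) ∩ O` -/

/-- For a place `P` reducing to `Q`, the reduction of `L(chart - P) ∩ O` is the space of glued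
sections vanishing at `Q`. -/
theorem RedTo.iff (S : Setup A O red π e₁ e₂ P₁ Z₁ P₂ Z₂ E1 E2 N₀) {x : F} (hF : IsFF1 L F x)
    {Q : Place k F₁} (hQP : P₁ Q = 0) (hQZ : Z₁ Q = 0) {P : Place L F}
    (hP : RedTo red E1 E2 N₀ Q P) {n : ℕ × ℕ} (hn : N₀ ≤ n.1 + n.2) (t : F₁ × F₂) :
    (∃ y : O, (y : F) ∈ riemannRochSpace (cd E1 E2 n - Finsupp.single P (1 : ℤ)) ∧ red y = t) ↔
      t ∈ gluedSpace e₁ e₂ (fun _ => (1 : k)) (cd P₁ Z₁ n - Finsupp.single Q (1 : ℤ))
        (cd P₂ Z₂ n) := by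
  classical
  set D : Divisor L F := cd E1 E2 n - Finsupp.single P (1 : ℤ) with hD
  set Hs := redSub S.hOA red π S.hπ S.hconst (riemannRochSpace D) with hHs
  set Gn := redSub S.hOA red π S.hπ S.hconst (riemannRochSpace (cd E1 E2 n)) with hGn
  set Gm := gluedSpace e₁ e₂ (fun _ => (1 : k)) (cd P₁ Z₁ n - Finsupp.single Q (1 : ℤ))
    (cd P₂ Z₂ n) with hGm
  have hcdQ : cd P₁ Z₁ n Q = 0 := cd_apply_eq_zero hQP hQZ n
  have hGn' : Gn = gluedSpace e₁ e₂ (fun _ => (1 : k)) (cd P₁ Z₁ n) (cd P₂ Z₂ n) :=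
    S.redSub_eq hn
  have h1 : Hs ≤ Gm := by
    rintro t ⟨y, hy, rfl⟩
    exact (mem_glued_sub_single_iff hcdQ).2
      ⟨S.red_mem hn (L_sub_single_le _ _ hy), hP n hn y hy⟩
  have h2 : Gm ≤ Gn := by
    intro t ht
    rw [hGn']
    exact ((mem_glued_sub_single_iff hcdQ).1 ht).1
  have hne : Gm ≠ Gn := by
    intro heq
    have h1' : (1 : F₁ × F₂) ∈ Gn := by
      rw [hGn']
      exact S.one_mem_glued hn
    rw [← heq] at h1'
    have h3 := ((mem_glued_sub_single_iff hcdQ).1 h1').2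
    rw [Prod.fst_one, map_one, ← exp_zero, exp_le_exp] at h3
    omega
  haveI : Module.Finite k Gn := S.finite_redSub _ (S.hlat _)
  haveI : Module.Finite k Gm := Submodule.finiteDimensional_of_le h2
  have hlt : Module.finrank k Gm < Module.finrank k Gn :=
    Submodule.finrank_lt_finrank_of_lt (lt_of_le_of_ne h2 hne)
  have hfH : Module.finrank k Hs = Module.finrank L (riemannRochSpace D) :=
    (S.hlat D).finrank_redSub S.hOA red π S.hπ S.hπker S.hconst S.hker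
  have hfG : Module.finrank k Gn = Module.finrank L (riemannRochSpace (cd E1 E2 n)) :=
    (S.hlat _).finrank_redSub S.hOA red π S.hπ S.hπker S.hconst S.hker
  have hstep : Module.finrank L (riemannRochSpace (cd E1 E2 n))
      ≤ Module.finrank L (riemannRochSpace D) + 1 := by
    obtain ⟨t₀, ht₀⟩ := RR.exists_val_eq_exp P (D P + 1)
    haveI := hF.finite_L D
    have hs := (RR.L_step (hF.resK P) D ht₀).2
    have hadd : RR.addPl D P = cd E1 E2 n := by
      rw [hD]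
      exact sub_add_cancel _ _
    rw [hadd] at hs
    rcases hs with ⟨-, h⟩ | ⟨-, h⟩
    · rw [h]
    · rw [h]
      omega
  have heq : Hs = Gm := Submodule.eq_of_le_of_finrank_le h1 (by omega)
  rw [← heq, hHs, mem_redSub]

/-! ### Existence: the product trick -/

/-- **Existence.**  A function `u ∈ O` whose reduction vanishes at `Q` and is nonzero on both
components has a zero reducing to `Q`. -/
theorem exists_redTo (S : Setup A O red π e₁ e₂ P₁ Z₁ P₂ Z₂ E1 E2 N₀) {x : F}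
    (hF : IsFF1 L F x) {Q : Place k F₁} (hQP : P₁ Q = 0) (hQZ : Z₁ Q = 0) (u : O)
    (hu1 : Q.adicValuation (red u).1 ≤ exp (-1 : ℤ)) (hu1' : (red u).1 ≠ 0)
    (hu2 : (red u).2 ≠ 0) :
    ∃ P : Place L F, 0 < P.ord (u : F) ∧ RedTo red E1 E2 N₀ Q P := by
  classical
  by_contra hcon
  push Not at hcon
  have hu0 : (u : F) ≠ 0 := by
    intro h0
    apply hu1'
    have hu : u = 0 := Subtype.ext h0
    rw [hu, map_zero]
    rfl
  haveI := hF.hasPrincipalDivisors
  obtain ⟨Dv, hDv, -⟩ := HasPrincipalDivisors.exists_divisor (K := L) (u : F) hu0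
  set S₀ : Finset (Place L F) := Dv.support.filter (fun P => 0 < Dv P) with hS₀
  have hmemS₀ : ∀ P, P ∈ S₀ ↔ 0 < P.ord (u : F) := by
    intro P
    rw [hS₀, Finset.mem_filter, Finsupp.mem_support_iff, hDv]
    exact ⟨fun h => h.2, fun h => ⟨ne_of_gt h, h⟩⟩
  have hbad : ∀ P ∈ S₀, ∃ m : ℕ × ℕ, N₀ ≤ m.1 + m.2 ∧ ∃ y : O,
      (y : F) ∈ riemannRochSpace (cd E1 E2 m - Finsupp.single P (1 : ℤ)) ∧
        ¬ Q.adicValuation (red y).1 ≤ exp (-1 : ℤ) := by
    intro P hP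
    have h := hcon P ((hmemS₀ P).1 hP)
    unfold RedTo at h
    push Not at h
    obtain ⟨m, hm, y, hy, hlt⟩ := h
    exact ⟨m, hm, y, hy, not_le.2 hlt⟩
  choose! nn hnn yy hyL hyν using hbad
  -- the uniform exponent and the chart
  set M : ℕ := ∑ P ∈ S₀, (Dv P).toNat with hM
  set b : ℕ × ℕ := M • ∑ P ∈ S₀, nn P + (N₀, 0) with hb
  have hbN : N₀ ≤ b.1 + b.2 := by
    rw [hb]
    simp only [Prod.fst_add, Prod.snd_add]
    omega
  set prodO : O := ∏ P ∈ S₀, yy P with hprodO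
  have hprodF : ((prodO ^ M : O) : F) = (∏ P ∈ S₀, (yy P : F)) ^ M := by
    rw [hprodO]
    push_cast
    rfl
  have hprod : (∏ P ∈ S₀, (yy P : F)) ∈ riemannRochSpace
      (∑ P ∈ S₀, (cd E1 E2 (nn P) - Finsupp.single P (1 : ℤ))) :=
    prod_mem_L_sum S₀ _ _ (fun P hP => hyL P hP)
  have hh := pow_mem_L_nsmul hprod M
  set w : F := (∏ P ∈ S₀, (yy P : F)) ^ M * (u : F)⁻¹ with hw
  have hwL : w ∈ riemannRochSpace (cd E1 E2 b) := by
    intro v
    have hv1 := hh v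
    have hvu : v.adicValuation (u : F)⁻¹ = exp (Dv v) := by
      rw [map_inv₀, v.adicValuation_eq_exp_neg_ord hu0, ← exp_neg, neg_neg, hDv]
    rw [hw, map_mul, hvu]
    refine (mul_le_mul_left hv1 _).trans ?_
    rw [← exp_add, exp_le_exp]
    have e1 : (M • ∑ P ∈ S₀, (cd E1 E2 (nn P) - Finsupp.single P (1 : ℤ))) v
        = M * ((∑ P ∈ S₀, cd E1 E2 (nn P) v) - (if v ∈ S₀ then 1 else 0)) := by
      rw [Finsupp.smul_apply, Finsupp.finsetSum_apply, nsmul_eq_mul]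
      congr 1
      rw [Finset.sum_congr rfl (fun P _ => Finsupp.sub_apply _ _ _), Finset.sum_sub_distrib]
      congr 1
      simp only [Finsupp.single_apply]
      rw [Finset.sum_ite_eq' S₀ v (fun _ => (1 : ℤ))]
    have e2 : cd E1 E2 b v = M * (∑ P ∈ S₀, cd E1 E2 (nn P) v) + N₀ * E1 v := by
      rw [hb, cd_add, Finsupp.add_apply, cd_nsmul, Finsupp.smul_apply, cd_sum,
        Finsupp.finsetSum_apply, cd_fst, Finsupp.smul_apply, nsmul_eq_mul, nsmul_eq_mul]
    have e3 : Dv v ≤ M * (if v ∈ S₀ then 1 else 0) := by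
      split_ifs with hv
      · have h1 : (Dv v).toNat ≤ M := Finset.single_le_sum (f := fun P => (Dv P).toNat)
          (fun _ _ => Nat.zero_le _) hv
        have h2 : Dv v ≤ ((Dv v).toNat : ℤ) := Int.self_le_toNat _
        have h3 : ((Dv v).toNat : ℤ) ≤ M := by exact_mod_cast h1
        omega
      · have h1 : ¬ 0 < v.ord (u : F) := fun h => hv ((hmemS₀ v).2 h)
        rw [hDv]
        omega
    have h4 := S.hE1 v
    rw [e1, e2]
    nlinarith [Int.natCast_nonneg N₀]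
  have hwO : w ∈ O := by
    refine S.mem_of_mul_mem (u := u) ?_ hu1' hu2
    have e : (u : F) * w = ((prodO ^ M : O) : F) := by
      rw [hprodF, hw, mul_comm, mul_assoc, inv_mul_cancel₀ hu0, mul_one]
    rw [e]
    exact (prodO ^ M).2
  have heq : prodO ^ M = u * ⟨w, hwO⟩ :=
    Subtype.ext (by
      show ((prodO ^ M : O) : F) = (u : F) * w
      rw [hprodF, hw, mul_comm, mul_assoc, inv_mul_cancel₀ hu0, mul_one])
  -- the first component of the reduction at `Q`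
  have hwQ : Q.adicValuation (red ⟨w, hwO⟩).1 ≤ 1 := by
    have h1 := (mem_gluedSpace.1 (S.red_mem hbN (y := ⟨w, hwO⟩) hwL)).1 Q
    rwa [cd_apply_eq_zero hQP hQZ b, exp_zero] at h1
  have hle : Q.adicValuation (red (prodO ^ M)).1 ≤ exp (-1 : ℤ) := by
    rw [heq, map_mul, Prod.fst_mul, map_mul]
    calc Q.adicValuation (red u).1 * Q.adicValuation (red ⟨w, hwO⟩).1
        ≤ exp (-1 : ℤ) * 1 := mul_le_mul' hu1 hwQ
      _ = exp (-1 : ℤ) := mul_one _
  have hone : Q.adicValuation (red (prodO ^ M)).1 = 1 := by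
    rw [map_pow, Prod.pow_fst, map_pow, hprodO, map_prod, Prod.fst_prod, map_prod]
    rw [Finset.prod_eq_one, one_pow]
    intro P hP
    have h1 := (mem_gluedSpace.1 (S.red_mem (hnn P hP) (y := yy P)
      (L_sub_single_le _ _ (hyL P hP)))).1 Q
    rw [cd_apply_eq_zero hQP hQZ (nn P)] at h1
    have h2 := eq_exp_of_le_of_not_le h1 (by simpa using hyν P hP)
    rw [h2, exp_zero]
  rw [hone, ← exp_zero, exp_le_exp] at hle
  omega

/-! ### Uniqueness: multiplication on the nodal curve -/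

/-- **Uniqueness.**  If the reduction of `u` has a zero of order `< 2` at `Q`, two zeros of `u`
reducing to `Q` coincide. -/
theorem redTo_unique (S : Setup A O red π e₁ e₂ P₁ Z₁ P₂ Z₂ E1 E2 N₀) {x : F}
    (hF : IsFF1 L F x) {x₁ : F₁} {x₂ : F₂} (h₁ : IsFF1 k F₁ x₁) (h₂ : IsFF1 k F₂ x₂)
    [Infinite k] {Q : Place k F₁} (hQ : ∀ i, e₁ i ≠ Q) (hQP : P₁ Q = 0) (hQZ : Z₁ Q = 0)
    {n : ℕ × ℕ} (u : O) (huL : (u : F) ∈ riemannRochSpace (cd E1 E2 n))
    (hu2 : ¬ Q.adicValuation (red u).1 ≤ exp (-2 : ℤ))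
    {P P' : Place L F} (hP : RedTo red E1 E2 N₀ Q P) (hP' : RedTo red E1 E2 N₀ Q P')
    (hPu : 0 < P.ord (u : F)) (hP'u : 0 < P'.ord (u : F)) : P = P' := by
  classical
  by_contra hne
  obtain ⟨cm, hcm⟩ := exists_mul h₁ h₂ e₁ e₂ S.hinj₁ S.hinj₂
  obtain ⟨cg, hcg⟩ := exists_finrank_gluedSpace (K := k) h₁ h₂ e₁ e₂ S.hinj₂
  obtain ⟨cF, hcF⟩ := hF.exists_degree_bound
  have hp₁ := S.hdegP₁
  have hp₂ := S.hdegP₂
  have hpE := S.hdegE1
  set p₁ := Divisor.degree P₁ with hp₁def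
  set p₂ := Divisor.degree P₂ with hp₂def
  set pE := Divisor.degree E1 with hpEdef
  set d₁ := Divisor.degree (cd P₁ Z₁ n) with hd₁
  set d₂ := Divisor.degree (cd P₂ Z₂ n) with hd₂
  set dE := Divisor.degree (cd E1 E2 n) with hdE
  -- the auxiliary chart
  set a : ℕ := N₀ + (cm.toNat + cg.toNat + cF.toNat + 2 + d₁.natAbs + d₂.natAbs + dE.natAbs)
    with ha
  have haN : N₀ ≤ a := Nat.le_add_right _ _
  have hcm1 := Int.self_le_toNat cm
  have hcg1 := Int.self_le_toNat cg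
  have hcF1 := Int.self_le_toNat cF
  have hbig : (cm.toNat : ℤ) + cg.toNat + cF.toNat + 2 + |d₁| + |d₂| + |dE| ≤ (a : ℤ) := by
    rw [ha]
    push_cast
    have h7 : (0 : ℤ) ≤ (N₀ : ℤ) := Int.natCast_nonneg _
    linarith
  have habs₁ := neg_abs_le d₁
  have habs₂ := neg_abs_le d₂
  have habsE := neg_abs_le dE
  have habs₁' := abs_nonneg d₁
  have habs₂' := abs_nonneg d₂
  have habsE' := abs_nonneg dE
  have ha0 : (0 : ℤ) ≤ (a : ℤ) := Int.natCast_nonneg _
  have hap₁ : (a : ℤ) ≤ a * p₁ := by nlinarith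
  have hap₂ : (a : ℤ) ≤ a * p₂ := by nlinarith
  have hapE : (a : ℤ) ≤ a * pE := by nlinarith
  have hcm0 : (0 : ℤ) ≤ (cm.toNat : ℤ) := Int.natCast_nonneg _
  have hcg0 : (0 : ℤ) ≤ (cg.toNat : ℤ) := Int.natCast_nonneg _
  have hcF0 : (0 : ℤ) ≤ (cF.toNat : ℤ) := Int.natCast_nonneg _
  -- the three charts
  set ca : ℕ × ℕ := (a, 0) with hca
  set cb : ℕ × ℕ := n + (a, 0) with hcb
  set cc : ℕ × ℕ := n + ((a, 0) + (a, 0)) with hcc
  have hcab : ca + cb = cc := by
    rw [hca, hcb, hcc]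
    abel
  have hcaN : N₀ ≤ ca.1 + ca.2 := by
    rw [hca]
    simpa using haN
  have hcbN : N₀ ≤ cb.1 + cb.2 := by
    rw [hcb]
    simp only [Prod.fst_add, Prod.snd_add]
    omega
  have hccN : N₀ ≤ cc.1 + cc.2 := by
    rw [hcc]
    simp only [Prod.fst_add, Prod.snd_add]
    omega
  -- degrees of the chart divisors
  have hdeg_a₁ : Divisor.degree (cd P₁ Z₁ ca) = a * p₁ := by
    rw [hca, cd_fst, map_nsmul, nsmul_eq_mul]
  have hdeg_a₂ : Divisor.degree (cd P₂ Z₂ ca) = a * p₂ := by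
    rw [hca, cd_fst, map_nsmul, nsmul_eq_mul]
  have hdeg_b₁ : Divisor.degree (cd P₁ Z₁ cb) = d₁ + a * p₁ := by
    rw [hcb, cd_add, map_add, cd_fst, map_nsmul, nsmul_eq_mul]
  have hdeg_b₂ : Divisor.degree (cd P₂ Z₂ cb) = d₂ + a * p₂ := by
    rw [hcb, cd_add, map_add, cd_fst, map_nsmul, nsmul_eq_mul]
  have hdeg_c₁ : Divisor.degree (cd P₁ Z₁ cc) = d₁ + 2 * (a * p₁) := by
    rw [hcc, cd_add, cd_add, map_add, map_add, cd_fst, map_nsmul, nsmul_eq_mul]
    ring
  have hdeg_c₂ : Divisor.degree (cd P₂ Z₂ cc) = d₂ + 2 * (a * p₂) := by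
    rw [hcc, cd_add, cd_add, map_add, map_add, cd_fst, map_nsmul, nsmul_eq_mul]
    ring
  have hdeg_cE : Divisor.degree (cd E1 E2 cc) = dE + 2 * (a * pE) := by
    rw [hcc, cd_add, cd_add, map_add, map_add, cd_fst, map_nsmul, nsmul_eq_mul]
    ring
  have hdegQ : Divisor.degree (Finsupp.single Q (1 : ℤ)) = 1 := by
    rw [Divisor.degree_single, h₁.deg_eq_one]
    simp
  have hdegP : ∀ R : Place L F, Divisor.degree (Finsupp.single R (1 : ℤ)) = 1 := by
    intro R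
    rw [Divisor.degree_single, hF.deg_eq_one]
    simp
  -- values at the nodes and at `Q`
  have hnode₁ : ∀ (m : ℕ × ℕ) (i : ι), cd P₁ Z₁ m (e₁ i) = 0 :=
    fun m i => cd_apply_eq_zero (S.hP₁ i) (S.hZ₁ i) m
  have hnode₂ : ∀ (m : ℕ × ℕ) (i : ι), cd P₂ Z₂ m (e₂ i) = 0 :=
    fun m i => cd_apply_eq_zero (S.hP₂ i) (S.hZ₂ i) m
  have hQnode : ∀ i, (Finsupp.single Q (1 : ℤ) : Divisor k F₁) (e₁ i) = 0 := by
    intro i
    rw [Finsupp.single_apply, if_neg (fun h => hQ i h.symm)]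
  -- (Mul)
  have hmul := hcm (cd P₁ Z₁ ca - Finsupp.single Q (1 : ℤ))
    (cd P₁ Z₁ cb - Finsupp.single Q (1 : ℤ)) (cd P₂ Z₂ ca) (cd P₂ Z₂ cb)
    (by rw [map_sub, hdeg_a₁, hdegQ]; linarith)
    (by rw [map_sub, hdeg_b₁, hdegQ]; linarith)
    (by rw [hdeg_a₂]; linarith)
    (by rw [hdeg_b₂]; linarith)
    (fun i => by rw [Finsupp.sub_apply, hnode₁, hQnode, sub_zero])
    (fun i => hnode₂ _ i)
    (fun i => by rw [Finsupp.sub_apply, hnode₁, hQnode, sub_zero])
    (fun i => hnode₂ _ i)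
  have hsum₁ : cd P₁ Z₁ ca - Finsupp.single Q (1 : ℤ) + (cd P₁ Z₁ cb - Finsupp.single Q (1 : ℤ))
      = cd P₁ Z₁ cc - 2 • Finsupp.single Q (1 : ℤ) := by
    rw [← hcab, cd_add P₁ Z₁ ca cb, two_nsmul]
    abel
  have hsum₂ : cd P₂ Z₂ ca + cd P₂ Z₂ cb = cd P₂ Z₂ cc := by
    rw [← hcab, cd_add P₂ Z₂ ca cb]
  rw [hsum₁, hsum₂] at hmul
  -- the lattice of functions vanishing at `P` and `P'`
  set D₂ : Divisor L F := cd E1 E2 cc - Finsupp.single P (1 : ℤ) - Finsupp.single P' (1 : ℤ)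
    with hD₂
  set H₂ := redSub S.hOA red π S.hπ S.hconst (riemannRochSpace D₂) with hH₂
  set G₂ := gluedSpace e₁ e₂ (fun _ => (1 : k)) (cd P₁ Z₁ cc - 2 • Finsupp.single Q (1 : ℤ))
    (cd P₂ Z₂ cc) with hG₂
  have hle : G₂ ≤ H₂ := by
    rw [← hmul, Submodule.mul_le]
    intro s hs s' hs'
    obtain ⟨y, hy, rfl⟩ := (hP.iff S hF hQP hQZ hcaN s).2 hs
    obtain ⟨y', hy', rfl⟩ := (hP'.iff S hF hQP hQZ hcbN s').2 hs'
    refine ⟨y * y', ?_, map_mul _ _ _⟩
    have h := mul_mem_L_add hy hy'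
    have e : cd E1 E2 ca - Finsupp.single P (1 : ℤ) + (cd E1 E2 cb - Finsupp.single P' (1 : ℤ))
        = D₂ := by
      rw [hD₂, ← hcab, cd_add E1 E2 ca cb]
      abel
    rw [e] at h
    exact h
  -- dimensions
  have hfH : Module.finrank k H₂ = Module.finrank L (riemannRochSpace D₂) :=
    (S.hlat D₂).finrank_redSub S.hOA red π S.hπ S.hπker S.hconst S.hker
  have hdegD₂ : Divisor.degree D₂ = dE + 2 * (a * pE) - 2 := by
    rw [hD₂, map_sub, map_sub, hdeg_cE, hdegP, hdegP]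
    ring
  have hfD₂ := (hcF D₂ (by rw [hdegD₂]; linarith)).2
  have hfE := (hcF (cd E1 E2 cc) (by rw [hdeg_cE]; linarith)).2
  have hfG : Module.finrank k (gluedSpace e₁ e₂ (fun _ => (1 : k)) (cd P₁ Z₁ cc) (cd P₂ Z₂ cc))
      = Module.finrank L (riemannRochSpace (cd E1 E2 cc)) := by
    rw [← S.redSub_eq hccN]
    exact (S.hlat _).finrank_redSub S.hOA red π S.hπ S.hπker S.hconst S.hker
  have hgl := hcg (fun _ => (1 : k)) (cd P₁ Z₁ cc) (cd P₂ Z₂ cc)
    (by rw [hdeg_c₁]; linarith) (by rw [hdeg_c₂]; linarith)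
    (fun i => (hnode₁ _ i).le) (fun i => hnode₂ _ i)
  have hgl2 := hcg (fun _ => (1 : k)) (cd P₁ Z₁ cc - 2 • Finsupp.single Q (1 : ℤ)) (cd P₂ Z₂ cc)
    (by rw [map_sub, map_nsmul, hdeg_c₁, hdegQ]; simp only [nsmul_eq_mul]; push_cast; linarith)
    (by rw [hdeg_c₂]; linarith)
    (fun i => by rw [Finsupp.sub_apply, Finsupp.smul_apply, hnode₁, hQnode]; simp)
    (fun i => hnode₂ _ i)
  have hdeg2 : Divisor.degree (cd P₁ Z₁ cc - 2 • Finsupp.single Q (1 : ℤ))
      = Divisor.degree (cd P₁ Z₁ cc) - 2 := by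
    rw [map_sub, map_nsmul, hdegQ]
    simp
  have hfeq : Module.finrank k G₂ = Module.finrank k H₂ := by
    have h1 : (Module.finrank k G₂ : ℤ) = (Module.finrank k H₂ : ℤ) := by
      rw [hfH, hfD₂, hdegD₂, hG₂, hgl2, hdeg2]
      have h2 : (Module.finrank k
          (gluedSpace e₁ e₂ (fun _ => (1 : k)) (cd P₁ Z₁ cc) (cd P₂ Z₂ cc)) : ℤ)
          = (Module.finrank L (riemannRochSpace (cd E1 E2 cc)) : ℤ) := by
        exact_mod_cast hfG
      rw [hgl, hfE, hdeg_cE] at h2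
      linarith
    exact_mod_cast h1
  haveI : Module.Finite k H₂ := S.finite_redSub _ (S.hlat _)
  have heq : G₂ = H₂ := Submodule.eq_of_le_of_finrank_eq hle hfeq
  -- `u` vanishes at `P` and `P'`
  obtain ⟨hE1P, hE2P⟩ := hP.apply_eq_zero S
  obtain ⟨hE1P', hE2P'⟩ := hP'.apply_eq_zero S
  have hu0 : (u : F) ≠ 0 := by
    intro h0
    rw [h0, Place.ord_zero] at hPu
    exact lt_irrefl _ hPu
  have huD₂ : (u : F) ∈ riemannRochSpace D₂ := by
    intro v
    rw [hD₂, Finsupp.sub_apply, Finsupp.sub_apply, Finsupp.single_apply, Finsupp.single_apply]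
    by_cases hv : P = v
    · subst hv
      rw [if_pos rfl, if_neg (fun h => hne h.symm), cd_apply_eq_zero hE1P hE2P,
        Place.adicValuation_le_exp_iff]
      right
      omega
    · by_cases hv' : P' = v
      · subst hv'
        rw [if_neg hv, if_pos rfl, cd_apply_eq_zero hE1P' hE2P', Place.adicValuation_le_exp_iff]
        right
        omega
      · rw [if_neg hv, if_neg hv', sub_zero, sub_zero]
        refine (huL v).trans ?_
        rw [exp_le_exp, hcc]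
        exact cd_le_add S.hE1 S.hE2 n _ v
  have hred : red u ∈ G₂ := by
    rw [heq]
    exact ⟨u, huD₂, rfl⟩
  exact hu2 ((mem_glued_sub_nsmul_iff (cd_apply_eq_zero hQP hQZ cc) 2).1 hred).2

/-! ### Semilinear automorphisms -/

theorem apply_smul_of_smul_eq {g : SemilinearAut L F} {E : Divisor L F} (hE : g • E = E)
    (v : Place L F) : E (g • v) = E v := by
  have h := SemilinearAut.divisor_smul_apply_smul g E v
  rwa [hE] at h

/-- Automorphisms preserving `O`, the reduction and the chart divisors preserve `RedTo`. -/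
theorem RedTo.smul (g : SemilinearAut L F) (hgO : ∀ y ∈ O, g⁻¹ • y ∈ O)
    (hgred : ∀ (y : O) (h : g⁻¹ • (y : F) ∈ O), red ⟨g⁻¹ • (y : F), h⟩ = red y)
    (hgE1 : g • E1 = E1) (hgE2 : g • E2 = E2) {Q : Place k F₁} {P : Place L F}
    (hP : RedTo red E1 E2 N₀ Q P) : RedTo red E1 E2 N₀ Q (g • P) := by
  classical
  intro n hn y hy
  have hy' : g⁻¹ • (y : F) ∈ riemannRochSpace (cd E1 E2 n - Finsupp.single P (1 : ℤ)) := by
    intro v
    rw [Fermat.Agent.Padic.adicValuation_semilinear_smul', inv_inv]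
    refine (hy (g • v)).trans ?_
    rw [exp_le_exp, Finsupp.sub_apply, Finsupp.sub_apply, cd_apply, cd_apply,
      apply_smul_of_smul_eq hgE1, apply_smul_of_smul_eq hgE2, Finsupp.single_apply,
      Finsupp.single_apply]
    by_cases hv : P = v
    · subst hv
      rw [if_pos rfl, if_pos rfl]
    · rw [if_neg hv, if_neg (fun h => hv (MulAction.injective g h))]
  have h1 := hP n hn ⟨g⁻¹ • (y : F), hgO _ y.2⟩ hy'
  rwa [hgred y] at h1

/-! ### Sections with a simple zero -/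

/-- Sections of the glued space with a simple zero at a non-node place of the first component
and nonzero second component. -/
theorem exists_simple_zero {x₁ : F₁} {x₂ : F₂} (h₁ : IsFF1 k F₁ x₁) (h₂ : IsFF1 k F₂ x₂)
    {e₁ : ι → Place k F₁} {e₂ : ι → Place k F₂} (hinj₁ : Function.Injective e₁)
    (hinj₂ : Function.Injective e₂) {P₁ : Divisor k F₁} {P₂ : Divisor k F₂}
    (hP₁ : ∀ i, P₁ (e₁ i) = 0) (hP₂ : ∀ i, P₂ (e₂ i) = 0)
    (hdegP₁ : 0 < Divisor.degree P₁) (hdegP₂ : 0 < Divisor.degree P₂)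
    {Q : Place k F₁} (hQ : ∀ i, e₁ i ≠ Q) (hQP : P₁ Q = 0) :
    ∃ n₀ : ℕ, ∀ n : ℕ, n₀ ≤ n →
      ∃ t ∈ gluedSpace e₁ e₂ (fun _ => (1 : k)) (n • P₁) (n • P₂),
        Q.adicValuation t.1 = exp (-1 : ℤ) ∧ t.2 ≠ 0 := by
  classical
  obtain ⟨c₁, hc₁⟩ := h₁.exists_degree_bound
  refine ⟨(c₁ + 2 + Fintype.card ι).toNat + ((genusFF k F₂ : ℤ) + Fintype.card ι).toNat,
    fun n hn => ?_⟩
  have hn1 : c₁ + 2 + Fintype.card ι ≤ (n : ℤ) := by
    have h1 := Int.self_le_toNat (c₁ + 2 + Fintype.card ι)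
    have h2 : ((c₁ + 2 + Fintype.card ι).toNat : ℤ) ≤ n := by
      exact_mod_cast (Nat.le_add_right _ _).trans hn
    linarith
  have hn2 : (genusFF k F₂ : ℤ) + Fintype.card ι ≤ (n : ℤ) := by
    have h1 := Int.self_le_toNat ((genusFF k F₂ : ℤ) + Fintype.card ι)
    have h2 : ((((genusFF k F₂ : ℤ) + Fintype.card ι).toNat : ℕ) : ℤ) ≤ n := by
      exact_mod_cast (Nat.le_add_left _ _).trans hn
    linarith
  have hn0 : (0 : ℤ) ≤ (n : ℤ) := Int.natCast_nonneg _
  have hnp₁ : (n : ℤ) ≤ n * Divisor.degree P₁ := by nlinarith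
  have hnp₂ : (n : ℤ) ≤ n * Divisor.degree P₂ := by nlinarith
  have hnQ : (n • P₁) Q = 0 := by
    rw [Finsupp.smul_apply, hQP, smul_zero]
  have hQnode : ∀ i, (Finsupp.single Q (1 : ℤ) : Divisor k F₁) (e₁ i) = 0 := by
    intro i
    rw [Finsupp.single_apply, if_neg (fun h => hQ i h.symm)]
  have hB : ∀ i, (n • P₁ - Finsupp.single Q (1 : ℤ)) (e₁ i) = 0 := by
    intro i
    rw [Finsupp.sub_apply, Finsupp.smul_apply, hP₁, hQnode, smul_zero, sub_zero]
  have hB' : ∀ i, (n • P₁ - 2 • Finsupp.single Q (1 : ℤ)) (e₁ i) = 0 := by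
    intro i
    rw [Finsupp.sub_apply, Finsupp.smul_apply, Finsupp.smul_apply, hP₁, hQnode, smul_zero,
      smul_zero, sub_zero]
  have hdegQ : Divisor.degree (Finsupp.single Q (1 : ℤ)) = 1 := by
    rw [Divisor.degree_single, h₁.deg_eq_one]
    simp
  set D1 : Divisor k F₁ := n • P₁ - Finsupp.single Q (1 : ℤ) - nodeDiv e₁ with hD1
  set D2 : Divisor k F₁ := n • P₁ - 2 • Finsupp.single Q (1 : ℤ) - nodeDiv e₁ with hD2
  have hdegD1 : Divisor.degree D1 = n * Divisor.degree P₁ - 1 - Fintype.card ι := by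
    rw [hD1, degree_sub_nodeDiv h₁, map_sub, map_nsmul, hdegQ, nsmul_eq_mul]
  have hdegD2 : Divisor.degree D2 = n * Divisor.degree P₁ - 2 - Fintype.card ι := by
    rw [hD2, degree_sub_nodeDiv h₁, map_sub, map_nsmul, map_nsmul, hdegQ, nsmul_eq_mul]
    simp
  have hf1 := (hc₁ D1 (by rw [hdegD1]; linarith)).2
  have hf2 := (hc₁ D2 (by rw [hdegD2]; linarith)).2
  have hex : ∃ a ∈ riemannRochSpace D1, a ∉ riemannRochSpace D2 := by
    by_contra hall
    push Not at hall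
    have hle : riemannRochSpace D1 ≤ riemannRochSpace D2 := hall
    haveI := h₁.finite_L D2
    have h3 := Submodule.finrank_mono hle
    have h4 : (Module.finrank k (riemannRochSpace D1) : ℤ)
        ≤ Module.finrank k (riemannRochSpace D2) := by exact_mod_cast h3
    rw [hf1, hf2, hdegD1, hdegD2] at h4
    linarith
  obtain ⟨a, haD1, haD2⟩ := hex
  obtain ⟨haB, hacong⟩ := (mem_L_sub_nodeDiv_iff hinj₁ hB).1 haD1
  obtain ⟨haL, haν⟩ := (mem_L_sub_single_iff hnQ).1 haB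
  have haν2 : ¬ Q.adicValuation a ≤ exp (-2 : ℤ) := by
    intro h
    apply haD2
    refine (mem_L_sub_nodeDiv_iff hinj₁ hB').2 ⟨?_, hacong⟩
    exact (mem_L_sub_nsmul_single_iff hnQ 2).2 ⟨haL, by simpa using h⟩
  have haν1 : Q.adicValuation a = exp (-1 : ℤ) :=
    eq_exp_of_le_of_not_le haν (by simpa using haν2)
  -- the second component
  have hdegD3 : Divisor.degree (n • P₂ - nodeDiv e₂)
      = n * Divisor.degree P₂ - Fintype.card ι := by
    rw [degree_sub_nodeDiv h₂, map_nsmul, nsmul_eq_mul]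
  obtain ⟨b, hb0, hb⟩ := h₂.exists_ne_zero_of_degree_ge (n • P₂ - nodeDiv e₂)
    (by rw [hdegD3]; linarith)
  have hbD : b ∈ riemannRochSpace (n • P₂ - nodeDiv e₂) := by
    rw [mem_riemannRochSpace_iff]
    intro v
    right
    have := hb v
    omega
  have hB₂ : ∀ i, (n • P₂) (e₂ i) = 0 := by
    intro i
    rw [Finsupp.smul_apply, hP₂, smul_zero]
  obtain ⟨hbL, hbcong⟩ := (mem_L_sub_nodeDiv_iff hinj₂ hB₂).1 hbD
  refine ⟨(a, b), ?_, haν1, hb0⟩
  have h := Submodule.add_mem _ (mk_zero_mem_gluedSpace (e₁ := e₁) (e₂ := e₂) (D₂ := n • P₂)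
    haL hacong) (zero_mk_mem_gluedSpace (e₁ := e₁) (e₂ := e₂) (D₁ := n • P₁) hbL hbcong)
  rwa [Prod.mk_add_mk, add_zero, zero_add] at h

/-! ### The packaged statement, first component -/

/-- **Places with prescribed smooth reduction (first component).**  Let `u ∈ L(chart) ∩ O` have a
reduction with a simple zero at the non-node place `Q` of the first component and nonzero
second component.  Then `u` has a zero `P`, outside the supports of `E1`, `E2`, such that the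
reduction of `L(chart - P) ∩ O` is the space of glued sections vanishing at `Q`, for every
chart; and `P` is fixed by every semilinear automorphism fixing `u` and preserving the data. -/
theorem exists_place_fst (S : Setup A O red π e₁ e₂ P₁ Z₁ P₂ Z₂ E1 E2 N₀) {x : F}
    (hF : IsFF1 L F x) {x₁ : F₁} {x₂ : F₂} (h₁ : IsFF1 k F₁ x₁) (h₂ : IsFF1 k F₂ x₂)
    [Infinite k] {Q : Place k F₁} (hQ : ∀ i, e₁ i ≠ Q) (hQP : P₁ Q = 0) (hQZ : Z₁ Q = 0)
    {n : ℕ × ℕ} (u : O) (huL : (u : F) ∈ riemannRochSpace (cd E1 E2 n))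
    (hν : Q.adicValuation (red u).1 = exp (-1 : ℤ)) (hu2 : (red u).2 ≠ 0) :
    ∃ P : Place L F, E1 P = 0 ∧ E2 P = 0 ∧ 0 < P.ord (u : F) ∧
      (∀ m : ℕ × ℕ, N₀ ≤ m.1 + m.2 → ∀ t : F₁ × F₂,
        (∃ y : O, (y : F) ∈ riemannRochSpace (cd E1 E2 m - Finsupp.single P (1 : ℤ)) ∧
            red y = t) ↔
          t ∈ gluedSpace e₁ e₂ (fun _ => (1 : k)) (cd P₁ Z₁ m - Finsupp.single Q (1 : ℤ))
            (cd P₂ Z₂ m)) ∧
      ∀ g : SemilinearAut L F, g • (u : F) = u → (∀ y ∈ O, g⁻¹ • y ∈ O) →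
        (∀ (y : O) (h : g⁻¹ • (y : F) ∈ O), red ⟨g⁻¹ • (y : F), h⟩ = red y) →
        g • E1 = E1 → g • E2 = E2 → g • P = P := by
  have hu1 : Q.adicValuation (red u).1 ≤ exp (-1 : ℤ) := hν.le
  have hu1' : (red u).1 ≠ 0 := by
    intro h0
    rw [h0, map_zero] at hν
    exact exp_ne_zero hν.symm
  have hu2' : ¬ Q.adicValuation (red u).1 ≤ exp (-2 : ℤ) := by
    rw [hν, exp_le_exp]
    omega
  obtain ⟨P, hPu, hP⟩ := exists_redTo S hF hQP hQZ u hu1 hu1' hu2
  refine ⟨P, (hP.apply_eq_zero S).1, (hP.apply_eq_zero S).2, hPu,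
    fun m hm t => hP.iff S hF hQP hQZ hm t, fun g hgu hgO hgred hgE1 hgE2 => ?_⟩
  have hgP : RedTo red E1 E2 N₀ Q (g • P) := hP.smul g hgO hgred hgE1 hgE2
  have hgPu : 0 < (g • P).ord (u : F) := by
    have h := SemilinearAut.ord_smul (g := g) (v := P) (u : F)
    rw [hgu] at h
    rw [h]
    exact hPu
  exact redTo_unique S hF h₁ h₂ hQ hQP hQZ u huL hu2' hgP hP hgPu hPu

/-! ### The second component: swapping the two components -/

theorem mem_gluedSpace_swap {e₁ : ι → Place k F₁} {e₂ : ι → Place k F₂}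
    {D₁ : Divisor k F₁} {D₂ : Divisor k F₂} {t : F₁ × F₂} :
    t.swap ∈ gluedSpace e₂ e₁ (fun _ => (1 : k)) D₂ D₁ ↔
      t ∈ gluedSpace e₁ e₂ (fun _ => (1 : k)) D₁ D₂ := by
  rw [mem_gluedSpace, mem_gluedSpace]
  constructor
  · rintro ⟨h1, h2, h3⟩
    refine ⟨h2, h1, fun i => ?_⟩
    obtain ⟨c, hc1, hc2⟩ := h3 i
    rw [one_mul] at hc2
    exact ⟨c, hc2, by rw [one_mul]; exact hc1⟩
  · rintro ⟨h1, h2, h3⟩
    refine ⟨h2, h1, fun i => ?_⟩
    obtain ⟨c, hc1, hc2⟩ := h3 i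
    rw [one_mul] at hc2
    exact ⟨c, hc2, by rw [one_mul]; exact hc1⟩

/-- The reduction map with the two components swapped. -/
def redSwap (red : O →+* F₁ × F₂) : O →+* F₂ × F₁ :=
  (RingEquiv.prodComm : F₁ × F₂ ≃+* F₂ × F₁).toRingHom.comp red

theorem redSwap_apply (red : O →+* F₁ × F₂) (y : O) : redSwap red y = (red y).swap := rfl

theorem Setup.swap (S : Setup A O red π e₁ e₂ P₁ Z₁ P₂ Z₂ E1 E2 N₀) :
    Setup A O (redSwap red) π e₂ e₁ P₂ Z₂ P₁ Z₁ E1 E2 N₀ where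
  hOA := S.hOA
  hval := S.hval
  hπ := S.hπ
  hπker := S.hπker
  hconst := fun a => by
    rw [redSwap_apply, S.hconst a]
    rfl
  hker := fun y => by
    rw [← S.hker y, redSwap_apply]
    constructor
    · intro h
      have h' := congrArg Prod.swap h
      rw [Prod.swap_swap] at h'
      rw [h']
      rfl
    · intro h
      rw [h]
      rfl
  hlat := S.hlat
  hinj₁ := S.hinj₂
  hinj₂ := S.hinj₁
  hP₁ := S.hP₂
  hZ₁ := S.hZ₂
  hP₂ := S.hP₁
  hZ₂ := S.hZ₁
  hdegP₁ := S.hdegP₂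
  hdegP₂ := S.hdegP₁
  hE1 := S.hE1
  hE2 := S.hE2
  hdegE1 := S.hdegE1
  hS2 := fun n hn t => by
    have h := S.hS2 n hn t.swap
    rw [← mem_gluedSpace_swap, Prod.swap_swap] at h
    rw [← h]
    constructor
    · rintro ⟨y, hy, rfl⟩
      exact ⟨y, hy, by rw [redSwap_apply, Prod.swap_swap]⟩
    · rintro ⟨y, hy, hyt⟩
      exact ⟨y, hy, by rw [redSwap_apply, hyt, Prod.swap_swap]⟩

/-- Sections of the glued space with a simple zero at a non-node place of the second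
component and nonzero first component. -/
theorem exists_simple_zero_snd {x₁ : F₁} {x₂ : F₂} (h₁ : IsFF1 k F₁ x₁) (h₂ : IsFF1 k F₂ x₂)
    {e₁ : ι → Place k F₁} {e₂ : ι → Place k F₂} (hinj₁ : Function.Injective e₁)
    (hinj₂ : Function.Injective e₂) {P₁ : Divisor k F₁} {P₂ : Divisor k F₂}
    (hP₁ : ∀ i, P₁ (e₁ i) = 0) (hP₂ : ∀ i, P₂ (e₂ i) = 0)
    (hdegP₁ : 0 < Divisor.degree P₁) (hdegP₂ : 0 < Divisor.degree P₂)
    {Q : Place k F₂} (hQ : ∀ i, e₂ i ≠ Q) (hQP : P₂ Q = 0) :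
    ∃ n₀ : ℕ, ∀ n : ℕ, n₀ ≤ n →
      ∃ t ∈ gluedSpace e₁ e₂ (fun _ => (1 : k)) (n • P₁) (n • P₂),
        Q.adicValuation t.2 = exp (-1 : ℤ) ∧ t.1 ≠ 0 := by
  obtain ⟨n₀, hn₀⟩ := exists_simple_zero h₂ h₁ hinj₂ hinj₁ hP₂ hP₁ hdegP₂ hdegP₁ hQ hQP
  refine ⟨n₀, fun n hn => ?_⟩
  obtain ⟨t, ht, hν, h0⟩ := hn₀ n hn
  refine ⟨t.swap, ?_, hν, h0⟩
  rw [← mem_gluedSpace_swap, Prod.swap_swap]
  exact ht

/-- **Places with prescribed smooth reduction (second component).** -/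
theorem exists_place_snd (S : Setup A O red π e₁ e₂ P₁ Z₁ P₂ Z₂ E1 E2 N₀) {x : F}
    (hF : IsFF1 L F x) {x₁ : F₁} {x₂ : F₂} (h₁ : IsFF1 k F₁ x₁) (h₂ : IsFF1 k F₂ x₂)
    [Infinite k] {Q : Place k F₂} (hQ : ∀ i, e₂ i ≠ Q) (hQP : P₂ Q = 0) (hQZ : Z₂ Q = 0)
    {n : ℕ × ℕ} (u : O) (huL : (u : F) ∈ riemannRochSpace (cd E1 E2 n))
    (hν : Q.adicValuation (red u).2 = exp (-1 : ℤ)) (hu1 : (red u).1 ≠ 0) :
    ∃ P : Place L F, E1 P = 0 ∧ E2 P = 0 ∧ 0 < P.ord (u : F) ∧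
      (∀ m : ℕ × ℕ, N₀ ≤ m.1 + m.2 → ∀ t : F₁ × F₂,
        (∃ y : O, (y : F) ∈ riemannRochSpace (cd E1 E2 m - Finsupp.single P (1 : ℤ)) ∧
            red y = t) ↔
          t ∈ gluedSpace e₁ e₂ (fun _ => (1 : k)) (cd P₁ Z₁ m)
            (cd P₂ Z₂ m - Finsupp.single Q (1 : ℤ))) ∧
      ∀ g : SemilinearAut L F, g • (u : F) = u → (∀ y ∈ O, g⁻¹ • y ∈ O) →
        (∀ (y : O) (h : g⁻¹ • (y : F) ∈ O), red ⟨g⁻¹ • (y : F), h⟩ = red y) →
        g • E1 = E1 → g • E2 = E2 → g • P = P := by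
  obtain ⟨P, h1, h2, h3, h4, h5⟩ :=
    exists_place_fst S.swap hF h₂ h₁ hQ hQP hQZ u huL hν hu1
  refine ⟨P, h1, h2, h3, fun m hm t => ?_, fun g hgu hgO hgred hgE1 hgE2 =>
    h5 g hgu hgO (fun y h => ?_) hgE1 hgE2⟩
  · rw [← mem_gluedSpace_swap, ← h4 m hm t.swap]
    constructor
    · rintro ⟨y, hy, rfl⟩
      exact ⟨y, hy, rfl⟩
    · rintro ⟨y, hy, hyt⟩
      exact ⟨y, hy, Prod.swap_injective hyt⟩
  · rw [redSwap_apply, redSwap_apply, hgred y h]

end Two

end Fermat.Agent.BAD.SmoothLift
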