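/-
S33 / Route C, row 406 (RC-2), half (H): inertia-fixed places of `F_{Mq}` with prescribed smooth
reduction on the nodal special fibre of `X₀(Mq)` — MODULAR INSTANCE of `BAD/SmoothLift.lean`.

Setting of `BadU` / `KerRed` / `BasePtsInst`: `A` a valuation subring of `ℚ̄` over `q`,
`π : A → k` onto an algebraically closed field, `h : BadSetup A π M q`, `O = OPair h W`,
`redPair h W : O → κ × κ`, and a nodal datum `(ι, e₁, e₂, P₁, Z₁, P₂, Z₂, E1, E2)` as in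
`BadU.NodalFibreAt` / `KerRed.NodalFibreFor` (its conjuncts are hypotheses here).

* `exists_fixed_place_fst`, `exists_fixed_place_snd` : every point `Qt` of a component which is
  not a node and not in the support of `P_j`, `Z_j` is the reduction of an inertia-fixed place
  `Q` of `F_{Mq}` off `E1`, `E2`: for every large chart,
  `red (L(n₁ E1 + n₂ E2 - Q) ∩ O) = gluedSpace (… - Qt) …`; in particular `RedTo₁` / `RedTo₂`
  of `BasePtsInst`.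
* `hlift_fst`, `hlift_snd` : the hypotheses `hlift₁`, `hlift₂` of `BasePts.exists_basePoints`.
* `exists_basePoints_closed` : `BasePts.exists_basePoints` without the lifting hypotheses.
-/
import Mathlib
import Fermat.Agent.BAD.SmoothLift
import Fermat.Agent.BAD.BasePtsAsm
import Fermat.Agent.BAD.LatFixedLift

set_option autoImplicit false
set_option linter.style.haveILetI false
set_option linter.unusedSectionVars false

noncomputable section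

namespace Fermat.Agent.BAD.SmoothLiftInst

open AlgebraicCurve ModularCurve WithZero Fermat.Agent.Lib.FF Fermat.Agent.Lib.Red.Deform
  Fermat.Agent.Lib.Red.CoordLat Fermat.Agent.BAD.NodalDiv Fermat.Agent.BAD.NodalRiemann
  Fermat.Agent.BAD.TwoVal Fermat.Agent.BAD.NodalAsm Fermat.Agent.BAD.BadU
  Fermat.Agent.BAD.SmoothLift Fermat.Agent.BAD.BasePts

local notation "Qb" => AlgebraicClosure ℚ

variable {A : ValuationSubring Qb} {k : Type} [Field k] {π : A →+* k} {M q : ℕ} [NeZero M]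
  [NeZero q]

section Galois

variable [IsAlgClosed k] (hπ : Function.Surjective π) (h : BadSetup A π M q)
  (W : laurentBaseChange Qb (modularFunctionFieldFull (M * q)) ≃ₐ[Qb]
    laurentBaseChange Qb (modularFunctionFieldFull (M * q))) (hW : IsAL M q W)
  (hA : A.LiesOverPrime q)

include hπ hW hA

set_option maxHeartbeats 1000000 in
/-- The inertia group acts on `O = OPair h W` compatibly with the reduction (GAL). -/
theorem galois_mem (σ : Qb ≃ₐ[ℚ] Qb) (hσ : σ ∈ A.inertiaSubgroupIn ℚ) :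
    (∀ y ∈ OPair h W, arithmeticGalois (modularFunctionFieldFull (M * q)) σ • y ∈ OPair h W) ∧
    (∀ (y : OPair h W)
      (hy : arithmeticGalois (modularFunctionFieldFull (M * q)) σ •
        (y : laurentBaseChange Qb (modularFunctionFieldFull (M * q))) ∈ OPair h W),
      redPair h W ⟨_, hy⟩ = redPair h W y) := by
  have hgal := galoisAt hπ h W hW hA
  constructor
  · intro y hy
    obtain ⟨h1, h2⟩ := (mem_OPair_iff h y).1 hy
    obtain ⟨h1', -⟩ := (hgal σ hσ y).1 h1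
    obtain ⟨h2', -⟩ := (hgal σ hσ y).2 h2
    exact (mem_OPair_iff h _).2 ⟨h1', h2'⟩
  · rintro ⟨y, hy⟩ hy'
    obtain ⟨h1, h2⟩ := (mem_OPair_iff h y).1 hy
    obtain ⟨h1', r1⟩ := (hgal σ hσ y).1 h1
    obtain ⟨h2', r2⟩ := (hgal σ hσ y).2 h2
    rw [redPair_mk, redPair_mk]
    exact congrArg₂ Prod.mk r1 r2

/-- (GAL) for the inverse, in the form used by `SmoothLift.exists_place_fst`. -/
theorem galois_inv_mem (σ : Qb ≃ₐ[ℚ] Qb) (hσ : σ ∈ A.inertiaSubgroupIn ℚ) :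
    (∀ y ∈ OPair h W, (arithmeticGalois (modularFunctionFieldFull (M * q)) σ)⁻¹ • y ∈ OPair h W) ∧
    (∀ (y : OPair h W)
      (hy : (arithmeticGalois (modularFunctionFieldFull (M * q)) σ)⁻¹ •
        (y : laurentBaseChange Qb (modularFunctionFieldFull (M * q))) ∈ OPair h W),
      redPair h W ⟨_, hy⟩ = redPair h W y) := by
  have hσ' : σ⁻¹ ∈ A.inertiaSubgroupIn ℚ := Subgroup.inv_mem _ hσ
  have e : (arithmeticGalois (modularFunctionFieldFull (M * q)) σ)⁻¹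
      = arithmeticGalois (modularFunctionFieldFull (M * q)) σ⁻¹ := (map_inv _ σ).symm
  rw [e]
  exact galois_mem hπ h W hW hA σ⁻¹ hσ'

end Galois

section

variable [IsAlgClosed k] (hπ : Function.Surjective π) (h : BadSetup A π M q)
  (W : laurentBaseChange Qb (modularFunctionFieldFull (M * q)) ≃ₐ[Qb]
    laurentBaseChange Qb (modularFunctionFieldFull (M * q))) (hW : IsAL M q W)
  (hA : A.LiesOverPrime q)
  (E1 E2 : Divisor Qb (laurentBaseChange Qb (modularFunctionFieldFull (M * q))))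
  {ι : Type} [Fintype ι]
  (e₁ e₂ : ι → Place k (modularFunctionFieldFullC k M))
  (P₁ Z₁ P₂ Z₂ : Divisor k (modularFunctionFieldFullC k M))
  (hinj₁ : Function.Injective e₁) (hinj₂ : Function.Injective e₂)
  (hP₁ : ∀ i, P₁ (e₁ i) = 0) (hZ₁ : ∀ i, Z₁ (e₁ i) = 0)
  (hP₂ : ∀ i, P₂ (e₂ i) = 0) (hZ₂ : ∀ i, Z₂ (e₂ i) = 0)
  (hdegP₁ : 0 < Divisor.degree P₁) (hdegP₂ : 0 < Divisor.degree P₂)
  (hE1 : ∀ v, 0 ≤ E1 v) (hE2 : ∀ v, 0 ≤ E2 v)
  (hdegE1 : 0 < Divisor.degree E1)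
  (hgalE : ∀ σ ∈ A.inertiaSubgroupIn ℚ,
    arithmeticGalois (modularFunctionFieldFull (M * q)) σ • E1 = E1 ∧
    arithmeticGalois (modularFunctionFieldFull (M * q)) σ • E2 = E2)
  (N₀ : ℕ)
  (hS2 : ∀ n₁ n₂ : ℕ, N₀ ≤ n₁ + n₂ →
    ∀ t : ↥(modularFunctionFieldFullC k M) × ↥(modularFunctionFieldFullC k M),
      (∃ y : OPair h W,
          (y : laurentBaseChange Qb (modularFunctionFieldFull (M * q))) ∈
            riemannRochSpace (n₁ • E1 + n₂ • E2) ∧ redPair h W y = t) ↔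
        t ∈ gluedSpace e₁ e₂ (fun _ => (1 : k))
          (n₁ • P₁ + n₂ • Z₁) (n₁ • P₂ + n₂ • Z₂))

include hπ hW hinj₁ hinj₂ hP₁ hZ₁ hP₂ hZ₂ hdegP₁ hdegP₂ hE1 hE2 hdegE1 hS2

/-- The abstract setting of `BAD/SmoothLift.lean` for the modular nodal datum. -/
theorem setup_modular :
    Setup A (OPair h W) (redPair h W) π e₁ e₂ P₁ Z₁ P₂ Z₂ E1 E2 N₀ where
  hOA := fun x => OPair_hOA h x
  hval := OPair_hval h
  hπ := hπ
  hπker := h.pi_eq_zero_iff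
  hconst := fun a => (redPair_algebraMap h a _).trans rfl
  hker := redPair_eq_zero_iff h
  hlat := latAt hπ h W hW
  hinj₁ := hinj₁
  hinj₂ := hinj₂
  hP₁ := hP₁
  hZ₁ := hZ₁
  hP₂ := hP₂
  hZ₂ := hZ₂
  hdegP₁ := hdegP₁
  hdegP₂ := hdegP₂
  hE1 := hE1
  hE2 := hE2
  hdegE1 := hdegE1
  hS2 := fun n hn t => hS2 n.1 n.2 hn t

include hA hgalE

/-- `n • E1` is inertia-invariant. -/
theorem galois_nsmul_E1 (n : ℕ) (σ : Qb ≃ₐ[ℚ] Qb) (hσ : σ ∈ A.inertiaSubgroupIn ℚ) :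
    arithmeticGalois (modularFunctionFieldFull (M * q)) σ • (n • E1) = n • E1 := by
  ext v
  rw [SemilinearAut.divisor_smul_apply, Finsupp.smul_apply, Finsupp.smul_apply,
    ← SemilinearAut.divisor_smul_apply, (hgalE σ hσ).1]

set_option maxHeartbeats 1000000 in
/-- **S33 (RC-2), half (H), first component.**  Every point `Qt` of the first component of the
special fibre which is not a node and not in the support of `P₁`, `Z₁` is the reduction of an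
inertia-fixed place `Q` of `F_{Mq}` off `E1`, `E2`: on every large chart the reduction of
`L(n₁ E1 + n₂ E2 - Q) ∩ O` is the space of glued sections vanishing at `Qt`. -/
theorem exists_fixed_place_fst (Qt : Place k (modularFunctionFieldFullC k M))
    (hQt : ∀ i, e₁ i ≠ Qt) (hQP : P₁ Qt = 0) (hQZ : Z₁ Qt = 0) :
    ∃ Q : Place Qb (laurentBaseChange Qb (modularFunctionFieldFull (M * q))),
      (∀ σ ∈ A.inertiaSubgroupIn ℚ,
        arithmeticGalois (modularFunctionFieldFull (M * q)) σ • Q = Q) ∧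
      E1 Q = 0 ∧ E2 Q = 0 ∧
      ∀ n₁ n₂ : ℕ, N₀ ≤ n₁ + n₂ →
        ∀ t : ↥(modularFunctionFieldFullC k M) × ↥(modularFunctionFieldFullC k M),
          (∃ y : OPair h W,
              (y : laurentBaseChange Qb (modularFunctionFieldFull (M * q))) ∈
                riemannRochSpace (n₁ • E1 + n₂ • E2 - Finsupp.single Q (1 : ℤ)) ∧
              redPair h W y = t) ↔
            t ∈ gluedSpace e₁ e₂ (fun _ => (1 : k))
              (n₁ • P₁ + n₂ • Z₁ - Finsupp.single Qt (1 : ℤ)) (n₁ • P₂ + n₂ • Z₂) := by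
  classical
  have hq : q.Prime := h.hℓ
  have S := setup_modular hπ h W hW E1 E2 e₁ e₂ P₁ Z₁ P₂ Z₂ hinj₁ hinj₂ hP₁ hZ₁ hP₂ hZ₂
    hdegP₁ hdegP₂ hE1 hE2 hdegE1 N₀ hS2
  haveI : Infinite k := IsAlgClosed.instInfinite
  obtain ⟨n₀, hn₀⟩ := exists_simple_zero (isFF1_xk k M) (isFF1_xk k M) hinj₁ hinj₂ hP₁ hP₂
    hdegP₁ hdegP₂ hQt hQP
  obtain ⟨t, ht, hν, ht2⟩ := hn₀ (max n₀ N₀) (le_max_left _ _)
  -- a lift of `t`
  have ht' : t ∈ gluedSpace e₁ e₂ (fun _ => (1 : k))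
      ((max n₀ N₀) • P₁ + 0 • Z₁) ((max n₀ N₀) • P₂ + 0 • Z₂) := by
    rw [zero_smul, zero_smul, add_zero, add_zero]
    exact ht
  obtain ⟨y, hy, hyt⟩ := (hS2 (max n₀ N₀) 0 (by rw [add_zero]; exact le_max_right _ _) t).2 ht'
  rw [zero_smul, add_zero] at hy
  -- an inertia-fixed lift
  obtain ⟨u, huO, huL, hufix, hured⟩ :=
    Fermat.Agent.BAD.LatFixedInst.exists_fixed_lift_rr hq hA h hπ hW ((max n₀ N₀) • E1)
      (galois_nsmul_E1 hπ h W hW hA E1 E2 e₁ e₂ P₁ Z₁ P₂ Z₂ hinj₁ hinj₂ hP₁ hZ₁ hP₂ hZ₂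
        hdegP₁ hdegP₂ hE1 hE2 hdegE1 hgalE N₀ hS2 (max n₀ N₀)) hy y.2
  have hured' : redPair h W ⟨u, huO⟩ = t := by
    rw [hured]
    exact hyt
  obtain ⟨Q, hQ1, hQ2, -, hiff, hfix⟩ := exists_place_fst S (isFF1_xL Qb (M * q))
    (isFF1_xk k M) (isFF1_xk k M) hQt hQP hQZ (n := (max n₀ N₀, 0)) ⟨u, huO⟩
    (by rw [cd_fst]; exact huL) (by rw [hured']; exact hν) (by rw [hured']; exact ht2)
  refine ⟨Q, fun σ hσ => ?_, hQ1, hQ2, fun n₁ n₂ hn t => hiff (n₁, n₂) hn t⟩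
  obtain ⟨g1, g2⟩ := galois_inv_mem hπ h W hW hA σ hσ
  exact hfix _ (hufix σ hσ) g1 g2 (hgalE σ hσ).1 (hgalE σ hσ).2

set_option maxHeartbeats 1000000 in
/-- **S33 (RC-2), half (H), second component.** -/
theorem exists_fixed_place_snd (Qt : Place k (modularFunctionFieldFullC k M))
    (hQt : ∀ i, e₂ i ≠ Qt) (hQP : P₂ Qt = 0) (hQZ : Z₂ Qt = 0) :
    ∃ Q : Place Qb (laurentBaseChange Qb (modularFunctionFieldFull (M * q))),
      (∀ σ ∈ A.inertiaSubgroupIn ℚ,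
        arithmeticGalois (modularFunctionFieldFull (M * q)) σ • Q = Q) ∧
      E1 Q = 0 ∧ E2 Q = 0 ∧
      ∀ n₁ n₂ : ℕ, N₀ ≤ n₁ + n₂ →
        ∀ t : ↥(modularFunctionFieldFullC k M) × ↥(modularFunctionFieldFullC k M),
          (∃ y : OPair h W,
              (y : laurentBaseChange Qb (modularFunctionFieldFull (M * q))) ∈
                riemannRochSpace (n₁ • E1 + n₂ • E2 - Finsupp.single Q (1 : ℤ)) ∧
              redPair h W y = t) ↔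
            t ∈ gluedSpace e₁ e₂ (fun _ => (1 : k))
              (n₁ • P₁ + n₂ • Z₁) (n₁ • P₂ + n₂ • Z₂ - Finsupp.single Qt (1 : ℤ)) := by
  classical
  have hq : q.Prime := h.hℓ
  have S := setup_modular hπ h W hW E1 E2 e₁ e₂ P₁ Z₁ P₂ Z₂ hinj₁ hinj₂ hP₁ hZ₁ hP₂ hZ₂
    hdegP₁ hdegP₂ hE1 hE2 hdegE1 N₀ hS2
  haveI : Infinite k := IsAlgClosed.instInfinite
  obtain ⟨n₀, hn₀⟩ := exists_simple_zero_snd (isFF1_xk k M) (isFF1_xk k M) hinj₁ hinj₂ hP₁ hP₂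
    hdegP₁ hdegP₂ hQt hQP
  obtain ⟨t, ht, hν, ht1⟩ := hn₀ (max n₀ N₀) (le_max_left _ _)
  have ht' : t ∈ gluedSpace e₁ e₂ (fun _ => (1 : k))
      ((max n₀ N₀) • P₁ + 0 • Z₁) ((max n₀ N₀) • P₂ + 0 • Z₂) := by
    rw [zero_smul, zero_smul, add_zero, add_zero]
    exact ht
  obtain ⟨y, hy, hyt⟩ := (hS2 (max n₀ N₀) 0 (by rw [add_zero]; exact le_max_right _ _) t).2 ht'
  rw [zero_smul, add_zero] at hy
  obtain ⟨u, huO, huL, hufix, hured⟩ :=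
    Fermat.Agent.BAD.LatFixedInst.exists_fixed_lift_rr hq hA h hπ hW ((max n₀ N₀) • E1)
      (galois_nsmul_E1 hπ h W hW hA E1 E2 e₁ e₂ P₁ Z₁ P₂ Z₂ hinj₁ hinj₂ hP₁ hZ₁ hP₂ hZ₂
        hdegP₁ hdegP₂ hE1 hE2 hdegE1 hgalE N₀ hS2 (max n₀ N₀)) hy y.2
  have hured' : redPair h W ⟨u, huO⟩ = t := by
    rw [hured]
    exact hyt
  obtain ⟨Q, hQ1, hQ2, -, hiff, hfix⟩ := exists_place_snd S (isFF1_xL Qb (M * q))
    (isFF1_xk k M) (isFF1_xk k M) hQt hQP hQZ (n := (max n₀ N₀, 0)) ⟨u, huO⟩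
    (by rw [cd_fst]; exact huL) (by rw [hured']; exact hν) (by rw [hured']; exact ht1)
  refine ⟨Q, fun σ hσ => ?_, hQ1, hQ2, fun n₁ n₂ hn t => hiff (n₁, n₂) hn t⟩
  obtain ⟨g1, g2⟩ := galois_inv_mem hπ h W hW hA σ hσ
  exact hfix _ (hufix σ hσ) g1 g2 (hgalE σ hσ).1 (hgalE σ hσ).2

/-- The hypothesis `hlift₁` of `BasePts.exists_basePoints` (with no exceptional points). -/
theorem hlift_fst (Qt : Place k (modularFunctionFieldFullC k M))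
    (hQt : ∀ i, e₁ i ≠ Qt) (hQP : P₁ Qt = 0) (hQZ : Z₁ Qt = 0) :
    ∃ Q : Place Qb (laurentBaseChange Qb (modularFunctionFieldFull (M * q))),
      (∀ σ ∈ A.inertiaSubgroupIn ℚ,
        arithmeticGalois (modularFunctionFieldFull (M * q)) σ • Q = Q) ∧
      E1 Q = 0 ∧ E2 Q = 0 ∧ RedTo₁ h W E1 E2 Q Qt := by
  obtain ⟨Q, hfix, hQ1, hQ2, hiff⟩ := exists_fixed_place_fst hπ h W hW hA E1 E2 e₁ e₂ P₁ Z₁ P₂ Z₂
    hinj₁ hinj₂ hP₁ hZ₁ hP₂ hZ₂ hdegP₁ hdegP₂ hE1 hE2 hdegE1 hgalE N₀ hS2 Qt hQt hQP hQZ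
  exact ⟨Q, hfix, hQ1, hQ2, redTo₁_of_forall (e₁ := e₁) (e₂ := e₂) (P₂ := P₂) (Z₂ := Z₂) hE1
    hQ1 hQ2 hQP hQZ N₀ (fun n₁ n₂ hn y hy => (hiff n₁ n₂ hn _).1 ⟨y, hy, rfl⟩)⟩

/-- The hypothesis `hlift₂` of `BasePts.exists_basePoints` (with no exceptional points). -/
theorem hlift_snd (Qt : Place k (modularFunctionFieldFullC k M))
    (hQt : ∀ i, e₂ i ≠ Qt) (hQP : P₂ Qt = 0) (hQZ : Z₂ Qt = 0) :
    ∃ Q : Place Qb (laurentBaseChange Qb (modularFunctionFieldFull (M * q))),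
      (∀ σ ∈ A.inertiaSubgroupIn ℚ,
        arithmeticGalois (modularFunctionFieldFull (M * q)) σ • Q = Q) ∧
      E1 Q = 0 ∧ E2 Q = 0 ∧ RedTo₂ h W E1 E2 Q Qt := by
  obtain ⟨Q, hfix, hQ1, hQ2, hiff⟩ := exists_fixed_place_snd hπ h W hW hA E1 E2 e₁ e₂ P₁ Z₁ P₂ Z₂
    hinj₁ hinj₂ hP₁ hZ₁ hP₂ hZ₂ hdegP₁ hdegP₂ hE1 hE2 hdegE1 hgalE N₀ hS2 Qt hQt hQP hQZ
  exact ⟨Q, hfix, hQ1, hQ2, redTo₂_of_forall (e₁ := e₁) (e₂ := e₂) (P₁ := P₁) (Z₁ := Z₁) hE1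
    hQ1 hQ2 hQP hQZ N₀ (fun n₁ n₂ hn y hy => (hiff n₁ n₂ hn _).1 ⟨y, hy, rfl⟩)⟩

end

section Closed

variable [IsAlgClosed k] (hπ : Function.Surjective π) (h : BadSetup A π M q)
  (W : laurentBaseChange Qb (modularFunctionFieldFull (M * q)) ≃ₐ[Qb]
    laurentBaseChange Qb (modularFunctionFieldFull (M * q))) (hW : IsAL M q W)
  (hA : A.LiesOverPrime q)
  (E1 E2 : Divisor Qb (laurentBaseChange Qb (modularFunctionFieldFull (M * q))))
  {ι : Type} [Fintype ι] [Nonempty ι]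
  (e₁ e₂ : ι → Place k (modularFunctionFieldFullC k M))
  (P₁ Z₁ P₂ Z₂ : Divisor k (modularFunctionFieldFullC k M))
  (hinj₁ : Function.Injective e₁) (hinj₂ : Function.Injective e₂)
  (hP₁ : ∀ i, P₁ (e₁ i) = 0) (hZ₁ : ∀ i, Z₁ (e₁ i) = 0)
  (hP₂ : ∀ i, P₂ (e₂ i) = 0) (hZ₂ : ∀ i, Z₂ (e₂ i) = 0)
  (hdegP₁ : 0 < Divisor.degree P₁) (hdegP₂ : 0 < Divisor.degree P₂)
  (hE1 : ∀ v, 0 ≤ E1 v) (hE2 : ∀ v, 0 ≤ E2 v)
  (hdegE1 : 0 < Divisor.degree E1) (hdegE2 : 0 < Divisor.degree E2)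
  (hgalE : ∀ σ ∈ A.inertiaSubgroupIn ℚ,
    arithmeticGalois (modularFunctionFieldFull (M * q)) σ • E1 = E1 ∧
    arithmeticGalois (modularFunctionFieldFull (M * q)) σ • E2 = E2)
  (hS2 : ∃ N₀ : ℕ, ∀ n₁ n₂ : ℕ, N₀ ≤ n₁ + n₂ →
    ∀ t : ↥(modularFunctionFieldFullC k M) × ↥(modularFunctionFieldFullC k M),
      (∃ y : OPair h W,
          (y : laurentBaseChange Qb (modularFunctionFieldFull (M * q))) ∈
            riemannRochSpace (n₁ • E1 + n₂ • E2) ∧ redPair h W y = t) ↔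
        t ∈ gluedSpace e₁ e₂ (fun _ => (1 : k))
          (n₁ • P₁ + n₂ • Z₁) (n₁ • P₂ + n₂ • Z₂))

include hπ hW hA hinj₁ hinj₂ hP₁ hZ₁ hP₂ hZ₂ hdegP₁ hdegP₂ hE1 hE2 hdegE1 hdegE2 hgalE hS2

/-- **S33 (RC-2): the base divisor, unconditionally on the nodal datum.**
`BasePts.exists_basePoints` with its two lifting hypotheses discharged: there are finite sets
`T` (places of `F_{Mq}`), `T₁`, `T₂` (points of the two components, off any given finite sets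
`S₁`, `S₂`) such that `B = ∑_{Q ∈ T} Q` is inertia-invariant of degree `g(F)`, supported off
`E1`, `E2`; `(∑ T₁, ∑ T₂)` is non-special of degree `g` on the nodal curve, supported at smooth
points off the nodes, `P_j`, `Z_j`, `S_j`; and in large degree the reduction of
`L(n₁ E1 + n₂ E2 - B) ∩ O` is `gluedSpace e₁ e₂ 1 (n₁ P₁ + n₂ Z₁ - ∑ T₁) (n₁ P₂ + n₂ Z₂ - ∑ T₂)`. -/
theorem exists_basePoints_closed
    (S₁ S₂ : Finset (Place k (modularFunctionFieldFullC k M))) :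
    ∃ (T : Finset (Place Qb (laurentBaseChange Qb (modularFunctionFieldFull (M * q)))))
      (T₁ T₂ : Finset (Place k (modularFunctionFieldFullC k M))),
      (T.card : ℤ) = genusFF Qb ↥(laurentBaseChange Qb (modularFunctionFieldFull (M * q))) ∧
      T.card = T₁.card + T₂.card ∧
      (∀ σ ∈ A.inertiaSubgroupIn ℚ, ∀ Q ∈ T,
        arithmeticGalois (modularFunctionFieldFull (M * q)) σ • Q = Q) ∧
      (∀ σ ∈ A.inertiaSubgroupIn ℚ,
        arithmeticGalois (modularFunctionFieldFull (M * q)) σ • RR.sumPl T = RR.sumPl T) ∧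
      (∀ Q ∈ T, E1 Q = 0 ∧ E2 Q = 0) ∧
      Disjoint T₁ S₁ ∧ Disjoint T₂ S₂ ∧ (∀ i, e₁ i ∉ T₁) ∧ (∀ i, e₂ i ∉ T₂) ∧
      (∀ v ∈ T₁, P₁ v = 0 ∧ Z₁ v = 0) ∧ (∀ v ∈ T₂, P₂ v = 0 ∧ Z₂ v = 0) ∧
      gluedSpace e₁ e₂ (fun _ => (1 : k)) (RR.sumPl T₁) (RR.sumPl T₂)
        = gluedSpace e₁ e₂ (fun _ => (1 : k)) 0 0 ∧
      ∃ (c : ℤ) (N₀ : ℕ), ∀ n₁ n₂ : ℕ, N₀ ≤ n₁ + n₂ →
        c ≤ Divisor.degree (n₁ • P₁ + n₂ • Z₁) → c ≤ Divisor.degree (n₁ • P₂ + n₂ • Z₂) →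
        ∀ t : ↥(modularFunctionFieldFullC k M) × ↥(modularFunctionFieldFullC k M),
          (∃ y : OPair h W,
              (y : laurentBaseChange Qb (modularFunctionFieldFull (M * q))) ∈
                riemannRochSpace (n₁ • E1 + n₂ • E2 - RR.sumPl T) ∧ redPair h W y = t) ↔
            t ∈ gluedSpace e₁ e₂ (fun _ => (1 : k))
              (n₁ • P₁ + n₂ • Z₁ - RR.sumPl T₁) (n₁ • P₂ + n₂ • Z₂ - RR.sumPl T₂) := by
  obtain ⟨N₀, hN₀⟩ := hS2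
  exact exists_basePoints hπ h W hW E1 E2 e₁ e₂ P₁ Z₁ P₂ Z₂ hinj₂ hP₁ hZ₁ hP₂ hZ₂ hdegP₁ hdegP₂
    hdegE1 hdegE2 ⟨N₀, hN₀⟩ S₁ S₂
    (fun Qt _ hQt hQP hQZ => hlift_fst hπ h W hW hA E1 E2 e₁ e₂ P₁ Z₁ P₂ Z₂ hinj₁ hinj₂ hP₁ hZ₁
      hP₂ hZ₂ hdegP₁ hdegP₂ hE1 hE2 hdegE1 hgalE N₀ hN₀ Qt hQt hQP hQZ)
    (fun Qt _ hQt hQP hQZ => hlift_snd hπ h W hW hA E1 E2 e₁ e₂ P₁ Z₁ P₂ Z₂ hinj₁ hinj₂ hP₁ hZ₁
      hP₂ hZ₂ hdegP₁ hdegP₂ hE1 hE2 hdegE1 hgalE N₀ hN₀ Qt hQt hQP hQZ)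

end Closed

end Fermat.Agent.BAD.SmoothLiftInst
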