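/-
BAD / TR: the nodal datum of the special fibre of `X₀(Mq)` at `q`, with EXPLICIT data and the
extra facts hidden by `BadU.NodalFibreAt` / `KerRed.NodalFibreFor`, and the one-divisor charts
which make the theory of `BAD/SmoothLift.lean` available at EVERY non-node point of the two
components (including the cusps).

* `NodalDatum h W E1 E2 e₁ e₂ P₁ Z₁ P₂ Z₂` : the body of `KerRed.NodalFibreFor` for an explicit
  datum (`nodalFibreFor_iff`);
* `exists_nodalDatum_plus_of_chartBase`, `exists_nodalDatum_plus_of_good` : at every good pair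
  there is a nodal datum with `0 < deg Z₁`, `0 < deg Z₂` (not conjuncts of `NodalFibreAt`);
* `setupP` : `SmoothLift.Setup … P₁ P₁ P₂ P₂ E1 E1 N₀` (charts `n • E1`): covers the non-node
  points `Q` with `P₁ Q = 0` (no condition on `Z₁`);
  `setupZ` : `SmoothLift.Setup … Z₁ Z₁ Z₂ Z₂ E2 E2 N₀` (charts `n • E2`): covers the non-node
  points `Q` with `Z₁ Q = 0`, in particular the support of `P₁` (the cusps);
* `Inertial red` : inertia-fixed lifts and (GAL) for a reduction map on `OPair h W`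
  (`inertial_redPair`, `Inertial.swap`);
* `exists_fixed_place_of_setup` : inertia-fixed places with prescribed smooth reduction for an
  arbitrary `Setup` on `OPair h W` (first component; the second one through `Setup.swap`).
-/
import Mathlib
import Fermat.Agent.BAD.NodalGood
import Fermat.Agent.BAD.SmoothLiftInst

set_option autoImplicit false
set_option linter.style.haveILetI false
set_option linter.unusedSectionVars false

noncomputable section

namespace Fermat.Agent.BAD.NodalPlus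

open Polynomial AlgebraicCurve ModularCurve WithZero Fermat.Agent.Lib.Red Fermat.Agent.Lib.FF
  Fermat.Agent.Lib.Red.Deform Fermat.Agent.Lib.Red.CoordLat Fermat.Agent.BAD.NodalDiv
  Fermat.Agent.BAD.NodalRiemann Fermat.Agent.BAD.TwoVal Fermat.Agent.BAD.NodalAsm
  Fermat.Agent.BAD.BadU Fermat.Agent.BAD.NodalPlaces Fermat.Agent.BAD.SmoothLift
  Fermat.Agent.BAD.KerRed

local notation "Qb" => AlgebraicClosure ℚ

variable {A : ValuationSubring Qb} {k : Type} [Field k] {π : A →+* k} {M q : ℕ} [NeZero M]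
  [NeZero q]

/-- The body of `KerRed.NodalFibreFor h W E1 E2` for an explicit nodal datum. -/
def NodalDatum (h : BadSetup A π M q)
    (W : laurentBaseChange Qb (modularFunctionFieldFull (M * q)) ≃ₐ[Qb]
      laurentBaseChange Qb (modularFunctionFieldFull (M * q)))
    (E1 E2 : Divisor Qb (laurentBaseChange Qb (modularFunctionFieldFull (M * q))))
    {ι : Type} (e₁ e₂ : ι → Place k (modularFunctionFieldFullC k M))
    (P₁ Z₁ P₂ Z₂ : Divisor k (modularFunctionFieldFullC k M)) : Prop :=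
  Function.Injective e₁ ∧ Function.Injective e₂ ∧
    (∀ i, P₁ (e₁ i) = 0) ∧ (∀ i, Z₁ (e₁ i) = 0) ∧ (∀ i, P₂ (e₂ i) = 0) ∧ (∀ i, Z₂ (e₂ i) = 0) ∧
    (∀ v, P₁ v = 0 ∨ Z₁ v = 0) ∧ (∀ v, P₂ v = 0 ∨ Z₂ v = 0) ∧
    0 < Divisor.degree P₁ ∧ 0 < Divisor.degree P₂ ∧
    (∀ v, 0 ≤ E1 v) ∧ (∀ v, 0 ≤ E2 v) ∧ (∀ v, E1 v = 0 ∨ E2 v = 0) ∧
    0 < Divisor.degree E1 ∧ 0 < Divisor.degree E2 ∧
    (∀ σ ∈ A.inertiaSubgroupIn ℚ,
      arithmeticGalois (modularFunctionFieldFull (M * q)) σ • E1 = E1 ∧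
      arithmeticGalois (modularFunctionFieldFull (M * q)) σ • E2 = E2) ∧
    ∃ N₀ : ℕ, ∀ n₁ n₂ : ℕ, N₀ ≤ n₁ + n₂ →
      ∀ t : ↥(modularFunctionFieldFullC k M) × ↥(modularFunctionFieldFullC k M),
        (∃ y : OPair h W,
            (y : laurentBaseChange Qb (modularFunctionFieldFull (M * q))) ∈
              riemannRochSpace (n₁ • E1 + n₂ • E2) ∧ redPair h W y = t) ↔
          t ∈ gluedSpace e₁ e₂ (fun _ => (1 : k))
            (n₁ • P₁ + n₂ • Z₁) (n₁ • P₂ + n₂ • Z₂)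

theorem nodalFibreFor_iff (h : BadSetup A π M q)
    (W : laurentBaseChange Qb (modularFunctionFieldFull (M * q)) ≃ₐ[Qb]
      laurentBaseChange Qb (modularFunctionFieldFull (M * q)))
    (E1 E2 : Divisor Qb (laurentBaseChange Qb (modularFunctionFieldFull (M * q)))) :
    NodalFibreFor h W E1 E2 ↔
      ∃ (ι : Type) (_ : Fintype ι) (_ : Nonempty ι)
        (e₁ e₂ : ι → Place k (modularFunctionFieldFullC k M))
        (P₁ Z₁ P₂ Z₂ : Divisor k (modularFunctionFieldFullC k M)),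
        NodalDatum h W E1 E2 e₁ e₂ P₁ Z₁ P₂ Z₂ :=
  Iff.rfl

theorem NodalDatum.nodalFibreFor {h : BadSetup A π M q}
    {W : laurentBaseChange Qb (modularFunctionFieldFull (M * q)) ≃ₐ[Qb]
      laurentBaseChange Qb (modularFunctionFieldFull (M * q))}
    {E1 E2 : Divisor Qb (laurentBaseChange Qb (modularFunctionFieldFull (M * q)))}
    {ι : Type} [Fintype ι] [Nonempty ι] {e₁ e₂ : ι → Place k (modularFunctionFieldFullC k M)}
    {P₁ Z₁ P₂ Z₂ : Divisor k (modularFunctionFieldFullC k M)}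
    (hD : NodalDatum h W E1 E2 e₁ e₂ P₁ Z₁ P₂ Z₂) : NodalFibreFor h W E1 E2 :=
  ⟨ι, inferInstance, inferInstance, e₁, e₂, P₁, Z₁, P₂, Z₂, hD⟩

set_option maxHeartbeats 1000000 in
/-- **The nodal datum from a chart datum, with the degrees of `Z₁`, `Z₂`.**  Same assembly as
`NodalGood.nodalFibreAt_of_chartBase`; the datum is `P_j = (x̄_j)_∞`,
`Z_j = (x̄_j^q - x̄_j - 1)_0`, so `deg Z_j = q · deg P_j > 0`. -/
theorem exists_nodalDatum_plus_of_chartBase [IsAlgClosed k] (h : BadSetup A π M q)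
    {W : laurentBaseChange Qb (modularFunctionFieldFull (M * q)) ≃ₐ[Qb]
      laurentBaseChange Qb (modularFunctionFieldFull (M * q))} (hW : IsAL M q W)
    (hsurj : Function.Surjective π)
    {X : ↥(laurentBaseChange Qb (modularFunctionFieldFull M))} (hX : IsChartBase h X)
    (hg : genusFF k ↥(modularFunctionFieldFullC k M) + genusFF k ↥(modularFunctionFieldFullC k M)
      ≤ genusFF Qb ↥(laurentBaseChange Qb (modularFunctionFieldFull (M * q)))) :
    ∃ (E1 E2 : Divisor Qb (laurentBaseChange Qb (modularFunctionFieldFull (M * q))))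
      (ι : Type) (_ : Fintype ι) (_ : Nonempty ι)
      (e₁ e₂ : ι → Place k (modularFunctionFieldFullC k M))
      (P₁ Z₁ P₂ Z₂ : Divisor k (modularFunctionFieldFullC k M)),
      NodalDatum h W E1 E2 e₁ e₂ P₁ Z₁ P₂ Z₂ ∧
        0 < Divisor.degree Z₁ ∧ 0 < Divisor.degree Z₂ := by
  have : Fact q.Prime := ⟨h.hℓ⟩
  have : CharP k q := h.charP
  -- the coordinate `x = α X · β X`
  have hFN := SpecialFibre.isFF1_xN_X h hW hX
  have hxO := SpecialFibre.xN_mem_OPair_X h hW hX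
  have hxO' := SpecialFibre.inv_xN_mem_OPair h hW hX
  have hredx := SpecialFibre.redPair_xN_X h hW hX hxO
  have hrat := SpecialFibre.frobAut_smul_redX hX
  have hF1 := SpecialFibre.isFF1_redX_pow hX
  -- chart 1
  obtain ⟨T, hT, hTfin, hTB⟩ := SpecialFibre.exists_nodes_fin_X h hW hsurj hX
  obtain ⟨r, β, hβO, hβR, hgen⟩ := LatChart.exists_chart_gen_finRing h hW X hX
  obtain ⟨ι, hι, e₁, e₂, hinj₁, hinj₂, hfin, hval, -, hB₁⟩ :=
    ChartNodesInst.chart_fin_of_points h hFN hxO hX.ffRed hrat hredx T hT hTfin hTB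
      β hβO hβR hgen
  -- chart 2
  obtain ⟨T', hT', hTfin', hTB', hcusp⟩ := SpecialFibre.exists_nodes_inf_X h hW hsurj hX
  obtain ⟨r', β', hβO', hβR', hgen'⟩ := LatChart.exists_chart_gen_inv_finRing h hW X hX
  obtain ⟨ι', hι', e₁', e₂', -, -, hov, hB₂⟩ :=
    ChartNodesInst.chart_inf_of_points h hFN hxO hxO' hX.ffRed hrat hredx T' hT' hTfin' hTB'
      hcusp β' hβO' hβR' hgen'
  -- the bi-unit `z = x^q - x - 1`
  have hz := ChartX.hasRed_chartZ h hW hX.mem hX.rat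
  have hz' := ChartX.hasRed_inv_chartZ h hW hX.mem hX.rat hX.ffRed.transcendental
  -- the assembly
  obtain ⟨hne, hP₁, hZ₁, hP₂, hZ₂, hd₁, hd₂, hdegP₁, hdegP₂, hE1, hE2, hdisj, hdegE1, hdegE2,
    hgal, N₀, hS2⟩ :=
    NodalFibreAsm.nodalFibre_of_charts (A := A) (O := OPair h W) (fun a => OPair_hOA h a)
      (redPair h W) π hsurj h.pi_eq_zero_iff (fun a => ChartNodesInst.redPair_const h a)
      (redPair_eq_zero_iff h) hFN hxO hxO' hF1 hF1 hredx q h.hℓ.two_le hz.mem hz'.mem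
      e₁ e₂ hinj₂ hfin hval hB₁ e₁' e₂' hov hB₂ β hβO hβR hgen
      (fun n => BadU.latAt hsurj h W hW _) hg
  have hmonk := ChartDiv.zPoly_monic (K := k) q h.hℓ.two_le
  have hdegk := ChartDiv.zPoly_natDegree (K := k) q h.hℓ.two_le
  have hdegZ := ChartDiv.degree_zeroDiv_aeval_pos hF1 hmonk (by rw [hdegk]; exact h.hℓ.pos)
  rw [ChartDiv.aeval_zPoly] at hdegZ
  refine ⟨_, _, ι, hι, hne, e₁, e₂, _, _, _, _, ⟨hinj₁, hinj₂, hP₁, hZ₁, hP₂, hZ₂, hd₁, hd₂,
    hdegP₁, hdegP₂, hE1, hE2, hdisj, hdegE1, hdegE2, fun σ _ => ?_, N₀, hS2⟩, hdegZ, hdegZ⟩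
  exact hgal (arithmeticGalois (modularFunctionFieldFull (M * q)) σ)
    (ChartX.galois_smul_chartX σ (hX.gal σ))

set_option synthInstance.maxHeartbeats 400000 in
set_option maxHeartbeats 1600000 in
/-- **The nodal datum at every good pair, with `0 < deg Z₁`, `0 < deg Z₂`** (residue-field
form). -/
theorem exists_nodalDatum_plus_of_good (A : ValuationSubring Qb) (M q : ℕ) [NeZero M]
    [NeZero q] (h : BadSetup A (IsLocalRing.residue A) M q)
    (hgood : 5 ≤ q ∨ (q = 3 ∧ 2 ∣ M) ∨ (q = 2 ∧ 3 ∣ M))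
    (W : laurentBaseChange Qb (modularFunctionFieldFull (M * q)) ≃ₐ[Qb]
      laurentBaseChange Qb (modularFunctionFieldFull (M * q))) (hW : IsAL M q W) :
    ∃ (E1 E2 : Divisor Qb (laurentBaseChange Qb (modularFunctionFieldFull (M * q))))
      (ι : Type) (_ : Fintype ι) (_ : Nonempty ι)
      (e₁ e₂ : ι → Place (IsLocalRing.ResidueField A)
        (modularFunctionFieldFullC (IsLocalRing.ResidueField A) M))
      (P₁ Z₁ P₂ Z₂ : Divisor (IsLocalRing.ResidueField A)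
        (modularFunctionFieldFullC (IsLocalRing.ResidueField A) M)),
      NodalDatum h W E1 E2 e₁ e₂ P₁ Z₁ P₂ Z₂ ∧
        0 < Divisor.degree Z₁ ∧ 0 < Divisor.degree Z₂ := by
  have : IsAlgClosed (IsLocalRing.ResidueField A) := CharP.isAlgClosed_residueField A
  obtain ⟨X, hX⟩ := exists_isChartBase_of_good h IsLocalRing.residue_surjective hgood
  exact exists_nodalDatum_plus_of_chartBase h hW IsLocalRing.residue_surjective hX
    (NodeCountInst.genusFF_add_le_good M q h.hℓ h.not_dvd hgood A (IsLocalRing.residue A) h.hπ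
      IsLocalRing.residue_surjective h.hℓk)

/-! ### The one-divisor charts -/

section Setups

variable [IsAlgClosed k] (hπ : Function.Surjective π) (h : BadSetup A π M q)
  (W : laurentBaseChange Qb (modularFunctionFieldFull (M * q)) ≃ₐ[Qb]
    laurentBaseChange Qb (modularFunctionFieldFull (M * q))) (hW : IsAL M q W)
  (E1 E2 : Divisor Qb (laurentBaseChange Qb (modularFunctionFieldFull (M * q))))
  {ι : Type} [Fintype ι]
  (e₁ e₂ : ι → Place k (modularFunctionFieldFullC k M))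
  (P₁ Z₁ P₂ Z₂ : Divisor k (modularFunctionFieldFullC k M))
  (hinj₁ : Function.Injective e₁) (hinj₂ : Function.Injective e₂)
  (hP₁ : ∀ i, P₁ (e₁ i) = 0) (hZ₁ : ∀ i, Z₁ (e₁ i) = 0)
  (hP₂ : ∀ i, P₂ (e₂ i) = 0) (hZ₂ : ∀ i, Z₂ (e₂ i) = 0)
  (N₀ : ℕ)
  (hS2 : ∀ n₁ n₂ : ℕ, N₀ ≤ n₁ + n₂ →
    ∀ t : ↥(modularFunctionFieldFullC k M) × ↥(modularFunctionFieldFullC k M),
      (∃ y : OPair h W,
          (y : laurentBaseChange Qb (modularFunctionFieldFull (M * q))) ∈
            riemannRochSpace (n₁ • E1 + n₂ • E2) ∧ redPair h W y = t) ↔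
        t ∈ gluedSpace e₁ e₂ (fun _ => (1 : k))
          (n₁ • P₁ + n₂ • Z₁) (n₁ • P₂ + n₂ • Z₂))

include hπ hW hinj₁ hinj₂ hP₁ hZ₁ hP₂ hZ₂ hS2

/-- **The charts `n • E1`.**  The setting of `BAD/SmoothLift.lean` with `(E1, E1)`, `(P_j, P_j)`:
it covers every non-node point `Q` of the first component with `P₁ Q = 0`. -/
theorem setupP (hdegP₁ : 0 < Divisor.degree P₁) (hdegP₂ : 0 < Divisor.degree P₂)
    (hE1 : ∀ v, 0 ≤ E1 v) (hdegE1 : 0 < Divisor.degree E1) :
    Setup A (OPair h W) (redPair h W) π e₁ e₂ P₁ P₁ P₂ P₂ E1 E1 N₀ where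
  hOA := fun x => OPair_hOA h x
  hval := OPair_hval h
  hπ := hπ
  hπker := h.pi_eq_zero_iff
  hconst := fun a => (redPair_algebraMap h a _).trans rfl
  hker := redPair_eq_zero_iff h
  hlat := latAt hπ h W hW
  hinj₁ := hinj₁
  hinj₂ := hinj₂
  hP₁ := hP₁
  hZ₁ := hP₁
  hP₂ := hP₂
  hZ₂ := hP₂
  hdegP₁ := hdegP₁
  hdegP₂ := hdegP₂
  hE1 := hE1
  hE2 := hE1
  hdegE1 := hdegE1
  hS2 := fun n hn t => by
    have e : cd E1 E1 n = (n.1 + n.2) • E1 + 0 • E2 := by
      unfold cd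
      rw [add_smul, zero_smul, add_zero]
    have e' : cd P₁ P₁ n = (n.1 + n.2) • P₁ + 0 • Z₁ := by
      unfold cd
      rw [add_smul, zero_smul, add_zero]
    have e'' : cd P₂ P₂ n = (n.1 + n.2) • P₂ + 0 • Z₂ := by
      unfold cd
      rw [add_smul, zero_smul, add_zero]
    rw [e, e', e'']
    exact hS2 (n.1 + n.2) 0 (by omega) t

/-- **The charts `n • E2`.**  The setting of `BAD/SmoothLift.lean` with `(E2, E2)`, `(Z_j, Z_j)`:
it covers every non-node point `Q` of the first component with `Z₁ Q = 0`, in particular the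
support of `P₁`. -/
theorem setupZ (hdegZ₁ : 0 < Divisor.degree Z₁) (hdegZ₂ : 0 < Divisor.degree Z₂)
    (hE2 : ∀ v, 0 ≤ E2 v) (hdegE2 : 0 < Divisor.degree E2) :
    Setup A (OPair h W) (redPair h W) π e₁ e₂ Z₁ Z₁ Z₂ Z₂ E2 E2 N₀ where
  hOA := fun x => OPair_hOA h x
  hval := OPair_hval h
  hπ := hπ
  hπker := h.pi_eq_zero_iff
  hconst := fun a => (redPair_algebraMap h a _).trans rfl
  hker := redPair_eq_zero_iff h
  hlat := latAt hπ h W hW
  hinj₁ := hinj₁
  hinj₂ := hinj₂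
  hP₁ := hZ₁
  hZ₁ := hZ₁
  hP₂ := hZ₂
  hZ₂ := hZ₂
  hdegP₁ := hdegZ₁
  hdegP₂ := hdegZ₂
  hE1 := hE2
  hE2 := hE2
  hdegE1 := hdegE2
  hS2 := fun n hn t => by
    have e : cd E2 E2 n = 0 • E1 + (n.1 + n.2) • E2 := by
      unfold cd
      rw [add_smul, zero_smul, zero_add]
    have e' : cd Z₁ Z₁ n = 0 • P₁ + (n.1 + n.2) • Z₁ := by
      unfold cd
      rw [add_smul, zero_smul, zero_add]
    have e'' : cd Z₂ Z₂ n = 0 • P₂ + (n.1 + n.2) • Z₂ := by
      unfold cd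
      rw [add_smul, zero_smul, zero_add]
    rw [e, e', e'']
    exact hS2 0 (n.1 + n.2) (by omega) t

end Setups

/-! ### Inertia-fixed places for an arbitrary setup on `OPair h W` -/

/-- Inertia-fixed lifts and (GAL) for a reduction map on `OPair h W`. -/
structure Inertial (h : BadSetup A π M q)
    (W : laurentBaseChange Qb (modularFunctionFieldFull (M * q)) ≃ₐ[Qb]
      laurentBaseChange Qb (modularFunctionFieldFull (M * q)))
    (red : OPair h W →+* ↥(modularFunctionFieldFullC k M) × ↥(modularFunctionFieldFullC k M)) :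
    Prop where
  lift : ∀ B : Divisor Qb (laurentBaseChange Qb (modularFunctionFieldFull (M * q))),
    (∀ σ ∈ A.inertiaSubgroupIn ℚ,
      arithmeticGalois (modularFunctionFieldFull (M * q)) σ • B = B) →
    ∀ (f : laurentBaseChange Qb (modularFunctionFieldFull (M * q))),
      f ∈ riemannRochSpace B → ∀ hfO : f ∈ OPair h W,
      ∃ (f' : laurentBaseChange Qb (modularFunctionFieldFull (M * q))) (hf'O : f' ∈ OPair h W),
        f' ∈ riemannRochSpace B ∧
        (∀ σ ∈ A.inertiaSubgroupIn ℚ,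
          arithmeticGalois (modularFunctionFieldFull (M * q)) σ • f' = f') ∧
        red ⟨f', hf'O⟩ = red ⟨f, hfO⟩
  mem : ∀ σ ∈ A.inertiaSubgroupIn ℚ, ∀ y ∈ OPair h W,
    (arithmeticGalois (modularFunctionFieldFull (M * q)) σ)⁻¹ • y ∈ OPair h W
  red_eq : ∀ σ ∈ A.inertiaSubgroupIn ℚ, ∀ (y : OPair h W)
    (hy : (arithmeticGalois (modularFunctionFieldFull (M * q)) σ)⁻¹ •
      (y : laurentBaseChange Qb (modularFunctionFieldFull (M * q))) ∈ OPair h W),
    red ⟨_, hy⟩ = red y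

theorem inertial_redPair [IsAlgClosed k] (hπ : Function.Surjective π) (h : BadSetup A π M q)
    (W : laurentBaseChange Qb (modularFunctionFieldFull (M * q)) ≃ₐ[Qb]
      laurentBaseChange Qb (modularFunctionFieldFull (M * q))) (hW : IsAL M q W)
    (hA : A.LiesOverPrime q) : Inertial h W (redPair h W) where
  lift := fun B hB _ hfV hfO =>
    Fermat.Agent.BAD.LatFixedInst.exists_fixed_lift_rr h.hℓ hA h hπ hW B hB hfV hfO
  mem := fun σ hσ => (Fermat.Agent.BAD.SmoothLiftInst.galois_inv_mem hπ h W hW hA σ hσ).1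
  red_eq := fun σ hσ => (Fermat.Agent.BAD.SmoothLiftInst.galois_inv_mem hπ h W hW hA σ hσ).2

theorem Inertial.swap {h : BadSetup A π M q}
    {W : laurentBaseChange Qb (modularFunctionFieldFull (M * q)) ≃ₐ[Qb]
      laurentBaseChange Qb (modularFunctionFieldFull (M * q))}
    {red : OPair h W →+* ↥(modularFunctionFieldFullC k M) × ↥(modularFunctionFieldFullC k M)}
    (hI : Inertial h W red) : Inertial h W (redSwap red) where
  lift := fun B hB f hfV hfO => by
    obtain ⟨f', hf'O, h1, h2, h3⟩ := hI.lift B hB f hfV hfO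
    exact ⟨f', hf'O, h1, h2, by rw [redSwap_apply, redSwap_apply, h3]⟩
  mem := hI.mem
  red_eq := fun σ hσ y hy => by rw [redSwap_apply, redSwap_apply, hI.red_eq σ hσ y hy]

set_option maxHeartbeats 1000000 in
/-- **Inertia-fixed places with prescribed smooth reduction, for an arbitrary setup.**  Every
non-node point `Qt` of the first component off `P₁`, `Z₁` is the reduction (`RedTo`) of an
inertia-fixed place `Q` of `F_{Mq}` off `E1`, `E2`, and on every large chart the reduction of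
`L(chart - Q) ∩ O` is the space of glued sections vanishing at `Qt`. -/
theorem exists_fixed_place_of_setup [IsAlgClosed k] {h : BadSetup A π M q}
    {W : laurentBaseChange Qb (modularFunctionFieldFull (M * q)) ≃ₐ[Qb]
      laurentBaseChange Qb (modularFunctionFieldFull (M * q))}
    {red : OPair h W →+* ↥(modularFunctionFieldFullC k M) × ↥(modularFunctionFieldFullC k M)}
    (hI : Inertial h W red)
    {E1 E2 : Divisor Qb (laurentBaseChange Qb (modularFunctionFieldFull (M * q)))}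
    {ι : Type} [Fintype ι] {e₁ e₂ : ι → Place k (modularFunctionFieldFullC k M)}
    {P₁ Z₁ P₂ Z₂ : Divisor k (modularFunctionFieldFullC k M)} {N₀ : ℕ}
    (S : Setup A (OPair h W) red π e₁ e₂ P₁ Z₁ P₂ Z₂ E1 E2 N₀)
    (hgalE : ∀ σ ∈ A.inertiaSubgroupIn ℚ,
      arithmeticGalois (modularFunctionFieldFull (M * q)) σ • E1 = E1 ∧
      arithmeticGalois (modularFunctionFieldFull (M * q)) σ • E2 = E2)
    (Qt : Place k (modularFunctionFieldFullC k M))
    (hQt : ∀ i, e₁ i ≠ Qt) (hQP : P₁ Qt = 0) (hQZ : Z₁ Qt = 0) :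
    ∃ Q : Place Qb (laurentBaseChange Qb (modularFunctionFieldFull (M * q))),
      (∀ σ ∈ A.inertiaSubgroupIn ℚ,
        arithmeticGalois (modularFunctionFieldFull (M * q)) σ • Q = Q) ∧
      E1 Q = 0 ∧ E2 Q = 0 ∧ RedTo red E1 E2 N₀ Qt Q ∧
      ∀ m : ℕ × ℕ, N₀ ≤ m.1 + m.2 →
        ∀ t : ↥(modularFunctionFieldFullC k M) × ↥(modularFunctionFieldFullC k M),
          (∃ y : OPair h W,
              (y : laurentBaseChange Qb (modularFunctionFieldFull (M * q))) ∈
                riemannRochSpace (cd E1 E2 m - Finsupp.single Q (1 : ℤ)) ∧ red y = t) ↔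
            t ∈ gluedSpace e₁ e₂ (fun _ => (1 : k))
              (cd P₁ Z₁ m - Finsupp.single Qt (1 : ℤ)) (cd P₂ Z₂ m) := by
  classical
  haveI : Infinite k := IsAlgClosed.instInfinite
  obtain ⟨n₀, hn₀⟩ := exists_simple_zero (isFF1_xk k M) (isFF1_xk k M) S.hinj₁ S.hinj₂ S.hP₁
    S.hP₂ S.hdegP₁ S.hdegP₂ hQt hQP
  obtain ⟨t, ht, hν, ht2⟩ := hn₀ (max n₀ N₀) (le_max_left _ _)
  -- a lift of `t`
  have ht' : t ∈ gluedSpace e₁ e₂ (fun _ => (1 : k))
      (cd P₁ Z₁ (max n₀ N₀, 0)) (cd P₂ Z₂ (max n₀ N₀, 0)) := by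
    rw [cd_fst, cd_fst]
    exact ht
  obtain ⟨y, hy, hyt⟩ := (S.hS2 (max n₀ N₀, 0) (by
    show N₀ ≤ max n₀ N₀ + 0
    rw [add_zero]
    exact le_max_right _ _) t).2 ht'
  rw [cd_fst] at hy
  -- an inertia-fixed lift
  have hB : ∀ σ ∈ A.inertiaSubgroupIn ℚ,
      arithmeticGalois (modularFunctionFieldFull (M * q)) σ • ((max n₀ N₀) • E1)
        = (max n₀ N₀) • E1 := by
    intro σ hσ
    ext v
    rw [SemilinearAut.divisor_smul_apply, Finsupp.smul_apply, Finsupp.smul_apply,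
      ← SemilinearAut.divisor_smul_apply, (hgalE σ hσ).1]
  obtain ⟨u, huO, huL, hufix, hured⟩ := hI.lift ((max n₀ N₀) • E1) hB _ hy y.2
  have hured' : red ⟨u, huO⟩ = t := by
    rw [hured]
    exact hyt
  obtain ⟨Q, hQ1, hQ2, -, hiff, hfix⟩ := exists_place_fst S (isFF1_xL Qb (M * q))
    (isFF1_xk k M) (isFF1_xk k M) hQt hQP hQZ (n := (max n₀ N₀, 0)) ⟨u, huO⟩
    (by rw [cd_fst]; exact huL) (by rw [hured']; exact hν) (by rw [hured']; exact ht2)
  refine ⟨Q, fun σ hσ => ?_, hQ1, hQ2, fun n hn y hy => ?_, hiff⟩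
  · exact hfix _ (hufix σ hσ) (hI.mem σ hσ) (hI.red_eq σ hσ) (hgalE σ hσ).1 (hgalE σ hσ).2
  · exact ((mem_glued_sub_single_iff (cd_apply_eq_zero hQP hQZ n)).1
      ((hiff n hn _).1 ⟨y, hy, rfl⟩)).2

/-- **The three settings of `BAD/SmoothLift.lean` from a nodal datum** with `0 < deg Z₁`,
`0 < deg Z₂`, for one common `N₀`: the two-divisor charts `n₁ E1 + n₂ E2` (points off `P₁`,
`Z₁`), the charts `n E1` (points off `P₁`) and the charts `n E2` (points off `Z₁`).  Every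
non-node point of the first component is covered by one of the last two
(`∀ v, P₁ v = 0 ∨ Z₁ v = 0`); the second component is obtained through `Setup.swap`. -/
theorem NodalDatum.exists_setups [IsAlgClosed k] (hπ : Function.Surjective π)
    {h : BadSetup A π M q}
    {W : laurentBaseChange Qb (modularFunctionFieldFull (M * q)) ≃ₐ[Qb]
      laurentBaseChange Qb (modularFunctionFieldFull (M * q))} (hW : IsAL M q W)
    {E1 E2 : Divisor Qb (laurentBaseChange Qb (modularFunctionFieldFull (M * q)))}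
    {ι : Type} [Fintype ι] {e₁ e₂ : ι → Place k (modularFunctionFieldFullC k M)}
    {P₁ Z₁ P₂ Z₂ : Divisor k (modularFunctionFieldFullC k M)}
    (hD : NodalDatum h W E1 E2 e₁ e₂ P₁ Z₁ P₂ Z₂)
    (hdegZ₁ : 0 < Divisor.degree Z₁) (hdegZ₂ : 0 < Divisor.degree Z₂) :
    ∃ N₀ : ℕ,
      Setup A (OPair h W) (redPair h W) π e₁ e₂ P₁ Z₁ P₂ Z₂ E1 E2 N₀ ∧
      Setup A (OPair h W) (redPair h W) π e₁ e₂ P₁ P₁ P₂ P₂ E1 E1 N₀ ∧
      Setup A (OPair h W) (redPair h W) π e₁ e₂ Z₁ Z₁ Z₂ Z₂ E2 E2 N₀ := by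
  obtain ⟨hinj₁, hinj₂, hP₁, hZ₁, hP₂, hZ₂, -, -, hdegP₁, hdegP₂, hE1, hE2, -, hdegE1, hdegE2,
    -, N₀, hS2⟩ := hD
  exact ⟨N₀,
    Fermat.Agent.BAD.SmoothLiftInst.setup_modular hπ h W hW E1 E2 e₁ e₂ P₁ Z₁ P₂ Z₂ hinj₁ hinj₂
      hP₁ hZ₁ hP₂ hZ₂ hdegP₁ hdegP₂ hE1 hE2 hdegE1 N₀ hS2,
    setupP hπ h W hW E1 E2 e₁ e₂ P₁ Z₁ P₂ Z₂ hinj₁ hinj₂ hP₁ hZ₁ hP₂ hZ₂ N₀ hS2 hdegP₁ hdegP₂
      hE1 hdegE1,
    setupZ hπ h W hW E1 E2 e₁ e₂ P₁ Z₁ P₂ Z₂ hinj₁ hinj₂ hP₁ hZ₁ hP₂ hZ₂ N₀ hS2 hdegZ₁ hdegZ₂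
      hE2 hdegE2⟩

end Fermat.Agent.BAD.NodalPlus
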