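/-
BAD / TR: the EXPLICIT nodal datum of the special fibre of `X₀(Mq)` at `q`.

`BadU.NodalFibreAt`, `KerRed.NodalFibreFor` and `NodalPlus.exists_nodalDatum_plus_of_good` hide
the divisors of the datum behind existential quantifiers.  Here the datum produced by the
assembly `NodalGood.nodalFibreAt_of_chartBase` is exported with its explicit description, for a
chart datum `X` of level `M` (`IsChartBase h X`; `X = J(q^M)` for `5 ≤ q`):

* coordinate `x = α X · β X` (`xN`), a unit of `OPair h W`, fixed by the arithmetic Galois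
  action, with `redPair x = (x̄, x̄)`, `x̄ = X̄^(q+1)`;
* `E1 = (x)_∞`, `E2 = (x^q - x - 1)_0`; `P₁ = P₂ = (x̄)_∞`, `Z₁ = Z₂ = (x̄^q - x̄ - 1)_0`;
* at a node `i`: `x̄` is regular at `e₁ i` with value in `𝔽_q`, and for every Frobenius-fixed
  function `f` integral over `k[x̄]` the values at the two branches are `c`, `c^q` with
  `c ∈ 𝔽_{q²}` (the partner of `e₁ i` is its Frobenius conjugate).

`ExplicitDatum h W hX` is the packaged statement; `explicitDatum_of_chartBase`;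
`exists_explicitDatum_ofJ` (`5 ≤ q`, `X = J(q^M)`, residue-field form).
-/
import Mathlib
import Fermat.Agent.BAD.NodalPlus

set_option autoImplicit false
set_option linter.style.haveILetI false
set_option linter.unusedSectionVars false

noncomputable section

namespace Fermat.Agent.BAD.NodalPlus

open Polynomial AlgebraicCurve ModularCurve WithZero Fermat.Agent.Lib.Red Fermat.Agent.Lib.FF
  Fermat.Agent.BAD.NodalRiemann Fermat.Agent.BAD.TwoVal Fermat.Agent.BAD.BadU
  Fermat.Agent.BAD.NodalPlaces Fermat.Agent.BAD.KerRed Fermat.Agent.BAD.SpecialFibre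
  Fermat.Agent.ESJ.Cong.FrobAut

local notation "Qb" => AlgebraicClosure ℚ

variable {A : ValuationSubring Qb} {k : Type} [Field k] {π : A →+* k} {M q : ℕ} [NeZero M]
  [NeZero q]

/-- **The explicit nodal datum** attached to a chart datum `X` of level `M`. -/
def ExplicitDatum [IsAlgClosed k] [Fact q.Prime] [CharP k q] (h : BadSetup A π M q)
    (W : laurentBaseChange Qb (modularFunctionFieldFull (M * q)) ≃ₐ[Qb]
      laurentBaseChange Qb (modularFunctionFieldFull (M * q))) (hW : IsAL M q W)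
    {X : ↥(laurentBaseChange Qb (modularFunctionFieldFull M))} (hX : IsChartBase h X) : Prop :=
  ∃ (hxO : xN Qb M q X ∈ OPair h W) (ι : Type) (_ : Fintype ι) (_ : Nonempty ι)
    (e₁ e₂ : ι → Place k (modularFunctionFieldFullC k M)),
    NodalDatum h W (SpecialFibre.isFF1_xN_X h hW hX).poleDiv
      (ChartDiv.zeroDiv (SpecialFibre.isFF1_xN_X h hW hX)
        (xN Qb M q X ^ q - xN Qb M q X - 1)) e₁ e₂
      (SpecialFibre.isFF1_redX_pow hX).poleDiv
      (ChartDiv.zeroDiv (SpecialFibre.isFF1_redX_pow hX)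
        ((redF A π M h.hπ h.hMk ⟨X, hX.mem⟩ ^ (q + 1)) ^ q
          - redF A π M h.hπ h.hMk ⟨X, hX.mem⟩ ^ (q + 1) - 1))
      (SpecialFibre.isFF1_redX_pow hX).poleDiv
      (ChartDiv.zeroDiv (SpecialFibre.isFF1_redX_pow hX)
        ((redF A π M h.hπ h.hMk ⟨X, hX.mem⟩ ^ (q + 1)) ^ q
          - redF A π M h.hπ h.hMk ⟨X, hX.mem⟩ ^ (q + 1) - 1)) ∧
    0 < Divisor.degree (ChartDiv.zeroDiv (SpecialFibre.isFF1_redX_pow hX)
        ((redF A π M h.hπ h.hMk ⟨X, hX.mem⟩ ^ (q + 1)) ^ q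
          - redF A π M h.hπ h.hMk ⟨X, hX.mem⟩ ^ (q + 1) - 1)) ∧
    (xN Qb M q X)⁻¹ ∈ OPair h W ∧
    redPair h W ⟨xN Qb M q X, hxO⟩
      = (redF A π M h.hπ h.hMk ⟨X, hX.mem⟩ ^ (q + 1),
          redF A π M h.hπ h.hMk ⟨X, hX.mem⟩ ^ (q + 1)) ∧
    (∀ i, (e₁ i).adicValuation (redF A π M h.hπ h.hMk ⟨X, hX.mem⟩ ^ (q + 1)) ≤ 1) ∧
    (∀ i, ∃ a : k, a ^ q = a ∧ Cong (e₁ i) (redF A π M h.hπ h.hMk ⟨X, hX.mem⟩ ^ (q + 1)) a) ∧
    (∀ i, ∀ f ∈ finRing k (redF A π M h.hπ h.hMk ⟨X, hX.mem⟩ ^ (q + 1)),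
      frobAut k q M • f = f →
        ∃ c : k, c ^ (q ^ 2) = c ∧ Cong (e₁ i) f c ∧ Cong (e₂ i) f (c ^ q)) ∧
    ∀ σ : Qb ≃ₐ[ℚ] Qb,
      arithmeticGalois (modularFunctionFieldFull (M * q)) σ • xN Qb M q X = xN Qb M q X

set_option maxHeartbeats 1000000 in
/-- **The explicit nodal datum from a chart datum.**  Same assembly as
`NodalGood.nodalFibreAt_of_chartBase`, with everything exported. -/
theorem explicitDatum_of_chartBase [IsAlgClosed k] [Fact q.Prime] [CharP k q]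
    (h : BadSetup A π M q)
    {W : laurentBaseChange Qb (modularFunctionFieldFull (M * q)) ≃ₐ[Qb]
      laurentBaseChange Qb (modularFunctionFieldFull (M * q))} (hW : IsAL M q W)
    (hsurj : Function.Surjective π)
    {X : ↥(laurentBaseChange Qb (modularFunctionFieldFull M))} (hX : IsChartBase h X)
    (hg : genusFF k ↥(modularFunctionFieldFullC k M) + genusFF k ↥(modularFunctionFieldFullC k M)
      ≤ genusFF Qb ↥(laurentBaseChange Qb (modularFunctionFieldFull (M * q)))) :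
    ExplicitDatum h W hW hX := by
  -- the coordinate `x = α X · β X`
  have hFN := SpecialFibre.isFF1_xN_X h hW hX
  have hxO := SpecialFibre.xN_mem_OPair_X h hW hX
  have hxO' := SpecialFibre.inv_xN_mem_OPair h hW hX
  have hredx := SpecialFibre.redPair_xN_X h hW hX hxO
  have hrat := SpecialFibre.frobAut_smul_redX hX
  have hF1 := SpecialFibre.isFF1_redX_pow hX
  -- chart 1
  obtain ⟨T, hT, hTfin, hTB⟩ := SpecialFibre.exists_nodes_fin_X h hW hsurj hX
  obtain ⟨r, β, hβO, hβR, hgen⟩ := LatChart.exists_chart_gen_finRing h hW X hX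
  obtain ⟨ι, hι, e₁, e₂, hinj₁, hinj₂, hfin, hval, hfrob, hB₁⟩ :=
    ChartNodesInst.chart_fin_of_points h hFN hxO hX.ffRed hrat hredx T hT hTfin hTB
      β hβO hβR hgen
  -- chart 2
  obtain ⟨T', hT', hTfin', hTB', hcusp⟩ := SpecialFibre.exists_nodes_inf_X h hW hsurj hX
  obtain ⟨r', β', hβO', hβR', hgen'⟩ := LatChart.exists_chart_gen_inv_finRing h hW X hX
  obtain ⟨ι', hι', e₁', e₂', -, -, hov, hB₂⟩ :=
    ChartNodesInst.chart_inf_of_points h hFN hxO hxO' hX.ffRed hrat hredx T' hT' hTfin' hTB'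
      hcusp β' hβO' hβR' hgen'
  -- the bi-unit `z = x^q - x - 1`
  have hz := ChartX.hasRed_chartZ h hW hX.mem hX.rat
  have hz' := ChartX.hasRed_inv_chartZ h hW hX.mem hX.rat hX.ffRed.transcendental
  -- the assembly
  obtain ⟨hne, hP₁, hZ₁, hP₂, hZ₂, hd₁, hd₂, hdegP₁, hdegP₂, hE1, hE2, hdisj, hdegE1, hdegE2,
    hgal, N₀, hS2⟩ :=
    NodalFibreAsm.nodalFibre_of_charts (A := A) (O := OPair h W) (fun a => OPair_hOA h a)
      (redPair h W) π hsurj h.pi_eq_zero_iff (fun a => ChartNodesInst.redPair_const h a)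
      (redPair_eq_zero_iff h) hFN hxO hxO' hF1 hF1 hredx q h.hℓ.two_le hz.mem hz'.mem
      e₁ e₂ hinj₂ hfin hval hB₁ e₁' e₂' hov hB₂ β hβO hβR hgen
      (fun n => BadU.latAt hsurj h W hW _) hg
  have hmonk := ChartDiv.zPoly_monic (K := k) q h.hℓ.two_le
  have hdegk := ChartDiv.zPoly_natDegree (K := k) q h.hℓ.two_le
  have hdegZ := ChartDiv.degree_zeroDiv_aeval_pos hF1 hmonk (by rw [hdegk]; exact h.hℓ.pos)
  rw [ChartDiv.aeval_zPoly] at hdegZ
  have hgalx : ∀ σ : Qb ≃ₐ[ℚ] Qb,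
      arithmeticGalois (modularFunctionFieldFull (M * q)) σ • xN Qb M q X = xN Qb M q X :=
    fun σ => ChartX.galois_smul_chartX σ (hX.gal σ)
  exact ⟨hxO, ι, hι, hne, e₁, e₂, ⟨hinj₁, hinj₂, hP₁, hZ₁, hP₂, hZ₂, hd₁, hd₂,
    hdegP₁, hdegP₂, hE1, hE2, hdisj, hdegE1, hdegE2,
    fun σ _ => hgal (arithmeticGalois (modularFunctionFieldFull (M * q)) σ) (hgalx σ),
    N₀, hS2⟩, hdegZ, hxO', hredx, hfin, hval, hfrob, hgalx⟩

/-- **The explicit nodal datum at residue characteristic `≥ 5`**, for the chart datum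
`X = J(q^M)` (`xL Qb M`). -/
theorem exists_explicitDatum_ofJ [IsAlgClosed k] [Fact q.Prime] [CharP k q]
    (h : BadSetup A π M q)
    {W : laurentBaseChange Qb (modularFunctionFieldFull (M * q)) ≃ₐ[Qb]
      laurentBaseChange Qb (modularFunctionFieldFull (M * q))} (hW : IsAL M q W)
    (hsurj : Function.Surjective π) (h5 : 5 ≤ q) :
    ∃ hX : IsChartBase h (xL Qb M), ExplicitDatum h W hW hX := by
  have h1728 : ¬ q ∣ 1728 := by
    intro hd
    have e : (1728 : ℕ) = 2 ^ 6 * 3 ^ 3 := by norm_num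
    rw [e] at hd
    rcases (Nat.Prime.dvd_mul h.hℓ).1 hd with hd | hd
    · have := Nat.le_of_dvd (by norm_num) (h.hℓ.dvd_of_dvd_pow hd)
      omega
    · have := Nat.le_of_dvd (by norm_num) (h.hℓ.dvd_of_dvd_pow hd)
      omega
  have h1728k : (1728 : k) ≠ 0 := by
    have := natCast_ne_zero_of_badSetup h 1728 h1728
    exact_mod_cast this
  have hX : IsChartBase h (xL Qb M) := isChartBase_ofJ h hsurj h1728k
  exact ⟨hX, explicitDatum_of_chartBase h hW hsurj hX
    (NodeCountInst.genusFF_add_le_good M q h.hℓ h.not_dvd (Or.inl h5) A π h.hπ hsurj h.hℓk)⟩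

end Fermat.Agent.BAD.NodalPlus
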