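import Mathlib
import Fermat.Agent.Lib.Red.TorsionOneStep
import Fermat.Prelude.Def_AlgebraicCurve_BaseChangeGalois

/-!
# BAD: the one-step endgame on a nodal fibre (abstract form)

Second endgame of the BAD plan: unipotence of inertia `(τ - 1)(σ - 1) = 0` on the `m`-torsion of
`Pic⁰` of a function field `F/L` whose "special fibre" consists of two components glued at
finitely many nodes.

Data: two valuation subrings `O₁`, `O₂` of `F` with reduction maps `red_j : O_j → Ft_j`, partial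
place reductions `r_j` (total maps; `r_j P ∉ Z_j` means: `P` lies in the tube of the smooth point
`r_j P` of the `j`-th component, where `Z_j` is the set of node points of that component).

* `IsRedOn` : reduction data with the divisor compatibility only at the places of a set `G`
  (here `G = Z_jᶜ`), with the local lemmas of `Lib/Red/TorsionOneStep.lean` in this generality;
* `IsNodal` : the two-component data;
* `moving` : every class whose Kummer generator is a bi-unit with constant reductions is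
  represented by a divisor supported on the smooth tubes, with a bi-unit Kummer generator;
* `principal_of_smooth` : the one-step argument on the nodal fibre;
* `inertia_sq_zero` : `(τ - 1)(σ - 1) = 0`.
-/

set_option autoImplicit false

noncomputable section

namespace Fermat.Agent.BAD.OneStepNodal

open AlgebraicCurve Fermat.Agent.Lib.Red.OneStep

section Local

variable {L F k Ft : Type*} [Field L] [Field F] [Algebra L F] [Field k] [Field Ft] [Algebra k Ft]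

/-- Reduction data `(O, red, r)` as in `Lib.Red.OneStep.IsRed`, with the compatibility
`r_* div(u) = div(red u)` required only at the places of `G`. -/
structure IsRedOn (O : ValuationSubring F) (red : O →+* Ft) (r : Place L F → Place k Ft)
    (G : Set (Place k Ft)) : Prop where
  /-- every nonzero function is a constant times a unit of `O` -/
  scale : ∀ y : F, y ≠ 0 → ∃ (c : L) (u : Oˣ), y = algebraMap L F c * ((u : O) : F)
  /-- the kernel of `red` is the maximal ideal -/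
  ker : ∀ y : O, ¬ IsUnit y → red y = 0
  /-- constants reduce to constants -/
  const : ∀ y : O, IsConst L y → ∃ κ : k, red y = algebraMap k Ft κ
  /-- `r_* div(u) = div(red u)` at the places of `G`, for units `u` -/
  spec : ∀ (u : Oˣ) (D : Divisor L F), (∀ P, D P = P.ord (((u : O) : F))) →
      ∀ Q, Q ∈ G → Finsupp.mapDomain r D Q = Q.ord (red u)

namespace IsRedOn


variable {O : ValuationSubring F} {red : O →+* Ft} {r : Place L F → Place k Ft}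
  {G : Set (Place k Ft)}

theorem isUnit_of_red_ne_zero (h : IsRedOn O red r G) {y : O} (hy : red y ≠ 0) : IsUnit y := by
  by_contra hu
  exact hy (h.ker y hu)

theorem red_unit_ne_zero (u : Oˣ) : red (u : O) ≠ 0 := (u.isUnit.map red).ne_zero

theorem ord_red_const (h : IsRedOn O red r G) (Q : Place k Ft) {y : O} (hy : IsConst L y) :
    Q.ord (red y) = 0 := by
  obtain ⟨κ, hκ⟩ := h.const y hy
  rw [hκ]
  exact Fermat.Agent.S24.ord_algebraMap Q κ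

/-- If `a · u = b · z` with constants `a`, `b ≠ 0`, `u` a unit and `red z ≠ 0`, then `red z` is
a nonzero constant multiple of `red u`. -/
theorem red_eq_const_mul (h : IsRedOn O red r G) (u : Oˣ) {a b z : O} (ha : IsConst L a)
    (hb : IsConst L b) (hb0 : b ≠ 0) (hab : a * u = b * z) (hz : red z ≠ 0) :
    ∃ κ : k, κ ≠ 0 ∧ red z = algebraMap k Ft κ * red u := by
  have hηc : IsConst L (z * ((u⁻¹ : Oˣ) : O)) := by
    obtain ⟨ca, hca⟩ := ha
    obtain ⟨cb, hcb⟩ := hb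
    refine ⟨ca / cb, ?_⟩
    have hbF : (b : F) ≠ 0 := fun h' => hb0 (Subtype.ext h')
    have habF : (a : F) * ((u : O) : F) = (b : F) * (z : F) := congrArg Subtype.val hab
    have huF := coe_unit_ne_zero u
    show algebraMap L F (ca / cb) = (z : F) * (((u⁻¹ : Oˣ) : O) : F)
    rw [coe_units_inv, map_div₀, hca, hcb]
    field_simp
    linear_combination habF
  obtain ⟨κ, hκ⟩ := h.const _ hηc
  have hzη : z = z * ((u⁻¹ : Oˣ) : O) * u := by
    rw [mul_assoc, Units.inv_mul, mul_one]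
  have hred : red z = algebraMap k Ft κ * red u := by
    conv_lhs => rw [hzη]
    rw [map_mul, hκ]
  refine ⟨κ, ?_, hred⟩
  rintro rfl
  apply hz
  rw [hred, map_zero, zero_mul]

variable [HasPrincipalDivisors L F]

theorem spec' (h : IsRedOn O red r G) (u : Oˣ) (Q : Place k Ft) (hQ : Q ∈ G) :
    Finsupp.mapDomain r (pdiv L ((u : O) : F)) Q = Q.ord (red u) :=
  h.spec u _ (fun P => pdiv_apply _ P) Q hQ

/-- A unit without poles in the tube of `Q` reduces to a function regular at `Q`. -/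
theorem ord_red_nonneg (h : IsRedOn O red r G) (u : Oˣ) (Q : Place k Ft) (hQ : Q ∈ G)
    (htube : ∀ P, r P = Q → 0 ≤ P.ord ((u : O) : F)) : 0 ≤ Q.ord (red u) := by
  rw [← h.spec' u Q hQ]
  exact mapDomain_nonneg_of r _ Q (fun P hP => by rw [pdiv_apply]; exact htube P hP)

/-- A unit with a zero at `P₀`, no poles in the tube of `r P₀`, cannot reduce to a function
without zero at `r P₀`. -/
theorem false_of_zero (h : IsRedOn O red r G) (u : Oˣ) (P₀ : Place L F) (hG : r P₀ ∈ G)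
    (hpos : 0 < P₀.ord ((u : O) : F))
    (htube : ∀ P, r P = r P₀ → 0 ≤ P.ord ((u : O) : F))
    (hred : (r P₀).ord (red u) ≤ 0) : False := by
  have h1 := le_mapDomain_of r (pdiv L ((u : O) : F)) (r P₀)
    (fun P hP => by rw [pdiv_apply]; exact htube P hP) (P₀ := P₀) rfl
  rw [pdiv_apply, h.spec' u (r P₀) hG] at h1
  omega

/-- A unit whose reduction has a simple zero at `Q`, without poles in the tube of `Q`, has
exactly one zero in the tube, and it is simple. -/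
theorem tube_unique (h : IsRedOn O red r G) (u : Oˣ) (Q : Place k Ft) (hQ : Q ∈ G)
    (htube : ∀ P, r P = Q → 0 ≤ P.ord ((u : O) : F)) (h1 : Q.ord (red u) = 1)
    {P₀ : Place L F} (hP₀ : r P₀ = Q) (hpos : 0 < P₀.ord ((u : O) : F)) :
    P₀.ord ((u : O) : F) = 1 ∧ ∀ P, r P = Q → P ≠ P₀ → P.ord ((u : O) : F) = 0 := by
  obtain ⟨P₁, hP₁Q, hP₁, hoth⟩ := exists_of_mapDomain_eq_one r (pdiv L ((u : O) : F)) Q
    (fun P hP => by rw [pdiv_apply]; exact htube P hP) (by rw [h.spec' u Q hQ, h1])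
  have heq : P₀ = P₁ := by
    by_contra hne
    have := hoth P₀ hP₀ hne
    rw [pdiv_apply] at this
    omega
  subst heq
  refine ⟨by rw [← pdiv_apply (L := L)]; exact hP₁, fun P hP hne => ?_⟩
  have := hoth P hP hne
  rwa [pdiv_apply] at this

/-- If `red` is surjective, every place of `G` is the reduction of a place of `F`. -/
theorem exists_of_red_surjective (h : IsRedOn O red r G) (hred : Function.Surjective red)
    (Q : Place k Ft) (hQ : Q ∈ G) : ∃ P, r P = Q := by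
  classical
  obtain ⟨π, hπ⟩ := IsDiscreteValuationRing.exists_irreducible Q.toValuationSubring
  have h1 : Q.ord (π : Ft) = 1 := Q.ord_coe_irreducible hπ
  obtain ⟨y, hy⟩ := hred (π : Ft)
  have hy0 : red y ≠ 0 := by
    rw [hy]
    intro h0
    rw [h0, Place.ord_zero] at h1
    exact zero_ne_one h1
  obtain ⟨u, hu⟩ := h.isUnit_of_red_ne_zero hy0
  by_contra hno
  have h0 : Finsupp.mapDomain r (pdiv L ((u : O) : F)) Q = 0 := by
    rw [mapDomain_apply_eq_sum]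
    refine Finset.sum_eq_zero fun P hP => ?_
    exact absurd ⟨P, (Finset.mem_filter.1 hP).2⟩ hno
  rw [h.spec' u Q hQ, hu, hy, h1] at h0
  exact one_ne_zero h0

/-- Evaluation on a tube: if `t` has a simple zero in reduction at `Q` and no poles in the
tube of `Q`, then for each `P₀` in the tube there is a constant `τ` in the maximal ideal
such that `t - τ` is a unit of `O` whose only zero in the tube is a simple zero at `P₀`. -/
theorem tube_eval (h : IsRedOn O red r G) (hres : ∀ P : Place L F, Fermat.Agent.Lib.FF.RR.ResK P)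
    {Q : Place k Ft} (hQ : Q ∈ G) {t : O} (ht1 : Q.ord (red t) = 1)
    (htreg : ∀ P, r P = Q → 0 ≤ P.ord (t : F)) {P₀ : Place L F} (hP₀ : r P₀ = Q) :
    ∃ τ : O, IsConst L τ ∧ ¬ IsUnit τ ∧ ∃ y : Oˣ, (y : O) = t - τ ∧
      P₀.ord ((y : O) : F) = 1 ∧ ∀ P, r P = Q → P ≠ P₀ → P.ord ((y : O) : F) = 0 := by
  have hrt0 : red t ≠ 0 := by
    intro h0
    rw [h0, Place.ord_zero] at ht1
    exact zero_ne_one ht1
  obtain ⟨c, hc⟩ := exists_const_sub_pos P₀ (hres P₀) (htreg P₀ hP₀)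
  have hpos : 0 < P₀.ord ((t : F) - algebraMap L F c) := by
    rcases hc with hc | hc
    · exfalso
      have hct : IsConst L t := ⟨c, hc.symm⟩
      have := h.ord_red_const Q hct
      omega
    · exact hc
  by_cases hq : algebraMap L F c ∈ O
  · set τ : O := ⟨algebraMap L F c, hq⟩ with hτ
    have hτc : IsConst L τ := isConst_mk c hq
    by_cases hτu : IsUnit τ
    · exfalso
      have hrτ0 : red τ ≠ 0 := (hτu.map red).ne_zero
      have hordτ : Q.ord (red τ) = 0 := h.ord_red_const Q hτc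
      have hord : Q.ord (red t - red τ) = 0 := by
        rw [ord_sub_eq_of_lt Q hrτ0 (Or.inr (by omega)), hordτ]
      have hne : red (t - τ) ≠ 0 := by
        rw [map_sub]
        intro h0
        rw [sub_eq_zero] at h0
        rw [h0, hordτ] at ht1
        omega
      obtain ⟨y, hy⟩ := h.isUnit_of_red_ne_zero hne
      refine h.false_of_zero y P₀ (by rw [hP₀]; exact hQ) ?_ ?_ ?_
      · rw [hy]
        exact hpos
      · intro P hP
        rw [hy]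
        exact ord_sub_const_nonneg P (htreg P (hP.trans hP₀)) c
      · rw [hP₀, hy, map_sub, hord]
    · have hrτ : red τ = 0 := h.ker τ hτu
      have hne : red (t - τ) ≠ 0 := by
        rw [map_sub, hrτ, sub_zero]
        exact hrt0
      obtain ⟨y, hy⟩ := h.isUnit_of_red_ne_zero hne
      have hy1 : Q.ord (red (y : O)) = 1 := by
        rw [hy, map_sub, hrτ, sub_zero]
        exact ht1
      obtain ⟨h1, h2⟩ := h.tube_unique y Q hQ
        (fun P hP => by rw [hy]; exact ord_sub_const_nonneg P (htreg P hP) c) hy1 hP₀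
        (by rw [hy]; exact hpos)
      exact ⟨τ, hτc, hτu, y, hy, h1, h2⟩
  · exfalso
    have hq' : (algebraMap L F c)⁻¹ ∈ O := (O.mem_or_inv_mem _).resolve_left hq
    have hc0 : c ≠ 0 := by
      rintro rfl
      apply hq
      rw [map_zero]
      exact O.zero_mem
    set a : O := ⟨(algebraMap L F c)⁻¹, hq'⟩ with ha
    have hau : ¬ IsUnit a := by
      rintro ⟨w, hw⟩
      apply hq
      have h1 : (((w⁻¹ : Oˣ) : O) : F) = algebraMap L F c := by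
        rw [coe_units_inv, hw]
        show ((algebraMap L F c)⁻¹)⁻¹ = _
        rw [inv_inv]
      rw [← h1]
      exact ((w⁻¹ : Oˣ) : O).2
    have hra : red a = 0 := h.ker a hau
    have hne : red (1 - a * t) ≠ 0 := by
      rw [map_sub, map_one, map_mul, hra, zero_mul, sub_zero]
      exact one_ne_zero
    obtain ⟨y, hy⟩ := h.isUnit_of_red_ne_zero hne
    have hcF : algebraMap L F c ≠ 0 := (map_ne_zero (algebraMap L F)).2 hc0
    have hyF : ∀ P : Place L F, P.ord ((y : O) : F) = P.ord ((t : F) - algebraMap L F c) := by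
      intro P
      have hyv : ((y : O) : F) = algebraMap L F (-c⁻¹) * ((t : F) - algebraMap L F c) := by
        rw [hy]
        show 1 - (algebraMap L F c)⁻¹ * (t : F) = _
        rw [map_neg, map_inv₀]
        field_simp
        ring
      rw [hyv, ord_const_mul P (neg_ne_zero.2 (inv_ne_zero hc0))]
    refine h.false_of_zero y P₀ (by rw [hP₀]; exact hQ) ?_ ?_ ?_
    · rw [hyF]
      exact hpos
    · intro P hP
      rw [hyF]
      exact ord_sub_const_nonneg P (htreg P (hP.trans hP₀)) c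
    · rw [hy, map_sub, map_one, map_mul, hra, zero_mul, sub_zero, Place.ord_one]

/-- **Local claim.** Let `1 + c·u` (`c` a constant of the maximal ideal, `u` a unit) have, in
the tube of `Q`, exactly a pole of order `m` at `P` and a zero of order `m` at `P' ≠ P`.
If `m` is invertible in `Ft` and `Q` has a tube coordinate `t`, then `red u` has at most a
simple pole at `Q`. -/
theorem local_claim (h : IsRedOn O red r G) (hres : ∀ P : Place L F, Fermat.Agent.Lib.FF.RR.ResK P)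
    {m : ℕ} (hm : (m : Ft) ≠ 0) {Q : Place k Ft} (hQ : Q ∈ G) {t : O}
    (ht1 : Q.ord (red t) = 1) (htreg : ∀ P, r P = Q → 0 ≤ P.ord (t : F))
    {c : O} (hc : IsConst L c) (hcu : ¬ IsUnit c) (u : Oˣ)
    {P P' : Place L F} (hP : r P = Q) (hP' : r P' = Q) (hne : P ≠ P')
    (hordP : P.ord ((1 + c * u : O) : F) = -(m : ℤ))
    (hordP' : P'.ord ((1 + c * u : O) : F) = (m : ℤ))
    (hord : ∀ P'', r P'' = Q → P'' ≠ P → P'' ≠ P' → P''.ord ((1 + c * u : O) : F) = 0) :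
    -1 ≤ Q.ord (red (u : O)) := by
  obtain ⟨τ, hτc, hτu, y, hy, hyP, hyoth⟩ := h.tube_eval hres hQ ht1 htreg hP
  obtain ⟨τ', hτ'c, hτ'u, y', hy', hy'P', hy'oth⟩ := h.tube_eval hres hQ ht1 htreg hP'
  have hrτ : red τ = 0 := h.ker τ hτu
  have hrτ' : red τ' = 0 := h.ker τ' hτ'u
  have hrc : red c = 0 := h.ker c hcu
  -- the constant `d = τ' - τ`
  obtain ⟨d, hd⟩ : ∃ d : O, d = τ' - τ := ⟨_, rfl⟩
  have hdc : IsConst L d := by
    obtain ⟨a, ha⟩ := hτ'c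
    obtain ⟨b, hb⟩ := hτc
    exact ⟨a - b, by rw [hd, map_sub, ha, hb]; rfl⟩
  have hrd : red d = 0 := by rw [hd, map_sub, hrτ, hrτ', sub_zero]
  have hyy' : (y : O) - y' = d := by rw [hy, hy', hd]; ring
  have hd0 : d ≠ 0 := by
    intro h0
    have heq : (y : O) = y' := by rw [← sub_eq_zero, hyy', h0]
    have h1 := hyoth P' hP' (Ne.symm hne)
    rw [heq] at h1
    omega
  -- `s = 1/(t - τ)` and `φ = (t - τ')/(t - τ) = 1 - d s`
  obtain ⟨s, hs⟩ : ∃ s : Oˣ, s = y⁻¹ := ⟨_, rfl⟩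
  obtain ⟨φ, hφ⟩ : ∃ φ : Oˣ, φ = y' * y⁻¹ := ⟨_, rfl⟩
  have hys : (y : O) * (s : O) = 1 := by rw [hs]; exact Units.mul_inv y
  have hφeq : (φ : O) = 1 - d * s := by
    rw [hφ, Units.val_mul, ← hyy', ← hs]
    linear_combination hys
  have hry : red (y : O) = red t := by rw [hy, map_sub, hrτ, sub_zero]
  have hrs : red (s : O) = (red t)⁻¹ := by
    have h1 : red (s : O) * red (y : O) = 1 := by
      rw [← map_mul, mul_comm, hys, map_one]
    rw [← hry]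
    exact eq_inv_of_mul_eq_one_left h1
  have hrs0 : red (s : O) ≠ 0 := red_unit_ne_zero s
  have hords : Q.ord (red (s : O)) = -1 := by rw [hrs, Place.ord_inv, ht1]
  have hrφ : red (φ : O) = 1 := by
    rw [hφeq, map_sub, map_one, map_mul, hrd, zero_mul, sub_zero]
  have hrφi : red ((φ⁻¹ : Oˣ) : O) = 1 := by
    have h1 : red ((φ⁻¹ : Oˣ) : O) * red (φ : O) = 1 := by
      rw [← map_mul, Units.inv_mul, map_one]
    rwa [hrφ, mul_one] at h1
  -- orders of `φ` in the tube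
  have hφF : ((φ : O) : F) = ((y' : O) : F) * (((y : O) : F))⁻¹ := by
    rw [hφ, Units.val_mul]
    show ((y' : O) : F) * (((y⁻¹ : Oˣ) : O) : F) = _
    rw [coe_units_inv]
  have hφord : ∀ P'' : Place L F, P''.ord ((φ : O) : F)
      = P''.ord ((y' : O) : F) - P''.ord ((y : O) : F) := by
    intro P''
    rw [hφF, P''.ord_mul (coe_unit_ne_zero y') (inv_ne_zero (coe_unit_ne_zero y)), Place.ord_inv]
    ring
  -- `ε := (1 + c u) φ⁻ᵐ`
  obtain ⟨ε, hε⟩ : ∃ ε : O, ε = (1 + c * u) * ((φ⁻¹ : Oˣ) : O) ^ m := ⟨_, rfl⟩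
  have e1 : (1 + c * u : O) = ε * (φ : O) ^ m := by
    rw [hε, mul_assoc, ← mul_pow, Units.inv_mul, one_pow, mul_one]
  have hrε : red ε = 1 := by
    rw [hε, map_mul, map_add, map_one, map_mul, hrc, zero_mul, add_zero, one_mul, map_pow, hrφi,
      one_pow]
  have hF1ne : ((1 + c * u : O) : F) ≠ 0 := by
    intro h0
    have h1 : (1 + c * u : O) = 0 := Subtype.ext h0
    have h2 : red (1 + c * u : O) = 1 := by
      rw [map_add, map_one, map_mul, hrc, zero_mul, add_zero]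
    rw [h1, map_zero] at h2
    exact zero_ne_one h2
  have hεF : (ε : F) = ((1 + c * u : O) : F) * ((((φ : O) : F))⁻¹) ^ m := by
    rw [hε]
    show ((1 + c * u : O) : F) * ((((φ⁻¹ : Oˣ) : O) : F)) ^ m = _
    rw [coe_units_inv]
  have hεord : ∀ P'' : Place L F, P''.ord (ε : F)
      = P''.ord ((1 + c * u : O) : F) - m * P''.ord ((φ : O) : F) := by
    intro P''
    rw [hεF, P''.ord_mul hF1ne (pow_ne_zero _ (inv_ne_zero (coe_unit_ne_zero φ))), ord_npow,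
      Place.ord_inv]
    ring
  have hεtube : ∀ P'', r P'' = Q → P''.ord (ε : F) = 0 := by
    intro P'' hP''
    rw [hεord, hφord]
    by_cases h1 : P'' = P
    · rw [h1, hordP, hyP, hy'oth P hP hne]
      ring
    · by_cases h2 : P'' = P'
      · rw [h2, hordP', hy'P', hyoth P' hP' (Ne.symm hne)]
        ring
      · rw [hord P'' hP'' h1 h2, hyoth P'' hP'' h1, hy'oth P'' hP'' h2]
        ring
  -- `ε - 1 = c₁ u₁`
  have hdecomp : ∃ (c₁ : O) (u₁ : Oˣ), ε - 1 = c₁ * u₁ ∧ IsConst L c₁ ∧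
      0 ≤ Q.ord (red (u₁ : O)) := by
    by_cases hε1 : ε = 1
    · refine ⟨0, 1, by rw [hε1, sub_self, zero_mul], ⟨0, by rw [map_zero]; rfl⟩, ?_⟩
      rw [Units.val_one, map_one, Place.ord_one]
    · have hεF0 : ((ε - 1 : O) : F) ≠ 0 := fun h' => hε1 (sub_eq_zero.1 (Subtype.ext h'))
      obtain ⟨cL, u₁, hu₁⟩ := h.scale _ hεF0
      have hcL : cL ≠ 0 := by
        rintro rfl
        apply hεF0
        rw [hu₁, map_zero, zero_mul]
      refine ⟨(ε - 1) * ((u₁⁻¹ : Oˣ) : O), u₁, by rw [mul_assoc, Units.inv_mul, mul_one],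
        ⟨cL, ?_⟩, ?_⟩
      · show algebraMap L F cL = ((ε - 1 : O) : F) * (((u₁⁻¹ : Oˣ) : O) : F)
        rw [coe_units_inv, hu₁, mul_assoc, mul_inv_cancel₀ (coe_unit_ne_zero u₁), mul_one]
      · apply h.ord_red_nonneg u₁ Q hQ
        intro P'' hP''
        have h1 : P''.ord ((ε - 1 : O) : F) = P''.ord ((u₁ : O) : F) := by
          rw [hu₁, ord_const_mul P'' hcL]
        rw [← h1]
        exact ord_sub_one_nonneg P'' (le_of_eq (hεtube P'' hP'').symm)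
  obtain ⟨c₁, u₁, e2, hc₁c, hu₁ord⟩ := hdecomp
  obtain ⟨hh, e3⟩ := one_sub_pow_expand (d * (s : O)) m
  rw [← hφeq] at e3
  have hF1 : c * u = c₁ * u₁ * (φ : O) ^ m - m * (d * s) + (d * s) ^ 2 * hh := by
    linear_combination e1 + (φ : O) ^ m * e2 + e3
  have hordm : Q.ord ((m : Ft) * red (s : O)) = -1 := by
    have h1 : Q.ord (m : Ft) = 0 := by
      have := Fermat.Agent.S24.ord_algebraMap Q (m : k)
      rwa [map_natCast] at this
    rw [Q.ord_mul hm hrs0, h1, hords, zero_add]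
  rcases const_div_cases hc₁c hdc hd0 with ⟨x, hxc, hx⟩ | ⟨x, hxc, hxu, hx⟩
  · -- `c₁ = x d`
    obtain ⟨z, hz⟩ : ∃ z : O, z = x * u₁ * (φ : O) ^ m - m * s + d * (s : O) ^ 2 * hh := ⟨_, rfl⟩
    have hcz : c * u = d * z := by
      rw [hz]
      linear_combination hF1 + (u₁ * (φ : O) ^ m) * hx
    have hredz : red z = red x * red (u₁ : O) - (m : Ft) * red (s : O) := by
      rw [hz]
      simp only [map_sub, map_add, map_mul, map_pow, map_natCast, hrφ, hrd, one_pow, mul_one,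
        zero_mul, add_zero]
    have hordz : Q.ord (red z) = -1 := by
      rw [hredz, ord_sub_eq_of_lt Q (mul_ne_zero hm hrs0) ?_, hordm]
      by_cases hrx : red x = 0
      · left
        rw [hrx, zero_mul]
      · right
        rw [hordm, Q.ord_mul hrx (red_unit_ne_zero u₁), h.ord_red_const Q hxc]
        omega
    have hzne : red z ≠ 0 := by
      intro h0
      rw [h0, Place.ord_zero] at hordz
      omega
    obtain ⟨κ, hκ0, hκ⟩ := h.red_eq_const_mul u hc hdc hd0 hcz hzne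
    have hfin : Q.ord (red z) = Q.ord (red (u : O)) := by
      rw [hκ, ord_const_mul Q hκ0]
    omega
  · -- `d = x c₁`
    have hc₁0 : c₁ ≠ 0 := by
      rintro rfl
      apply hd0
      rw [hx, mul_zero]
    have hrx : red x = 0 := h.ker x hxu
    obtain ⟨z, hz⟩ : ∃ z : O, z = u₁ * (φ : O) ^ m - m * (x * s) + x * (d * (s : O) ^ 2 * hh) :=
      ⟨_, rfl⟩
    have hcz : c * u = c₁ * z := by
      rw [hz]
      linear_combination hF1 + (-(m : O) * s + d * (s : O) ^ 2 * hh) * hx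
    have hredz : red z = red (u₁ : O) := by
      rw [hz]
      simp only [map_sub, map_add, map_mul, map_pow, map_natCast, hrφ, hrx, one_pow, mul_one,
        zero_mul, mul_zero, add_zero, sub_zero]
    have hzne : red z ≠ 0 := by
      rw [hredz]
      exact red_unit_ne_zero u₁
    obtain ⟨κ, hκ0, hκ⟩ := h.red_eq_const_mul u hc hc₁c hc₁0 hcz hzne
    have hfin : Q.ord (red z) = Q.ord (red (u : O)) := by
      rw [hκ, ord_const_mul Q hκ0]
    rw [hredz] at hfin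
    omega

end IsRedOn

end Local

/-! ### Valuations at places -/

section Val

open WithZero

variable {K F : Type*} [Field K] [Field F] [Algebra K F]

theorem adicVal_lt_one_iff (Q : Place K F) {f : F} (hf : f ≠ 0) :
    Q.adicValuation f < 1 ↔ 0 < Q.ord f := by
  rw [Q.adicValuation_eq_exp_neg_ord hf, ← exp_zero, exp_lt_exp]
  omega

theorem adicVal_le_one_iff (Q : Place K F) {f : F} (hf : f ≠ 0) :
    Q.adicValuation f ≤ 1 ↔ 0 ≤ Q.ord f := by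
  rw [Q.adicValuation_eq_exp_neg_ord hf, ← exp_zero, exp_le_exp]
  omega

theorem adicVal_const (Q : Place K F) {κ : K} (hκ : κ ≠ 0) :
    Q.adicValuation (algebraMap K F κ) = 1 := by
  have h0 : algebraMap K F κ ≠ 0 := (map_ne_zero _).2 hκ
  rw [Q.adicValuation_eq_exp_neg_ord h0, Fermat.Agent.S24.ord_algebraMap, neg_zero, exp_zero]

/-- A constant vanishing at a place is zero. -/
theorem const_eq_zero_of_adicVal_lt (Q : Place K F) {κ : K}
    (h : Q.adicValuation (algebraMap K F κ) < 1) : κ = 0 := by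
  by_contra hκ
  rw [adicVal_const Q hκ] at h
  exact lt_irrefl _ h

theorem const_eq_of_adicVal_sub_lt (Q : Place K F) {κ κ' : K}
    (h : Q.adicValuation (algebraMap K F κ - algebraMap K F κ') < 1) : κ = κ' := by
  rw [← map_sub] at h
  exact sub_eq_zero.1 (const_eq_zero_of_adicVal_lt Q h)

theorem adicVal_le_one_of_sub_const_lt (Q : Place K F) {f : F} {κ : K}
    (h : Q.adicValuation (f - algebraMap K F κ) < 1) : Q.adicValuation f ≤ 1 := by
  have h1 : f = (f - algebraMap K F κ) + algebraMap K F κ := by ring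
  rw [h1]
  exact (Valuation.map_add _ _ _).trans (max_le h.le (Q.adicValuation_algebraMap_le_one κ))

theorem ord_nonneg_of_sub_const_lt (Q : Place K F) {f : F} {κ : K}
    (h : Q.adicValuation (f - algebraMap K F κ) < 1) : 0 ≤ Q.ord f := by
  by_cases hf : f = 0
  · rw [hf, Place.ord_zero]
  · exact (adicVal_le_one_iff Q hf).1 (adicVal_le_one_of_sub_const_lt Q h)

/-- A function congruent to a nonzero constant at `Q` has order `0` at `Q`. -/
theorem ord_eq_zero_of_sub_const_lt (Q : Place K F) {f : F} {κ : K} (hκ : κ ≠ 0)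
    (h : Q.adicValuation (f - algebraMap K F κ) < 1) : Q.ord f = 0 := by
  have hf : f ≠ 0 := by
    rintro rfl
    rw [zero_sub, Valuation.map_neg, adicVal_const Q hκ] at h
    exact lt_irrefl _ h
  have h1 : Q.adicValuation f = 1 := by
    have h2 : f = (f - algebraMap K F κ) + algebraMap K F κ := by ring
    rw [h2, Valuation.map_add_eq_of_lt_right, adicVal_const Q hκ]
    rw [adicVal_const Q hκ]
    exact h
  rw [Q.adicValuation_eq_exp_neg_ord hf, ← exp_zero, exp_inj] at h1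
  omega

theorem ord_pos_of_adicVal_lt (Q : Place K F) {f : F} (hf : f ≠ 0)
    (h : Q.adicValuation f < 1) : 0 < Q.ord f := (adicVal_lt_one_iff Q hf).1 h

theorem ord_const_mul_pow (Q : Place K F) {c : K} (hc : c ≠ 0) (w : F) (m : ℕ) :
    Q.ord (algebraMap K F c * w ^ m) = (m : ℤ) * Q.ord w := by
  rw [ord_const_mul Q hc, ord_npow]

theorem adicVal_lt_one_of_const_mul_pow (Q : Place K F) {c : K} (hc : c ≠ 0) {w : F} {m : ℕ}
    (h : Q.adicValuation (algebraMap K F c * w ^ m) < 1) : Q.adicValuation w < 1 := by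
  by_cases hw : w = 0
  · rw [hw, map_zero]
    exact zero_lt_one
  have hne : algebraMap K F c * w ^ m ≠ 0 :=
    mul_ne_zero ((map_ne_zero _).2 hc) (pow_ne_zero m hw)
  have h1 := (adicVal_lt_one_iff Q hne).1 h
  rw [ord_const_mul_pow Q hc] at h1
  refine (adicVal_lt_one_iff Q hw).2 ?_
  by_contra hle
  have h2 : (m : ℤ) * Q.ord w ≤ 0 :=
    mul_nonpos_of_nonneg_of_nonpos (Int.natCast_nonneg m) (by omega)
  omega

end Val

/-! ### Push-forward: sums of points, filters, degrees -/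

section Push

variable {α β : Type*}

open Classical in
/-- The sum of the points `ℓ Q`, `Q ∈ s`. -/
def liftDiv (s : Finset β) (ℓ : β → α) : α →₀ ℤ := ∑ Q ∈ s, Finsupp.single (ℓ Q) (1 : ℤ)

theorem liftDiv_nonneg (s : Finset β) (ℓ : β → α) (P : α) : 0 ≤ liftDiv s ℓ P := by
  classical
  rw [liftDiv, Finsupp.finsetSum_apply]
  refine Finset.sum_nonneg fun Q _ => ?_
  rw [Finsupp.single_apply]
  split_ifs <;> norm_num

theorem liftDiv_apply_eq_zero (s : Finset β) (ℓ : β → α) (P : α) (h : ∀ Q ∈ s, ℓ Q ≠ P) :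
    liftDiv s ℓ P = 0 := by
  classical
  rw [liftDiv, Finsupp.finsetSum_apply]
  refine Finset.sum_eq_zero fun Q hQ => ?_
  rw [Finsupp.single_apply, if_neg (h Q hQ)]

theorem mapDomain_liftDiv {γ : Type*} (r : α → γ) (s : Finset β) (ℓ : β → α) :
    Finsupp.mapDomain r (liftDiv s ℓ) = liftDiv s (fun Q => r (ℓ Q)) := by
  classical
  rw [liftDiv, liftDiv, Finsupp.mapDomain_finsetSum]
  exact Finset.sum_congr rfl fun Q _ => Finsupp.mapDomain_single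

theorem liftDiv_id_apply [DecidableEq β] (s : Finset β) (Q₀ : β) :
    liftDiv s (fun Q => Q) Q₀ = if Q₀ ∈ s then 1 else 0 := by
  rw [liftDiv, Finsupp.finsetSum_apply]
  simp only [Finsupp.single_apply]
  rw [Finset.sum_ite_eq' s Q₀ (fun _ => (1 : ℤ))]

/-- If `r ∘ ℓ` is the identity on `s`, the push-forward of `liftDiv s ℓ` is the indicator
of `s`. -/
theorem mapDomain_liftDiv_of_section [DecidableEq β] (r : α → β) (s : Finset β) (ℓ : β → α)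
    (hr : ∀ Q ∈ s, r (ℓ Q) = Q) (Q₀ : β) :
    Finsupp.mapDomain r (liftDiv s ℓ) Q₀ = if Q₀ ∈ s then 1 else 0 := by
  rw [mapDomain_liftDiv, ← liftDiv_id_apply s Q₀]
  unfold liftDiv
  rw [Finsupp.finsetSum_apply, Finsupp.finsetSum_apply]
  exact Finset.sum_congr rfl fun Q hQ => by
    show (Finsupp.single (r (ℓ Q)) (1 : ℤ)) Q₀ = (Finsupp.single Q (1 : ℤ)) Q₀
    rw [hr Q hQ]

theorem mapDomain_liftDiv_eq_zero {γ : Type*} (r : α → γ) (s : Finset β) (ℓ : β → α) (Q₀ : γ)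
    (h : ∀ Q ∈ s, r (ℓ Q) ≠ Q₀) : Finsupp.mapDomain r (liftDiv s ℓ) Q₀ = 0 := by
  rw [mapDomain_liftDiv]
  exact liftDiv_apply_eq_zero s _ Q₀ h

theorem mapDomain_filter_of_forall (r : α → β) (D : α →₀ ℤ) (p : α → Prop) [DecidablePred p]
    (Q : β) (h : ∀ P, r P = Q → p P) :
    Finsupp.mapDomain r (D.filter p) Q = Finsupp.mapDomain r D Q := by
  classical
  rw [mapDomain_apply_eq_sum, mapDomain_apply_eq_sum, Finsupp.support_filter,
    Finset.filter_filter]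
  refine Finset.sum_congr ?_ fun P hP => ?_
  · ext P
    simp only [Finset.mem_filter]
    constructor
    · rintro ⟨hP, -, hQ⟩
      exact ⟨hP, hQ⟩
    · rintro ⟨hP, hQ⟩
      exact ⟨hP, h P hQ, hQ⟩
  · rw [Finsupp.filter_apply, if_pos (h P (Finset.mem_filter.1 hP).2)]

theorem mapDomain_filter_of_forall_not (r : α → β) (D : α →₀ ℤ) (p : α → Prop)
    [DecidablePred p] (Q : β) (h : ∀ P, r P = Q → ¬ p P) :
    Finsupp.mapDomain r (D.filter p) Q = 0 := by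
  classical
  rw [mapDomain_apply_eq_sum]
  refine Finset.sum_eq_zero fun P hP => ?_
  rw [Finsupp.filter_apply, if_neg (h P (Finset.mem_filter.1 hP).2)]

theorem liftDiv_attach_apply [DecidableEq β] (s : Finset β) (f : {x // x ∈ s} → β)
    (hf : ∀ q, f q = q.1) (Q₀ : β) :
    liftDiv s.attach f Q₀ = if Q₀ ∈ s then 1 else 0 := by
  unfold liftDiv
  rw [Finsupp.finsetSum_apply]
  simp only [Finsupp.single_apply, hf]
  rw [Finset.sum_attach s (fun x => if x = Q₀ then (1 : ℤ) else 0), Finset.sum_ite_eq' s Q₀]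

end Push

section Degree

variable {K F : Type*} [Field K] [Field F] [Algebra K F]

theorem degree_eq_sum_of_deg_one (hdeg : ∀ P : Place K F, P.deg = 1) (D : Divisor K F) :
    Divisor.degree D = ∑ v ∈ D.support, D v := by
  rw [Divisor.degree, Finsupp.liftAddHom_apply, Finsupp.sum]
  refine Finset.sum_congr rfl (fun v _ => ?_)
  rw [AddMonoidHom.coe_mulRight, hdeg v]
  simp

theorem degree_liftDiv {β : Type*} (hdeg : ∀ P : Place K F, P.deg = 1) (s : Finset β)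
    (ℓ : β → Place K F) : Divisor.degree (liftDiv s ℓ) = s.card := by
  classical
  rw [liftDiv, map_sum]
  simp [Divisor.degree_single, hdeg]

/-- A pointwise nonnegative divisor of degree `≤ 0` is zero (all places of degree one). -/
theorem eq_zero_of_nonneg_of_degree_le (hdeg : ∀ P : Place K F, P.deg = 1) (E : Divisor K F)
    (hnn : ∀ Q, 0 ≤ E Q) (hle : Divisor.degree E ≤ 0) : E = 0 := by
  rw [degree_eq_sum_of_deg_one hdeg] at hle
  have hsum : ∑ v ∈ E.support, E v = 0 :=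
    le_antisymm hle (Finset.sum_nonneg fun v _ => hnn v)
  have hz := (Finset.sum_eq_zero_iff_of_nonneg (fun v _ => hnn v)).1 hsum
  ext Q
  rw [Finsupp.zero_apply]
  by_contra hQ
  exact hQ (hz Q (Finsupp.mem_support_iff.2 hQ))

theorem degree_pdiv [HasPrincipalDivisors K F] {f : F} (hf : f ≠ 0) :
    Divisor.degree (pdiv K f) = 0 := by
  unfold pdiv
  rw [dif_neg hf]
  exact (HasPrincipalDivisors.exists_divisor (K := K) f hf).choose_spec.2

variable {k Ft : Type*} [Field k] [Field Ft] [Algebra k Ft]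

theorem degree_mapDomain' (r : Place K F → Place k Ft) (hdegr : ∀ P, (r P).deg = P.deg)
    (D : Divisor K F) : Divisor.degree (Finsupp.mapDomain r D) = Divisor.degree D := by
  induction D using Finsupp.induction with
  | zero => simp
  | single_add P n D _ _ ih =>
    rw [Finsupp.mapDomain_add, map_add, map_add, ih, Finsupp.mapDomain_single,
      Divisor.degree_single, Divisor.degree_single, hdegr]

end Degree

/-! ### Single-component lemmas for the one-step argument -/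

section Local2

variable {L F k Ft : Type*} [Field L] [Field F] [Algebra L F] [Field k] [Field Ft] [Algebra k Ft]
variable {O : ValuationSubring F} {red : O →+* Ft} {r : Place L F → Place k Ft}
  {G : Set (Place k Ft)} [HasPrincipalDivisors L F]

/-- **Normalisation.**  Let `f` be a unit of `O` with constant reduction `κ₀`, without zeros
or poles in the tube of `r Pst ∈ G`, and let `a` be the value of `f` at `Pst`.  Then `a` is
a constant of `O` with reduction `κ₀`. -/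
theorem IsRedOn.value_const (hR : IsRedOn O red r G) (f : Oˣ) (κ₀ : k)
    (hrf : red f = algebraMap k Ft κ₀) (Pst : Place L F) (hG : r Pst ∈ G)
    (htube : ∀ P, r P = r Pst → P.ord ((f : O) : F) = 0) (a : L)
    (hae : ((f : O) : F) = algebraMap L F a ∨ 0 < Pst.ord (((f : O) : F) - algebraMap L F a)) :
    ∃ ha : algebraMap L F a ∈ O, red ⟨_, ha⟩ = algebraMap k Ft κ₀ := by
  rcases hae with hfa | hpos
  · have ha : algebraMap L F a ∈ O := by rw [← hfa]; exact (f : O).2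
    refine ⟨ha, ?_⟩
    have : (⟨algebraMap L F a, ha⟩ : O) = f := Subtype.ext hfa.symm
    rw [this, hrf]
  have hd0 : ((f : O) : F) - algebraMap L F a ≠ 0 := by
    intro h0
    rw [h0, Place.ord_zero] at hpos
    exact lt_irrefl _ hpos
  have ha0 : a ≠ 0 := by
    rintro rfl
    rw [map_zero, sub_zero, htube Pst rfl] at hpos
    exact lt_irrefl _ hpos
  have haF : algebraMap L F a ≠ 0 := (map_ne_zero _).2 ha0
  by_cases ha : algebraMap L F a ∈ O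
  · refine ⟨ha, ?_⟩
    obtain ⟨κ, hκ⟩ := hR.const ⟨_, ha⟩ (isConst_mk a ha)
    rw [hκ]
    by_contra hne
    -- `f - a` is a unit with nonzero constant reduction and a zero at `Pst`
    have hred : red ((f : O) - ⟨_, ha⟩) = algebraMap k Ft (κ₀ - κ) := by
      rw [map_sub, hrf, hκ, map_sub]
    have hκne : κ₀ - κ ≠ 0 := by
      intro h0
      apply hne
      rw [sub_eq_zero.1 h0]
    have hrne : red ((f : O) - ⟨_, ha⟩) ≠ 0 := by
      rw [hred]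
      exact (map_ne_zero _).2 hκne
    obtain ⟨y, hy⟩ := hR.isUnit_of_red_ne_zero hrne
    have hyF : ((y : O) : F) = ((f : O) : F) - algebraMap L F a := by rw [hy]; rfl
    refine hR.false_of_zero y Pst hG ?_ ?_ ?_
    · rw [hyF]
      exact hpos
    · intro P hP
      rw [hyF]
      exact ord_sub_const_nonneg P (by rw [htube P hP]) a
    · rw [hy, hred, Fermat.Agent.S24.ord_algebraMap]
  · exfalso
    -- `a⁻¹ f - 1` is a unit with reduction `-1` and a zero at `Pst`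
    have ha' : (algebraMap L F a)⁻¹ ∈ O := (O.mem_or_inv_mem _).resolve_left ha
    obtain ⟨b, hb⟩ : ∃ b : O, b = ⟨(algebraMap L F a)⁻¹, ha'⟩ := ⟨_, rfl⟩
    have hbu : ¬ IsUnit b := by
      rintro ⟨w, hw⟩
      apply ha
      have h1 : (((w⁻¹ : Oˣ) : O) : F) = algebraMap L F a := by
        rw [coe_units_inv, hw, hb]
        show ((algebraMap L F a)⁻¹)⁻¹ = _
        rw [inv_inv]
      rw [← h1]
      exact ((w⁻¹ : Oˣ) : O).2
    have hrb : red b = 0 := hR.ker b hbu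
    have hrne : red (b * f - 1) ≠ 0 := by
      rw [map_sub, map_mul, hrb, zero_mul, map_one, zero_sub]
      exact neg_ne_zero.2 one_ne_zero
    obtain ⟨y, hy⟩ := hR.isUnit_of_red_ne_zero hrne
    have hyF : ((y : O) : F) = algebraMap L F a⁻¹ * (((f : O) : F) - algebraMap L F a) := by
      rw [hy, hb]
      show (algebraMap L F a)⁻¹ * ((f : O) : F) - 1 = _
      rw [map_inv₀]
      field_simp
    have hyord : ∀ P : Place L F, P.ord ((y : O) : F) =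
        P.ord (((f : O) : F) - algebraMap L F a) := fun P => by
      rw [hyF, ord_const_mul P (inv_ne_zero ha0)]
    refine hR.false_of_zero y Pst hG ?_ ?_ ?_
    · rw [hyord]
      exact hpos
    · intro P hP
      rw [hyord]
      exact ord_sub_const_nonneg P (by rw [htube P hP]) a
    · rw [hy, map_sub, map_mul, hrb, zero_mul, map_one, zero_sub, ord_neg, Place.ord_one]

/-- **Pole bound at a point of the non-special divisor.**  `f = 1 + c·U` (`c` a nonzero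
non-unit constant) with `div f = m (E' - E0)`, where `E'` and `E0` are effective and have
exactly one point each in the tube of `Q ∈ G`, which carries a tube coordinate: then `red U`
has at most a simple pole at `Q`. -/
theorem IsRedOn.pole_bound (hR : IsRedOn O red r G)
    (hres : ∀ P : Place L F, Fermat.Agent.Lib.FF.RR.ResK P) {m : ℕ} (hm : (m : Ft) ≠ 0)
    (f : O) {c : O} (hc : IsConst L c) (hcu : ¬ IsUnit c) (hc0 : c ≠ 0) (U : O)
    (hf : f = 1 + c * U) (E' E0 : Divisor L F) (hE' : ∀ P, 0 ≤ E' P) (hE0 : ∀ P, 0 ≤ E0 P)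
    (hord : ∀ P : Place L F, P.ord (f : F) = (m : ℤ) * (E' P - E0 P))
    {Q : Place k Ft} (hQ : Q ∈ G) (h1 : Finsupp.mapDomain r E' Q = 1)
    (h0 : Finsupp.mapDomain r E0 Q = 1)
    (htube : ∃ t : O, Q.ord (red t) = 1 ∧ ∀ P, r P = Q → 0 ≤ P.ord (t : F)) :
    -1 ≤ Q.ord (red U) := by
  by_cases hU : red U = 0
  · rw [hU, Place.ord_zero]
    norm_num
  obtain ⟨u, hu⟩ := hR.isUnit_of_red_ne_zero hU
  obtain ⟨Pa, hPaQ, hPa, hPaoth⟩ :=
    exists_of_mapDomain_eq_one r E0 Q (fun P _ => hE0 P) h0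
  obtain ⟨Pb, hPbQ, hPb, hPboth⟩ :=
    exists_of_mapDomain_eq_one r E' Q (fun P _ => hE' P) h1
  have hcF : (c : F) ≠ 0 := fun h => hc0 (Subtype.ext h)
  obtain ⟨c₀, hc₀⟩ := hc
  have hc₀0 : c₀ ≠ 0 := by
    rintro rfl
    rw [map_zero] at hc₀
    exact hcF hc₀.symm
  have hfU : (f : F) - 1 = algebraMap L F c₀ * (U : F) := by
    rw [hf, hc₀]
    show (1 + (c : F) * (U : F)) - 1 = _
    ring
  by_cases heq : Pa = Pb
  · -- no zero or pole of `f` in the tube: `U` is regular there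
    rw [← hu]
    refine le_trans (by norm_num) (hR.ord_red_nonneg u Q hQ (fun P hP => ?_))
    rw [hu]
    have hfP : P.ord (f : F) = 0 := by
      rw [hord]
      by_cases hPP : P = Pa
      · rw [hPP, hPa, heq, hPb]
        ring
      · rw [hPaoth P hP hPP, hPboth P hP (by rw [← heq]; exact hPP)]
        ring
    have h2 : 0 ≤ P.ord ((f : F) - 1) := ord_sub_one_nonneg P (by rw [hfP])
    rw [hfU, ord_const_mul P hc₀0] at h2
    exact h2
  · obtain ⟨t, ht1, htreg⟩ := htube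
    have hfu : f = 1 + c * u := by rw [hu]; exact hf
    rw [← hu]
    refine hR.local_claim hres hm hQ ht1 htreg ⟨c₀, hc₀⟩ hcu u hPaQ hPbQ heq ?_ ?_ ?_
    · rw [← hfu, hord, hPa, hPboth Pa hPaQ heq]
      ring
    · rw [← hfu, hord, hPb, hPaoth Pb hPbQ (Ne.symm heq)]
      ring
    · intro P hP hne0 hne1
      rw [← hfu, hord, hPaoth P hP hne0, hPboth P hP hne1]
      ring

end Local2

/-! ### The nodal data -/

section Nodal

variable {L F k Ft₁ Ft₂ : Type*} [Field L] [Field F] [Algebra L F] [Field k]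
  [Field Ft₁] [Algebra k Ft₁] [Field Ft₂] [Algebra k Ft₂]

/-- The node points on the first component. -/
def Z₁ (nodes : Finset (Place k Ft₁ × Place k Ft₂)) : Set (Place k Ft₁) :=
  {z | ∃ zz ∈ nodes, zz.1 = z}

/-- The node points on the second component. -/
def Z₂ (nodes : Finset (Place k Ft₁ × Place k Ft₂)) : Set (Place k Ft₂) :=
  {z | ∃ zz ∈ nodes, zz.2 = z}

/-- Two-component nodal reduction data for `F/L`: valuation subrings `O₁`, `O₂` with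
reductions `red_j : O_j → Ft_j`, place maps `r_j` (`r_j P ∉ Z_j` means that `P` lies in the
tube of the smooth point `r_j P` of the `j`-th component), and the node pairs. -/
structure IsNodal (O₁ O₂ : ValuationSubring F) (red₁ : O₁ →+* Ft₁) (red₂ : O₂ →+* Ft₂)
    (r₁ : Place L F → Place k Ft₁) (r₂ : Place L F → Place k Ft₂)
    (nodes : Finset (Place k Ft₁ × Place k Ft₂)) : Prop where
  /-- reduction data on the first component, divisor compatibility at the smooth points -/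
  R₁ : IsRedOn O₁ red₁ r₁ (Z₁ nodes)ᶜ
  /-- reduction data on the second component, divisor compatibility at the smooth points -/
  R₂ : IsRedOn O₂ red₂ r₂ (Z₂ nodes)ᶜ
  /-- the two valuations agree on constants -/
  const_iff : ∀ c : L, algebraMap L F c ∈ O₁ ↔ algebraMap L F c ∈ O₂
  /-- constants have the same reduction on both components -/
  const_red : ∀ (c : L) (h₁ : algebraMap L F c ∈ O₁) (h₂ : algebraMap L F c ∈ O₂),
    ∃ κ : k, red₁ ⟨_, h₁⟩ = algebraMap k Ft₁ κ ∧ red₂ ⟨_, h₂⟩ = algebraMap k Ft₂ κ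
  /-- a place lies in at most one smooth tube -/
  disj : ∀ P, r₁ P ∉ Z₁ nodes → r₂ P ∈ Z₂ nodes
  /-- smooth points of the first component lift -/
  lift₁ : ∀ Q, Q ∉ Z₁ nodes → ∃ P, r₁ P = Q
  /-- smooth points of the second component lift -/
  lift₂ : ∀ Q, Q ∉ Z₂ nodes → ∃ P, r₂ P = Q
  /-- a bi-integral function without poles in the node tubes has reductions which are
  regular at the nodes, with equal values -/
  glue : ∀ (f : F) (h₁ : f ∈ O₁) (h₂ : f ∈ O₂),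
    (∀ P, r₁ P ∈ Z₁ nodes → r₂ P ∈ Z₂ nodes → 0 ≤ P.ord f) →
    ∀ zz ∈ nodes, ∃ κ : k, zz.1.adicValuation (red₁ ⟨f, h₁⟩ - algebraMap k Ft₁ κ) < 1 ∧
      zz.2.adicValuation (red₂ ⟨f, h₂⟩ - algebraMap k Ft₂ κ) < 1

/-- `L₁(D₁ - Σ nodes) = 0` on the first component. -/
def NS₁ (D₁ : Finset (Place k Ft₁)) (nodes : Finset (Place k Ft₁ × Place k Ft₂)) : Prop :=
  ∀ w : Ft₁, (∀ Q ∈ D₁, -1 ≤ Q.ord w) → (∀ Q, Q ∉ D₁ → 0 ≤ Q.ord w) →
    (∀ z ∈ Z₁ nodes, z.adicValuation w < 1) → w = 0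

/-- `L₂(D₂) = k` on the second component. -/
def NS₂ (D₂ : Finset (Place k Ft₂)) : Prop :=
  ∀ w : Ft₂, (∀ Q ∈ D₂, -1 ≤ Q.ord w) → (∀ Q, Q ∉ D₂ → 0 ≤ Q.ord w) →
    ∃ κ : k, w = algebraMap k Ft₂ κ

/-- (GEN) Away from any finite sets there are reduced divisors `D₁`, `D₂` of smooth points,
of total degree `g`, carrying tube coordinates, with `L₁(D₁ - Σ nodes) = 0` and
`L₂(D₂) = k`. -/
def HasGen (O₁ O₂ : ValuationSubring F) (red₁ : O₁ →+* Ft₁) (red₂ : O₂ →+* Ft₂)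
    (r₁ : Place L F → Place k Ft₁) (r₂ : Place L F → Place k Ft₂)
    (nodes : Finset (Place k Ft₁ × Place k Ft₂)) (g : ℕ) : Prop :=
  ∀ (S₁ : Finset (Place k Ft₁)) (S₂ : Finset (Place k Ft₂)),
    ∃ (D₁ : Finset (Place k Ft₁)) (D₂ : Finset (Place k Ft₂)),
      D₁.card + D₂.card = g ∧
      (∀ Q ∈ D₁, Q ∉ S₁ ∧ Q ∉ Z₁ nodes) ∧ (∀ Q ∈ D₂, Q ∉ S₂ ∧ Q ∉ Z₂ nodes) ∧
      (∀ Q ∈ D₁, ∃ t : O₁, Q.ord (red₁ t) = 1 ∧ ∀ P, r₁ P = Q → 0 ≤ P.ord (t : F)) ∧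
      (∀ Q ∈ D₂, ∃ t : O₂, Q.ord (red₂ t) = 1 ∧ ∀ P, r₂ P = Q → 0 ≤ P.ord (t : F)) ∧
      NS₁ D₁ nodes ∧ NS₂ D₂

/-- Two functions on the components, not both zero, with poles bounded by `D₁`, `D₂`, each
vanishing at the nodes when the other one is zero: then the first is nonzero and the second
is a nonzero constant. -/
theorem pure_T0 {nodes : Finset (Place k Ft₁ × Place k Ft₂)} {D₁ : Finset (Place k Ft₁)}
    {D₂ : Finset (Place k Ft₂)} (hNS₁ : NS₁ D₁ nodes) (hNS₂ : NS₂ D₂)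
    (hne : ∃ z', z' ∈ Z₂ nodes) (w₁ : Ft₁) (w₂ : Ft₂) (hnz : ¬ (w₁ = 0 ∧ w₂ = 0))
    (hN0a : w₂ = 0 → ∀ z ∈ Z₁ nodes, z.adicValuation w₁ < 1)
    (hN0b : w₁ = 0 → ∀ z' ∈ Z₂ nodes, z'.adicValuation w₂ < 1)
    (hP₁ : ∀ Q ∈ D₁, -1 ≤ Q.ord w₁) (hP₁' : ∀ Q, Q ∉ D₁ → 0 ≤ Q.ord w₁)
    (hP₂ : ∀ Q ∈ D₂, -1 ≤ Q.ord w₂) (hP₂' : ∀ Q, Q ∉ D₂ → 0 ≤ Q.ord w₂) :
    w₁ ≠ 0 ∧ ∃ c : k, c ≠ 0 ∧ w₂ = algebraMap k Ft₂ c := by
  have hw₂ : w₂ ≠ 0 := fun h0 => hnz ⟨hNS₁ w₁ hP₁ hP₁' (hN0a h0), h0⟩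
  obtain ⟨c, hc⟩ := hNS₂ w₂ hP₂ hP₂'
  have hc0 : c ≠ 0 := by
    rintro rfl
    exact hw₂ (by rw [hc, map_zero])
  refine ⟨fun h0 => ?_, c, hc0, hc⟩
  obtain ⟨z', hz'⟩ := hne
  have h1 := hN0b h0 z' hz'
  rw [hc] at h1
  exact hc0 (const_eq_zero_of_adicVal_lt z' h1)

/-- Two functions on the components, not both zero, with poles bounded by `D₁`, `D₂` and equal
values at the nodes are one and the same nonzero constant. -/
theorem pure_T1 {nodes : Finset (Place k Ft₁ × Place k Ft₂)} {D₁ : Finset (Place k Ft₁)}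
    {D₂ : Finset (Place k Ft₂)} (hNS₁ : NS₁ D₁ nodes) (hNS₂ : NS₂ D₂)
    (hne : ∃ zz, zz ∈ nodes) (w₁ : Ft₁) (w₂ : Ft₂) (hnz : ¬ (w₁ = 0 ∧ w₂ = 0))
    (hnode : ∀ zz ∈ nodes, ∃ κ : k, zz.1.adicValuation (w₁ - algebraMap k Ft₁ κ) < 1 ∧
      zz.2.adicValuation (w₂ - algebraMap k Ft₂ κ) < 1)
    (hP₁ : ∀ Q ∈ D₁, -1 ≤ Q.ord w₁) (hP₁' : ∀ Q, Q ∉ D₁ → Q ∉ Z₁ nodes → 0 ≤ Q.ord w₁)
    (hP₂ : ∀ Q ∈ D₂, -1 ≤ Q.ord w₂) (hP₂' : ∀ Q, Q ∉ D₂ → Q ∉ Z₂ nodes → 0 ≤ Q.ord w₂) :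
    ∃ c : k, c ≠ 0 ∧ w₁ = algebraMap k Ft₁ c ∧ w₂ = algebraMap k Ft₂ c := by
  have hreg₁ : ∀ Q, Q ∉ D₁ → 0 ≤ Q.ord w₁ := by
    intro Q hQ
    by_cases hZ : Q ∈ Z₁ nodes
    · obtain ⟨zz, hzz, rfl⟩ := hZ
      obtain ⟨κ, h1, -⟩ := hnode zz hzz
      exact ord_nonneg_of_sub_const_lt zz.1 h1
    · exact hP₁' Q hQ hZ
  have hreg₂ : ∀ Q, Q ∉ D₂ → 0 ≤ Q.ord w₂ := by
    intro Q hQ
    by_cases hZ : Q ∈ Z₂ nodes
    · obtain ⟨zz, hzz, rfl⟩ := hZ
      obtain ⟨κ, -, h2⟩ := hnode zz hzz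
      exact ord_nonneg_of_sub_const_lt zz.2 h2
    · exact hP₂' Q hQ hZ
  have hN0a : w₂ = 0 → ∀ z ∈ Z₁ nodes, z.adicValuation w₁ < 1 := by
    rintro h0 z ⟨zz, hzz, rfl⟩
    obtain ⟨κ, h1, h2⟩ := hnode zz hzz
    rw [h0, zero_sub, Valuation.map_neg] at h2
    have hκ := const_eq_zero_of_adicVal_lt zz.2 h2
    rw [hκ, map_zero, sub_zero] at h1
    exact h1
  have hN0b : w₁ = 0 → ∀ z' ∈ Z₂ nodes, z'.adicValuation w₂ < 1 := by
    rintro h0 z' ⟨zz, hzz, rfl⟩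
    obtain ⟨κ, h1, h2⟩ := hnode zz hzz
    rw [h0, zero_sub, Valuation.map_neg] at h1
    have hκ := const_eq_zero_of_adicVal_lt zz.1 h1
    rw [hκ, map_zero, sub_zero] at h2
    exact h2
  have hne₂ : ∃ z', z' ∈ Z₂ nodes := by
    obtain ⟨zz, hzz⟩ := hne
    exact ⟨zz.2, zz, hzz, rfl⟩
  obtain ⟨hw₁, c, hc0, hc⟩ := pure_T0 hNS₁ hNS₂ hne₂ w₁ w₂ hnz hN0a hN0b hP₁ hreg₁ hP₂ hreg₂
  refine ⟨c, hc0, ?_, hc⟩
  have hcF : algebraMap k Ft₁ c ≠ 0 := (map_ne_zero _).2 hc0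
  by_contra hne'
  have hw : w₁ - algebraMap k Ft₁ c ≠ 0 := sub_ne_zero.2 hne'
  apply hw
  refine hNS₁ _ (fun Q hQ => ?_) (fun Q hQ => ?_) ?_
  · have h1 := Fermat.Agent.S24.ord_sub_ge Q hw₁ hcF hw
    have h2 := hP₁ Q hQ
    have h3 := Fermat.Agent.S24.ord_algebraMap Q c
    have h4 := min_le_iff.1 h1
    omega
  · exact ord_sub_const_nonneg Q (hreg₁ Q hQ) c
  · rintro z ⟨zz, hzz, rfl⟩
    obtain ⟨κ, h1, h2⟩ := hnode zz hzz
    rw [hc] at h2
    have hκ := const_eq_of_adicVal_sub_lt zz.2 h2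
    rw [hκ]
    exact h1

/-- Counting: an effective divisor whose push-forwards to the smooth parts of the two
components have total degree at least its own degree has no point in the node tubes. -/
theorem count_nodes {r₁ : Place L F → Place k Ft₁} {r₂ : Place L F → Place k Ft₂}
    {Zs₁ : Set (Place k Ft₁)} {Zs₂ : Set (Place k Ft₂)}
    (hdeg : ∀ P : Place L F, P.deg = 1) (hdeg₁ : ∀ Q : Place k Ft₁, Q.deg = 1)
    (hdeg₂ : ∀ Q : Place k Ft₂, Q.deg = 1) (hdisj : ∀ P, r₁ P ∉ Zs₁ → r₂ P ∈ Zs₂)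
    (E : Divisor L F) (hE : ∀ P, 0 ≤ E P) (M₁ : Divisor k Ft₁) (M₂ : Divisor k Ft₂)
    (hM₁ : ∀ Q, Q ∉ Zs₁ → Finsupp.mapDomain r₁ E Q = M₁ Q) (hM₁' : ∀ Q, Q ∈ Zs₁ → M₁ Q = 0)
    (hM₂ : ∀ Q, Q ∉ Zs₂ → Finsupp.mapDomain r₂ E Q = M₂ Q) (hM₂' : ∀ Q, Q ∈ Zs₂ → M₂ Q = 0)
    (hdegE : Divisor.degree E ≤ Divisor.degree M₁ + Divisor.degree M₂) :
    ∀ P, r₁ P ∈ Zs₁ → r₂ P ∈ Zs₂ → E P = 0 := by
  classical
  have e₁ : Finsupp.mapDomain r₁ (E.filter fun P => r₁ P ∉ Zs₁) = M₁ := by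
    ext Q
    by_cases hQ : Q ∈ Zs₁
    · rw [mapDomain_filter_of_forall_not r₁ E _ Q (fun P hP => by rw [hP]; exact not_not.2 hQ),
        hM₁' Q hQ]
    · rw [mapDomain_filter_of_forall r₁ E _ Q (fun P hP => by rw [hP]; exact hQ), hM₁ Q hQ]
  have e₂ : Finsupp.mapDomain r₂ (E.filter fun P => r₂ P ∉ Zs₂) = M₂ := by
    ext Q
    by_cases hQ : Q ∈ Zs₂
    · rw [mapDomain_filter_of_forall_not r₂ E _ Q (fun P hP => by rw [hP]; exact not_not.2 hQ),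
        hM₂' Q hQ]
    · rw [mapDomain_filter_of_forall r₂ E _ Q (fun P hP => by rw [hP]; exact hQ), hM₂ Q hQ]
  have d₁ : Divisor.degree (E.filter fun P => r₁ P ∉ Zs₁) = Divisor.degree M₁ := by
    rw [← e₁, degree_mapDomain' r₁ (fun P => by rw [hdeg₁, hdeg])]
  have d₂ : Divisor.degree (E.filter fun P => r₂ P ∉ Zs₂) = Divisor.degree M₂ := by
    rw [← e₂, degree_mapDomain' r₂ (fun P => by rw [hdeg₂, hdeg])]
  have hsum : E = (E.filter fun P => r₁ P ∉ Zs₁) + (E.filter fun P => r₂ P ∉ Zs₂) +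
      (E.filter fun P => r₁ P ∈ Zs₁ ∧ r₂ P ∈ Zs₂) := by
    ext P
    simp only [Finsupp.add_apply, Finsupp.filter_apply]
    by_cases h1 : r₁ P ∈ Zs₁
    · by_cases h2 : r₂ P ∈ Zs₂
      · simp [h1, h2]
      · simp [h1, h2]
    · have h2 := hdisj P h1
      simp [h1, h2]
  have d₃ : Divisor.degree (E.filter fun P => r₁ P ∈ Zs₁ ∧ r₂ P ∈ Zs₂) ≤ 0 := by
    have := congrArg Divisor.degree hsum
    rw [map_add, map_add, d₁, d₂] at this
    omega
  have hzero := eq_zero_of_nonneg_of_degree_le hdeg _ (fun P => by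
    rw [Finsupp.filter_apply]
    split_ifs
    · exact hE P
    · exact le_rfl) d₃
  intro P h1 h2
  have := congrArg (fun D : Divisor L F => D P) hzero
  simpa [Finsupp.filter_apply, h1, h2] using this

variable {O₁ O₂ : ValuationSubring F} {red₁ : O₁ →+* Ft₁} {red₂ : O₂ →+* Ft₂}
  {r₁ : Place L F → Place k Ft₁} {r₂ : Place L F → Place k Ft₂}
  {nodes : Finset (Place k Ft₁ × Place k Ft₂)}

/-- Every nonzero function can be scaled by a constant so that it becomes integral for both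
valuations and a unit for at least one. -/
theorem IsNodal.exists_scaling (h : IsNodal O₁ O₂ red₁ red₂ r₁ r₂ nodes) (y : F) (hy : y ≠ 0) :
    ∃ c : L, c ≠ 0 ∧ ∃ (h₁ : algebraMap L F c * y ∈ O₁) (h₂ : algebraMap L F c * y ∈ O₂),
      ¬ (red₁ ⟨_, h₁⟩ = 0 ∧ red₂ ⟨_, h₂⟩ = 0) := by
  obtain ⟨a₁, u₁, e₁⟩ := h.R₁.scale y hy
  obtain ⟨a₂, u₂, e₂⟩ := h.R₂.scale y hy
  have ha₁ : a₁ ≠ 0 := by
    rintro rfl
    rw [map_zero, zero_mul] at e₁
    exact hy e₁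
  have ha₂ : a₂ ≠ 0 := by
    rintro rfl
    rw [map_zero, zero_mul] at e₂
    exact hy e₂
  have hA₁ : algebraMap L F a₁ ≠ 0 := (map_ne_zero _).2 ha₁
  have hA₂ : algebraMap L F a₂ ≠ 0 := (map_ne_zero _).2 ha₂
  rcases O₁.mem_or_inv_mem (algebraMap L F (a₁ / a₂)) with hx | hx
  · -- `|a₁| ≤ |a₂|`: divide by `a₂`
    have k₂ : algebraMap L F a₂⁻¹ * y = ((u₂ : O₂) : F) := by
      rw [e₂, ← mul_assoc, ← map_mul, inv_mul_cancel₀ ha₂, map_one, one_mul]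
    have k₁ : algebraMap L F a₂⁻¹ * y = algebraMap L F (a₁ / a₂) * ((u₁ : O₁) : F) := by
      rw [e₁, ← mul_assoc, ← map_mul]
      congr 2
      field_simp
    refine ⟨a₂⁻¹, inv_ne_zero ha₂, ?_, ?_, ?_⟩
    · rw [k₁]
      exact O₁.mul_mem _ _ hx (u₁ : O₁).2
    · rw [k₂]
      exact (u₂ : O₂).2
    · rintro ⟨-, h0⟩
      have : (⟨algebraMap L F a₂⁻¹ * y, by rw [k₂]; exact (u₂ : O₂).2⟩ : O₂) = u₂ :=
        Subtype.ext k₂
      rw [this] at h0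
      exact IsRedOn.red_unit_ne_zero u₂ h0
  · -- `|a₂| ≤ |a₁|`: divide by `a₁`
    have hx' : algebraMap L F (a₂ / a₁) ∈ O₁ := by
      have : algebraMap L F (a₂ / a₁) = (algebraMap L F (a₁ / a₂))⁻¹ := by
        rw [← map_inv₀, inv_div]
      rw [this]
      exact hx
    have hx₂ : algebraMap L F (a₂ / a₁) ∈ O₂ := (h.const_iff _).1 hx'
    have k₁ : algebraMap L F a₁⁻¹ * y = ((u₁ : O₁) : F) := by
      rw [e₁, ← mul_assoc, ← map_mul, inv_mul_cancel₀ ha₁, map_one, one_mul]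
    have k₂ : algebraMap L F a₁⁻¹ * y = algebraMap L F (a₂ / a₁) * ((u₂ : O₂) : F) := by
      rw [e₂, ← mul_assoc, ← map_mul]
      congr 2
      field_simp
    refine ⟨a₁⁻¹, inv_ne_zero ha₁, ?_, ?_, ?_⟩
    · rw [k₁]
      exact (u₁ : O₁).2
    · rw [k₂]
      exact O₂.mul_mem _ _ hx₂ (u₂ : O₂).2
    · rintro ⟨h0, -⟩
      have : (⟨algebraMap L F a₁⁻¹ * y, by rw [k₁]; exact (u₁ : O₁).2⟩ : O₁) = u₁ :=
        Subtype.ext k₁
      rw [this] at h0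
      exact IsRedOn.red_unit_ne_zero u₁ h0

theorem IsNodal.disj' (h : IsNodal O₁ O₂ red₁ red₂ r₁ r₂ nodes) (P : Place L F)
    (h2 : r₂ P ∉ Z₂ nodes) : r₁ P ∈ Z₁ nodes := by
  by_contra h1
  exact h2 (h.disj P h1)

/-- A lift `E0` of the reduced divisor `D₁ + D₂` of smooth points. -/
theorem IsNodal.exists_E0 (h : IsNodal O₁ O₂ red₁ red₂ r₁ r₂ nodes)
    (hdeg : ∀ P : Place L F, P.deg = 1) (D₁ : Finset (Place k Ft₁)) (D₂ : Finset (Place k Ft₂))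
    (hD₁ : ∀ Q ∈ D₁, Q ∉ Z₁ nodes) (hD₂ : ∀ Q ∈ D₂, Q ∉ Z₂ nodes) :
    ∃ E0 : Divisor L F, (∀ P, 0 ≤ E0 P) ∧
      Divisor.degree E0 = (D₁.card : ℤ) + D₂.card ∧
      (∀ Q ∈ D₁, Finsupp.mapDomain r₁ E0 Q = 1) ∧
      (∀ Q, Q ∉ D₁ → Q ∉ Z₁ nodes → Finsupp.mapDomain r₁ E0 Q = 0) ∧
      (∀ Q ∈ D₂, Finsupp.mapDomain r₂ E0 Q = 1) ∧
      (∀ Q, Q ∉ D₂ → Q ∉ Z₂ nodes → Finsupp.mapDomain r₂ E0 Q = 0) ∧
      (∀ P, r₁ P ∈ Z₁ nodes → r₂ P ∈ Z₂ nodes → E0 P = 0) := by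
  classical
  choose ℓ₁ hℓ₁ using fun (Q : Place k Ft₁) (hQ : Q ∈ D₁) => h.lift₁ Q (hD₁ Q hQ)
  choose ℓ₂ hℓ₂ using fun (Q : Place k Ft₂) (hQ : Q ∈ D₂) => h.lift₂ Q (hD₂ Q hQ)
  have h11 : ∀ Q₀, Finsupp.mapDomain r₁ (liftDiv D₁.attach (fun q => ℓ₁ q.1 q.2)) Q₀ =
      if Q₀ ∈ D₁ then 1 else 0 := by
    intro Q₀
    rw [mapDomain_liftDiv]
    exact liftDiv_attach_apply D₁ _ (fun q => hℓ₁ q.1 q.2) Q₀
  have h22 : ∀ Q₀, Finsupp.mapDomain r₂ (liftDiv D₂.attach (fun q => ℓ₂ q.1 q.2)) Q₀ =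
      if Q₀ ∈ D₂ then 1 else 0 := by
    intro Q₀
    rw [mapDomain_liftDiv]
    exact liftDiv_attach_apply D₂ _ (fun q => hℓ₂ q.1 q.2) Q₀
  have h12 : ∀ Q₀, Q₀ ∉ Z₁ nodes →
      Finsupp.mapDomain r₁ (liftDiv D₂.attach (fun q => ℓ₂ q.1 q.2)) Q₀ = 0 := by
    intro Q₀ hQ₀
    refine mapDomain_liftDiv_eq_zero r₁ _ _ Q₀ (fun q _ heq => hQ₀ ?_)
    rw [← heq]
    exact h.disj' _ (by rw [hℓ₂ q.1 q.2]; exact hD₂ q.1 q.2)
  have h21 : ∀ Q₀, Q₀ ∉ Z₂ nodes →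
      Finsupp.mapDomain r₂ (liftDiv D₁.attach (fun q => ℓ₁ q.1 q.2)) Q₀ = 0 := by
    intro Q₀ hQ₀
    refine mapDomain_liftDiv_eq_zero r₂ _ _ Q₀ (fun q _ heq => hQ₀ ?_)
    rw [← heq]
    exact h.disj _ (by rw [hℓ₁ q.1 q.2]; exact hD₁ q.1 q.2)
  refine ⟨liftDiv D₁.attach (fun q => ℓ₁ q.1 q.2) + liftDiv D₂.attach (fun q => ℓ₂ q.1 q.2),
    fun P => ?_, ?_, fun Q hQ => ?_, fun Q hQ hZ => ?_, fun Q hQ => ?_, fun Q hQ hZ => ?_,
    fun P h1 h2 => ?_⟩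
  · rw [Finsupp.add_apply]
    exact add_nonneg (liftDiv_nonneg _ _ P) (liftDiv_nonneg _ _ P)
  · rw [map_add, degree_liftDiv hdeg, degree_liftDiv hdeg, Finset.card_attach,
      Finset.card_attach]
  · rw [Finsupp.mapDomain_add, Finsupp.add_apply, h11, if_pos hQ, h12 Q (hD₁ Q hQ), add_zero]
  · rw [Finsupp.mapDomain_add, Finsupp.add_apply, h11, if_neg hQ, h12 Q hZ, add_zero]
  · rw [Finsupp.mapDomain_add, Finsupp.add_apply, h22, if_pos hQ, h21 Q (hD₂ Q hQ), zero_add]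
  · rw [Finsupp.mapDomain_add, Finsupp.add_apply, h22, if_neg hQ, h21 Q hZ, zero_add]
  · rw [Finsupp.add_apply, liftDiv_apply_eq_zero _ _ P, liftDiv_apply_eq_zero _ _ P, add_zero]
    · intro q _ heq
      have := hD₂ q.1 q.2
      rw [← hℓ₂ q.1 q.2, heq] at this
      exact this h2
    · intro q _ heq
      have := hD₁ q.1 q.2
      rw [← hℓ₁ q.1 q.2, heq] at this
      exact this h1

/-- **Moving lemma.**  A divisor `E` of degree `0` with `m • E = div γ`, `γ` a bi-unit with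
constant reductions, is linearly equivalent (via `ψ`) to a divisor supported on the smooth
tubes whose Kummer generator is again a bi-unit. -/
theorem IsNodal.moving (h : IsNodal O₁ O₂ red₁ red₂ r₁ r₂ nodes)
    [HasPrincipalDivisors L F] [HasPrincipalDivisors k Ft₁]
    (hdeg : ∀ P : Place L F, P.deg = 1) (hdeg₁ : ∀ Q : Place k Ft₁, Q.deg = 1)
    (hdeg₂ : ∀ Q : Place k Ft₂, Q.deg = 1) (g : ℕ)
    (hRR : ∀ D : Divisor L F, (g : ℤ) ≤ Divisor.degree D →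
      ∃ f : F, f ≠ 0 ∧ ∀ P : Place L F, 0 ≤ P.ord f + D P)
    (hgen : HasGen O₁ O₂ red₁ red₂ r₁ r₂ nodes g) {m : ℕ} (hm : m ≠ 0)
    (E : Divisor L F) (hE0 : Divisor.degree E = 0)
    (γ₁ : O₁ˣ) (γ₂ : O₂ˣ) (hγ : ((γ₁ : O₁) : F) = ((γ₂ : O₂) : F))
    (c₁ c₂ : k) (hred₁ : red₁ γ₁ = algebraMap k Ft₁ c₁) (hred₂ : red₂ γ₂ = algebraMap k Ft₂ c₂)
    (hmE : ∀ P, (m : ℤ) * E P = P.ord ((γ₁ : O₁) : F)) :
    ∃ (ψ : F) (v₁ : O₁ˣ) (v₂ : O₂ˣ), ψ ≠ 0 ∧ ((v₁ : O₁) : F) = ((v₂ : O₂) : F) ∧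
      (∀ P, (m : ℤ) * (E P + P.ord ψ) = P.ord ((v₁ : O₁) : F)) ∧
      (∀ P, E P + P.ord ψ ≠ 0 → r₁ P ∉ Z₁ nodes ∨ r₂ P ∉ Z₂ nodes) := by
  classical
  have hmpos : (0 : ℤ) < (m : ℤ) := by exact_mod_cast Nat.pos_of_ne_zero hm
  have hc₁ : c₁ ≠ 0 := by
    rintro rfl
    exact IsRedOn.red_unit_ne_zero γ₁ (by rw [hred₁, map_zero])
  have hc₂ : c₂ ≠ 0 := by
    rintro rfl
    exact IsRedOn.red_unit_ne_zero γ₂ (by rw [hred₂, map_zero])
  obtain ⟨D₁, D₂, hcard, hD₁, hD₂, -, -, hNS₁, hNS₂⟩ := hgen ∅ ∅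
  obtain ⟨E0, hE0nn, hE0deg, hE0a, hE0a', hE0b, hE0b', hE0node⟩ :=
    h.exists_E0 hdeg D₁ D₂ (fun Q hQ => (hD₁ Q hQ).2) (fun Q hQ => (hD₂ Q hQ).2)
  have hgE0 : Divisor.degree E0 = (g : ℤ) := by
    rw [hE0deg, ← hcard]
    push_cast
    ring
  obtain ⟨ψ₀, hψ₀, hψ₀E⟩ := hRR (E + E0) (by rw [map_add, hE0, hgE0, zero_add])
  obtain ⟨a, ha, hm₁, hm₂, hnz⟩ := h.exists_scaling ψ₀ hψ₀
  obtain ⟨ψ, hψdef⟩ : ∃ ψ : F, ψ = algebraMap L F a * ψ₀ := ⟨_, rfl⟩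
  have hψ : ψ ≠ 0 := by
    rw [hψdef]
    exact mul_ne_zero ((map_ne_zero _).2 ha) hψ₀
  have hordψ : ∀ P : Place L F, P.ord ψ = P.ord ψ₀ := fun P => by
    rw [hψdef, ord_const_mul P ha]
  rw [← hψdef] at hm₁ hm₂
  obtain ⟨y₁, hy₁⟩ : ∃ y₁ : O₁, y₁ = ⟨ψ, hm₁⟩ := ⟨_, rfl⟩
  obtain ⟨y₂, hy₂⟩ : ∃ y₂ : O₂, y₂ = ⟨ψ, hm₂⟩ := ⟨_, rfl⟩
  have hy₁F : (y₁ : F) = ψ := by rw [hy₁]
  have hy₂F : (y₂ : F) = ψ := by rw [hy₂]
  have hnz' : ¬ (red₁ y₁ = 0 ∧ red₂ y₂ = 0) := by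
    subst hψdef
    rw [hy₁, hy₂]
    exact hnz
  -- the divisor `D1 = div ψ + E` and `E1 = D1 + E0 ≥ 0`
  obtain ⟨D1, hD1⟩ : ∃ D1 : Divisor L F, D1 = pdiv L ψ + E := ⟨_, rfl⟩
  have hD1P : ∀ P, D1 P = E P + P.ord ψ := fun P => by
    rw [hD1, Finsupp.add_apply, pdiv_apply, add_comm]
  obtain ⟨E1, hE1⟩ : ∃ E1 : Divisor L F, E1 = D1 + E0 := ⟨_, rfl⟩
  have hE1P : ∀ P, E1 P = D1 P + E0 P := fun P => by rw [hE1, Finsupp.add_apply]
  have hE1nn : ∀ P, 0 ≤ E1 P := fun P => by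
    have := hψ₀E P
    rw [Finsupp.add_apply] at this
    rw [hE1P, hD1P, hordψ]
    omega
  have hE1deg : Divisor.degree E1 = (g : ℤ) := by
    rw [hE1, hD1, map_add, map_add, degree_pdiv hψ, hE0, hgE0]
    ring
  -- the new Kummer generator
  obtain ⟨G₁, hG₁⟩ : ∃ G₁ : O₁, G₁ = γ₁ * y₁ ^ m := ⟨_, rfl⟩
  obtain ⟨G₂, hG₂⟩ : ∃ G₂ : O₂, G₂ = γ₂ * y₂ ^ m := ⟨_, rfl⟩
  have hG₁F : (G₁ : F) = ((γ₁ : O₁) : F) * ψ ^ m := by rw [hG₁, ← hy₁F]; rfl
  have hG₂F : (G₂ : F) = ((γ₁ : O₁) : F) * ψ ^ m := by rw [hG₂, ← hy₂F, hγ]; rfl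
  have hordG : ∀ P : Place L F, P.ord (G₁ : F) = (m : ℤ) * D1 P := fun P => by
    rw [hG₁F, P.ord_mul (coe_unit_ne_zero γ₁) (pow_ne_zero m hψ), ord_npow, ← hmE P, hD1P]
    ring
  have hrG₁ : red₁ G₁ = algebraMap k Ft₁ c₁ * red₁ y₁ ^ m := by
    rw [hG₁, map_mul, map_pow, hred₁]
  have hrG₂ : red₂ G₂ = algebraMap k Ft₂ c₂ * red₂ y₂ ^ m := by
    rw [hG₂, map_mul, map_pow, hred₂]
  have hnode : ∀ zz ∈ nodes, ∃ κ : k,
      zz.1.adicValuation (algebraMap k Ft₁ c₁ * red₁ y₁ ^ m - algebraMap k Ft₁ κ) < 1 ∧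
      zz.2.adicValuation (algebraMap k Ft₂ c₂ * red₂ y₂ ^ m - algebraMap k Ft₂ κ) < 1 := by
    intro zz hzz
    have hmem₂ : (G₁ : F) ∈ O₂ := by rw [hG₁F, ← hG₂F]; exact G₂.2
    obtain ⟨κ, h1, h2⟩ := h.glue (G₁ : F) G₁.2 hmem₂ (fun P h1 h2 => by
      rw [hordG]
      have h3 := hE1nn P
      rw [hE1P, hE0node P h1 h2, add_zero] at h3
      exact mul_nonneg hmpos.le h3) zz hzz
    have e₂ : (⟨(G₁ : F), hmem₂⟩ : O₂) = G₂ := Subtype.ext (by rw [hG₁F, ← hG₂F])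
    rw [e₂, hrG₂] at h2
    rw [Subtype.coe_eta, hrG₁] at h1
    exact ⟨κ, h1, h2⟩
  -- orders of the reductions at smooth points
  have key₁ : red₁ y₁ ≠ 0 → ∀ Q, Q ∉ Z₁ nodes →
      Q.ord (red₁ y₁) = Finsupp.mapDomain r₁ E1 Q - Finsupp.mapDomain r₁ E0 Q := by
    intro hw Q hQ
    obtain ⟨u₁, hu₁⟩ := h.R₁.isUnit_of_red_ne_zero hw
    have hU : ((γ₁ * u₁ ^ m : O₁ˣ) : O₁) = G₁ := by
      rw [hG₁, ← hu₁]
      simp
    have hspec := h.R₁.spec (γ₁ * u₁ ^ m) ((m : ℤ) • D1)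
      (fun P => by rw [hU, hordG, Finsupp.smul_apply, smul_eq_mul]) Q hQ
    rw [hU, hrG₁, ord_const_mul_pow Q hc₁, Finsupp.mapDomain_smul, Finsupp.smul_apply,
      smul_eq_mul] at hspec
    have h2 : Finsupp.mapDomain r₁ E1 Q = Finsupp.mapDomain r₁ D1 Q +
        Finsupp.mapDomain r₁ E0 Q := by
      rw [hE1, Finsupp.mapDomain_add, Finsupp.add_apply]
    have h3 : Finsupp.mapDomain r₁ D1 Q = Q.ord (red₁ y₁) :=
      mul_left_cancel₀ hmpos.ne' hspec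
    omega
  have key₂ : red₂ y₂ ≠ 0 → ∀ Q, Q ∉ Z₂ nodes →
      Q.ord (red₂ y₂) = Finsupp.mapDomain r₂ E1 Q - Finsupp.mapDomain r₂ E0 Q := by
    intro hw Q hQ
    obtain ⟨u₂, hu₂⟩ := h.R₂.isUnit_of_red_ne_zero hw
    have hU : ((γ₂ * u₂ ^ m : O₂ˣ) : O₂) = G₂ := by
      rw [hG₂, ← hu₂]
      simp
    have hspec := h.R₂.spec (γ₂ * u₂ ^ m) ((m : ℤ) • D1)
      (fun P => by rw [hU, hG₂F, ← hG₁F, hordG, Finsupp.smul_apply, smul_eq_mul]) Q hQ
    rw [hU, hrG₂, ord_const_mul_pow Q hc₂, Finsupp.mapDomain_smul, Finsupp.smul_apply,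
      smul_eq_mul] at hspec
    have h2 : Finsupp.mapDomain r₂ E1 Q = Finsupp.mapDomain r₂ D1 Q +
        Finsupp.mapDomain r₂ E0 Q := by
      rw [hE1, Finsupp.mapDomain_add, Finsupp.add_apply]
    have h3 : Finsupp.mapDomain r₂ D1 Q = Q.ord (red₂ y₂) :=
      mul_left_cancel₀ hmpos.ne' hspec
    omega
  have hE1push₁ : ∀ Q, 0 ≤ Finsupp.mapDomain r₁ E1 Q := fun Q =>
    mapDomain_nonneg_of r₁ E1 Q (fun P _ => hE1nn P)
  have hE1push₂ : ∀ Q, 0 ≤ Finsupp.mapDomain r₂ E1 Q := fun Q =>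
    mapDomain_nonneg_of r₂ E1 Q (fun P _ => hE1nn P)
  -- regularity at the nodes
  have hregZ₁ : ∀ Q, Q ∈ Z₁ nodes → 0 ≤ Q.ord (red₁ y₁) := by
    rintro Q ⟨zz, hzz, rfl⟩
    obtain ⟨κ, h1, -⟩ := hnode zz hzz
    have h2 := ord_nonneg_of_sub_const_lt zz.1 h1
    rw [ord_const_mul_pow zz.1 hc₁] at h2
    exact nonneg_of_mul_nonneg_right h2 hmpos
  have hregZ₂ : ∀ Q, Q ∈ Z₂ nodes → 0 ≤ Q.ord (red₂ y₂) := by
    rintro Q ⟨zz, hzz, rfl⟩
    obtain ⟨κ, -, h1⟩ := hnode zz hzz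
    have h2 := ord_nonneg_of_sub_const_lt zz.2 h1
    rw [ord_const_mul_pow zz.2 hc₂] at h2
    exact nonneg_of_mul_nonneg_right h2 hmpos
  have hP₁ : ∀ Q ∈ D₁, -1 ≤ Q.ord (red₁ y₁) := by
    intro Q hQ
    by_cases hw : red₁ y₁ = 0
    · rw [hw, Place.ord_zero]
      norm_num
    · rw [key₁ hw Q (hD₁ Q hQ).2, hE0a Q hQ]
      have := hE1push₁ Q
      omega
  have hP₁' : ∀ Q, Q ∉ D₁ → 0 ≤ Q.ord (red₁ y₁) := by
    intro Q hQ
    by_cases hZ : Q ∈ Z₁ nodes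
    · exact hregZ₁ Q hZ
    by_cases hw : red₁ y₁ = 0
    · rw [hw, Place.ord_zero]
    · rw [key₁ hw Q hZ, hE0a' Q hQ hZ]
      have := hE1push₁ Q
      omega
  have hP₂ : ∀ Q ∈ D₂, -1 ≤ Q.ord (red₂ y₂) := by
    intro Q hQ
    by_cases hw : red₂ y₂ = 0
    · rw [hw, Place.ord_zero]
      norm_num
    · rw [key₂ hw Q (hD₂ Q hQ).2, hE0b Q hQ]
      have := hE1push₂ Q
      omega
  have hP₂' : ∀ Q, Q ∉ D₂ → 0 ≤ Q.ord (red₂ y₂) := by
    intro Q hQ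
    by_cases hZ : Q ∈ Z₂ nodes
    · exact hregZ₂ Q hZ
    by_cases hw : red₂ y₂ = 0
    · rw [hw, Place.ord_zero]
    · rw [key₂ hw Q hZ, hE0b' Q hQ hZ]
      have := hE1push₂ Q
      omega
  have hne₂ : ∃ z', z' ∈ Z₂ nodes := by
    by_contra hno
    have h1 : (1 : Ft₁) = 0 := hNS₁ 1 (fun Q _ => by rw [Place.ord_one]; norm_num)
      (fun Q _ => by rw [Place.ord_one]) (by
        rintro z ⟨zz, hzz, rfl⟩
        exact absurd ⟨zz.2, zz, hzz, rfl⟩ hno)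
    exact one_ne_zero h1
  have hN0a : red₂ y₂ = 0 → ∀ z ∈ Z₁ nodes, z.adicValuation (red₁ y₁) < 1 := by
    rintro h0 z ⟨zz, hzz, rfl⟩
    obtain ⟨κ, h1, h2⟩ := hnode zz hzz
    rw [h0, zero_pow hm, mul_zero, zero_sub, Valuation.map_neg] at h2
    have hκ := const_eq_zero_of_adicVal_lt zz.2 h2
    rw [hκ, map_zero, sub_zero] at h1
    exact adicVal_lt_one_of_const_mul_pow zz.1 hc₁ h1
  have hN0b : red₁ y₁ = 0 → ∀ z' ∈ Z₂ nodes, z'.adicValuation (red₂ y₂) < 1 := by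
    rintro h0 z' ⟨zz, hzz, rfl⟩
    obtain ⟨κ, h1, h2⟩ := hnode zz hzz
    rw [h0, zero_pow hm, mul_zero, zero_sub, Valuation.map_neg] at h1
    have hκ := const_eq_zero_of_adicVal_lt zz.1 h1
    rw [hκ, map_zero, sub_zero] at h2
    exact adicVal_lt_one_of_const_mul_pow zz.2 hc₂ h2
  obtain ⟨hw₁, c, hc0, hc⟩ :=
    pure_T0 hNS₁ hNS₂ hne₂ (red₁ y₁) (red₂ y₂) hnz' hN0a hN0b hP₁ hP₁' hP₂ hP₂'
  have hw₂ : red₂ y₂ ≠ 0 := by
    rw [hc]
    exact (map_ne_zero _).2 hc0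
  obtain ⟨u₁, hu₁⟩ := h.R₁.isUnit_of_red_ne_zero hw₁
  obtain ⟨u₂, hu₂⟩ := h.R₂.isUnit_of_red_ne_zero hw₂
  have hU₁ : ((γ₁ * u₁ ^ m : O₁ˣ) : O₁) = G₁ := by
    rw [hG₁, ← hu₁]
    simp
  have hU₂ : ((γ₂ * u₂ ^ m : O₂ˣ) : O₂) = G₂ := by
    rw [hG₂, ← hu₂]
    simp
  -- `E1` has no point in the node tubes
  have hord₁Z : ∀ Q, Q ∈ Z₁ nodes → Q.ord (red₁ y₁) = 0 := by
    rintro Q ⟨zz, hzz, rfl⟩
    obtain ⟨κ, h1, h2⟩ := hnode zz hzz
    rw [hc, ← map_pow, ← map_mul] at h2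
    have hκ := const_eq_of_adicVal_sub_lt zz.2 h2
    have hκ0 : κ ≠ 0 := by
      rw [← hκ]
      exact mul_ne_zero hc₂ (pow_ne_zero m hc0)
    have h3 := ord_eq_zero_of_sub_const_lt zz.1 hκ0 h1
    rw [ord_const_mul_pow zz.1 hc₁] at h3
    rcases mul_eq_zero.1 h3 with h4 | h4
    · exact absurd h4 hmpos.ne'
    · exact h4
  have hcount := count_nodes hdeg hdeg₁ hdeg₂ h.disj E1 hE1nn
    (liftDiv D₁ (fun Q => Q) + pdiv k (red₁ y₁)) (liftDiv D₂ (fun Q => Q))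
    (fun Q hQ => by
      rw [Finsupp.add_apply, liftDiv_id_apply, pdiv_apply]
      have h1 := key₁ hw₁ Q hQ
      by_cases hQD : Q ∈ D₁
      · rw [if_pos hQD]
        have := hE0a Q hQD
        omega
      · rw [if_neg hQD]
        have := hE0a' Q hQD hQ
        omega)
    (fun Q hQ => by
      rw [Finsupp.add_apply, liftDiv_id_apply, pdiv_apply, hord₁Z Q hQ,
        if_neg (fun hQD => (hD₁ Q hQD).2 hQ), add_zero])
    (fun Q hQ => by
      rw [liftDiv_id_apply]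
      have h1 := key₂ hw₂ Q hQ
      rw [hc, Fermat.Agent.S24.ord_algebraMap] at h1
      by_cases hQD : Q ∈ D₂
      · rw [if_pos hQD]
        have := hE0b Q hQD
        omega
      · rw [if_neg hQD]
        have := hE0b' Q hQD hQ
        omega)
    (fun Q hQ => by
      rw [liftDiv_id_apply, if_neg (fun hQD => (hD₂ Q hQD).2 hQ)])
    (by
      rw [hE1deg, map_add, degree_liftDiv hdeg₁, degree_liftDiv hdeg₂, degree_pdiv hw₁,
        ← hcard]
      push_cast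
      omega)
  refine ⟨ψ, γ₁ * u₁ ^ m, γ₂ * u₂ ^ m, hψ, ?_, fun P => ?_, fun P hP => ?_⟩
  · rw [hU₁, hU₂, hG₁F, hG₂F]
  · rw [hU₁, hordG, hD1P]
  · by_contra hnot
    rw [not_or, not_not, not_not] at hnot
    apply hP
    have h1 := hcount P hnot.1 hnot.2
    have h2 := hE0node P hnot.1 hnot.2
    have h3 := hE1P P
    rw [hD1P] at h3
    omega

/-- **One step on the nodal fibre.**  A divisor `D'` of degree `0` supported on the smooth
tubes, with trivial push-forward to the smooth points of both components, such that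
`m • D' = div η` with `η ≡ 1` for both valuations and `m` invertible in `k`, is principal. -/
theorem IsNodal.principal_of_smooth (h : IsNodal O₁ O₂ red₁ red₂ r₁ r₂ nodes)
    [HasPrincipalDivisors L F]
    (hdeg : ∀ P : Place L F, P.deg = 1)
    (hres : ∀ P : Place L F, Fermat.Agent.Lib.FF.RR.ResK P) (g : ℕ)
    (hRR : ∀ D : Divisor L F, (g : ℤ) ≤ Divisor.degree D →
      ∃ f : F, f ≠ 0 ∧ ∀ P : Place L F, 0 ≤ P.ord f + D P)
    (hgen : HasGen O₁ O₂ red₁ red₂ r₁ r₂ nodes g) {m : ℕ} (hm : (m : k) ≠ 0)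
    (D' : Divisor L F) (hD0 : Divisor.degree D' = 0)
    (hsm : ∀ P, D' P ≠ 0 → r₁ P ∉ Z₁ nodes ∨ r₂ P ∉ Z₂ nodes)
    (hr₁ : ∀ Q, Q ∉ Z₁ nodes → Finsupp.mapDomain r₁ D' Q = 0)
    (hr₂ : ∀ Q, Q ∉ Z₂ nodes → Finsupp.mapDomain r₂ D' Q = 0)
    (η₁ : O₁) (η₂ : O₂) (hη : (η₁ : F) = (η₂ : F)) (hηr₁ : red₁ η₁ = 1) (hηr₂ : red₂ η₂ = 1)
    (hmD : ∀ P, (m : ℤ) * D' P = P.ord (η₁ : F)) :
    ∃ φ : F, φ ≠ 0 ∧ ∀ P, D' P = P.ord φ := by
  classical
  have hm0 : m ≠ 0 := by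
    rintro rfl
    exact hm Nat.cast_zero
  have hmpos : (0 : ℤ) < (m : ℤ) := by exact_mod_cast Nat.pos_of_ne_zero hm0
  have hmFt₁ : (m : Ft₁) ≠ 0 := by
    intro h0
    apply hm
    have h1 : algebraMap k Ft₁ (m : k) = 0 := by rw [map_natCast]; exact h0
    exact (map_eq_zero _).1 h1
  have hmFt₂ : (m : Ft₂) ≠ 0 := by
    intro h0
    apply hm
    have h1 : algebraMap k Ft₂ (m : k) = 0 := by rw [map_natCast]; exact h0
    exact (map_eq_zero _).1 h1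
  -- the case `g = 0`
  by_cases hg0 : g = 0
  · obtain ⟨f, hf0, hf⟩ := hRR D' (by rw [hD0, hg0]; simp)
    have hE : pdiv L f + D' = 0 := eq_zero_of_nonneg_of_degree_le hdeg _
      (fun P => by rw [Finsupp.add_apply, pdiv_apply]; exact hf P)
      (by rw [map_add, degree_pdiv hf0, hD0]; simp)
    refine ⟨f⁻¹, inv_ne_zero hf0, fun P => ?_⟩
    have h1 := congrArg (fun D : Divisor L F => D P) hE
    simp only [Finsupp.add_apply, pdiv_apply, Finsupp.zero_apply] at h1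
    rw [Place.ord_inv]
    omega
  -- an auxiliary place in a smooth tube
  obtain ⟨Pst, hPst⟩ : ∃ Pst : Place L F, r₁ Pst ∉ Z₁ nodes ∨ r₂ Pst ∉ Z₂ nodes := by
    obtain ⟨Da, Db, hcard', hDa, hDb, -, -, -, -⟩ := hgen ∅ ∅
    have hor : Da.card ≠ 0 ∨ Db.card ≠ 0 := by omega
    rcases hor with h1 | h1
    · obtain ⟨Q, hQ⟩ := Finset.card_pos.1 (Nat.pos_of_ne_zero h1)
      obtain ⟨P, hP⟩ := h.lift₁ Q (hDa Q hQ).2
      exact ⟨P, Or.inl (by rw [hP]; exact (hDa Q hQ).2)⟩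
    · obtain ⟨Q, hQ⟩ := Finset.card_pos.1 (Nat.pos_of_ne_zero h1)
      obtain ⟨P, hP⟩ := h.lift₂ Q (hDb Q hQ).2
      exact ⟨P, Or.inr (by rw [hP]; exact (hDb Q hQ).2)⟩
  obtain ⟨D₁, D₂, hcard, hD₁, hD₂, htube₁, htube₂, hNS₁, hNS₂⟩ := hgen {r₁ Pst} {r₂ Pst}
  have hPst₁ : r₁ Pst ∉ D₁ := fun hmem => (hD₁ _ hmem).1 (Finset.mem_singleton_self _)
  have hPst₂ : r₂ Pst ∉ D₂ := fun hmem => (hD₂ _ hmem).1 (Finset.mem_singleton_self _)
  obtain ⟨E0, hE0nn, hE0deg, hE0a, hE0a', hE0b, hE0b', hE0node⟩ :=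
    h.exists_E0 hdeg D₁ D₂ (fun Q hQ => (hD₁ Q hQ).2) (fun Q hQ => (hD₂ Q hQ).2)
  have hgE0 : Divisor.degree E0 = (g : ℤ) := by
    rw [hE0deg, ← hcard]
    push_cast
    ring
  have hne : ∃ zz, zz ∈ nodes := by
    by_contra hno
    have h1 : (1 : Ft₁) = 0 := hNS₁ 1 (fun Q _ => by rw [Place.ord_one]; norm_num)
      (fun Q _ => by rw [Place.ord_one]) (by
        rintro z ⟨zz, hzz, rfl⟩
        exact absurd ⟨zz, hzz⟩ hno)
    exact one_ne_zero h1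
  obtain ⟨φ₀, hφ₀, hφ₀E⟩ := hRR (D' + E0) (by rw [map_add, hD0, hgE0, zero_add])
  obtain ⟨a, ha, hm₁, hm₂, hnz⟩ := h.exists_scaling φ₀ hφ₀
  obtain ⟨φ, hφdef⟩ : ∃ φ : F, φ = algebraMap L F a * φ₀ := ⟨_, rfl⟩
  have hφ : φ ≠ 0 := by
    rw [hφdef]
    exact mul_ne_zero ((map_ne_zero _).2 ha) hφ₀
  have hordφ : ∀ P : Place L F, P.ord φ = P.ord φ₀ := fun P => by
    rw [hφdef, ord_const_mul P ha]
  rw [← hφdef] at hm₁ hm₂
  obtain ⟨y₁, hy₁⟩ : ∃ y₁ : O₁, y₁ = ⟨φ, hm₁⟩ := ⟨_, rfl⟩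
  obtain ⟨y₂, hy₂⟩ : ∃ y₂ : O₂, y₂ = ⟨φ, hm₂⟩ := ⟨_, rfl⟩
  have hy₁F : (y₁ : F) = φ := by rw [hy₁]
  have hy₂F : (y₂ : F) = φ := by rw [hy₂]
  have hnz' : ¬ (red₁ y₁ = 0 ∧ red₂ y₂ = 0) := by
    subst hφdef
    rw [hy₁, hy₂]
    exact hnz
  -- `E' = div φ + D' + E0 ≥ 0`
  obtain ⟨E', hE'⟩ : ∃ E' : Divisor L F, E' = pdiv L φ + D' + E0 := ⟨_, rfl⟩
  have hE'P : ∀ P, E' P = P.ord φ + D' P + E0 P := fun P => by
    rw [hE', Finsupp.add_apply, Finsupp.add_apply, pdiv_apply]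
  have hE'nn : ∀ P, 0 ≤ E' P := fun P => by
    have := hφ₀E P
    rw [Finsupp.add_apply] at this
    rw [hE'P, hordφ]
    omega
  have hE'deg : Divisor.degree E' = (g : ℤ) := by
    rw [hE', map_add, map_add, degree_pdiv hφ, hD0, hgE0]
    ring
  have hD'node : ∀ P, r₁ P ∈ Z₁ nodes → r₂ P ∈ Z₂ nodes → D' P = 0 := by
    intro P h1 h2
    by_contra hne'
    rcases hsm P hne' with h3 | h3
    · exact h3 h1
    · exact h3 h2
  have hnode : ∀ zz ∈ nodes, ∃ κ : k,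
      zz.1.adicValuation (red₁ y₁ - algebraMap k Ft₁ κ) < 1 ∧
      zz.2.adicValuation (red₂ y₂ - algebraMap k Ft₂ κ) < 1 := by
    intro zz hzz
    obtain ⟨κ, h1, h2⟩ := h.glue φ hm₁ hm₂ (fun P h1 h2 => by
      have h3 := hE'nn P
      rw [hE'P, hD'node P h1 h2, hE0node P h1 h2] at h3
      omega) zz hzz
    rw [← hy₁] at h1
    rw [← hy₂] at h2
    exact ⟨κ, h1, h2⟩
  have hpush : ∀ Q, Finsupp.mapDomain r₁ E' Q = Finsupp.mapDomain r₁ (pdiv L φ) Q +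
      Finsupp.mapDomain r₁ D' Q + Finsupp.mapDomain r₁ E0 Q := fun Q => by
    rw [hE', Finsupp.mapDomain_add, Finsupp.mapDomain_add, Finsupp.add_apply, Finsupp.add_apply]
  have hpush₂ : ∀ Q, Finsupp.mapDomain r₂ E' Q = Finsupp.mapDomain r₂ (pdiv L φ) Q +
      Finsupp.mapDomain r₂ D' Q + Finsupp.mapDomain r₂ E0 Q := fun Q => by
    rw [hE', Finsupp.mapDomain_add, Finsupp.mapDomain_add, Finsupp.add_apply, Finsupp.add_apply]
  have key₁ : red₁ y₁ ≠ 0 → ∀ Q, Q ∉ Z₁ nodes →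
      Q.ord (red₁ y₁) = Finsupp.mapDomain r₁ E' Q - Finsupp.mapDomain r₁ E0 Q := by
    intro hw Q hQ
    obtain ⟨u₁, hu₁⟩ := h.R₁.isUnit_of_red_ne_zero hw
    have hspec := h.R₁.spec u₁ (pdiv L φ)
      (fun P => by rw [pdiv_apply, hu₁, hy₁F]) Q hQ
    rw [hu₁] at hspec
    rw [hpush, hspec, hr₁ Q hQ]
    ring
  have key₂ : red₂ y₂ ≠ 0 → ∀ Q, Q ∉ Z₂ nodes →
      Q.ord (red₂ y₂) = Finsupp.mapDomain r₂ E' Q - Finsupp.mapDomain r₂ E0 Q := by
    intro hw Q hQ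
    obtain ⟨u₂, hu₂⟩ := h.R₂.isUnit_of_red_ne_zero hw
    have hspec := h.R₂.spec u₂ (pdiv L φ)
      (fun P => by rw [pdiv_apply, hu₂, hy₂F]) Q hQ
    rw [hu₂] at hspec
    rw [hpush₂, hspec, hr₂ Q hQ]
    ring
  have hE'push₁ : ∀ Q, 0 ≤ Finsupp.mapDomain r₁ E' Q := fun Q =>
    mapDomain_nonneg_of r₁ E' Q (fun P _ => hE'nn P)
  have hE'push₂ : ∀ Q, 0 ≤ Finsupp.mapDomain r₂ E' Q := fun Q =>
    mapDomain_nonneg_of r₂ E' Q (fun P _ => hE'nn P)
  have hP₁ : ∀ Q ∈ D₁, -1 ≤ Q.ord (red₁ y₁) := by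
    intro Q hQ
    by_cases hw : red₁ y₁ = 0
    · rw [hw, Place.ord_zero]
      norm_num
    · rw [key₁ hw Q (hD₁ Q hQ).2, hE0a Q hQ]
      have := hE'push₁ Q
      omega
  have hP₁' : ∀ Q, Q ∉ D₁ → Q ∉ Z₁ nodes → 0 ≤ Q.ord (red₁ y₁) := by
    intro Q hQ hZ
    by_cases hw : red₁ y₁ = 0
    · rw [hw, Place.ord_zero]
    · rw [key₁ hw Q hZ, hE0a' Q hQ hZ]
      have := hE'push₁ Q
      omega
  have hP₂ : ∀ Q ∈ D₂, -1 ≤ Q.ord (red₂ y₂) := by
    intro Q hQ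
    by_cases hw : red₂ y₂ = 0
    · rw [hw, Place.ord_zero]
      norm_num
    · rw [key₂ hw Q (hD₂ Q hQ).2, hE0b Q hQ]
      have := hE'push₂ Q
      omega
  have hP₂' : ∀ Q, Q ∉ D₂ → Q ∉ Z₂ nodes → 0 ≤ Q.ord (red₂ y₂) := by
    intro Q hQ hZ
    by_cases hw : red₂ y₂ = 0
    · rw [hw, Place.ord_zero]
    · rw [key₂ hw Q hZ, hE0b' Q hQ hZ]
      have := hE'push₂ Q
      omega
  obtain ⟨c, hc0, hc₁, hc₂⟩ :=
    pure_T1 hNS₁ hNS₂ hne (red₁ y₁) (red₂ y₂) hnz' hnode hP₁ hP₁' hP₂ hP₂'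
  have hw₁ : red₁ y₁ ≠ 0 := by
    rw [hc₁]
    exact (map_ne_zero _).2 hc0
  have hw₂ : red₂ y₂ ≠ 0 := by
    rw [hc₂]
    exact (map_ne_zero _).2 hc0
  -- `E'` and `E0` have the same push-forward to the smooth points
  have hE'₁ : ∀ Q, Q ∉ Z₁ nodes →
      Finsupp.mapDomain r₁ E' Q = Finsupp.mapDomain r₁ E0 Q := by
    intro Q hQ
    have h1 := key₁ hw₁ Q hQ
    rw [hc₁, Fermat.Agent.S24.ord_algebraMap] at h1
    omega
  have hE'₂ : ∀ Q, Q ∉ Z₂ nodes →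
      Finsupp.mapDomain r₂ E' Q = Finsupp.mapDomain r₂ E0 Q := by
    intro Q hQ
    have h1 := key₂ hw₂ Q hQ
    rw [hc₂, Fermat.Agent.S24.ord_algebraMap] at h1
    omega
  -- the function `f = η φ^m`, a bi-unit with reduction `c^m`
  have hrf₁ : red₁ (η₁ * y₁ ^ m) = algebraMap k Ft₁ (c ^ m) := by
    rw [map_mul, map_pow, hηr₁, hc₁, one_mul, map_pow]
  have hrf₂ : red₂ (η₂ * y₂ ^ m) = algebraMap k Ft₂ (c ^ m) := by
    rw [map_mul, map_pow, hηr₂, hc₂, one_mul, map_pow]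
  have hcm : c ^ m ≠ 0 := pow_ne_zero m hc0
  obtain ⟨f₁, hf₁⟩ := h.R₁.isUnit_of_red_ne_zero
    (y := η₁ * y₁ ^ m) (by rw [hrf₁]; exact (map_ne_zero _).2 hcm)
  obtain ⟨f₂, hf₂⟩ := h.R₂.isUnit_of_red_ne_zero
    (y := η₂ * y₂ ^ m) (by rw [hrf₂]; exact (map_ne_zero _).2 hcm)
  have hf₁F : ((f₁ : O₁) : F) = (η₁ : F) * φ ^ m := by rw [hf₁, ← hy₁F]; rfl
  have hf₂F : ((f₂ : O₂) : F) = (η₁ : F) * φ ^ m := by rw [hf₂, ← hy₂F, hη]; rfl
  have hη0 : (η₁ : F) ≠ 0 := by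
    intro h0
    have : η₁ = 0 := Subtype.ext h0
    rw [this, map_zero] at hηr₁
    exact zero_ne_one hηr₁
  have hordf : ∀ P : Place L F, P.ord ((f₁ : O₁) : F) = (m : ℤ) * (E' P - E0 P) := fun P => by
    rw [hf₁F, P.ord_mul hη0 (pow_ne_zero m hφ), ord_npow, ← hmD P, hE'P]
    ring
  -- the tube of `Pst` is free of `E'` and `E0`
  have hfree : ∀ P, (r₁ Pst ∉ Z₁ nodes ∧ r₁ P = r₁ Pst) ∨ (r₂ Pst ∉ Z₂ nodes ∧ r₂ P = r₂ Pst) →
      E' P = 0 ∧ E0 P = 0 := by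
    rintro P (⟨hj, hP⟩ | ⟨hj, hP⟩)
    · have h0 : Finsupp.mapDomain r₁ E0 (r₁ Pst) = 0 := hE0a' _ hPst₁ hj
      have h1 : Finsupp.mapDomain r₁ E' (r₁ Pst) = 0 := by rw [hE'₁ _ hj, h0]
      exact ⟨eq_zero_of_mapDomain_eq_zero r₁ E' _ (fun P' _ => hE'nn P') h1 P hP,
        eq_zero_of_mapDomain_eq_zero r₁ E0 _ (fun P' _ => hE0nn P') h0 P hP⟩
    · have h0 : Finsupp.mapDomain r₂ E0 (r₂ Pst) = 0 := hE0b' _ hPst₂ hj
      have h1 : Finsupp.mapDomain r₂ E' (r₂ Pst) = 0 := by rw [hE'₂ _ hj, h0]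
      exact ⟨eq_zero_of_mapDomain_eq_zero r₂ E' _ (fun P' _ => hE'nn P') h1 P hP,
        eq_zero_of_mapDomain_eq_zero r₂ E0 _ (fun P' _ => hE0nn P') h0 P hP⟩
  have hfreef : ∀ P, (r₁ Pst ∉ Z₁ nodes ∧ r₁ P = r₁ Pst) ∨
      (r₂ Pst ∉ Z₂ nodes ∧ r₂ P = r₂ Pst) → P.ord ((f₁ : O₁) : F) = 0 := by
    intro P hP
    obtain ⟨h1, h2⟩ := hfree P hP
    rw [hordf, h1, h2]
    ring
  have hPstf : Pst.ord ((f₁ : O₁) : F) = 0 := by
    rcases hPst with hj | hj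
    · exact hfreef Pst (Or.inl ⟨hj, rfl⟩)
    · exact hfreef Pst (Or.inr ⟨hj, rfl⟩)
  -- the value `a'` of `f` at `Pst` is a constant with reduction `c^m` on both components
  obtain ⟨a', hae⟩ := exists_const_sub_pos Pst (hres Pst) (y := ((f₁ : O₁) : F))
    (by rw [hPstf])
  obtain ⟨ha₁, ha₂, hra₁, hra₂⟩ : ∃ (ha₁ : algebraMap L F a' ∈ O₁)
      (ha₂ : algebraMap L F a' ∈ O₂), red₁ ⟨_, ha₁⟩ = algebraMap k Ft₁ (c ^ m) ∧
      red₂ ⟨_, ha₂⟩ = algebraMap k Ft₂ (c ^ m) := by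
    rcases hPst with hj | hj
    · obtain ⟨ha₁, hra₁⟩ := h.R₁.value_const f₁ (c ^ m) (by rw [hf₁, hrf₁]) Pst hj
        (fun P hP => hfreef P (Or.inl ⟨hj, hP⟩)) a' hae
      have ha₂ := (h.const_iff a').1 ha₁
      obtain ⟨κ, hκ₁, hκ₂⟩ := h.const_red a' ha₁ ha₂
      have hκ : κ = c ^ m := by
        rw [hκ₁] at hra₁
        exact (algebraMap k Ft₁).injective hra₁
      exact ⟨ha₁, ha₂, hra₁, by rw [hκ₂, hκ]⟩
    · obtain ⟨ha₂, hra₂⟩ := h.R₂.value_const f₂ (c ^ m) (by rw [hf₂, hrf₂]) Pst hj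
        (fun P hP => by rw [hf₂F, ← hf₁F]; exact hfreef P (Or.inr ⟨hj, hP⟩)) a'
        (by rw [hf₂F, ← hf₁F]; exact hae)
      have ha₁ := (h.const_iff a').2 ha₂
      obtain ⟨κ, hκ₁, hκ₂⟩ := h.const_red a' ha₁ ha₂
      have hκ : κ = c ^ m := by
        rw [hκ₂] at hra₂
        exact (algebraMap k Ft₂).injective hra₂
      exact ⟨ha₁, ha₂, by rw [hκ₁, hκ], hra₂⟩
  have ha'0 : a' ≠ 0 := by
    rintro rfl
    have h1 : (⟨algebraMap L F 0, ha₁⟩ : O₁) = 0 := Subtype.ext (map_zero _)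
    rw [h1, map_zero] at hra₁
    exact (map_ne_zero (algebraMap k Ft₁)).2 hcm hra₁.symm
  have ha'F : algebraMap L F a' ≠ 0 := (map_ne_zero _).2 ha'0
  obtain ⟨α₁, hα₁⟩ := h.R₁.isUnit_of_red_ne_zero
    (y := ⟨_, ha₁⟩) (by rw [hra₁]; exact (map_ne_zero _).2 hcm)
  obtain ⟨α₂, hα₂⟩ := h.R₂.isUnit_of_red_ne_zero
    (y := ⟨_, ha₂⟩) (by rw [hra₂]; exact (map_ne_zero _).2 hcm)
  have hα₁F : ((α₁ : O₁) : F) = algebraMap L F a' := by rw [hα₁]
  have hα₂F : ((α₂ : O₂) : F) = algebraMap L F a' := by rw [hα₂]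
  -- the normalised function `Fn = f / a'`
  have hFn₁F : (((f₁ * α₁⁻¹ : O₁ˣ) : O₁) : F) = ((f₁ : O₁) : F) * (algebraMap L F a')⁻¹ := by
    rw [Units.val_mul]
    show ((f₁ : O₁) : F) * (((α₁⁻¹ : O₁ˣ) : O₁) : F) = _
    rw [coe_units_inv, hα₁F]
  have hFn₂F : (((f₂ * α₂⁻¹ : O₂ˣ) : O₂) : F) = ((f₁ : O₁) : F) * (algebraMap L F a')⁻¹ := by
    rw [Units.val_mul]
    show ((f₂ : O₂) : F) * (((α₂⁻¹ : O₂ˣ) : O₂) : F) = _
    rw [coe_units_inv, hα₂F, hf₂F, ← hf₁F]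
  have hrFn₁ : red₁ ((f₁ * α₁⁻¹ : O₁ˣ) : O₁) = 1 := by
    have h1 : red₁ ((f₁ * α₁⁻¹ : O₁ˣ) : O₁) * red₁ (α₁ : O₁) = red₁ (f₁ : O₁) := by
      rw [← map_mul, ← Units.val_mul, inv_mul_cancel_right]
    rw [hα₁, hra₁, hf₁, hrf₁] at h1
    exact mul_right_cancel₀ ((map_ne_zero (algebraMap k Ft₁)).2 hcm) (by rw [h1, one_mul])
  have hrFn₂ : red₂ ((f₂ * α₂⁻¹ : O₂ˣ) : O₂) = 1 := by
    have h1 : red₂ ((f₂ * α₂⁻¹ : O₂ˣ) : O₂) * red₂ (α₂ : O₂) = red₂ (f₂ : O₂) := by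
      rw [← map_mul, ← Units.val_mul, inv_mul_cancel_right]
    rw [hα₂, hra₂, hf₂, hrf₂] at h1
    exact mul_right_cancel₀ ((map_ne_zero (algebraMap k Ft₂)).2 hcm) (by rw [h1, one_mul])
  obtain ⟨Fn, hFn⟩ : ∃ Fn : F, Fn = ((f₁ : O₁) : F) * (algebraMap L F a')⁻¹ := ⟨_, rfl⟩
  rw [← hFn] at hFn₁F hFn₂F
  have hordFn : ∀ P : Place L F, P.ord Fn = (m : ℤ) * (E' P - E0 P) := fun P => by
    rw [hFn, mul_comm, ← map_inv₀, ord_const_mul P (inv_ne_zero ha'0), hordf]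
  have hFnd : Fn - 1 = algebraMap L F a'⁻¹ * (((f₁ : O₁) : F) - algebraMap L F a') := by
    rw [hFn, map_inv₀]
    field_simp
  -- the case `Fn = 1`
  by_cases hF1 : Fn = 1
  · refine ⟨φ⁻¹, inv_ne_zero hφ, fun P => ?_⟩
    have h1 := hordFn P
    rw [hF1, Place.ord_one] at h1
    have h2 : E' P - E0 P = 0 := by
      rcases mul_eq_zero.1 h1.symm with h3 | h3
      · exact absurd h3 hmpos.ne'
      · exact h3
    have h3 := hE'P P
    rw [Place.ord_inv]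
    omega
  exfalso
  have hd0 : Fn - 1 ≠ 0 := sub_ne_zero.2 hF1
  have hposd : 0 < Pst.ord (Fn - 1) := by
    rw [hFnd, ord_const_mul Pst (inv_ne_zero ha'0)]
    rcases hae with hfa | hpos
    · exfalso
      apply hd0
      rw [hFnd, hfa, sub_self, mul_zero]
    · exact hpos
  -- `Fn - 1 = b⁻¹ · U` with `U` bi-integral, a unit for at least one valuation
  obtain ⟨b, hb, hd₁, hd₂, hnzd⟩ := h.exists_scaling (Fn - 1) hd0
  obtain ⟨U, hUdef⟩ : ∃ U : F, U = algebraMap L F b * (Fn - 1) := ⟨_, rfl⟩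
  rw [← hUdef] at hd₁ hd₂
  obtain ⟨U₁, hU₁⟩ : ∃ U₁ : O₁, U₁ = ⟨U, hd₁⟩ := ⟨_, rfl⟩
  obtain ⟨U₂, hU₂⟩ : ∃ U₂ : O₂, U₂ = ⟨U, hd₂⟩ := ⟨_, rfl⟩
  have hU₁F : (U₁ : F) = U := by rw [hU₁]
  have hU₂F : (U₂ : F) = U := by rw [hU₂]
  have hnzU : ¬ (red₁ U₁ = 0 ∧ red₂ U₂ = 0) := by
    subst hUdef
    rw [hU₁, hU₂]
    exact hnzd
  have hordU : ∀ P : Place L F, P.ord U = P.ord (Fn - 1) := fun P => by
    rw [hUdef, ord_const_mul P hb]
  have hUreg : ∀ P : Place L F, E0 P = 0 → 0 ≤ P.ord U := by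
    intro P hP
    rw [hordU]
    refine ord_sub_one_nonneg P ?_
    rw [hordFn, hP, sub_zero]
    exact mul_nonneg hmpos.le (hE'nn P)
  have hbF : algebraMap L F b ≠ 0 := (map_ne_zero _).2 hb
  have hFnU : Fn - 1 = algebraMap L F b⁻¹ * U := by
    rw [hUdef, ← mul_assoc, ← map_mul, inv_mul_cancel₀ hb, map_one, one_mul]
  -- the constant `b⁻¹` is a non-unit of both valuation rings
  have hbinv : ∃ (hc₁' : algebraMap L F b⁻¹ ∈ O₁) (hc₂' : algebraMap L F b⁻¹ ∈ O₂),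
      ¬ IsUnit (⟨_, hc₁'⟩ : O₁) ∧ ¬ IsUnit (⟨_, hc₂'⟩ : O₂) := by
    have hred₁0 : ∀ hmem : Fn - 1 ∈ O₁, red₁ ⟨Fn - 1, hmem⟩ = 0 := by
      intro hmem
      have : (⟨Fn - 1, hmem⟩ : O₁) = ((f₁ * α₁⁻¹ : O₁ˣ) : O₁) - 1 :=
        Subtype.ext (show Fn - 1 = (((f₁ * α₁⁻¹ : O₁ˣ) : O₁) : F) - 1 by rw [hFn₁F])
      rw [this, map_sub, hrFn₁, map_one, sub_self]
    have hred₂0 : ∀ hmem : Fn - 1 ∈ O₂, red₂ ⟨Fn - 1, hmem⟩ = 0 := by
      intro hmem
      have : (⟨Fn - 1, hmem⟩ : O₂) = ((f₂ * α₂⁻¹ : O₂ˣ) : O₂) - 1 :=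
        Subtype.ext (show Fn - 1 = (((f₂ * α₂⁻¹ : O₂ˣ) : O₂) : F) - 1 by rw [hFn₂F])
      rw [this, map_sub, hrFn₂, map_one, sub_self]
    have hmemd₁ : Fn - 1 ∈ O₁ := by
      rw [← hFn₁F]
      exact (((f₁ * α₁⁻¹ : O₁ˣ) : O₁) - 1).2
    have hmemd₂ : Fn - 1 ∈ O₂ := by
      rw [← hFn₂F]
      exact (((f₂ * α₂⁻¹ : O₂ˣ) : O₂) - 1).2
    have hmem₁ : algebraMap L F b⁻¹ ∈ O₁ := by
      by_cases hw : red₁ U₁ = 0
      · -- then `U₂` is a unit and `b⁻¹ = (Fn - 1) / U ∈ O₂`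
        have hw₂ : red₂ U₂ ≠ 0 := fun h0 => hnzU ⟨hw, h0⟩
        obtain ⟨v, hv⟩ := h.R₂.isUnit_of_red_ne_zero hw₂
        refine (h.const_iff _).2 ?_
        have : algebraMap L F b⁻¹ = (Fn - 1) * (((v⁻¹ : O₂ˣ) : O₂) : F) := by
          rw [coe_units_inv, hv, hU₂F, hFnU]
          have hU0 : U ≠ 0 := by
            rw [hUdef]
            exact mul_ne_zero hbF hd0
          field_simp
        rw [this]
        exact O₂.mul_mem _ _ hmemd₂ ((v⁻¹ : O₂ˣ) : O₂).2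
      · obtain ⟨v, hv⟩ := h.R₁.isUnit_of_red_ne_zero hw
        have : algebraMap L F b⁻¹ = (Fn - 1) * (((v⁻¹ : O₁ˣ) : O₁) : F) := by
          rw [coe_units_inv, hv, hU₁F, hFnU]
          have hU0 : U ≠ 0 := by
            rw [hUdef]
            exact mul_ne_zero hbF hd0
          field_simp
        rw [this]
        exact O₁.mul_mem _ _ hmemd₁ ((v⁻¹ : O₁ˣ) : O₁).2
    have hmem₂ : algebraMap L F b⁻¹ ∈ O₂ := (h.const_iff _).1 hmem₁
    -- non-units: otherwise `b ∈ O_j`, `U = b (Fn - 1)` reduces to `0` on both components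
    have hbmem : algebraMap L F b ∈ O₁ → False := by
      intro hb₁
      have hb₂ : algebraMap L F b ∈ O₂ := (h.const_iff _).1 hb₁
      apply hnzU
      constructor
      · have : U₁ = ⟨_, hb₁⟩ * ⟨Fn - 1, hmemd₁⟩ := by
          rw [hU₁]
          exact Subtype.ext hUdef
        rw [this, map_mul, hred₁0, mul_zero]
      · have : U₂ = ⟨_, hb₂⟩ * ⟨Fn - 1, hmemd₂⟩ := by
          rw [hU₂]
          exact Subtype.ext hUdef
        rw [this, map_mul, hred₂0, mul_zero]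
    refine ⟨hmem₁, hmem₂, ?_, ?_⟩
    · rintro ⟨w, hw⟩
      apply hbmem
      have h1 : (((w⁻¹ : O₁ˣ) : O₁) : F) = algebraMap L F b := by
        rw [coe_units_inv, hw]
        show (algebraMap L F b⁻¹)⁻¹ = _
        rw [map_inv₀, inv_inv]
      rw [← h1]
      exact ((w⁻¹ : O₁ˣ) : O₁).2
    · rintro ⟨w, hw⟩
      apply hbmem
      refine (h.const_iff _).2 ?_
      have h1 : (((w⁻¹ : O₂ˣ) : O₂) : F) = algebraMap L F b := by
        rw [coe_units_inv, hw]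
        show (algebraMap L F b⁻¹)⁻¹ = _
        rw [map_inv₀, inv_inv]
      rw [← h1]
      exact ((w⁻¹ : O₂ˣ) : O₂).2
  obtain ⟨hc₁', hc₂', hcu₁, hcu₂⟩ := hbinv
  have hbinv0 : algebraMap L F b⁻¹ ≠ 0 := (map_ne_zero _).2 (inv_ne_zero hb)
  -- node compatibility of `U`
  have hnodeU : ∀ zz ∈ nodes, ∃ κ : k,
      zz.1.adicValuation (red₁ U₁ - algebraMap k Ft₁ κ) < 1 ∧
      zz.2.adicValuation (red₂ U₂ - algebraMap k Ft₂ κ) < 1 := by
    intro zz hzz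
    obtain ⟨κ, h1, h2⟩ := h.glue U hd₁ hd₂
      (fun P h1 h2 => hUreg P (hE0node P h1 h2)) zz hzz
    rw [← hU₁] at h1
    rw [← hU₂] at h2
    exact ⟨κ, h1, h2⟩
  -- pole bounds for the reductions of `U`
  have hE0tube₁ : ∀ Q, Q ∉ D₁ → Q ∉ Z₁ nodes → ∀ P, r₁ P = Q → E0 P = 0 := fun Q hQ hZ P hP =>
    eq_zero_of_mapDomain_eq_zero r₁ E0 Q (fun P' _ => hE0nn P') (hE0a' Q hQ hZ) P hP
  have hE0tube₂ : ∀ Q, Q ∉ D₂ → Q ∉ Z₂ nodes → ∀ P, r₂ P = Q → E0 P = 0 := fun Q hQ hZ P hP =>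
    eq_zero_of_mapDomain_eq_zero r₂ E0 Q (fun P' _ => hE0nn P') (hE0b' Q hQ hZ) P hP
  have hUP₁ : ∀ Q ∈ D₁, -1 ≤ Q.ord (red₁ U₁) := by
    intro Q hQ
    refine h.R₁.pole_bound hres hmFt₁ ((f₁ * α₁⁻¹ : O₁ˣ) : O₁) (c := ⟨_, hc₁'⟩)
      (isConst_mk _ hc₁') hcu₁ (fun h0 => hbinv0 (congrArg Subtype.val h0)) U₁ ?_ E' E0 hE'nn
      hE0nn (fun P => by rw [hFn₁F]; exact hordFn P) (hD₁ Q hQ).2 ?_ (hE0a Q hQ) (htube₁ Q hQ)
    · apply Subtype.ext
      show (((f₁ * α₁⁻¹ : O₁ˣ) : O₁) : F) = 1 + algebraMap L F b⁻¹ * (U₁ : F)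
      rw [hFn₁F, hU₁F, ← hFnU]
      ring
    · rw [hE'₁ Q (hD₁ Q hQ).2, hE0a Q hQ]
  have hUP₁' : ∀ Q, Q ∉ D₁ → Q ∉ Z₁ nodes → 0 ≤ Q.ord (red₁ U₁) := by
    intro Q hQ hZ
    by_cases hw : red₁ U₁ = 0
    · rw [hw, Place.ord_zero]
    · obtain ⟨v, hv⟩ := h.R₁.isUnit_of_red_ne_zero hw
      rw [← hv]
      refine h.R₁.ord_red_nonneg v Q hZ (fun P hP => ?_)
      rw [hv, hU₁F]
      exact hUreg P (hE0tube₁ Q hQ hZ P hP)
  have hUP₂ : ∀ Q ∈ D₂, -1 ≤ Q.ord (red₂ U₂) := by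
    intro Q hQ
    refine h.R₂.pole_bound hres hmFt₂ ((f₂ * α₂⁻¹ : O₂ˣ) : O₂) (c := ⟨_, hc₂'⟩)
      (isConst_mk _ hc₂') hcu₂ (fun h0 => hbinv0 (congrArg Subtype.val h0)) U₂ ?_ E' E0 hE'nn
      hE0nn (fun P => by rw [hFn₂F]; exact hordFn P) (hD₂ Q hQ).2 ?_ (hE0b Q hQ) (htube₂ Q hQ)
    · apply Subtype.ext
      show (((f₂ * α₂⁻¹ : O₂ˣ) : O₂) : F) = 1 + algebraMap L F b⁻¹ * (U₂ : F)
      rw [hFn₂F, hU₂F, ← hFnU]
      ring
    · rw [hE'₂ Q (hD₂ Q hQ).2, hE0b Q hQ]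
  have hUP₂' : ∀ Q, Q ∉ D₂ → Q ∉ Z₂ nodes → 0 ≤ Q.ord (red₂ U₂) := by
    intro Q hQ hZ
    by_cases hw : red₂ U₂ = 0
    · rw [hw, Place.ord_zero]
    · obtain ⟨v, hv⟩ := h.R₂.isUnit_of_red_ne_zero hw
      rw [← hv]
      refine h.R₂.ord_red_nonneg v Q hZ (fun P hP => ?_)
      rw [hv, hU₂F]
      exact hUreg P (hE0tube₂ Q hQ hZ P hP)
  obtain ⟨cu, hcu0, hcu₁', hcu₂'⟩ :=
    pure_T1 hNS₁ hNS₂ hne (red₁ U₁) (red₂ U₂) hnzU hnodeU hUP₁ hUP₁' hUP₂ hUP₂'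
  -- contradiction at `Pst`
  have hposU : 0 < Pst.ord U := by rw [hordU]; exact hposd
  rcases hPst with hj | hj
  · have hw : red₁ U₁ ≠ 0 := by
      rw [hcu₁']
      exact (map_ne_zero _).2 hcu0
    obtain ⟨v, hv⟩ := h.R₁.isUnit_of_red_ne_zero hw
    refine h.R₁.false_of_zero v Pst hj ?_ ?_ ?_
    · rw [hv, hU₁F]
      exact hposU
    · intro P hP
      rw [hv, hU₁F]
      exact hUreg P (hfree P (Or.inl ⟨hj, hP⟩)).2
    · rw [hv, hcu₁', Fermat.Agent.S24.ord_algebraMap]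
  · have hw : red₂ U₂ ≠ 0 := by
      rw [hcu₂']
      exact (map_ne_zero _).2 hcu0
    obtain ⟨v, hv⟩ := h.R₂.isUnit_of_red_ne_zero hw
    refine h.R₂.false_of_zero v Pst hj ?_ ?_ ?_
    · rw [hv, hU₂F]
      exact hposU
    · intro P hP
      rw [hv, hU₂F]
      exact hUreg P (hfree P (Or.inr ⟨hj, hP⟩)).2
    · rw [hv, hcu₂', Fermat.Agent.S24.ord_algebraMap]

end Nodal

/-! ### Inertia acts unipotently -/

section Inertia

open AlgebraicCurve.SemilinearAut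

variable {L F k Ft : Type*} [Field L] [Field F] [Algebra L F] [Field k] [Field Ft] [Algebra k Ft]

theorem ord_smul_eq (τ : SemilinearAut L F) (P : Place L F) (f : F) :
    P.ord (τ • f) = (τ⁻¹ • P).ord f := by
  have h := SemilinearAut.ord_smul τ (τ⁻¹ • P) f
  rwa [smul_inv_smul] at h

theorem smul_ne_zero_of_ne_zero (τ : SemilinearAut L F) {f : F} (hf : f ≠ 0) : τ • f ≠ 0 := by
  intro h0
  apply hf
  have h1 : τ⁻¹ • (τ • f) = τ⁻¹ • (0 : F) := by rw [h0]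
  rwa [inv_smul_smul, smul_zero] at h1

theorem mapDomain_apply_congr_fiber {α β : Type*} (f f' : α → β) (D : α →₀ ℤ) (Q : β)
    (hff' : ∀ P, f P = Q ↔ f' P = Q) :
    Finsupp.mapDomain f D Q = Finsupp.mapDomain f' D Q := by
  classical
  rw [mapDomain_apply_eq_sum, mapDomain_apply_eq_sum]
  refine Finset.sum_congr ?_ fun _ _ => rfl
  ext P
  simp only [Finset.mem_filter, hff' P]

/-- If `σ` preserves `O` and acts trivially on the reductions and on the valuation of the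
constants, then `σ f / f` is a unit of `O` with constant reduction, for every `f ≠ 0`. -/
theorem exists_unit_of_fixes {O : ValuationSubring F} {red : O →+* Ft}
    {r : Place L F → Place k Ft} {G : Set (Place k Ft)} (hR : IsRedOn O red r G)
    (σ : SemilinearAut L F) (hmem : ∀ f : F, f ∈ O → σ • f ∈ O)
    (hred : ∀ (f : F) (hf : f ∈ O) (hf' : σ • f ∈ O), red ⟨σ • f, hf'⟩ = red ⟨f, hf⟩)
    (hconst : ∀ c : L, c ≠ 0 → algebraMap L F (SemilinearAut.baseAut σ c / c) ∈ O)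
    (f : F) (hf : f ≠ 0) :
    ∃ (γ : Oˣ) (c : k), ((γ : O) : F) = σ • f * f⁻¹ ∧ red γ = algebraMap k Ft c := by
  obtain ⟨a, u, hfu⟩ := hR.scale f hf
  have ha : a ≠ 0 := by
    rintro rfl
    rw [map_zero, zero_mul] at hfu
    exact hf hfu
  have hu0 : ((u : O) : F) ≠ 0 := coe_unit_ne_zero u
  have hσa : SemilinearAut.baseAut σ a ≠ 0 := (map_ne_zero _).2 ha
  -- the constant `σ a / a` is a unit
  have hκ₁ := hconst a ha
  have hκ₂ := hconst a⁻¹ (inv_ne_zero ha)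
  have hκmul : algebraMap L F (SemilinearAut.baseAut σ a / a) *
      algebraMap L F (SemilinearAut.baseAut σ a⁻¹ / a⁻¹) = 1 := by
    rw [← map_mul, map_inv₀, div_mul_div_comm, mul_inv_cancel₀ hσa, mul_inv_cancel₀ ha,
      div_one, map_one]
  obtain ⟨K₁, hK₁⟩ : ∃ K₁ : Oˣ, ((K₁ : O) : F) =
      algebraMap L F (SemilinearAut.baseAut σ a / a) :=
    ⟨⟨⟨_, hκ₁⟩, ⟨_, hκ₂⟩, Subtype.ext hκmul, Subtype.ext (by rw [mul_comm]; exact hκmul)⟩, rfl⟩
  -- `σ u` is a unit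
  have hσu : σ • ((u : O) : F) ∈ O := hmem _ (u : O).2
  have hσui : σ • (((u⁻¹ : Oˣ) : O) : F) ∈ O := hmem _ ((u⁻¹ : Oˣ) : O).2
  have hσmul : σ • ((u : O) : F) * σ • (((u⁻¹ : Oˣ) : O) : F) = 1 := by
    rw [← smul_mul', coe_units_inv, mul_inv_cancel₀ hu0, smul_one]
  obtain ⟨U, hU⟩ : ∃ U : Oˣ, ((U : O) : F) = σ • ((u : O) : F) :=
    ⟨⟨⟨_, hσu⟩, ⟨_, hσui⟩, Subtype.ext hσmul, Subtype.ext (by rw [mul_comm]; exact hσmul)⟩, rfl⟩
  have hUred : red (U : O) = red (u : O) := by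
    have h1 : (U : O) = ⟨σ • ((u : O) : F), hσu⟩ := Subtype.ext hU
    rw [h1, hred _ (u : O).2 hσu]
  obtain ⟨c, hc⟩ := hR.const (K₁ : O) ⟨_, hK₁.symm⟩
  refine ⟨K₁ * U * u⁻¹, c, ?_, ?_⟩
  · have h1 : (((K₁ * U * u⁻¹ : Oˣ) : O) : F) =
        ((K₁ : O) : F) * ((U : O) : F) * (((u⁻¹ : Oˣ) : O) : F) := rfl
    rw [h1, hK₁, hU, coe_units_inv, hfu, smul_mul', SemilinearAut.smul_algebraMap, mul_inv,
      map_div₀]
    have haF : algebraMap L F a ≠ 0 := (map_ne_zero _).2 ha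
    field_simp
  · have h1 : ((K₁ * U * u⁻¹ : Oˣ) : O) = (K₁ : O) * (U : O) * ((u⁻¹ : Oˣ) : O) := rfl
    rw [h1, map_mul, map_mul, hUred, mul_assoc, ← map_mul, ← Units.val_mul, mul_inv_cancel,
      Units.val_one, map_one, mul_one, hc]

end Inertia

section Inertia2

open AlgebraicCurve.SemilinearAut

variable {L F k Ft₁ Ft₂ : Type*} [Field L] [Field F] [Algebra L F] [Field k]
  [Field Ft₁] [Algebra k Ft₁] [Field Ft₂] [Algebra k Ft₂]
  {O₁ O₂ : ValuationSubring F} {red₁ : O₁ →+* Ft₁} {red₂ : O₂ →+* Ft₂}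
  {r₁ : Place L F → Place k Ft₁} {r₂ : Place L F → Place k Ft₂}
  {nodes : Finset (Place k Ft₁ × Place k Ft₂)}

/-- A semilinear automorphism `τ` of `F/L` which preserves both valuation rings, acts
trivially on both reductions and on the valuation of the constants, and preserves the smooth
tubes ("`τ` lies in the inertia group"). -/
structure FixesFibre (O₁ O₂ : ValuationSubring F) (red₁ : O₁ →+* Ft₁) (red₂ : O₂ →+* Ft₂)
    (r₁ : Place L F → Place k Ft₁) (r₂ : Place L F → Place k Ft₂)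
    (nodes : Finset (Place k Ft₁ × Place k Ft₂)) (τ : SemilinearAut L F) : Prop where
  /-- `τ` preserves `O₁` -/
  mem₁ : ∀ f : F, f ∈ O₁ → τ • f ∈ O₁
  /-- `τ` preserves `O₂` -/
  mem₂ : ∀ f : F, f ∈ O₂ → τ • f ∈ O₂
  /-- `τ` acts trivially on the first residue field -/
  red_eq₁ : ∀ (f : F) (hf : f ∈ O₁) (hf' : τ • f ∈ O₁), red₁ ⟨τ • f, hf'⟩ = red₁ ⟨f, hf⟩
  /-- `τ` acts trivially on the second residue field -/
  red_eq₂ : ∀ (f : F) (hf : f ∈ O₂) (hf' : τ • f ∈ O₂), red₂ ⟨τ • f, hf'⟩ = red₂ ⟨f, hf⟩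
  /-- `τ` preserves the smooth tubes of the first component -/
  sp₁ : ∀ P : Place L F, r₁ P ∉ Z₁ nodes → r₁ (τ • P) = r₁ P
  /-- `τ` preserves the smooth tubes of the second component -/
  sp₂ : ∀ P : Place L F, r₂ P ∉ Z₂ nodes → r₂ (τ • P) = r₂ P
  /-- `τ` preserves the valuation of the constants -/
  const : ∀ c : L, c ≠ 0 → algebraMap L F (SemilinearAut.baseAut τ c / c) ∈ O₁

/-- **Unipotence of inertia on torsion (divisor form).**  If `m • D = div f`, `m` invertible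
in `k`, and `σ`, `τ` act trivially on the nodal fibre, then `(τ - 1)(σ - 1) D` is
principal. -/
theorem IsNodal.inertia_sq_principal (h : IsNodal O₁ O₂ red₁ red₂ r₁ r₂ nodes)
    [HasPrincipalDivisors L F] [HasPrincipalDivisors k Ft₁]
    (hdeg : ∀ P : Place L F, P.deg = 1) (hdeg₁ : ∀ Q : Place k Ft₁, Q.deg = 1)
    (hdeg₂ : ∀ Q : Place k Ft₂, Q.deg = 1)
    (hres : ∀ P : Place L F, Fermat.Agent.Lib.FF.RR.ResK P) (g : ℕ)
    (hRR : ∀ D : Divisor L F, (g : ℤ) ≤ Divisor.degree D →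
      ∃ f : F, f ≠ 0 ∧ ∀ P : Place L F, 0 ≤ P.ord f + D P)
    (hgen : HasGen O₁ O₂ red₁ red₂ r₁ r₂ nodes g) {m : ℕ} (hm : (m : k) ≠ 0)
    {σ τ : SemilinearAut L F}
    (hσ : FixesFibre O₁ O₂ red₁ red₂ r₁ r₂ nodes σ)
    (hτ : FixesFibre O₁ O₂ red₁ red₂ r₁ r₂ nodes τ)
    (hτ' : FixesFibre O₁ O₂ red₁ red₂ r₁ r₂ nodes τ⁻¹)
    (D : Divisor L F) (f : F) (hf : f ≠ 0) (hmD : ∀ P, (m : ℤ) * D P = P.ord f) :
    τ • (σ • D - D) - (σ • D - D) ∈ Divisor.principal (K := L) (F := F) := by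
  classical
  have hm0 : m ≠ 0 := by
    rintro rfl
    exact hm Nat.cast_zero
  -- (A) the class `(σ - 1) D` has a bi-unit Kummer generator with constant reductions
  obtain ⟨E, hEdef⟩ : ∃ E : Divisor L F, E = σ • D - D := ⟨_, rfl⟩
  have hEdeg : Divisor.degree E = 0 := by
    rw [hEdef, map_sub, SemilinearAut.degree_smul, sub_self]
  have hEP : ∀ P, E P = D (σ⁻¹ • P) - D P := fun P => by
    rw [hEdef, Finsupp.sub_apply, SemilinearAut.divisor_smul_apply]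
  have hσf : σ • f ≠ 0 := smul_ne_zero_of_ne_zero σ hf
  obtain ⟨γ₁, c₁, hγ₁, hred₁⟩ :=
    exists_unit_of_fixes h.R₁ σ hσ.mem₁ hσ.red_eq₁ hσ.const f hf
  obtain ⟨γ₂, c₂, hγ₂, hred₂⟩ :=
    exists_unit_of_fixes h.R₂ σ hσ.mem₂ hσ.red_eq₂
      (fun c hc => (h.const_iff _).1 (hσ.const c hc)) f hf
  have hmE : ∀ P, (m : ℤ) * E P = P.ord ((γ₁ : O₁) : F) := fun P => by
    rw [hγ₁, Place.ord_mul P hσf (inv_ne_zero hf), Place.ord_inv, ord_smul_eq, hEP, mul_sub,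
      hmD, hmD]
    ring
  -- (B) move to the smooth tubes
  obtain ⟨ψ, v₁, v₂, hψ, hv, hmD1, hsupp⟩ :=
    h.moving hdeg hdeg₁ hdeg₂ g hRR hgen hm0 E hEdeg γ₁ γ₂ (hγ₁.trans hγ₂.symm) c₁ c₂
      hred₁ hred₂ hmE
  obtain ⟨D1, hD1def⟩ : ∃ D1 : Divisor L F, D1 = E + pdiv L ψ := ⟨_, rfl⟩
  have hD1 : ∀ P, D1 P = E P + P.ord ψ := fun P => by
    rw [hD1def, Finsupp.add_apply, pdiv_apply]
  obtain ⟨D', hD'def⟩ : ∃ D' : Divisor L F, D' = τ • D1 - D1 := ⟨_, rfl⟩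
  have hD'P : ∀ P, D' P = D1 (τ⁻¹ • P) - D1 P := fun P => by
    rw [hD'def, Finsupp.sub_apply, SemilinearAut.divisor_smul_apply]
  have hD'deg : Divisor.degree D' = 0 := by
    rw [hD'def, map_sub, SemilinearAut.degree_smul, sub_self]
  have hsm : ∀ P, D' P ≠ 0 → r₁ P ∉ Z₁ nodes ∨ r₂ P ∉ Z₂ nodes := by
    intro P hP
    by_cases h1 : D1 P = 0
    · have h2 : D1 (τ⁻¹ • P) ≠ 0 := by
        intro h2
        apply hP
        rw [hD'P, h1, h2, sub_zero]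
      have h3 := hsupp (τ⁻¹ • P) (by rw [← hD1]; exact h2)
      rcases h3 with h3 | h3
      · left
        have h4 := hτ.sp₁ (τ⁻¹ • P) h3
        rw [smul_inv_smul] at h4
        rw [h4]
        exact h3
      · right
        have h4 := hτ.sp₂ (τ⁻¹ • P) h3
        rw [smul_inv_smul] at h4
        rw [h4]
        exact h3
    · exact hsupp P (by rw [← hD1]; exact h1)
  have hr₁ : ∀ Q, Q ∉ Z₁ nodes → Finsupp.mapDomain r₁ D' Q = 0 := by
    intro Q hQ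
    have h1 : Finsupp.mapDomain r₁ (τ • D1) Q = Finsupp.mapDomain r₁ D1 Q := by
      rw [SemilinearAut.divisor_smul_def, ← Finsupp.mapDomain_comp]
      refine mapDomain_apply_congr_fiber _ _ D1 Q (fun P => ?_)
      constructor
      · intro hP
        have hP' : r₁ (τ • P) = Q := hP
        have h2 := hτ'.sp₁ (τ • P) (by rw [hP']; exact hQ)
        rw [inv_smul_smul] at h2
        rw [h2, hP']
      · intro hP
        show r₁ (τ • P) = Q
        rw [hτ.sp₁ P (by rw [hP]; exact hQ), hP]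
    have h2 : Finsupp.mapDomain r₁ D' = Finsupp.mapDomain r₁ (τ • D1) - Finsupp.mapDomain r₁ D1 := by
      rw [hD'def]
      exact map_sub (Finsupp.mapDomain.addMonoidHom r₁) _ _
    rw [h2, Finsupp.sub_apply, h1, sub_self]
  have hr₂ : ∀ Q, Q ∉ Z₂ nodes → Finsupp.mapDomain r₂ D' Q = 0 := by
    intro Q hQ
    have h1 : Finsupp.mapDomain r₂ (τ • D1) Q = Finsupp.mapDomain r₂ D1 Q := by
      rw [SemilinearAut.divisor_smul_def, ← Finsupp.mapDomain_comp]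
      refine mapDomain_apply_congr_fiber _ _ D1 Q (fun P => ?_)
      constructor
      · intro hP
        have hP' : r₂ (τ • P) = Q := hP
        have h2 := hτ'.sp₂ (τ • P) (by rw [hP']; exact hQ)
        rw [inv_smul_smul] at h2
        rw [h2, hP']
      · intro hP
        show r₂ (τ • P) = Q
        rw [hτ.sp₂ P (by rw [hP]; exact hQ), hP]
    have h2 : Finsupp.mapDomain r₂ D' = Finsupp.mapDomain r₂ (τ • D1) - Finsupp.mapDomain r₂ D1 := by
      rw [hD'def]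
      exact map_sub (Finsupp.mapDomain.addMonoidHom r₂) _ _
    rw [h2, Finsupp.sub_apply, h1, sub_self]
  -- the Kummer generator `η = τ v / v` of `D'` is `≡ 1` for both valuations
  have hv₁0 : ((v₁ : O₁) : F) ≠ 0 := coe_unit_ne_zero v₁
  have hτv₁ : τ • ((v₁ : O₁) : F) ∈ O₁ := hτ.mem₁ _ (v₁ : O₁).2
  have hτv₂ : τ • ((v₂ : O₂) : F) ∈ O₂ := hτ.mem₂ _ (v₂ : O₂).2
  obtain ⟨η₁, hη₁def⟩ : ∃ η₁ : O₁, η₁ = ⟨_, hτv₁⟩ * ((v₁⁻¹ : O₁ˣ) : O₁) := ⟨_, rfl⟩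
  obtain ⟨η₂, hη₂def⟩ : ∃ η₂ : O₂, η₂ = ⟨_, hτv₂⟩ * ((v₂⁻¹ : O₂ˣ) : O₂) := ⟨_, rfl⟩
  have hη₁F : (η₁ : F) = τ • ((v₁ : O₁) : F) * (((v₁ : O₁) : F))⁻¹ := by
    rw [hη₁def, ← coe_units_inv]
    rfl
  have hη₂F : (η₂ : F) = τ • ((v₂ : O₂) : F) * (((v₂ : O₂) : F))⁻¹ := by
    rw [hη₂def, ← coe_units_inv]
    rfl
  have hη : (η₁ : F) = (η₂ : F) := by rw [hη₁F, hη₂F, hv]
  have hηr₁ : red₁ η₁ = 1 := by
    rw [hη₁def, map_mul, hτ.red_eq₁ _ (v₁ : O₁).2 hτv₁, Subtype.coe_eta, ← map_mul,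
      ← Units.val_mul, mul_inv_cancel, Units.val_one, map_one]
  have hηr₂ : red₂ η₂ = 1 := by
    rw [hη₂def, map_mul, hτ.red_eq₂ _ (v₂ : O₂).2 hτv₂, Subtype.coe_eta, ← map_mul,
      ← Units.val_mul, mul_inv_cancel, Units.val_one, map_one]
  have hmD' : ∀ P, (m : ℤ) * D' P = P.ord (η₁ : F) := fun P => by
    rw [hη₁F, Place.ord_mul P (smul_ne_zero_of_ne_zero τ hv₁0) (inv_ne_zero hv₁0),
      Place.ord_inv, ord_smul_eq, hD'P, mul_sub, hD1, hD1, hmD1, hmD1]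
    ring
  -- (C) one step on the nodal fibre
  obtain ⟨φ, hφ, hφD⟩ :=
    h.principal_of_smooth hdeg hres g hRR hgen hm D' hD'deg hsm hr₁ hr₂ η₁ η₂ hη hηr₁ hηr₂ hmD'
  have hτψ : τ • ψ ≠ 0 := smul_ne_zero_of_ne_zero τ hψ
  refine ⟨φ * (τ • ψ)⁻¹ * ψ, mul_ne_zero (mul_ne_zero hφ (inv_ne_zero hτψ)) hψ, fun P => ?_⟩
  rw [← hEdef, Finsupp.sub_apply, SemilinearAut.divisor_smul_apply,
    Place.ord_mul P (mul_ne_zero hφ (inv_ne_zero hτψ)) hψ,
    Place.ord_mul P hφ (inv_ne_zero hτψ), Place.ord_inv, ord_smul_eq, ← hφD P, hD'P, hD1, hD1]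
  ring

/-- **Unipotence of inertia on torsion (`Pic⁰` form).**  `(τ - 1)(σ - 1) x = 0` for every
`m`-torsion class `x`, `m` invertible in `k`. -/
theorem IsNodal.inertia_sq_zero (h : IsNodal O₁ O₂ red₁ red₂ r₁ r₂ nodes)
    [HasPrincipalDivisors L F] [HasPrincipalDivisors k Ft₁]
    (hdeg : ∀ P : Place L F, P.deg = 1) (hdeg₁ : ∀ Q : Place k Ft₁, Q.deg = 1)
    (hdeg₂ : ∀ Q : Place k Ft₂, Q.deg = 1)
    (hres : ∀ P : Place L F, Fermat.Agent.Lib.FF.RR.ResK P) (g : ℕ)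
    (hRR : ∀ D : Divisor L F, (g : ℤ) ≤ Divisor.degree D →
      ∃ f : F, f ≠ 0 ∧ ∀ P : Place L F, 0 ≤ P.ord f + D P)
    (hgen : HasGen O₁ O₂ red₁ red₂ r₁ r₂ nodes g) {m : ℕ} (hm : (m : k) ≠ 0)
    {σ τ : SemilinearAut L F}
    (hσ : FixesFibre O₁ O₂ red₁ red₂ r₁ r₂ nodes σ)
    (hτ : FixesFibre O₁ O₂ red₁ red₂ r₁ r₂ nodes τ)
    (hτ' : FixesFibre O₁ O₂ red₁ red₂ r₁ r₂ nodes τ⁻¹)
    (x : Pic0 L F) (hx : (m : ℤ) • x = 0) :
    τ • σ • x - τ • x - σ • x + x = 0 := by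
  obtain ⟨D, rfl⟩ := Pic0.mk_surjective x
  have hmD : ((m : ℤ) • (D : Divisor L F)) ∈ Divisor.principal (K := L) (F := F) := by
    have h1 : Pic0.mk ((m : ℤ) • D) = 0 := hx
    have h2 := (QuotientAddGroup.eq_zero_iff _).1 h1
    exact AddSubgroup.mem_addSubgroupOf.1 h2
  obtain ⟨f, hf, hfD⟩ := hmD
  have key := h.inertia_sq_principal hdeg hdeg₁ hdeg₂ hres g hRR hgen hm hσ hτ hτ'
    (D : Divisor L F) f hf (fun P => by
      rw [← hfD P, Finsupp.smul_apply, smul_eq_mul])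
  rw [SemilinearAut.pic0_smul_mk, SemilinearAut.pic0_smul_mk, SemilinearAut.pic0_smul_mk]
  show Pic0.mk (SemilinearAut.degZeroSMulHom τ (SemilinearAut.degZeroSMulHom σ D) -
    SemilinearAut.degZeroSMulHom τ D - SemilinearAut.degZeroSMulHom σ D + D) = 0
  refine (QuotientAddGroup.eq_zero_iff _).2 (AddSubgroup.mem_addSubgroupOf.2 ?_)
  have h3 : ((SemilinearAut.degZeroSMulHom τ (SemilinearAut.degZeroSMulHom σ D) -
      SemilinearAut.degZeroSMulHom τ D - SemilinearAut.degZeroSMulHom σ D + D :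
      Divisor.degZero (K := L) (F := F)) : Divisor L F) =
      τ • (σ • (D : Divisor L F) - D) - (σ • (D : Divisor L F) - D) := by
    simp only [AddSubgroup.coe_add, AddSubgroup.coe_sub, SemilinearAut.coe_degZeroSMulHom,
      smul_sub]
    abel
  rw [h3]
  exact key

end Inertia2

end Fermat.Agent.BAD.OneStepNodal
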