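import Mathlib
import Fermat.Agent.S31.Anemic
import Fermat.Agent.ESJ.Rep.TateLevelBad
import Fermat.Agent.ESJ.Jac.Main
import Fermat.Agent.ESJ.RedK.GoodRed
import Fermat.Agent.BAD.Interfaces

/-!
# S34 from (BAD-U)

`S34_of_monodromy` : the statement of S34 from the torsion-level monodromy statement
`∀ N p, p.Prime → TorsionMonodromy N p` (BAD-U), the two trunk families (K) (`ESJ.kummerCmp`) and
(E) (`ESJ.RedK.torsionESRelation`) being theorems.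
-/

set_option autoImplicit false

namespace Fermat.Agent.BAD

/-- **S34 from (BAD-U).** -/
theorem S34_of_monodromy
    (hU : ∀ (N p : ℕ) [NeZero N], p.Prime → TorsionMonodromy N p)
    {𝒪 : Type} [CommRing 𝒪] [IsDomain 𝒪] [IsDiscreteValuationRing 𝒪]
    [IsAdicComplete (IsLocalRing.maximalIdeal 𝒪) 𝒪]
    {p : ℕ} (hp : p.Prime) (hp𝒪 : (p : 𝒪) ∈ IsLocalRing.maximalIdeal 𝒪)
    {N : ℕ} [NeZero N] {S : Finset ℕ} (hpS : p ∈ S)
    (hNS : ∀ q : ℕ, q.Prime → q ∣ N → q ∈ S)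
    {θ : CuspForm.heckeAlgebra N 2 (↑S : Set ℕ) →+* IsLocalRing.ResidueField 𝒪}
    {T : Type} [CommRing T] [IsLocalRing T] [IsNoetherianRing T]
    [IsAdicComplete (IsLocalRing.maximalIdeal T) T] [Algebra 𝒪 T] [IsLocalHom (algebraMap 𝒪 T)]
    [Module.Finite 𝒪 T] [Module.Free 𝒪 T]
    (H : CuspForm.HeckeGaloisRepDatum N (↑S : Set ℕ) 𝒪 θ T)
    (q : ℕ) (hq : q.Prime) (hqp : q ≠ p) (hqN : q ∣ N) (hq2 : ¬ q ^ 2 ∣ N) :
    H.ρ.IsUnipotentOnInertiaAt q :=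
  Fermat.Agent.S31.S34_ofA
    (Fermat.Agent.ESJ.Rep.TateLevel.tateCmpAMonodromyExists_of_trunk
      (fun N p _ hp => Fermat.Agent.ESJ.kummerCmp N p hp.pos)
      (fun N p _ _ => Fermat.Agent.ESJ.RedK.torsionESRelation N p) hU)
    hp hp𝒪 hpS hNS H q hq hqp hqN hq2

end Fermat.Agent.BAD
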