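/-
BAD (helper54) — directive #3 item 2 (iii): `hS2` for all `(n₁, n₂)` from `hS2` for `(n, 0)`,
by transport with a bi-unit `z` (`div z = E2 - q·E1`, `red z = (c₁, c₂)`,
`div c_j = Z_j - q·P_j`, `c₁`, `c₂` units with equal values at the nodes).

* `mul_mem_L_iff` : multiplication by `z` with `div z = Dz` maps `L(B)` onto `L(B - Dz)`.
* `glued_transport` : on the special fibre,
  `(c₁ⁿ² a, c₂ⁿ² b) ∈ gluedSpace e₁ e₂ 1 ((n₁ + q n₂)•P₁) ((n₁ + q n₂)•P₂) ↔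
   (a, b) ∈ gluedSpace e₁ e₂ 1 (n₁•P₁ + n₂•Z₁) (n₁•P₂ + n₂•Z₂)`.
* `hS2_transport` : the statement `hS2` of `NodalAsm.monodromy_of_nodal_fibre` for all
  `(n₁, n₂)` with `N₀ ≤ n₁ + n₂` from the same statement for `(n, 0)`, `N₀ ≤ n`.
-/
import Mathlib
import Fermat.Agent.BAD.NodalCech
import Fermat.Agent.BAD.NodalDiv
import Fermat.Agent.Lib.Red.CoordLatRed

set_option autoImplicit false

namespace Fermat.Agent.BAD.SatTransport

open AlgebraicCurve WithZero Fermat.Agent.Lib.Red.CoordLat Fermat.Agent.BAD.NodalDiv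
  Fermat.Agent.BAD.NodalRiemann Fermat.Agent.BAD.NodalCech

section OneField

variable {K F : Type*} [Field K] [Field F] [Algebra K F]

theorem ord_pow (P : Place K F) (f : F) (n : ℕ) : P.ord (f ^ n) = n * P.ord f := by
  have h := P.ord_zpow f (n : ℤ)
  rwa [zpow_natCast] at h

/-- Multiplication by `z` with `div z = Dz` maps `L(B)` onto `L(B - Dz)`. -/
theorem mul_mem_L_iff {z : F} (hz : z ≠ 0) {Dz B : Divisor K F}
    (hdiv : ∀ P : Place K F, P.ord z = Dz P) (f : F) :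
    z * f ∈ riemannRochSpace (B - Dz) ↔ f ∈ riemannRochSpace B := by
  rw [mem_riemannRochSpace_iff, mem_riemannRochSpace_iff]
  refine forall_congr' fun P => ?_
  rcases eq_or_ne f 0 with rfl | hf
  · simp
  · rw [or_iff_right (mul_ne_zero hz hf), or_iff_right hf, P.ord_mul hz hf, hdiv P,
      Finsupp.sub_apply]
    constructor <;> intro h <;> linarith

/-- The divisor of a power. -/
theorem ord_pow_eq {z : F} {Dz : Divisor K F} (hdiv : ∀ P : Place K F, P.ord z = Dz P) (n : ℕ)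
    (P : Place K F) : P.ord (z ^ n) = (n • Dz) P := by
  rw [ord_pow, hdiv P, Finsupp.smul_apply, nsmul_eq_mul]

end OneField

section Glued

variable {k F₁ F₂ : Type*} [Field k] [Field F₁] [Field F₂] [Algebra k F₁] [Algebra k F₂]
variable {ι : Type*}

/-- Transport of glued spaces by a pair `(c₁, c₂)` of functions which are units with equal
values at the nodes. -/
theorem glued_transport (e₁ : ι → Place k F₁) (e₂ : ι → Place k F₂)
    (P₁ Z₁ : Divisor k F₁) (P₂ Z₂ : Divisor k F₂) (q : ℕ)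
    {c₁ : F₁} {c₂ : F₂} (hc₁ : c₁ ≠ 0) (hc₂ : c₂ ≠ 0)
    (hc₁div : ∀ Q : Place k F₁, Q.ord c₁ = Z₁ Q - q * P₁ Q)
    (hc₂div : ∀ Q : Place k F₂, Q.ord c₂ = Z₂ Q - q * P₂ Q)
    (hcnode : ∀ i, ∃ κ : k, κ ≠ 0 ∧ Cong (e₁ i) c₁ κ ∧ Cong (e₂ i) c₂ κ)
    (n₁ n₂ : ℕ) (p : F₁ × F₂) :
    (c₁ ^ n₂ * p.1, c₂ ^ n₂ * p.2) ∈ gluedSpace e₁ e₂ (fun _ => (1 : k))
        ((n₁ + q * n₂) • P₁) ((n₁ + q * n₂) • P₂) ↔
      p ∈ gluedSpace e₁ e₂ (fun _ => (1 : k)) (n₁ • P₁ + n₂ • Z₁) (n₁ • P₂ + n₂ • Z₂) := by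
  have hD₁ : ∀ Q : Place k F₁, Q.ord (c₁ ^ n₂) = (n₂ • Z₁ - (q * n₂) • P₁) Q := by
    intro Q
    rw [ord_pow, hc₁div Q, Finsupp.sub_apply, Finsupp.smul_apply, Finsupp.smul_apply,
      nsmul_eq_mul, nsmul_eq_mul]
    push_cast
    ring
  have hD₂ : ∀ Q : Place k F₂, Q.ord (c₂ ^ n₂) = (n₂ • Z₂ - (q * n₂) • P₂) Q := by
    intro Q
    rw [ord_pow, hc₂div Q, Finsupp.sub_apply, Finsupp.smul_apply, Finsupp.smul_apply,
      nsmul_eq_mul, nsmul_eq_mul]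
    push_cast
    ring
  have hB₁ : (n₁ + q * n₂) • P₁ = (n₁ • P₁ + n₂ • Z₁) - (n₂ • Z₁ - (q * n₂) • P₁) := by
    rw [add_smul]; abel
  have hB₂ : (n₁ + q * n₂) • P₂ = (n₁ • P₂ + n₂ • Z₂) - (n₂ • Z₂ - (q * n₂) • P₂) := by
    rw [add_smul]; abel
  rw [mem_gluedSpace, mem_gluedSpace]
  show (c₁ ^ n₂ * p.1 ∈ riemannRochSpace ((n₁ + q * n₂) • P₁) ∧
      c₂ ^ n₂ * p.2 ∈ riemannRochSpace ((n₁ + q * n₂) • P₂) ∧
      ∀ i, ∃ c : k, Cong (e₁ i) (c₁ ^ n₂ * p.1) c ∧ Cong (e₂ i) (c₂ ^ n₂ * p.2) (1 * c)) ↔ _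
  rw [hB₁, hB₂, mul_mem_L_iff (pow_ne_zero n₂ hc₁) hD₁, mul_mem_L_iff (pow_ne_zero n₂ hc₂) hD₂]
  refine and_congr_right fun _ => and_congr_right fun _ => forall_congr' fun i => ?_
  obtain ⟨κ, hκ, hκ₁, hκ₂⟩ := hcnode i
  have hκn : κ ^ n₂ ≠ 0 := pow_ne_zero n₂ hκ
  constructor
  · rintro ⟨c, h1, h2⟩
    rw [one_mul] at h2
    refine ⟨(κ ^ n₂)⁻¹ * c, ?_, ?_⟩
    · have h := ((hκ₁.pow n₂).inv hκn).mul h1
      rwa [← mul_assoc, inv_mul_cancel₀ (pow_ne_zero n₂ hc₁), one_mul] at h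
    · have h := ((hκ₂.pow n₂).inv hκn).mul h2
      rw [← mul_assoc, inv_mul_cancel₀ (pow_ne_zero n₂ hc₂), one_mul] at h
      rw [one_mul]
      exact h
  · rintro ⟨c, h1, h2⟩
    rw [one_mul] at h2
    refine ⟨κ ^ n₂ * c, (hκ₁.pow n₂).mul h1, ?_⟩
    rw [one_mul]
    exact (hκ₂.pow n₂).mul h2

end Glued

section Transport

variable {L F : Type*} [Field L] [Field F] [Algebra L F]
variable {A : ValuationSubring L} {O : Subring F}
variable {k F₁ F₂ : Type*} [Field k] [Field F₁] [Field F₂] [Algebra k F₁] [Algebra k F₂]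
variable {ι : Type*}

/-- **`hS2` for all `(n₁, n₂)` from `hS2` for `(n, 0)`**, by transport with the bi-unit `z`. -/
theorem hS2_transport
    (hOA : ∀ x : L, algebraMap L F x ∈ O ↔ x ∈ A)
    (red : O →+* F₁ × F₂) (π : A →+* k) (hπ : Function.Surjective π)
    (hconst : ∀ a : A, red ⟨algebraMap L F (a : L), (hOA _).2 a.2⟩
      = algebraMap k (F₁ × F₂) (π a))
    (e₁ : ι → Place k F₁) (e₂ : ι → Place k F₂)
    (E1 E2 : Divisor L F) (P₁ Z₁ : Divisor k F₁) (P₂ Z₂ : Divisor k F₂)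
    (q : ℕ) (hq : 1 ≤ q)
    (z : F) (hz0 : z ≠ 0) (hzO : z ∈ O) (hzO' : z⁻¹ ∈ O)
    (hzdiv : ∀ P : Place L F, P.ord z = E2 P - q * E1 P)
    (c₁ : F₁) (c₂ : F₂) (hred : red ⟨z, hzO⟩ = (c₁, c₂))
    (hc₁div : ∀ Q : Place k F₁, Q.ord c₁ = Z₁ Q - q * P₁ Q)
    (hc₂div : ∀ Q : Place k F₂, Q.ord c₂ = Z₂ Q - q * P₂ Q)
    (hcnode : ∀ i, ∃ κ : k, κ ≠ 0 ∧ Cong (e₁ i) c₁ κ ∧ Cong (e₂ i) c₂ κ)
    (h0 : ∃ N₀ : ℕ, ∀ n, N₀ ≤ n →
      redSub hOA red π hπ hconst (VB 0 E1 E2 n 0)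
        = gluedSpace e₁ e₂ (fun _ => (1 : k)) (n • P₁) (n • P₂)) :
    ∃ N₀ : ℕ, ∀ n₁ n₂, N₀ ≤ n₁ + n₂ →
      redSub hOA red π hπ hconst (VB 0 E1 E2 n₁ n₂)
        = gluedSpace e₁ e₂ (fun _ => (1 : k)) (n₁ • P₁ + n₂ • Z₁) (n₁ • P₂ + n₂ • Z₂) := by
  obtain ⟨N₀, hN₀⟩ := h0
  refine ⟨N₀, fun n₁ n₂ hn => ?_⟩
  have hnq : N₀ ≤ n₁ + q * n₂ := hn.trans (Nat.add_le_add_left (Nat.le_mul_of_pos_left n₂ hq) n₁)
  have hN := hN₀ (n₁ + q * n₂) hnq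
  -- the bi-unit and its reduction
  set w : O := ⟨z, hzO⟩ with hw
  set w' : O := ⟨z⁻¹, hzO'⟩ with hw'
  have hww' : w * w' = 1 := Subtype.ext (mul_inv_cancel₀ hz0)
  have hC : red w * red w' = 1 := by rw [← map_mul, hww', map_one]
  have hc₁ : c₁ ≠ 0 := by
    intro h0
    have h1 := congrArg Prod.fst hC
    rw [hred] at h1
    simp only [Prod.fst_mul, Prod.fst_one, h0, zero_mul] at h1
    exact zero_ne_one h1
  have hc₂ : c₂ ≠ 0 := by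
    intro h0
    have h1 := congrArg Prod.snd hC
    rw [hred] at h1
    simp only [Prod.snd_mul, Prod.snd_one, h0, zero_mul] at h1
    exact zero_ne_one h1
  -- divisors on the generic fibre
  have hzpow : ∀ P : Place L F, P.ord (z ^ n₂) = (n₂ • E2 - (q * n₂) • E1) P := by
    intro P
    rw [ord_pow, hzdiv P, Finsupp.sub_apply, Finsupp.smul_apply, Finsupp.smul_apply,
      nsmul_eq_mul, nsmul_eq_mul]
    push_cast
    ring
  have hVB : ∀ f : F, z ^ n₂ * f ∈ VB 0 E1 E2 (n₁ + q * n₂) 0 ↔ f ∈ VB 0 E1 E2 n₁ n₂ := by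
    intro f
    have hB : (0 : Divisor L F) + (n₁ + q * n₂) • E1 + 0 • E2
        = ((0 : Divisor L F) + n₁ • E1 + n₂ • E2) - (n₂ • E2 - (q * n₂) • E1) := by
      rw [add_smul, zero_smul]; abel
    unfold VB
    rw [hB]
    exact mul_mem_L_iff (pow_ne_zero n₂ hz0) hzpow f
  have hredpow : ∀ y : O, red (w ^ n₂ * y) = (c₁ ^ n₂ * (red y).1, c₂ ^ n₂ * (red y).2) := by
    intro y
    rw [map_mul, map_pow, hred]
    rfl
  have hT := fun p => glued_transport e₁ e₂ P₁ Z₁ P₂ Z₂ q hc₁ hc₂ hc₁div hc₂div hcnode n₁ n₂ p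
  ext t
  constructor
  · rintro ⟨y, hy, rfl⟩
    rw [← hT, ← hredpow y, ← hN]
    refine ⟨w ^ n₂ * y, ?_, rfl⟩
    show z ^ n₂ * (y : F) ∈ VB 0 E1 E2 (n₁ + q * n₂) 0
    exact (hVB _).mpr hy
  · intro ht
    have h1 := (hT t).mpr ht
    rw [← hN] at h1
    obtain ⟨y', hy', hy't⟩ := h1
    refine ⟨w' ^ n₂ * y', ?_, ?_⟩
    · rw [← hVB]
      show z ^ n₂ * (z⁻¹ ^ n₂ * (y' : F)) ∈ VB 0 E1 E2 (n₁ + q * n₂) 0
      rw [← mul_assoc, ← mul_pow, mul_inv_cancel₀ hz0, one_pow, one_mul]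
      exact hy'
    · have h2 : red (w ^ n₂ * (w' ^ n₂ * y')) = red y' := by
        rw [← mul_assoc, ← mul_pow, hww', one_pow, one_mul]
      have h3 : red (w' ^ n₂ * y') * red (w ^ n₂) = red y' := by
        rw [← map_mul, mul_comm, h2]
      have h4 : t * red (w ^ n₂) = red y' := by
        rw [hy't, map_pow, hred]
        refine Prod.ext ?_ ?_
        · simp only [Prod.fst_mul, Prod.pow_fst, mul_comm]
        · simp only [Prod.snd_mul, Prod.pow_snd, mul_comm]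
      have hunit : IsUnit (red (w ^ n₂)) := by
        rw [map_pow]
        exact (IsUnit.of_mul_eq_one _ hC).pow n₂
      exact hunit.mul_right_cancel (h3.trans h4.symm)

end Transport

end Fermat.Agent.BAD.SatTransport
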