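/-
TR brick (SM): conservation of number in the residue discs of the smooth non-node points of a
nodal special fibre, in the abstract setting `SmoothLift.Setup` of `BAD/SmoothLift.lean`.

For a place `Q` of the first component which is not a node and is off `P₁`, `Z₁`, the *disc* of
`Q` is the set of places `P` of the generic fibre with `RedTo red E1 E2 N₀ Q P`.

* `exists_red_sub_points` (SM1): for an effective divisor `B` supported in the disc of `Q`, of
  degree `b`, the reduction of `L(chart - B) ∩ O` is the space of glued sections vanishing to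
  order `b` at `Q` (large charts; multiplicities and coincident points allowed).
* `adicValuation_red_le_of_mem` : a function of `L(chart - B) ∩ O` reduces to a function
  vanishing to order `deg B` at `Q`.
* `adicValuation_red_le` (SM2): for `f ∈ O` with nonzero first reduction,
  `ord_Q (red f)₁ ≥ ∑_{P in the disc of Q} ord_P f` (no hypothesis on the other zeros and poles).
* `adicValuation_red_eq` (SM3): equality if `f` has a partner `f'` with `f f'` without zeros or
  poles in the disc and with unit reduction at `Q` (e.g. `f` a unit of `O`).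
* `dvd_ord_red`, `dvd_ord_red_of_unit` (SM4): if all `ord_P f` are divisible by `m`, so is
  `ord_Q (red f)₁`.
-/
import Mathlib
import Fermat.Agent.BAD.SmoothLift

set_option autoImplicit false
set_option linter.style.haveILetI false
set_option linter.unusedSectionVars false

noncomputable section

namespace Fermat.Agent.BAD.SmoothOrd

open AlgebraicCurve WithZero Fermat.Agent.Lib.FF Fermat.Agent.Lib.Red.Deform
  Fermat.Agent.Lib.Red.CoordLat Fermat.Agent.BAD.NodalRiemann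
  Fermat.Agent.Padic.S33.RC.NodalMul Fermat.Agent.Lib.FF.BasePoint Fermat.Agent.BAD.SmoothLift

/-! ### Generalities -/

theorem prod_exp {α : Type*} (s : Finset α) (a : α → ℤ) :
    ∏ i ∈ s, (exp (a i) : ℤᵐ⁰) = exp (∑ i ∈ s, a i) := by
  classical
  induction s using Finset.induction_on with
  | empty => rw [Finset.prod_empty, Finset.sum_empty, exp_zero]
  | insert i s hi ih => rw [Finset.prod_insert hi, Finset.sum_insert hi, ih, exp_add]

section OneField

variable {K F : Type*} [Field K] [Field F] [Algebra K F]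

theorem L_mono {D D' : Divisor K F} (h : ∀ v, D v ≤ D' v) :
    riemannRochSpace D ≤ riemannRochSpace D' :=
  fun _ hf v => (hf v).trans (exp_le_exp.2 (h v))

/-- An effective divisor of degree `0` is `0`. -/
theorem eq_zero_of_degree_eq_zero {x : F} (hF : IsFF1 K F x) {B : Divisor K F}
    (hB : ∀ v, 0 ≤ B v) (hdeg : Divisor.degree B = 0) : B = 0 := by
  classical
  rw [hF.degree_eq_sum] at hdeg
  have h0 := (Finset.sum_eq_zero_iff_of_nonneg (fun v _ => hB v)).1 hdeg
  ext v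
  by_cases hv : v ∈ B.support
  · exact h0 v hv
  · rw [Finsupp.notMem_support_iff] at hv
    rw [hv]
    rfl

theorem degree_single_one {x : F} (hF : IsFF1 K F x) (R : Place K F) :
    Divisor.degree (Finsupp.single R (1 : ℤ)) = 1 := by
  rw [Divisor.degree_single, hF.deg_eq_one]
  simp

end OneField

section Two

variable {L F : Type*} [Field L] [Field F] [Algebra L F]
variable {A : ValuationSubring L} {O : Subring F}
variable {k F₁ F₂ : Type*} [Field k] [Field F₁] [Field F₂] [Algebra k F₁] [Algebra k F₂]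
variable {ι : Type*} [Fintype ι]
variable {red : O →+* F₁ × F₂} {π : A →+* k} {e₁ : ι → Place k F₁} {e₂ : ι → Place k F₂}
  {P₁ Z₁ : Divisor k F₁} {P₂ Z₂ : Divisor k F₂} {E1 E2 : Divisor L F} {N₀ : ℕ}

/-! ### (SM1): the reduction of `L(chart - B) ∩ O` -/

/-- **(SM1) Multi-point specialization.**  For an effective divisor `B` of degree `b` supported
in the disc of `Q`, the reduction of `L(chart - B) ∩ O` is the space of glued sections vanishing
to order `b` at `Q`, on the charts `n₀ + (a, 0)`, `a` large. -/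
theorem exists_red_sub_points (S : Setup A O red π e₁ e₂ P₁ Z₁ P₂ Z₂ E1 E2 N₀) {x : F}
    (hF : IsFF1 L F x) {x₁ : F₁} {x₂ : F₂} (h₁ : IsFF1 k F₁ x₁) (h₂ : IsFF1 k F₂ x₂)
    [Infinite k] {Q : Place k F₁} (hQ : ∀ i, e₁ i ≠ Q) (hQP : P₁ Q = 0) (hQZ : Z₁ Q = 0)
    (b : ℕ) : ∀ B : Divisor L F, (∀ v, 0 ≤ B v) →
      (∀ P, B P ≠ 0 → RedTo red E1 E2 N₀ Q P) → Divisor.degree B = b →
      ∀ n₀ : ℕ × ℕ, ∃ a₀ : ℕ, ∀ a : ℕ, a₀ ≤ a → ∀ t : F₁ × F₂,
        (∃ y : O, (y : F) ∈ riemannRochSpace (cd E1 E2 (n₀ + (a, 0)) - B) ∧ red y = t) ↔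
          t ∈ gluedSpace e₁ e₂ (fun _ => (1 : k))
            (cd P₁ Z₁ (n₀ + (a, 0)) - b • Finsupp.single Q (1 : ℤ))
            (cd P₂ Z₂ (n₀ + (a, 0))) := by
  classical
  induction b with
  | zero =>
    intro B hB0 _ hdeg n₀
    have hBz : B = 0 := eq_zero_of_degree_eq_zero hF hB0 (by simpa using hdeg)
    refine ⟨N₀, fun a ha t => ?_⟩
    rw [hBz, sub_zero, zero_smul, sub_zero]
    exact S.hS2 _ (by simp only [Prod.fst_add, Prod.snd_add]; omega) t
  | succ b ih =>
    intro B hB0 hBred hdeg n₀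
    -- a point of `B`
    have hex : ∃ P, B P ≠ 0 := by
      by_contra hcon
      push Not at hcon
      have hBz : B = 0 := Finsupp.ext hcon
      rw [hBz, map_zero] at hdeg
      have : (0 : ℤ) < ((b + 1 : ℕ) : ℤ) := by positivity
      omega
    obtain ⟨P, hP⟩ := hex
    have hPred : RedTo red E1 E2 N₀ Q P := hBred P hP
    have hBP : 1 ≤ B P := by
      have := hB0 P
      omega
    set B' : Divisor L F := B - Finsupp.single P (1 : ℤ) with hB'
    have hB'0 : ∀ v, 0 ≤ B' v := by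
      intro v
      rw [hB', Finsupp.sub_apply, Finsupp.single_apply]
      split_ifs with hv
      · subst hv
        omega
      · have := hB0 v
        omega
    have hB'red : ∀ P', B' P' ≠ 0 → RedTo red E1 E2 N₀ Q P' := by
      intro P' hP'
      by_cases hv : P = P'
      · subst hv
        exact hPred
      · refine hBred P' ?_
        rw [hB', Finsupp.sub_apply, Finsupp.single_apply, if_neg hv, sub_zero] at hP'
        exact hP'
    have hdegB' : Divisor.degree B' = b := by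
      rw [hB', map_sub, hdeg, degree_single_one hF]
      push_cast
      ring
    obtain ⟨a₀', ha₀'⟩ := ih B' hB'0 hB'red hdegB' n₀
    obtain ⟨cm, hcm⟩ := exists_mul h₁ h₂ e₁ e₂ S.hinj₁ S.hinj₂
    obtain ⟨cg, hcg⟩ := exists_finrank_gluedSpace (K := k) h₁ h₂ e₁ e₂ S.hinj₂
    obtain ⟨cF, hcF⟩ := hF.exists_degree_bound
    have hp₁ := S.hdegP₁
    have hp₂ := S.hdegP₂
    have hpE := S.hdegE1
    set p₁ := Divisor.degree P₁ with hp₁def
    set p₂ := Divisor.degree P₂ with hp₂def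
    set pE := Divisor.degree E1 with hpEdef
    set d₁ := Divisor.degree (cd P₁ Z₁ n₀) with hd₁
    set d₂ := Divisor.degree (cd P₂ Z₂ n₀) with hd₂
    set dE := Divisor.degree (cd E1 E2 n₀) with hdE
    set K : ℕ := cm.toNat + cg.toNat + cF.toNat + b + 3 + d₁.natAbs + d₂.natAbs + dE.natAbs
      with hK
    have hcm1 := Int.self_le_toNat cm
    have hcg1 := Int.self_le_toNat cg
    have hcF1 := Int.self_le_toNat cF
    have hKbig : (cm.toNat : ℤ) + cg.toNat + cF.toNat + b + 3 + |d₁| + |d₂| + |dE| = (K : ℤ) := by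
      rw [hK]
      push_cast
      rfl
    have habs₁ := neg_abs_le d₁
    have habs₂ := neg_abs_le d₂
    have habsE := neg_abs_le dE
    have habs₁' := abs_nonneg d₁
    have habs₂' := abs_nonneg d₂
    have habsE' := abs_nonneg dE
    have hcm0 : (0 : ℤ) ≤ (cm.toNat : ℤ) := Int.natCast_nonneg _
    have hcg0 : (0 : ℤ) ≤ (cg.toNat : ℤ) := Int.natCast_nonneg _
    have hcF0 : (0 : ℤ) ≤ (cF.toNat : ℤ) := Int.natCast_nonneg _
    have hb0 : (0 : ℤ) ≤ (b : ℤ) := Int.natCast_nonneg _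
    set a'' : ℕ := N₀ + K with ha''
    refine ⟨a₀' + a'' + K, fun a ha t => ?_⟩
    obtain ⟨a', rfl⟩ : ∃ a', a = a' + a'' := ⟨a - a'', by omega⟩
    have ha'1 : a₀' ≤ a' := by omega
    have ha'K : (K : ℤ) ≤ (a' : ℤ) := by
      have : K ≤ a' := by omega
      exact_mod_cast this
    have ha''K : (K : ℤ) ≤ (a'' : ℤ) := by
      have : K ≤ a'' := by omega
      exact_mod_cast this
    have ha'0 : (0 : ℤ) ≤ (a' : ℤ) := Int.natCast_nonneg _
    have ha''0 : (0 : ℤ) ≤ (a'' : ℤ) := Int.natCast_nonneg _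
    have h1p₁ : (a' : ℤ) ≤ a' * p₁ :=
      le_mul_of_one_le_right ha'0 (by omega)
    have h1p₂ : (a' : ℤ) ≤ a' * p₂ :=
      le_mul_of_one_le_right ha'0 (by omega)
    have h1pE : (a' : ℤ) ≤ a' * pE :=
      le_mul_of_one_le_right ha'0 (by omega)
    have h2p₁ : (a'' : ℤ) ≤ a'' * p₁ :=
      le_mul_of_one_le_right ha''0 (by omega)
    have h2p₂ : (a'' : ℤ) ≤ a'' * p₂ :=
      le_mul_of_one_le_right ha''0 (by omega)
    have h2pE : (a'' : ℤ) ≤ a'' * pE :=
      le_mul_of_one_le_right ha''0 (by omega)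
    -- the charts
    set ca : ℕ × ℕ := (a'', 0) with hca
    set cb : ℕ × ℕ := n₀ + (a', 0) with hcb
    set cc : ℕ × ℕ := n₀ + (a' + a'', 0) with hcc
    have hcab : cb + ca = cc := by
      rw [hca, hcb, hcc, add_assoc]
      rfl
    have hcaN : N₀ ≤ ca.1 + ca.2 := by
      rw [hca]
      simp only [add_zero]
      omega
    have hccN : N₀ ≤ cc.1 + cc.2 := by
      rw [hcc]
      simp only [Prod.fst_add, Prod.snd_add]
      omega
    -- degrees
    have hdeg_a₁ : Divisor.degree (cd P₁ Z₁ ca) = a'' * p₁ := by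
      rw [hca, cd_fst, map_nsmul, nsmul_eq_mul]
    have hdeg_a₂ : Divisor.degree (cd P₂ Z₂ ca) = a'' * p₂ := by
      rw [hca, cd_fst, map_nsmul, nsmul_eq_mul]
    have hdeg_b₁ : Divisor.degree (cd P₁ Z₁ cb) = d₁ + a' * p₁ := by
      rw [hcb, cd_add, map_add, cd_fst, map_nsmul, nsmul_eq_mul]
    have hdeg_b₂ : Divisor.degree (cd P₂ Z₂ cb) = d₂ + a' * p₂ := by
      rw [hcb, cd_add, map_add, cd_fst, map_nsmul, nsmul_eq_mul]
    have hdeg_c₁ : Divisor.degree (cd P₁ Z₁ cc) = d₁ + a' * p₁ + a'' * p₁ := by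
      rw [← hcab, cd_add, map_add, hdeg_b₁, hdeg_a₁]
    have hdeg_c₂ : Divisor.degree (cd P₂ Z₂ cc) = d₂ + a' * p₂ + a'' * p₂ := by
      rw [← hcab, cd_add, map_add, hdeg_b₂, hdeg_a₂]
    have hdeg_cE : Divisor.degree (cd E1 E2 cc) = dE + a' * pE + a'' * pE := by
      rw [← hcab, cd_add, map_add, hcb, cd_add, map_add, cd_fst, map_nsmul, nsmul_eq_mul,
        hca, cd_fst, map_nsmul, nsmul_eq_mul]
    have hdegQ : Divisor.degree (Finsupp.single Q (1 : ℤ)) = 1 := degree_single_one h₁ Q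
    have hdegnQ : ∀ m : ℕ, Divisor.degree (m • Finsupp.single Q (1 : ℤ)) = m := by
      intro m
      rw [map_nsmul, hdegQ]
      simp
    have hnode₁ : ∀ (m : ℕ × ℕ) (i : ι), cd P₁ Z₁ m (e₁ i) = 0 :=
      fun m i => cd_apply_eq_zero (S.hP₁ i) (S.hZ₁ i) m
    have hnode₂ : ∀ (m : ℕ × ℕ) (i : ι), cd P₂ Z₂ m (e₂ i) = 0 :=
      fun m i => cd_apply_eq_zero (S.hP₂ i) (S.hZ₂ i) m
    have hQnode : ∀ (m : ℕ) (i : ι), (m • Finsupp.single Q (1 : ℤ) : Divisor k F₁) (e₁ i) = 0 := by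
      intro m i
      rw [Finsupp.smul_apply, Finsupp.single_apply, if_neg (fun h => hQ i h.symm), smul_zero]
    -- (Mul)
    have hmul := hcm (cd P₁ Z₁ cb - b • Finsupp.single Q (1 : ℤ))
      (cd P₁ Z₁ ca - 1 • Finsupp.single Q (1 : ℤ)) (cd P₂ Z₂ cb) (cd P₂ Z₂ ca)
      (by rw [map_sub, hdeg_b₁, hdegnQ]; linarith)
      (by rw [map_sub, hdeg_a₁, hdegnQ]; push_cast; linarith)
      (by rw [hdeg_b₂]; linarith)
      (by rw [hdeg_a₂]; linarith)
      (fun i => by rw [Finsupp.sub_apply, hnode₁, hQnode, sub_zero])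
      (fun i => hnode₂ _ i)
      (fun i => by rw [Finsupp.sub_apply, hnode₁, hQnode, sub_zero])
      (fun i => hnode₂ _ i)
    have hsum₁ : cd P₁ Z₁ cb - b • Finsupp.single Q (1 : ℤ)
        + (cd P₁ Z₁ ca - 1 • Finsupp.single Q (1 : ℤ))
        = cd P₁ Z₁ cc - (b + 1) • Finsupp.single Q (1 : ℤ) := by
      rw [← hcab, cd_add P₁ Z₁ cb ca, add_smul]
      abel
    have hsum₂ : cd P₂ Z₂ cb + cd P₂ Z₂ ca = cd P₂ Z₂ cc := by
      rw [← hcab, cd_add P₂ Z₂ cb ca]
    rw [hsum₁, hsum₂] at hmul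
    -- the lattice
    set DB : Divisor L F := cd E1 E2 cc - B with hDB
    set X := redSub S.hOA red π S.hπ S.hconst (riemannRochSpace DB) with hX
    set G := gluedSpace e₁ e₂ (fun _ => (1 : k))
      (cd P₁ Z₁ cc - (b + 1) • Finsupp.single Q (1 : ℤ)) (cd P₂ Z₂ cc) with hG
    have hle : G ≤ X := by
      rw [← hmul, Submodule.mul_le]
      intro s hs s' hs'
      obtain ⟨y, hy, rfl⟩ := (ha₀' a' ha'1 s).2 hs
      rw [one_smul] at hs'
      obtain ⟨y', hy', rfl⟩ := (hPred.iff S hF hQP hQZ hcaN s').2 hs'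
      refine ⟨y * y', ?_, map_mul _ _ _⟩
      have h := mul_mem_L_add hy hy'
      have e : cd E1 E2 (n₀ + (a', 0)) - B' + (cd E1 E2 ca - Finsupp.single P (1 : ℤ)) = DB := by
        rw [hDB, ← hcab, cd_add E1 E2 cb ca, hB', hcb]
        abel
      rw [e] at h
      exact h
    -- dimensions
    have hfX : Module.finrank k X = Module.finrank L (riemannRochSpace DB) :=
      (S.hlat DB).finrank_redSub S.hOA red π S.hπ S.hπker S.hconst S.hker
    have hdegDB : Divisor.degree DB = dE + a' * pE + a'' * pE - (b + 1) := by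
      rw [hDB, map_sub, hdeg_cE, hdeg]
      push_cast
      ring
    have hfDB := (hcF DB (by rw [hdegDB]; linarith)).2
    have hfE := (hcF (cd E1 E2 cc) (by rw [hdeg_cE]; linarith)).2
    have hfG0 : Module.finrank k (gluedSpace e₁ e₂ (fun _ => (1 : k)) (cd P₁ Z₁ cc)
        (cd P₂ Z₂ cc)) = Module.finrank L (riemannRochSpace (cd E1 E2 cc)) := by
      rw [← S.redSub_eq hccN]
      exact (S.hlat _).finrank_redSub S.hOA red π S.hπ S.hπker S.hconst S.hker
    have hgl := hcg (fun _ => (1 : k)) (cd P₁ Z₁ cc) (cd P₂ Z₂ cc)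
      (by rw [hdeg_c₁]; linarith) (by rw [hdeg_c₂]; linarith)
      (fun i => (hnode₁ _ i).le) (fun i => hnode₂ _ i)
    have hgl2 := hcg (fun _ => (1 : k)) (cd P₁ Z₁ cc - (b + 1) • Finsupp.single Q (1 : ℤ))
      (cd P₂ Z₂ cc)
      (by rw [map_sub, hdegnQ, hdeg_c₁]; push_cast; linarith)
      (by rw [hdeg_c₂]; linarith)
      (fun i => by rw [Finsupp.sub_apply, hnode₁, hQnode, sub_zero])
      (fun i => hnode₂ _ i)
    have hfeq : Module.finrank k G = Module.finrank k X := by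
      have h1 : (Module.finrank k G : ℤ) = (Module.finrank k X : ℤ) := by
        rw [hfX, hfDB, hdegDB, hG, hgl2, map_sub, hdegnQ]
        have h2 : (Module.finrank k
            (gluedSpace e₁ e₂ (fun _ => (1 : k)) (cd P₁ Z₁ cc) (cd P₂ Z₂ cc)) : ℤ)
            = (Module.finrank L (riemannRochSpace (cd E1 E2 cc)) : ℤ) := by
          exact_mod_cast hfG0
        rw [hgl, hfE, hdeg_cE] at h2
        push_cast
        linarith
      exact_mod_cast h1
    haveI : Module.Finite k X := S.finite_redSub _ (S.hlat _)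
    have heq : G = X := Submodule.eq_of_le_of_finrank_eq hle hfeq
    rw [heq, hX, mem_redSub]

/-- A function of `L(chart - B) ∩ O` (`B` effective of degree `b`, supported in the disc of `Q`)
reduces to a function vanishing to order `b` at `Q`. -/
theorem adicValuation_red_le_of_mem (S : Setup A O red π e₁ e₂ P₁ Z₁ P₂ Z₂ E1 E2 N₀) {x : F}
    (hF : IsFF1 L F x) {x₁ : F₁} {x₂ : F₂} (h₁ : IsFF1 k F₁ x₁) (h₂ : IsFF1 k F₂ x₂)
    [Infinite k] {Q : Place k F₁} (hQ : ∀ i, e₁ i ≠ Q) (hQP : P₁ Q = 0) (hQZ : Z₁ Q = 0)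
    (b : ℕ) (B : Divisor L F) (hB0 : ∀ v, 0 ≤ B v)
    (hBred : ∀ P, B P ≠ 0 → RedTo red E1 E2 N₀ Q P) (hdeg : Divisor.degree B = b)
    (n : ℕ × ℕ) (y : O) (hy : (y : F) ∈ riemannRochSpace (cd E1 E2 n - B)) :
    Q.adicValuation (red y).1 ≤ exp (-(b : ℤ)) := by
  obtain ⟨a₀, ha₀⟩ := exists_red_sub_points S hF h₁ h₂ hQ hQP hQZ b B hB0 hBred hdeg n
  have hy' : (y : F) ∈ riemannRochSpace (cd E1 E2 (n + (a₀, 0)) - B) := by
    refine L_mono (fun v => ?_) hy
    rw [Finsupp.sub_apply, Finsupp.sub_apply]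
    have := cd_le_add S.hE1 S.hE2 n (a₀, 0) v
    omega
  have h := (ha₀ a₀ le_rfl (red y)).1 ⟨y, hy', rfl⟩
  exact ((mem_glued_sub_nsmul_iff (cd_apply_eq_zero hQP hQZ _) b).1 h).2

/-! ### Clearing sections -/

/-- For every place `P` of the generic fibre there is a chart section vanishing at `P` whose
first reduction has a simple zero at `Q` if `P` is in the disc of `Q`, and is a unit at `Q`
otherwise. -/
theorem exists_section (S : Setup A O red π e₁ e₂ P₁ Z₁ P₂ Z₂ E1 E2 N₀) {x : F}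
    (hF : IsFF1 L F x) {x₁ : F₁} {x₂ : F₂} (h₁ : IsFF1 k F₁ x₁) (h₂ : IsFF1 k F₂ x₂)
    {Q : Place k F₁} (hQ : ∀ i, e₁ i ≠ Q) (hQP : P₁ Q = 0) (hQZ : Z₁ Q = 0)
    (P : Place L F) :
    ∃ (m : ℕ × ℕ) (y : O),
      (y : F) ∈ riemannRochSpace (cd E1 E2 m - Finsupp.single P (1 : ℤ)) ∧
      (RedTo red E1 E2 N₀ Q P → Q.adicValuation (red y).1 = exp (-1 : ℤ)) ∧
      (¬ RedTo red E1 E2 N₀ Q P → Q.adicValuation (red y).1 = 1) := by
  classical
  by_cases hP : RedTo red E1 E2 N₀ Q P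
  · obtain ⟨n₀, hn₀⟩ := exists_simple_zero h₁ h₂ S.hinj₁ S.hinj₂ S.hP₁ S.hP₂ S.hdegP₁ S.hdegP₂
      hQ hQP
    obtain ⟨t, ht, hν, -⟩ := hn₀ (max n₀ N₀) (le_max_left _ _)
    have hN : N₀ ≤ ((max n₀ N₀, 0) : ℕ × ℕ).1 + ((max n₀ N₀, 0) : ℕ × ℕ).2 := by simp
    have ht' : t ∈ gluedSpace e₁ e₂ (fun _ => (1 : k))
        (cd P₁ Z₁ (max n₀ N₀, 0) - Finsupp.single Q (1 : ℤ)) (cd P₂ Z₂ (max n₀ N₀, 0)) := by
      refine (mem_glued_sub_single_iff (cd_apply_eq_zero hQP hQZ _)).2 ⟨?_, hν.le⟩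
      rwa [cd_fst, cd_fst]
    obtain ⟨y, hy, rfl⟩ := (hP.iff S hF hQP hQZ hN t).2 ht'
    exact ⟨(max n₀ N₀, 0), y, hy, fun _ => hν, fun h => absurd hP h⟩
  · have h := hP
    unfold RedTo at h
    push Not at h
    obtain ⟨m, hm, y, hy, hlt⟩ := h
    refine ⟨m, y, hy, fun h' => absurd h' hP, fun _ => ?_⟩
    have h1 := (mem_gluedSpace.1 (S.red_mem hm (L_sub_single_le _ _ hy))).1 Q
    rw [cd_apply_eq_zero hQP hQZ m] at h1
    have h2 := eq_exp_of_le_of_not_le h1 (by simpa using not_le.2 hlt)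
    rw [h2, exp_zero]

/-! ### (SM2): the inequality -/

/-- **(SM2)**  For `f ∈ O` with nonzero first reduction, the order of `(red f)₁` at `Q` is at
least the number of zeros minus the number of poles of `f` in the disc of `Q`.  There is no
hypothesis on the zeros and poles of `f` outside the disc. -/
theorem adicValuation_red_le (S : Setup A O red π e₁ e₂ P₁ Z₁ P₂ Z₂ E1 E2 N₀) {x : F}
    (hF : IsFF1 L F x) {x₁ : F₁} {x₂ : F₂} (h₁ : IsFF1 k F₁ x₁) (h₂ : IsFF1 k F₂ x₂)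
    [Infinite k] {Q : Place k F₁} (hQ : ∀ i, e₁ i ≠ Q) (hQP : P₁ Q = 0) (hQZ : Z₁ Q = 0)
    (f : O) (hf1 : (red f).1 ≠ 0) (D : Divisor L F) (hD : ∀ P, D P = P.ord (f : F))
    (T : Finset (Place L F)) (hT : ∀ P, P ∈ T ↔ D P ≠ 0 ∧ RedTo red E1 E2 N₀ Q P) :
    Q.adicValuation (red f).1 ≤ exp (-(∑ P ∈ T, D P)) := by
  classical
  have hf0 : (f : F) ≠ 0 := by
    intro h0
    apply hf1
    have hf : f = 0 := Subtype.ext h0
    rw [hf, map_zero]
    rfl
  choose nn yy hyL hy1 hy2 using fun P => exists_section S hF h₁ h₂ hQ hQP hQZ P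
  -- the poles of `f`
  set Sm : Finset (Place L F) := D.support.filter (fun P => D P < 0) with hSm
  set mm : Place L F → ℕ := fun P => (-D P).toNat with hmm
  have hmmS : ∀ P, D P < 0 → (mm P : ℤ) = -D P := by
    intro P hP
    rw [hmm]
    exact Int.toNat_of_nonneg (by omega)
  have hmemSm : ∀ P, P ∈ Sm ↔ D P < 0 := by
    intro P
    rw [hSm, Finset.mem_filter, Finsupp.mem_support_iff]
    exact ⟨fun h => h.2, fun h => ⟨ne_of_lt h, h⟩⟩
  -- the zeros of `f` in the disc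
  set cz : Place L F → ℤ := fun P => if 0 < D P ∧ RedTo red E1 E2 N₀ Q P then D P else 0
    with hcz
  have hcz0 : ∀ P, 0 ≤ cz P := by
    intro P
    rw [hcz]
    dsimp only
    split_ifs with h
    · exact h.1.le
    · exact le_rfl
  set B : Divisor L F := ∑ P ∈ D.support, Finsupp.single P (cz P) with hB
  have hBv : ∀ v, B v = cz v := by
    intro v
    rw [hB, Finsupp.finsetSum_apply]
    simp only [Finsupp.single_apply]
    rw [Finset.sum_ite_eq' D.support v]
    split_ifs with h1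
    · rfl
    · rw [Finsupp.notMem_support_iff] at h1
      rw [hcz]
      dsimp only
      rw [if_neg (fun h => by omega)]
  set aI : ℤ := ∑ P ∈ D.support, cz P with haI
  have haI0 : 0 ≤ aI := Finset.sum_nonneg (fun P _ => hcz0 P)
  have hdegB : Divisor.degree B = ((aI.toNat : ℕ) : ℤ) := by
    rw [hB, map_sum, Int.toNat_of_nonneg haI0, haI]
    refine Finset.sum_congr rfl (fun P _ => ?_)
    rw [Divisor.degree_single, hF.deg_eq_one]
    simp
  have hB0 : ∀ v, 0 ≤ B v := fun v => by rw [hBv]; exact hcz0 v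
  have hBred : ∀ P, B P ≠ 0 → RedTo red E1 E2 N₀ Q P := by
    intro P hP
    rw [hBv, hcz] at hP
    dsimp only at hP
    by_contra hcon
    exact hP (if_neg (fun h => hcon h.2))
  -- the product
  set ψ : O := ∏ P ∈ Sm, yy P ^ mm P with hψ
  set ntot : ℕ × ℕ := ∑ P ∈ Sm, mm P • nn P with hntot
  have hψF : (ψ : F) = ∏ P ∈ Sm, (yy P : F) ^ mm P := by
    rw [hψ]
    push_cast
    rfl
  have hψL : (ψ : F) ∈ riemannRochSpace
      (∑ P ∈ Sm, mm P • (cd E1 E2 (nn P) - Finsupp.single P (1 : ℤ))) := by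
    rw [hψF]
    exact prod_mem_L_sum Sm _ _ (fun P _ => pow_mem_L_nsmul (hyL P) (mm P))
  have hfL : (f : F) ∈ riemannRochSpace (-D) := by
    intro v
    rw [v.adicValuation_eq_exp_neg_ord hf0, Finsupp.neg_apply, hD v]
  have hφL : ((f * ψ : O) : F) ∈ riemannRochSpace (cd E1 E2 ntot - B) := by
    have h0 : ((f * ψ : O) : F) = (f : F) * (ψ : F) := rfl
    rw [h0]
    refine L_mono (fun v => ?_) (mul_mem_L_add hfL hψL)
    have e1 : (∑ P ∈ Sm, mm P • (cd E1 E2 (nn P) - Finsupp.single P (1 : ℤ))) v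
        = (∑ P ∈ Sm, (mm P : ℤ) * cd E1 E2 (nn P) v) - (if v ∈ Sm then (mm v : ℤ) else 0) := by
      rw [Finsupp.finsetSum_apply]
      simp only [Finsupp.smul_apply, Finsupp.sub_apply, Finsupp.single_apply, nsmul_eq_mul,
        mul_sub]
      rw [Finset.sum_sub_distrib]
      congr 1
      simp only [mul_ite, mul_one, mul_zero]
      rw [Finset.sum_ite_eq' Sm v]
    have e2 : cd E1 E2 ntot v = ∑ P ∈ Sm, (mm P : ℤ) * cd E1 E2 (nn P) v := by
      rw [hntot, cd_sum, Finsupp.finsetSum_apply]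
      refine Finset.sum_congr rfl (fun P _ => ?_)
      rw [cd_nsmul, Finsupp.smul_apply, nsmul_eq_mul]
    have e3 : B v ≤ D v + (if v ∈ Sm then (mm v : ℤ) else 0) := by
      rw [hBv, hcz]
      dsimp only
      by_cases hv : v ∈ Sm
      · have hneg := (hmemSm v).1 hv
        rw [if_pos hv, hmmS v hneg, if_neg (fun h => by omega)]
        omega
      · have hnn : 0 ≤ D v := by
          by_contra hlt
          exact hv ((hmemSm v).2 (by omega))
        rw [if_neg hv]
        split_ifs <;> omega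
    rw [Finsupp.add_apply, Finsupp.neg_apply, e1, Finsupp.sub_apply, e2]
    linarith
  have hφ := adicValuation_red_le_of_mem S hF h₁ h₂ hQ hQP hQZ aI.toNat B hB0 hBred hdegB ntot
    (f * ψ) hφL
  rw [Int.toNat_of_nonneg haI0] at hφ
  -- the valuation of the reduction of `ψ`
  set bI : ℤ := ∑ P ∈ Sm, (if RedTo red E1 E2 N₀ Q P then (mm P : ℤ) else 0) with hbI
  have hψval : Q.adicValuation (red ψ).1 = exp (-bI) := by
    rw [hψ, map_prod, Prod.fst_prod, map_prod]
    have hterm : ∀ P ∈ Sm, Q.adicValuation ((red (yy P ^ mm P)).1)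
        = exp (-(if RedTo red E1 E2 N₀ Q P then (mm P : ℤ) else 0)) := by
      intro P _
      rw [map_pow, Prod.pow_fst, map_pow]
      by_cases h : RedTo red E1 E2 N₀ Q P
      · rw [hy1 P h, if_pos h, ← exp_nsmul]
        congr 1
        simp
      · rw [hy2 P h, if_neg h, one_pow, neg_zero, exp_zero]
    rw [Finset.prod_congr rfl hterm, prod_exp, hbI, Finset.sum_neg_distrib]
  have hval : Q.adicValuation (red f).1 * exp (-bI) ≤ exp (-aI) := by
    rw [← hψval, ← map_mul, ← Prod.fst_mul, ← map_mul]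
    exact hφ
  have hle : Q.adicValuation (red f).1 ≤ exp (-aI + bI) := by
    have e : Q.adicValuation (red f).1
        = Q.adicValuation (red f).1 * exp (-bI) * exp bI := by
      rw [mul_assoc, ← exp_add, neg_add_cancel, exp_zero, mul_one]
    rw [e, exp_add]
    exact mul_le_mul' hval le_rfl
  -- the sum over `T`
  have hTeq : T = D.support.filter (fun P => RedTo red E1 E2 N₀ Q P) := by
    ext P
    rw [hT, Finset.mem_filter, Finsupp.mem_support_iff]
  have hsum : ∑ P ∈ T, D P = aI - bI := by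
    rw [hTeq, Finset.sum_filter, haI, hbI, hSm, Finset.sum_filter, ← Finset.sum_sub_distrib]
    refine Finset.sum_congr rfl (fun P hP => ?_)
    have hne := Finsupp.mem_support_iff.1 hP
    rw [hcz]
    dsimp only
    by_cases hr : RedTo red E1 E2 N₀ Q P
    · rcases lt_or_gt_of_ne hne with hneg | hpos
      · rw [if_pos hr, if_neg (fun h => by omega), if_pos hneg, if_pos hr, hmmS P hneg]
        omega
      · rw [if_pos hr, if_pos ⟨hpos, hr⟩, if_neg (by omega)]
        omega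
    · rw [if_neg hr, if_neg (fun h => hr h.2)]
      split_ifs <;> simp
  rw [hsum]
  have e : -(aI - bI) = -aI + bI := by ring
  rw [e]
  exact hle

/-! ### (SM3): conservation of number -/

/-- **(SM3) Conservation of number.**  If `f f'` has no zeros or poles in the disc of `Q` and
its first reduction is a unit at `Q`, then the order of `(red f)₁` at `Q` is the number of zeros
minus the number of poles of `f` in the disc of `Q`. -/
theorem adicValuation_red_eq (S : Setup A O red π e₁ e₂ P₁ Z₁ P₂ Z₂ E1 E2 N₀) {x : F}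
    (hF : IsFF1 L F x) {x₁ : F₁} {x₂ : F₂} (h₁ : IsFF1 k F₁ x₁) (h₂ : IsFF1 k F₂ x₂)
    [Infinite k] {Q : Place k F₁} (hQ : ∀ i, e₁ i ≠ Q) (hQP : P₁ Q = 0) (hQZ : Z₁ Q = 0)
    (f f' : O) (hf1 : (red f).1 ≠ 0) (hf1' : (red f').1 ≠ 0)
    (hθQ : Q.adicValuation (red (f * f')).1 = 1)
    (hθ : ∀ P, RedTo red E1 E2 N₀ Q P → P.ord ((f : F) * (f' : F)) = 0)
    (D : Divisor L F) (hD : ∀ P, D P = P.ord (f : F))
    (T : Finset (Place L F)) (hT : ∀ P, P ∈ T ↔ D P ≠ 0 ∧ RedTo red E1 E2 N₀ Q P) :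
    Q.adicValuation (red f).1 = exp (-(∑ P ∈ T, D P)) := by
  classical
  have hf0 : (f : F) ≠ 0 := by
    intro h0
    apply hf1
    have hf : f = 0 := Subtype.ext h0
    rw [hf, map_zero]
    rfl
  have hf0' : (f' : F) ≠ 0 := by
    intro h0
    apply hf1'
    have hf : f' = 0 := Subtype.ext h0
    rw [hf, map_zero]
    rfl
  haveI := hF.hasPrincipalDivisors
  obtain ⟨D', hD', -⟩ := HasPrincipalDivisors.exists_divisor (K := L) (f' : F) hf0'
  have hdisc : ∀ P, RedTo red E1 E2 N₀ Q P → D' P = -D P := by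
    intro P hP
    have h := hθ P hP
    rw [P.ord_mul hf0 hf0'] at h
    rw [hD, hD']
    omega
  set T' : Finset (Place L F) := D'.support.filter (fun P => RedTo red E1 E2 N₀ Q P) with hT'def
  have hT' : ∀ P, P ∈ T' ↔ D' P ≠ 0 ∧ RedTo red E1 E2 N₀ Q P := by
    intro P
    rw [hT'def, Finset.mem_filter, Finsupp.mem_support_iff]
  have hTT' : T' = T := by
    ext P
    rw [hT', hT]
    constructor
    · rintro ⟨h1, h2⟩
      have := hdisc P h2
      exact ⟨by omega, h2⟩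
    · rintro ⟨h1, h2⟩
      have := hdisc P h2
      exact ⟨by omega, h2⟩
  have h1 := adicValuation_red_le S hF h₁ h₂ hQ hQP hQZ f hf1 D hD T hT
  have h2 := adicValuation_red_le S hF h₁ h₂ hQ hQP hQZ f' hf1' D' hD' T' hT'
  have hsum : ∑ P ∈ T', D' P = -∑ P ∈ T, D P := by
    rw [hTT', ← Finset.sum_neg_distrib]
    exact Finset.sum_congr rfl (fun P hP => hdisc P ((hT P).1 hP).2)
  rw [hsum, neg_neg] at h2
  have hprod : Q.adicValuation (red f).1 * Q.adicValuation (red f').1 = 1 := by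
    rw [← map_mul, ← Prod.fst_mul, ← map_mul]
    exact hθQ
  rw [Q.adicValuation_eq_exp_neg_ord hf1] at h1 hprod ⊢
  rw [Q.adicValuation_eq_exp_neg_ord hf1'] at h2 hprod
  rw [exp_le_exp] at h1 h2
  rw [← exp_add, ← exp_zero, exp_inj] at hprod
  rw [exp_inj]
  omega

/-- **(SM3), additive form.** -/
theorem ord_red_eq (S : Setup A O red π e₁ e₂ P₁ Z₁ P₂ Z₂ E1 E2 N₀) {x : F}
    (hF : IsFF1 L F x) {x₁ : F₁} {x₂ : F₂} (h₁ : IsFF1 k F₁ x₁) (h₂ : IsFF1 k F₂ x₂)
    [Infinite k] {Q : Place k F₁} (hQ : ∀ i, e₁ i ≠ Q) (hQP : P₁ Q = 0) (hQZ : Z₁ Q = 0)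
    (f f' : O) (hf1 : (red f).1 ≠ 0) (hf1' : (red f').1 ≠ 0)
    (hθQ : Q.adicValuation (red (f * f')).1 = 1)
    (hθ : ∀ P, RedTo red E1 E2 N₀ Q P → P.ord ((f : F) * (f' : F)) = 0)
    (D : Divisor L F) (hD : ∀ P, D P = P.ord (f : F))
    (T : Finset (Place L F)) (hT : ∀ P, P ∈ T ↔ D P ≠ 0 ∧ RedTo red E1 E2 N₀ Q P) :
    Q.ord (red f).1 = ∑ P ∈ T, D P := by
  have h := adicValuation_red_eq S hF h₁ h₂ hQ hQP hQZ f f' hf1 hf1' hθQ hθ D hD T hT
  rw [Q.adicValuation_eq_exp_neg_ord hf1, exp_inj, neg_inj] at h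
  exact h

/-! ### (SM4): divisibility -/

/-- **(SM4)**  If all the orders of `f` are divisible by `m` (a Kummer generator: `div f = m D`),
so is the order of `(red f)₁` at the smooth non-node point `Q`. -/
theorem dvd_ord_red (S : Setup A O red π e₁ e₂ P₁ Z₁ P₂ Z₂ E1 E2 N₀) {x : F}
    (hF : IsFF1 L F x) {x₁ : F₁} {x₂ : F₂} (h₁ : IsFF1 k F₁ x₁) (h₂ : IsFF1 k F₂ x₂)
    [Infinite k] {Q : Place k F₁} (hQ : ∀ i, e₁ i ≠ Q) (hQP : P₁ Q = 0) (hQZ : Z₁ Q = 0)
    (f f' : O) (hf1 : (red f).1 ≠ 0) (hf1' : (red f').1 ≠ 0)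
    (hθQ : Q.adicValuation (red (f * f')).1 = 1)
    (hθ : ∀ P, RedTo red E1 E2 N₀ Q P → P.ord ((f : F) * (f' : F)) = 0)
    (m : ℤ) (hm : ∀ P : Place L F, m ∣ P.ord (f : F)) :
    m ∣ Q.ord (red f).1 := by
  classical
  have hf0 : (f : F) ≠ 0 := by
    intro h0
    apply hf1
    have hf : f = 0 := Subtype.ext h0
    rw [hf, map_zero]
    rfl
  haveI := hF.hasPrincipalDivisors
  obtain ⟨D, hD, -⟩ := HasPrincipalDivisors.exists_divisor (K := L) (f : F) hf0
  have hT : ∀ P, P ∈ D.support.filter (fun P => RedTo red E1 E2 N₀ Q P) ↔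
      D P ≠ 0 ∧ RedTo red E1 E2 N₀ Q P := by
    intro P
    rw [Finset.mem_filter, Finsupp.mem_support_iff]
  rw [ord_red_eq S hF h₁ h₂ hQ hQP hQZ f f' hf1 hf1' hθQ hθ D hD _ hT]
  exact Finset.dvd_sum (fun P _ => by rw [hD]; exact hm P)

/-- **(SM4) for units of `O`.** -/
theorem dvd_ord_red_of_unit (S : Setup A O red π e₁ e₂ P₁ Z₁ P₂ Z₂ E1 E2 N₀) {x : F}
    (hF : IsFF1 L F x) {x₁ : F₁} {x₂ : F₂} (h₁ : IsFF1 k F₁ x₁) (h₂ : IsFF1 k F₂ x₂)
    [Infinite k] {Q : Place k F₁} (hQ : ∀ i, e₁ i ≠ Q) (hQP : P₁ Q = 0) (hQZ : Z₁ Q = 0)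
    (f g : O) (hfg : f * g = 1) (m : ℤ) (hm : ∀ P : Place L F, m ∣ P.ord (f : F)) :
    m ∣ Q.ord (red f).1 := by
  have hred : red f * red g = 1 := by rw [← map_mul, hfg, map_one]
  have h1 : (red f).1 * (red g).1 = 1 := by
    have := congrArg Prod.fst hred
    simpa using this
  have hf1 : (red f).1 ≠ 0 := left_ne_zero_of_mul_eq_one h1
  have hg1 : (red g).1 ≠ 0 := right_ne_zero_of_mul_eq_one h1
  refine dvd_ord_red S hF h₁ h₂ hQ hQP hQZ f g hf1 hg1 ?_ (fun P _ => ?_) m hm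
  · rw [hfg, map_one, Prod.fst_one, map_one]
  · have e : (f : F) * (g : F) = 1 := by
      have := congrArg (Subtype.val) hfg
      simpa using this
    rw [e, Place.ord_one]

/-- **Conservation of number for units of `O`.** -/
theorem ord_red_eq_of_unit (S : Setup A O red π e₁ e₂ P₁ Z₁ P₂ Z₂ E1 E2 N₀) {x : F}
    (hF : IsFF1 L F x) {x₁ : F₁} {x₂ : F₂} (h₁ : IsFF1 k F₁ x₁) (h₂ : IsFF1 k F₂ x₂)
    [Infinite k] {Q : Place k F₁} (hQ : ∀ i, e₁ i ≠ Q) (hQP : P₁ Q = 0) (hQZ : Z₁ Q = 0)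
    (f g : O) (hfg : f * g = 1) (D : Divisor L F) (hD : ∀ P, D P = P.ord (f : F))
    (T : Finset (Place L F)) (hT : ∀ P, P ∈ T ↔ D P ≠ 0 ∧ RedTo red E1 E2 N₀ Q P) :
    Q.ord (red f).1 = ∑ P ∈ T, D P := by
  have hred : red f * red g = 1 := by rw [← map_mul, hfg, map_one]
  have h1 : (red f).1 * (red g).1 = 1 := by
    have := congrArg Prod.fst hred
    simpa using this
  have hf1 : (red f).1 ≠ 0 := left_ne_zero_of_mul_eq_one h1
  have hg1 : (red g).1 ≠ 0 := right_ne_zero_of_mul_eq_one h1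
  refine ord_red_eq S hF h₁ h₂ hQ hQP hQZ f g hf1 hg1 ?_ (fun P _ => ?_) D hD T hT
  · rw [hfg, map_one, Prod.fst_one, map_one]
  · have e : (f : F) * (g : F) = 1 := by
      have := congrArg (Subtype.val) hfg
      simpa using this
    rw [e, Place.ord_one]

end Two

end Fermat.Agent.BAD.SmoothOrd
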