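/-
TR brick (SM), continued: conservation of number in the residue discs of the smooth non-node
points for ONE-SIDED units (functions which are units for the valuation of one component only).

Setting of `BAD/SmoothOrd.lean` (`SmoothLift.Setup`), plus a subring `Oi ⊇ O` of `F` (the
valuation ring of the first component) with a residue map `redi : Oi → F₁` extending the first
component of `red`, and the rank-one property `hpow`: for `β ∈ O` vanishing identically on the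
second component and `g ∈ Oi`, some `β ^ N * g` lies in `O`.

* `dvd_ord_red_of_disc` : (SM4) with the divisibility hypothesis on the disc only;
* `exists_unit_section` : a chart section with reduction `(a, 0)`, `a` a unit at `Q`;
* `ord_eq_zero_of_section` : a chart section whose first reduction is a unit at `Q` has neither
  zeros nor poles in the disc of `Q`;
* `ord_redi_eq` : for a unit `f` of `Oi`, `ord_Q (redi f) = ∑_{P in the disc of Q} ord_P f`;
* `dvd_ord_redi` : if `m ∣ ord_P f` on the disc, then `m ∣ ord_Q (redi f)`.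
-/
import Mathlib
import Fermat.Agent.BAD.SmoothOrd

set_option autoImplicit false
set_option linter.style.haveILetI false
set_option linter.unusedSectionVars false

noncomputable section

namespace Fermat.Agent.BAD.SmoothOrd

open AlgebraicCurve WithZero Fermat.Agent.Lib.FF Fermat.Agent.Lib.Red.Deform
  Fermat.Agent.Lib.Red.CoordLat Fermat.Agent.BAD.NodalRiemann
  Fermat.Agent.Padic.S33.RC.NodalMul Fermat.Agent.Lib.FF.BasePoint Fermat.Agent.BAD.SmoothLift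

section Two

variable {L F : Type*} [Field L] [Field F] [Algebra L F]
variable {A : ValuationSubring L} {O : Subring F}
variable {k F₁ F₂ : Type*} [Field k] [Field F₁] [Field F₂] [Algebra k F₁] [Algebra k F₂]
variable {ι : Type*} [Fintype ι]
variable {red : O →+* F₁ × F₂} {π : A →+* k} {e₁ : ι → Place k F₁} {e₂ : ι → Place k F₂}
  {P₁ Z₁ : Divisor k F₁} {P₂ Z₂ : Divisor k F₂} {E1 E2 : Divisor L F} {N₀ : ℕ}

/-- **(SM4)**, with the divisibility hypothesis on the disc of `Q` only. -/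
theorem dvd_ord_red_of_disc (S : Setup A O red π e₁ e₂ P₁ Z₁ P₂ Z₂ E1 E2 N₀) {x : F}
    (hF : IsFF1 L F x) {x₁ : F₁} {x₂ : F₂} (h₁ : IsFF1 k F₁ x₁) (h₂ : IsFF1 k F₂ x₂)
    [Infinite k] {Q : Place k F₁} (hQ : ∀ i, e₁ i ≠ Q) (hQP : P₁ Q = 0) (hQZ : Z₁ Q = 0)
    (f f' : O) (hf1 : (red f).1 ≠ 0) (hf1' : (red f').1 ≠ 0)
    (hθQ : Q.adicValuation (red (f * f')).1 = 1)
    (hθ : ∀ P, RedTo red E1 E2 N₀ Q P → P.ord ((f : F) * (f' : F)) = 0)
    (m : ℤ) (hm : ∀ P : Place L F, RedTo red E1 E2 N₀ Q P → m ∣ P.ord (f : F)) :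
    m ∣ Q.ord (red f).1 := by
  classical
  have hf0 : (f : F) ≠ 0 := by
    intro h0
    apply hf1
    have hf : f = 0 := Subtype.ext h0
    rw [hf, map_zero]
    rfl
  haveI := hF.hasPrincipalDivisors
  obtain ⟨D, hD, -⟩ := HasPrincipalDivisors.exists_divisor (K := L) (f : F) hf0
  have hT : ∀ P, P ∈ D.support.filter (fun P => RedTo red E1 E2 N₀ Q P) ↔
      D P ≠ 0 ∧ RedTo red E1 E2 N₀ Q P := by
    intro P
    rw [Finset.mem_filter, Finsupp.mem_support_iff]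
  rw [ord_red_eq S hF h₁ h₂ hQ hQP hQZ f f' hf1 hf1' hθQ hθ D hD _ hT]
  exact Finset.dvd_sum (fun P hP => by rw [hD]; exact hm P ((hT P).1 hP).2)

/-- A chart section with reduction `(a, 0)`, `a` a unit at `Q`. -/
theorem exists_unit_section (S : Setup A O red π e₁ e₂ P₁ Z₁ P₂ Z₂ E1 E2 N₀)
    {x₁ : F₁} (h₁ : IsFF1 k F₁ x₁)
    {Q : Place k F₁} (hQ : ∀ i, e₁ i ≠ Q) (hQP : P₁ Q = 0) :
    ∃ (n : ℕ) (β : O), N₀ ≤ n ∧ (β : F) ∈ riemannRochSpace (cd E1 E2 (n, 0)) ∧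
      (red β).2 = 0 ∧ Q.adicValuation (red β).1 = 1 := by
  classical
  obtain ⟨c₁, hc₁⟩ := h₁.exists_degree_bound
  have hp₁ := S.hdegP₁
  set n : ℕ := N₀ + (c₁ + 1 + Fintype.card ι).toNat with hn
  have hn1 : c₁ + 1 + Fintype.card ι ≤ (n : ℤ) := by
    have h1 := Int.self_le_toNat (c₁ + 1 + Fintype.card ι)
    rw [hn]
    push_cast
    have : (0 : ℤ) ≤ (N₀ : ℤ) := Int.natCast_nonneg _
    linarith
  have hn0 : (0 : ℤ) ≤ (n : ℤ) := Int.natCast_nonneg _
  have hnp₁ : (n : ℤ) ≤ n * Divisor.degree P₁ := le_mul_of_one_le_right hn0 (by omega)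
  have hnQ : (n • P₁) Q = 0 := by
    rw [Finsupp.smul_apply, hQP, smul_zero]
  have hQnode : ∀ i, (Finsupp.single Q (1 : ℤ) : Divisor k F₁) (e₁ i) = 0 := by
    intro i
    rw [Finsupp.single_apply, if_neg (fun h => hQ i h.symm)]
  have hB0 : ∀ i, (n • P₁) (e₁ i) = 0 := by
    intro i
    rw [Finsupp.smul_apply, S.hP₁, smul_zero]
  have hB : ∀ i, (n • P₁ - Finsupp.single Q (1 : ℤ)) (e₁ i) = 0 := by
    intro i
    rw [Finsupp.sub_apply, Finsupp.smul_apply, S.hP₁, hQnode, smul_zero, sub_zero]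
  have hdegQ : Divisor.degree (Finsupp.single Q (1 : ℤ)) = 1 := degree_single_one h₁ Q
  set D1 : Divisor k F₁ := n • P₁ - nodeDiv e₁ with hD1
  set D2 : Divisor k F₁ := n • P₁ - Finsupp.single Q (1 : ℤ) - nodeDiv e₁ with hD2
  have hdegD1 : Divisor.degree D1 = n * Divisor.degree P₁ - Fintype.card ι := by
    rw [hD1, degree_sub_nodeDiv h₁, map_nsmul, nsmul_eq_mul]
  have hdegD2 : Divisor.degree D2 = n * Divisor.degree P₁ - 1 - Fintype.card ι := by
    rw [hD2, degree_sub_nodeDiv h₁, map_sub, map_nsmul, hdegQ, nsmul_eq_mul]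
  have hf1 := (hc₁ D1 (by rw [hdegD1]; linarith)).2
  have hf2 := (hc₁ D2 (by rw [hdegD2]; linarith)).2
  have hex : ∃ a ∈ riemannRochSpace D1, a ∉ riemannRochSpace D2 := by
    by_contra hall
    push Not at hall
    have hle : riemannRochSpace D1 ≤ riemannRochSpace D2 := hall
    haveI := h₁.finite_L D2
    have h3 := Submodule.finrank_mono hle
    have h4 : (Module.finrank k (riemannRochSpace D1) : ℤ)
        ≤ Module.finrank k (riemannRochSpace D2) := by exact_mod_cast h3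
    rw [hf1, hf2, hdegD1, hdegD2] at h4
    linarith
  obtain ⟨a, haD1, haD2⟩ := hex
  obtain ⟨haL, hacong⟩ := (mem_L_sub_nodeDiv_iff S.hinj₁ hB0).1 haD1
  have haν : ¬ Q.adicValuation a ≤ exp (-1 : ℤ) := by
    intro h
    apply haD2
    refine (mem_L_sub_nodeDiv_iff S.hinj₁ hB).2 ⟨?_, hacong⟩
    exact (mem_L_sub_single_iff hnQ).2 ⟨haL, h⟩
  have haQ : Q.adicValuation a ≤ exp (0 : ℤ) := by
    have := haL Q
    rwa [hnQ] at this
  have haν1 : Q.adicValuation a = 1 := by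
    rw [eq_exp_of_le_of_not_le haQ (by simpa using haν), exp_zero]
  have hmem : ((a, 0) : F₁ × F₂) ∈ gluedSpace e₁ e₂ (fun _ => (1 : k)) (cd P₁ Z₁ (n, 0))
      (cd P₂ Z₂ (n, 0)) := by
    rw [cd_fst, cd_fst]
    exact mk_zero_mem_gluedSpace haL hacong
  have hN : N₀ ≤ ((n, 0) : ℕ × ℕ).1 + ((n, 0) : ℕ × ℕ).2 := by
    simp only [add_zero]
    omega
  obtain ⟨β, hβL, hβ⟩ := (S.hS2 (n, 0) hN _).2 hmem
  refine ⟨n, β, by omega, hβL, ?_, ?_⟩
  · rw [hβ]
  · rw [hβ]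
    exact haν1

/-- A chart section whose first reduction is a unit at `Q` has neither zeros nor poles in the
disc of `Q`. -/
theorem ord_eq_zero_of_section (S : Setup A O red π e₁ e₂ P₁ Z₁ P₂ Z₂ E1 E2 N₀)
    {Q : Place k F₁} {n : ℕ × ℕ} (hn : N₀ ≤ n.1 + n.2) (β : O)
    (hβL : (β : F) ∈ riemannRochSpace (cd E1 E2 n))
    (hβQ : Q.adicValuation (red β).1 = 1) {P : Place L F} (hP : RedTo red E1 E2 N₀ Q P) :
    P.ord (β : F) = 0 := by
  classical
  have hβ0 : (β : F) ≠ 0 := by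
    intro h0
    have hβ : β = 0 := Subtype.ext h0
    rw [hβ, map_zero, Prod.fst_zero, map_zero] at hβQ
    exact zero_ne_one hβQ
  obtain ⟨hE1P, hE2P⟩ := hP.apply_eq_zero S
  have h1 := hβL P
  rw [cd_apply_eq_zero hE1P hE2P, P.adicValuation_eq_exp_neg_ord hβ0, exp_le_exp] at h1
  by_contra hne
  have hpos : 0 < P.ord (β : F) := by omega
  have hmem : (β : F) ∈ riemannRochSpace (cd E1 E2 n - Finsupp.single P (1 : ℤ)) := by
    intro v
    rw [Finsupp.sub_apply, Finsupp.single_apply]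
    by_cases hv : P = v
    · subst hv
      rw [if_pos rfl, cd_apply_eq_zero hE1P hE2P, P.adicValuation_eq_exp_neg_ord hβ0,
        exp_le_exp]
      omega
    · rw [if_neg hv, sub_zero]
      exact hβL v
  have h2 := hP n hn β hmem
  rw [hβQ, ← exp_zero, exp_le_exp] at h2
  omega

/-! ### One-sided units -/

section OneSided

variable (Oi : Subring F) (hOi : O ≤ Oi) (redi : Oi →+* F₁)
  (hredi : ∀ y : O, redi ⟨(y : F), hOi y.2⟩ = (red y).1)
  (hpow : ∀ β : O, (red β).2 = 0 → ∀ g : F, g ∈ Oi → ∃ N : ℕ, (β : F) ^ N * g ∈ O)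

include hredi hpow in
/-- **Conservation of number for one-sided units.**  For a unit `f` of the valuation ring `Oi`
of the first component, the order of `redi f` at the smooth non-node point `Q` is the number of
zeros minus the number of poles of `f` in the disc of `Q`. -/
theorem ord_redi_eq (S : Setup A O red π e₁ e₂ P₁ Z₁ P₂ Z₂ E1 E2 N₀) {x : F}
    (hF : IsFF1 L F x) {x₁ : F₁} {x₂ : F₂} (h₁ : IsFF1 k F₁ x₁) (h₂ : IsFF1 k F₂ x₂)
    [Infinite k] {Q : Place k F₁} (hQ : ∀ i, e₁ i ≠ Q) (hQP : P₁ Q = 0) (hQZ : Z₁ Q = 0)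
    (f : F) (hf : f ∈ Oi) (hfinv : f⁻¹ ∈ Oi) (hf0 : f ≠ 0)
    (D : Divisor L F) (hD : ∀ P, D P = P.ord f)
    (T : Finset (Place L F)) (hT : ∀ P, P ∈ T ↔ D P ≠ 0 ∧ RedTo red E1 E2 N₀ Q P) :
    Q.ord (redi ⟨f, hf⟩) = ∑ P ∈ T, D P := by
  classical
  obtain ⟨n, β, hnN, hβL, hβ2, hβQ⟩ := exists_unit_section S h₁ hQ hQP
  have hN : N₀ ≤ ((n, 0) : ℕ × ℕ).1 + ((n, 0) : ℕ × ℕ).2 := by
    simp only [add_zero]
    exact hnN
  have hβ0 : (β : F) ≠ 0 := by
    intro h0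
    have hβ : β = 0 := Subtype.ext h0
    rw [hβ, map_zero, Prod.fst_zero, map_zero] at hβQ
    exact zero_ne_one hβQ
  obtain ⟨N₁, hN₁⟩ := hpow β hβ2 f hf
  obtain ⟨N₂, hN₂⟩ := hpow β hβ2 f⁻¹ hfinv
  set N : ℕ := N₁ + N₂ with hNdef
  have hφO : (β : F) ^ N * f ∈ O := by
    have e : (β : F) ^ N * f = (β : F) ^ N₂ * ((β : F) ^ N₁ * f) := by
      rw [hNdef, pow_add]
      ring
    rw [e]
    exact O.mul_mem (O.pow_mem β.2 N₂) hN₁
  have hφO' : (β : F) ^ N * f⁻¹ ∈ O := by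
    have e : (β : F) ^ N * f⁻¹ = (β : F) ^ N₁ * ((β : F) ^ N₂ * f⁻¹) := by
      rw [hNdef, pow_add]
      ring
    rw [e]
    exact O.mul_mem (O.pow_mem β.2 N₁) hN₂
  set φ : O := ⟨(β : F) ^ N * f, hφO⟩ with hφ
  set φ' : O := ⟨(β : F) ^ N * f⁻¹, hφO'⟩ with hφ'
  -- the reductions
  have hβi : redi ⟨(β : F), hOi β.2⟩ = (red β).1 := hredi β
  have hfu : redi ⟨f, hf⟩ * redi ⟨f⁻¹, hfinv⟩ = 1 := by
    rw [← map_mul]
    have e : (⟨f, hf⟩ : Oi) * ⟨f⁻¹, hfinv⟩ = 1 := Subtype.ext (mul_inv_cancel₀ hf0)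
    rw [e, map_one]
  have hfi0 : redi ⟨f, hf⟩ ≠ 0 := left_ne_zero_of_mul_eq_one hfu
  have hfi0' : redi ⟨f⁻¹, hfinv⟩ ≠ 0 := right_ne_zero_of_mul_eq_one hfu
  have hβ10 : (red β).1 ≠ 0 := by
    intro h0
    rw [h0, map_zero] at hβQ
    exact zero_ne_one hβQ
  have hφred : (red φ).1 = (red β).1 ^ N * redi ⟨f, hf⟩ := by
    rw [← hredi φ, ← hβi, ← map_pow, ← map_mul]
    rfl
  have hφred' : (red φ').1 = (red β).1 ^ N * redi ⟨f⁻¹, hfinv⟩ := by
    rw [← hredi φ', ← hβi, ← map_pow, ← map_mul]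
    rfl
  have hφ1 : (red φ).1 ≠ 0 := by
    rw [hφred]
    exact mul_ne_zero (pow_ne_zero _ hβ10) hfi0
  have hφ1' : (red φ').1 ≠ 0 := by
    rw [hφred']
    exact mul_ne_zero (pow_ne_zero _ hβ10) hfi0'
  have hθQ : Q.adicValuation (red (φ * φ')).1 = 1 := by
    rw [map_mul, Prod.fst_mul, hφred, hφred', map_mul, map_mul, map_mul, map_pow, hβQ, one_pow,
      one_mul, one_mul, ← map_mul, hfu, map_one]
  have hβord : ∀ P, RedTo red E1 E2 N₀ Q P → P.ord (β : F) = 0 :=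
    fun P hP => ord_eq_zero_of_section S hN β hβL hβQ hP
  have hφord : ∀ P, RedTo red E1 E2 N₀ Q P → P.ord (φ : F) = P.ord f := by
    intro P hP
    show P.ord ((β : F) ^ N * f) = P.ord f
    rw [P.ord_mul (pow_ne_zero _ hβ0) hf0, ← zpow_natCast, Place.ord_zpow, hβord P hP]
    simp
  have hφord' : ∀ P, RedTo red E1 E2 N₀ Q P → P.ord (φ' : F) = -P.ord f := by
    intro P hP
    show P.ord ((β : F) ^ N * f⁻¹) = -P.ord f
    rw [P.ord_mul (pow_ne_zero _ hβ0) (inv_ne_zero hf0), ← zpow_natCast, Place.ord_zpow,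
      hβord P hP, Place.ord_inv]
    simp
  have hφ0 : (φ : F) ≠ 0 := mul_ne_zero (pow_ne_zero _ hβ0) hf0
  have hφ0' : (φ' : F) ≠ 0 := mul_ne_zero (pow_ne_zero _ hβ0) (inv_ne_zero hf0)
  have hθ : ∀ P, RedTo red E1 E2 N₀ Q P → P.ord ((φ : F) * (φ' : F)) = 0 := by
    intro P hP
    rw [P.ord_mul hφ0 hφ0', hφord P hP, hφord' P hP]
    ring
  haveI := hF.hasPrincipalDivisors
  obtain ⟨Dφ, hDφ, -⟩ := HasPrincipalDivisors.exists_divisor (K := L) (φ : F) hφ0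
  have hTφ : ∀ P, P ∈ T ↔ Dφ P ≠ 0 ∧ RedTo red E1 E2 N₀ Q P := by
    intro P
    rw [hT]
    constructor
    · rintro ⟨h1, h2⟩
      refine ⟨?_, h2⟩
      rw [hDφ, hφord P h2, ← hD]
      exact h1
    · rintro ⟨h1, h2⟩
      refine ⟨?_, h2⟩
      rw [hDφ, hφord P h2, ← hD] at h1
      exact h1
  have key := ord_red_eq S hF h₁ h₂ hQ hQP hQZ φ φ' hφ1 hφ1' hθQ hθ Dφ hDφ T hTφ
  have hsum : ∑ P ∈ T, Dφ P = ∑ P ∈ T, D P := by
    refine Finset.sum_congr rfl (fun P hP => ?_)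
    rw [hDφ, hφord P ((hT P).1 hP).2, hD]
  rw [hsum] at key
  rw [← key, hφred, Q.ord_mul (pow_ne_zero _ hβ10) hfi0, ← zpow_natCast, Place.ord_zpow]
  have hβordQ : Q.ord (red β).1 = 0 := by
    have h := Q.adicValuation_eq_exp_neg_ord hβ10
    rw [hβQ, ← exp_zero, exp_inj] at h
    omega
  rw [hβordQ]
  simp

include hredi hpow in
/-- **(B1) for one-sided units.**  If `f` is a unit of `Oi` whose orders at the places of the
disc of `Q` are divisible by `m`, then `m` divides the order of `redi f` at `Q`. -/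
theorem dvd_ord_redi (S : Setup A O red π e₁ e₂ P₁ Z₁ P₂ Z₂ E1 E2 N₀) {x : F}
    (hF : IsFF1 L F x) {x₁ : F₁} {x₂ : F₂} (h₁ : IsFF1 k F₁ x₁) (h₂ : IsFF1 k F₂ x₂)
    [Infinite k] {Q : Place k F₁} (hQ : ∀ i, e₁ i ≠ Q) (hQP : P₁ Q = 0) (hQZ : Z₁ Q = 0)
    (f : F) (hf : f ∈ Oi) (hfinv : f⁻¹ ∈ Oi) (hf0 : f ≠ 0)
    (m : ℤ) (hm : ∀ P : Place L F, RedTo red E1 E2 N₀ Q P → m ∣ P.ord f) :
    m ∣ Q.ord (redi ⟨f, hf⟩) := by
  classical
  haveI := hF.hasPrincipalDivisors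
  obtain ⟨D, hD, -⟩ := HasPrincipalDivisors.exists_divisor (K := L) f hf0
  have hT : ∀ P, P ∈ D.support.filter (fun P => RedTo red E1 E2 N₀ Q P) ↔
      D P ≠ 0 ∧ RedTo red E1 E2 N₀ Q P := by
    intro P
    rw [Finset.mem_filter, Finsupp.mem_support_iff]
  rw [ord_redi_eq Oi hOi redi hredi hpow S hF h₁ h₂ hQ hQP hQZ f hf hfinv hf0 D hD _ hT]
  exact Finset.dvd_sum (fun P hP => by rw [hD]; exact hm P ((hT P).1 hP).2)

end OneSided

end Two

end Fermat.Agent.BAD.SmoothOrd
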