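/-
TR brick (SM), modular instance: conservation of number in the residue discs of the smooth
non-node points of the nodal fibre of `X₀(Mq)`, for the two Gauss valuations separately.

Setting of `BAD/SmoothLiftInst.lean`: `h : BadSetup A π M q`, `O = OPair h W = O_∞ ∩ O_0`, a nodal
datum `(ι, e₁, e₂, P₁, Z₁, P₂, Z₂, E1, E2, N₀)` as in `KerRed.NodalFibreFor`.

* `exists_pow_mul_mem_OInf`, `exists_pow_mul_mem_OZero` : rank one — powers of a non-unit of a
  Gauss valuation ring absorb every function;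
* `ord_redInf_eq` : for a unit `f` of `O_∞` and a non-node point `Qt` of the first component off
  `P₁`, `Z₁`: `ord_Qt (red_∞ f) = ∑_{P in the disc of Qt} ord_P f`;
* `dvd_ord_redInf` : **(B1)** if `div f = m · D` then `m ∣ ord_Qt (red_∞ f)`;
* `ord_redZero_eq`, `dvd_ord_redZero` : the same for `O_0`, `red_0` and the second component.
-/
import Mathlib
import Fermat.Agent.BAD.SmoothOrdOne
import Fermat.Agent.BAD.SmoothLiftInst

set_option autoImplicit false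
set_option linter.style.haveILetI false
set_option linter.unusedSectionVars false

noncomputable section

namespace Fermat.Agent.BAD.SmoothOrdInst

open AlgebraicCurve ModularCurve WithZero Fermat.Agent.Lib.FF Fermat.Agent.Lib.Red.Deform
  Fermat.Agent.Lib.Red.CoordLat Fermat.Agent.BAD.NodalDiv Fermat.Agent.BAD.NodalRiemann
  Fermat.Agent.BAD.TwoVal Fermat.Agent.BAD.NodalAsm Fermat.Agent.BAD.BadU
  Fermat.Agent.BAD.SmoothLift Fermat.Agent.BAD.SmoothOrd Fermat.Agent.BAD.SmoothLiftInst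

local notation "Qb" => AlgebraicClosure ℚ

variable {A : ValuationSubring Qb} {k : Type} [Field k] {π : A →+* k} {M q : ℕ} [NeZero M]
  [NeZero q]

section RankOne

variable (h : BadSetup A π M q)
  (W : laurentBaseChange Qb (modularFunctionFieldFull (M * q)) ≃ₐ[Qb]
    laurentBaseChange Qb (modularFunctionFieldFull (M * q)))

/-- Rank one for `O_∞`: the powers of a non-unit of `O_∞` absorb every function. -/
theorem exists_pow_mul_mem_OInf
    (β : laurentBaseChange Qb (modularFunctionFieldFull (M * q))) (hβ : β ∈ OInf h)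
    (hβ0 : redInf h ⟨β, hβ⟩ = 0)
    (g : laurentBaseChange Qb (modularFunctionFieldFull (M * q))) :
    ∃ N : ℕ, β ^ N * g ∈ OInf h := by
  by_cases hg0 : g = 0
  · exact ⟨0, by rw [hg0, mul_zero]; exact (OInf h).zero_mem⟩
  by_cases hβz : β = 0
  · exact ⟨1, by rw [hβz, pow_one, zero_mul]; exact (OInf h).zero_mem⟩
  obtain ⟨c, hc0, hm, -⟩ := exists_scaling_OInf h g hg0
  obtain ⟨cβ, hcβ0, hmβ, hneβ⟩ := exists_scaling_OInf h β hβz
  have hinvβ := inv_mem_OInf h _ hmβ hneβ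
  have hcβ' : algebraMap Qb ↥(laurentBaseChange Qb (modularFunctionFieldFull (M * q))) cβ ≠ 0 :=
    (map_ne_zero _).2 hcβ0
  have hc' : algebraMap Qb ↥(laurentBaseChange Qb (modularFunctionFieldFull (M * q))) c ≠ 0 :=
    (map_ne_zero _).2 hc0
  have haF : algebraMap Qb ↥(laurentBaseChange Qb (modularFunctionFieldFull (M * q))) cβ⁻¹
      = β * (algebraMap Qb _ cβ * β)⁻¹ := by
    rw [map_inv₀]
    field_simp
  have haO : algebraMap Qb ↥(laurentBaseChange Qb (modularFunctionFieldFull (M * q))) cβ⁻¹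
      ∈ OInf h := by
    rw [haF]
    exact (OInf h).mul_mem _ _ hβ hinvβ
  have haA : cβ⁻¹ ∈ A := (algebraMap_mem_OInf_iff h cβ⁻¹).1 haO
  have hav : A.valuation cβ⁻¹ < 1 := by
    refine lt_of_le_of_ne ((A.valuation_le_one_iff _).2 haA) (fun h1 => ?_)
    have hcβA : cβ ∈ A := by
      rw [← A.valuation_le_one_iff]
      rw [map_inv₀, inv_eq_one] at h1
      exact h1.le
    have hcβO := (algebraMap_mem_OInf_iff h cβ).2 hcβA
    apply hneβ
    have e : (⟨algebraMap Qb _ cβ * β, hmβ⟩ : OInf h) = ⟨algebraMap Qb _ cβ, hcβO⟩ * ⟨β, hβ⟩ :=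
      rfl
    rw [e, map_mul, hβ0, mul_zero]
  obtain ⟨n, hn⟩ := h.harch cβ⁻¹ c hav hc0
  refine ⟨n, ?_⟩
  have hacA : cβ⁻¹ ^ n * c⁻¹ ∈ A := by
    rw [← A.valuation_le_one_iff, map_mul, map_inv₀ _ c, ← div_eq_mul_inv]
    exact (div_le_one₀ ((Valuation.pos_iff _).2 hc0)).2 hn.le
  have e : β ^ n * g = algebraMap Qb ↥(laurentBaseChange Qb (modularFunctionFieldFull (M * q)))
      (cβ⁻¹ ^ n * c⁻¹) * ((algebraMap Qb _ cβ * β) ^ n * (algebraMap Qb _ c * g)) := by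
    rw [map_mul, map_pow, map_inv₀, map_inv₀, mul_pow, inv_pow]
    field_simp
  rw [e]
  exact (OInf h).mul_mem _ _ ((algebraMap_mem_OInf_iff h _).2 hacA)
    ((OInf h).mul_mem _ _ (pow_mem hmβ n) hm)

/-- Rank one for `O_0`. -/
theorem exists_pow_mul_mem_OZero
    (β : laurentBaseChange Qb (modularFunctionFieldFull (M * q))) (hβ : β ∈ OZero h W)
    (hβ0 : redZero h W ⟨β, hβ⟩ = 0)
    (g : laurentBaseChange Qb (modularFunctionFieldFull (M * q))) :
    ∃ N : ℕ, β ^ N * g ∈ OZero h W := by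
  obtain ⟨N, hN⟩ := exists_pow_mul_mem_OInf h (W β) hβ hβ0 (W g)
  refine ⟨N, ?_⟩
  rw [mem_OZero_iff, map_mul, map_pow]
  exact hN

/-- The absorbing property of `O = O_∞ ∩ O_0` inside `O_∞`. -/
theorem exists_pow_mul_mem_OPair_inf (β : OPair h W) (hβ : (redPair h W β).2 = 0)
    (g : laurentBaseChange Qb (modularFunctionFieldFull (M * q)))
    (hg : g ∈ (OInf h).toSubring) :
    ∃ N : ℕ, (β : laurentBaseChange Qb (modularFunctionFieldFull (M * q))) ^ N * g ∈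
      OPair h W := by
  have hβmem := (mem_OPair_iff h _).1 β.2
  obtain ⟨N, hN⟩ := exists_pow_mul_mem_OZero h W β hβmem.2 hβ g
  exact ⟨N, (mem_OPair_iff h _).2 ⟨(OInf h).mul_mem _ _ (pow_mem hβmem.1 N) hg, hN⟩⟩

/-- The absorbing property of `O = O_∞ ∩ O_0` inside `O_0`. -/
theorem exists_pow_mul_mem_OPair_zero (β : OPair h W) (hβ : (redPair h W β).1 = 0)
    (g : laurentBaseChange Qb (modularFunctionFieldFull (M * q)))
    (hg : g ∈ (OZero h W).toSubring) :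
    ∃ N : ℕ, (β : laurentBaseChange Qb (modularFunctionFieldFull (M * q))) ^ N * g ∈
      OPair h W := by
  have hβmem := (mem_OPair_iff h _).1 β.2
  obtain ⟨N, hN⟩ := exists_pow_mul_mem_OInf h β hβmem.1 hβ g
  exact ⟨N, (mem_OPair_iff h _).2 ⟨hN, (OZero h W).mul_mem _ _ (pow_mem hβmem.2 N) hg⟩⟩

end RankOne

section Conservation

variable [IsAlgClosed k] (hπ : Function.Surjective π) (h : BadSetup A π M q)
  (W : laurentBaseChange Qb (modularFunctionFieldFull (M * q)) ≃ₐ[Qb]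
    laurentBaseChange Qb (modularFunctionFieldFull (M * q))) (hW : IsAL M q W)
  (E1 E2 : Divisor Qb (laurentBaseChange Qb (modularFunctionFieldFull (M * q))))
  {ι : Type} [Fintype ι]
  (e₁ e₂ : ι → Place k (modularFunctionFieldFullC k M))
  (P₁ Z₁ P₂ Z₂ : Divisor k (modularFunctionFieldFullC k M))
  (hinj₁ : Function.Injective e₁) (hinj₂ : Function.Injective e₂)
  (hP₁ : ∀ i, P₁ (e₁ i) = 0) (hZ₁ : ∀ i, Z₁ (e₁ i) = 0)
  (hP₂ : ∀ i, P₂ (e₂ i) = 0) (hZ₂ : ∀ i, Z₂ (e₂ i) = 0)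
  (hdegP₁ : 0 < Divisor.degree P₁) (hdegP₂ : 0 < Divisor.degree P₂)
  (hE1 : ∀ v, 0 ≤ E1 v) (hE2 : ∀ v, 0 ≤ E2 v)
  (hdegE1 : 0 < Divisor.degree E1)
  (N₀ : ℕ)
  (hS2 : ∀ n₁ n₂ : ℕ, N₀ ≤ n₁ + n₂ →
    ∀ t : ↥(modularFunctionFieldFullC k M) × ↥(modularFunctionFieldFullC k M),
      (∃ y : OPair h W,
          (y : laurentBaseChange Qb (modularFunctionFieldFull (M * q))) ∈
            riemannRochSpace (n₁ • E1 + n₂ • E2) ∧ redPair h W y = t) ↔
        t ∈ gluedSpace e₁ e₂ (fun _ => (1 : k))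
          (n₁ • P₁ + n₂ • Z₁) (n₁ • P₂ + n₂ • Z₂))

include hπ hW hinj₁ hinj₂ hP₁ hZ₁ hP₂ hZ₂ hdegP₁ hdegP₂ hE1 hE2 hdegE1 hS2

/-- **Conservation of number at the smooth points of the first component.**  For a unit `f` of
`O_∞` and a non-node point `Qt` of the first component off `P₁`, `Z₁`, the order of `red_∞ f` at
`Qt` is the number of zeros minus the number of poles of `f` in the disc of `Qt`. -/
theorem ord_redInf_eq (Qt : Place k (modularFunctionFieldFullC k M)) (hQ : ∀ i, e₁ i ≠ Qt)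
    (hQP : P₁ Qt = 0) (hQZ : Z₁ Qt = 0)
    (f : laurentBaseChange Qb (modularFunctionFieldFull (M * q))) (hf : f ∈ OInf h)
    (hfinv : f⁻¹ ∈ OInf h) (hf0 : f ≠ 0)
    (D : Divisor Qb (laurentBaseChange Qb (modularFunctionFieldFull (M * q))))
    (hD : ∀ P, D P = P.ord f)
    (T : Finset (Place Qb (laurentBaseChange Qb (modularFunctionFieldFull (M * q)))))
    (hT : ∀ P, P ∈ T ↔ D P ≠ 0 ∧ RedTo (redPair h W) E1 E2 N₀ Qt P) :
    Qt.ord (redInf h ⟨f, hf⟩) = ∑ P ∈ T, D P :=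
  ord_redi_eq (OInf h).toSubring (fun y hy => ((mem_OPair_iff h y).1 hy).1) (redInf h)
    (fun _ => rfl) (exists_pow_mul_mem_OPair_inf h W)
    (setup_modular hπ h W hW E1 E2 e₁ e₂ P₁ Z₁ P₂ Z₂ hinj₁ hinj₂ hP₁ hZ₁ hP₂ hZ₂ hdegP₁ hdegP₂
      hE1 hE2 hdegE1 N₀ hS2)
    (isFF1_xL Qb (M * q)) (isFF1_xk k M) (isFF1_xk k M) hQ hQP hQZ f hf hfinv hf0 D hD T hT

/-- **(B1), first component.**  If all the orders of the unit `f` of `O_∞` at the places of the
disc of `Qt` are divisible by `m` (e.g. `div f = m · D`), then `m ∣ ord_Qt (red_∞ f)`. -/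
theorem dvd_ord_redInf (Qt : Place k (modularFunctionFieldFullC k M)) (hQ : ∀ i, e₁ i ≠ Qt)
    (hQP : P₁ Qt = 0) (hQZ : Z₁ Qt = 0)
    (f : laurentBaseChange Qb (modularFunctionFieldFull (M * q))) (hf : f ∈ OInf h)
    (hfinv : f⁻¹ ∈ OInf h) (hf0 : f ≠ 0) (m : ℤ)
    (hm : ∀ P : Place Qb (laurentBaseChange Qb (modularFunctionFieldFull (M * q))),
      RedTo (redPair h W) E1 E2 N₀ Qt P → m ∣ P.ord f) :
    m ∣ Qt.ord (redInf h ⟨f, hf⟩) :=
  dvd_ord_redi (OInf h).toSubring (fun y hy => ((mem_OPair_iff h y).1 hy).1) (redInf h)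
    (fun _ => rfl) (exists_pow_mul_mem_OPair_inf h W)
    (setup_modular hπ h W hW E1 E2 e₁ e₂ P₁ Z₁ P₂ Z₂ hinj₁ hinj₂ hP₁ hZ₁ hP₂ hZ₂ hdegP₁ hdegP₂
      hE1 hE2 hdegE1 N₀ hS2)
    (isFF1_xL Qb (M * q)) (isFF1_xk k M) (isFF1_xk k M) hQ hQP hQZ f hf hfinv hf0 m hm

/-- **Conservation of number at the smooth points of the second component.** -/
theorem ord_redZero_eq (Qt : Place k (modularFunctionFieldFullC k M)) (hQ : ∀ i, e₂ i ≠ Qt)
    (hQP : P₂ Qt = 0) (hQZ : Z₂ Qt = 0)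
    (f : laurentBaseChange Qb (modularFunctionFieldFull (M * q))) (hf : f ∈ OZero h W)
    (hfinv : f⁻¹ ∈ OZero h W) (hf0 : f ≠ 0)
    (D : Divisor Qb (laurentBaseChange Qb (modularFunctionFieldFull (M * q))))
    (hD : ∀ P, D P = P.ord f)
    (T : Finset (Place Qb (laurentBaseChange Qb (modularFunctionFieldFull (M * q)))))
    (hT : ∀ P, P ∈ T ↔ D P ≠ 0 ∧ RedTo (redSwap (redPair h W)) E1 E2 N₀ Qt P) :
    Qt.ord (redZero h W ⟨f, hf⟩) = ∑ P ∈ T, D P :=
  ord_redi_eq (OZero h W).toSubring (fun y hy => ((mem_OPair_iff h y).1 hy).2) (redZero h W)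
    (fun _ => rfl) (exists_pow_mul_mem_OPair_zero h W)
    (setup_modular hπ h W hW E1 E2 e₁ e₂ P₁ Z₁ P₂ Z₂ hinj₁ hinj₂ hP₁ hZ₁ hP₂ hZ₂ hdegP₁ hdegP₂
      hE1 hE2 hdegE1 N₀ hS2).swap
    (isFF1_xL Qb (M * q)) (isFF1_xk k M) (isFF1_xk k M) hQ hQP hQZ f hf hfinv hf0 D hD T hT

/-- **(B1), second component.** -/
theorem dvd_ord_redZero (Qt : Place k (modularFunctionFieldFullC k M)) (hQ : ∀ i, e₂ i ≠ Qt)
    (hQP : P₂ Qt = 0) (hQZ : Z₂ Qt = 0)
    (f : laurentBaseChange Qb (modularFunctionFieldFull (M * q))) (hf : f ∈ OZero h W)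
    (hfinv : f⁻¹ ∈ OZero h W) (hf0 : f ≠ 0) (m : ℤ)
    (hm : ∀ P : Place Qb (laurentBaseChange Qb (modularFunctionFieldFull (M * q))),
      RedTo (redSwap (redPair h W)) E1 E2 N₀ Qt P → m ∣ P.ord f) :
    m ∣ Qt.ord (redZero h W ⟨f, hf⟩) :=
  dvd_ord_redi (OZero h W).toSubring (fun y hy => ((mem_OPair_iff h y).1 hy).2) (redZero h W)
    (fun _ => rfl) (exists_pow_mul_mem_OPair_zero h W)
    (setup_modular hπ h W hW E1 E2 e₁ e₂ P₁ Z₁ P₂ Z₂ hinj₁ hinj₂ hP₁ hZ₁ hP₂ hZ₂ hdegP₁ hdegP₂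
      hE1 hE2 hdegE1 N₀ hS2).swap
    (isFF1_xL Qb (M * q)) (isFF1_xk k M) (isFF1_xk k M) hQ hQP hQZ f hf hfinv hf0 m hm

end Conservation

end Fermat.Agent.BAD.SmoothOrdInst
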