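/-
TR brick (SPEC): **conservation of number at EVERY non-node point** of the two components of the
nodal fibre of `X₀(Mq)` (cusps included).

Setting of `BAD/NodalPlus.lean`: `h : BadSetup A π M q`, `O = OPair h W = O_∞ ∩ O_0`.

* `ord_redInf_eq_of_setup`, `dvd_ord_redInf_of_setup`, `ord_redZero_eq_of_setup`,
  `dvd_ord_redZero_of_setup` : the theorems of `BAD/SmoothOrdInst.lean` for an ARBITRARY
  `SmoothLift.Setup` on `OPair h W` (so: for the charts `n₁ E1 + n₂ E2`, `n E1`, `n E2` of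
  `NodalPlus.NodalDatum.exists_setups`);
* `dvd_ord_redInf_of_datum` : **(SPEC), first component.**  For a nodal datum with
  `0 < deg Z₁`, `0 < deg Z₂`, a unit `f` of `O_∞` all of whose orders are divisible by `m`
  (`div f = m · D`), and ANY place `Qt` of the first component which is not a node:
  `m ∣ ord_Qt (red_∞ f)`;
* `dvd_ord_redZero_of_datum` : the mirror for `O_0`, `red_0` and the second component;
* `ord_redInf_eq_zero_of_datum`, `ord_redZero_eq_zero_of_datum` : a unit of `O_∞` (`O_0`)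
  without zeros and poles on the generic fibre reduces to a function without zeros and poles
  off the nodes.
-/
import Mathlib
import Fermat.Agent.BAD.SmoothOrdInst
import Fermat.Agent.BAD.NodalPlus

set_option autoImplicit false
set_option linter.style.haveILetI false
set_option linter.unusedSectionVars false

noncomputable section

namespace Fermat.Agent.BAD.SmoothOrdAll

open AlgebraicCurve ModularCurve WithZero Fermat.Agent.Lib.FF Fermat.Agent.Lib.Red.Deform
  Fermat.Agent.Lib.Red.CoordLat Fermat.Agent.BAD.NodalDiv Fermat.Agent.BAD.NodalRiemann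
  Fermat.Agent.BAD.TwoVal Fermat.Agent.BAD.NodalAsm Fermat.Agent.BAD.BadU
  Fermat.Agent.BAD.SmoothLift Fermat.Agent.BAD.SmoothOrd Fermat.Agent.BAD.SmoothLiftInst
  Fermat.Agent.BAD.SmoothOrdInst Fermat.Agent.BAD.NodalPlus

local notation "Qb" => AlgebraicClosure ℚ

variable {A : ValuationSubring Qb} {k : Type} [Field k] {π : A →+* k} {M q : ℕ} [NeZero M]
  [NeZero q]

section OfSetup

variable [IsAlgClosed k] {h : BadSetup A π M q}
  {W : laurentBaseChange Qb (modularFunctionFieldFull (M * q)) ≃ₐ[Qb]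
    laurentBaseChange Qb (modularFunctionFieldFull (M * q))}
  {E1 E2 : Divisor Qb (laurentBaseChange Qb (modularFunctionFieldFull (M * q)))}
  {ι : Type} [Fintype ι]
  {e₁ e₂ : ι → Place k (modularFunctionFieldFullC k M)}
  {P₁ Z₁ P₂ Z₂ : Divisor k (modularFunctionFieldFullC k M)} {N₀ : ℕ}

/-- Conservation of number on the first component, for an arbitrary setting on `OPair h W`. -/
theorem ord_redInf_eq_of_setup
    (S : Setup A (OPair h W) (redPair h W) π e₁ e₂ P₁ Z₁ P₂ Z₂ E1 E2 N₀)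
    (Qt : Place k (modularFunctionFieldFullC k M)) (hQ : ∀ i, e₁ i ≠ Qt)
    (hQP : P₁ Qt = 0) (hQZ : Z₁ Qt = 0)
    (f : laurentBaseChange Qb (modularFunctionFieldFull (M * q))) (hf : f ∈ OInf h)
    (hfinv : f⁻¹ ∈ OInf h) (hf0 : f ≠ 0)
    (D : Divisor Qb (laurentBaseChange Qb (modularFunctionFieldFull (M * q))))
    (hD : ∀ P, D P = P.ord f)
    (T : Finset (Place Qb (laurentBaseChange Qb (modularFunctionFieldFull (M * q)))))
    (hT : ∀ P, P ∈ T ↔ D P ≠ 0 ∧ RedTo (redPair h W) E1 E2 N₀ Qt P) :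
    Qt.ord (redInf h ⟨f, hf⟩) = ∑ P ∈ T, D P :=
  ord_redi_eq (OInf h).toSubring (fun y hy => ((mem_OPair_iff h y).1 hy).1) (redInf h)
    (fun _ => rfl) (exists_pow_mul_mem_OPair_inf h W) S
    (isFF1_xL Qb (M * q)) (isFF1_xk k M) (isFF1_xk k M) hQ hQP hQZ f hf hfinv hf0 D hD T hT

/-- (B1) on the first component, for an arbitrary setting on `OPair h W`. -/
theorem dvd_ord_redInf_of_setup
    (S : Setup A (OPair h W) (redPair h W) π e₁ e₂ P₁ Z₁ P₂ Z₂ E1 E2 N₀)
    (Qt : Place k (modularFunctionFieldFullC k M)) (hQ : ∀ i, e₁ i ≠ Qt)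
    (hQP : P₁ Qt = 0) (hQZ : Z₁ Qt = 0)
    (f : laurentBaseChange Qb (modularFunctionFieldFull (M * q))) (hf : f ∈ OInf h)
    (hfinv : f⁻¹ ∈ OInf h) (hf0 : f ≠ 0) (m : ℤ)
    (hm : ∀ P : Place Qb (laurentBaseChange Qb (modularFunctionFieldFull (M * q))),
      RedTo (redPair h W) E1 E2 N₀ Qt P → m ∣ P.ord f) :
    m ∣ Qt.ord (redInf h ⟨f, hf⟩) :=
  dvd_ord_redi (OInf h).toSubring (fun y hy => ((mem_OPair_iff h y).1 hy).1) (redInf h)
    (fun _ => rfl) (exists_pow_mul_mem_OPair_inf h W) S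
    (isFF1_xL Qb (M * q)) (isFF1_xk k M) (isFF1_xk k M) hQ hQP hQZ f hf hfinv hf0 m hm

/-- Conservation of number on the second component, for an arbitrary setting on `OPair h W`. -/
theorem ord_redZero_eq_of_setup
    (S : Setup A (OPair h W) (redPair h W) π e₁ e₂ P₁ Z₁ P₂ Z₂ E1 E2 N₀)
    (Qt : Place k (modularFunctionFieldFullC k M)) (hQ : ∀ i, e₂ i ≠ Qt)
    (hQP : P₂ Qt = 0) (hQZ : Z₂ Qt = 0)
    (f : laurentBaseChange Qb (modularFunctionFieldFull (M * q))) (hf : f ∈ OZero h W)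
    (hfinv : f⁻¹ ∈ OZero h W) (hf0 : f ≠ 0)
    (D : Divisor Qb (laurentBaseChange Qb (modularFunctionFieldFull (M * q))))
    (hD : ∀ P, D P = P.ord f)
    (T : Finset (Place Qb (laurentBaseChange Qb (modularFunctionFieldFull (M * q)))))
    (hT : ∀ P, P ∈ T ↔ D P ≠ 0 ∧ RedTo (redSwap (redPair h W)) E1 E2 N₀ Qt P) :
    Qt.ord (redZero h W ⟨f, hf⟩) = ∑ P ∈ T, D P :=
  ord_redi_eq (OZero h W).toSubring (fun y hy => ((mem_OPair_iff h y).1 hy).2) (redZero h W)
    (fun _ => rfl) (exists_pow_mul_mem_OPair_zero h W) S.swap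
    (isFF1_xL Qb (M * q)) (isFF1_xk k M) (isFF1_xk k M) hQ hQP hQZ f hf hfinv hf0 D hD T hT

/-- (B1) on the second component, for an arbitrary setting on `OPair h W`. -/
theorem dvd_ord_redZero_of_setup
    (S : Setup A (OPair h W) (redPair h W) π e₁ e₂ P₁ Z₁ P₂ Z₂ E1 E2 N₀)
    (Qt : Place k (modularFunctionFieldFullC k M)) (hQ : ∀ i, e₂ i ≠ Qt)
    (hQP : P₂ Qt = 0) (hQZ : Z₂ Qt = 0)
    (f : laurentBaseChange Qb (modularFunctionFieldFull (M * q))) (hf : f ∈ OZero h W)
    (hfinv : f⁻¹ ∈ OZero h W) (hf0 : f ≠ 0) (m : ℤ)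
    (hm : ∀ P : Place Qb (laurentBaseChange Qb (modularFunctionFieldFull (M * q))),
      RedTo (redSwap (redPair h W)) E1 E2 N₀ Qt P → m ∣ P.ord f) :
    m ∣ Qt.ord (redZero h W ⟨f, hf⟩) :=
  dvd_ord_redi (OZero h W).toSubring (fun y hy => ((mem_OPair_iff h y).1 hy).2) (redZero h W)
    (fun _ => rfl) (exists_pow_mul_mem_OPair_zero h W) S.swap
    (isFF1_xL Qb (M * q)) (isFF1_xk k M) (isFF1_xk k M) hQ hQP hQZ f hf hfinv hf0 m hm

end OfSetup

section OfDatum

variable [IsAlgClosed k] (hπ : Function.Surjective π) {h : BadSetup A π M q}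
  {W : laurentBaseChange Qb (modularFunctionFieldFull (M * q)) ≃ₐ[Qb]
    laurentBaseChange Qb (modularFunctionFieldFull (M * q))} (hW : IsAL M q W)
  {E1 E2 : Divisor Qb (laurentBaseChange Qb (modularFunctionFieldFull (M * q)))}
  {ι : Type} [Fintype ι]
  {e₁ e₂ : ι → Place k (modularFunctionFieldFullC k M)}
  {P₁ Z₁ P₂ Z₂ : Divisor k (modularFunctionFieldFullC k M)}
  (hD : NodalDatum h W E1 E2 e₁ e₂ P₁ Z₁ P₂ Z₂)
  (hdegZ₁ : 0 < Divisor.degree Z₁) (hdegZ₂ : 0 < Divisor.degree Z₂)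

include hπ hW hD hdegZ₁ hdegZ₂

/-- **(SPEC), first component.**  If all the orders of the unit `f` of `O_∞` are divisible by
`m` (`div f = m · D`), then `m ∣ ord_Qt (red_∞ f)` at EVERY place `Qt` of the first component
which is not a node (cusps included). -/
theorem dvd_ord_redInf_of_datum (Qt : Place k (modularFunctionFieldFullC k M))
    (hQ : ∀ i, e₁ i ≠ Qt)
    (f : laurentBaseChange Qb (modularFunctionFieldFull (M * q))) (hf : f ∈ OInf h)
    (hfinv : f⁻¹ ∈ OInf h) (hf0 : f ≠ 0) (m : ℤ)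
    (hm : ∀ P : Place Qb (laurentBaseChange Qb (modularFunctionFieldFull (M * q))),
      m ∣ P.ord f) :
    m ∣ Qt.ord (redInf h ⟨f, hf⟩) := by
  obtain ⟨N₀, -, SP, SZ⟩ := hD.exists_setups hπ hW hdegZ₁ hdegZ₂
  rcases hD.2.2.2.2.2.2.1 Qt with hP | hZ
  · exact dvd_ord_redInf_of_setup SP Qt hQ hP hP f hf hfinv hf0 m (fun P _ => hm P)
  · exact dvd_ord_redInf_of_setup SZ Qt hQ hZ hZ f hf hfinv hf0 m (fun P _ => hm P)

/-- **(SPEC), second component.** -/
theorem dvd_ord_redZero_of_datum (Qt : Place k (modularFunctionFieldFullC k M))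
    (hQ : ∀ i, e₂ i ≠ Qt)
    (f : laurentBaseChange Qb (modularFunctionFieldFull (M * q))) (hf : f ∈ OZero h W)
    (hfinv : f⁻¹ ∈ OZero h W) (hf0 : f ≠ 0) (m : ℤ)
    (hm : ∀ P : Place Qb (laurentBaseChange Qb (modularFunctionFieldFull (M * q))),
      m ∣ P.ord f) :
    m ∣ Qt.ord (redZero h W ⟨f, hf⟩) := by
  obtain ⟨N₀, -, SP, SZ⟩ := hD.exists_setups hπ hW hdegZ₁ hdegZ₂
  rcases hD.2.2.2.2.2.2.2.1 Qt with hP | hZ
  · exact dvd_ord_redZero_of_setup SP Qt hQ hP hP f hf hfinv hf0 m (fun P _ => hm P)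
  · exact dvd_ord_redZero_of_setup SZ Qt hQ hZ hZ f hf hfinv hf0 m (fun P _ => hm P)

/-- A unit of `O_∞` without zeros and poles on the generic fibre reduces to a function without
zeros and poles off the nodes of the first component. -/
theorem ord_redInf_eq_zero_of_datum (Qt : Place k (modularFunctionFieldFullC k M))
    (hQ : ∀ i, e₁ i ≠ Qt)
    (f : laurentBaseChange Qb (modularFunctionFieldFull (M * q))) (hf : f ∈ OInf h)
    (hfinv : f⁻¹ ∈ OInf h) (hf0 : f ≠ 0)
    (hm : ∀ P : Place Qb (laurentBaseChange Qb (modularFunctionFieldFull (M * q))),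
      P.ord f = 0) :
    Qt.ord (redInf h ⟨f, hf⟩) = 0 := by
  have := dvd_ord_redInf_of_datum hπ hW hD hdegZ₁ hdegZ₂ Qt hQ f hf hfinv hf0 0
    (fun P => by rw [hm P])
  exact zero_dvd_iff.1 this

/-- A unit of `O_0` without zeros and poles on the generic fibre reduces to a function without
zeros and poles off the nodes of the second component. -/
theorem ord_redZero_eq_zero_of_datum (Qt : Place k (modularFunctionFieldFullC k M))
    (hQ : ∀ i, e₂ i ≠ Qt)
    (f : laurentBaseChange Qb (modularFunctionFieldFull (M * q))) (hf : f ∈ OZero h W)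
    (hfinv : f⁻¹ ∈ OZero h W) (hf0 : f ≠ 0)
    (hm : ∀ P : Place Qb (laurentBaseChange Qb (modularFunctionFieldFull (M * q))),
      P.ord f = 0) :
    Qt.ord (redZero h W ⟨f, hf⟩) = 0 := by
  have := dvd_ord_redZero_of_datum hπ hW hD hdegZ₁ hdegZ₂ Qt hQ f hf hfinv hf0 0
    (fun P => by rw [hm P])
  exact zero_dvd_iff.1 this

end OfDatum

end Fermat.Agent.BAD.SmoothOrdAll
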