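/-
TR brick (S3): **regularity of reductions at smooth points** of the nodal fibre of `X₀(Mq)`.

Setting of `BAD/SmoothOrdAll.lean`: an arbitrary `SmoothLift.Setup` on `OPair h W`, a non-node
place `Qt` of one component off the chart divisors, its disc `{P | RedTo … Qt P}`.

* `adicValuation_redInf_le_one_of_setup` : **(S3)** a function of `O_∞` (NOT necessarily a unit)
  without pole in the disc of `Qt` reduces to a function regular at `Qt`;
* `ord_redInf_nonneg_of_setup` : the same as `0 ≤ ord`;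
* `ord_redInf_eq_zero_of_setup` : (unit version) a unit of `O_∞` without zero and pole in the
  disc of `Qt` reduces to a unit at `Qt`;
* `adicValuation_redInf_eq_one_of_setup` : the same as `adicValuation = 1`;
* the mirrors for `O_0`, `red_0` and the second component.
-/
import Mathlib
import Fermat.Agent.BAD.SmoothOrdAll

set_option autoImplicit false
set_option linter.style.haveILetI false
set_option linter.unusedSectionVars false

noncomputable section

namespace Fermat.Agent.BAD.SmoothOrdReg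

open AlgebraicCurve ModularCurve WithZero Fermat.Agent.Lib.FF Fermat.Agent.Lib.Red.Deform
  Fermat.Agent.Lib.Red.CoordLat Fermat.Agent.BAD.NodalDiv Fermat.Agent.BAD.NodalRiemann
  Fermat.Agent.BAD.TwoVal Fermat.Agent.BAD.NodalAsm Fermat.Agent.BAD.BadU
  Fermat.Agent.BAD.SmoothLift Fermat.Agent.BAD.SmoothOrd Fermat.Agent.BAD.SmoothLiftInst
  Fermat.Agent.BAD.SmoothOrdInst Fermat.Agent.BAD.SmoothOrdAll

local notation "Qb" => AlgebraicClosure ℚ

variable {A : ValuationSubring Qb} {k : Type} [Field k] {π : A →+* k} {M q : ℕ} [NeZero M]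
  [NeZero q]

variable [IsAlgClosed k] {h : BadSetup A π M q}
  {W : laurentBaseChange Qb (modularFunctionFieldFull (M * q)) ≃ₐ[Qb]
    laurentBaseChange Qb (modularFunctionFieldFull (M * q))}
  {E1 E2 : Divisor Qb (laurentBaseChange Qb (modularFunctionFieldFull (M * q)))}
  {ι : Type} [Fintype ι]
  {e₁ e₂ : ι → Place k (modularFunctionFieldFullC k M)}
  {P₁ Z₁ P₂ Z₂ : Divisor k (modularFunctionFieldFullC k M)} {N₀ : ℕ}

/-- **(S3), first component**, as an order: a function of `O_∞` with nonzero reduction and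
without pole in the disc of `Qt` has `0 ≤ ord_Qt (red_∞ g)`. -/
theorem ord_redInf_nonneg_of_setup
    (S : Setup A (OPair h W) (redPair h W) π e₁ e₂ P₁ Z₁ P₂ Z₂ E1 E2 N₀)
    (Qt : Place k (modularFunctionFieldFullC k M)) (hQ : ∀ i, e₁ i ≠ Qt)
    (hQP : P₁ Qt = 0) (hQZ : Z₁ Qt = 0)
    (g : laurentBaseChange Qb (modularFunctionFieldFull (M * q))) (hg : g ∈ OInf h)
    (hne : redInf h ⟨g, hg⟩ ≠ 0)
    (hreg : ∀ P : Place Qb (laurentBaseChange Qb (modularFunctionFieldFull (M * q))),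
      RedTo (redPair h W) E1 E2 N₀ Qt P → P.adicValuation g ≤ 1) :
    0 ≤ Qt.ord (redInf h ⟨g, hg⟩) := by
  classical
  have hg0 : g ≠ 0 := by
    intro h0
    apply hne
    have : (⟨g, hg⟩ : OInf h) = 0 := Subtype.ext h0
    rw [this, map_zero]
  have hinv := inv_mem_OInf h g hg hne
  haveI := (isFF1_xL Qb (M * q)).hasPrincipalDivisors
  obtain ⟨D, hD, -⟩ := HasPrincipalDivisors.exists_divisor (K := Qb) g hg0
  have hT : ∀ P, P ∈ D.support.filter (fun P => RedTo (redPair h W) E1 E2 N₀ Qt P) ↔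
      D P ≠ 0 ∧ RedTo (redPair h W) E1 E2 N₀ Qt P := by
    intro P
    rw [Finset.mem_filter, Finsupp.mem_support_iff]
  rw [ord_redInf_eq_of_setup S Qt hQ hQP hQZ g hg hinv hg0 D hD _ hT]
  refine Finset.sum_nonneg (fun P hP => ?_)
  rw [hD]
  rcases (Place.adicValuation_le_one_iff P).1 (hreg P ((hT P).1 hP).2) with h0 | h0
  · exact absurd h0 hg0
  · exact h0

/-- **(S3), first component.**  A function of `O_∞` (not necessarily a unit) without pole in
the disc of the non-node place `Qt` reduces to a function regular at `Qt`. -/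
theorem adicValuation_redInf_le_one_of_setup
    (S : Setup A (OPair h W) (redPair h W) π e₁ e₂ P₁ Z₁ P₂ Z₂ E1 E2 N₀)
    (Qt : Place k (modularFunctionFieldFullC k M)) (hQ : ∀ i, e₁ i ≠ Qt)
    (hQP : P₁ Qt = 0) (hQZ : Z₁ Qt = 0)
    (g : laurentBaseChange Qb (modularFunctionFieldFull (M * q))) (hg : g ∈ OInf h)
    (hreg : ∀ P : Place Qb (laurentBaseChange Qb (modularFunctionFieldFull (M * q))),
      RedTo (redPair h W) E1 E2 N₀ Qt P → P.adicValuation g ≤ 1) :
    Qt.adicValuation (redInf h ⟨g, hg⟩) ≤ 1 := by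
  rw [Place.adicValuation_le_one_iff]
  by_cases hne : redInf h ⟨g, hg⟩ = 0
  · exact Or.inl hne
  · exact Or.inr (ord_redInf_nonneg_of_setup S Qt hQ hQP hQZ g hg hne hreg)

/-- **(S3), unit version, first component.**  A unit of `O_∞` without zero and pole in the disc
of `Qt` reduces to a function of order `0` at `Qt`. -/
theorem ord_redInf_eq_zero_of_setup
    (S : Setup A (OPair h W) (redPair h W) π e₁ e₂ P₁ Z₁ P₂ Z₂ E1 E2 N₀)
    (Qt : Place k (modularFunctionFieldFullC k M)) (hQ : ∀ i, e₁ i ≠ Qt)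
    (hQP : P₁ Qt = 0) (hQZ : Z₁ Qt = 0)
    (g : laurentBaseChange Qb (modularFunctionFieldFull (M * q))) (hg : g ∈ OInf h)
    (hginv : g⁻¹ ∈ OInf h) (hg0 : g ≠ 0)
    (hord : ∀ P : Place Qb (laurentBaseChange Qb (modularFunctionFieldFull (M * q))),
      RedTo (redPair h W) E1 E2 N₀ Qt P → P.ord g = 0) :
    Qt.ord (redInf h ⟨g, hg⟩) = 0 :=
  zero_dvd_iff.1 (dvd_ord_redInf_of_setup S Qt hQ hQP hQZ g hg hginv hg0 0
    (fun P hP => by rw [hord P hP]))

/-- The unit version as a valuation: `red_∞ g` is a unit at `Qt`. -/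
theorem adicValuation_redInf_eq_one_of_setup
    (S : Setup A (OPair h W) (redPair h W) π e₁ e₂ P₁ Z₁ P₂ Z₂ E1 E2 N₀)
    (Qt : Place k (modularFunctionFieldFullC k M)) (hQ : ∀ i, e₁ i ≠ Qt)
    (hQP : P₁ Qt = 0) (hQZ : Z₁ Qt = 0)
    (g : laurentBaseChange Qb (modularFunctionFieldFull (M * q))) (hg : g ∈ OInf h)
    (hginv : g⁻¹ ∈ OInf h) (hg0 : g ≠ 0)
    (hord : ∀ P : Place Qb (laurentBaseChange Qb (modularFunctionFieldFull (M * q))),
      RedTo (redPair h W) E1 E2 N₀ Qt P → P.ord g = 0) :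
    Qt.adicValuation (redInf h ⟨g, hg⟩) = 1 := by
  have hne := redInf_ne_zero_of_inv_mem h g hg0 hg hginv
  rw [Place.adicValuation_eq_exp_neg_ord Qt hne,
    ord_redInf_eq_zero_of_setup S Qt hQ hQP hQZ g hg hginv hg0 hord, neg_zero, exp_zero]

/-- **(S3), second component**, as an order. -/
theorem ord_redZero_nonneg_of_setup
    (S : Setup A (OPair h W) (redPair h W) π e₁ e₂ P₁ Z₁ P₂ Z₂ E1 E2 N₀)
    (Qt : Place k (modularFunctionFieldFullC k M)) (hQ : ∀ i, e₂ i ≠ Qt)
    (hQP : P₂ Qt = 0) (hQZ : Z₂ Qt = 0)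
    (g : laurentBaseChange Qb (modularFunctionFieldFull (M * q))) (hg : g ∈ OZero h W)
    (hne : redZero h W ⟨g, hg⟩ ≠ 0)
    (hreg : ∀ P : Place Qb (laurentBaseChange Qb (modularFunctionFieldFull (M * q))),
      RedTo (redSwap (redPair h W)) E1 E2 N₀ Qt P → P.adicValuation g ≤ 1) :
    0 ≤ Qt.ord (redZero h W ⟨g, hg⟩) := by
  classical
  have hg0 : g ≠ 0 := by
    intro h0
    apply hne
    have : (⟨g, hg⟩ : OZero h W) = 0 := Subtype.ext h0
    rw [this, map_zero]
  have hinv := inv_mem_OZero h g hg hne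
  haveI := (isFF1_xL Qb (M * q)).hasPrincipalDivisors
  obtain ⟨D, hD, -⟩ := HasPrincipalDivisors.exists_divisor (K := Qb) g hg0
  have hT : ∀ P, P ∈ D.support.filter
      (fun P => RedTo (redSwap (redPair h W)) E1 E2 N₀ Qt P) ↔
      D P ≠ 0 ∧ RedTo (redSwap (redPair h W)) E1 E2 N₀ Qt P := by
    intro P
    rw [Finset.mem_filter, Finsupp.mem_support_iff]
  rw [ord_redZero_eq_of_setup S Qt hQ hQP hQZ g hg hinv hg0 D hD _ hT]
  refine Finset.sum_nonneg (fun P hP => ?_)
  rw [hD]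
  rcases (Place.adicValuation_le_one_iff P).1 (hreg P ((hT P).1 hP).2) with h0 | h0
  · exact absurd h0 hg0
  · exact h0

/-- **(S3), second component.** -/
theorem adicValuation_redZero_le_one_of_setup
    (S : Setup A (OPair h W) (redPair h W) π e₁ e₂ P₁ Z₁ P₂ Z₂ E1 E2 N₀)
    (Qt : Place k (modularFunctionFieldFullC k M)) (hQ : ∀ i, e₂ i ≠ Qt)
    (hQP : P₂ Qt = 0) (hQZ : Z₂ Qt = 0)
    (g : laurentBaseChange Qb (modularFunctionFieldFull (M * q))) (hg : g ∈ OZero h W)
    (hreg : ∀ P : Place Qb (laurentBaseChange Qb (modularFunctionFieldFull (M * q))),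
      RedTo (redSwap (redPair h W)) E1 E2 N₀ Qt P → P.adicValuation g ≤ 1) :
    Qt.adicValuation (redZero h W ⟨g, hg⟩) ≤ 1 := by
  rw [Place.adicValuation_le_one_iff]
  by_cases hne : redZero h W ⟨g, hg⟩ = 0
  · exact Or.inl hne
  · exact Or.inr (ord_redZero_nonneg_of_setup S Qt hQ hQP hQZ g hg hne hreg)

/-- **(S3), unit version, second component.** -/
theorem ord_redZero_eq_zero_of_setup
    (S : Setup A (OPair h W) (redPair h W) π e₁ e₂ P₁ Z₁ P₂ Z₂ E1 E2 N₀)
    (Qt : Place k (modularFunctionFieldFullC k M)) (hQ : ∀ i, e₂ i ≠ Qt)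
    (hQP : P₂ Qt = 0) (hQZ : Z₂ Qt = 0)
    (g : laurentBaseChange Qb (modularFunctionFieldFull (M * q))) (hg : g ∈ OZero h W)
    (hginv : g⁻¹ ∈ OZero h W) (hg0 : g ≠ 0)
    (hord : ∀ P : Place Qb (laurentBaseChange Qb (modularFunctionFieldFull (M * q))),
      RedTo (redSwap (redPair h W)) E1 E2 N₀ Qt P → P.ord g = 0) :
    Qt.ord (redZero h W ⟨g, hg⟩) = 0 :=
  zero_dvd_iff.1 (dvd_ord_redZero_of_setup S Qt hQ hQP hQZ g hg hginv hg0 0
    (fun P hP => by rw [hord P hP]))

/-- The unit version as a valuation, second component. -/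
theorem adicValuation_redZero_eq_one_of_setup
    (S : Setup A (OPair h W) (redPair h W) π e₁ e₂ P₁ Z₁ P₂ Z₂ E1 E2 N₀)
    (Qt : Place k (modularFunctionFieldFullC k M)) (hQ : ∀ i, e₂ i ≠ Qt)
    (hQP : P₂ Qt = 0) (hQZ : Z₂ Qt = 0)
    (g : laurentBaseChange Qb (modularFunctionFieldFull (M * q))) (hg : g ∈ OZero h W)
    (hginv : g⁻¹ ∈ OZero h W) (hg0 : g ≠ 0)
    (hord : ∀ P : Place Qb (laurentBaseChange Qb (modularFunctionFieldFull (M * q))),
      RedTo (redSwap (redPair h W)) E1 E2 N₀ Qt P → P.ord g = 0) :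
    Qt.adicValuation (redZero h W ⟨g, hg⟩) = 1 := by
  have hne := redZero_ne_zero_of_inv_mem h g hg0 hg hginv
  rw [Place.adicValuation_eq_exp_neg_ord Qt hne,
    ord_redZero_eq_zero_of_setup S Qt hQ hQP hQZ g hg hginv hg0 hord, neg_zero, exp_zero]

end Fermat.Agent.BAD.SmoothOrdReg
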