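/-
TR brick (MOVE-Q), core: **a chart section with a simple zero at a smooth point has exactly one
zero in the residue disc through each of its values.**

Abstract setting of `BAD/SmoothOrdOne.lean` (`SmoothLift.Setup`, a one-sided valuation ring
`Oi ⊇ O` with residue map `redi`, rank one `hpow`), plus `hinvi` (elements of `Oi` with nonzero
reduction are units of `Oi`).

* `valuation_lt_one_of_cong` : if the reduction of the chart section `u` vanishes at `Q`, then the
  value of `u` at every place of the disc of `Q` lies in the maximal ideal of `A`;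
* `ord_sub_const_of_simple_zero` : if `red u` has a SIMPLE zero at `Q`, then for a place `P` of
  the disc of `Q` with `u(P) = c`: `ord_P (u - c) = 1` and `u - c` has no other zero (and no
  pole) in the disc;
* `ord_prod_sub_const` : hence `∏_{P ∈ s} (u - u(P)) ^ m P` has order `m P'` at `P' ∈ s` and order
  `0` at the other places of the disc;
* modular instances on `X₀(Mq)` for both components (`…_redInf`, `…_redZero`) and
  `exists_cong_of_redTo` (existence of the values).
-/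
import Mathlib
import Fermat.Agent.BAD.SmoothOrdReg

set_option autoImplicit false
set_option linter.style.haveILetI false
set_option linter.unusedSectionVars false

noncomputable section

namespace Fermat.Agent.BAD.SmoothOrd

open AlgebraicCurve WithZero Fermat.Agent.Lib.FF Fermat.Agent.Lib.Red.Deform
  Fermat.Agent.Lib.Red.CoordLat Fermat.Agent.BAD.NodalRiemann
  Fermat.Agent.Padic.S33.RC.NodalMul Fermat.Agent.Lib.FF.BasePoint Fermat.Agent.BAD.SmoothLift

theorem le_exp_neg_one_of_lt_one {x : ℤᵐ⁰} (h : x < 1) : x ≤ exp (-1 : ℤ) := by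
  rcases eq_or_ne x 0 with rfl | hx
  · simp
  · rw [← exp_log hx] at h ⊢
    rw [← exp_zero, exp_lt_exp] at h
    rw [exp_le_exp]
    omega

theorem ord_prod_of_ne_zero {K F : Type*} [Field K] [Field F] [Algebra K F] (P : Place K F)
    {α : Type*} (s : Finset α) (f : α → F) (hf : ∀ a ∈ s, f a ≠ 0) :
    P.ord (∏ a ∈ s, f a) = ∑ a ∈ s, P.ord (f a) := by
  classical
  induction s using Finset.induction_on with
  | empty => rw [Finset.prod_empty, Finset.sum_empty, Place.ord_one]
  | insert a s ha ih =>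
    have h1 : f a ≠ 0 := hf a (Finset.mem_insert_self a s)
    have h2 : ∀ b ∈ s, f b ≠ 0 := fun b hb => hf b (Finset.mem_insert_of_mem hb)
    rw [Finset.prod_insert ha, Finset.sum_insert ha,
      P.ord_mul h1 (Finset.prod_ne_zero_iff.2 h2), ih h2]

section Two

variable {L F : Type*} [Field L] [Field F] [Algebra L F]
variable {A : ValuationSubring L} {O : Subring F}
variable {k F₁ F₂ : Type*} [Field k] [Field F₁] [Field F₂] [Algebra k F₁] [Algebra k F₂]
variable {ι : Type*} [Fintype ι]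
variable {red : O →+* F₁ × F₂} {π : A →+* k} {e₁ : ι → Place k F₁} {e₂ : ι → Place k F₂}
  {P₁ Z₁ : Divisor k F₁} {P₂ Z₂ : Divisor k F₂} {E1 E2 : Divisor L F} {N₀ : ℕ}

/-- If the reduction of the chart section `u` vanishes at `Q`, then the value of `u` at every
place of the disc of `Q` lies in the maximal ideal of `A`. -/
theorem valuation_lt_one_of_cong (S : Setup A O red π e₁ e₂ P₁ Z₁ P₂ Z₂ E1 E2 N₀)
    {Q : Place k F₁} (u : O) {n : ℕ × ℕ} (hn : N₀ ≤ n.1 + n.2)
    (huL : (u : F) ∈ riemannRochSpace (cd E1 E2 n))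
    (hu0 : Q.adicValuation (red u).1 < 1) {P : Place L F} (hP : RedTo red E1 E2 N₀ Q P)
    {c : L} (hc : Cong P (u : F) c) : A.valuation c < 1 := by
  by_contra hcon
  rw [not_lt] at hcon
  have hc0 : c ≠ 0 := by
    rintro rfl
    rw [map_zero] at hcon
    exact not_le.2 zero_lt_one hcon
  have hinvA : c⁻¹ ∈ A := by
    rw [← A.valuation_le_one_iff, map_inv₀]
    exact inv_le_one_of_one_le₀ hcon
  have hcO : red ⟨algebraMap L F c⁻¹, (S.hOA _).2 hinvA⟩ =
      algebraMap k (F₁ × F₂) (π ⟨c⁻¹, hinvA⟩) := S.hconst ⟨c⁻¹, hinvA⟩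
  obtain ⟨y, hy⟩ : ∃ y : O, y = ⟨algebraMap L F c⁻¹, (S.hOA _).2 hinvA⟩ * u - 1 := ⟨_, rfl⟩
  have hyF : (y : F) = algebraMap L F c⁻¹ * ((u : F) - algebraMap L F c) := by
    rw [hy, AddSubgroupClass.coe_sub, MulMemClass.coe_mul, OneMemClass.coe_one, mul_sub,
      ← map_mul, inv_mul_cancel₀ hc0, map_one]
  have hyF' : (y : F) = algebraMap L F c⁻¹ * (u : F) - 1 := by
    rw [hy, AddSubgroupClass.coe_sub, MulMemClass.coe_mul, OneMemClass.coe_one]
  have hEP := hP.apply_eq_zero S
  have hcdP : cd E1 E2 n P = 0 := cd_apply_eq_zero hEP.1 hEP.2 n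
  have hyL : (y : F) ∈ riemannRochSpace (cd E1 E2 n - Finsupp.single P (1 : ℤ)) := by
    rw [mem_L_sub_single_iff hcdP]
    constructor
    · rw [hyF']
      have h1 : (1 : F) ∈ riemannRochSpace (cd E1 E2 n) :=
        one_mem_L (cd_nonneg S.hE1 S.hE2 n)
      have h2 : algebraMap L F c⁻¹ * (u : F) ∈ riemannRochSpace (cd E1 E2 n) := by
        rw [← Algebra.smul_def]
        exact Submodule.smul_mem _ _ huL
      exact Submodule.sub_mem _ h2 h1
    · rw [hyF, map_mul]
      exact le_exp_neg_one_of_lt_one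
        (lt_of_le_of_lt (mul_le_of_le_one_left' (P.adicValuation_algebraMap_le_one _)) hc)
  have hred := hP n hn y hyL
  have hry : (red y).1 = algebraMap k F₁ (π ⟨c⁻¹, hinvA⟩) * (red u).1 - 1 := by
    rw [hy, map_sub, map_mul, map_one, hcO, Prod.fst_sub, Prod.fst_mul, Prod.fst_one,
      Prod.algebraMap_apply]
  rw [hry] at hred
  have hx : Q.adicValuation (algebraMap k F₁ (π ⟨c⁻¹, hinvA⟩) * (red u).1) < 1 := by
    rw [map_mul]
    exact lt_of_le_of_lt (mul_le_of_le_one_left' (Q.adicValuation_algebraMap_le_one _)) hu0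
  have h1 : Q.adicValuation (algebraMap k F₁ (π ⟨c⁻¹, hinvA⟩) * (red u).1 - 1) = 1 := by
    have h := Valuation.map_sub_eq_of_lt_right (v := Q.adicValuation)
      (x := algebraMap k F₁ (π ⟨c⁻¹, hinvA⟩) * (red u).1) (y := 1) (by rw [map_one]; exact hx)
    rw [h, map_one]
  rw [h1, ← exp_zero, exp_le_exp] at hred
  omega

section OneSided

variable (Oi : Subring F) (hOi : O ≤ Oi) (redi : Oi →+* F₁)
  (hredi : ∀ y : O, redi ⟨(y : F), hOi y.2⟩ = (red y).1)
  (hpow : ∀ β : O, (red β).2 = 0 → ∀ g : F, g ∈ Oi → ∃ N : ℕ, (β : F) ^ N * g ∈ O)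
  (hinvi : ∀ (f : F) (hf : f ∈ Oi), redi ⟨f, hf⟩ ≠ 0 → f⁻¹ ∈ Oi)

include hredi hpow hinvi in
/-- **One zero through each value.**  Let `u` be a chart section whose reduction has a SIMPLE
zero at the smooth non-node point `Q`, `P` a place of the disc of `Q` and `c = u(P)`.  Then
`c ∈ 𝔪_A`, `u - c` has a simple zero at `P`, and neither zero nor pole at the other places of the
disc of `Q`. -/
theorem ord_sub_const_of_simple_zero (S : Setup A O red π e₁ e₂ P₁ Z₁ P₂ Z₂ E1 E2 N₀) {x : F}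
    (hF : IsFF1 L F x) {x₁ : F₁} {x₂ : F₂} (h₁ : IsFF1 k F₁ x₁) (h₂ : IsFF1 k F₂ x₂)
    [Infinite k] {Q : Place k F₁} (hQ : ∀ i, e₁ i ≠ Q) (hQP : P₁ Q = 0) (hQZ : Z₁ Q = 0)
    (u : O) {n : ℕ × ℕ} (hn : N₀ ≤ n.1 + n.2) (huL : (u : F) ∈ riemannRochSpace (cd E1 E2 n))
    (hu1 : Q.ord (red u).1 = 1) {P : Place L F} (hP : RedTo red E1 E2 N₀ Q P) {c : L}
    (hc : Cong P (u : F) c) :
    A.valuation c < 1 ∧ P.ord ((u : F) - algebraMap L F c) = 1 ∧
      ∀ P' : Place L F, RedTo red E1 E2 N₀ Q P' → P' ≠ P →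
        P'.ord ((u : F) - algebraMap L F c) = 0 := by
  classical
  have hu10 : (red u).1 ≠ 0 := by
    intro h0
    rw [h0, Place.ord_zero] at hu1
    exact zero_ne_one hu1
  have hu0 : Q.adicValuation (red u).1 < 1 := by
    rw [Q.adicValuation_eq_exp_neg_ord hu10, hu1, ← exp_zero, exp_lt_exp]
    norm_num
  have hcA := valuation_lt_one_of_cong S u hn huL hu0 hP hc
  have hcA' : c ∈ A := (A.valuation_le_one_iff _).1 hcA.le
  refine ⟨hcA, ?_⟩
  -- the function `u - c` as an element of `O`, with the reduction of `u`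
  have hredf : red (u - ⟨algebraMap L F c, (S.hOA _).2 hcA'⟩) = red u := by
    rw [map_sub, S.hconst ⟨c, hcA'⟩, (S.hπker ⟨c, hcA'⟩).2 hcA, map_zero, sub_zero]
  have hfO : ((u - ⟨algebraMap L F c, (S.hOA _).2 hcA'⟩ : O) : F) = (u : F) - algebraMap L F c :=
    rfl
  have hfi : (u : F) - algebraMap L F c ∈ Oi := by
    rw [← hfO]
    exact hOi (u - ⟨algebraMap L F c, (S.hOA _).2 hcA'⟩ : O).2
  have hredi' : redi ⟨(u : F) - algebraMap L F c, hfi⟩ = (red u).1 := by
    rw [← hredf, ← hredi]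
    rfl
  have hne : redi ⟨(u : F) - algebraMap L F c, hfi⟩ ≠ 0 := by
    rw [hredi']
    exact hu10
  have hfinv := hinvi _ hfi hne
  have hf0 : (u : F) - algebraMap L F c ≠ 0 := by
    intro h0
    apply hne
    have : (⟨(u : F) - algebraMap L F c, hfi⟩ : Oi) = 0 := Subtype.ext h0
    rw [this, map_zero]
  haveI := hF.hasPrincipalDivisors
  obtain ⟨D, hD, -⟩ := HasPrincipalDivisors.exists_divisor (K := L)
    ((u : F) - algebraMap L F c) hf0
  have hT : ∀ P, P ∈ D.support.filter (fun P => RedTo red E1 E2 N₀ Q P) ↔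
      D P ≠ 0 ∧ RedTo red E1 E2 N₀ Q P := by
    intro P
    rw [Finset.mem_filter, Finsupp.mem_support_iff]
  have key := ord_redi_eq Oi hOi redi hredi hpow S hF h₁ h₂ hQ hQP hQZ
    ((u : F) - algebraMap L F c) hfi hfinv hf0 D hD _ hT
  rw [hredi', hu1] at key
  -- no pole in the disc
  have hnn : ∀ P' : Place L F, RedTo red E1 E2 N₀ Q P' → 0 ≤ D P' := by
    intro P' hP'
    rw [hD]
    have hEP := hP'.apply_eq_zero S
    have hcdP : cd E1 E2 n P' = 0 := cd_apply_eq_zero hEP.1 hEP.2 n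
    have hu' : P'.adicValuation (u : F) ≤ 1 := by
      have := huL P'
      rwa [hcdP, exp_zero] at this
    have hle : P'.adicValuation ((u : F) - algebraMap L F c) ≤ 1 :=
      (Valuation.map_sub _ _ _).trans (max_le hu' (P'.adicValuation_algebraMap_le_one c))
    rcases (Place.adicValuation_le_one_iff P').1 hle with h0 | h0
    · exact absurd h0 hf0
    · exact h0
  -- a zero at `P`
  have hP1 : 1 ≤ D P := by
    rw [hD]
    have h := hc
    unfold Cong at h
    rw [P.adicValuation_eq_exp_neg_ord hf0, ← exp_zero, exp_lt_exp] at h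
    omega
  have hPT : P ∈ D.support.filter (fun P => RedTo red E1 E2 N₀ Q P) :=
    (hT P).2 ⟨by omega, hP⟩
  have hsplit := Finset.add_sum_erase _ (fun P => D P) hPT
  have hrest : 0 ≤ ∑ P' ∈ (D.support.filter (fun P => RedTo red E1 E2 N₀ Q P)).erase P, D P' :=
    Finset.sum_nonneg (fun P' hP' => hnn P' ((hT P').1 (Finset.mem_of_mem_erase hP')).2)
  have hDP : D P = 1 := by omega
  have hrest0 : ∑ P' ∈ (D.support.filter (fun P => RedTo red E1 E2 N₀ Q P)).erase P, D P' = 0 := by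
    omega
  refine ⟨by rw [← hD, hDP], fun P' hP' hne' => ?_⟩
  rw [← hD]
  by_contra hD0
  have hmem : P' ∈ (D.support.filter (fun P => RedTo red E1 E2 N₀ Q P)).erase P :=
    Finset.mem_erase.2 ⟨hne', (hT P').2 ⟨hD0, hP'⟩⟩
  exact hD0 ((Finset.sum_eq_zero_iff_of_nonneg
    (fun P'' hP'' => hnn P'' ((hT P'').1 (Finset.mem_of_mem_erase hP'')).2)).1 hrest0 P' hmem)

open Classical in
include hredi hpow hinvi in
/-- **(MOVE-Q), core.**  With `u` as above, `s` a finite set of places of the disc of `Q`,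
`c P = u(P)`: the function `∏_{P ∈ s} (u - c P) ^ m P` has order `m P'` at `P' ∈ s` and order `0`
at the other places of the disc. -/
theorem ord_prod_sub_const (S : Setup A O red π e₁ e₂ P₁ Z₁ P₂ Z₂ E1 E2 N₀) {x : F}
    (hF : IsFF1 L F x) {x₁ : F₁} {x₂ : F₂} (h₁ : IsFF1 k F₁ x₁) (h₂ : IsFF1 k F₂ x₂)
    [Infinite k] {Q : Place k F₁} (hQ : ∀ i, e₁ i ≠ Q) (hQP : P₁ Q = 0) (hQZ : Z₁ Q = 0)
    (u : O) {n : ℕ × ℕ} (hn : N₀ ≤ n.1 + n.2) (huL : (u : F) ∈ riemannRochSpace (cd E1 E2 n))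
    (hu1 : Q.ord (red u).1 = 1) (s : Finset (Place L F))
    (hs : ∀ P ∈ s, RedTo red E1 E2 N₀ Q P) (c : Place L F → L)
    (hc : ∀ P ∈ s, Cong P (u : F) (c P)) (m : Place L F → ℤ) {P' : Place L F}
    (hP' : RedTo red E1 E2 N₀ Q P') :
    P'.ord (∏ P ∈ s, ((u : F) - algebraMap L F (c P)) ^ m P) = if P' ∈ s then m P' else 0 := by
  classical
  have hfac : ∀ P ∈ s, (u : F) - algebraMap L F (c P) ≠ 0 := by
    intro P hP h0
    have h := (ord_sub_const_of_simple_zero Oi hOi redi hredi hpow hinvi S hF h₁ h₂ hQ hQP hQZ u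
      hn huL hu1 (hs P hP) (hc P hP)).2.1
    rw [h0, Place.ord_zero] at h
    exact zero_ne_one h
  rw [ord_prod_of_ne_zero P' s _ (fun P hP => zpow_ne_zero _ (hfac P hP))]
  have hterm : ∀ P ∈ s, P'.ord (((u : F) - algebraMap L F (c P)) ^ m P) =
      if P' = P then m P else 0 := by
    intro P hP
    have h := ord_sub_const_of_simple_zero Oi hOi redi hredi hpow hinvi S hF h₁ h₂ hQ hQP hQZ u
      hn huL hu1 (hs P hP) (hc P hP)
    rw [Place.ord_zpow]
    split_ifs with hPP
    · subst hPP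
      rw [h.2.1, mul_one]
    · rw [h.2.2 P' hP' hPP, mul_zero]
  rw [Finset.sum_congr rfl hterm, Finset.sum_ite_eq]

end OneSided

end Two

end Fermat.Agent.BAD.SmoothOrd

namespace Fermat.Agent.BAD.SmoothOrdZero

open AlgebraicCurve ModularCurve WithZero Fermat.Agent.Lib.FF Fermat.Agent.Lib.Red.Deform
  Fermat.Agent.Lib.Red.CoordLat Fermat.Agent.BAD.NodalDiv Fermat.Agent.BAD.NodalRiemann
  Fermat.Agent.BAD.TwoVal Fermat.Agent.BAD.NodalAsm Fermat.Agent.BAD.BadU
  Fermat.Agent.BAD.SmoothLift Fermat.Agent.BAD.SmoothOrd Fermat.Agent.BAD.SmoothLiftInst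
  Fermat.Agent.BAD.SmoothOrdInst

local notation "Qb" => AlgebraicClosure ℚ

variable {A : ValuationSubring Qb} {k : Type} [Field k] {π : A →+* k} {M q : ℕ} [NeZero M]
  [NeZero q]

variable [IsAlgClosed k] {h : BadSetup A π M q}
  {W : laurentBaseChange Qb (modularFunctionFieldFull (M * q)) ≃ₐ[Qb]
    laurentBaseChange Qb (modularFunctionFieldFull (M * q))}
  {E1 E2 : Divisor Qb (laurentBaseChange Qb (modularFunctionFieldFull (M * q)))}
  {ι : Type} [Fintype ι]
  {e₁ e₂ : ι → Place k (modularFunctionFieldFullC k M)}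
  {P₁ Z₁ P₂ Z₂ : Divisor k (modularFunctionFieldFullC k M)} {N₀ : ℕ}

/-- Every chart section has a value at every place of a disc (the discs avoid the chart
poles). -/
theorem exists_cong_of_redTo
    {red' : OPair h W →+* ↥(modularFunctionFieldFullC k M) × ↥(modularFunctionFieldFullC k M)}
    {e₁' e₂' : ι → Place k (modularFunctionFieldFullC k M)}
    {P₁' Z₁' P₂' Z₂' : Divisor k (modularFunctionFieldFullC k M)}
    (S' : Setup A (OPair h W) red' π e₁' e₂' P₁' Z₁' P₂' Z₂' E1 E2 N₀)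
    {Qt : Place k (modularFunctionFieldFullC k M)}
    {u : laurentBaseChange Qb (modularFunctionFieldFull (M * q))} {n : ℕ × ℕ}
    (huL : u ∈ riemannRochSpace (cd E1 E2 n))
    {P : Place Qb (laurentBaseChange Qb (modularFunctionFieldFull (M * q)))}
    (hP : RedTo red' E1 E2 N₀ Qt P) : ∃ c : Qb, Cong P u c := by
  have hEP := hP.apply_eq_zero S'
  have hcdP : cd E1 E2 n P = 0 := cd_apply_eq_zero hEP.1 hEP.2 n
  have hu' : P.adicValuation u ≤ 1 := by
    have := huL P
    rwa [hcdP, exp_zero] at this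
  exact exists_cong ((isFF1_xL Qb (M * q)).resK P) hu'

/-- **One zero through each value, first component.** -/
theorem ord_sub_const_redInf
    (S : Setup A (OPair h W) (redPair h W) π e₁ e₂ P₁ Z₁ P₂ Z₂ E1 E2 N₀)
    (Qt : Place k (modularFunctionFieldFullC k M)) (hQ : ∀ i, e₁ i ≠ Qt)
    (hQP : P₁ Qt = 0) (hQZ : Z₁ Qt = 0)
    (u : OPair h W) {n : ℕ × ℕ} (hn : N₀ ≤ n.1 + n.2)
    (huL : (u : laurentBaseChange Qb (modularFunctionFieldFull (M * q))) ∈
      riemannRochSpace (cd E1 E2 n))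
    (hu1 : Qt.ord (redPair h W u).1 = 1)
    {P : Place Qb (laurentBaseChange Qb (modularFunctionFieldFull (M * q)))}
    (hP : RedTo (redPair h W) E1 E2 N₀ Qt P) {c : Qb}
    (hc : Cong P (u : laurentBaseChange Qb (modularFunctionFieldFull (M * q))) c) :
    A.valuation c < 1 ∧
      P.ord ((u : laurentBaseChange Qb (modularFunctionFieldFull (M * q))) -
        algebraMap Qb _ c) = 1 ∧
      ∀ P' : Place Qb (laurentBaseChange Qb (modularFunctionFieldFull (M * q))),
        RedTo (redPair h W) E1 E2 N₀ Qt P' → P' ≠ P →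
        P'.ord ((u : laurentBaseChange Qb (modularFunctionFieldFull (M * q))) -
          algebraMap Qb _ c) = 0 :=
  ord_sub_const_of_simple_zero (OInf h).toSubring (fun y hy => ((mem_OPair_iff h y).1 hy).1)
    (redInf h) (fun _ => rfl) (exists_pow_mul_mem_OPair_inf h W)
    (fun f hf hne => inv_mem_OInf h f hf hne) S
    (isFF1_xL Qb (M * q)) (isFF1_xk k M) (isFF1_xk k M) hQ hQP hQZ u hn huL hu1 hP hc

open Classical in
/-- **(MOVE-Q), core, first component.** -/
theorem ord_prod_sub_const_redInf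
    (S : Setup A (OPair h W) (redPair h W) π e₁ e₂ P₁ Z₁ P₂ Z₂ E1 E2 N₀)
    (Qt : Place k (modularFunctionFieldFullC k M)) (hQ : ∀ i, e₁ i ≠ Qt)
    (hQP : P₁ Qt = 0) (hQZ : Z₁ Qt = 0)
    (u : OPair h W) {n : ℕ × ℕ} (hn : N₀ ≤ n.1 + n.2)
    (huL : (u : laurentBaseChange Qb (modularFunctionFieldFull (M * q))) ∈
      riemannRochSpace (cd E1 E2 n))
    (hu1 : Qt.ord (redPair h W u).1 = 1)
    (s : Finset (Place Qb (laurentBaseChange Qb (modularFunctionFieldFull (M * q)))))
    (hs : ∀ P ∈ s, RedTo (redPair h W) E1 E2 N₀ Qt P)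
    (c : Place Qb (laurentBaseChange Qb (modularFunctionFieldFull (M * q))) → Qb)
    (hc : ∀ P ∈ s, Cong P (u : laurentBaseChange Qb (modularFunctionFieldFull (M * q))) (c P))
    (m : Place Qb (laurentBaseChange Qb (modularFunctionFieldFull (M * q))) → ℤ)
    {P' : Place Qb (laurentBaseChange Qb (modularFunctionFieldFull (M * q)))}
    (hP' : RedTo (redPair h W) E1 E2 N₀ Qt P') :
    P'.ord (∏ P ∈ s, ((u : laurentBaseChange Qb (modularFunctionFieldFull (M * q))) -
      algebraMap Qb _ (c P)) ^ m P) = if P' ∈ s then m P' else 0 :=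
  ord_prod_sub_const (OInf h).toSubring (fun y hy => ((mem_OPair_iff h y).1 hy).1)
    (redInf h) (fun _ => rfl) (exists_pow_mul_mem_OPair_inf h W)
    (fun f hf hne => inv_mem_OInf h f hf hne) S
    (isFF1_xL Qb (M * q)) (isFF1_xk k M) (isFF1_xk k M) hQ hQP hQZ u hn huL hu1 s hs c hc m hP'

/-- **One zero through each value, second component.** -/
theorem ord_sub_const_redZero
    (S : Setup A (OPair h W) (redPair h W) π e₁ e₂ P₁ Z₁ P₂ Z₂ E1 E2 N₀)
    (Qt : Place k (modularFunctionFieldFullC k M)) (hQ : ∀ i, e₂ i ≠ Qt)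
    (hQP : P₂ Qt = 0) (hQZ : Z₂ Qt = 0)
    (u : OPair h W) {n : ℕ × ℕ} (hn : N₀ ≤ n.1 + n.2)
    (huL : (u : laurentBaseChange Qb (modularFunctionFieldFull (M * q))) ∈
      riemannRochSpace (cd E1 E2 n))
    (hu1 : Qt.ord (redPair h W u).2 = 1)
    {P : Place Qb (laurentBaseChange Qb (modularFunctionFieldFull (M * q)))}
    (hP : RedTo (redSwap (redPair h W)) E1 E2 N₀ Qt P) {c : Qb}
    (hc : Cong P (u : laurentBaseChange Qb (modularFunctionFieldFull (M * q))) c) :
    A.valuation c < 1 ∧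
      P.ord ((u : laurentBaseChange Qb (modularFunctionFieldFull (M * q))) -
        algebraMap Qb _ c) = 1 ∧
      ∀ P' : Place Qb (laurentBaseChange Qb (modularFunctionFieldFull (M * q))),
        RedTo (redSwap (redPair h W)) E1 E2 N₀ Qt P' → P' ≠ P →
        P'.ord ((u : laurentBaseChange Qb (modularFunctionFieldFull (M * q))) -
          algebraMap Qb _ c) = 0 :=
  ord_sub_const_of_simple_zero (OZero h W).toSubring
    (fun y hy => ((mem_OPair_iff h y).1 hy).2)
    (redZero h W) (fun _ => rfl) (exists_pow_mul_mem_OPair_zero h W)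
    (fun f hf hne => inv_mem_OZero h f hf hne) S.swap
    (isFF1_xL Qb (M * q)) (isFF1_xk k M) (isFF1_xk k M) hQ hQP hQZ u hn huL hu1 hP hc

open Classical in
/-- **(MOVE-Q), core, second component.** -/
theorem ord_prod_sub_const_redZero
    (S : Setup A (OPair h W) (redPair h W) π e₁ e₂ P₁ Z₁ P₂ Z₂ E1 E2 N₀)
    (Qt : Place k (modularFunctionFieldFullC k M)) (hQ : ∀ i, e₂ i ≠ Qt)
    (hQP : P₂ Qt = 0) (hQZ : Z₂ Qt = 0)
    (u : OPair h W) {n : ℕ × ℕ} (hn : N₀ ≤ n.1 + n.2)
    (huL : (u : laurentBaseChange Qb (modularFunctionFieldFull (M * q))) ∈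
      riemannRochSpace (cd E1 E2 n))
    (hu1 : Qt.ord (redPair h W u).2 = 1)
    (s : Finset (Place Qb (laurentBaseChange Qb (modularFunctionFieldFull (M * q)))))
    (hs : ∀ P ∈ s, RedTo (redSwap (redPair h W)) E1 E2 N₀ Qt P)
    (c : Place Qb (laurentBaseChange Qb (modularFunctionFieldFull (M * q))) → Qb)
    (hc : ∀ P ∈ s, Cong P (u : laurentBaseChange Qb (modularFunctionFieldFull (M * q))) (c P))
    (m : Place Qb (laurentBaseChange Qb (modularFunctionFieldFull (M * q))) → ℤ)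
    {P' : Place Qb (laurentBaseChange Qb (modularFunctionFieldFull (M * q)))}
    (hP' : RedTo (redSwap (redPair h W)) E1 E2 N₀ Qt P') :
    P'.ord (∏ P ∈ s, ((u : laurentBaseChange Qb (modularFunctionFieldFull (M * q))) -
      algebraMap Qb _ (c P)) ^ m P) = if P' ∈ s then m P' else 0 :=
  ord_prod_sub_const (OZero h W).toSubring (fun y hy => ((mem_OPair_iff h y).1 hy).2)
    (redZero h W) (fun _ => rfl) (exists_pow_mul_mem_OPair_zero h W)
    (fun f hf hne => inv_mem_OZero h f hf hne) S.swap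
    (isFF1_xL Qb (M * q)) (isFF1_xk k M) (isFF1_xk k M) hQ hQP hQZ u hn huL hu1 s hs c hc m hP'

end Fermat.Agent.BAD.SmoothOrdZero
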