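/-
TR brick (MOVE-Q) = (GEN) on a smooth disc: **fixed local generators of a divisor on the residue
disc of a smooth point.**

For a non-node place `Qt` of a component of the nodal fibre of `X₀(Mq)` (off the chart divisors
of a `SmoothLift.Setup` on `OPair h W`), a set `H` of inertia elements and an `H`-stable divisor
`D` of the generic fibre, there is a function `g ≠ 0`, fixed by `H`, a unit of the valuation ring
of the component, with `ord_P g = D P` at EVERY place `P` of the disc of `Qt`: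
`g = ∏_{P ∈ supp D ∩ disc} (u - u(P)) ^ D P` for an inertia-fixed chart section `u` whose
reduction has a simple zero at `Qt`.

* `SmoothOrd.zpow_mem_of_inv_mem`, `SmoothOrd.prod_zpow_mem` : units of a subring;
* `SmoothOrd.smul_prod_sub_const` : an automorphism fixing `u` and permuting `s` compatibly with
  the exponents fixes `∏_{P ∈ s} (u - u(P)) ^ m P`;
* `exists_fixed_simple_section` : an inertia-fixed chart section with a simple zero at `Qt`;
* `exists_fixed_generator_redInf`, `exists_fixed_generator_redZero` : the generators.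
-/
import Mathlib
import Fermat.Agent.BAD.SmoothOrdZero

set_option autoImplicit false
set_option linter.style.haveILetI false
set_option linter.unusedSectionVars false

noncomputable section

namespace Fermat.Agent.BAD.SmoothOrd

open AlgebraicCurve WithZero Fermat.Agent.Lib.FF Fermat.Agent.Lib.Red.Deform
  Fermat.Agent.Lib.Red.CoordLat Fermat.Agent.BAD.NodalRiemann
  Fermat.Agent.Padic.S33.RC.NodalMul Fermat.Agent.Lib.FF.BasePoint Fermat.Agent.BAD.SmoothLift

theorem zpow_mem_of_inv_mem {F : Type*} [Field F] (Oi : Subring F) {x : F} (hx : x ∈ Oi)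
    (hx' : x⁻¹ ∈ Oi) (m : ℤ) : x ^ m ∈ Oi := by
  cases m with
  | ofNat n =>
    rw [Int.ofNat_eq_natCast, zpow_natCast]
    exact pow_mem hx n
  | negSucc n =>
    rw [zpow_negSucc, ← inv_pow]
    exact pow_mem hx' (n + 1)

theorem prod_zpow_mem {F : Type*} [Field F] (Oi : Subring F) {α : Type*} (s : Finset α)
    (f : α → F) (m : α → ℤ) (hf : ∀ a ∈ s, f a ∈ Oi ∧ (f a)⁻¹ ∈ Oi) :
    ∏ a ∈ s, f a ^ m a ∈ Oi ∧ (∏ a ∈ s, f a ^ m a)⁻¹ ∈ Oi := by
  constructor
  · exact Subring.prod_mem _ (fun a ha => zpow_mem_of_inv_mem Oi (hf a ha).1 (hf a ha).2 _)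
  · rw [← Finset.prod_inv_distrib]
    refine Subring.prod_mem _ (fun a ha => ?_)
    rw [← zpow_neg]
    exact zpow_mem_of_inv_mem Oi (hf a ha).1 (hf a ha).2 _

/-- A semilinear automorphism fixing `u`, mapping the finite set of places `s` into itself and
preserving the exponents fixes `∏_{P ∈ s} (u - u(P)) ^ m P`. -/
theorem smul_prod_sub_const {L F : Type*} [Field L] [Field F] [Algebra L F]
    (g : SemilinearAut L F) {u : F} (hgu : g • u = u) (s : Finset (Place L F))
    (hs : ∀ P ∈ s, g • P ∈ s) (c : Place L F → L) (hc : ∀ P ∈ s, Cong P u (c P))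
    (m : Place L F → ℤ) (hm : ∀ P ∈ s, m (g • P) = m P) :
    g • (∏ P ∈ s, (u - algebraMap L F (c P)) ^ m P) =
      ∏ P ∈ s, (u - algebraMap L F (c P)) ^ m P := by
  classical
  have hinj : ∀ a ∈ s, ∀ b ∈ s, g • a = g • b → a = b :=
    fun a _ b _ hab => MulAction.injective g hab
  have himg : s.image (fun P => g • P) = s := by
    refine Finset.eq_of_subset_of_card_le ?_ ?_
    · intro P' hP'
      obtain ⟨P, hP, rfl⟩ := Finset.mem_image.1 hP'
      exact hs P hP
    · rw [Finset.card_image_of_injOn (fun a ha b hb hab => hinj a ha b hb hab)]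
  have hval : ∀ P ∈ s, SemilinearAut.baseAut g (c P) = c (g • P) := by
    intro P hP
    have h1 : Cong (g • P) u (SemilinearAut.baseAut g (c P)) := by
      have h := hc P hP
      unfold Cong at h ⊢
      have e : u - algebraMap L F (SemilinearAut.baseAut g (c P))
          = g • (u - algebraMap L F (c P)) := by
        rw [smul_sub, SemilinearAut.smul_algebraMap, hgu]
      rw [e, Fermat.Agent.Padic.adicValuation_semilinear_smul]
      exact h
    exact h1.unique (hc _ (hs P hP))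
  calc g • (∏ P ∈ s, (u - algebraMap L F (c P)) ^ m P)
      = ∏ P ∈ s, (u - algebraMap L F (c (g • P))) ^ m (g • P) := by
        rw [SemilinearAut.smul_def, map_prod]
        refine Finset.prod_congr rfl (fun P hP => ?_)
        rw [map_zpow₀, map_sub, ← SemilinearAut.smul_def, ← SemilinearAut.smul_def, hgu,
          SemilinearAut.smul_algebraMap, hval P hP, hm P hP]
    _ = ∏ P' ∈ s.image (fun P => g • P), (u - algebraMap L F (c P')) ^ m P' := by
        rw [Finset.prod_image hinj]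
    _ = ∏ P ∈ s, (u - algebraMap L F (c P)) ^ m P := by rw [himg]

section Two

variable {L F : Type*} [Field L] [Field F] [Algebra L F]
variable {A : ValuationSubring L} {O : Subring F}
variable {k F₁ F₂ : Type*} [Field k] [Field F₁] [Field F₂] [Algebra k F₁] [Algebra k F₂]
variable {ι : Type*} [Fintype ι]
variable {red : O →+* F₁ × F₂} {π : A →+* k} {e₁ : ι → Place k F₁} {e₂ : ι → Place k F₂}
  {P₁ Z₁ : Divisor k F₁} {P₂ Z₂ : Divisor k F₂} {E1 E2 : Divisor L F} {N₀ : ℕ}

variable (Oi : Subring F) (hOi : O ≤ Oi) (redi : Oi →+* F₁)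
  (hredi : ∀ y : O, redi ⟨(y : F), hOi y.2⟩ = (red y).1)
  (hpow : ∀ β : O, (red β).2 = 0 → ∀ g : F, g ∈ Oi → ∃ N : ℕ, (β : F) ^ N * g ∈ O)
  (hinvi : ∀ (f : F) (hf : f ∈ Oi), redi ⟨f, hf⟩ ≠ 0 → f⁻¹ ∈ Oi)

include hredi hinvi in
/-- For a chart section `u` with nonzero first reduction and a constant `c ∈ 𝔪_A`, the function
`u - c` is a unit of `Oi`. -/
theorem sub_const_unit (S : Setup A O red π e₁ e₂ P₁ Z₁ P₂ Z₂ E1 E2 N₀) (u : O)
    (hu10 : (red u).1 ≠ 0) {c : L} (hcA : A.valuation c < 1) :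
    (u : F) - algebraMap L F c ∈ Oi ∧ ((u : F) - algebraMap L F c)⁻¹ ∈ Oi := by
  have hcA' : c ∈ A := (A.valuation_le_one_iff _).1 hcA.le
  have hredf : red (u - ⟨algebraMap L F c, (S.hOA _).2 hcA'⟩) = red u := by
    rw [map_sub, S.hconst ⟨c, hcA'⟩, (S.hπker ⟨c, hcA'⟩).2 hcA, map_zero, sub_zero]
  have hfO : ((u - ⟨algebraMap L F c, (S.hOA _).2 hcA'⟩ : O) : F) = (u : F) - algebraMap L F c :=
    rfl
  have hfi : (u : F) - algebraMap L F c ∈ Oi := by
    rw [← hfO]
    exact hOi (u - ⟨algebraMap L F c, (S.hOA _).2 hcA'⟩ : O).2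
  refine ⟨hfi, hinvi _ hfi ?_⟩
  have e : redi ⟨(u : F) - algebraMap L F c, hfi⟩ = (red u).1 := by
    rw [← hredf, ← hredi]
    rfl
  rw [e]
  exact hu10

include hredi hpow hinvi in
/-- The product `∏_{P ∈ s} (u - u(P)) ^ m P` is a nonzero unit of `Oi`. -/
theorem prod_sub_const_spec (S : Setup A O red π e₁ e₂ P₁ Z₁ P₂ Z₂ E1 E2 N₀) {x : F}
    (hF : IsFF1 L F x) {x₁ : F₁} {x₂ : F₂} (h₁ : IsFF1 k F₁ x₁) (h₂ : IsFF1 k F₂ x₂)
    [Infinite k] {Q : Place k F₁} (hQ : ∀ i, e₁ i ≠ Q) (hQP : P₁ Q = 0) (hQZ : Z₁ Q = 0)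
    (u : O) {n : ℕ × ℕ} (hn : N₀ ≤ n.1 + n.2) (huL : (u : F) ∈ riemannRochSpace (cd E1 E2 n))
    (hu1 : Q.ord (red u).1 = 1) (s : Finset (Place L F))
    (hs : ∀ P ∈ s, RedTo red E1 E2 N₀ Q P) (c : Place L F → L)
    (hc : ∀ P ∈ s, Cong P (u : F) (c P)) (m : Place L F → ℤ) :
    (∏ P ∈ s, ((u : F) - algebraMap L F (c P)) ^ m P) ≠ 0 ∧
      (∏ P ∈ s, ((u : F) - algebraMap L F (c P)) ^ m P) ∈ Oi ∧
      (∏ P ∈ s, ((u : F) - algebraMap L F (c P)) ^ m P)⁻¹ ∈ Oi := by
  have hu10 : (red u).1 ≠ 0 := by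
    intro h0
    rw [h0, Place.ord_zero] at hu1
    exact zero_ne_one hu1
  have hone := fun P (hP : P ∈ s) =>
    ord_sub_const_of_simple_zero Oi hOi redi hredi hpow hinvi S hF h₁ h₂ hQ hQP hQZ u hn huL hu1
      (hs P hP) (hc P hP)
  have hunit : ∀ P ∈ s, (u : F) - algebraMap L F (c P) ∈ Oi ∧
      ((u : F) - algebraMap L F (c P))⁻¹ ∈ Oi :=
    fun P hP => sub_const_unit Oi hOi redi hredi hinvi S u hu10 (hone P hP).1
  refine ⟨Finset.prod_ne_zero_iff.2 (fun P hP => zpow_ne_zero _ ?_),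
    (prod_zpow_mem Oi s _ _ hunit).1, (prod_zpow_mem Oi s _ _ hunit).2⟩
  intro h0
  have h := (hone P hP).2.1
  rw [h0, Place.ord_zero] at h
  exact zero_ne_one h

end Two

end Fermat.Agent.BAD.SmoothOrd

namespace Fermat.Agent.BAD.SmoothOrdMove

open AlgebraicCurve ModularCurve WithZero Fermat.Agent.Lib.FF Fermat.Agent.Lib.Red.Deform
  Fermat.Agent.Lib.Red.CoordLat Fermat.Agent.BAD.NodalDiv Fermat.Agent.BAD.NodalRiemann
  Fermat.Agent.BAD.TwoVal Fermat.Agent.BAD.NodalAsm Fermat.Agent.BAD.BadU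
  Fermat.Agent.BAD.SmoothLift Fermat.Agent.BAD.SmoothOrd Fermat.Agent.BAD.SmoothLiftInst
  Fermat.Agent.BAD.SmoothOrdInst Fermat.Agent.BAD.NodalPlus Fermat.Agent.BAD.SmoothOrdZero

local notation "Qb" => AlgebraicClosure ℚ

variable {A : ValuationSubring Qb} {k : Type} [Field k] {π : A →+* k} {M q : ℕ} [NeZero M]
  [NeZero q]

variable [IsAlgClosed k] {h : BadSetup A π M q}
  {W : laurentBaseChange Qb (modularFunctionFieldFull (M * q)) ≃ₐ[Qb]
    laurentBaseChange Qb (modularFunctionFieldFull (M * q))}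
  {E1 E2 : Divisor Qb (laurentBaseChange Qb (modularFunctionFieldFull (M * q)))}
  {ι : Type} [Fintype ι]
  {e₁ e₂ : ι → Place k (modularFunctionFieldFullC k M)}
  {P₁ Z₁ P₂ Z₂ : Divisor k (modularFunctionFieldFullC k M)} {N₀ : ℕ}
  {red : OPair h W →+* ↥(modularFunctionFieldFullC k M) × ↥(modularFunctionFieldFullC k M)}

set_option maxHeartbeats 1000000 in
/-- **An inertia-fixed chart section with a simple zero at `Qt`** (any setup on `OPair h W`
with inertia-fixed lifts). -/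
theorem exists_fixed_simple_section (hI : Inertial h W red)
    (S : Setup A (OPair h W) red π e₁ e₂ P₁ Z₁ P₂ Z₂ E1 E2 N₀)
    (hgalE : ∀ σ ∈ A.inertiaSubgroupIn ℚ,
      arithmeticGalois (modularFunctionFieldFull (M * q)) σ • E1 = E1 ∧
      arithmeticGalois (modularFunctionFieldFull (M * q)) σ • E2 = E2)
    (Qt : Place k (modularFunctionFieldFullC k M))
    (hQt : ∀ i, e₁ i ≠ Qt) (hQP : P₁ Qt = 0) :
    ∃ (u : OPair h W) (n : ℕ × ℕ), N₀ ≤ n.1 + n.2 ∧
      (u : laurentBaseChange Qb (modularFunctionFieldFull (M * q))) ∈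
        riemannRochSpace (cd E1 E2 n) ∧
      (∀ σ ∈ A.inertiaSubgroupIn ℚ,
        arithmeticGalois (modularFunctionFieldFull (M * q)) σ •
          (u : laurentBaseChange Qb (modularFunctionFieldFull (M * q))) = u) ∧
      Qt.ord (red u).1 = 1 ∧ (red u).2 ≠ 0 := by
  classical
  haveI : Infinite k := IsAlgClosed.instInfinite
  obtain ⟨n₀, hn₀⟩ := exists_simple_zero (isFF1_xk k M) (isFF1_xk k M) S.hinj₁ S.hinj₂ S.hP₁
    S.hP₂ S.hdegP₁ S.hdegP₂ hQt hQP
  obtain ⟨t, ht, hν, ht2⟩ := hn₀ (max n₀ N₀) (le_max_left _ _)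
  have ht' : t ∈ gluedSpace e₁ e₂ (fun _ => (1 : k))
      (cd P₁ Z₁ (max n₀ N₀, 0)) (cd P₂ Z₂ (max n₀ N₀, 0)) := by
    rw [cd_fst, cd_fst]
    exact ht
  have hN : N₀ ≤ ((max n₀ N₀, 0) : ℕ × ℕ).1 + ((max n₀ N₀, 0) : ℕ × ℕ).2 := by
    show N₀ ≤ max n₀ N₀ + 0
    rw [add_zero]
    exact le_max_right _ _
  obtain ⟨y, hy, hyt⟩ := (S.hS2 (max n₀ N₀, 0) hN t).2 ht'
  rw [cd_fst] at hy
  have hB : ∀ σ ∈ A.inertiaSubgroupIn ℚ,
      arithmeticGalois (modularFunctionFieldFull (M * q)) σ • ((max n₀ N₀) • E1)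
        = (max n₀ N₀) • E1 := by
    intro σ hσ
    ext v
    rw [SemilinearAut.divisor_smul_apply, Finsupp.smul_apply, Finsupp.smul_apply,
      ← SemilinearAut.divisor_smul_apply, (hgalE σ hσ).1]
  obtain ⟨u, huO, huL, hufix, hured⟩ := hI.lift ((max n₀ N₀) • E1) hB _ hy y.2
  have hured' : red ⟨u, huO⟩ = t := by
    rw [hured]
    exact hyt
  refine ⟨⟨u, huO⟩, (max n₀ N₀, 0), hN, by rw [cd_fst]; exact huL, hufix, ?_, ?_⟩
  · rw [hured']
    have ht1 : t.1 ≠ 0 := by
      intro h0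
      rw [h0, map_zero] at hν
      exact exp_ne_zero hν.symm
    rw [Qt.adicValuation_eq_exp_neg_ord ht1, exp_inj] at hν
    omega
  · rw [hured']
    exact ht2

set_option maxHeartbeats 400000 in
/-- **(MOVE-Q), general one-sided form.**  `Oi`, `redi` : the valuation ring and the residue map
of the first component of the setup. -/
theorem exists_fixed_generator_aux (hI : Inertial h W red)
    (S : Setup A (OPair h W) red π e₁ e₂ P₁ Z₁ P₂ Z₂ E1 E2 N₀)
    (Oi : Subring (laurentBaseChange Qb (modularFunctionFieldFull (M * q))))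
    (hOi : OPair h W ≤ Oi) (redi : Oi →+* ↥(modularFunctionFieldFullC k M))
    (hredi : ∀ y : OPair h W, redi ⟨(y : laurentBaseChange Qb (modularFunctionFieldFull (M * q))),
      hOi y.2⟩ = (red y).1)
    (hpow : ∀ β : OPair h W, (red β).2 = 0 →
      ∀ g : laurentBaseChange Qb (modularFunctionFieldFull (M * q)), g ∈ Oi →
        ∃ N : ℕ, (β : laurentBaseChange Qb (modularFunctionFieldFull (M * q))) ^ N * g ∈
          OPair h W)
    (hinvi : ∀ (f : laurentBaseChange Qb (modularFunctionFieldFull (M * q))) (hf : f ∈ Oi),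
      redi ⟨f, hf⟩ ≠ 0 → f⁻¹ ∈ Oi)
    (hgalE : ∀ σ ∈ A.inertiaSubgroupIn ℚ,
      arithmeticGalois (modularFunctionFieldFull (M * q)) σ • E1 = E1 ∧
      arithmeticGalois (modularFunctionFieldFull (M * q)) σ • E2 = E2)
    (Qt : Place k (modularFunctionFieldFullC k M))
    (hQt : ∀ i, e₁ i ≠ Qt) (hQP : P₁ Qt = 0) (hQZ : Z₁ Qt = 0)
    (H : Set (Qb ≃ₐ[ℚ] Qb)) (hH : ∀ σ ∈ H, σ ∈ A.inertiaSubgroupIn ℚ)
    (D : Divisor Qb (laurentBaseChange Qb (modularFunctionFieldFull (M * q))))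
    (hD : ∀ σ ∈ H, arithmeticGalois (modularFunctionFieldFull (M * q)) σ • D = D) :
    ∃ g : laurentBaseChange Qb (modularFunctionFieldFull (M * q)), g ≠ 0 ∧
      (∀ σ ∈ H, arithmeticGalois (modularFunctionFieldFull (M * q)) σ • g = g) ∧
      g ∈ Oi ∧ g⁻¹ ∈ Oi ∧
      ∀ P : Place Qb (laurentBaseChange Qb (modularFunctionFieldFull (M * q))),
        RedTo red E1 E2 N₀ Qt P → P.ord g = D P := by
  classical
  haveI : Infinite k := IsAlgClosed.instInfinite
  obtain ⟨u, n, hn, huL, hufix, hu1, -⟩ := exists_fixed_simple_section hI S hgalE Qt hQt hQP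
  -- the values of `u` on the disc
  have hex : ∀ P : Place Qb (laurentBaseChange Qb (modularFunctionFieldFull (M * q))),
      ∃ c : Qb, RedTo red E1 E2 N₀ Qt P →
        Cong P (u : laurentBaseChange Qb (modularFunctionFieldFull (M * q))) c := by
    intro P
    by_cases hP : RedTo red E1 E2 N₀ Qt P
    · obtain ⟨c, hc⟩ := exists_cong_of_redTo S huL hP
      exact ⟨c, fun _ => hc⟩
    · exact ⟨0, fun hP' => absurd hP' hP⟩
  choose c hc using hex
  have hs : ∀ P ∈ D.support.filter (fun P => RedTo red E1 E2 N₀ Qt P),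
      RedTo red E1 E2 N₀ Qt P := fun P hP => (Finset.mem_filter.1 hP).2
  have hcs : ∀ P ∈ D.support.filter (fun P => RedTo red E1 E2 N₀ Qt P),
      Cong P (u : laurentBaseChange Qb (modularFunctionFieldFull (M * q))) (c P) :=
    fun P hP => hc P (hs P hP)
  have spec := prod_sub_const_spec Oi hOi redi hredi hpow hinvi S
    (isFF1_xL Qb (M * q)) (isFF1_xk k M) (isFF1_xk k M) hQt hQP hQZ u hn huL hu1 _ hs c hcs
    (fun P => D P)
  have hord := fun (P' : Place Qb (laurentBaseChange Qb (modularFunctionFieldFull (M * q))))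
      (hP' : RedTo red E1 E2 N₀ Qt P') =>
    ord_prod_sub_const Oi hOi redi hredi hpow hinvi S
      (isFF1_xL Qb (M * q)) (isFF1_xk k M) (isFF1_xk k M) hQt hQP hQZ u hn huL hu1 _ hs c hcs
      (fun P => D P) hP'
  have hfix : ∀ σ ∈ H, arithmeticGalois (modularFunctionFieldFull (M * q)) σ •
      (∏ P ∈ D.support.filter (fun P => RedTo red E1 E2 N₀ Qt P),
        ((u : laurentBaseChange Qb (modularFunctionFieldFull (M * q))) -
          algebraMap Qb _ (c P)) ^ D P) =
      ∏ P ∈ D.support.filter (fun P => RedTo red E1 E2 N₀ Qt P),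
        ((u : laurentBaseChange Qb (modularFunctionFieldFull (M * q))) -
          algebraMap Qb _ (c P)) ^ D P := by
    intro σ hσ
    have hσI := hH σ hσ
    refine smul_prod_sub_const _ (hufix σ hσI) _ (fun P hP => ?_) c hcs _ (fun P _ => ?_)
    · rw [Finset.mem_filter, Finsupp.mem_support_iff]
      have hP' := Finset.mem_filter.1 hP
      refine ⟨?_, (hP'.2).smul _ (hI.mem σ hσI) (hI.red_eq σ hσI) (hgalE σ hσI).1
        (hgalE σ hσI).2⟩
      rw [apply_smul_of_smul_eq (hD σ hσ)]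
      exact Finsupp.mem_support_iff.1 hP'.1
    · exact apply_smul_of_smul_eq (hD σ hσ) P
  refine ⟨_, spec.1, hfix, spec.2.1, spec.2.2, fun P' hP' => ?_⟩
  rw [hord P' hP']
  split_ifs with hmem
  · rfl
  · by_contra hne
    exact hmem (Finset.mem_filter.2 ⟨Finsupp.mem_support_iff.2 (Ne.symm hne), hP'⟩)

/-- **(MOVE-Q) / (GEN) on a smooth disc, first component.**  For an `H`-stable divisor `D`
(`H` a set of inertia elements) and a non-node place `Qt` of the first component off the chart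
divisors: an `H`-fixed unit `g` of `O_∞` with `ord_P g = D P` on the whole disc of `Qt`. -/
theorem exists_fixed_generator_redInf (hI : Inertial h W (redPair h W))
    (S : Setup A (OPair h W) (redPair h W) π e₁ e₂ P₁ Z₁ P₂ Z₂ E1 E2 N₀)
    (hgalE : ∀ σ ∈ A.inertiaSubgroupIn ℚ,
      arithmeticGalois (modularFunctionFieldFull (M * q)) σ • E1 = E1 ∧
      arithmeticGalois (modularFunctionFieldFull (M * q)) σ • E2 = E2)
    (Qt : Place k (modularFunctionFieldFullC k M))
    (hQt : ∀ i, e₁ i ≠ Qt) (hQP : P₁ Qt = 0) (hQZ : Z₁ Qt = 0)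
    (H : Set (Qb ≃ₐ[ℚ] Qb)) (hH : ∀ σ ∈ H, σ ∈ A.inertiaSubgroupIn ℚ)
    (D : Divisor Qb (laurentBaseChange Qb (modularFunctionFieldFull (M * q))))
    (hD : ∀ σ ∈ H, arithmeticGalois (modularFunctionFieldFull (M * q)) σ • D = D) :
    ∃ g : laurentBaseChange Qb (modularFunctionFieldFull (M * q)), g ≠ 0 ∧
      (∀ σ ∈ H, arithmeticGalois (modularFunctionFieldFull (M * q)) σ • g = g) ∧
      g ∈ OInf h ∧ g⁻¹ ∈ OInf h ∧
      ∀ P : Place Qb (laurentBaseChange Qb (modularFunctionFieldFull (M * q))),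
        RedTo (redPair h W) E1 E2 N₀ Qt P → P.ord g = D P :=
  exists_fixed_generator_aux hI S (OInf h).toSubring
    (fun y hy => ((mem_OPair_iff h y).1 hy).1) (redInf h) (fun _ => rfl)
    (exists_pow_mul_mem_OPair_inf h W) (fun f hf hne => inv_mem_OInf h f hf hne)
    hgalE Qt hQt hQP hQZ H hH D hD

/-- **(MOVE-Q) / (GEN) on a smooth disc, second component.** -/
theorem exists_fixed_generator_redZero (hI : Inertial h W (redPair h W))
    (S : Setup A (OPair h W) (redPair h W) π e₁ e₂ P₁ Z₁ P₂ Z₂ E1 E2 N₀)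
    (hgalE : ∀ σ ∈ A.inertiaSubgroupIn ℚ,
      arithmeticGalois (modularFunctionFieldFull (M * q)) σ • E1 = E1 ∧
      arithmeticGalois (modularFunctionFieldFull (M * q)) σ • E2 = E2)
    (Qt : Place k (modularFunctionFieldFullC k M))
    (hQt : ∀ i, e₂ i ≠ Qt) (hQP : P₂ Qt = 0) (hQZ : Z₂ Qt = 0)
    (H : Set (Qb ≃ₐ[ℚ] Qb)) (hH : ∀ σ ∈ H, σ ∈ A.inertiaSubgroupIn ℚ)
    (D : Divisor Qb (laurentBaseChange Qb (modularFunctionFieldFull (M * q))))
    (hD : ∀ σ ∈ H, arithmeticGalois (modularFunctionFieldFull (M * q)) σ • D = D) :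
    ∃ g : laurentBaseChange Qb (modularFunctionFieldFull (M * q)), g ≠ 0 ∧
      (∀ σ ∈ H, arithmeticGalois (modularFunctionFieldFull (M * q)) σ • g = g) ∧
      g ∈ OZero h W ∧ g⁻¹ ∈ OZero h W ∧
      ∀ P : Place Qb (laurentBaseChange Qb (modularFunctionFieldFull (M * q))),
        RedTo (redSwap (redPair h W)) E1 E2 N₀ Qt P → P.ord g = D P :=
  exists_fixed_generator_aux hI.swap S.swap (OZero h W).toSubring
    (fun y hy => ((mem_OPair_iff h y).1 hy).2) (redZero h W) (fun _ => rfl)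
    (exists_pow_mul_mem_OPair_zero h W) (fun f hf hne => inv_mem_OZero h f hf hne)
    hgalE Qt hQt hQP hQZ H hH D hD

end Fermat.Agent.BAD.SmoothOrdMove
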